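/-
S35 / S34, multi-valuation Kummer core (helper1788).

The abstract Kummer core `Fermat.Agent.S18.helper1788.kummer_core` generalised from one valuation
to a finite family of valuations `v i` of the field `F` (application: the two Gauss valuations
`v_∞`, `v_0 = v_∞ ∘ W_q` of the function field of `X₀(M)` at a prime `q ∥ M`).  The twist is
carried by weights `w i = v i a₀` of a reference section `a₀`: the norm of a section `c` is
`max_i (v i c / w i)`, written multiplicatively as `∀ i, v i c ≤ r * w i`.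

Families of `L`-subspaces `M1 k`, `M2 k`, `M12 k`, `P k`, `Q k` of `F` as in the one-valuation
core (think of `M1 k = L(D₀ + k X_∞)`, `M2 k = L(D₀ + k X_0)`, `M12 k = L(D₀ + k X_∞ + k X_0)`,
`P k = L(k X_∞)`, `Q k = L(k X_0)`, `m D₀ = div u`).

Proof: Newton iteration `a ↦ a (1 - (a ^ m u - 1) / m)` in both charts (the same iteration works
for all valuations at once), reduction to the fixed level `k₀`, and boundedness of a linear left
inverse of `(a, b) ↦ a - b` at level `k₀`.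
-/
import Mathlib
import Fermat.Agent.S18.helper1788_KummerCore

set_option autoImplicit false

namespace Fermat.Agent.S35.helper1788

open Fermat.Agent.S18.helper1788

section Core

variable {L F Γ₀ : Type*} [Field L] [Field F] [Algebra L F] [LinearOrderedCommGroupWithZero Γ₀]

/-- Multi-valuation Kummer core, contradiction form. -/
theorem kummer_multi_false
    {ι : Type*} [Finite ι] [Nonempty ι] (v : ι → Valuation F Γ₀)
    (harch : ∀ ε κ : Γ₀, ε < 1 → κ ≠ 0 → ∃ n : ℕ, ε ^ n < κ)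
    (m : ℕ) (hm : ∀ i, v i (m : F) = 1) (u : F)
    (M1 M2 M12 P Q : ℕ → Submodule L F)
    (hM1 : ∀ k, M1 k ≤ M12 k) (hM2 : ∀ k, M2 k ≤ M12 k)
    (hP1 : ∀ k, (1 : F) ∈ P k) (hQ1 : ∀ k, (1 : F) ∈ Q k)
    (hP : ∀ k, ∀ a ∈ M1 k, a ^ m * u ∈ P (m * k))
    (hQ : ∀ k, ∀ b ∈ M2 k, b ^ m * u ∈ Q (m * k))
    (hPM : ∀ j k, ∀ s ∈ P j, ∀ a ∈ M1 k, s * a ∈ M1 (j + k))
    (hQM : ∀ j k, ∀ s ∈ Q j, ∀ b ∈ M2 k, s * b ∈ M2 (j + k))
    (k₀ : ℕ)
    (hsep : ∀ k, k₀ ≤ k → ∀ a ∈ M1 k, ∀ b ∈ M2 k, a - b ∈ M12 k₀ → a ∈ M1 k₀ ∧ b ∈ M2 k₀)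
    (w : ι → Γ₀)
    (hsurj : ∀ k, k₀ ≤ k → ∀ c ∈ M12 k, ∀ r : Γ₀, (∀ i, v i c ≤ r * w i) →
      ∃ c₀ ∈ M12 k₀, ∃ a₁ ∈ M1 k, ∃ b₁ ∈ M2 k, c = c₀ + a₁ - b₁ ∧
        (∀ i, v i a₁ ≤ r * w i) ∧ (∀ i, v i b₁ ≤ r * w i) ∧ (∀ i, v i c₀ ≤ r * w i))
    (hbound : ∃ κ : Γ₀, κ ≠ 0 ∧ ∀ a ∈ M1 k₀, ∀ b ∈ M2 k₀, ∀ r : Γ₀,
      (∀ i, v i (a - b) ≤ r * w i) → ∀ i, κ * v i a ≤ r * w i)
    (a₀ b₀ : F) (ha₀ : a₀ ∈ M1 k₀) (hb₀ : b₀ ∈ M2 k₀) (hva₀ : ∀ i, v i a₀ = w i)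
    (hab₀ : ∀ i, v i (a₀ - b₀) < w i) (hsa₀ : ∀ i, v i (a₀ ^ m * u - 1) < 1)
    (hsb₀ : ∀ i, v i (b₀ ^ m * u - 1) < 1) :
    False := by
  obtain ⟨κ, hκ0, hκ⟩ := hbound
  obtain ⟨i₁⟩ := ‹Nonempty ι›
  have hm0 : (m : F) ≠ 0 := by
    intro h
    have := hm i₁
    rw [h, map_zero] at this
    exact zero_ne_one this
  -- the weights are nonzero
  have hw : ∀ i, w i ≠ 0 := by
    intro i h
    have h1 := hab₀ i
    rw [h] at h1
    exact not_lt_zero h1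
  have hwpos : ∀ i, 0 < w i := fun i => zero_lt_iff.mpr (hw i)
  -- a uniform bound for the initial errors
  obtain ⟨i₀, hi₀⟩ := Finite.exists_max
    (fun i : ι => max (v i (a₀ ^ m * u - 1)) (v i (b₀ ^ m * u - 1)))
  set ε : Γ₀ := max (v i₀ (a₀ ^ m * u - 1)) (v i₀ (b₀ ^ m * u - 1)) with hε
  have hε1 : ε < 1 := max_lt (hsa₀ i₀) (hsb₀ i₀)
  have hεa : ∀ i, v i (a₀ ^ m * u - 1) ≤ ε := fun i => le_trans (le_max_left _ _) (hi₀ i)
  have hεb : ∀ i, v i (b₀ ^ m * u - 1) ≤ ε := fun i => le_trans (le_max_right _ _) (hi₀ i)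
  have hpow1 : ∀ j : ℕ, ε ^ (2 ^ j) < 1 := fun j =>
    pow_lt_one' hε1 (pow_ne_zero j two_ne_zero)
  -- membership of the Newton factor
  have hfacP : ∀ k, ∀ a ∈ M1 k, 1 - (m : F)⁻¹ * (a ^ m * u - 1) ∈ P (m * k) := by
    intro k a ha
    have h1 : a ^ m * u - 1 ∈ P (m * k) := sub_mem (hP k a ha) (hP1 _)
    have h2 : (m : F)⁻¹ * (a ^ m * u - 1) = ((m : L)⁻¹) • (a ^ m * u - 1) := by
      rw [Algebra.smul_def, map_inv₀, map_natCast]
    rw [h2]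
    exact sub_mem (hP1 _) (Submodule.smul_mem _ _ h1)
  have hfacQ : ∀ k, ∀ b ∈ M2 k, 1 - (m : F)⁻¹ * (b ^ m * u - 1) ∈ Q (m * k) := by
    intro k b hb
    have h1 : b ^ m * u - 1 ∈ Q (m * k) := sub_mem (hQ k b hb) (hQ1 _)
    have h2 : (m : F)⁻¹ * (b ^ m * u - 1) = ((m : L)⁻¹) • (b ^ m * u - 1) := by
      rw [Algebra.smul_def, map_inv₀, map_natCast]
    rw [h2]
    exact sub_mem (hQ1 _) (Submodule.smul_mem _ _ h1)
  -- the Newton iteration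
  have key : ∀ j : ℕ, ∃ (k : ℕ) (a b : F), k₀ ≤ k ∧ a ∈ M1 k ∧ b ∈ M2 k ∧
      (∀ i, v i a = w i) ∧ (∀ i, v i b = w i) ∧ (∀ i, v i (a - b) < w i) ∧
      (∀ i, v i (a ^ m * u - 1) ≤ ε ^ (2 ^ j)) ∧ (∀ i, v i (b ^ m * u - 1) ≤ ε ^ (2 ^ j)) := by
    intro j
    induction j with
    | zero =>
      refine ⟨k₀, a₀, b₀, le_rfl, ha₀, hb₀, hva₀, fun i => ?_, hab₀, fun i => ?_, fun i => ?_⟩
      · have h : v i (a₀ - b₀) < v i a₀ := by rw [hva₀]; exact hab₀ i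
        have h2 := (v i).map_sub_eq_of_lt_left h
        rw [sub_sub_cancel] at h2
        rw [h2, hva₀]
      · rw [pow_zero, pow_one]; exact hεa i
      · rw [pow_zero, pow_one]; exact hεb i
    | succ j ih =>
      obtain ⟨k, a, b, hk, ha, hb, hva, hvb, hab, hsa, hsb⟩ := ih
      have hsa1 : ∀ i, v i (a ^ m * u - 1) < 1 := fun i => lt_of_le_of_lt (hsa i) (hpow1 j)
      have hsb1 : ∀ i, v i (b ^ m * u - 1) < 1 := fun i => lt_of_le_of_lt (hsb i) (hpow1 j)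
      set ta := 1 - (m : F)⁻¹ * (a ^ m * u - 1) with hta
      set tb := 1 - (m : F)⁻¹ * (b ^ m * u - 1) with htb
      have hvσa : ∀ i, v i ((m : F)⁻¹ * (a ^ m * u - 1)) < 1 := by
        intro i
        rw [map_mul, map_inv₀, hm, inv_one, one_mul]; exact hsa1 i
      have hvσb : ∀ i, v i ((m : F)⁻¹ * (b ^ m * u - 1)) < 1 := by
        intro i
        rw [map_mul, map_inv₀, hm, inv_one, one_mul]; exact hsb1 i
      have hvta : ∀ i, v i ta = 1 := fun i => (v i).map_one_sub_of_lt (hvσa i)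
      have hvtb : ∀ i, v i tb = 1 := fun i => (v i).map_one_sub_of_lt (hvσb i)
      have hpowsucc : ε ^ (2 ^ (j + 1)) = ε ^ (2 ^ j) * ε ^ (2 ^ j) := by
        rw [← pow_add, pow_succ, mul_two]
      refine ⟨m * k + k, ta * a, tb * b, le_trans hk (Nat.le_add_left _ _),
        hPM _ _ _ (hfacP k a ha) a ha, hQM _ _ _ (hfacQ k b hb) b hb,
        fun i => ?_, fun i => ?_, fun i => ?_, fun i => ?_, fun i => ?_⟩
      · rw [map_mul, hvta, hva, one_mul]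
      · rw [map_mul, hvtb, hvb, one_mul]
      · have h1 : ta * a - tb * b = ta * (a - b) + (ta - tb) * b := by ring
        rw [h1]
        refine (v i).map_add_lt ?_ ?_
        · rw [map_mul, hvta, one_mul]; exact hab i
        · rw [map_mul, hvb]
          have h2 : ta - tb = (m : F)⁻¹ * (b ^ m * u - 1) - (m : F)⁻¹ * (a ^ m * u - 1) := by
            rw [hta, htb]; ring
          rw [h2]
          have h3 : v i ((m : F)⁻¹ * (b ^ m * u - 1) - (m : F)⁻¹ * (a ^ m * u - 1)) < 1 :=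
            (v i).map_sub_lt (hvσb i) (hvσa i)
          calc v i ((m : F)⁻¹ * (b ^ m * u - 1) - (m : F)⁻¹ * (a ^ m * u - 1)) * w i
              < 1 * w i := mul_lt_mul_of_pos_right h3 (hwpos i)
            _ = w i := one_mul _
      · refine le_trans (val_newton_step (v i) (hm i) a u (hsa1 i)) ?_
        rw [hpowsucc, sq]
        exact mul_le_mul' (hsa i) (hsa i)
      · refine le_trans (val_newton_step (v i) (hm i) b u (hsb1 i)) ?_
        rw [hpowsucc, sq]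
        exact mul_le_mul' (hsb i) (hsb i)
  -- choose the step
  obtain ⟨n, hn⟩ := harch ε κ hε1 hκ0
  obtain ⟨k, a, b, hk, ha, hb, hva, hvb, hab, hsa, hsb⟩ := key n
  have hEκ : ε ^ (2 ^ n) < κ := by
    refine lt_of_le_of_lt ?_ hn
    exact pow_le_pow_right_of_le_one' hε1.le (Nat.lt_two_pow_self).le
  -- closeness of `a` and `b`
  have hb0 : b ≠ 0 := by
    intro h
    have := hvb i₁
    rw [h, map_zero] at this
    exact hw i₁ this.symm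
  have hclose : ∀ i, v i (a - b) ≤ ε ^ (2 ^ n) * w i := by
    intro i
    set z := (a - b) / b with hz
    have hvz : v i z * w i = v i (a - b) := by
      rw [hz, map_div₀, hvb, div_mul_cancel₀ _ (hw i)]
    have hvz1 : v i z < 1 := by
      rw [hz, map_div₀, hvb, div_lt_one₀ (hwpos i)]
      exact hab i
    have hab' : a = b * (1 + z) := by
      rw [hz, mul_add, mul_one, mul_div_cancel₀ _ hb0]; ring
    have hbu : v i (b ^ m * u) = 1 := by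
      have h1 : b ^ m * u = 1 + (b ^ m * u - 1) := by ring
      rw [h1]
      exact (v i).map_one_add_of_lt (lt_of_le_of_lt (hsb i) (hpow1 n))
    have h2 : a ^ m * u - b ^ m * u = b ^ m * u * ((1 + z) ^ m - 1) := by
      rw [hab', mul_pow]; ring
    have h3 : v i (a ^ m * u - b ^ m * u) = v i z := by
      rw [h2, map_mul, hbu, one_mul, val_one_add_pow_sub_one (v i) hvz1 (hm i)]
    have h4 : a ^ m * u - b ^ m * u = (a ^ m * u - 1) - (b ^ m * u - 1) := by ring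
    have h5 : v i z ≤ ε ^ (2 ^ n) := by
      rw [← h3, h4]
      exact (v i).map_sub_le (hsa i) (hsb i)
    rw [← hvz]
    exact mul_le_mul' h5 le_rfl
  -- reduction to level `k₀`
  obtain ⟨c₀, hc₀, a₁, ha₁, b₁, hb₁, hc, hva₁, hvb₁, hvc₀⟩ :=
    hsurj k hk (a - b) (sub_mem (hM1 k ha) (hM2 k hb)) (ε ^ (2 ^ n)) hclose
  have hdiff : (a - a₁) - (b - b₁) = c₀ := by
    have : (a - a₁) - (b - b₁) = (a - b) - (a₁ - b₁) := by ring
    rw [this, hc]; ring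
  obtain ⟨ha', hb'⟩ := hsep k hk (a - a₁) (sub_mem ha ha₁) (b - b₁) (sub_mem hb hb₁)
    (by rw [hdiff]; exact hc₀)
  have hva' : v i₁ (a - a₁) = w i₁ := by
    have h : v i₁ a₁ < v i₁ a := by
      rw [hva]
      calc v i₁ a₁ ≤ ε ^ (2 ^ n) * w i₁ := hva₁ i₁
        _ < 1 * w i₁ := mul_lt_mul_of_pos_right (hpow1 n) (hwpos i₁)
        _ = w i₁ := one_mul _
    rw [(v i₁).map_sub_eq_of_lt_left h, hva]
  have hfin := hκ (a - a₁) ha' (b - b₁) hb' (ε ^ (2 ^ n)) (by rw [hdiff]; exact hvc₀) i₁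
  rw [hva'] at hfin
  have hfin' : κ ≤ ε ^ (2 ^ n) := le_of_mul_le_mul_right hfin (hwpos i₁)
  exact absurd (lt_of_le_of_lt hfin' hEκ) (lt_irrefl κ)

/-- Boundedness at the fixed level for the weighted sup-norm: if `M12` has a basis which is
orthonormal for the norm `max_i (v i · / w i)` and `M1 ∩ M2 = 0`, then `(a, b) ↦ a - b` is
bounded below on `M1 × M2`. -/
theorem exists_bound_of_orthonormal_multi
    {ι : Type*} [Finite ι] (v : ι → Valuation F Γ₀) (w : ι → Γ₀) (hw : ∀ i, w i ≠ 0)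
    (M1 M2 M12 : Submodule L F) (hM1 : M1 ≤ M12) (hM2 : M2 ≤ M12)
    (hinf : ∀ f : F, f ∈ M1 → f ∈ M2 → f = 0)
    {τ : Type*} [Finite τ] (bas : Module.Basis τ L M12)
    (horth : ∀ (x : M12) (r : Γ₀), (∀ i, v i (x : F) ≤ r * w i) →
      ∀ (t : τ) (i : ι), v i (algebraMap L F (bas.repr x t)) ≤ r) :
    ∃ κ : Γ₀, κ ≠ 0 ∧ ∀ a ∈ M1, ∀ b ∈ M2, ∀ r : Γ₀,
      (∀ i, v i (a - b) ≤ r * w i) → ∀ i, κ * v i a ≤ r * w i := by
  classical
  cases nonempty_fintype τ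
  -- the difference map
  let φ : (M1 × M2) →ₗ[L] M12 :=
    ((Submodule.inclusion hM1).comp (LinearMap.fst L M1 M2)) -
      ((Submodule.inclusion hM2).comp (LinearMap.snd L M1 M2))
  have hφ : ∀ x : M1 × M2, ((φ x : M12) : F) = (x.1 : F) - (x.2 : F) := fun x => rfl
  have hker : LinearMap.ker φ = ⊥ := by
    rw [LinearMap.ker_eq_bot']
    rintro ⟨⟨a, ha⟩, ⟨b, hb⟩⟩ h
    have h1 : a - b = 0 := by
      have := congrArg (fun y : M12 => (y : F)) h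
      simpa [hφ] using this
    have hab : a = b := sub_eq_zero.mp h1
    have ha0 : a = 0 := hinf a ha (hab ▸ hb)
    have hb0 : b = 0 := hab ▸ ha0
    subst ha0; subst hb0
    rfl
  obtain ⟨ψ, hψ⟩ := LinearMap.exists_leftInverse_of_injective φ hker
  -- a bound for the images of the basis, relative to the weights
  obtain ⟨C, hC⟩ := (Set.finite_range
    fun p : τ × ι => v p.2 (((ψ (bas p.1)).1 : M1) : F) / w p.2).bddAbove
  have hC' : ∀ t i, v i (((ψ (bas t)).1 : M1) : F) ≤ max C 1 * w i := by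
    intro t i
    have h1 : v i (((ψ (bas t)).1 : M1) : F) / w i ≤ max C 1 :=
      le_trans (hC (Set.mem_range_self (t, i))) (le_max_left _ _)
    rwa [div_le_iff₀ (zero_lt_iff.mpr (hw i))] at h1
  have hC0 : max C 1 ≠ 0 := (lt_of_lt_of_le zero_lt_one (le_max_right C 1)).ne'
  refine ⟨(max C 1)⁻¹, inv_ne_zero hC0, fun a ha b hb r hr i => ?_⟩
  rw [inv_mul_le_iff₀ (zero_lt_iff.mpr hC0)]
  set x : M12 := φ (⟨a, ha⟩, ⟨b, hb⟩) with hx
  have hxF : (x : F) = a - b := rfl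
  have hψx : ψ x = (⟨a, ha⟩, ⟨b, hb⟩) := by
    have := congrArg (fun f : (M1 × M2) →ₗ[L] (M1 × M2) => f (⟨a, ha⟩, ⟨b, hb⟩)) hψ
    simpa using this
  have hsum : (a : F) = ∑ t, bas.repr x t • ((((ψ (bas t)).1 : M1)) : F) := by
    have h1 : ψ x = ∑ t, bas.repr x t • ψ (bas t) := by
      conv_lhs => rw [← bas.sum_repr x]
      rw [map_sum]
      simp
    have h2 : ((ψ x).1 : M1) = ∑ t, bas.repr x t • (ψ (bas t)).1 := by
      rw [h1]
      simp [Prod.fst_sum]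
    have h3 : (((ψ x).1 : M1) : F) = ∑ t, bas.repr x t • ((((ψ (bas t)).1 : M1)) : F) := by
      rw [h2]
      simp
    rw [← h3, hψx]
  have hcoord := horth x r (by rw [hxF]; exact hr)
  conv_lhs => rw [hsum]
  refine (v i).map_sum_le fun t _ => ?_
  rw [Algebra.smul_def, map_mul]
  calc v i (algebraMap L F (bas.repr x t)) * v i (((ψ (bas t)).1 : M1) : F)
      ≤ r * (max C 1 * w i) := mul_le_mul' (hcoord t i) (hC' t i)
    _ = max C 1 * (r * w i) := by rw [mul_left_comm]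

/-- **Multi-valuation Kummer core.** -/
theorem kummer_multi
    {ι : Type*} [Finite ι] [Nonempty ι] (v : ι → Valuation F Γ₀)
    (harch : ∀ ε κ : Γ₀, ε < 1 → κ ≠ 0 → ∃ n : ℕ, ε ^ n < κ)
    (m : ℕ) (hm : ∀ i, v i (m : F) = 1) (u : F)
    (M1 M2 M12 P Q : ℕ → Submodule L F)
    (hM1 : ∀ k, M1 k ≤ M12 k) (hM2 : ∀ k, M2 k ≤ M12 k)
    (hP1 : ∀ k, (1 : F) ∈ P k) (hQ1 : ∀ k, (1 : F) ∈ Q k)
    (hP : ∀ k, ∀ a ∈ M1 k, a ^ m * u ∈ P (m * k))
    (hQ : ∀ k, ∀ b ∈ M2 k, b ^ m * u ∈ Q (m * k))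
    (hPM : ∀ j k, ∀ s ∈ P j, ∀ a ∈ M1 k, s * a ∈ M1 (j + k))
    (hQM : ∀ j k, ∀ s ∈ Q j, ∀ b ∈ M2 k, s * b ∈ M2 (j + k))
    (k₀ : ℕ)
    (hsep : ∀ k, k₀ ≤ k → ∀ a ∈ M1 k, ∀ b ∈ M2 k, a - b ∈ M12 k₀ → a ∈ M1 k₀ ∧ b ∈ M2 k₀)
    (w : ι → Γ₀)
    (hsurj : ∀ k, k₀ ≤ k → ∀ c ∈ M12 k, ∀ r : Γ₀, (∀ i, v i c ≤ r * w i) →
      ∃ c₀ ∈ M12 k₀, ∃ a₁ ∈ M1 k, ∃ b₁ ∈ M2 k, c = c₀ + a₁ - b₁ ∧
        (∀ i, v i a₁ ≤ r * w i) ∧ (∀ i, v i b₁ ≤ r * w i) ∧ (∀ i, v i c₀ ≤ r * w i))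
    {τ : Type*} [Finite τ] (bas : Module.Basis τ L (M12 k₀))
    (horth : ∀ (x : M12 k₀) (r : Γ₀), (∀ i, v i (x : F) ≤ r * w i) →
      ∀ (t : τ) (i : ι), v i (algebraMap L F (bas.repr x t)) ≤ r)
    (a₀ b₀ : F) (ha₀ : a₀ ∈ M1 k₀) (hb₀ : b₀ ∈ M2 k₀) (hva₀ : ∀ i, v i a₀ = w i)
    (hab₀ : ∀ i, v i (a₀ - b₀) < w i) (hsa₀ : ∀ i, v i (a₀ ^ m * u - 1) < 1)
    (hsb₀ : ∀ i, v i (b₀ ^ m * u - 1) < 1) :
    ∃ f : F, f ≠ 0 ∧ f ∈ M1 k₀ ∧ f ∈ M2 k₀ := by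
  by_contra hcon
  have hinf : ∀ f : F, f ∈ M1 k₀ → f ∈ M2 k₀ → f = 0 := by
    intro f h1 h2
    by_contra hf
    exact hcon ⟨f, hf, h1, h2⟩
  have hw : ∀ i, w i ≠ 0 := by
    intro i h
    have h1 := hab₀ i
    rw [h] at h1
    exact not_lt_zero h1
  exact kummer_multi_false v harch m hm u M1 M2 M12 P Q hM1 hM2 hP1 hQ1 hP hQ hPM hQM k₀ hsep w
    hsurj
    (exists_bound_of_orthonormal_multi v w hw (M1 k₀) (M2 k₀) (M12 k₀) (hM1 k₀) (hM2 k₀) hinf bas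
      horth)
    a₀ b₀ ha₀ hb₀ hva₀ hab₀ hsa₀ hsb₀

end Core

end Fermat.Agent.S35.helper1788
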