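/-
S35/S34-KC2-SF (helper2459): SPECIAL-FIBRE SUPPLY for the multi-valuation Kummer core
`Fermat.Agent.S35.helper1788.kummer_multi` (step (2)(d) of route #2739; brick (UNI) of S34).

This is the landed one-valuation S18 file `Fermat.Agent.S18.helper5859_KummerSF`
(`RedData`, `Cartesian`, `squeeze`, `exists_decomp`, `exists_seeds`,
`kummer_core_special_fibre`) generalised to

* a finite nonempty family `v : ι → Valuation F Γ₀` (application: `ι = Fin 2` or `Bool`, the two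
  Gauss valuations `v_∞` and `v_0 = v_∞ ∘ W_q` of the function field of `X₀(qM)` above `q`),
* weights `w : ι → Γ₀` (the section ball is `{a | ∀ i, v i a ≤ w i}`, the function ball is
  `{s | ∀ i, v i s ≤ 1}`; in the application `w i = v i (f i)` carries the twist by `f`),
* a function reduction `red : F → Fk` (a ring homomorphism on the function ball, `Fk` any
  `kk`-algebra: `κ_∞ × κ_0` in the application) and a section reduction `redM : F → Fk`
  (additive on the section ball, `redM (s * a) = red s * redM a`, kernel the open section ball).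

Main results
* `RedDataW`, `CartesianW`, `squeezeW`, `exists_decompW`, `exists_seedsW` : special-fibre supply.
* `kummer_core_special_fibreW` : the multi-valuation core with all special-fibre inputs expressed
  on the special fibre; the generic-fibre hypotheses are those of `helper1788.kummer_core`
  verbatim (so the Riemann-Roch instance `helper4226_KummerInst` carries over).
* `CartesianW.of_family` : cartesian subspaces from ONE global orthonormal family (adapter to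
  `helper9056.exists_orthonormal_basis`).
* `RedDataW.of_pi`, `RedDataW.of_pi_pow` : `RedDataW` and the power relation from one reduction
  `ρ i` per valuation and twists `f i`.
* `le_finrank_of_cartesianW`, `le_sup_of_finrank_count`, `kummer_core_gluedW` : the core for a
  GLUED (nodal) special fibre: ambient spaces `S • k` of the normalisation, one glueing subspace
  `G`, and dimension counts only.
-/
import Mathlib
import Fermat.Agent.S35.helper1788_KummerMulti
import Fermat.Agent.S18.helper9056_Cartesian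

set_option autoImplicit false

namespace Fermat.Agent.S35.helper2459

open Submodule

section Order

variable {Γ₀ : Type*} [LinearOrderedCommGroupWithZero Γ₀]

/-- A finite family of elements `< 1` is uniformly bounded by some `ε < 1`. -/
theorem exists_lt_one_bound {ι : Type*} [Finite ι] (f : ι → Γ₀) (hf : ∀ i, f i < 1) :
    ∃ ε : Γ₀, ε < 1 ∧ ∀ i, f i ≤ ε := by
  rcases isEmpty_or_nonempty ι with h | h
  · exact ⟨0, zero_lt_one, fun i => (IsEmpty.false i).elim⟩
  · obtain ⟨i₀, hi₀⟩ := Finite.exists_max f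
    exact ⟨f i₀, hf i₀, hi₀⟩

/-- Weighted form: `f i < w i` for all `i` gives a radius `r < 1` with `f i ≤ r * w i`. -/
theorem exists_lt_one_radius {ι : Type*} [Finite ι] (f w : ι → Γ₀) (hf : ∀ i, f i < w i) :
    ∃ r : Γ₀, r < 1 ∧ ∀ i, f i ≤ r * w i := by
  have hw : ∀ i, 0 < w i := fun i => lt_of_le_of_lt zero_le (hf i)
  obtain ⟨r, hr, h⟩ := exists_lt_one_bound (fun i => f i / w i)
    (fun i => (div_lt_one₀ (hw i)).mpr (hf i))
  exact ⟨r, hr, fun i => (div_le_iff₀ (hw i)).mp (h i)⟩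

end Order

section SpecialFibre

variable {L F Γ₀ : Type*} [Field L] [Field F] [Algebra L F] [LinearOrderedCommGroupWithZero Γ₀]
variable {ι : Type*}

/-- **Reduction data for a family of valuations with weights.**
`vL` is the common restriction of the `v i` to the constant field `L`; `red` is a ring
homomorphism on the function ball `{s | ∀ i, v i s ≤ 1}` with kernel the open ball, onto a
`kk`-algebra `Fk`; `redM` is additive on the section ball `{a | ∀ i, v i a ≤ w i}`, semilinear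
over `red`, with kernel the open section ball. -/
structure RedDataW (v : ι → Valuation F Γ₀) (w : ι → Γ₀) (vL : Valuation L Γ₀)
    (kk : Type*) [Field kk] {Fk : Type*} [CommRing Fk] [Algebra kk Fk] (red redM : F → Fk) :
    Prop where
  val_algebraMap : ∀ (i : ι) (c : L), v i (algebraMap L F c) = vL c
  weight_ne_zero : ∀ i, w i ≠ 0
  map_add : ∀ a b : F, (∀ i, v i a ≤ 1) → (∀ i, v i b ≤ 1) → red (a + b) = red a + red b
  map_mul : ∀ a b : F, (∀ i, v i a ≤ 1) → (∀ i, v i b ≤ 1) → red (a * b) = red a * red b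
  map_one : red 1 = 1
  eq_zero_iff : ∀ a : F, (∀ i, v i a ≤ 1) → (red a = 0 ↔ ∀ i, v i a < 1)
  exists_const : ∀ κ : kk, ∃ c : L, vL c ≤ 1 ∧ red (algebraMap L F c) = algebraMap kk Fk κ
  mapM_add : ∀ a b : F, (∀ i, v i a ≤ w i) → (∀ i, v i b ≤ w i) →
    redM (a + b) = redM a + redM b
  mapM_mul : ∀ s a : F, (∀ i, v i s ≤ 1) → (∀ i, v i a ≤ w i) → redM (s * a) = red s * redM a
  eqM_zero_iff : ∀ a : F, (∀ i, v i a ≤ w i) → (redM a = 0 ↔ ∀ i, v i a < w i)

/-- An `L`-subspace of `F` is cartesian for the weighted max-norm if it is spanned by a finite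
orthonormal family: a combination has norm `≤ r` only if all its coefficients have. -/
def CartesianW (v : ι → Valuation F Γ₀) (w : ι → Γ₀) (vL : Valuation L Γ₀)
    (M : Submodule L F) : Prop :=
  ∃ (n : ℕ) (e : Fin n → F), (∀ j, e j ∈ M) ∧ (∀ j i, v i (e j) ≤ w i) ∧
    (∀ (c : Fin n → L) (r : Γ₀), (∀ i, v i (∑ j, c j • e j) ≤ r * w i) → ∀ j, vL (c j) ≤ r) ∧
    Submodule.span L (Set.range e) = M

variable {v : ι → Valuation F Γ₀} {w : ι → Γ₀} {vL : Valuation L Γ₀} {kk : Type*} [Field kk]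
  {Fk : Type*} [CommRing Fk] [Algebra kk Fk] {red redM : F → Fk}

namespace RedDataW

variable (h : RedDataW v w vL kk red redM)
include h

theorem weight_pos (i : ι) : 0 < w i := zero_lt_iff.mpr (h.weight_ne_zero i)

theorem val_smul (i : ι) (c : L) (a : F) : v i (c • a) = vL c * v i a := by
  rw [Algebra.smul_def, _root_.map_mul, h.val_algebraMap]

theorem map_zero : red 0 = 0 :=
  (h.eq_zero_iff 0 (fun i => by simp)).mpr (fun i => by simp)

theorem map_neg (a : F) (ha : ∀ i, v i a ≤ 1) : red (-a) = -red a := by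
  have h1 := h.map_add a (-a) ha (fun i => by rw [Valuation.map_neg]; exact ha i)
  rw [add_neg_cancel, h.map_zero] at h1
  exact eq_neg_of_add_eq_zero_right h1.symm

theorem map_sub (a b : F) (ha : ∀ i, v i a ≤ 1) (hb : ∀ i, v i b ≤ 1) :
    red (a - b) = red a - red b := by
  rw [sub_eq_add_neg, h.map_add a (-b) ha (fun i => by rw [Valuation.map_neg]; exact hb i),
    h.map_neg b hb, ← sub_eq_add_neg]

theorem mapM_zero : redM 0 = 0 :=
  (h.eqM_zero_iff 0 (fun i => by simp)).mpr (fun i => by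
    rw [_root_.map_zero]; exact h.weight_pos i)

theorem mapM_neg (a : F) (ha : ∀ i, v i a ≤ w i) : redM (-a) = -redM a := by
  have h1 := h.mapM_add a (-a) ha (fun i => by rw [Valuation.map_neg]; exact ha i)
  rw [add_neg_cancel, h.mapM_zero] at h1
  exact eq_neg_of_add_eq_zero_right h1.symm

theorem mapM_sub (a b : F) (ha : ∀ i, v i a ≤ w i) (hb : ∀ i, v i b ≤ w i) :
    redM (a - b) = redM a - redM b := by
  rw [sub_eq_add_neg, h.mapM_add a (-b) ha (fun i => by rw [Valuation.map_neg]; exact hb i),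
    h.mapM_neg b hb, ← sub_eq_add_neg]

theorem mapM_sum {κι : Type*} (s : Finset κι) (f : κι → F) (hf : ∀ j ∈ s, ∀ i, v i (f j) ≤ w i) :
    redM (∑ j ∈ s, f j) = ∑ j ∈ s, redM (f j) := by
  classical
  induction s using Finset.induction_on with
  | empty => simpa using h.mapM_zero
  | insert a s ha ih =>
    rw [Finset.sum_insert ha, Finset.sum_insert ha,
      h.mapM_add _ _ (hf a (Finset.mem_insert_self a s))
        (fun i => (v i).map_sum_le fun j hj => hf j (Finset.mem_insert_of_mem hj) i),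
      ih fun j hj => hf j (Finset.mem_insert_of_mem hj)]

theorem nontrivial [Nonempty ι] : Nontrivial Fk := by
  obtain ⟨i⟩ := ‹Nonempty ι›
  refine ⟨⟨1, 0, fun h10 => ?_⟩⟩
  have h1 := (h.eq_zero_iff 1 (fun i => le_of_eq (v i).map_one)).mp (by rw [h.map_one, h10]) i
  rw [(v i).map_one] at h1
  exact lt_irrefl _ h1

theorem mapM_smul (c : L) (hc : vL c ≤ 1) (a : F) (ha : ∀ i, v i a ≤ w i) :
    redM (c • a) = red (algebraMap L F c) * redM a := by
  rw [Algebra.smul_def]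
  exact h.mapM_mul _ _ (fun i => by rw [h.val_algebraMap]; exact hc) ha

theorem smul_mem_ball (c : L) (hc : vL c ≤ 1) (a : F) (ha : ∀ i, v i a ≤ w i) (i : ι) :
    v i (c • a) ≤ w i := by
  rw [h.val_smul]
  exact mul_le_of_le_one_of_le hc (ha i)

end RedDataW

theorem linearIndependent_of_orthoW {n : ℕ} {e : Fin n → F}
    (horth : ∀ (c : Fin n → L) (r : Γ₀), (∀ i, v i (∑ j, c j • e j) ≤ r * w i) →
      ∀ j, vL (c j) ≤ r) :
    LinearIndependent L e := by
  rw [Fintype.linearIndependent_iff]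
  intro g hg j
  have h1 := horth g 0 (fun i => by rw [hg, _root_.map_zero, zero_mul]) j
  rw [le_zero_iff, _root_.map_eq_zero] at h1
  exact h1

/-- **Squeeze.** If the unit ball of a cartesian `L`-subspace `M` of `F` reduces into a
`kk`-subspace `N` of `Fk` of dimension at most `dim_L M`, then it reduces ONTO `N`. -/
theorem squeezeW [Finite ι] [Nonempty ι] (h : RedDataW v w vL kk red redM)
    {M : Submodule L F} (hM : CartesianW v w vL M)
    (N : Submodule kk Fk) [Module.Finite kk N]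
    (hcont : ∀ a ∈ M, (∀ i, v i a ≤ w i) → redM a ∈ N)
    (hdim : Module.finrank kk N ≤ Module.finrank L M) :
    ∀ y ∈ N, ∃ a ∈ M, (∀ i, v i a ≤ w i) ∧ redM a = y := by
  classical
  obtain ⟨n, e, heM, he1, horth, hspan⟩ := hM
  have := h.nontrivial
  have hli : LinearIndependent L e := linearIndependent_of_orthoW horth
  have hfr : Module.finrank L M = n := by
    rw [← hspan, finrank_span_eq_card hli, Fintype.card_fin]
  have hball : ∀ c : Fin n → L, (∀ j, vL (c j) ≤ 1) → ∀ i, v i (∑ j, c j • e j) ≤ w i :=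
    fun c hc i => (v i).map_sum_le fun j _ => h.smul_mem_ball (c j) (hc j) (e j) (he1 j) i
  -- reduction of a combination with integral coefficients
  have hredsum : ∀ c : Fin n → L, (∀ j, vL (c j) ≤ 1) →
      redM (∑ j, c j • e j) = ∑ j, red (algebraMap L F (c j)) * redM (e j) := by
    intro c hc
    rw [h.mapM_sum]
    · exact Finset.sum_congr rfl fun j _ => h.mapM_smul (c j) (hc j) (e j) (he1 j)
    · intro j _
      exact h.smul_mem_ball (c j) (hc j) (e j) (he1 j)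
  set eb : Fin n → N := fun j => ⟨redM (e j), hcont (e j) (heM j) (he1 j)⟩ with heb
  have hlib : LinearIndependent kk eb := by
    rw [Fintype.linearIndependent_iff]
    intro g hg j
    choose c hc1 hc2 using fun j => h.exists_const (g j)
    have h0 : redM (∑ j, c j • e j) = 0 := by
      rw [hredsum c hc1]
      have h2 := congrArg (Subtype.val : N → Fk) hg
      rw [Submodule.coe_sum] at h2
      simp only [Submodule.coe_smul, heb, Submodule.coe_zero] at h2
      rw [← h2]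
      exact Finset.sum_congr rfl fun j _ => by rw [hc2 j, Algebra.smul_def]
    have hlt := (h.eqM_zero_iff _ (hball c hc1)).mp h0
    obtain ⟨r, hr1, hr⟩ := exists_lt_one_radius (fun i => v i (∑ j, c j • e j)) w hlt
    have hcj : vL (c j) < 1 := lt_of_le_of_lt (horth c r hr j) hr1
    have hrj := (h.eq_zero_iff (algebraMap L F (c j))
      (fun i => by rw [h.val_algebraMap]; exact hc1 j)).mpr
      (fun i => by rw [h.val_algebraMap]; exact hcj)
    rw [hc2 j] at hrj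
    exact (map_eq_zero_iff _ (algebraMap kk Fk).injective).mp hrj
  have hcard : Fintype.card (Fin n) = Module.finrank kk N := by
    have h1 := hlib.fintype_card_le_finrank
    rw [Fintype.card_fin] at h1 ⊢
    omega
  have htop := hlib.span_eq_top_of_card_eq_finrank' hcard
  intro y hy
  have hmem : (⟨y, hy⟩ : N) ∈ Submodule.span kk (Set.range eb) := by rw [htop]; trivial
  obtain ⟨g, hg⟩ := (Submodule.mem_span_range_iff_exists_fun kk).mp hmem
  choose c hc1 hc2 using fun j => h.exists_const (g j)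
  refine ⟨∑ j, c j • e j, ?_, hball c hc1, ?_⟩
  · exact Submodule.sum_mem _ fun j _ => Submodule.smul_mem _ _ (heM j)
  · rw [hredsum c hc1]
    have h2 := congrArg (Subtype.val : N → Fk) hg
    rw [Submodule.coe_sum] at h2
    simp only [Submodule.coe_smul, heb] at h2
    rw [← h2]
    exact Finset.sum_congr rfl fun j _ => by rw [hc2 j, Algebra.smul_def]

section Decomp

variable (vL) in
/-- The valuation ring of the constant field. -/
abbrev baseRingW : ValuationSubring L := vL.valuationSubring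

theorem mem_baseRingW {c : L} : c ∈ baseRingW vL ↔ vL c ≤ 1 :=
  Valuation.mem_valuationSubring_iff _ _

theorem baseRingW_smul (a : baseRingW vL) (x : F) : a • x = (a : L) • x :=
  (algebraMap_smul L a x).symm

/-- The unit ball of an `L`-subspace of `F` for the weighted max-norm, as a module over the
valuation ring of `L`. -/
def ballW (h : RedDataW v w vL kk red redM) (M : Submodule L F) : Submodule (baseRingW vL) F where
  carrier := {x | x ∈ M ∧ ∀ i, v i x ≤ w i}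
  zero_mem' := ⟨M.zero_mem, fun i => by simp⟩
  add_mem' := fun ha hb => ⟨M.add_mem ha.1 hb.1, fun i => (v i).map_add_le (ha.2 i) (hb.2 i)⟩
  smul_mem' := fun a x hx => by
    refine ⟨?_, fun i => ?_⟩
    · rw [baseRingW_smul]
      exact M.smul_mem _ hx.1
    · rw [baseRingW_smul]
      exact h.smul_mem_ball _ (mem_baseRingW.mp a.2) x hx.2 i

theorem mem_ballW (h : RedDataW v w vL kk red redM) {M : Submodule L F} {x : F} :
    x ∈ ballW h M ↔ x ∈ M ∧ ∀ i, v i x ≤ w i := Iff.rfl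

theorem mem_maximalIdeal_baseRingW {c : L} (hc : vL c < 1) :
    (⟨c, mem_baseRingW.mpr hc.le⟩ : baseRingW vL) ∈ IsLocalRing.maximalIdeal (baseRingW vL) := by
  rw [IsLocalRing.mem_maximalIdeal, mem_nonunits_iff]
  rintro ⟨u, hu⟩
  have h1 : c * ((u⁻¹ : (baseRingW vL)ˣ) : baseRingW vL) = (1 : L) := by
    have h2 := congrArg (Subtype.val : baseRingW vL → L) u.mul_inv
    rw [hu] at h2
    exact h2
  have h3 := congrArg (fun z : L => vL z) h1
  simp only [map_mul, map_one] at h3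
  have h4 : vL (((u⁻¹ : (baseRingW vL)ˣ) : baseRingW vL) : L) ≤ 1 :=
    mem_baseRingW.mp (SetLike.coe_mem _)
  have h5 : vL c * vL (((u⁻¹ : (baseRingW vL)ˣ) : baseRingW vL) : L) < 1 :=
    lt_of_le_of_lt (mul_le_of_le_one_right' h4) hc
  rw [h3] at h5
  exact lt_irrefl _ h5

/-- **Norm-controlled decomposition (`hsurj` of the multi-valuation Kummer core).** If the
reduction of the unit ball of the cartesian space `B` lies in `NB ≤ N0 ⊔ N1 ⊔ N2` and the unit
balls of `B0, M1, M2 ≤ B` reduce onto `N0, N1, N2`, then every `c ∈ B` of norm `≤ r` is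
`c₀ + a₁ - b₁` with `c₀ ∈ B0`, `a₁ ∈ M1`, `b₁ ∈ M2` of norm `≤ r` (weighted value groups lie in
the value group of `L`; Nakayama). -/
theorem exists_decompW [Finite ι] [Nonempty ι] (h : RedDataW v w vL kk red redM)
    (hVG : ∀ (i : ι) (f : F), f ≠ 0 → ∃ c : L, vL c = v i f / w i)
    {B B0 M1 M2 : Submodule L F} (hB0 : B0 ≤ B) (hM1 : M1 ≤ B) (hM2 : M2 ≤ B)
    (hB : CartesianW v w vL B)
    {NB N0 N1 N2 : Submodule kk Fk}
    (hcont : ∀ a ∈ B, (∀ i, v i a ≤ w i) → redM a ∈ NB)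
    (hsum : NB ≤ N0 ⊔ N1 ⊔ N2)
    (hs0 : ∀ y ∈ N0, ∃ a ∈ B0, (∀ i, v i a ≤ w i) ∧ redM a = y)
    (hs1 : ∀ y ∈ N1, ∃ a ∈ M1, (∀ i, v i a ≤ w i) ∧ redM a = y)
    (hs2 : ∀ y ∈ N2, ∃ a ∈ M2, (∀ i, v i a ≤ w i) ∧ redM a = y) :
    ∀ c ∈ B, ∀ r : Γ₀, (∀ i, v i c ≤ r * w i) → ∃ c₀ ∈ B0, ∃ a₁ ∈ M1, ∃ b₁ ∈ M2,
      c = c₀ + a₁ - b₁ ∧ (∀ i, v i a₁ ≤ r * w i) ∧ (∀ i, v i b₁ ≤ r * w i) ∧
        (∀ i, v i c₀ ≤ r * w i) := by
  classical
  obtain ⟨n, e, heB, he1, horth, hspan⟩ := hB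
  have hwpos := h.weight_pos
  -- coordinates in the orthonormal basis
  have hcoord : ∀ x ∈ B, ∃ c : Fin n → L, x = ∑ j, c j • e j ∧
      ∀ r : Γ₀, (∀ i, v i x ≤ r * w i) → ∀ j, vL (c j) ≤ r := by
    intro x hx
    rw [← hspan] at hx
    obtain ⟨c, rfl⟩ := (Submodule.mem_span_range_iff_exists_fun L).mp hx
    exact ⟨c, rfl, fun r hr => horth c r hr⟩
  have hFG : (ballW h B).FG := by
    have hT : ballW h B = Submodule.span (baseRingW vL) (Set.range e) := by
      apply le_antisymm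
      · rintro x ⟨hx, hx1⟩
        obtain ⟨c, rfl, hc⟩ := hcoord x hx
        refine Submodule.sum_mem _ fun j _ => ?_
        have hcj : c j ∈ baseRingW vL :=
          mem_baseRingW.mpr (hc 1 (fun i => by rw [one_mul]; exact hx1 i) j)
        have h2 : c j • e j = (⟨c j, hcj⟩ : baseRingW vL) • e j :=
          (baseRingW_smul (vL := vL) ⟨c j, hcj⟩ (e j)).symm
        rw [h2]
        exact Submodule.smul_mem _ _ (Submodule.subset_span ⟨j, rfl⟩)
      · rw [Submodule.span_le]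
        rintro _ ⟨j, rfl⟩
        exact ⟨heB j, he1 j⟩
    rw [hT]
    exact Submodule.fg_span (Set.finite_range e)
  have hjac : IsLocalRing.maximalIdeal (baseRingW vL) ≤ (⊥ : Ideal (baseRingW vL)).jacobson := by
    rw [IsLocalRing.jacobson_eq_maximalIdeal ⊥ bot_ne_top]
  have hnak : ballW h B ≤ (ballW h B0 ⊔ ballW h M1 ⊔ ballW h M2) ⊔
      IsLocalRing.maximalIdeal (baseRingW vL) • ballW h B := by
    rintro x ⟨hx, hx1⟩
    have hrx := hsum (hcont x hx hx1)
    obtain ⟨y01, hy01, y2, hy2, hxy⟩ := Submodule.mem_sup.mp hrx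
    obtain ⟨y0, hy0, y1, hy1, hy01'⟩ := Submodule.mem_sup.mp hy01
    obtain ⟨c0, hc0, hc01, rfl⟩ := hs0 y0 hy0
    obtain ⟨a1, ha1, ha11, rfl⟩ := hs1 y1 hy1
    obtain ⟨b1, hb1, hb11, rfl⟩ := hs2 y2 hy2
    have hca : ∀ i, v i (c0 + a1) ≤ w i := fun i => (v i).map_add_le (hc01 i) (ha11 i)
    have hs1' : ∀ i, v i (c0 + a1 + b1) ≤ w i := fun i => (v i).map_add_le (hca i) (hb11 i)
    have hrB : x - (c0 + a1 + b1) ∈ B :=
      B.sub_mem hx (B.add_mem (B.add_mem (hB0 hc0) (hM1 ha1)) (hM2 hb1))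
    have hr1 : ∀ i, v i (x - (c0 + a1 + b1)) ≤ w i := fun i =>
      (v i).map_sub_le (hx1 i) (hs1' i)
    have hred : redM (x - (c0 + a1 + b1)) = 0 := by
      rw [h.mapM_sub _ _ hx1 hs1', h.mapM_add _ _ hca hb11, h.mapM_add _ _ hc01 ha11, ← hxy,
        ← hy01', sub_self]
    have hrlt := (h.eqM_zero_iff _ hr1).mp hred
    obtain ⟨ρ, hρ1, hρ⟩ := exists_lt_one_radius (fun i => v i (x - (c0 + a1 + b1))) w hrlt
    obtain ⟨μ, hμ, hμv⟩ := hcoord _ hrB
    have hxeq : x = (c0 + a1 + b1) + (x - (c0 + a1 + b1)) := by ring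
    rw [hxeq]
    refine Submodule.add_mem_sup ?_ ?_
    · exact Submodule.add_mem _ (Submodule.add_mem _
        (Submodule.mem_sup_left (Submodule.mem_sup_left ⟨hc0, hc01⟩))
        (Submodule.mem_sup_left (Submodule.mem_sup_right ⟨ha1, ha11⟩)))
        (Submodule.mem_sup_right ⟨hb1, hb11⟩)
    · rw [hμ]
      refine Submodule.sum_mem _ fun j _ => ?_
      have hμj : vL (μ j) < 1 := lt_of_le_of_lt (hμv ρ hρ j) hρ1
      have h2 : μ j • e j = (⟨μ j, mem_baseRingW.mpr hμj.le⟩ : baseRingW vL) • e j :=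
        (baseRingW_smul (vL := vL) ⟨μ j, mem_baseRingW.mpr hμj.le⟩ (e j)).symm
      rw [h2]
      exact Submodule.smul_mem_smul (mem_maximalIdeal_baseRingW hμj) ⟨heB j, he1 j⟩
  have hTS : ballW h B ≤ ballW h B0 ⊔ ballW h M1 ⊔ ballW h M2 :=
    Submodule.le_of_le_smul_of_le_jacobson_bot hFG hjac hnak
  intro c hc r hr
  by_cases hc0 : c = 0
  · subst hc0
    exact ⟨0, B0.zero_mem, 0, M1.zero_mem, 0, M2.zero_mem, by simp, fun i => by simp,
      fun i => by simp, fun i => by simp⟩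
  -- the norm of `c` is attained at some `i₁` and lies in the value group of `L`
  obtain ⟨i₁, hi₁⟩ := Finite.exists_max fun i => v i c / w i
  obtain ⟨l, hl⟩ := hVG i₁ c hc0
  have hvc : v i₁ c ≠ 0 := ((v i₁).ne_zero_iff).mpr hc0
  have hvl : vL l ≠ 0 := by
    rw [hl]
    exact div_ne_zero hvc (h.weight_ne_zero i₁)
  have hl0 : l ≠ 0 := by
    rintro rfl
    exact hvl (_root_.map_zero vL)
  have hlr : vL l ≤ r := by
    rw [hl]
    exact (div_le_iff₀ (hwpos i₁)).mpr (hr i₁)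
  have hcl : ∀ i, v i c ≤ vL l * w i := fun i => by
    rw [hl]
    exact (div_le_iff₀ (hwpos i)).mp (hi₁ i)
  have hc'B : l⁻¹ • c ∈ B := B.smul_mem _ hc
  have hc'1 : ∀ i, v i (l⁻¹ • c) ≤ w i := fun i => by
    rw [h.val_smul, map_inv₀, inv_mul_le_iff₀ (zero_lt_iff.mpr hvl)]
    exact hcl i
  obtain ⟨s01, hs01, s2, hs2m, hsc⟩ := Submodule.mem_sup.mp (hTS ⟨hc'B, hc'1⟩)
  obtain ⟨s0, hs0m, s1, hs1m, hs01'⟩ := Submodule.mem_sup.mp hs01
  have hscale : ∀ s : F, (∀ i, v i s ≤ w i) → ∀ i, v i (l • s) ≤ r * w i := fun s hs i => by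
    rw [h.val_smul]
    exact mul_le_mul' hlr (hs i)
  refine ⟨l • s0, B0.smul_mem _ hs0m.1, l • s1, M1.smul_mem _ hs1m.1, -(l • s2),
    M2.neg_mem (M2.smul_mem _ hs2m.1), ?_, hscale s1 hs1m.2, fun i => ?_, hscale s0 hs0m.2⟩
  · have h3 : c = l • (l⁻¹ • c) := by rw [smul_smul, mul_inv_cancel₀ hl0, one_smul]
    rw [h3, ← hsc, ← hs01', smul_add, smul_add, sub_neg_eq_add]
  · rw [Valuation.map_neg]
    exact hscale s2 hs2m.2 i

end Decomp

section CoreSF

/-- A cartesian subspace has an orthonormal basis in the shape consumed by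
`helper1788.kummer_multi`. -/
theorem CartesianW.exists_basis (h : RedDataW v w vL kk red redM) {M : Submodule L F}
    (hM : CartesianW v w vL M) :
    ∃ (n : ℕ) (bas : Module.Basis (Fin n) L M), (∀ j i, v i (bas j : F) ≤ w i) ∧
      ∀ (x : M) (r : Γ₀), (∀ i, v i (x : F) ≤ r * w i) →
        ∀ (j : Fin n) (i : ι), v i (algebraMap L F (bas.repr x j)) ≤ r := by
  classical
  obtain ⟨n, e, heM, he1, horth, hspan⟩ := hM
  have hli : LinearIndependent L e := linearIndependent_of_orthoW horth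
  have hli' : LinearIndependent L (fun j => (⟨e j, heM j⟩ : M)) :=
    LinearIndependent.of_comp M.subtype hli
  have hsp : ⊤ ≤ Submodule.span L (Set.range (fun j => (⟨e j, heM j⟩ : M))) := by
    rintro x -
    have hx : (x : F) ∈ Submodule.span L (Set.range e) := by rw [hspan]; exact x.2
    obtain ⟨c, hc⟩ := (Submodule.mem_span_range_iff_exists_fun L).mp hx
    have hxe : x = ∑ j, c j • (⟨e j, heM j⟩ : M) := by
      apply Subtype.ext
      rw [← hc, Submodule.coe_sum]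
      rfl
    rw [hxe]
    exact Submodule.sum_mem _ fun j _ =>
      Submodule.smul_mem _ _ (Submodule.subset_span ⟨j, rfl⟩)
  refine ⟨n, Module.Basis.mk hli' hsp, fun j i => ?_, fun x r hr j i => ?_⟩
  · rw [Module.Basis.mk_apply]
    exact he1 j i
  · have hx := (Module.Basis.mk hli' hsp).sum_repr x
    have hx' : (x : F) = ∑ j, (Module.Basis.mk hli' hsp).repr x j • e j := by
      conv_lhs => rw [← hx]
      rw [Submodule.coe_sum]
      refine Finset.sum_congr rfl fun j _ => ?_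
      rw [Module.Basis.mk_apply]
      rfl
    rw [h.val_algebraMap]
    refine horth (fun j => (Module.Basis.mk hli' hsp).repr x j) r (fun i => ?_) j
    rw [← hx']
    exact hr i

/-- **Seeds of the Kummer core**: lifts `a₀ ∈ M1`, `b₀ ∈ M2` of a class `θ ∈ N1 ⊓ N2` of the
special fibre with `θ ^ m * υ = 1`, where `υ` is the reduction of `u` in the sense
`red (a ^ m * u) = redM a ^ m * υ`. -/
theorem exists_seedsW (h : RedDataW v w vL kk red redM) {M1 M2 : Submodule L F}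
    {N1 N2 : Submodule kk Fk}
    (hs1 : ∀ y ∈ N1, ∃ a ∈ M1, (∀ i, v i a ≤ w i) ∧ redM a = y)
    (hs2 : ∀ y ∈ N2, ∃ a ∈ M2, (∀ i, v i a ≤ w i) ∧ redM a = y)
    {m : ℕ} (hm : m ≠ 0) {u : F} (hu : ∀ i, v i u * w i ^ m = 1) {υ : Fk}
    (hpow : ∀ a : F, (∀ i, v i a ≤ w i) → red (a ^ m * u) = redM a ^ m * υ)
    {θ : Fk} (hθ1 : θ ∈ N1) (hθ2 : θ ∈ N2) (hθ : θ ^ m * υ = 1) :
    ∃ a₀ ∈ M1, ∃ b₀ ∈ M2, (∀ i, v i a₀ = w i) ∧ (∀ i, v i (a₀ - b₀) < w i) ∧
      (∀ i, v i (a₀ ^ m * u - 1) < 1) ∧ (∀ i, v i (b₀ ^ m * u - 1) < 1) := by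
  obtain ⟨a, ha, ha1, hra⟩ := hs1 θ hθ1
  obtain ⟨b, hb, hb1, hrb⟩ := hs2 θ hθ2
  have hball : ∀ c : F, (∀ i, v i c ≤ w i) → ∀ i, v i (c ^ m * u) ≤ 1 := fun c hc i => by
    rw [map_mul, map_pow, ← hu i, mul_comm]
    exact mul_le_mul' le_rfl (pow_le_pow_left' (hc i) m)
  have key : ∀ c : F, (∀ i, v i c ≤ w i) → redM c = θ → ∀ i, v i (c ^ m * u - 1) < 1 := by
    intro c hc1 hrc
    have h11 : ∀ i, v i (1 : F) ≤ 1 := fun i => le_of_eq (v i).map_one
    refine (h.eq_zero_iff _ (fun i => (v i).map_sub_le (hball c hc1 i) (h11 i))).mp ?_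
    rw [h.map_sub _ _ (hball c hc1) h11, hpow c hc1, hrc, hθ, h.map_one, sub_self]
  have hnorm : ∀ c : F, (∀ i, v i c ≤ w i) → (∀ i, v i (c ^ m * u - 1) < 1) →
      ∀ i, v i c = w i := by
    intro c hc1 hc i
    refine le_antisymm (hc1 i) (not_lt.mp fun hlt => ?_)
    have h1 : v i (c ^ m * u) = 1 := by
      have h2 : c ^ m * u = 1 + (c ^ m * u - 1) := by ring
      rw [h2]
      exact (v i).map_one_add_of_lt (hc i)
    have hu0 : v i u ≠ 0 := by
      intro h0
      have := hu i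
      rw [h0, zero_mul] at this
      exact zero_ne_one this
    have h3 : v i c ^ m * v i u < w i ^ m * v i u :=
      mul_lt_mul_of_pos_right (pow_lt_pow_left₀ hlt zero_le hm) (zero_lt_iff.mpr hu0)
    rw [map_mul, map_pow] at h1
    rw [h1, mul_comm, hu i] at h3
    exact lt_irrefl _ h3
  refine ⟨a, ha, b, hb, hnorm a ha1 (key a ha1 hra), ?_, key a ha1 hra, key b hb1 hrb⟩
  refine (h.eqM_zero_iff _ (fun i => (v i).map_sub_le (ha1 i) (hb1 i))).mp ?_
  rw [h.mapM_sub _ _ ha1 hb1, hra, hrb, sub_self]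

/-- **Multi-valuation Kummer core with special-fibre inputs.** The generic-fibre hypotheses
are those of `helper1788.kummer_core` verbatim; the three remaining inputs (orthonormal basis at
level `k₀`, norm-controlled decomposition, seeds) are produced from: cartesian spaces `M12 k`
for the weighted max-norm, reduction containment `redM (M12 k)° ⊆ N12 k`, the special-fibre sum
formula `N12 k ≤ N12 k₀ ⊔ N1 k ⊔ N2 k`, surjectivity of the reductions `(M12 k₀)° → N12 k₀`,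
`(M1 k)° → N1 k`, `(M2 k)° → N2 k` (see `squeezeW`), and a class `θ ∈ N1 k₀ ⊓ N2 k₀` with
`θ ^ m * υ = 1`. -/
theorem kummer_core_special_fibreW [Finite ι] [Nonempty ι]
    (v : ι → Valuation F Γ₀) (w : ι → Γ₀) (vL : Valuation L Γ₀)
    (harch : ∀ ε κ : Γ₀, ε < 1 → κ ≠ 0 → ∃ n : ℕ, ε ^ n < κ)
    (m : ℕ) (hm : ∀ i, v i (m : F) = 1) (u : F) (hu : ∀ i, v i u * w i ^ m = 1)
    (M1 M2 M12 P Q : ℕ → Submodule L F)
    (hM1 : ∀ k, M1 k ≤ M12 k) (hM2 : ∀ k, M2 k ≤ M12 k)
    (hP1 : ∀ k, (1 : F) ∈ P k) (hQ1 : ∀ k, (1 : F) ∈ Q k)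
    (hP : ∀ k, ∀ a ∈ M1 k, a ^ m * u ∈ P (m * k))
    (hQ : ∀ k, ∀ b ∈ M2 k, b ^ m * u ∈ Q (m * k))
    (hPM : ∀ j k, ∀ s ∈ P j, ∀ a ∈ M1 k, s * a ∈ M1 (j + k))
    (hQM : ∀ j k, ∀ s ∈ Q j, ∀ b ∈ M2 k, s * b ∈ M2 (j + k))
    (k₀ : ℕ)
    (hsep : ∀ k, k₀ ≤ k → ∀ a ∈ M1 k, ∀ b ∈ M2 k, a - b ∈ M12 k₀ → a ∈ M1 k₀ ∧ b ∈ M2 k₀)
    (hmono : ∀ k, k₀ ≤ k → M12 k₀ ≤ M12 k)
    {red redM : F → Fk} (hred : RedDataW v w vL kk red redM)
    (hVG : ∀ (i : ι) (f : F), f ≠ 0 → ∃ c : L, vL c = v i f / w i)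
    (hcart : ∀ k, k₀ ≤ k → CartesianW v w vL (M12 k))
    (N1 N2 N12 : ℕ → Submodule kk Fk)
    (hcont : ∀ k, k₀ ≤ k → ∀ a ∈ M12 k, (∀ i, v i a ≤ w i) → redM a ∈ N12 k)
    (hsum : ∀ k, k₀ ≤ k → N12 k ≤ N12 k₀ ⊔ N1 k ⊔ N2 k)
    (hs12 : ∀ y ∈ N12 k₀, ∃ a ∈ M12 k₀, (∀ i, v i a ≤ w i) ∧ redM a = y)
    (hs1 : ∀ k, k₀ ≤ k → ∀ y ∈ N1 k, ∃ a ∈ M1 k, (∀ i, v i a ≤ w i) ∧ redM a = y)
    (hs2 : ∀ k, k₀ ≤ k → ∀ y ∈ N2 k, ∃ a ∈ M2 k, (∀ i, v i a ≤ w i) ∧ redM a = y)
    (υ : Fk) (hpow : ∀ a : F, (∀ i, v i a ≤ w i) → red (a ^ m * u) = redM a ^ m * υ)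
    (θ : Fk) (hθ1 : θ ∈ N1 k₀) (hθ2 : θ ∈ N2 k₀) (hθ : θ ^ m * υ = 1) :
    ∃ f : F, f ≠ 0 ∧ f ∈ M1 k₀ ∧ f ∈ M2 k₀ := by
  obtain ⟨i₀⟩ := ‹Nonempty ι›
  have hm0 : m ≠ 0 := by
    rintro rfl
    have h1 := hm i₀
    rw [Nat.cast_zero, _root_.map_zero] at h1
    exact zero_ne_one h1
  obtain ⟨a₀, ha₀, b₀, hb₀, hva₀, hab₀, hsa₀, hsb₀⟩ :=
    exists_seedsW hred (hs1 k₀ le_rfl) (hs2 k₀ le_rfl) hm0 hu hpow hθ1 hθ2 hθ
  obtain ⟨n, bas, -, horth⟩ := (hcart k₀ le_rfl).exists_basis hred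
  have hsurj : ∀ k, k₀ ≤ k → ∀ c ∈ M12 k, ∀ r : Γ₀, (∀ i, v i c ≤ r * w i) →
      ∃ c₀ ∈ M12 k₀, ∃ a₁ ∈ M1 k, ∃ b₁ ∈ M2 k, c = c₀ + a₁ - b₁ ∧
        (∀ i, v i a₁ ≤ r * w i) ∧ (∀ i, v i b₁ ≤ r * w i) ∧ (∀ i, v i c₀ ≤ r * w i) :=
    fun k hk =>
      exists_decompW hred hVG (hmono k hk) (hM1 k) (hM2 k) (hcart k hk) (hcont k hk) (hsum k hk)
        hs12 (hs1 k hk) (hs2 k hk)
  exact Fermat.Agent.S35.helper1788.kummer_multi v harch m hm u M1 M2 M12 P Q hM1 hM2 hP1 hQ1 hP hQ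
    hPM hQM k₀ hsep w hsurj bas horth a₀ b₀ ha₀ hb₀ hva₀ hab₀ hsa₀ hsb₀

end CoreSF

section Instances

/-- The ball of radius `r` of the constant field, as a module over its valuation ring. -/
def radiusBall (vL : Valuation L Γ₀) (r : Γ₀) : Submodule (baseRingW vL) L where
  carrier := {c | vL c ≤ r}
  zero_mem' := by simp
  add_mem' := fun ha hb => vL.map_add_le ha hb
  smul_mem' := fun a c hc => by
    show vL ((a : L) * c) ≤ r
    rw [map_mul]
    exact mul_le_of_le_one_of_le (mem_baseRingW.mp a.2) hc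

theorem mem_radiusBall {r : Γ₀} {c : L} : c ∈ radiusBall vL r ↔ vL c ≤ r := Iff.rfl

/-- **Cartesian subspaces from one global orthonormal family** (adapter to the landed S18 lemma
`helper9056.exists_orthonormal_basis`): if `e : κι → F` is linearly independent and orthonormal
for the weighted max-norm in every radius, then every finite-dimensional `L`-subspace of its
span is `CartesianW`. -/
theorem CartesianW.of_family {κι : Type*} (e : κι → F) (he : LinearIndependent L e)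
    (horth : ∀ (r : Γ₀) (c : κι →₀ L),
      (∀ i, v i (Finsupp.linearCombination L e c) ≤ r * w i) ↔ ∀ j, vL (c j) ≤ r)
    (V : Submodule L F) [FiniteDimensional L V] (hV : V ≤ Submodule.span L (Set.range e)) :
    CartesianW v w vL V := by
  classical
  obtain ⟨b, -, hsp, hb⟩ :=
    Fermat.Agent.S18.helper9056.exists_orthonormal_basis (baseRingW vL) e he V hV
  have key : ∀ (r : Γ₀) (c : Fin (Module.finrank L V) → L),
      (∀ i, v i (∑ j, c j • b j) ≤ r * w i) ↔ ∀ j, vL (c j) ≤ r := fun r c =>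
    hb (radiusBall vL r) {x | ∀ i, v i x ≤ r * w i} (fun c' => horth r c') c
  refine ⟨Module.finrank L V, b, fun j => ?_, fun j i => ?_, fun c r hr => (key r c).mp hr, hsp⟩
  · rw [← hsp]
    exact Submodule.subset_span ⟨j, rfl⟩
  · have h1 := (key 1 (Pi.single j 1)).mpr (fun j' => by
      by_cases hj : j' = j
      · subst hj
        rw [Pi.single_eq_same, map_one]
      · rw [Pi.single_eq_of_ne hj, map_zero]
        exact zero_le_one) i
    rw [Finset.sum_eq_single j, Pi.single_eq_same, one_smul, one_mul] at h1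
    · exact h1
    · intro j' _ hj
      rw [Pi.single_eq_of_ne hj, zero_smul]
    · intro hj
      exact absurd (Finset.mem_univ _) hj

/-- **Product reduction data.** One reduction `ρ i : F → K i` per valuation (a ring homomorphism
on the unit ball of `v i` with kernel the open unit ball, compatible with the constants) and
twists `f i ≠ 0` give `RedDataW` with weights `w i = v i (f i)`, function reduction
`a ↦ (ρ i a)_i` and section reduction `a ↦ (ρ i (a / f i))_i` into the product `∀ i, K i`. -/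
theorem RedDataW.of_pi (v : ι → Valuation F Γ₀) (f : ι → F) (hf : ∀ i, f i ≠ 0)
    (vL : Valuation L Γ₀) (hvL : ∀ (i : ι) (c : L), v i (algebraMap L F c) = vL c)
    (kk : Type*) [Field kk] {K : ι → Type*} [∀ i, CommRing (K i)] [∀ i, Algebra kk (K i)]
    (ρ : ∀ i, F → K i)
    (hadd : ∀ i a b, v i a ≤ 1 → v i b ≤ 1 → ρ i (a + b) = ρ i a + ρ i b)
    (hmul : ∀ i a b, v i a ≤ 1 → v i b ≤ 1 → ρ i (a * b) = ρ i a * ρ i b)
    (hone : ∀ i, ρ i 1 = 1)
    (hzero : ∀ i a, v i a ≤ 1 → (ρ i a = 0 ↔ v i a < 1))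
    (hconst : ∀ κ : kk, ∃ c : L, vL c ≤ 1 ∧
      ∀ i, ρ i (algebraMap L F c) = algebraMap kk (K i) κ) :
    RedDataW v (fun i => v i (f i)) vL kk (Fk := ∀ i, K i) (fun a i => ρ i a)
      (fun a i => ρ i (a / f i)) := by
  have hfpos : ∀ i, 0 < v i (f i) := fun i => zero_lt_iff.mpr (((v i).ne_zero_iff).mpr (hf i))
  have hdiv : ∀ i a, v i a ≤ v i (f i) → v i (a / f i) ≤ 1 := fun i a ha => by
    rw [map_div₀]
    exact (div_le_one₀ (hfpos i)).mpr ha
  refine ⟨hvL, fun i => (hfpos i).ne', fun a b ha hb => ?_, fun a b ha hb => ?_, ?_,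
    fun a ha => ?_, fun κ => ?_, fun a b ha hb => ?_, fun s a hs ha => ?_, fun a ha => ?_⟩
  · funext i
    exact hadd i a b (ha i) (hb i)
  · funext i
    exact hmul i a b (ha i) (hb i)
  · funext i
    exact hone i
  · rw [funext_iff]
    exact forall_congr' fun i => hzero i a (ha i)
  · obtain ⟨c, hc, hc'⟩ := hconst κ
    exact ⟨c, hc, funext fun i => hc' i⟩
  · funext i
    show ρ i ((a + b) / f i) = ρ i (a / f i) + ρ i (b / f i)
    rw [add_div]
    exact hadd i _ _ (hdiv i a (ha i)) (hdiv i b (hb i))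
  · funext i
    show ρ i (s * a / f i) = ρ i s * ρ i (a / f i)
    rw [mul_div_assoc]
    exact hmul i _ _ (hs i) (hdiv i a (ha i))
  · rw [funext_iff]
    refine forall_congr' fun i => ?_
    show ρ i (a / f i) = 0 ↔ v i a < v i (f i)
    rw [hzero i _ (hdiv i a (ha i)), map_div₀, div_lt_one₀ (hfpos i)]

/-- The power relation `red (a ^ m * u) = redM a ^ m * υ` for the product reduction data, with
`υ = (ρ i (f i ^ m * u))_i`. -/
theorem RedDataW.of_pi_pow (v : ι → Valuation F Γ₀) (f : ι → F) (hf : ∀ i, f i ≠ 0)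
    {K : ι → Type*} [∀ i, CommRing (K i)] (ρ : ∀ i, F → K i)
    (hmul : ∀ i a b, v i a ≤ 1 → v i b ≤ 1 → ρ i (a * b) = ρ i a * ρ i b)
    (hone : ∀ i, ρ i 1 = 1)
    (m : ℕ) (u : F) (hu : ∀ i, v i u * v i (f i) ^ m = 1)
    (a : F) (ha : ∀ i, v i a ≤ v i (f i)) :
    (fun i => ρ i (a ^ m * u)) = (fun i => ρ i (a / f i)) ^ m * fun i => ρ i (f i ^ m * u) := by
  funext i
  have hfpos : 0 < v i (f i) := zero_lt_iff.mpr (((v i).ne_zero_iff).mpr (hf i))
  have h1 : v i (a / f i) ≤ 1 := by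
    rw [map_div₀]
    exact (div_le_one₀ hfpos).mpr (ha i)
  have h2 : v i (f i ^ m * u) ≤ 1 := by
    rw [_root_.map_mul, map_pow, mul_comm, hu i]
  have hpow : ∀ n : ℕ, ρ i ((a / f i) ^ n) = ρ i (a / f i) ^ n := by
    intro n
    induction n with
    | zero => rw [pow_zero, pow_zero, hone]
    | succ n ih =>
      rw [pow_succ, pow_succ, hmul i _ _ (by rw [map_pow]; exact pow_le_one' h1 n) h1, ih]
  have h3 : a ^ m * u = (a / f i) ^ m * (f i ^ m * u) := by
    rw [div_pow]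
    field_simp [hf i]
  show ρ i (a ^ m * u) = ρ i (a / f i) ^ m * ρ i (f i ^ m * u)
  rw [h3, hmul i _ _ (by rw [map_pow]; exact pow_le_one' h1 m) h2, hpow m]

end Instances

section Glued

/-- Cartesian dimension bound: the reduction of the unit ball of a cartesian `M` spans at least
`finrank L M` dimensions of any finite-dimensional `N` containing it. -/
theorem le_finrank_of_cartesianW [Finite ι] [Nonempty ι] (h : RedDataW v w vL kk red redM)
    {M : Submodule L F} (hM : CartesianW v w vL M)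
    (N : Submodule kk Fk) [Module.Finite kk N]
    (hcont : ∀ a ∈ M, (∀ i, v i a ≤ w i) → redM a ∈ N) :
    Module.finrank L M ≤ Module.finrank kk N := by
  classical
  obtain ⟨n, e, heM, he1, horth, hspan⟩ := hM
  have := h.nontrivial
  have hli : LinearIndependent L e := linearIndependent_of_orthoW horth
  have hfr : Module.finrank L M = n := by
    rw [← hspan, finrank_span_eq_card hli, Fintype.card_fin]
  have hball : ∀ c : Fin n → L, (∀ j, vL (c j) ≤ 1) → ∀ i, v i (∑ j, c j • e j) ≤ w i :=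
    fun c hc i => (v i).map_sum_le fun j _ => h.smul_mem_ball (c j) (hc j) (e j) (he1 j) i
  have hredsum : ∀ c : Fin n → L, (∀ j, vL (c j) ≤ 1) →
      redM (∑ j, c j • e j) = ∑ j, red (algebraMap L F (c j)) * redM (e j) := by
    intro c hc
    rw [h.mapM_sum]
    · exact Finset.sum_congr rfl fun j _ => h.mapM_smul (c j) (hc j) (e j) (he1 j)
    · intro j _
      exact h.smul_mem_ball (c j) (hc j) (e j) (he1 j)
  set eb : Fin n → N := fun j => ⟨redM (e j), hcont (e j) (heM j) (he1 j)⟩ with heb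
  have hlib : LinearIndependent kk eb := by
    rw [Fintype.linearIndependent_iff]
    intro g hg j
    choose c hc1 hc2 using fun j => h.exists_const (g j)
    have h0 : redM (∑ j, c j • e j) = 0 := by
      rw [hredsum c hc1]
      have h2 := congrArg (Subtype.val : N → Fk) hg
      rw [Submodule.coe_sum] at h2
      simp only [Submodule.coe_smul, heb, Submodule.coe_zero] at h2
      rw [← h2]
      exact Finset.sum_congr rfl fun j _ => by rw [hc2 j, Algebra.smul_def]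
    have hlt := (h.eqM_zero_iff _ (hball c hc1)).mp h0
    obtain ⟨r, hr1, hr⟩ := exists_lt_one_radius (fun i => v i (∑ j, c j • e j)) w hlt
    have hcj : vL (c j) < 1 := lt_of_le_of_lt (horth c r hr j) hr1
    have hrj := (h.eq_zero_iff (algebraMap L F (c j))
      (fun i => by rw [h.val_algebraMap]; exact hc1 j)).mpr
      (fun i => by rw [h.val_algebraMap]; exact hcj)
    rw [hc2 j] at hrj
    exact (map_eq_zero_iff _ (algebraMap kk Fk).injective).mp hrj
  have h1 := hlib.fintype_card_le_finrank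
  rw [Fintype.card_fin] at h1
  omega

/-- **Special-fibre sum formula from a dimension count** (pure linear algebra).  `X0 ≤ X`,
`Y, Z ≤ X`, `Y0, Z0 ≤ X0` subspaces of a vector space with `X` finite-dimensional; if the charts
separate (`a ∈ Y`, `b ∈ Z`, `a - b ∈ X0` imply `a ∈ Y0`, `b ∈ Z0`) and
`dim X + dim Y0 + dim Z0 ≤ dim X0 + dim Y + dim Z`, then `X ≤ X0 ⊔ Y ⊔ Z`. -/
theorem le_sup_of_finrank_count {kk V : Type*} [Field kk] [AddCommGroup V] [Module kk V]
    (X0 X Y Y0 Z Z0 : Submodule kk V) [Module.Finite kk X]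
    (hX0 : X0 ≤ X) (hY : Y ≤ X) (hZ : Z ≤ X) (hY0 : Y0 ≤ X0) (hZ0 : Z0 ≤ X0)
    (hsep : ∀ a ∈ Y, ∀ b ∈ Z, a - b ∈ X0 → a ∈ Y0 ∧ b ∈ Z0)
    (hcount : Module.finrank kk X + Module.finrank kk Y0 + Module.finrank kk Z0 ≤
      Module.finrank kk X0 + Module.finrank kk Y + Module.finrank kk Z) :
    X ≤ X0 ⊔ Y ⊔ Z := by
  have fX0 : Module.Finite kk X0 := Submodule.finiteDimensional_of_le hX0
  have fY : Module.Finite kk Y := Submodule.finiteDimensional_of_le hY
  have fZ : Module.Finite kk Z := Submodule.finiteDimensional_of_le hZ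
  have fY0 : Module.Finite kk Y0 := Submodule.finiteDimensional_of_le hY0
  have fZ0 : Module.Finite kk Z0 := Submodule.finiteDimensional_of_le hZ0
  have hW : X0 ⊔ Y ⊔ Z ≤ X := sup_le (sup_le hX0 hY) hZ
  have e1 := Submodule.finrank_sup_add_finrank_inf_eq X0 (Y ⊔ Z)
  have e2 := Submodule.finrank_sup_add_finrank_inf_eq Y Z
  have e3 := Submodule.finrank_sup_add_finrank_inf_eq Y0 Z0
  have h4 : X0 ⊓ (Y ⊔ Z) ≤ Y0 ⊔ Z0 := by
    rintro x ⟨hx0, hx⟩
    obtain ⟨a, ha, b, hb, rfl⟩ := Submodule.mem_sup.mp hx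
    have hab : a - -b ∈ X0 := by rw [sub_neg_eq_add]; exact hx0
    obtain ⟨ha0, hb0⟩ := hsep a ha (-b) (Z.neg_mem hb) hab
    exact Submodule.add_mem_sup ha0 (by simpa using Z0.neg_mem hb0)
  have h5 : Y ⊓ Z ≤ Y0 ⊓ Z0 := by
    rintro x ⟨hxY, hxZ⟩
    have hxx : x - x ∈ X0 := by rw [sub_self]; exact X0.zero_mem
    exact hsep x hxY x hxZ hxx
  have f4 := Submodule.finrank_mono h4
  have f5 := Submodule.finrank_mono h5
  have hle : Module.finrank kk X ≤ Module.finrank kk ↥(X0 ⊔ Y ⊔ Z) := by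
    rw [sup_assoc]
    omega
  have hfin : Module.Finite kk ↥(X0 ⊔ Y ⊔ Z) := Submodule.finiteDimensional_of_le hW
  exact (Submodule.eq_of_le_of_finrank_le hW hle).ge

/-- **Multi-valuation Kummer core, glued special fibre.**  The special-fibre inputs of
`kummer_core_special_fibreW` in the form supplied by a nodal (glued) special fibre: ambient
spaces `S1 k, S2 k ≤ S12 k` (sections of the normalisation with bounded poles: products of
Riemann-Roch spaces of the components) and ONE glueing subspace `G` (the node conditions of the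
twist).  Needed: reduction containment into `S • ⊓ G`, the dimension bounds
`dim (S • ⊓ G) ≤ dim_L M •` (Riemann on the components + node count against Riemann on the
generic fibre), separation of the two charts on the normalisation, the generic Riemann count
`hcount`, and a class `θ ∈ S1 k₀ ⊓ S2 k₀ ⊓ G` with `θ ^ m * υ = 1` (`θ = 1` for trivial glueing
constants). -/
theorem kummer_core_gluedW [Finite ι] [Nonempty ι]
    (v : ι → Valuation F Γ₀) (w : ι → Γ₀) (vL : Valuation L Γ₀)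
    (harch : ∀ ε κ : Γ₀, ε < 1 → κ ≠ 0 → ∃ n : ℕ, ε ^ n < κ)
    (m : ℕ) (hm : ∀ i, v i (m : F) = 1) (u : F) (hu : ∀ i, v i u * w i ^ m = 1)
    (M1 M2 M12 P Q : ℕ → Submodule L F)
    (hM1 : ∀ k, M1 k ≤ M12 k) (hM2 : ∀ k, M2 k ≤ M12 k)
    (hP1 : ∀ k, (1 : F) ∈ P k) (hQ1 : ∀ k, (1 : F) ∈ Q k)
    (hP : ∀ k, ∀ a ∈ M1 k, a ^ m * u ∈ P (m * k))
    (hQ : ∀ k, ∀ b ∈ M2 k, b ^ m * u ∈ Q (m * k))
    (hPM : ∀ j k, ∀ s ∈ P j, ∀ a ∈ M1 k, s * a ∈ M1 (j + k))
    (hQM : ∀ j k, ∀ s ∈ Q j, ∀ b ∈ M2 k, s * b ∈ M2 (j + k))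
    (k₀ : ℕ)
    (hsep : ∀ k, k₀ ≤ k → ∀ a ∈ M1 k, ∀ b ∈ M2 k, a - b ∈ M12 k₀ → a ∈ M1 k₀ ∧ b ∈ M2 k₀)
    (hmono : ∀ k, k₀ ≤ k → M12 k₀ ≤ M12 k)
    {red redM : F → Fk} (hred : RedDataW v w vL kk red redM)
    (hVG : ∀ (i : ι) (f : F), f ≠ 0 → ∃ c : L, vL c = v i f / w i)
    (hcart12 : ∀ k, k₀ ≤ k → CartesianW v w vL (M12 k))
    (hcart1 : ∀ k, k₀ ≤ k → CartesianW v w vL (M1 k))
    (hcart2 : ∀ k, k₀ ≤ k → CartesianW v w vL (M2 k))
    (S1 S2 S12 : ℕ → Submodule kk Fk) (G : Submodule kk Fk)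
    (hfin : ∀ k, k₀ ≤ k → Module.Finite kk (S12 k))
    (hS1 : ∀ k, S1 k ≤ S12 k) (hS2 : ∀ k, S2 k ≤ S12 k)
    (hSmono : ∀ k, k₀ ≤ k → S12 k₀ ≤ S12 k)
    (hc12 : ∀ k, k₀ ≤ k → ∀ a ∈ M12 k, (∀ i, v i a ≤ w i) → redM a ∈ S12 k ⊓ G)
    (hc1 : ∀ k, k₀ ≤ k → ∀ a ∈ M1 k, (∀ i, v i a ≤ w i) → redM a ∈ S1 k ⊓ G)
    (hc2 : ∀ k, k₀ ≤ k → ∀ a ∈ M2 k, (∀ i, v i a ≤ w i) → redM a ∈ S2 k ⊓ G)
    (hd12 : ∀ k, k₀ ≤ k → Module.finrank kk ↥(S12 k ⊓ G) ≤ Module.finrank L (M12 k))
    (hd1 : ∀ k, k₀ ≤ k → Module.finrank kk ↥(S1 k ⊓ G) ≤ Module.finrank L (M1 k))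
    (hd2 : ∀ k, k₀ ≤ k → Module.finrank kk ↥(S2 k ⊓ G) ≤ Module.finrank L (M2 k))
    (hsepS1 : ∀ k, k₀ ≤ k → (S12 k₀ ⊔ S2 k) ⊓ S1 k ≤ S1 k₀)
    (hsepS2 : ∀ k, k₀ ≤ k → (S12 k₀ ⊔ S1 k) ⊓ S2 k ≤ S2 k₀)
    (hcount : ∀ k, k₀ ≤ k → Module.finrank L (M12 k) + Module.finrank L (M1 k₀) +
      Module.finrank L (M2 k₀) ≤
      Module.finrank L (M12 k₀) + Module.finrank L (M1 k) + Module.finrank L (M2 k))
    (υ : Fk) (hpow : ∀ a : F, (∀ i, v i a ≤ w i) → red (a ^ m * u) = redM a ^ m * υ)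
    (θ : Fk) (hθ1 : θ ∈ S1 k₀) (hθ2 : θ ∈ S2 k₀) (hθG : θ ∈ G) (hθ : θ ^ m * υ = 1) :
    ∃ f : F, f ≠ 0 ∧ f ∈ M1 k₀ ∧ f ∈ M2 k₀ := by
  have f12 : ∀ k, k₀ ≤ k → Module.Finite kk ↥(S12 k ⊓ G) := fun k hk =>
    haveI := hfin k hk
    Submodule.finiteDimensional_of_le (inf_le_left : S12 k ⊓ G ≤ S12 k)
  have f1 : ∀ k, k₀ ≤ k → Module.Finite kk ↥(S1 k ⊓ G) := fun k hk =>
    haveI := hfin k hk
    Submodule.finiteDimensional_of_le (le_trans inf_le_left (hS1 k) : S1 k ⊓ G ≤ S12 k)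
  have f2 : ∀ k, k₀ ≤ k → Module.Finite kk ↥(S2 k ⊓ G) := fun k hk =>
    haveI := hfin k hk
    Submodule.finiteDimensional_of_le (le_trans inf_le_left (hS2 k) : S2 k ⊓ G ≤ S12 k)
  -- cartesian dimension equalities
  have e12 : ∀ k, k₀ ≤ k → Module.finrank kk ↥(S12 k ⊓ G) = Module.finrank L (M12 k) :=
    fun k hk =>
      haveI := f12 k hk
      le_antisymm (hd12 k hk) (le_finrank_of_cartesianW hred (hcart12 k hk) _ (hc12 k hk))
  have e1 : ∀ k, k₀ ≤ k → Module.finrank kk ↥(S1 k ⊓ G) = Module.finrank L (M1 k) :=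
    fun k hk =>
      haveI := f1 k hk
      le_antisymm (hd1 k hk) (le_finrank_of_cartesianW hred (hcart1 k hk) _ (hc1 k hk))
  have e2 : ∀ k, k₀ ≤ k → Module.finrank kk ↥(S2 k ⊓ G) = Module.finrank L (M2 k) :=
    fun k hk =>
      haveI := f2 k hk
      le_antisymm (hd2 k hk) (le_finrank_of_cartesianW hred (hcart2 k hk) _ (hc2 k hk))
  -- the special-fibre sum formula
  have hsum : ∀ k, k₀ ≤ k → S12 k ⊓ G ≤ S12 k₀ ⊓ G ⊔ S1 k ⊓ G ⊔ S2 k ⊓ G := by
    intro k hk
    have := f12 k hk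
    refine le_sup_of_finrank_count (S12 k₀ ⊓ G) (S12 k ⊓ G) (S1 k ⊓ G) (S1 k₀ ⊓ G) (S2 k ⊓ G)
      (S2 k₀ ⊓ G) (inf_le_inf_right G (hSmono k hk)) (inf_le_inf_right G (hS1 k))
      (inf_le_inf_right G (hS2 k)) (inf_le_inf_right G (hS1 k₀)) (inf_le_inf_right G (hS2 k₀))
      ?_ ?_
    · rintro a ⟨haS, haG⟩ b ⟨hbS, hbG⟩ ⟨habS, -⟩
      refine ⟨⟨hsepS1 k hk ⟨?_, haS⟩, haG⟩, ⟨hsepS2 k hk ⟨?_, hbS⟩, hbG⟩⟩
      · have h1 : a = (a - b) + b := by ring
        rw [h1]
        exact Submodule.add_mem_sup habS hbS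
      · have h1 : b = -(a - b) + a := by ring
        rw [h1]
        exact Submodule.add_mem_sup ((S12 k₀).neg_mem habS) haS
    · rw [e12 k hk, e1 k₀ le_rfl, e2 k₀ le_rfl, e12 k₀ le_rfl, e1 k hk, e2 k hk]
      exact hcount k hk
  exact kummer_core_special_fibreW v w vL harch m hm u hu M1 M2 M12 P Q hM1 hM2 hP1 hQ1 hP hQ
    hPM hQM k₀ hsep hmono hred hVG hcart12 (fun k => S1 k ⊓ G) (fun k => S2 k ⊓ G)
    (fun k => S12 k ⊓ G) hc12 hsum
    (haveI := f12 k₀ le_rfl
     squeezeW hred (hcart12 k₀ le_rfl) _ (hc12 k₀ le_rfl) (hd12 k₀ le_rfl))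
    (fun k hk =>
      haveI := f1 k hk
      squeezeW hred (hcart1 k hk) _ (hc1 k hk) (hd1 k hk))
    (fun k hk =>
      haveI := f2 k hk
      squeezeW hred (hcart2 k hk) _ (hc2 k hk) (hd2 k hk))
    υ hpow θ ⟨hθ1, hθG⟩ ⟨hθ2, hθG⟩ hθ

end Glued

end SpecialFibre

end Fermat.Agent.S35.helper2459
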