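/-
S35 / S34, generic-fibre instance of the multi-valuation Kummer core (helper1788).

The analogue of `Fermat.Agent.S18.helper4226` (generic-fibre instance of the one-valuation core)
for `Fermat.Agent.S35.helper1788.kummer_multi`.

Setting: fields `K ⊆ F`, Prelude places / divisors / Riemann-Roch spaces, `E1`, `E2` effective
divisors with disjoint supports (poles and zeros of a chart coordinate), `D0` any divisor,
`u ≠ 0` with `div u ≥ m • D0`, and the families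

  `M1 k = L(D0 + k E1)`, `M2 k = L(D0 + k E2)`, `M12 k = L(D0 + k E1 + k E2)`,
  `P k = L(k E1)`, `Q k = L(k E2)`.

The nine generic hypotheses of the core do not involve the valuations, so they are the lemmas
`helper4226.kc_*` verbatim.  What remains are the special-fibre inputs, for a finite family of
valuations `val i` of `F` with weights `w i` (application: the two Gauss valuations `v_∞`,
`v_0 = v_∞ ∘ W_q` at a prime `q ∥ M`, weights `1` and `v_0 f`):

* `hsurj` : norm-controlled decomposition `L(D0 + k E1 + k E2) = L(D0 + k₀ E1 + k₀ E2) +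
  L(D0 + k E1) + L(D0 + k E2)` for the weighted max-norm;
* `bas`, `horth` : a basis of `L(D0 + k₀ E1 + k₀ E2)`, orthonormal for the weighted max-norm;
* seeds `a₀ ∈ L(D0 + k₀ E1)`, `b₀ ∈ L(D0 + k₀ E2)`.

Conclusions: `L(D0) ≠ 0`; `D0` principal when `deg D0 = 0`; and the Kummer form
`a = c * V ^ m * b` is left to the consumers (`helper4226.exists_const_mul_pow_of_isPrincipal`).
-/
import Mathlib
import Fermat.Prelude.Def_AlgebraicCurve_Repartitions
import Fermat.Agent.S18.helper4226_KummerInst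
import Fermat.Agent.S35.helper1788_KummerMulti
import Fermat.Agent.S35.helper2459_KummerMultiSF

set_option autoImplicit false

open AlgebraicCurve

namespace Fermat.Agent.S35.helper1788

open Fermat.Agent.S18.helper4226

section Inst

variable {K F : Type*} [Field K] [Field F] [Algebra K F]

/-- **Generic-fibre instance of `kummer_multi`**: for the Riemann-Roch families attached to
`D0`, `E1`, `E2` (effective, disjoint supports) and `u` with `div u ≥ m • D0`, the special-fibre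
inputs of the multi-valuation core produce a nonzero element of `L(D0)`. -/
theorem exists_ne_zero_mem_rr_multi
    (D0 E1 E2 : Divisor K F) (hE1 : ∀ v : Place K F, 0 ≤ E1 v) (hE2 : ∀ v : Place K F, 0 ≤ E2 v)
    (hdisj : ∀ v : Place K F, E1 v = 0 ∨ E2 v = 0)
    (m : ℕ) (u : F) (hu : u ≠ 0) (hord : ∀ v : Place K F, (m : ℤ) * D0 v ≤ v.ord u)
    {Γ₀ : Type*} [LinearOrderedCommGroupWithZero Γ₀]
    {ι : Type*} [Finite ι] [Nonempty ι] (val : ι → Valuation F Γ₀)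
    (harch : ∀ ε κ : Γ₀, ε < 1 → κ ≠ 0 → ∃ n : ℕ, ε ^ n < κ) (hm : ∀ i, val i (m : F) = 1)
    (k₀ : ℕ) (w : ι → Γ₀)
    (hsurj : ∀ k : ℕ, k₀ ≤ k → ∀ c ∈ riemannRochSpace (D0 + k • E1 + k • E2), ∀ r : Γ₀,
      (∀ i, val i c ≤ r * w i) →
      ∃ c₀ ∈ riemannRochSpace (D0 + k₀ • E1 + k₀ • E2),
      ∃ a₁ ∈ riemannRochSpace (D0 + k • E1), ∃ b₁ ∈ riemannRochSpace (D0 + k • E2),
        c = c₀ + a₁ - b₁ ∧ (∀ i, val i a₁ ≤ r * w i) ∧ (∀ i, val i b₁ ≤ r * w i) ∧
          (∀ i, val i c₀ ≤ r * w i))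
    {τ : Type*} [Finite τ] (bas : Module.Basis τ K (riemannRochSpace (D0 + k₀ • E1 + k₀ • E2)))
    (horth : ∀ (x : riemannRochSpace (D0 + k₀ • E1 + k₀ • E2)) (r : Γ₀),
      (∀ i, val i (x : F) ≤ r * w i) →
      ∀ (t : τ) (i : ι), val i (algebraMap K F (bas.repr x t)) ≤ r)
    (a₀ b₀ : F) (ha₀ : a₀ ∈ riemannRochSpace (D0 + k₀ • E1))
    (hb₀ : b₀ ∈ riemannRochSpace (D0 + k₀ • E2)) (hva₀ : ∀ i, val i a₀ = w i)
    (hab₀ : ∀ i, val i (a₀ - b₀) < w i) (hsa₀ : ∀ i, val i (a₀ ^ m * u - 1) < 1)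
    (hsb₀ : ∀ i, val i (b₀ ^ m * u - 1) < 1) :
    ∃ f : F, f ≠ 0 ∧ f ∈ riemannRochSpace D0 := by
  obtain ⟨f, hf0, hf1, hf2⟩ := kummer_multi val harch m hm u
    (fun k : ℕ => riemannRochSpace (D0 + k • E1)) (fun k : ℕ => riemannRochSpace (D0 + k • E2))
    (fun k : ℕ => riemannRochSpace (D0 + k • E1 + k • E2))
    (fun k : ℕ => riemannRochSpace (k • E1)) (fun k : ℕ => riemannRochSpace (k • E2))
    (kc_hM1 D0 E1 E2 hE2) (kc_hM2 D0 E1 E2 hE1) (kc_hP1 E1 hE1) (kc_hP1 E2 hE2)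
    (kc_hP D0 E1 m u hu hord) (kc_hP D0 E2 m u hu hord) (kc_hPM D0 E1) (kc_hPM D0 E2)
    k₀ (kc_hsep D0 E1 E2 hE1 hE2 hdisj k₀) w hsurj bas horth a₀ b₀ ha₀ hb₀ hva₀ hab₀ hsa₀ hsb₀
  refine ⟨f, hf0, ?_⟩
  rw [← rr_inf_eq D0 E1 E2 hE1 hE2 hdisj k₀]
  exact ⟨hf1, hf2⟩

/-- **Wrapper**: the special-fibre inputs of `kummer_multi` for the Riemann-Roch families of
`D0`, `E1`, `E2` imply that the degree zero divisor `D0` (with `m • D0 = div u`) is principal. -/
theorem isPrincipal_of_kummer_multi [HasPrincipalDivisors K F]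
    (hdeg : ∀ v : Place K F, 0 < v.deg)
    (D0 E1 E2 : Divisor K F) (hE1 : ∀ v : Place K F, 0 ≤ E1 v) (hE2 : ∀ v : Place K F, 0 ≤ E2 v)
    (hdisj : ∀ v : Place K F, E1 v = 0 ∨ E2 v = 0) (hD0 : Divisor.degree D0 = 0)
    (m : ℕ) (u : F) (hu : u ≠ 0) (hord : ∀ v : Place K F, (m : ℤ) * D0 v = v.ord u)
    {Γ₀ : Type*} [LinearOrderedCommGroupWithZero Γ₀]
    {ι : Type*} [Finite ι] [Nonempty ι] (val : ι → Valuation F Γ₀)
    (harch : ∀ ε κ : Γ₀, ε < 1 → κ ≠ 0 → ∃ n : ℕ, ε ^ n < κ) (hm : ∀ i, val i (m : F) = 1)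
    (k₀ : ℕ) (w : ι → Γ₀)
    (hsurj : ∀ k : ℕ, k₀ ≤ k → ∀ c ∈ riemannRochSpace (D0 + k • E1 + k • E2), ∀ r : Γ₀,
      (∀ i, val i c ≤ r * w i) →
      ∃ c₀ ∈ riemannRochSpace (D0 + k₀ • E1 + k₀ • E2),
      ∃ a₁ ∈ riemannRochSpace (D0 + k • E1), ∃ b₁ ∈ riemannRochSpace (D0 + k • E2),
        c = c₀ + a₁ - b₁ ∧ (∀ i, val i a₁ ≤ r * w i) ∧ (∀ i, val i b₁ ≤ r * w i) ∧
          (∀ i, val i c₀ ≤ r * w i))
    {τ : Type*} [Finite τ] (bas : Module.Basis τ K (riemannRochSpace (D0 + k₀ • E1 + k₀ • E2)))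
    (horth : ∀ (x : riemannRochSpace (D0 + k₀ • E1 + k₀ • E2)) (r : Γ₀),
      (∀ i, val i (x : F) ≤ r * w i) →
      ∀ (t : τ) (i : ι), val i (algebraMap K F (bas.repr x t)) ≤ r)
    (a₀ b₀ : F) (ha₀ : a₀ ∈ riemannRochSpace (D0 + k₀ • E1))
    (hb₀ : b₀ ∈ riemannRochSpace (D0 + k₀ • E2)) (hva₀ : ∀ i, val i a₀ = w i)
    (hab₀ : ∀ i, val i (a₀ - b₀) < w i) (hsa₀ : ∀ i, val i (a₀ ^ m * u - 1) < 1)
    (hsb₀ : ∀ i, val i (b₀ ^ m * u - 1) < 1) :
    Divisor.IsPrincipal D0 := by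
  obtain ⟨f, hf0, hf⟩ := exists_ne_zero_mem_rr_multi D0 E1 E2 hE1 hE2 hdisj m u hu
    (fun v => (hord v).le) val harch hm k₀ w hsurj bas horth a₀ b₀ ha₀ hb₀ hva₀ hab₀ hsa₀ hsb₀
  exact isPrincipal_of_mem_rr hdeg hD0 hf0 hf

/-- Kummer-pair shape of the wrapper: `m • D0 = div a - div b`, with `u := a * b⁻¹`. -/
theorem isPrincipal_of_kummer_multi_div [HasPrincipalDivisors K F]
    (hdeg : ∀ v : Place K F, 0 < v.deg)
    (D0 E1 E2 : Divisor K F) (hE1 : ∀ v : Place K F, 0 ≤ E1 v) (hE2 : ∀ v : Place K F, 0 ≤ E2 v)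
    (hdisj : ∀ v : Place K F, E1 v = 0 ∨ E2 v = 0) (hD0 : Divisor.degree D0 = 0)
    (m : ℕ) (a b : F) (ha : a ≠ 0) (hb : b ≠ 0)
    (hord : ∀ v : Place K F, (m : ℤ) * D0 v = v.ord a - v.ord b)
    {Γ₀ : Type*} [LinearOrderedCommGroupWithZero Γ₀]
    {ι : Type*} [Finite ι] [Nonempty ι] (val : ι → Valuation F Γ₀)
    (harch : ∀ ε κ : Γ₀, ε < 1 → κ ≠ 0 → ∃ n : ℕ, ε ^ n < κ) (hm : ∀ i, val i (m : F) = 1)
    (k₀ : ℕ) (w : ι → Γ₀)
    (hsurj : ∀ k : ℕ, k₀ ≤ k → ∀ c ∈ riemannRochSpace (D0 + k • E1 + k • E2), ∀ r : Γ₀,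
      (∀ i, val i c ≤ r * w i) →
      ∃ c₀ ∈ riemannRochSpace (D0 + k₀ • E1 + k₀ • E2),
      ∃ a₁ ∈ riemannRochSpace (D0 + k • E1), ∃ b₁ ∈ riemannRochSpace (D0 + k • E2),
        c = c₀ + a₁ - b₁ ∧ (∀ i, val i a₁ ≤ r * w i) ∧ (∀ i, val i b₁ ≤ r * w i) ∧
          (∀ i, val i c₀ ≤ r * w i))
    {τ : Type*} [Finite τ] (bas : Module.Basis τ K (riemannRochSpace (D0 + k₀ • E1 + k₀ • E2)))
    (horth : ∀ (x : riemannRochSpace (D0 + k₀ • E1 + k₀ • E2)) (r : Γ₀),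
      (∀ i, val i (x : F) ≤ r * w i) →
      ∀ (t : τ) (i : ι), val i (algebraMap K F (bas.repr x t)) ≤ r)
    (a₀ b₀ : F) (ha₀ : a₀ ∈ riemannRochSpace (D0 + k₀ • E1))
    (hb₀ : b₀ ∈ riemannRochSpace (D0 + k₀ • E2)) (hva₀ : ∀ i, val i a₀ = w i)
    (hab₀ : ∀ i, val i (a₀ - b₀) < w i) (hsa₀ : ∀ i, val i (a₀ ^ m * (a * b⁻¹) - 1) < 1)
    (hsb₀ : ∀ i, val i (b₀ ^ m * (a * b⁻¹) - 1) < 1) :
    Divisor.IsPrincipal D0 :=
  isPrincipal_of_kummer_multi hdeg D0 E1 E2 hE1 hE2 hdisj hD0 m (a * b⁻¹)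
    (mul_ne_zero ha (inv_ne_zero hb))
    (fun v => by rw [v.ord_mul ha (inv_ne_zero hb), v.ord_inv, hord v]; ring)
    val harch hm k₀ w hsurj bas horth a₀ b₀ ha₀ hb₀ hva₀ hab₀ hsa₀ hsb₀

/-- The two-valuation form (`v₁ = v_∞`, `v₂ = v_0`), weights `v₁ a₀`, `v₂ a₀`: same binders as
`helper763.kummer_core_two`, for the Riemann-Roch families, Kummer-pair shape
`m • D0 = div a - div b`. -/
theorem isPrincipal_of_kummer_two_div [HasPrincipalDivisors K F]
    (hdeg : ∀ v : Place K F, 0 < v.deg)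
    (D0 E1 E2 : Divisor K F) (hE1 : ∀ v : Place K F, 0 ≤ E1 v) (hE2 : ∀ v : Place K F, 0 ≤ E2 v)
    (hdisj : ∀ v : Place K F, E1 v = 0 ∨ E2 v = 0) (hD0 : Divisor.degree D0 = 0)
    (m : ℕ) (a b : F) (ha : a ≠ 0) (hb : b ≠ 0)
    (hord : ∀ v : Place K F, (m : ℤ) * D0 v = v.ord a - v.ord b)
    {Γ₀ : Type*} [LinearOrderedCommGroupWithZero Γ₀] (v₁ v₂ : Valuation F Γ₀)
    (harch : ∀ ε κ : Γ₀, ε < 1 → κ ≠ 0 → ∃ n : ℕ, ε ^ n < κ)
    (hm₁ : v₁ (m : F) = 1) (hm₂ : v₂ (m : F) = 1)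
    (k₀ : ℕ) (a₀ b₀ : F) (ha₀ : a₀ ∈ riemannRochSpace (D0 + k₀ • E1))
    (hb₀ : b₀ ∈ riemannRochSpace (D0 + k₀ • E2))
    (hsurj : ∀ k : ℕ, k₀ ≤ k → ∀ c ∈ riemannRochSpace (D0 + k • E1 + k • E2), ∀ r : Γ₀,
      v₁ c ≤ r * v₁ a₀ → v₂ c ≤ r * v₂ a₀ →
      ∃ c₀ ∈ riemannRochSpace (D0 + k₀ • E1 + k₀ • E2),
      ∃ a₁ ∈ riemannRochSpace (D0 + k • E1), ∃ b₁ ∈ riemannRochSpace (D0 + k • E2),
        c = c₀ + a₁ - b₁ ∧
        (v₁ a₁ ≤ r * v₁ a₀ ∧ v₁ b₁ ≤ r * v₁ a₀ ∧ v₁ c₀ ≤ r * v₁ a₀) ∧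
        (v₂ a₁ ≤ r * v₂ a₀ ∧ v₂ b₁ ≤ r * v₂ a₀ ∧ v₂ c₀ ≤ r * v₂ a₀))
    {τ : Type*} [Finite τ] (bas : Module.Basis τ K (riemannRochSpace (D0 + k₀ • E1 + k₀ • E2)))
    (horth : ∀ (x : riemannRochSpace (D0 + k₀ • E1 + k₀ • E2)) (r : Γ₀),
      v₁ (x : F) ≤ r * v₁ a₀ → v₂ (x : F) ≤ r * v₂ a₀ →
      ∀ t : τ, v₁ (algebraMap K F (bas.repr x t)) ≤ r ∧ v₂ (algebraMap K F (bas.repr x t)) ≤ r)
    (hab₁ : v₁ (a₀ - b₀) < v₁ a₀) (hab₂ : v₂ (a₀ - b₀) < v₂ a₀)
    (hsa₁ : v₁ (a₀ ^ m * (a * b⁻¹) - 1) < 1) (hsa₂ : v₂ (a₀ ^ m * (a * b⁻¹) - 1) < 1)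
    (hsb₁ : v₁ (b₀ ^ m * (a * b⁻¹) - 1) < 1) (hsb₂ : v₂ (b₀ ^ m * (a * b⁻¹) - 1) < 1) :
    Divisor.IsPrincipal D0 := by
  refine isPrincipal_of_kummer_multi_div hdeg D0 E1 E2 hE1 hE2 hdisj hD0 m a b ha hb hord
    (fun i : Bool => if i then v₁ else v₂) harch ?_ k₀ (fun i : Bool => if i then v₁ a₀ else v₂ a₀)
    ?_ bas ?_ a₀ b₀ ha₀ hb₀ ?_ ?_ ?_ ?_
  · rintro (_ | _)
    · simpa using hm₂
    · simpa using hm₁
  · intro k hk c hc r hr
    obtain ⟨c₀, hc₀, a₁, ha₁, b₁, hb₁, hceq, ⟨h1a, h1b, h1c⟩, ⟨h2a, h2b, h2c⟩⟩ :=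
      hsurj k hk c hc r (by simpa using hr true) (by simpa using hr false)
    refine ⟨c₀, hc₀, a₁, ha₁, b₁, hb₁, hceq, ?_, ?_, ?_⟩
    · rintro (_ | _)
      · simpa using h2a
      · simpa using h1a
    · rintro (_ | _)
      · simpa using h2b
      · simpa using h1b
    · rintro (_ | _)
      · simpa using h2c
      · simpa using h1c
  · intro x r hr t
    have h := horth x r (by simpa using hr true) (by simpa using hr false) t
    rintro (_ | _)
    · simpa using h.2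
    · simpa using h.1
  · rintro (_ | _) <;> simp
  · rintro (_ | _)
    · simpa using hab₂
    · simpa using hab₁
  · rintro (_ | _)
    · simpa using hsa₂
    · simpa using hsa₁
  · rintro (_ | _)
    · simpa using hsb₂
    · simpa using hsb₁

end Inst

/-! ### Riemann-Roch families with special-fibre inputs -/

section SpecialFibre

open Fermat.Agent.S35.helper2459

variable {K F : Type*} [Field K] [Field F] [Algebra K F]

/-- **Generic fibre + special fibre.** `helper2459.kummer_core_special_fibreW` for the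
Riemann-Roch families `M1 k = L(D0 + k E1)`, `M2 k = L(D0 + k E2)`,
`M12 k = L(D0 + k E1 + k E2)`: all generic-fibre hypotheses are discharged, the remaining
inputs live on the special fibre (reduction data `RedDataW` for the weighted max-norm of the
family `val`, cartesian Riemann-Roch spaces, subspaces `N1 k`, `N2 k`, `N12 k` of the special
fibre with the Čech sum formula and the three surjectivities, a class `θ ∈ N1 k₀ ⊓ N2 k₀` with
`θ ^ m * υ = 1`).  Conclusion: `L(D0) ≠ 0`. -/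
theorem exists_ne_zero_mem_rr_of_special_fibreW
    (D0 E1 E2 : Divisor K F) (hE1 : ∀ v : Place K F, 0 ≤ E1 v) (hE2 : ∀ v : Place K F, 0 ≤ E2 v)
    (hdisj : ∀ v : Place K F, E1 v = 0 ∨ E2 v = 0)
    (m : ℕ) (u : F) (hu0 : u ≠ 0) (hord : ∀ v : Place K F, (m : ℤ) * D0 v ≤ v.ord u)
    {Γ₀ : Type*} [LinearOrderedCommGroupWithZero Γ₀]
    {ι : Type*} [Finite ι] [Nonempty ι] (val : ι → Valuation F Γ₀) (w : ι → Γ₀)
    (vK : Valuation K Γ₀)
    (harch : ∀ ε κ : Γ₀, ε < 1 → κ ≠ 0 → ∃ n : ℕ, ε ^ n < κ) (hm : ∀ i, val i (m : F) = 1)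
    (hu : ∀ i, val i u * w i ^ m = 1) (k₀ : ℕ)
    {kk : Type*} [Field kk] {Fk : Type*} [CommRing Fk] [Algebra kk Fk] {red redM : F → Fk}
    (hred : RedDataW val w vK kk red redM)
    (hVG : ∀ (i : ι) (f : F), f ≠ 0 → ∃ c : K, vK c = val i f / w i)
    (hcart : ∀ k : ℕ, k₀ ≤ k → CartesianW val w vK (riemannRochSpace (D0 + k • E1 + k • E2)))
    (N1 N2 N12 : ℕ → Submodule kk Fk)
    (hcont : ∀ k : ℕ, k₀ ≤ k → ∀ a ∈ riemannRochSpace (D0 + k • E1 + k • E2),
      (∀ i, val i a ≤ w i) → redM a ∈ N12 k)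
    (hsum : ∀ k, k₀ ≤ k → N12 k ≤ N12 k₀ ⊔ N1 k ⊔ N2 k)
    (hs12 : ∀ y ∈ N12 k₀, ∃ a ∈ riemannRochSpace (D0 + k₀ • E1 + k₀ • E2),
      (∀ i, val i a ≤ w i) ∧ redM a = y)
    (hs1 : ∀ k : ℕ, k₀ ≤ k → ∀ y ∈ N1 k, ∃ a ∈ riemannRochSpace (D0 + k • E1),
      (∀ i, val i a ≤ w i) ∧ redM a = y)
    (hs2 : ∀ k : ℕ, k₀ ≤ k → ∀ y ∈ N2 k, ∃ a ∈ riemannRochSpace (D0 + k • E2),
      (∀ i, val i a ≤ w i) ∧ redM a = y)
    (υ : Fk) (hpow : ∀ a : F, (∀ i, val i a ≤ w i) → red (a ^ m * u) = redM a ^ m * υ)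
    (θ : Fk) (hθ1 : θ ∈ N1 k₀) (hθ2 : θ ∈ N2 k₀) (hθ : θ ^ m * υ = 1) :
    ∃ f : F, f ≠ 0 ∧ f ∈ riemannRochSpace D0 := by
  have hmono : ∀ k : ℕ, k₀ ≤ k →
      riemannRochSpace (D0 + k₀ • E1 + k₀ • E2) ≤ riemannRochSpace (D0 + k • E1 + k • E2) :=
    fun k hk => rr_le_of_le fun v => by
      rw [add_nsmul_add_nsmul_apply, add_nsmul_add_nsmul_apply]
      have hk' : (k₀ : ℤ) ≤ k := by exact_mod_cast hk
      have h1 := mul_le_mul_of_nonneg_right hk' (hE1 v)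
      have h2 := mul_le_mul_of_nonneg_right hk' (hE2 v)
      linarith
  obtain ⟨f, hf0, hf1, hf2⟩ := kummer_core_special_fibreW val w vK harch m hm u hu
    (fun k : ℕ => riemannRochSpace (D0 + k • E1)) (fun k : ℕ => riemannRochSpace (D0 + k • E2))
    (fun k : ℕ => riemannRochSpace (D0 + k • E1 + k • E2))
    (fun k : ℕ => riemannRochSpace (k • E1)) (fun k : ℕ => riemannRochSpace (k • E2))
    (kc_hM1 D0 E1 E2 hE2) (kc_hM2 D0 E1 E2 hE1) (kc_hP1 E1 hE1) (kc_hP1 E2 hE2)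
    (kc_hP D0 E1 m u hu0 hord) (kc_hP D0 E2 m u hu0 hord) (kc_hPM D0 E1) (kc_hPM D0 E2)
    k₀ (kc_hsep D0 E1 E2 hE1 hE2 hdisj k₀) hmono hred hVG hcart N1 N2 N12 hcont hsum hs12 hs1 hs2
    υ hpow θ hθ1 hθ2 hθ
  refine ⟨f, hf0, ?_⟩
  rw [← rr_inf_eq D0 E1 E2 hE1 hE2 hdisj k₀]
  exact ⟨hf1, hf2⟩

/-- **Kummer-pair form**: `m • D0 = div a - div b`, `deg D0 = 0`, special-fibre inputs as in
`exists_ne_zero_mem_rr_of_special_fibreW` for `u := a * b⁻¹` ⟹ `D0` is principal. -/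
theorem isPrincipal_of_special_fibreW [HasPrincipalDivisors K F]
    (hdeg : ∀ v : Place K F, 0 < v.deg)
    (D0 E1 E2 : Divisor K F) (hE1 : ∀ v : Place K F, 0 ≤ E1 v) (hE2 : ∀ v : Place K F, 0 ≤ E2 v)
    (hdisj : ∀ v : Place K F, E1 v = 0 ∨ E2 v = 0) (hD0 : Divisor.degree D0 = 0)
    (m : ℕ) (a b : F) (ha : a ≠ 0) (hb : b ≠ 0)
    (hord : ∀ v : Place K F, (m : ℤ) * D0 v = v.ord a - v.ord b)
    {Γ₀ : Type*} [LinearOrderedCommGroupWithZero Γ₀]
    {ι : Type*} [Finite ι] [Nonempty ι] (val : ι → Valuation F Γ₀) (w : ι → Γ₀)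
    (vK : Valuation K Γ₀)
    (harch : ∀ ε κ : Γ₀, ε < 1 → κ ≠ 0 → ∃ n : ℕ, ε ^ n < κ) (hm : ∀ i, val i (m : F) = 1)
    (hu : ∀ i, val i (a * b⁻¹) * w i ^ m = 1) (k₀ : ℕ)
    {kk : Type*} [Field kk] {Fk : Type*} [CommRing Fk] [Algebra kk Fk] {red redM : F → Fk}
    (hred : RedDataW val w vK kk red redM)
    (hVG : ∀ (i : ι) (f : F), f ≠ 0 → ∃ c : K, vK c = val i f / w i)
    (hcart : ∀ k : ℕ, k₀ ≤ k → CartesianW val w vK (riemannRochSpace (D0 + k • E1 + k • E2)))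
    (N1 N2 N12 : ℕ → Submodule kk Fk)
    (hcont : ∀ k : ℕ, k₀ ≤ k → ∀ c ∈ riemannRochSpace (D0 + k • E1 + k • E2),
      (∀ i, val i c ≤ w i) → redM c ∈ N12 k)
    (hsum : ∀ k, k₀ ≤ k → N12 k ≤ N12 k₀ ⊔ N1 k ⊔ N2 k)
    (hs12 : ∀ y ∈ N12 k₀, ∃ c ∈ riemannRochSpace (D0 + k₀ • E1 + k₀ • E2),
      (∀ i, val i c ≤ w i) ∧ redM c = y)
    (hs1 : ∀ k : ℕ, k₀ ≤ k → ∀ y ∈ N1 k, ∃ c ∈ riemannRochSpace (D0 + k • E1),
      (∀ i, val i c ≤ w i) ∧ redM c = y)
    (hs2 : ∀ k : ℕ, k₀ ≤ k → ∀ y ∈ N2 k, ∃ c ∈ riemannRochSpace (D0 + k • E2),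
      (∀ i, val i c ≤ w i) ∧ redM c = y)
    (υ : Fk)
    (hpow : ∀ c : F, (∀ i, val i c ≤ w i) → red (c ^ m * (a * b⁻¹)) = redM c ^ m * υ)
    (θ : Fk) (hθ1 : θ ∈ N1 k₀) (hθ2 : θ ∈ N2 k₀) (hθ : θ ^ m * υ = 1) :
    Divisor.IsPrincipal D0 := by
  obtain ⟨f, hf0, hf⟩ := exists_ne_zero_mem_rr_of_special_fibreW D0 E1 E2 hE1 hE2 hdisj m
    (a * b⁻¹) (mul_ne_zero ha (inv_ne_zero hb))
    (fun v => by rw [v.ord_mul ha (inv_ne_zero hb), v.ord_inv, hord v]; linarith)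
    val w vK harch hm hu k₀ hred hVG hcart N1 N2 N12 hcont hsum hs12 hs1 hs2 υ hpow θ hθ1 hθ2 hθ
  exact isPrincipal_of_mem_rr hdeg hD0 hf0 hf

end SpecialFibre

/-! ### The count layer: special-fibre inputs from dimension counts

The multi-valuation twin of `Fermat.Agent.S18.helper2030.FFDataG.exists_mem_rr`: the special
fibre enters only through a two-parameter family `N a b` of finite-dimensional subspaces
(monotone, `N a b ⊓ N a' b' ≤ N a b'`, receiving the reductions of the unit balls, of dimension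
at most `(a + b) d + 1 - γ`), and the generic fibre through Riemann's inequality with the same
`γ`.  The squeeze (surjectivity of the reductions) and the Čech sum formula
`N k k ≤ N k₀ k₀ ⊔ N k 0 ⊔ N 0 k` follow by counting. -/

section Count

open Fermat.Agent.S35.helper2459

variable {L F Γ₀ : Type*} [Field L] [Field F] [Algebra L F] [LinearOrderedCommGroupWithZero Γ₀]
variable {ι : Type*} {v : ι → Valuation F Γ₀} {w : ι → Γ₀} {vL : Valuation L Γ₀}
  {kk : Type*} [Field kk] {Fk : Type*} [CommRing Fk] [Algebra kk Fk] {red redM : F → Fk}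

/-- A cartesian subspace whose unit ball reduces into `N` has dimension at most `dim N`
(the reductions of an orthonormal basis are linearly independent). -/
theorem finrank_le_of_cartesianW [Finite ι] [Nonempty ι] (h : RedDataW v w vL kk red redM)
    {M : Submodule L F} (hM : CartesianW v w vL M)
    (N : Submodule kk Fk) [Module.Finite kk N]
    (hcont : ∀ a ∈ M, (∀ i, v i a ≤ w i) → redM a ∈ N) :
    Module.finrank L M ≤ Module.finrank kk N := by
  classical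
  obtain ⟨n, e, heM, he1, horth, hspan⟩ := hM
  have := h.nontrivial
  have hli : LinearIndependent L e := linearIndependent_of_orthoW horth
  have hfr : Module.finrank L M = n := by
    rw [← hspan, finrank_span_eq_card hli, Fintype.card_fin]
  have hball : ∀ c : Fin n → L, (∀ j, vL (c j) ≤ 1) → ∀ i, v i (∑ j, c j • e j) ≤ w i :=
    fun c hc i => (v i).map_sum_le fun j _ => h.smul_mem_ball (c j) (hc j) (e j) (he1 j) i
  have hredsum : ∀ c : Fin n → L, (∀ j, vL (c j) ≤ 1) →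
      redM (∑ j, c j • e j) = ∑ j, red (algebraMap L F (c j)) * redM (e j) := by
    intro c hc
    rw [h.mapM_sum]
    · exact Finset.sum_congr rfl fun j _ => h.mapM_smul (c j) (hc j) (e j) (he1 j)
    · intro j _
      exact h.smul_mem_ball (c j) (hc j) (e j) (he1 j)
  set eb : Fin n → N := fun j => ⟨redM (e j), hcont (e j) (heM j) (he1 j)⟩ with heb
  have hlib : LinearIndependent kk eb := by
    rw [Fintype.linearIndependent_iff]
    intro g hg j
    choose c hc1 hc2 using fun j => h.exists_const (g j)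
    have h0 : redM (∑ j, c j • e j) = 0 := by
      rw [hredsum c hc1]
      have h2 := congrArg (Subtype.val : N → Fk) hg
      rw [Submodule.coe_sum] at h2
      simp only [Submodule.coe_smul, heb, Submodule.coe_zero] at h2
      rw [← h2]
      exact Finset.sum_congr rfl fun j _ => by rw [hc2 j, Algebra.smul_def]
    have hlt := (h.eqM_zero_iff _ (hball c hc1)).mp h0
    obtain ⟨r, hr1, hr⟩ := exists_lt_one_radius (fun i => v i (∑ j, c j • e j)) w hlt
    have hcj : vL (c j) < 1 := lt_of_le_of_lt (horth c r hr j) hr1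
    have hrj := (h.eq_zero_iff (algebraMap L F (c j))
      (fun i => by rw [h.val_algebraMap]; exact hc1 j)).mpr
      (fun i => by rw [h.val_algebraMap]; exact hcj)
    rw [hc2 j] at hrj
    exact (map_eq_zero_iff _ (algebraMap kk Fk).injective).mp hrj
  have h1 := hlib.fintype_card_le_finrank
  rw [Fintype.card_fin] at h1
  rw [hfr]
  exact h1

/-- Sum formula by counting: `A, B ≤ C`, `A ⊓ B ≤ D` and `dim C + dim D ≤ dim A + dim B` give
`C ≤ A ⊔ B`. -/
theorem le_sup_of_finrank {X : Type*} [AddCommGroup X] [Module kk X]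
    (A B C D : Submodule kk X) [Module.Finite kk A] [Module.Finite kk B] [Module.Finite kk C]
    [Module.Finite kk D] (hA : A ≤ C) (hB : B ≤ C) (hinf : A ⊓ B ≤ D)
    (hdim : Module.finrank kk C + Module.finrank kk D ≤
      Module.finrank kk A + Module.finrank kk B) : C ≤ A ⊔ B := by
  have h1 := Submodule.finrank_sup_add_finrank_inf_eq A B
  have h2 : Module.finrank kk ↥(A ⊓ B) ≤ Module.finrank kk D := Submodule.finrank_mono hinf
  have h3 : Module.finrank kk C ≤ Module.finrank kk ↥(A ⊔ B) := by omega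
  exact (Submodule.eq_of_le_of_finrank_le (sup_le hA hB) h3).ge

/-- **Multi-valuation Kummer core, count form** (abstract two-parameter families).
`M a b` plays the role of `L(D0 + a E1 + b E2)`, `P k` of `L(k E1)`, `Q k` of `L(k E2)`. -/
theorem kummer_core_countW [Finite ι] [Nonempty ι]
    (v : ι → Valuation F Γ₀) (w : ι → Γ₀) (vL : Valuation L Γ₀)
    (harch : ∀ ε κ : Γ₀, ε < 1 → κ ≠ 0 → ∃ n : ℕ, ε ^ n < κ)
    (m : ℕ) (hm : ∀ i, v i (m : F) = 1) (u : F) (hu : ∀ i, v i u * w i ^ m = 1)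
    (M : ℕ → ℕ → Submodule L F) (P Q : ℕ → Submodule L F)
    (hMmono : ∀ a a' b b' : ℕ, a ≤ a' → b ≤ b' → M a b ≤ M a' b')
    (hP1 : ∀ k, (1 : F) ∈ P k) (hQ1 : ∀ k, (1 : F) ∈ Q k)
    (hP : ∀ k, ∀ a ∈ M k 0, a ^ m * u ∈ P (m * k))
    (hQ : ∀ k, ∀ b ∈ M 0 k, b ^ m * u ∈ Q (m * k))
    (hPM : ∀ j k, ∀ s ∈ P j, ∀ a ∈ M k 0, s * a ∈ M (j + k) 0)
    (hQM : ∀ j k, ∀ s ∈ Q j, ∀ b ∈ M 0 k, s * b ∈ M 0 (j + k))
    (hMsep : ∀ k₀ k : ℕ, k₀ ≤ k → ∀ a ∈ M k 0, ∀ b ∈ M 0 k, a - b ∈ M k₀ k₀ →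
      a ∈ M k₀ 0 ∧ b ∈ M 0 k₀)
    {red redM : F → Fk} (hred : RedDataW v w vL kk red redM)
    (hVG : ∀ (i : ι) (f : F), f ≠ 0 → ∃ c : L, vL c = v i f / w i)
    (hcart : ∀ a b : ℕ, CartesianW v w vL (M a b))
    (d γ c : ℤ) (hd : 0 < d)
    (hRiemF : ∀ a b : ℕ, c ≤ ((a : ℤ) + b) * d →
      ((a : ℤ) + b) * d + 1 - γ ≤ (Module.finrank L (M a b) : ℤ))
    (N : ℕ → ℕ → Submodule kk Fk) (hfin : ∀ a b : ℕ, Module.Finite kk (N a b))
    (hNmono : ∀ a a' b b' : ℕ, a ≤ a' → b ≤ b' → N a b ≤ N a' b')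
    (hNinf : ∀ a a' b b' : ℕ, a ≤ a' → b' ≤ b → N a b ⊓ N a' b' ≤ N a b')
    (hNred : ∀ a b : ℕ, ∀ x ∈ M a b, (∀ i, v i x ≤ w i) → redM x ∈ N a b)
    (hRiemk : ∀ a b : ℕ, c ≤ ((a : ℤ) + b) * d →
      (Module.finrank kk (N a b) : ℤ) ≤ ((a : ℤ) + b) * d + 1 - γ)
    (υ : Fk) (hpow : ∀ a : F, (∀ i, v i a ≤ w i) → red (a ^ m * u) = redM a ^ m * υ)
    (θ : Fk) (hθ0 : θ ∈ N 0 0) (hθ : θ ^ m * υ = 1) :
    ∃ f : F, f ≠ 0 ∧ f ∈ M 0 0 := by
  -- a level in the Riemann range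
  obtain ⟨k₀, hk₀⟩ : ∃ k₀ : ℕ, c ≤ (k₀ : ℤ) * d := by
    refine ⟨c.toNat, ?_⟩
    have h1 : c ≤ (c.toNat : ℤ) := Int.self_le_toNat c
    have h2 : (0 : ℤ) ≤ (c.toNat : ℤ) := Int.natCast_nonneg _
    nlinarith
  have hrange : ∀ a b : ℕ, k₀ ≤ a + b → c ≤ ((a : ℤ) + b) * d := by
    intro a b hab
    have h1 : (k₀ : ℤ) ≤ (a : ℤ) + b := by exact_mod_cast hab
    nlinarith
  -- the squeeze: exact dimension and surjectivity in the Riemann range
  have hsq : ∀ a b : ℕ, c ≤ ((a : ℤ) + b) * d →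
      (Module.finrank kk (N a b) : ℤ) = ((a : ℤ) + b) * d + 1 - γ ∧
        ∀ y ∈ N a b, ∃ x ∈ M a b, (∀ i, v i x ≤ w i) ∧ redM x = y := by
    intro a b hab
    have := hfin a b
    have h1 := finrank_le_of_cartesianW hred (hcart a b) (N a b) (hNred a b)
    have h1' : (Module.finrank L (M a b) : ℤ) ≤ (Module.finrank kk (N a b) : ℤ) := by
      exact_mod_cast h1
    have h2 := hRiemF a b hab
    have h3 := hRiemk a b hab
    have h4 : Module.finrank kk (N a b) ≤ Module.finrank L (M a b) := by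
      have : (Module.finrank kk (N a b) : ℤ) ≤ (Module.finrank L (M a b) : ℤ) := by linarith
      exact_mod_cast this
    exact ⟨by linarith, squeezeW hred (hcart a b) (N a b) (hNred a b) h4⟩
  -- sum formula for a rectangle
  have hsup : ∀ a a' b b' : ℕ, a ≤ a' → b' ≤ b → c ≤ ((a : ℤ) + b') * d →
      N a' b ≤ N a b ⊔ N a' b' := by
    intro a a' b b' ha hb hc
    have ha' : (a : ℤ) ≤ a' := by exact_mod_cast ha
    have hb' : (b' : ℤ) ≤ b := by exact_mod_cast hb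
    have := hfin a b
    have := hfin a' b'
    have := hfin a b'
    have := hfin a' b
    have e1 := (hsq a b (by nlinarith)).1
    have e2 := (hsq a' b' (by nlinarith)).1
    have e3 := (hsq a b' hc).1
    have e4 := (hsq a' b (by nlinarith)).1
    refine le_sup_of_finrank (N a b) (N a' b') (N a' b) (N a b')
      (hNmono a a' b b ha le_rfl) (hNmono a' a' b' b le_rfl hb) (hNinf a a' b b' ha hb) ?_
    have : ((Module.finrank kk (N a' b) + Module.finrank kk (N a b') : ℕ) : ℤ) ≤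
        ((Module.finrank kk (N a b) + Module.finrank kk (N a' b') : ℕ) : ℤ) := by
      push_cast
      rw [e1, e2, e3, e4]
      linarith
    exact_mod_cast this
  have hsum : ∀ k, k₀ ≤ k → N k k ≤ N k₀ k₀ ⊔ N k 0 ⊔ N 0 k := by
    intro k hk
    have h1 := hsup k₀ k k₀ 0 hk (Nat.zero_le _) (by simpa using hk₀)
    have h2 := hsup 0 k k k₀ (Nat.zero_le _) hk (by simpa using hk₀)
    refine h2.trans ?_
    rw [sup_comm]
    exact sup_le_sup_right h1 _
  obtain ⟨f, hf0, hf1, hf2⟩ := kummer_core_special_fibreW v w vL harch m hm u hu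
    (fun k => M k 0) (fun k => M 0 k) (fun k => M k k) P Q
    (fun k => hMmono k k 0 k le_rfl (Nat.zero_le k))
    (fun k => hMmono 0 k k k (Nat.zero_le k) le_rfl)
    hP1 hQ1 hP hQ hPM hQM k₀ (hMsep k₀) (fun k hk => hMmono k₀ k k₀ k hk hk) hred hVG
    (fun k _ => hcart k k) (fun k => N k 0) (fun k => N 0 k) (fun k => N k k)
    (fun k _ => hNred k k) hsum
    (hsq k₀ k₀ (hrange k₀ k₀ (Nat.le_add_right _ _))).2
    (fun k hk => (hsq k 0 (hrange k 0 (by simpa using hk))).2)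
    (fun k hk => (hsq 0 k (hrange 0 k (by simpa using hk))).2)
    υ hpow θ (hNmono 0 k₀ 0 0 (Nat.zero_le _) le_rfl hθ0)
    (hNmono 0 0 0 k₀ le_rfl (Nat.zero_le _) hθ0) hθ
  exact ⟨f, hf0, (hMsep 0 k₀ (Nat.zero_le _) f hf1 f hf2 (by rw [sub_self]; exact (M 0 0).zero_mem)).1⟩

end Count

/-! ### Count form for the Riemann-Roch families -/

section CountRR

open Fermat.Agent.S35.helper2459

variable {K F : Type*} [Field K] [Field F] [Algebra K F]

/-- **E4 in count form.** Generic fibre: `D0` of degree `0` with `m • D0 = div a - div b`,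
`E1`, `E2` effective with disjoint supports, every `L(D0 + p E1 + q E2)` cartesian for the
weighted max-norm of the family `val`, Riemann's inequality
`(p + q) d + 1 - γ ≤ dim L(D0 + p E1 + q E2)` in the range `c ≤ (p + q) d`.
Special fibre: reduction data and a two-parameter family `N p q` of finite-dimensional subspaces
which is monotone, satisfies `N p q ⊓ N p' q' ≤ N p q'` (`p ≤ p'`, `q' ≤ q`), receives the
reductions of the unit balls, has `dim N p q ≤ (p + q) d + 1 - γ` in the same range, and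
contains in `N 0 0` a class `θ` with `θ ^ m * υ = 1`.  Then `D0` is principal. -/
theorem isPrincipal_of_countW [HasPrincipalDivisors K F]
    (hdeg : ∀ v : Place K F, 0 < v.deg)
    (D0 E1 E2 : Divisor K F) (hE1 : ∀ v : Place K F, 0 ≤ E1 v) (hE2 : ∀ v : Place K F, 0 ≤ E2 v)
    (hdisj : ∀ v : Place K F, E1 v = 0 ∨ E2 v = 0) (hD0 : Divisor.degree D0 = 0)
    (m : ℕ) (a b : F) (ha : a ≠ 0) (hb : b ≠ 0)
    (hord : ∀ v : Place K F, (m : ℤ) * D0 v = v.ord a - v.ord b)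
    {Γ₀ : Type*} [LinearOrderedCommGroupWithZero Γ₀]
    {ι : Type*} [Finite ι] [Nonempty ι] (val : ι → Valuation F Γ₀) (w : ι → Γ₀)
    (vK : Valuation K Γ₀)
    (harch : ∀ ε κ : Γ₀, ε < 1 → κ ≠ 0 → ∃ n : ℕ, ε ^ n < κ) (hm : ∀ i, val i (m : F) = 1)
    (hu : ∀ i, val i (a * b⁻¹) * w i ^ m = 1)
    {kk : Type*} [Field kk] {Fk : Type*} [CommRing Fk] [Algebra kk Fk] {red redM : F → Fk}
    (hred : RedDataW val w vK kk red redM)
    (hVG : ∀ (i : ι) (f : F), f ≠ 0 → ∃ c : K, vK c = val i f / w i)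
    (hcart : ∀ p q : ℕ, CartesianW val w vK (riemannRochSpace (D0 + p • E1 + q • E2)))
    (d γ c : ℤ) (hd : 0 < d)
    (hRiemF : ∀ p q : ℕ, c ≤ ((p : ℤ) + q) * d → ((p : ℤ) + q) * d + 1 - γ ≤
      (Module.finrank K (riemannRochSpace (D0 + p • E1 + q • E2)) : ℤ))
    (N : ℕ → ℕ → Submodule kk Fk) (hfin : ∀ p q : ℕ, Module.Finite kk (N p q))
    (hNmono : ∀ p p' q q' : ℕ, p ≤ p' → q ≤ q' → N p q ≤ N p' q')
    (hNinf : ∀ p p' q q' : ℕ, p ≤ p' → q' ≤ q → N p q ⊓ N p' q' ≤ N p q')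
    (hNred : ∀ p q : ℕ, ∀ x ∈ riemannRochSpace (D0 + p • E1 + q • E2),
      (∀ i, val i x ≤ w i) → redM x ∈ N p q)
    (hRiemk : ∀ p q : ℕ, c ≤ ((p : ℤ) + q) * d →
      (Module.finrank kk (N p q) : ℤ) ≤ ((p : ℤ) + q) * d + 1 - γ)
    (υ : Fk)
    (hpow : ∀ x : F, (∀ i, val i x ≤ w i) → red (x ^ m * (a * b⁻¹)) = redM x ^ m * υ)
    (θ : Fk) (hθ0 : θ ∈ N 0 0) (hθ : θ ^ m * υ = 1) :
    Divisor.IsPrincipal D0 := by
  have hu0 : a * b⁻¹ ≠ 0 := mul_ne_zero ha (inv_ne_zero hb)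
  have hordu : ∀ v : Place K F, (m : ℤ) * D0 v ≤ v.ord (a * b⁻¹) := fun v => by
    rw [v.ord_mul ha (inv_ne_zero hb), v.ord_inv, hord v]; linarith
  have h10 : ∀ k : ℕ, D0 + k • E1 + (0 : ℕ) • E2 = D0 + k • E1 := fun k => by
    rw [zero_smul, add_zero]
  have h01 : ∀ k : ℕ, D0 + (0 : ℕ) • E1 + k • E2 = D0 + k • E2 := fun k => by
    rw [zero_smul, add_zero]
  obtain ⟨f, hf0, hf⟩ := kummer_core_countW val w vK harch m hm (a * b⁻¹) hu
    (fun p q : ℕ => riemannRochSpace (D0 + p • E1 + q • E2))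
    (fun k : ℕ => riemannRochSpace (k • E1)) (fun k : ℕ => riemannRochSpace (k • E2))
    (fun p p' q q' hp hq => rr_le_of_le fun v => by
      rw [Finsupp.add_apply, Finsupp.add_apply, Finsupp.smul_apply, Finsupp.smul_apply,
        nsmul_eq_mul, nsmul_eq_mul, Finsupp.add_apply, Finsupp.add_apply, Finsupp.smul_apply,
        Finsupp.smul_apply, nsmul_eq_mul, nsmul_eq_mul]
      have hp' : (p : ℤ) ≤ p' := by exact_mod_cast hp
      have hq' : (q : ℤ) ≤ q' := by exact_mod_cast hq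
      have h1 := mul_le_mul_of_nonneg_right hp' (hE1 v)
      have h2 := mul_le_mul_of_nonneg_right hq' (hE2 v)
      linarith)
    (kc_hP1 E1 hE1) (kc_hP1 E2 hE2)
    (fun k x hx => by
      rw [h10] at hx
      exact kc_hP D0 E1 m (a * b⁻¹) hu0 hordu k x hx)
    (fun k x hx => by
      rw [h01] at hx
      exact kc_hP D0 E2 m (a * b⁻¹) hu0 hordu k x hx)
    (fun j k s hs x hx => by
      rw [h10] at hx ⊢
      exact kc_hPM D0 E1 j k s hs x hx)
    (fun j k s hs x hx => by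
      rw [h01] at hx ⊢
      exact kc_hPM D0 E2 j k s hs x hx)
    (fun k₀ k hk x hx y hy hxy => by
      rw [h10] at hx ⊢
      rw [h01] at hy ⊢
      exact kc_hsep D0 E1 E2 hE1 hE2 hdisj k₀ k hk x hx y hy hxy)
    hred hVG hcart d γ c hd hRiemF N hfin hNmono hNinf hNred hRiemk υ hpow θ hθ0 hθ
  have hf' : f ∈ riemannRochSpace D0 := by
    have h00 : D0 + (0 : ℕ) • E1 + (0 : ℕ) • E2 = D0 := by
      rw [zero_smul, zero_smul, add_zero, add_zero]
    rw [h00] at hf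
    exact hf
  exact isPrincipal_of_mem_rr hdeg hD0 hf0 hf'

end CountRR

/-! ### Seed form: all special-fibre inputs are about the UNTWISTED structure

For a Kummer pair `u = a / b ≡ 1` modulo all the valuations (weights `1`), ONE section
`a₀ ∈ L(D0 + k₁ E1)` with `a₀ ≡ 1` makes the class trivial, as soon as the reduction of the
UNTWISTED lattices `L(p E1 + q E2)` is controlled by a family `N p q` (monotone, separated,
of the Riemann dimension, and saturated for `m`-th powers).  Nothing about the reduction of the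
twisted lattices `L(D0 + p E1 + q E2)` is assumed: `x ↦ x * a₀ ^ (m - 1) * u` and
`x ↦ x ^ m * u` move twisted sections to untwisted ones with reductions `x̄` and `x̄ ^ m`. -/

section Seed

open Fermat.Agent.S35.helper2459 WithZero

variable {K F : Type*} [Field K] [Field F] [Algebra K F]
variable {Γ₀ : Type*} [LinearOrderedCommGroupWithZero Γ₀] {ι : Type*}
  {val : ι → Valuation F Γ₀} {vK : Valuation K Γ₀}
  {kk : Type*} [Field kk] {Fk : Type*} [CommRing Fk] [Algebra kk Fk] {red : F → Fk}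

/-- An element `≡ 1` modulo all the valuations lies in the unit ball and reduces to `1`. -/
theorem red_eq_one_of_val_sub_one_lt (hred : RedDataW val (fun _ => (1 : Γ₀)) vK kk red red)
    {x : F} (hx : ∀ i, val i (x - 1) < 1) : (∀ i, val i x = 1) ∧ red x = 1 := by
  have h1 : ∀ i, val i x = 1 := fun i => by
    have h := (val i).map_eq_of_sub_lt (x := 1) (y := x) (by rw [map_one]; exact hx i)
    rw [h, map_one]
  refine ⟨h1, ?_⟩
  have h2 : red (x - 1) = 0 := (hred.eq_zero_iff (x - 1) fun i => (hx i).le).mpr hx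
  rw [hred.map_sub x 1 (fun i => (h1 i).le) (fun i => by rw [map_one]), hred.map_one,
    sub_eq_zero] at h2
  exact h2

/-- The reduction is multiplicative on powers of elements of the unit ball. -/
theorem red_pow_of_ball (hred : RedDataW val (fun _ => (1 : Γ₀)) vK kk red red)
    {x : F} (hx : ∀ i, val i x ≤ 1) (n : ℕ) : red (x ^ n) = red x ^ n := by
  induction n with
  | zero => rw [pow_zero, pow_zero, hred.map_one]
  | succ n ih =>
    rw [pow_succ, pow_succ,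
      hred.map_mul _ _ (fun i => by rw [map_pow]; exact pow_le_one' (hx i) n) hx, ih]

/-- **E4, seed form.** `m • D0 = div a - div b`, `deg D0 = 0`, `a / b ≡ 1` modulo all the
valuations `val i`; `N p q` a family of finite-dimensional subspaces of the special fibre which
is monotone, separated (`N p q ⊓ N p' q' ≤ N p q'`), contains the reductions of the unit balls of
the UNTWISTED spaces `L(p E1 + q E2)`, has at most the Riemann dimension, and is saturated for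
`m`-th powers (`y ∈ N p' q`, `y ^ m ∈ N (m p) (m q)` ⟹ `y ∈ N p q`).  If ONE section
`a₀ ∈ L(D0 + k₁ E1)` is `≡ 1` modulo all the valuations, then `D0` is principal. -/
theorem isPrincipal_of_seed [HasPrincipalDivisors K F] [Finite ι] [Nonempty ι]
    (hdeg : ∀ v : Place K F, 0 < v.deg)
    (D0 E1 E2 : Divisor K F) (hE1 : ∀ v : Place K F, 0 ≤ E1 v) (hE2 : ∀ v : Place K F, 0 ≤ E2 v)
    (hdisj : ∀ v : Place K F, E1 v = 0 ∨ E2 v = 0) (hD0 : Divisor.degree D0 = 0)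
    (m : ℕ) (a b : F) (ha : a ≠ 0) (hb : b ≠ 0)
    (hord : ∀ v : Place K F, (m : ℤ) * D0 v = v.ord a - v.ord b)
    (val : ι → Valuation F Γ₀) (vK : Valuation K Γ₀)
    (harch : ∀ ε κ : Γ₀, ε < 1 → κ ≠ 0 → ∃ n : ℕ, ε ^ n < κ) (hm : ∀ i, val i (m : F) = 1)
    (hu1 : ∀ i, val i (a * b⁻¹ - 1) < 1)
    (hred : RedDataW val (fun _ => (1 : Γ₀)) vK kk red red)
    (hVG : ∀ (i : ι) (f : F), f ≠ 0 → ∃ c : K, vK c = val i f)
    (hcart : ∀ p q : ℕ,
      CartesianW val (fun _ => (1 : Γ₀)) vK (riemannRochSpace (D0 + p • E1 + q • E2)))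
    (d γ c : ℤ) (hd : 0 < d)
    (hRiemF : ∀ p q : ℕ, c ≤ ((p : ℤ) + q) * d → ((p : ℤ) + q) * d + 1 - γ ≤
      (Module.finrank K (riemannRochSpace (D0 + p • E1 + q • E2)) : ℤ))
    (N : ℕ → ℕ → Submodule kk Fk) (hfin : ∀ p q : ℕ, Module.Finite kk (N p q))
    (hNmono : ∀ p p' q q' : ℕ, p ≤ p' → q ≤ q' → N p q ≤ N p' q')
    (hNinf : ∀ p p' q q' : ℕ, p ≤ p' → q' ≤ q → N p q ⊓ N p' q' ≤ N p q')
    (hNred0 : ∀ p q : ℕ, ∀ x ∈ riemannRochSpace (p • E1 + q • E2),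
      (∀ i, val i x ≤ 1) → red x ∈ N p q)
    (hRiemk : ∀ p q : ℕ, c ≤ ((p : ℤ) + q) * d →
      (Module.finrank kk (N p q) : ℤ) ≤ ((p : ℤ) + q) * d + 1 - γ)
    (hNpow : ∀ p p' q : ℕ, p ≤ p' → ∀ y ∈ N p' q, y ^ m ∈ N (m * p) (m * q) → y ∈ N p q)
    (k₁ : ℕ) (a₀ : F) (ha₀ : a₀ ∈ riemannRochSpace (D0 + k₁ • E1))
    (hva₀ : ∀ i, val i (a₀ - 1) < 1) :
    Divisor.IsPrincipal D0 := by
  obtain ⟨i₀⟩ := ‹Nonempty ι›
  have hm0 : m ≠ 0 := by
    rintro rfl
    have h1 := hm i₀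
    rw [Nat.cast_zero, map_zero] at h1
    exact zero_ne_one h1
  obtain ⟨m', rfl⟩ := Nat.exists_eq_succ_of_ne_zero hm0
  set u : F := a * b⁻¹ with hu
  have hu0 : u ≠ 0 := mul_ne_zero ha (inv_ne_zero hb)
  have hordu : ∀ v : Place K F, v.ord u = ((m' + 1 : ℕ) : ℤ) * D0 v := fun v => by
    rw [hu, v.ord_mul ha (inv_ne_zero hb), v.ord_inv, hord v]; ring
  obtain ⟨hvu, hru⟩ := red_eq_one_of_val_sub_one_lt hred hu1
  obtain ⟨hva, hra⟩ := red_eq_one_of_val_sub_one_lt hred hva₀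
  have hadu : ∀ v : Place K F, v.adicValuation u = exp (-(((m' + 1 : ℕ) : ℤ) * D0 v)) :=
    fun v => by rw [v.adicValuation_eq_exp_neg_ord hu0, hordu v]
  -- twisted sections reduce into the untwisted family
  have hNred : ∀ p q : ℕ, ∀ x ∈ riemannRochSpace (D0 + p • E1 + q • E2),
      (∀ i, val i x ≤ (fun _ => (1 : Γ₀)) i) → red x ∈ N p q := by
    intro p q x hx hxb
    have hxb' : ∀ i, val i x ≤ 1 := hxb
    -- `s = x * a₀ ^ m' * u` is untwisted of level `(p + m' * k₁, q)` and reduces to `red x`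
    have hs_mem : x * a₀ ^ m' * u ∈ riemannRochSpace ((p + m' * k₁) • E1 + q • E2) := by
      refine mem_rr_iff_val.mpr fun v => ?_
      rw [map_mul, map_mul, map_pow, hadu v]
      calc v.adicValuation x * v.adicValuation a₀ ^ m' * exp (-(((m' + 1 : ℕ) : ℤ) * D0 v))
          ≤ exp ((D0 + p • E1 + q • E2) v) * exp ((D0 + k₁ • E1) v) ^ m' *
              exp (-(((m' + 1 : ℕ) : ℤ) * D0 v)) :=
            mul_le_mul' (mul_le_mul' (mem_rr_iff_val.mp hx v)
              (pow_le_pow_left' (mem_rr_iff_val.mp ha₀ v) m')) le_rfl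
        _ = exp (((p + m' * k₁) • E1 + q • E2) v) := by
            rw [← exp_nsmul, ← exp_add, ← exp_add]
            congr 1
            simp only [Finsupp.add_apply, Finsupp.smul_apply, nsmul_eq_mul]
            push_cast
            ring
    have hs_ball : ∀ i, val i (x * a₀ ^ m' * u) ≤ 1 := fun i => by
      rw [map_mul, map_mul, map_pow, hva i, hvu i, one_pow, mul_one, mul_one]
      exact hxb' i
    have hs_red : red (x * a₀ ^ m' * u) = red x := by
      have h1 : ∀ i, val i (a₀ ^ m') ≤ 1 := fun i => by rw [map_pow, hva i, one_pow]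
      have h2 : ∀ i, val i (x * a₀ ^ m') ≤ 1 := fun i => by
        rw [map_mul]; exact mul_le_one' (hxb' i) (h1 i)
      rw [hred.map_mul _ _ h2 (fun i => (hvu i).le), hred.map_mul _ _ hxb' h1,
        red_pow_of_ball hred (fun i => (hva i).le), hra, hru, one_pow, mul_one, mul_one]
    -- `t = x ^ m * u` is untwisted of level `(m p, m q)` and reduces to `red x ^ m`
    have ht_mem : x ^ (m' + 1) * u ∈
        riemannRochSpace (((m' + 1) * p) • E1 + ((m' + 1) * q) • E2) := by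
      refine mem_rr_iff_val.mpr fun v => ?_
      rw [map_mul, map_pow, hadu v]
      calc v.adicValuation x ^ (m' + 1) * exp (-(((m' + 1 : ℕ) : ℤ) * D0 v))
          ≤ exp ((D0 + p • E1 + q • E2) v) ^ (m' + 1) * exp (-(((m' + 1 : ℕ) : ℤ) * D0 v)) :=
            mul_le_mul' (pow_le_pow_left' (mem_rr_iff_val.mp hx v) (m' + 1)) le_rfl
        _ = exp ((((m' + 1) * p) • E1 + ((m' + 1) * q) • E2) v) := by
            rw [← exp_nsmul, ← exp_add]
            congr 1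
            simp only [Finsupp.add_apply, Finsupp.smul_apply, nsmul_eq_mul]
            push_cast
            ring
    have ht_ball : ∀ i, val i (x ^ (m' + 1) * u) ≤ 1 := fun i => by
      rw [map_mul, map_pow, hvu i, mul_one]
      exact pow_le_one' (hxb' i) _
    have ht_red : red (x ^ (m' + 1) * u) = red x ^ (m' + 1) := by
      rw [hred.map_mul _ _ (fun i => by rw [map_pow]; exact pow_le_one' (hxb' i) _)
        (fun i => (hvu i).le), red_pow_of_ball hred hxb', hru, mul_one]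
    have h1 := hNred0 (p + m' * k₁) q _ hs_mem hs_ball
    rw [hs_red] at h1
    have h2 := hNred0 ((m' + 1) * p) ((m' + 1) * q) _ ht_mem ht_ball
    rw [ht_red] at h2
    exact hNpow p (p + m' * k₁) q (Nat.le_add_right _ _) (red x) h1 h2
  have hone : (1 : Fk) ∈ N 0 0 := by
    have h1 := hNred0 0 0 1
      (one_mem_rr fun v => by
        rw [Finsupp.add_apply, Finsupp.smul_apply, Finsupp.smul_apply, zero_smul, zero_smul,
          add_zero])
      (fun i => by rw [map_one])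
    rwa [hred.map_one] at h1
  exact isPrincipal_of_countW hdeg D0 E1 E2 hE1 hE2 hdisj hD0 (m' + 1) a b ha hb hord val
    (fun _ => (1 : Γ₀)) vK harch hm (fun i => by rw [← hu, hvu i, one_pow, mul_one]) hred
    (fun i f hf => by
      obtain ⟨c', hc'⟩ := hVG i f hf
      exact ⟨c', by rw [hc', div_one]⟩)
    hcart d γ c hd hRiemF N hfin hNmono hNinf hNred hRiemk 1
    (fun x hx => by
      have hx' : ∀ i, val i x ≤ 1 := hx
      rw [← hu, hred.map_mul _ _ (fun i => by rw [map_pow]; exact pow_le_one' (hx' i) _)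
        (fun i => (hvu i).le), red_pow_of_ball hred hx', hru])
    1 hone (by rw [one_pow, one_mul])

end Seed

/-! ### Root-closed form: seeds by counting, with no Newton step

If the special-fibre family `N p q` is closed under `m`-th roots in `Fk`
(`y ^ m ∈ N (m p) (m q)` ⟹ `y ∈ N p q`; e.g. `m` a power of the residue characteristic and
`N p q` = pairs of functions on the normalisation with bounded pole orders that agree at the
nodes), then for a Kummer pair `u = a / b ≡ 1` the reduction of the unit ball of the TWISTED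
space `L(D0 + p E1 + q E2)` is ALL of `N p q` in the Riemann range: in particular there are
sections `≡ 1` on both charts.  No hypothesis on the valuation of `m`, no Newton iteration. -/

section RootClosed

open Fermat.Agent.S35.helper2459 WithZero

variable {K F : Type*} [Field K] [Field F] [Algebra K F]
variable {Γ₀ : Type*} [LinearOrderedCommGroupWithZero Γ₀] {ι : Type*}
  {kk : Type*} [Field kk] {Fk : Type*} [CommRing Fk] [Algebra kk Fk] {red : F → Fk}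

/-- Twisted sections reduce into a root-closed untwisted family. -/
theorem red_mem_of_root_closed
    (D0 E1 E2 : Divisor K F) (m : ℕ) (a b : F) (ha : a ≠ 0) (hb : b ≠ 0)
    (hord : ∀ v : Place K F, (m : ℤ) * D0 v = v.ord a - v.ord b)
    (val : ι → Valuation F Γ₀) (vK : Valuation K Γ₀)
    (hu1 : ∀ i, val i (a * b⁻¹ - 1) < 1)
    (hred : RedDataW val (fun _ => (1 : Γ₀)) vK kk red red)
    (N : ℕ → ℕ → Submodule kk Fk)
    (hNred0 : ∀ p q : ℕ, ∀ x ∈ riemannRochSpace (p • E1 + q • E2),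
      (∀ i, val i x ≤ 1) → red x ∈ N p q)
    (hNroot : ∀ p q : ℕ, ∀ y : Fk, y ^ m ∈ N (m * p) (m * q) → y ∈ N p q)
    (p q : ℕ) (x : F) (hx : x ∈ riemannRochSpace (D0 + p • E1 + q • E2))
    (hxb : ∀ i, val i x ≤ 1) : red x ∈ N p q := by
  set u : F := a * b⁻¹ with hu
  have hu0 : u ≠ 0 := mul_ne_zero ha (inv_ne_zero hb)
  have hordu : ∀ v : Place K F, v.ord u = (m : ℤ) * D0 v := fun v => by
    rw [hu, v.ord_mul ha (inv_ne_zero hb), v.ord_inv, hord v]; ring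
  obtain ⟨hvu, hru⟩ := red_eq_one_of_val_sub_one_lt hred hu1
  have hadu : ∀ v : Place K F, v.adicValuation u = exp (-((m : ℤ) * D0 v)) :=
    fun v => by rw [v.adicValuation_eq_exp_neg_ord hu0, hordu v]
  have ht_mem : x ^ m * u ∈ riemannRochSpace ((m * p) • E1 + (m * q) • E2) := by
    refine mem_rr_iff_val.mpr fun v => ?_
    rw [map_mul, map_pow, hadu v]
    calc v.adicValuation x ^ m * exp (-((m : ℤ) * D0 v))
        ≤ exp ((D0 + p • E1 + q • E2) v) ^ m * exp (-((m : ℤ) * D0 v)) :=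
          mul_le_mul' (pow_le_pow_left' (mem_rr_iff_val.mp hx v) m) le_rfl
      _ = exp (((m * p) • E1 + (m * q) • E2) v) := by
          rw [← exp_nsmul, ← exp_add]
          congr 1
          simp only [Finsupp.add_apply, Finsupp.smul_apply, nsmul_eq_mul]
          push_cast
          ring
  have ht_ball : ∀ i, val i (x ^ m * u) ≤ 1 := fun i => by
    rw [map_mul, map_pow, hvu i, mul_one]
    exact pow_le_one' (hxb i) _
  have ht_red : red (x ^ m * u) = red x ^ m := by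
    rw [hred.map_mul _ _ (fun i => by rw [map_pow]; exact pow_le_one' (hxb i) _)
      (fun i => (hvu i).le), red_pow_of_ball hred hxb, hru, mul_one]
  have h2 := hNred0 (m * p) (m * q) _ ht_mem ht_ball
  rw [ht_red] at h2
  exact hNroot p q (red x) h2

/-- **Surjectivity of the twisted reductions by counting** (root-closed family; any `m`, in
particular `m` a power of the residue characteristic): in the Riemann range, every element of
`N p q` is the reduction of a section of `L(D0 + p E1 + q E2)` in the unit ball. -/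
theorem exists_mem_rr_red_eq_of_root_closed [Finite ι] [Nonempty ι]
    (D0 E1 E2 : Divisor K F) (m : ℕ) (a b : F) (ha : a ≠ 0) (hb : b ≠ 0)
    (hord : ∀ v : Place K F, (m : ℤ) * D0 v = v.ord a - v.ord b)
    (val : ι → Valuation F Γ₀) (vK : Valuation K Γ₀)
    (hu1 : ∀ i, val i (a * b⁻¹ - 1) < 1)
    (hred : RedDataW val (fun _ => (1 : Γ₀)) vK kk red red)
    (hcart : ∀ p q : ℕ,
      CartesianW val (fun _ => (1 : Γ₀)) vK (riemannRochSpace (D0 + p • E1 + q • E2)))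
    (d γ c : ℤ)
    (hRiemF : ∀ p q : ℕ, c ≤ ((p : ℤ) + q) * d → ((p : ℤ) + q) * d + 1 - γ ≤
      (Module.finrank K (riemannRochSpace (D0 + p • E1 + q • E2)) : ℤ))
    (N : ℕ → ℕ → Submodule kk Fk) (hfin : ∀ p q : ℕ, Module.Finite kk (N p q))
    (hNred0 : ∀ p q : ℕ, ∀ x ∈ riemannRochSpace (p • E1 + q • E2),
      (∀ i, val i x ≤ 1) → red x ∈ N p q)
    (hRiemk : ∀ p q : ℕ, c ≤ ((p : ℤ) + q) * d →
      (Module.finrank kk (N p q) : ℤ) ≤ ((p : ℤ) + q) * d + 1 - γ)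
    (hNroot : ∀ p q : ℕ, ∀ y : Fk, y ^ m ∈ N (m * p) (m * q) → y ∈ N p q)
    (p q : ℕ) (hpq : c ≤ ((p : ℤ) + q) * d) (y : Fk) (hy : y ∈ N p q) :
    ∃ x ∈ riemannRochSpace (D0 + p • E1 + q • E2), (∀ i, val i x ≤ 1) ∧ red x = y := by
  have := hfin p q
  have h2 := hRiemF p q hpq
  have h3 := hRiemk p q hpq
  have h4 : Module.finrank kk (N p q) ≤
      Module.finrank K (riemannRochSpace (D0 + p • E1 + q • E2)) := by
    have : (Module.finrank kk (N p q) : ℤ) ≤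
        (Module.finrank K (riemannRochSpace (D0 + p • E1 + q • E2)) : ℤ) := by linarith
    exact_mod_cast this
  exact squeezeW hred (hcart p q) (N p q)
    (fun x hx hxb => red_mem_of_root_closed D0 E1 E2 m a b ha hb hord val vK hu1 hred N hNred0
      hNroot p q x hx hxb) h4 y hy

/-- **Seeds by counting** (root-closed family; any `m`): on both charts there are sections of
the twisted lattice which are `≡ 1` modulo all the valuations, and their difference is `≡ 0`. -/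
theorem exists_seeds_of_root_closed [Finite ι] [Nonempty ι]
    (D0 E1 E2 : Divisor K F) (hE1 : ∀ v : Place K F, 0 ≤ E1 v) (hE2 : ∀ v : Place K F, 0 ≤ E2 v)
    (m : ℕ) (a b : F) (ha : a ≠ 0) (hb : b ≠ 0)
    (hord : ∀ v : Place K F, (m : ℤ) * D0 v = v.ord a - v.ord b)
    (val : ι → Valuation F Γ₀) (vK : Valuation K Γ₀)
    (hu1 : ∀ i, val i (a * b⁻¹ - 1) < 1)
    (hred : RedDataW val (fun _ => (1 : Γ₀)) vK kk red red)
    (hcart : ∀ p q : ℕ,
      CartesianW val (fun _ => (1 : Γ₀)) vK (riemannRochSpace (D0 + p • E1 + q • E2)))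
    (d γ c : ℤ) (hd : 0 < d)
    (hRiemF : ∀ p q : ℕ, c ≤ ((p : ℤ) + q) * d → ((p : ℤ) + q) * d + 1 - γ ≤
      (Module.finrank K (riemannRochSpace (D0 + p • E1 + q • E2)) : ℤ))
    (N : ℕ → ℕ → Submodule kk Fk) (hfin : ∀ p q : ℕ, Module.Finite kk (N p q))
    (hNred0 : ∀ p q : ℕ, ∀ x ∈ riemannRochSpace (p • E1 + q • E2),
      (∀ i, val i x ≤ 1) → red x ∈ N p q)
    (hRiemk : ∀ p q : ℕ, c ≤ ((p : ℤ) + q) * d →
      (Module.finrank kk (N p q) : ℤ) ≤ ((p : ℤ) + q) * d + 1 - γ)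
    (hNroot : ∀ p q : ℕ, ∀ y : Fk, y ^ m ∈ N (m * p) (m * q) → y ∈ N p q) :
    ∃ k₀ : ℕ, ∀ k : ℕ, k₀ ≤ k →
      ∃ a₀ ∈ riemannRochSpace (D0 + k • E1), ∃ b₀ ∈ riemannRochSpace (D0 + k • E2),
        (∀ i, val i (a₀ - 1) < 1) ∧ (∀ i, val i (b₀ - 1) < 1) ∧ ∀ i, val i (a₀ - b₀) < 1 := by
  obtain ⟨k₀, hk₀⟩ : ∃ k₀ : ℕ, c ≤ (k₀ : ℤ) * d := by
    refine ⟨c.toNat, ?_⟩
    have h1 : c ≤ (c.toNat : ℤ) := Int.self_le_toNat c
    have h2 : (0 : ℤ) ≤ (c.toNat : ℤ) := Int.natCast_nonneg _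
    nlinarith
  refine ⟨k₀, fun k hk => ?_⟩
  have hkc : c ≤ (k : ℤ) * d := by
    have h1 : (k₀ : ℤ) ≤ (k : ℤ) := by exact_mod_cast hk
    nlinarith
  have hone : ∀ p q : ℕ, (1 : Fk) ∈ N p q := fun p q => by
    have h1 := hNred0 p q 1
      (one_mem_rr fun v => by
        rw [Finsupp.add_apply, Finsupp.smul_apply, Finsupp.smul_apply, nsmul_eq_mul,
          nsmul_eq_mul]
        have h1 := hE1 v
        have h2 := hE2 v
        positivity)
      (fun i => by rw [map_one])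
    rwa [hred.map_one] at h1
  obtain ⟨a₀, ha₀, hab, har⟩ := exists_mem_rr_red_eq_of_root_closed D0 E1 E2 m a b ha hb hord val
    vK hu1 hred hcart d γ c hRiemF N hfin hNred0 hRiemk hNroot k 0
    (by push_cast; linarith) 1 (hone k 0)
  obtain ⟨b₀, hb₀, hbb, hbr⟩ := exists_mem_rr_red_eq_of_root_closed D0 E1 E2 m a b ha hb hord val
    vK hu1 hred hcart d γ c hRiemF N hfin hNred0 hRiemk hNroot 0 k
    (by push_cast; linarith) 1 (hone 0 k)
  have h10 : D0 + k • E1 + (0 : ℕ) • E2 = D0 + k • E1 := by rw [zero_smul, add_zero]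
  have h01 : D0 + (0 : ℕ) • E1 + k • E2 = D0 + k • E2 := by rw [zero_smul, add_zero]
  rw [h10] at ha₀
  rw [h01] at hb₀
  have h1b : ∀ i, val i (1 : F) ≤ 1 := fun i => by rw [map_one]
  refine ⟨a₀, ha₀, b₀, hb₀, ?_, ?_, ?_⟩
  · refine (hred.eq_zero_iff (a₀ - 1) fun i => ?_).mp ?_
    · exact le_trans ((val i).map_sub a₀ 1) (max_le (hab i) (h1b i))
    · rw [hred.map_sub a₀ 1 hab h1b, har, hred.map_one, sub_self]
  · refine (hred.eq_zero_iff (b₀ - 1) fun i => ?_).mp ?_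
    · exact le_trans ((val i).map_sub b₀ 1) (max_le (hbb i) (h1b i))
    · rw [hred.map_sub b₀ 1 hbb h1b, hbr, hred.map_one, sub_self]
  · refine (hred.eq_zero_iff (a₀ - b₀) fun i => ?_).mp ?_
    · exact le_trans ((val i).map_sub a₀ b₀) (max_le (hab i) (hbb i))
    · rw [hred.map_sub a₀ b₀ hab hbb, har, hbr, sub_self]

/-- **E4, root-closed form** (`m` invertible at the valuations): with a root-closed family the
twisted reductions are controlled without any seed, and `D0` is principal. -/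
theorem isPrincipal_of_root_closed [HasPrincipalDivisors K F] [Finite ι] [Nonempty ι]
    (hdeg : ∀ v : Place K F, 0 < v.deg)
    (D0 E1 E2 : Divisor K F) (hE1 : ∀ v : Place K F, 0 ≤ E1 v) (hE2 : ∀ v : Place K F, 0 ≤ E2 v)
    (hdisj : ∀ v : Place K F, E1 v = 0 ∨ E2 v = 0) (hD0 : Divisor.degree D0 = 0)
    (m : ℕ) (a b : F) (ha : a ≠ 0) (hb : b ≠ 0)
    (hord : ∀ v : Place K F, (m : ℤ) * D0 v = v.ord a - v.ord b)
    (val : ι → Valuation F Γ₀) (vK : Valuation K Γ₀)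
    (harch : ∀ ε κ : Γ₀, ε < 1 → κ ≠ 0 → ∃ n : ℕ, ε ^ n < κ) (hm : ∀ i, val i (m : F) = 1)
    (hu1 : ∀ i, val i (a * b⁻¹ - 1) < 1)
    (hred : RedDataW val (fun _ => (1 : Γ₀)) vK kk red red)
    (hVG : ∀ (i : ι) (f : F), f ≠ 0 → ∃ c : K, vK c = val i f)
    (hcart : ∀ p q : ℕ,
      CartesianW val (fun _ => (1 : Γ₀)) vK (riemannRochSpace (D0 + p • E1 + q • E2)))
    (d γ c : ℤ) (hd : 0 < d)
    (hRiemF : ∀ p q : ℕ, c ≤ ((p : ℤ) + q) * d → ((p : ℤ) + q) * d + 1 - γ ≤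
      (Module.finrank K (riemannRochSpace (D0 + p • E1 + q • E2)) : ℤ))
    (N : ℕ → ℕ → Submodule kk Fk) (hfin : ∀ p q : ℕ, Module.Finite kk (N p q))
    (hNmono : ∀ p p' q q' : ℕ, p ≤ p' → q ≤ q' → N p q ≤ N p' q')
    (hNinf : ∀ p p' q q' : ℕ, p ≤ p' → q' ≤ q → N p q ⊓ N p' q' ≤ N p q')
    (hNred0 : ∀ p q : ℕ, ∀ x ∈ riemannRochSpace (p • E1 + q • E2),
      (∀ i, val i x ≤ 1) → red x ∈ N p q)
    (hRiemk : ∀ p q : ℕ, c ≤ ((p : ℤ) + q) * d →
      (Module.finrank kk (N p q) : ℤ) ≤ ((p : ℤ) + q) * d + 1 - γ)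
    (hNroot : ∀ p q : ℕ, ∀ y : Fk, y ^ m ∈ N (m * p) (m * q) → y ∈ N p q) :
    Divisor.IsPrincipal D0 := by
  obtain ⟨hvu, hru⟩ := red_eq_one_of_val_sub_one_lt hred hu1
  have hone : (1 : Fk) ∈ N 0 0 := by
    have h1 := hNred0 0 0 1
      (one_mem_rr fun v => by
        rw [Finsupp.add_apply, Finsupp.smul_apply, Finsupp.smul_apply, zero_smul, zero_smul,
          add_zero])
      (fun i => by rw [map_one])
    rwa [hred.map_one] at h1
  exact isPrincipal_of_countW hdeg D0 E1 E2 hE1 hE2 hdisj hD0 m a b ha hb hord val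
    (fun _ => (1 : Γ₀)) vK harch hm (fun i => by rw [hvu i, one_pow, mul_one]) hred
    (fun i f hf => by
      obtain ⟨c', hc'⟩ := hVG i f hf
      exact ⟨c', by rw [hc', div_one]⟩)
    hcart d γ c hd hRiemF N hfin hNmono hNinf
    (fun p q x hx hxb => red_mem_of_root_closed D0 E1 E2 m a b ha hb hord val vK hu1 hred N
      hNred0 hNroot p q x hx hxb)
    hRiemk 1
    (fun x hx => by
      have hx' : ∀ i, val i x ≤ 1 := hx
      rw [hred.map_mul _ _ (fun i => by rw [map_pow]; exact pow_le_one' (hx' i) _)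
        (fun i => (hvu i).le), red_pow_of_ball hred hx', hru])
    1 hone (by rw [one_pow, one_mul])

end RootClosed

/-! ### Root-closed form relative to a set containing the reductions

The same three statements with root closure required only for elements of a set `S` containing
all reductions of the unit ball (e.g. `S = Set.range jj`, the image of the product of the
residue function fields in a bigger carrier such as `k((t)) × k((t))`; so no root closure in the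
carrier itself is needed). -/

section RootClosedOn

open Fermat.Agent.S35.helper2459 WithZero

variable {K F : Type*} [Field K] [Field F] [Algebra K F]
variable {Γ₀ : Type*} [LinearOrderedCommGroupWithZero Γ₀] {ι : Type*}
  {kk : Type*} [Field kk] {Fk : Type*} [CommRing Fk] [Algebra kk Fk] {red : F → Fk}

/-- Twisted sections reduce into a family which is root-closed on a set `S` containing the
reductions. -/
theorem red_mem_of_root_closed_on
    (D0 E1 E2 : Divisor K F) (m : ℕ) (a b : F) (ha : a ≠ 0) (hb : b ≠ 0)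
    (hord : ∀ v : Place K F, (m : ℤ) * D0 v = v.ord a - v.ord b)
    (val : ι → Valuation F Γ₀) (vK : Valuation K Γ₀)
    (hu1 : ∀ i, val i (a * b⁻¹ - 1) < 1)
    (hred : RedDataW val (fun _ => (1 : Γ₀)) vK kk red red)
    (N : ℕ → ℕ → Submodule kk Fk)
    (hNred0 : ∀ p q : ℕ, ∀ x ∈ riemannRochSpace (p • E1 + q • E2),
      (∀ i, val i x ≤ 1) → red x ∈ N p q)
    (S : Set Fk) (hS : ∀ x : F, (∀ i, val i x ≤ 1) → red x ∈ S)
    (hNroot : ∀ p q : ℕ, ∀ y ∈ S, y ^ m ∈ N (m * p) (m * q) → y ∈ N p q)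
    (p q : ℕ) (x : F) (hx : x ∈ riemannRochSpace (D0 + p • E1 + q • E2))
    (hxb : ∀ i, val i x ≤ 1) : red x ∈ N p q := by
  set u : F := a * b⁻¹ with hu
  have hu0 : u ≠ 0 := mul_ne_zero ha (inv_ne_zero hb)
  have hordu : ∀ v : Place K F, v.ord u = (m : ℤ) * D0 v := fun v => by
    rw [hu, v.ord_mul ha (inv_ne_zero hb), v.ord_inv, hord v]; ring
  obtain ⟨hvu, hru⟩ := red_eq_one_of_val_sub_one_lt hred hu1
  have hadu : ∀ v : Place K F, v.adicValuation u = exp (-((m : ℤ) * D0 v)) :=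
    fun v => by rw [v.adicValuation_eq_exp_neg_ord hu0, hordu v]
  have ht_mem : x ^ m * u ∈ riemannRochSpace ((m * p) • E1 + (m * q) • E2) := by
    refine mem_rr_iff_val.mpr fun v => ?_
    rw [map_mul, map_pow, hadu v]
    calc v.adicValuation x ^ m * exp (-((m : ℤ) * D0 v))
        ≤ exp ((D0 + p • E1 + q • E2) v) ^ m * exp (-((m : ℤ) * D0 v)) :=
          mul_le_mul' (pow_le_pow_left' (mem_rr_iff_val.mp hx v) m) le_rfl
      _ = exp (((m * p) • E1 + (m * q) • E2) v) := by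
          rw [← exp_nsmul, ← exp_add]
          congr 1
          simp only [Finsupp.add_apply, Finsupp.smul_apply, nsmul_eq_mul]
          push_cast
          ring
  have ht_ball : ∀ i, val i (x ^ m * u) ≤ 1 := fun i => by
    rw [map_mul, map_pow, hvu i, mul_one]
    exact pow_le_one' (hxb i) _
  have ht_red : red (x ^ m * u) = red x ^ m := by
    rw [hred.map_mul _ _ (fun i => by rw [map_pow]; exact pow_le_one' (hxb i) _)
      (fun i => (hvu i).le), red_pow_of_ball hred hxb, hru, mul_one]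
  have h2 := hNred0 (m * p) (m * q) _ ht_mem ht_ball
  rw [ht_red] at h2
  exact hNroot p q (red x) (hS x hxb) h2

/-- Surjectivity of the twisted reductions by counting, root closure on `S` only. -/
theorem exists_mem_rr_red_eq_of_root_closed_on [Finite ι] [Nonempty ι]
    (D0 E1 E2 : Divisor K F) (m : ℕ) (a b : F) (ha : a ≠ 0) (hb : b ≠ 0)
    (hord : ∀ v : Place K F, (m : ℤ) * D0 v = v.ord a - v.ord b)
    (val : ι → Valuation F Γ₀) (vK : Valuation K Γ₀)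
    (hu1 : ∀ i, val i (a * b⁻¹ - 1) < 1)
    (hred : RedDataW val (fun _ => (1 : Γ₀)) vK kk red red)
    (hcart : ∀ p q : ℕ,
      CartesianW val (fun _ => (1 : Γ₀)) vK (riemannRochSpace (D0 + p • E1 + q • E2)))
    (d γ c : ℤ)
    (hRiemF : ∀ p q : ℕ, c ≤ ((p : ℤ) + q) * d → ((p : ℤ) + q) * d + 1 - γ ≤
      (Module.finrank K (riemannRochSpace (D0 + p • E1 + q • E2)) : ℤ))
    (N : ℕ → ℕ → Submodule kk Fk) (hfin : ∀ p q : ℕ, Module.Finite kk (N p q))
    (hNred0 : ∀ p q : ℕ, ∀ x ∈ riemannRochSpace (p • E1 + q • E2),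
      (∀ i, val i x ≤ 1) → red x ∈ N p q)
    (hRiemk : ∀ p q : ℕ, c ≤ ((p : ℤ) + q) * d →
      (Module.finrank kk (N p q) : ℤ) ≤ ((p : ℤ) + q) * d + 1 - γ)
    (S : Set Fk) (hS : ∀ x : F, (∀ i, val i x ≤ 1) → red x ∈ S)
    (hNroot : ∀ p q : ℕ, ∀ y ∈ S, y ^ m ∈ N (m * p) (m * q) → y ∈ N p q)
    (p q : ℕ) (hpq : c ≤ ((p : ℤ) + q) * d) (y : Fk) (hy : y ∈ N p q) :
    ∃ x ∈ riemannRochSpace (D0 + p • E1 + q • E2), (∀ i, val i x ≤ 1) ∧ red x = y := by
  have := hfin p q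
  have h2 := hRiemF p q hpq
  have h3 := hRiemk p q hpq
  have h4 : Module.finrank kk (N p q) ≤
      Module.finrank K (riemannRochSpace (D0 + p • E1 + q • E2)) := by
    have : (Module.finrank kk (N p q) : ℤ) ≤
        (Module.finrank K (riemannRochSpace (D0 + p • E1 + q • E2)) : ℤ) := by linarith
    exact_mod_cast this
  exact squeezeW hred (hcart p q) (N p q)
    (fun x hx hxb => red_mem_of_root_closed_on D0 E1 E2 m a b ha hb hord val vK hu1 hred N hNred0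
      S hS hNroot p q x hx hxb) h4 y hy

/-- Seeds by counting, root closure on `S` only. -/
theorem exists_seeds_of_root_closed_on [Finite ι] [Nonempty ι]
    (D0 E1 E2 : Divisor K F) (hE1 : ∀ v : Place K F, 0 ≤ E1 v) (hE2 : ∀ v : Place K F, 0 ≤ E2 v)
    (m : ℕ) (a b : F) (ha : a ≠ 0) (hb : b ≠ 0)
    (hord : ∀ v : Place K F, (m : ℤ) * D0 v = v.ord a - v.ord b)
    (val : ι → Valuation F Γ₀) (vK : Valuation K Γ₀)
    (hu1 : ∀ i, val i (a * b⁻¹ - 1) < 1)
    (hred : RedDataW val (fun _ => (1 : Γ₀)) vK kk red red)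
    (hcart : ∀ p q : ℕ,
      CartesianW val (fun _ => (1 : Γ₀)) vK (riemannRochSpace (D0 + p • E1 + q • E2)))
    (d γ c : ℤ) (hd : 0 < d)
    (hRiemF : ∀ p q : ℕ, c ≤ ((p : ℤ) + q) * d → ((p : ℤ) + q) * d + 1 - γ ≤
      (Module.finrank K (riemannRochSpace (D0 + p • E1 + q • E2)) : ℤ))
    (N : ℕ → ℕ → Submodule kk Fk) (hfin : ∀ p q : ℕ, Module.Finite kk (N p q))
    (hNred0 : ∀ p q : ℕ, ∀ x ∈ riemannRochSpace (p • E1 + q • E2),
      (∀ i, val i x ≤ 1) → red x ∈ N p q)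
    (hRiemk : ∀ p q : ℕ, c ≤ ((p : ℤ) + q) * d →
      (Module.finrank kk (N p q) : ℤ) ≤ ((p : ℤ) + q) * d + 1 - γ)
    (S : Set Fk) (hS : ∀ x : F, (∀ i, val i x ≤ 1) → red x ∈ S)
    (hNroot : ∀ p q : ℕ, ∀ y ∈ S, y ^ m ∈ N (m * p) (m * q) → y ∈ N p q) :
    ∃ k₀ : ℕ, ∀ k : ℕ, k₀ ≤ k →
      ∃ a₀ ∈ riemannRochSpace (D0 + k • E1), ∃ b₀ ∈ riemannRochSpace (D0 + k • E2),
        (∀ i, val i (a₀ - 1) < 1) ∧ (∀ i, val i (b₀ - 1) < 1) ∧ ∀ i, val i (a₀ - b₀) < 1 := by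
  obtain ⟨k₀, hk₀⟩ : ∃ k₀ : ℕ, c ≤ (k₀ : ℤ) * d := by
    refine ⟨c.toNat, ?_⟩
    have h1 : c ≤ (c.toNat : ℤ) := Int.self_le_toNat c
    have h2 : (0 : ℤ) ≤ (c.toNat : ℤ) := Int.natCast_nonneg _
    nlinarith
  refine ⟨k₀, fun k hk => ?_⟩
  have hkc : c ≤ (k : ℤ) * d := by
    have h1 : (k₀ : ℤ) ≤ (k : ℤ) := by exact_mod_cast hk
    nlinarith
  have hone : ∀ p q : ℕ, (1 : Fk) ∈ N p q := fun p q => by
    have h1 := hNred0 p q 1
      (one_mem_rr fun v => by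
        rw [Finsupp.add_apply, Finsupp.smul_apply, Finsupp.smul_apply, nsmul_eq_mul,
          nsmul_eq_mul]
        have h1 := hE1 v
        have h2 := hE2 v
        positivity)
      (fun i => by rw [map_one])
    rwa [hred.map_one] at h1
  obtain ⟨a₀, ha₀, hab, har⟩ := exists_mem_rr_red_eq_of_root_closed_on D0 E1 E2 m a b ha hb hord
    val vK hu1 hred hcart d γ c hRiemF N hfin hNred0 hRiemk S hS hNroot k 0
    (by push_cast; linarith) 1 (hone k 0)
  obtain ⟨b₀, hb₀, hbb, hbr⟩ := exists_mem_rr_red_eq_of_root_closed_on D0 E1 E2 m a b ha hb hord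
    val vK hu1 hred hcart d γ c hRiemF N hfin hNred0 hRiemk S hS hNroot 0 k
    (by push_cast; linarith) 1 (hone 0 k)
  have h10 : D0 + k • E1 + (0 : ℕ) • E2 = D0 + k • E1 := by rw [zero_smul, add_zero]
  have h01 : D0 + (0 : ℕ) • E1 + k • E2 = D0 + k • E2 := by rw [zero_smul, add_zero]
  rw [h10] at ha₀
  rw [h01] at hb₀
  have h1b : ∀ i, val i (1 : F) ≤ 1 := fun i => by rw [map_one]
  refine ⟨a₀, ha₀, b₀, hb₀, ?_, ?_, ?_⟩
  · refine (hred.eq_zero_iff (a₀ - 1) fun i => ?_).mp ?_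
    · exact le_trans ((val i).map_sub a₀ 1) (max_le (hab i) (h1b i))
    · rw [hred.map_sub a₀ 1 hab h1b, har, hred.map_one, sub_self]
  · refine (hred.eq_zero_iff (b₀ - 1) fun i => ?_).mp ?_
    · exact le_trans ((val i).map_sub b₀ 1) (max_le (hbb i) (h1b i))
    · rw [hred.map_sub b₀ 1 hbb h1b, hbr, hred.map_one, sub_self]
  · refine (hred.eq_zero_iff (a₀ - b₀) fun i => ?_).mp ?_
    · exact le_trans ((val i).map_sub a₀ b₀) (max_le (hab i) (hbb i))
    · rw [hred.map_sub a₀ b₀ hab hbb, har, hbr, sub_self]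

end RootClosedOn

end Fermat.Agent.S35.helper1788
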