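/-
S35/S34-TWLAT (board #1619, helper603): the special-fibre package of the two-component Kummer core
(step (2)(c) of route #2739, item (E3) of the S35 captain's list).  Mathlib only, spec-independent.

Setting (abstract special fibre).  `k` a field, `V` a commutative `k`-algebra (in the application
`V = B̄₁₂ × B̄₁₂`, pairs of functions on the two components of the fibre at `q`, regular off
`Ē₁ ∪ Ē₂`), `T a b ⊆ V` the finite-dimensional spaces of pairs with pole order `≤ a` along `Ē₁`
and `≤ b` along `Ē₂`, `p i, q i : V →ₐ[k] k` the evaluations at the two points `P i`, `Q i` of the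
`i`-th node, and `x ∈ V` the reduction of a function with polar divisor `E₁` and zero divisor `E₂`.

* `exists_saturation` : TWO-CHART SATURATION.  If the reductions `R n` of the integral functions
  with poles of order `≤ n` along `E₁` satisfy the conductor statement in the chart off `E₁`
  (`hK1`) and in the chart off `E₂` (`hK2`), then `R n` is the full glued space for all large `n`.
* `card_nodes` : hence `(number of nodes) = δ` (`= g(M) - 2 g(M') + 1` in the application).
* `exists_glue_const` : the reduction of a twisted lattice of the right dimension whose elements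
  have glued `N`-th powers is the glued space `{q i v = c i * p i v}` for unique `N`-th roots of
  unity `c i`, at every level.
* `glued_sum_formula` : the special-fibre sum formula for the glued spaces (nodal Čech).
-/
import Mathlib

set_option autoImplicit false

namespace Fermat.Agent.S35.helper603

open Module Submodule

section Saturation

variable {k V : Type*} [Field k] [CommRing V] [Algebra k V]

/-- Iterating the shift `x • R n ⊆ R (n + 1)`. -/
theorem pow_mul_mem_of_shift (x : V) (R : ℕ → Submodule k V)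
    (hxR : ∀ n, ∀ v ∈ R n, x * v ∈ R (n + 1)) (i n : ℕ) (v : V) (hv : v ∈ R n) :
    x ^ i * v ∈ R (n + i) := by
  induction i with
  | zero => simpa using hv
  | succ i ih =>
    have h := hxR (n + i) _ ih
    rw [pow_succ', mul_assoc]
    exact h

/-- **Two-chart saturation.**  `R n ≤ G n` two families of subspaces of a `k`-algebra, `R`
increasing and stable under the shift by `x`; `G` generated by `G n₁` under `1` and `x`;
every element of `G n₁` lies in some `R n` (chart off `E₁`) and is moved into some `R (n₁ + j)`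
by `x ^ j` (chart off `E₂`).  Then `G n = R n` for all large `n`. -/
theorem exists_saturation (x : V) (R G : ℕ → Submodule k V)
    (hRG : ∀ n, R n ≤ G n) (hRmono : Monotone R)
    (hxR : ∀ n, ∀ v ∈ R n, x * v ∈ R (n + 1))
    (n₁ : ℕ) (hfin : (G n₁).FG)
    (hgen : ∀ n, n₁ ≤ n → ∀ v ∈ G (n + 1), ∃ a ∈ G n, ∃ b ∈ G n, v = a + x * b)
    (hK1 : ∀ v ∈ G n₁, ∃ n, v ∈ R n)
    (hK2 : ∀ v ∈ G n₁, ∃ j, x ^ j * v ∈ R (n₁ + j)) :
    ∃ n₂, ∀ n, n₂ ≤ n → G n = R n := by
  classical
  obtain ⟨S, hS⟩ := hfin
  choose! f hf using hK1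
  choose! g hg using hK2
  set N : ℕ := S.sup f + S.sup g with hN
  -- uniform bounds on `G n₁`
  have hU1 : ∀ v ∈ G n₁, v ∈ R (n₁ + N) := by
    intro v hv
    rw [← hS] at hv
    refine Submodule.span_induction (p := fun v _ => v ∈ R (n₁ + N)) ?_ ?_ ?_ ?_ hv
    · intro s hs
      have hsG : s ∈ G n₁ := by rw [← hS]; exact Submodule.subset_span hs
      have h1 : f s ≤ n₁ + N := by
        have : f s ≤ S.sup f := Finset.le_sup (f := f) hs
        omega
      exact hRmono h1 (hf s hsG)
    · exact zero_mem _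
    · intro a b _ _ ha hb; exact add_mem ha hb
    · intro c a _ ha; exact Submodule.smul_mem _ c ha
  have hU2 : ∀ v ∈ G n₁, x ^ N * v ∈ R (n₁ + N) := by
    intro v hv
    rw [← hS] at hv
    refine Submodule.span_induction (p := fun v _ => x ^ N * v ∈ R (n₁ + N)) ?_ ?_ ?_ ?_ hv
    · intro s hs
      have hsG : s ∈ G n₁ := by rw [← hS]; exact Submodule.subset_span hs
      have h1 : g s ≤ N := by
        have : g s ≤ S.sup g := Finset.le_sup (f := g) hs
        omega
      have h2 := pow_mul_mem_of_shift x R hxR (N - g s) (n₁ + g s) _ (hg s hsG)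
      have h3 : x ^ (N - g s) * (x ^ g s * s) = x ^ N * s := by
        rw [← mul_assoc, ← pow_add, Nat.sub_add_cancel h1]
      have h4 : n₁ + g s + (N - g s) = n₁ + N := by omega
      rw [h3, h4] at h2
      exact h2
    · simp
    · intro a b _ _ ha hb; rw [mul_add]; exact add_mem ha hb
    · intro c a _ ha; rw [mul_smul_comm]; exact Submodule.smul_mem _ c ha
  -- every element of `G (n₁ + t)` is a combination of `x ^ i * (element of G n₁)`, `i ≤ t`
  have hrep : ∀ t : ℕ, ∀ Q : Submodule k V, (∀ i ≤ t, ∀ w ∈ G n₁, x ^ i * w ∈ Q) →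
      ∀ v ∈ G (n₁ + t), v ∈ Q := by
    intro t
    induction t with
    | zero =>
      intro Q h v hv
      have := h 0 le_rfl v hv
      simpa using this
    | succ t ih =>
      intro Q h v hv
      obtain ⟨a, ha, b, hb, rfl⟩ := hgen (n₁ + t) (Nat.le_add_right _ _) v hv
      refine add_mem (ih Q (fun i hi w hw => h i (Nat.le_succ_of_le hi) w hw) a ha) ?_
      have hb' := ih (Q.comap (LinearMap.mulLeft k x)) (fun i hi w hw => by
        rw [Submodule.mem_comap, LinearMap.mulLeft_apply, ← mul_assoc, ← pow_succ']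
        exact h (i + 1) (Nat.succ_le_succ hi) w hw) b hb
      rwa [Submodule.mem_comap, LinearMap.mulLeft_apply] at hb'
  refine ⟨n₁ + 2 * N, fun n hn => le_antisymm ?_ (hRG n)⟩
  obtain ⟨t, rfl⟩ := Nat.exists_eq_add_of_le (show n₁ ≤ n by omega)
  have ht : 2 * N ≤ t := by omega
  refine hrep t (R (n₁ + t)) ?_
  intro i hi w hw
  by_cases hcase : i + N ≤ t
  · have h1 := pow_mul_mem_of_shift x R hxR i (n₁ + N) w (hU1 w hw)
    exact hRmono (by omega) h1
  · have hiN : N ≤ i := by omega
    have h1 := pow_mul_mem_of_shift x R hxR (i - N) (n₁ + N) _ (hU2 w hw)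
    have h3 : x ^ (i - N) * (x ^ N * w) = x ^ i * w := by
      rw [← mul_assoc, ← pow_add, Nat.sub_add_cancel hiN]
    rw [h3] at h1
    exact hRmono (by omega) h1

end Saturation

section Glued

variable {k V I F : Type*} [Field k] [AddCommGroup V] [Module k V] [FunLike F V k]
  [LinearMapClass F k V k]

/-- The subspace of `T` cut out by the glueing conditions `q i v = c i * p i v`
(`p i`, `q i` the evaluations at the two points of the `i`-th node, `c i` the glueing constant). -/
def glued (p q : I → F) (c : I → k) (T : Submodule k V) : Submodule k V where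
  carrier := {v | v ∈ T ∧ ∀ i, q i v = c i * p i v}
  add_mem' := by
    rintro a b ⟨ha, ha'⟩ ⟨hb, hb'⟩
    exact ⟨add_mem ha hb, fun i => by rw [map_add, map_add, ha' i, hb' i, mul_add]⟩
  zero_mem' := ⟨zero_mem _, fun i => by rw [map_zero, map_zero, mul_zero]⟩
  smul_mem' := by
    rintro r a ⟨ha, ha'⟩
    refine ⟨Submodule.smul_mem _ r ha, fun i => ?_⟩
    rw [map_smul, map_smul, ha' i, smul_eq_mul, smul_eq_mul, mul_left_comm]

theorem mem_glued {p q : I → F} {c : I → k} {T : Submodule k V} {v : V} :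
    v ∈ glued p q c T ↔ v ∈ T ∧ ∀ i, q i v = c i * p i v := Iff.rfl

theorem glued_le (p q : I → F) (c : I → k) (T : Submodule k V) : glued p q c T ≤ T :=
  fun _ hv => hv.1

theorem glued_mono (p q : I → F) (c : I → k) {T T' : Submodule k V} (h : T ≤ T') :
    glued p q c T ≤ glued p q c T' := fun _ hv => ⟨h hv.1, hv.2⟩

theorem glued_inf_le (p q : I → F) (c : I → k) (T T' : Submodule k V) :
    glued p q c T ⊓ glued p q c T' ≤ glued p q c (T ⊓ T') :=
  fun _ hv => ⟨⟨hv.1.1, hv.2.1⟩, hv.1.2⟩

instance glued_finite (p q : I → F) (c : I → k) (T : Submodule k V) [Module.Finite k T] :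
    Module.Finite k (glued p q c T) :=
  Submodule.finiteDimensional_of_le (glued_le p q c T)

/-- **Codimension of a glued space**: one condition per node, as soon as the differences
`q i - c i * p i` can be prescribed on `T`. -/
theorem finrank_glued_add_card [Fintype I] (p q : I → F) (c : I → k) (T : Submodule k V)
    [Module.Finite k T]
    (hev : ∀ u : I → k, ∃ v ∈ T, ∀ i, q i v - c i * p i v = u i) :
    finrank k (glued p q c T) + Fintype.card I = finrank k T := by
  classical
  let φ : T →ₗ[k] (I → k) :=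
    { toFun := fun v i => q i (v : V) - c i * p i (v : V)
      map_add' := fun a b => by
        funext i
        simp only [Submodule.coe_add, map_add, Pi.add_apply]
        ring
      map_smul' := fun r a => by
        funext i
        simp only [Submodule.coe_smul, map_smul, smul_eq_mul, RingHom.id_apply, Pi.smul_apply]
        ring }
  have hsurj : LinearMap.range φ = ⊤ := by
    rw [LinearMap.range_eq_top]
    intro u
    obtain ⟨v, hv, h⟩ := hev u
    exact ⟨⟨v, hv⟩, funext fun i => h i⟩
  have hker : (LinearMap.ker φ).map T.subtype = glued p q c T := by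
    ext v
    simp only [Submodule.mem_map, LinearMap.mem_ker, Submodule.subtype_apply, mem_glued]
    constructor
    · rintro ⟨⟨w, hw⟩, hφ, rfl⟩
      exact ⟨hw, fun i => sub_eq_zero.mp (congrFun hφ i)⟩
    · rintro ⟨hv, h⟩
      exact ⟨⟨v, hv⟩, funext fun i => sub_eq_zero.mpr (h i), rfl⟩
  have h1 := φ.finrank_range_add_finrank_ker
  rw [hsurj, finrank_top, Module.finrank_fintype_fun_eq_card,
    ← Submodule.finrank_map_subtype_eq T (LinearMap.ker φ), hker] at h1
  omega

/-- If two glued spaces are nested and the evaluations are independent on the smaller ambient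
space, the glueing constants agree. -/
theorem glue_const_unique (p q : I → F) (c c' : I → k) (T T' : Submodule k V)
    (hev : ∀ u w : I → k, ∃ v ∈ T, ∀ i, p i v = u i ∧ q i v = w i)
    (h : glued p q c T ≤ glued p q c' T') : c = c' := by
  classical
  funext i
  obtain ⟨v, hv, hpq⟩ := hev (fun j => if j = i then 1 else 0) (fun j => if j = i then c i else 0)
  have hvg : v ∈ glued p q c T := by
    refine ⟨hv, fun j => ?_⟩
    rw [(hpq j).1, (hpq j).2]
    by_cases hj : j = i
    · subst hj; simp
    · simp [hj]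
  have h2 := (h hvg).2 i
  rw [(hpq i).1, (hpq i).2] at h2
  simpa using h2

/-- **Glueing constants at one level.**  `M ≤ T` of codimension at most the number of nodes, such
that `p i v ^ N = q i v ^ N` for all `v ∈ M` (in the application: `N`-th powers of sections of the
twisted lattice are functions of the nodal fibre).  Then there are `N`-th roots of unity `c i`
with `M = {v ∈ T | q i v = c i * p i v}`: no base points, one glueing constant per node. -/
theorem exists_glue_const_level [Fintype I] (p q : I → F) (T M : Submodule k V)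
    [Module.Finite k T]
    (hev : ∀ u w : I → k, ∃ v ∈ T, ∀ i, p i v = u i ∧ q i v = w i)
    (hMT : M ≤ T) (hdim : finrank k T ≤ finrank k M + Fintype.card I)
    (N : ℕ) (hN : N ≠ 0) (hpow : ∀ v ∈ M, ∀ i, p i v ^ N = q i v ^ N) :
    ∃ c : I → k, (∀ i, c i ^ N = 1) ∧ M = glued p q c T := by
  classical
  have : Module.Finite k M := Submodule.finiteDimensional_of_le hMT
  -- the subspace of `T` where all `p i` and all `q i` vanish has codimension `2 * card I`
  set T₀ : Submodule k V := glued p q 0 T with hT₀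
  set K : Submodule k V := glued q p 0 T₀ with hK
  have hT₀dim : finrank k T₀ + Fintype.card I = finrank k T := by
    refine finrank_glued_add_card p q 0 T fun u => ?_
    obtain ⟨v, hv, h⟩ := hev 0 u
    refine ⟨v, hv, fun i => ?_⟩
    rw [(h i).2]; simp
  have hKdim : finrank k K + Fintype.card I = finrank k T₀ := by
    refine finrank_glued_add_card q p 0 T₀ fun u => ?_
    obtain ⟨v, hv, h⟩ := hev u 0
    refine ⟨v, ⟨hv, fun i => ?_⟩, fun i => ?_⟩
    · rw [(h i).2]; simp
    · rw [(h i).1]; simp
  -- the map `v ↦ (p i v)_i` on `M`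
  let ψ : M →ₗ[k] (I → k) :=
    { toFun := fun v i => p i (v : V)
      map_add' := fun a b => by funext i; simp only [Submodule.coe_add, map_add, Pi.add_apply]
      map_smul' := fun r a => by
        funext i
        simp only [Submodule.coe_smul, map_smul, smul_eq_mul, RingHom.id_apply, Pi.smul_apply] }
  have hq0 : ∀ v ∈ M, ∀ i, p i v = 0 → q i v = 0 := by
    intro v hv i h0
    have h := hpow v hv i
    rw [h0, zero_pow hN] at h
    exact (pow_eq_zero_iff hN).mp h.symm
  have hkerle : (LinearMap.ker ψ).map M.subtype ≤ K := by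
    rintro _ ⟨⟨w, hw⟩, hψ, rfl⟩
    have hp : ∀ i, p i w = 0 := fun i => congrFun hψ i
    refine ⟨⟨hMT hw, fun i => ?_⟩, fun i => ?_⟩
    · show q i w = 0 * p i w
      rw [hq0 w hw i (hp i), zero_mul]
    · show p i w = 0 * q i w
      rw [hp i, zero_mul]
  have hkerdim : finrank k (LinearMap.ker ψ) ≤ finrank k K := by
    rw [← Submodule.finrank_map_subtype_eq M (LinearMap.ker ψ)]
    exact Submodule.finrank_mono hkerle
  have hrn := ψ.finrank_range_add_finrank_ker
  have hrle : finrank k (LinearMap.range ψ) ≤ Fintype.card I := by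
    have := Submodule.finrank_le (LinearMap.range ψ)
    rwa [Module.finrank_fintype_fun_eq_card] at this
  have hrange : LinearMap.range ψ = ⊤ := by
    apply Submodule.eq_top_of_finrank_eq
    rw [Module.finrank_fintype_fun_eq_card]
    omega
  have hsurj : Function.Surjective ψ := LinearMap.range_eq_top.mp hrange
  choose e he using fun i : I => hsurj (fun j => if j = i then 1 else 0)
  have hpe : ∀ i j, p j (e i : V) = if j = i then 1 else 0 := fun i j => congrFun (he i) j
  refine ⟨fun i => q i (e i : V), fun i => ?_, ?_⟩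
  · have h := hpow (e i) (e i).2 i
    rw [hpe i i, if_pos rfl, one_pow] at h
    exact h.symm
  have hqe : ∀ i j, j ≠ i → q j (e i : V) = 0 := by
    intro i j hj
    refine hq0 (e i) (e i).2 j ?_
    rw [hpe i j, if_neg hj]
  have hle : M ≤ glued p q (fun i => q i (e i : V)) T := by
    intro v hv
    refine ⟨hMT hv, fun i => ?_⟩
    set w : V := v - ∑ j, p j v • (e j : V) with hw
    have hwM : w ∈ M :=
      sub_mem hv (Submodule.sum_mem _ fun j _ => Submodule.smul_mem _ _ (e j).2)
    have hpw : p i w = 0 := by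
      rw [hw, map_sub, map_sum]
      simp only [map_smul, smul_eq_mul, hpe]
      simp
    have hqw := hq0 w hwM i hpw
    rw [hw, map_sub, map_sum] at hqw
    simp only [map_smul, smul_eq_mul] at hqw
    rw [Finset.sum_eq_single i] at hqw
    · rw [sub_eq_zero] at hqw
      rw [hqw, mul_comm]
    · intro j _ hj
      rw [hqe j i (Ne.symm hj), mul_zero]
    · intro h; exact absurd (Finset.mem_univ i) h
  refine Submodule.eq_of_le_of_finrank_le hle ?_
  have hg := finrank_glued_add_card p q (fun i => q i (e i : V)) T fun u => by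
    obtain ⟨v, hv, h⟩ := hev 0 u
    refine ⟨v, hv, fun i => ?_⟩
    rw [(h i).1, (h i).2]; simp
  omega

/-- **Glueing constants of a twisted lattice, all levels.**  `M a b ≤ T a b` increasing families,
`M a b` of codimension at most the number of nodes for `n₀ ≤ a + b`, and `p i v ^ N = q i v ^ N` on
`M`.  Then there are `N`-th roots of unity `c i`, the same at all levels, with
`M a b = {v ∈ T a b | q i v = c i * p i v}` whenever `n₀ ≤ a + b`. -/
theorem exists_glue_const [Fintype I] (p q : I → F) (T M : ℕ → ℕ → Submodule k V)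
    (hfin : ∀ a b, Module.Finite k (T a b))
    (hMmono : ∀ a a' b b', a ≤ a' → b ≤ b' → M a b ≤ M a' b')
    (n₀ : ℕ)
    (hev : ∀ a b, n₀ ≤ a + b → ∀ u w : I → k, ∃ v ∈ T a b, ∀ i, p i v = u i ∧ q i v = w i)
    (hMT : ∀ a b, M a b ≤ T a b)
    (hdim : ∀ a b, n₀ ≤ a + b → finrank k (T a b) ≤ finrank k (M a b) + Fintype.card I)
    (N : ℕ) (hN : N ≠ 0) (hpow : ∀ a b, ∀ v ∈ M a b, ∀ i, p i v ^ N = q i v ^ N) :
    ∃ c : I → k, (∀ i, c i ^ N = 1) ∧ ∀ a b, n₀ ≤ a + b → M a b = glued p q c (T a b) := by
  have key : ∀ a b, n₀ ≤ a + b → ∃ c : I → k, (∀ i, c i ^ N = 1) ∧ M a b = glued p q c (T a b) :=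
    fun a b hab =>
      haveI := hfin a b
      exists_glue_const_level p q (T a b) (M a b) (hev a b hab) (hMT a b) (hdim a b hab) N hN
        (hpow a b)
  obtain ⟨c, hc, hc0⟩ := key n₀ 0 (by omega)
  refine ⟨c, hc, fun a b hab => ?_⟩
  obtain ⟨c₁, -, h₁⟩ := key a b hab
  obtain ⟨c₂, -, h₂⟩ := key (max a n₀) b (by omega)
  have e₁ : c₁ = c₂ := glue_const_unique p q c₁ c₂ (T a b) (T (max a n₀) b) (hev a b hab) (by
    rw [← h₁, ← h₂]; exact hMmono _ _ _ _ (le_max_left _ _) le_rfl)
  have e₂ : c = c₂ := glue_const_unique p q c c₂ (T n₀ 0) (T (max a n₀) b) (hev n₀ 0 (by omega)) (by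
    rw [← hc0, ← h₂]; exact hMmono _ _ _ _ (le_max_right _ _) (Nat.zero_le _))
  rw [h₁, e₁, ← e₂]

end Glued

section Nodal

variable {k V I : Type*} [Field k] [CommRing V] [Algebra k V] [Fintype I]

/-- **Riemann–Roch package of the two components.**  `T a b` is the space of pairs of functions
on the two components with pole order `≤ a` along `Ē₁` and `≤ b` along `Ē₂`; `p i`, `q i` are the
evaluations at the two points of the `i`-th node.  The package says: `T` is increasing, pole
orders intersect, `dim T a b + s = e * (a + b) + t` for `n₀ ≤ a + b` (Riemann on both components: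
`s = 2 g'`, `t = 2`, `e = deg Ē₁ = deg Ē₂` on the disjoint union), and the values at the `2 * #I`
points `P i`, `Q i` can be prescribed in `T a b` for `n₀ ≤ a + b`. -/
structure IsNodalRR (T : ℕ → ℕ → Submodule k V) (p q : I → V →ₐ[k] k) (e s t n₀ : ℕ) : Prop where
  mono : ∀ a a' b b', a ≤ a' → b ≤ b' → T a b ≤ T a' b'
  inter : ∀ a b a' b', T a b ⊓ T a' b' ≤ T (min a a') (min b b')
  finite : ∀ a b, Module.Finite k (T a b)
  finrank_eq : ∀ a b, n₀ ≤ a + b → finrank k (T a b) + s = e * (a + b) + t
  eval_surj : ∀ a b, n₀ ≤ a + b → ∀ u w : I → k, ∃ v ∈ T a b, ∀ i, p i v = u i ∧ q i v = w i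

namespace IsNodalRR

variable {T : ℕ → ℕ → Submodule k V} {p q : I → V →ₐ[k] k} {e s t n₀ : ℕ}

/-- Dimension of the glued spaces (nodal Riemann): one condition per node. -/
theorem finrank_glued (h : IsNodalRR T p q e s t n₀) (c : I → k) (a b : ℕ) (hab : n₀ ≤ a + b) :
    finrank k (glued p q c (T a b)) + Fintype.card I + s = e * (a + b) + t := by
  have := h.finite a b
  have h1 := finrank_glued_add_card p q c (T a b) (fun u => by
    obtain ⟨v, hv, hv'⟩ := h.eval_surj a b hab 0 u
    exact ⟨v, hv, fun i => by rw [(hv' i).1, (hv' i).2]; simp⟩)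
  have h2 := h.finrank_eq a b hab
  omega

/-- Raising the pole order along `Ē₁`: `N(a+1, b) = N(a, b) + N(a+1, 0)`. -/
theorem glued_succ_left (h : IsNodalRR T p q e s t n₀) (c : I → k) (a b : ℕ) (ha : n₀ ≤ a) :
    glued p q c (T (a + 1) b) = glued p q c (T a b) ⊔ glued p q c (T (a + 1) 0) := by
  have : ∀ a b, Module.Finite k (T a b) := h.finite
  have hAC : glued p q c (T a b) ≤ glued p q c (T (a + 1) b) :=
    glued_mono p q c (h.mono _ _ _ _ (Nat.le_succ a) le_rfl)
  have hBC : glued p q c (T (a + 1) 0) ≤ glued p q c (T (a + 1) b) :=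
    glued_mono p q c (h.mono _ _ _ _ le_rfl (Nat.zero_le b))
  have hABD : glued p q c (T a b) ⊓ glued p q c (T (a + 1) 0) ≤ glued p q c (T a 0) := by
    refine (glued_inf_le p q c _ _).trans (glued_mono p q c ?_)
    have := h.inter a b (a + 1) 0
    rwa [min_eq_left (Nat.le_succ a), Nat.min_zero] at this
  have hsum := Submodule.finrank_sup_add_finrank_inf_eq (glued p q c (T a b))
    (glued p q c (T (a + 1) 0))
  have hD := Submodule.finrank_mono hABD
  have fA := h.finrank_glued c a b (by omega)
  have fB := h.finrank_glued c (a + 1) 0 (by omega)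
  have fC := h.finrank_glued c (a + 1) b (by omega)
  have fD := h.finrank_glued c a 0 (by omega)
  symm
  refine Submodule.eq_of_le_of_finrank_le (sup_le hAC hBC) ?_
  have e1 : e * (a + 1 + b) = e * (a + b) + e := by ring
  have e2 : e * (a + 1 + 0) = e * (a + 0) + e := by ring
  omega

/-- Raising the pole order along `Ē₂`: `N(a, b+1) = N(a, b) + N(0, b+1)`. -/
theorem glued_succ_right (h : IsNodalRR T p q e s t n₀) (c : I → k) (a b : ℕ) (hb : n₀ ≤ b) :
    glued p q c (T a (b + 1)) = glued p q c (T a b) ⊔ glued p q c (T 0 (b + 1)) := by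
  have : ∀ a b, Module.Finite k (T a b) := h.finite
  have hAC : glued p q c (T a b) ≤ glued p q c (T a (b + 1)) :=
    glued_mono p q c (h.mono _ _ _ _ le_rfl (Nat.le_succ b))
  have hBC : glued p q c (T 0 (b + 1)) ≤ glued p q c (T a (b + 1)) :=
    glued_mono p q c (h.mono _ _ _ _ (Nat.zero_le a) le_rfl)
  have hABD : glued p q c (T a b) ⊓ glued p q c (T 0 (b + 1)) ≤ glued p q c (T 0 b) := by
    refine (glued_inf_le p q c _ _).trans (glued_mono p q c ?_)
    have := h.inter a b 0 (b + 1)
    rwa [Nat.min_zero, min_eq_left (Nat.le_succ b)] at this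
  have hsum := Submodule.finrank_sup_add_finrank_inf_eq (glued p q c (T a b))
    (glued p q c (T 0 (b + 1)))
  have hD := Submodule.finrank_mono hABD
  have fA := h.finrank_glued c a b (by omega)
  have fB := h.finrank_glued c 0 (b + 1) (by omega)
  have fC := h.finrank_glued c a (b + 1) (by omega)
  have fD := h.finrank_glued c 0 b (by omega)
  symm
  refine Submodule.eq_of_le_of_finrank_le (sup_le hAC hBC) ?_
  have e1 : e * (a + (b + 1)) = e * (a + b) + e := by ring
  have e2 : e * (0 + (b + 1)) = e * (0 + b) + e := by ring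
  omega

/-- **Special-fibre sum formula (nodal Čech)** for the glued spaces, in the shape of the
hypothesis `hsum` of the Kummer core: `N12 m ≤ N12 k₀ ⊔ N1 m ⊔ N2 m`. -/
theorem glued_sum_formula (h : IsNodalRR T p q e s t n₀) (c : I → k) (k₀ : ℕ) (hk₀ : n₀ ≤ k₀)
    (m : ℕ) (hm : k₀ ≤ m) :
    glued p q c (T m m) ≤
      glued p q c (T k₀ k₀) ⊔ glued p q c (T m 0) ⊔ glued p q c (T 0 m) := by
  induction m, hm using Nat.le_induction with
  | base => exact le_sup_of_le_left le_sup_left
  | succ m hm ih =>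
    rw [h.glued_succ_left c m (m + 1) (by omega), h.glued_succ_right c m m (by omega)]
    have m1 : glued p q c (T m 0) ≤ glued p q c (T (m + 1) 0) :=
      glued_mono p q c (h.mono _ _ _ _ (Nat.le_succ m) le_rfl)
    have m2 : glued p q c (T 0 m) ≤ glued p q c (T 0 (m + 1)) :=
      glued_mono p q c (h.mono _ _ _ _ le_rfl (Nat.le_succ m))
    refine sup_le (sup_le (ih.trans ?_) le_sup_right) (le_sup_of_le_left le_sup_right)
    exact sup_le (sup_le (le_sup_of_le_left le_sup_left) (le_sup_of_le_left (le_sup_of_le_right m1)))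
      (le_sup_of_le_right m2)

/-- Generation of the glued spaces of chart 1 by `1` and `x` (Castelnuovo by dimension count):
`G (n + 1) = G n + x • G n` for `G n = glued 1 (T n 0)`. -/
theorem exists_decomp_shift (h : IsNodalRR T p q e s t n₀) (x y : V) (hxy : x * y = 1)
    (hxp : ∀ i, p i x = q i x) (hxT : ∀ a b v, v ∈ T a (b + 1) ↔ x * v ∈ T (a + 1) b)
    (n : ℕ) (hn : n₀ + 1 ≤ n) :
    ∀ v ∈ glued p q 1 (T (n + 1) 0), ∃ a ∈ glued p q 1 (T n 0), ∃ b ∈ glued p q 1 (T n 0),
      v = a + x * b := by
  have : ∀ a b, Module.Finite k (T a b) := h.finite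
  obtain ⟨m, rfl⟩ : ∃ m, n = m + 1 := ⟨n - 1, by omega⟩
  let μ : V ≃ₗ[k] V := LinearEquiv.ofLinearMap (LinearMap.mulLeft k x) (LinearMap.mulLeft k y)
    (by ext v; simp [← mul_assoc, hxy]) (by ext v; simp [← mul_assoc, mul_comm y x, hxy])
  have hμ : ∀ v, μ v = x * v := fun v => rfl
  have hxG : ∀ j, ∀ v ∈ glued p q 1 (T j 0), x * v ∈ glued p q 1 (T (j + 1) 0) := by
    intro j v hv
    refine ⟨(hxT j 0 v).mp (h.mono _ _ _ _ le_rfl (Nat.zero_le 1) hv.1), fun i => ?_⟩
    rw [map_mul, map_mul, hv.2 i, hxp i]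
    simp
  have hB : (glued p q 1 (T (m + 1) 0)).map (μ : V →ₗ[k] V) ≤ glued p q 1 (T (m + 1 + 1) 0) := by
    rintro _ ⟨v, hv, rfl⟩
    exact hxG _ v hv
  have hAB : glued p q 1 (T (m + 1) 0) ⊓ (glued p q 1 (T (m + 1) 0)).map (μ : V →ₗ[k] V) ≤
      (glued p q 1 (T m 0)).map (μ : V →ₗ[k] V) := by
    rintro _ ⟨hu, ⟨v, hv, rfl⟩⟩
    refine ⟨v, ⟨?_, hv.2⟩, rfl⟩
    have h1 : v ∈ T m 1 := (hxT m 0 v).mpr hu.1
    have h2 := h.inter (m + 1) 0 m 1 ⟨hv.1, h1⟩
    rwa [min_eq_right (Nat.le_succ m), Nat.zero_min] at h2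
  have hsum := Submodule.finrank_sup_add_finrank_inf_eq (glued p q 1 (T (m + 1) 0))
    ((glued p q 1 (T (m + 1) 0)).map (μ : V →ₗ[k] V))
  have hD := Submodule.finrank_mono hAB
  rw [LinearEquiv.finrank_map_eq μ] at hD hsum
  have fA := h.finrank_glued 1 (m + 1) 0 (by omega)
  have fC := h.finrank_glued 1 (m + 1 + 1) 0 (by omega)
  have fD := h.finrank_glued 1 m 0 (by omega)
  have heq : glued p q 1 (T (m + 1) 0) ⊔ (glued p q 1 (T (m + 1) 0)).map (μ : V →ₗ[k] V) =
      glued p q 1 (T (m + 1 + 1) 0) := by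
    refine Submodule.eq_of_le_of_finrank_le
      (sup_le (glued_mono p q 1 (h.mono _ _ _ _ (Nat.le_succ _) le_rfl)) hB) ?_
    have e1 : e * (m + 1 + 1 + 0) = e * (m + 1 + 0) + e := by ring
    have e2 : e * (m + 1 + 0) = e * (m + 0) + e := by ring
    omega
  intro v hv
  rw [← heq] at hv
  obtain ⟨a, ha, b', ⟨b, hb, rfl⟩, rfl⟩ := Submodule.mem_sup.mp hv
  exact ⟨a, ha, b, hb, rfl⟩

end IsNodalRR

/-- Moving the pole order from `Ē₁` to `Ē₂` by the inverse `y` of `x`. -/
theorem pow_mul_mem_of_shift_iff (T : ℕ → ℕ → Submodule k V) (x y : V) (hxy : x * y = 1)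
    (hxT : ∀ a b v, v ∈ T a (b + 1) ↔ x * v ∈ T (a + 1) b) (b a : ℕ) (v : V)
    (hv : v ∈ T (a + b) 0) : y ^ b * v ∈ T a b := by
  induction b generalizing a with
  | zero => simpa using hv
  | succ b ih =>
    have h1 := ih (a + 1) (by rwa [show a + 1 + b = a + (b + 1) by omega])
    rw [hxT a b]
    have h2 : x * (y ^ (b + 1) * v) = y ^ b * v := by
      rw [pow_succ]
      linear_combination (y ^ b * v) * hxy
    rwa [h2]

/-- Moving the pole order from `Ē₂` to `Ē₁` by `x`. -/
theorem pow_mul_mem_of_shift' (R : ℕ → ℕ → Submodule k V) (x : V)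
    (hxR : ∀ a b v, v ∈ R a (b + 1) ↔ x * v ∈ R (a + 1) b) (b a : ℕ) (w : V)
    (hw : w ∈ R a b) : x ^ b * w ∈ R (a + b) 0 := by
  induction b generalizing a w with
  | zero => simpa using hw
  | succ b ih =>
    have h1 := ih (a + 1) (x * w) ((hxR a b w).mp hw)
    rw [show a + 1 + b = a + (b + 1) by omega, ← mul_assoc, ← pow_succ] at h1
    exact h1

/-- **Node count and saturation.**  `T` the Riemann–Roch package of the two components,
`x` (with inverse `y`) the reduction of a function with polar divisor `E₁` and zero divisor `E₂`,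
`R a b` the reduction of the unit ball of `L(a E₁ + b E₂)` (so `dim R a 0 + s' = e * a + t'` by
Riemann on the generic fibre and cartesianness: `s' = g`, `t' = 1`).  If the conductor statement
holds in the chart off `E₁` (`hK1`) and in the chart off `E₂` (`hK2`), then the reductions are
saturated (`R a 0` is the whole glued space for large `a`) and the number of nodes is
`(t + s') - (t' + s)`, i.e. `g + 1 - 2 g'`. -/
theorem card_nodes_and_saturation
    (T : ℕ → ℕ → Submodule k V) (p q : I → V →ₐ[k] k) (e s t n₀ : ℕ)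
    (hT : IsNodalRR T p q e s t n₀)
    (x y : V) (hxy : x * y = 1) (hxp : ∀ i, p i x = q i x)
    (hxT : ∀ a b v, v ∈ T a (b + 1) ↔ x * v ∈ T (a + 1) b)
    (R : ℕ → ℕ → Submodule k V)
    (hRmono : ∀ a a' b b', a ≤ a' → b ≤ b' → R a b ≤ R a' b')
    (hxR : ∀ a b v, v ∈ R a (b + 1) ↔ x * v ∈ R (a + 1) b)
    (hRG : ∀ a, R a 0 ≤ glued p q 1 (T a 0))
    (s' t' : ℕ) (hRdim : ∀ a, n₀ ≤ a → finrank k (R a 0) + s' = e * a + t')
    (hK1 : ∀ a, ∀ v ∈ glued p q 1 (T a 0), ∃ a', v ∈ R a' 0)
    (hK2 : ∀ b, ∀ v ∈ glued p q 1 (T 0 b), ∃ b', v ∈ R 0 b') :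
    t + s' = t' + s + Fintype.card I ∧
      ∃ n₂, ∀ a, n₂ ≤ a → R a 0 = glued p q 1 (T a 0) := by
  have hfinT : ∀ a b, Module.Finite k (T a b) := hT.finite
  have hpy : ∀ i, p i y = q i y := by
    intro i
    have h1 : p i x * p i y = 1 := by rw [← map_mul, hxy, map_one]
    have h2 : q i x * q i y = 1 := by rw [← map_mul, hxy, map_one]
    calc p i y = p i y * (q i x * q i y) := by rw [h2, mul_one]
      _ = (p i x * p i y) * q i y := by rw [← hxp i]; ring
      _ = q i y := by rw [h1, one_mul]
  have hsat : ∃ n₂, ∀ n, n₂ ≤ n → glued p q 1 (T n 0) = R n 0 := by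
    refine exists_saturation x (fun n => R n 0) (fun n => glued p q 1 (T n 0)) hRG
      (fun a a' ha => hRmono _ _ _ _ ha le_rfl)
      (fun n v hv => (hxR n 0 v).mp (hRmono _ _ _ _ le_rfl (Nat.zero_le 1) hv))
      (n₀ + 1) ?_ (fun n hn => hT.exists_decomp_shift x y hxy hxp hxT n hn) (hK1 _) ?_
    · exact (Submodule.fg_iff_finiteDimensional _).mpr inferInstance
    · intro v hv
      -- transport to the chart off `E₂`
      have hw : y ^ (n₀ + 1) * v ∈ glued p q 1 (T 0 (n₀ + 1)) := by
        refine ⟨pow_mul_mem_of_shift_iff T x y hxy hxT (n₀ + 1) 0 v (by simpa using hv.1),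
          fun i => ?_⟩
        rw [map_mul, map_mul, map_pow, map_pow, hv.2 i, hpy i]
        simp
      obtain ⟨b', hb'⟩ := hK2 _ _ hw
      have hb'' : y ^ (n₀ + 1) * v ∈ R 0 (max b' (n₀ + 1)) :=
        hRmono _ _ _ _ le_rfl (le_max_left _ _) hb'
      have h1 := pow_mul_mem_of_shift' R x hxR (max b' (n₀ + 1)) 0 _ hb''
      refine ⟨max b' (n₀ + 1) - (n₀ + 1), ?_⟩
      have h2 : x ^ (max b' (n₀ + 1)) * (y ^ (n₀ + 1) * v) =
          x ^ (max b' (n₀ + 1) - (n₀ + 1)) * v := by
        have h3 : x ^ (max b' (n₀ + 1)) =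
            x ^ (max b' (n₀ + 1) - (n₀ + 1)) * x ^ (n₀ + 1) := by
          rw [← pow_add, Nat.sub_add_cancel (le_max_right _ _)]
        rw [h3, mul_assoc, ← mul_assoc (x ^ (n₀ + 1)), ← mul_pow, hxy, one_pow, one_mul]
      rw [h2] at h1
      have h4 : n₀ + 1 + (max b' (n₀ + 1) - (n₀ + 1)) = 0 + max b' (n₀ + 1) := by
        have := le_max_right b' (n₀ + 1)
        omega
      rw [h4]
      exact h1
  obtain ⟨n₂, hn₂⟩ := hsat
  refine ⟨?_, n₂, fun a ha => (hn₂ a ha).symm⟩
  have h1 := hT.finrank_glued 1 (max n₂ n₀) 0 (by have := le_max_right n₂ n₀; omega)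
  have h2 := hRdim (max n₂ n₀) (le_max_right _ _)
  rw [hn₂ _ (le_max_left _ _)] at h1
  have e1 : e * (max n₂ n₀ + 0) = e * max n₂ n₀ := by rw [add_zero]
  omega

/-- **Twisted lattice: glueing constants, no base points, reduction onto the glued spaces.**
In the situation of `card_nodes_and_saturation` (only its numerical conclusion is used), let
`M a b` be the twisted reduction of the unit ball of `L(D₀ + a E₁ + b E₂)` (`deg D₀ = 0`, so
`dim M a b + s' = e * (a + b) + t'`), landing in `T a b`, with `p i v ^ N = q i v ^ N` on `M`.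
Then there are `N`-th roots of unity `c i` with `M a b = glued c (T a b)` for `n₀ ≤ a + b`. -/
theorem exists_glue_const_of_card
    (T : ℕ → ℕ → Submodule k V) (p q : I → V →ₐ[k] k) (e s t n₀ : ℕ)
    (hT : IsNodalRR T p q e s t n₀)
    (s' t' : ℕ) (hcard : t + s' = t' + s + Fintype.card I)
    (M : ℕ → ℕ → Submodule k V)
    (hMmono : ∀ a a' b b', a ≤ a' → b ≤ b' → M a b ≤ M a' b')
    (hMT : ∀ a b, M a b ≤ T a b)
    (hMdim : ∀ a b, n₀ ≤ a + b → e * (a + b) + t' ≤ finrank k (M a b) + s')
    (N : ℕ) (hN : N ≠ 0) (hpow : ∀ a b, ∀ v ∈ M a b, ∀ i, p i v ^ N = q i v ^ N) :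
    ∃ c : I → k, (∀ i, c i ^ N = 1) ∧ ∀ a b, n₀ ≤ a + b → M a b = glued p q c (T a b) := by
  refine exists_glue_const p q T M hT.finite hMmono n₀ hT.eval_surj hMT (fun a b hab => ?_) N hN
    hpow
  have h1 := hT.finrank_eq a b hab
  have h2 := hMdim a b hab
  omega

omit [Fintype I] in
/-- The seed of the Kummer core: the constant `1` lies in the glued space iff all glueing
constants are `1`. -/
theorem one_mem_glued_iff {F : Type*} [FunLike F V k] [AlgHomClass F k V k] (p q : I → F)
    (c : I → k) (T : Submodule k V) (h1 : (1 : V) ∈ T) :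
    (1 : V) ∈ glued p q c T ↔ ∀ i, c i = 1 := by
  rw [mem_glued]
  constructor
  · rintro ⟨-, h⟩ i
    have := h i
    rw [map_one, map_one, mul_one] at this
    exact this.symm
  · intro h
    exact ⟨h1, fun i => by rw [map_one, map_one, mul_one, h i]⟩

/-- **Dimension supply for the glued special fibre, in an ambient space** (the shape of the
hypotheses `hd12`, `hd1`, `hd2` of `helper2459.kummer_core_gluedW`): `ι : V → W` injective (`W` the
product of the two residue fields), `S a b = ι (T a b)`, `G = ι {glueing conditions}`.  With the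
node count of `card_nodes_and_saturation`, `dim (S a b ⊓ G) + s' = e * (a + b) + t'`, which is the
generic Riemann count. -/
theorem finrank_map_inf_glued
    (T : ℕ → ℕ → Submodule k V) (p q : I → V →ₐ[k] k) (e s t n₀ : ℕ)
    (hT : IsNodalRR T p q e s t n₀)
    (s' t' : ℕ) (hcard : t + s' = t' + s + Fintype.card I)
    {W : Type*} [AddCommGroup W] [Module k W] (ι : V →ₗ[k] W) (hι : Function.Injective ι)
    (c : I → k) (a b : ℕ) (hab : n₀ ≤ a + b) :
    finrank k ↥((T a b).map ι ⊓ (glued p q c ⊤).map ι) + s' = e * (a + b) + t' := by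
  have h1 : (T a b).map ι ⊓ (glued p q c ⊤).map ι = (glued p q c (T a b)).map ι := by
    rw [← Submodule.map_inf ι hι]
    congr 1
    ext v
    simp only [Submodule.mem_inf, mem_glued, Submodule.mem_top, true_and]
  rw [h1, LinearEquiv.finrank_eq (Submodule.equivMapOfInjective ι hι _).symm]
  have h2 := hT.finrank_glued c a b hab
  omega

end Nodal

end Fermat.Agent.S35.helper603
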