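/-
S35/S34-TWLAT (board #1619, helper603), instantiation (I1): the Riemann-Roch package `IsNodalRR`
of `helper603_TwistedLattice` for two function fields in Prelude vocabulary
(`AlgebraicCurve.Place`, `Divisor`, `riemannRochSpace`), from the landed S18 Riemann theorem
(`Fermat.Agent.S18.helper981`).

* `valueAt`, `nodeRing`, `evalAt` : the value of a function at a place of degree one, the
  semilocal ring of functions regular at finitely many places, evaluation as a `k`-algebra hom.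
* `exists_mem_rr_values` : interpolation in a Riemann-Roch space of large degree.
* `pairRR`, `isNodalRR_of_riemann` : the package for `V = nodeRing P × nodeRing Q`,
  `T a b = L(a Yinf₁ + b Y0₁) × L(a Yinf₂ + b Y0₂)`.
-/
import Mathlib
import Fermat.Prelude.Def_AlgebraicCurve_Repartitions
import Fermat.Agent.S18.helper981_Riemann
import Fermat.Agent.S35.helper603_TwistedLattice

set_option autoImplicit false

noncomputable section

namespace Fermat.Agent.S35.helper603

open AlgebraicCurve WithZero Module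

section OneField

variable {K F : Type*} [Field K] [Field F] [Algebra K F]

/-- A nonzero constant is a unit at every place. -/
theorem adicValuation_algebraMap_eq_one (v : Place K F) {c : K} (hc : c ≠ 0) :
    v.adicValuation (algebraMap K F c) = 1 := by
  have h1 := v.adicValuation_algebraMap_le_one c
  have h2 := v.adicValuation_algebraMap_le_one c⁻¹
  have h3 : v.adicValuation (algebraMap K F c) * v.adicValuation (algebraMap K F c⁻¹) = 1 := by
    rw [← map_mul, ← map_mul, mul_inv_cancel₀ hc, map_one, map_one]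
  refine le_antisymm h1 ?_
  calc (1 : ℤᵐ⁰) = v.adicValuation (algebraMap K F c) * v.adicValuation (algebraMap K F c⁻¹) :=
        h3.symm
    _ ≤ v.adicValuation (algebraMap K F c) * 1 := mul_le_mul' le_rfl h2
    _ = v.adicValuation (algebraMap K F c) := mul_one _

/-- A constant of valuation `< 1` is zero. -/
theorem eq_zero_of_adicValuation_algebraMap_lt_one (v : Place K F) {c : K}
    (h : v.adicValuation (algebraMap K F c) < 1) : c = 0 := by
  by_contra hc
  rw [adicValuation_algebraMap_eq_one v hc] at h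
  exact lt_irrefl _ h

/-- The value of `f` at a place of degree one (`0` if `f` has a pole there). -/
def valueAt (v : Place K F) (hv : v.deg = 1) (f : F) : K :=
  if h : v.adicValuation f ≤ 1 then
    Classical.choose (Fermat.Agent.S18.helper981.exists_const_val_sub_lt_one v hv h)
  else 0

theorem valueAt_spec (v : Place K F) (hv : v.deg = 1) {f : F} (h : v.adicValuation f ≤ 1) :
    v.adicValuation (f - algebraMap K F (valueAt v hv f)) < 1 := by
  unfold valueAt
  rw [dif_pos h]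
  exact Classical.choose_spec (Fermat.Agent.S18.helper981.exists_const_val_sub_lt_one v hv h)

theorem valueAt_unique (v : Place K F) (hv : v.deg = 1) {f : F} {c : K}
    (hc : v.adicValuation (f - algebraMap K F c) < 1) : valueAt v hv f = c := by
  have hf : v.adicValuation f ≤ 1 := by
    have : f = (f - algebraMap K F c) + algebraMap K F c := by ring
    rw [this]
    exact v.adicValuation.map_add_le hc.le (v.adicValuation_algebraMap_le_one c)
  have h1 := valueAt_spec v hv hf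
  have h2 : v.adicValuation (algebraMap K F (valueAt v hv f - c)) < 1 := by
    have : algebraMap K F (valueAt v hv f - c) =
        (f - algebraMap K F c) - (f - algebraMap K F (valueAt v hv f)) := by
      rw [map_sub]; ring
    rw [this]
    exact v.adicValuation.map_sub_lt hc h1
  exact sub_eq_zero.mp (eq_zero_of_adicValuation_algebraMap_lt_one v h2)

theorem valueAt_eq_zero_iff (v : Place K F) (hv : v.deg = 1) {f : F}
    (h : v.adicValuation f ≤ 1) : valueAt v hv f = 0 ↔ v.adicValuation f < 1 := by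
  constructor
  · intro h0
    have := valueAt_spec v hv h
    rwa [h0, map_zero, sub_zero] at this
  · intro hlt
    exact valueAt_unique v hv (by rwa [map_zero, sub_zero])

theorem valueAt_add (v : Place K F) (hv : v.deg = 1) {f g : F} (hf : v.adicValuation f ≤ 1)
    (hg : v.adicValuation g ≤ 1) :
    valueAt v hv (f + g) = valueAt v hv f + valueAt v hv g := by
  refine valueAt_unique v hv ?_
  have h1 := valueAt_spec v hv hf
  have h2 := valueAt_spec v hv hg
  have : f + g - algebraMap K F (valueAt v hv f + valueAt v hv g) =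
      (f - algebraMap K F (valueAt v hv f)) + (g - algebraMap K F (valueAt v hv g)) := by
    rw [map_add]; ring
  rw [this]
  exact v.adicValuation.map_add_lt h1 h2

theorem valueAt_smul (v : Place K F) (hv : v.deg = 1) (r : K) {f : F}
    (hf : v.adicValuation f ≤ 1) : valueAt v hv (r • f) = r * valueAt v hv f := by
  refine valueAt_unique v hv ?_
  have h1 := valueAt_spec v hv hf
  have : r • f - algebraMap K F (r * valueAt v hv f) =
      algebraMap K F r * (f - algebraMap K F (valueAt v hv f)) := by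
    rw [map_mul, Algebra.smul_def]; ring
  rw [this, map_mul]
  exact (mul_le_mul' (v.adicValuation_algebraMap_le_one r) le_rfl).trans_lt (by rwa [one_mul])

variable {I : Type*}

/-- The `K`-algebra of functions regular at all the places `P i`. -/
def nodeRing (P : I → Place K F) : Subalgebra K F where
  carrier := {f | ∀ i, (P i).adicValuation f ≤ 1}
  mul_mem' := fun ha hb i => by rw [map_mul]; exact mul_le_one' (ha i) (hb i)
  add_mem' := fun ha hb i => (P i).adicValuation.map_add_le (ha i) (hb i)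
  algebraMap_mem' := fun c i => (P i).adicValuation_algebraMap_le_one c

theorem mem_nodeRing {P : I → Place K F} {f : F} :
    f ∈ nodeRing P ↔ ∀ i, (P i).adicValuation f ≤ 1 := Iff.rfl

/-- Evaluation at the `i`-th place, as a `K`-algebra homomorphism on the node ring. -/
def evalAt (P : I → Place K F) (hP : ∀ i, (P i).deg = 1) (i : I) : nodeRing P →ₐ[K] K where
  toFun f := valueAt (P i) (hP i) (f : F)
  map_one' := valueAt_unique _ _ (by simp)
  map_mul' f g := by
    refine valueAt_unique _ _ ?_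
    have hf := valueAt_spec (P i) (hP i) (f.2 i)
    have hg := valueAt_spec (P i) (hP i) (g.2 i)
    have : ((f * g : nodeRing P) : F) -
        algebraMap K F (valueAt (P i) (hP i) f * valueAt (P i) (hP i) g) =
        ((f : F) - algebraMap K F (valueAt (P i) (hP i) f)) * (g : F) +
          algebraMap K F (valueAt (P i) (hP i) f) *
            ((g : F) - algebraMap K F (valueAt (P i) (hP i) g)) := by
      rw [map_mul]; push_cast; ring
    rw [this]
    refine (P i).adicValuation.map_add_lt ?_ ?_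
    · rw [map_mul]
      exact (mul_le_mul' le_rfl (g.2 i)).trans_lt (by rwa [mul_one])
    · rw [map_mul]
      exact (mul_le_mul' ((P i).adicValuation_algebraMap_le_one _) le_rfl).trans_lt
        (by rwa [one_mul])
  map_zero' := valueAt_unique _ _ (by simp)
  map_add' f g := by
    refine valueAt_unique _ _ ?_
    have hf := valueAt_spec (P i) (hP i) (f.2 i)
    have hg := valueAt_spec (P i) (hP i) (g.2 i)
    have : ((f + g : nodeRing P) : F) -
        algebraMap K F (valueAt (P i) (hP i) f + valueAt (P i) (hP i) g) =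
        ((f : F) - algebraMap K F (valueAt (P i) (hP i) f)) +
          ((g : F) - algebraMap K F (valueAt (P i) (hP i) g)) := by
      rw [map_add]; push_cast; ring
    rw [this]
    exact (P i).adicValuation.map_add_lt hf hg
  commutes' c := valueAt_unique _ _ (by
    show (P i).adicValuation (algebraMap K F c - algebraMap K F c) < 1
    simp)

theorem evalAt_apply (P : I → Place K F) (hP : ∀ i, (P i).deg = 1) (i : I) (f : nodeRing P) :
    evalAt P hP i f = valueAt (P i) (hP i) (f : F) := rfl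

end OneField

section Interpolation

variable {K F : Type*} [Field K] [Field F] [Algebra K F] {I : Type*} [Fintype I]

/-- The reduced divisor `∑ P i`. -/
def pointDivisor (P : I → Place K F) : Divisor K F := ∑ i, Finsupp.single (P i) (1 : ℤ)

theorem pointDivisor_apply_self (P : I → Place K F) (hP : Function.Injective P) (j : I) :
    pointDivisor P (P j) = 1 := by
  classical
  unfold pointDivisor
  rw [Finsupp.finsetSum_apply, Finset.sum_eq_single j]
  · simp
  · intro i _ hij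
    rw [Finsupp.single_apply, if_neg (fun h => hij (hP h))]
  · intro h; exact absurd (Finset.mem_univ j) h

theorem pointDivisor_apply_of_ne (P : I → Place K F) (v : Place K F) (hv : ∀ i, P i ≠ v) :
    pointDivisor P v = 0 := by
  classical
  unfold pointDivisor
  rw [Finsupp.finsetSum_apply]
  exact Finset.sum_eq_zero fun i _ => by rw [Finsupp.single_apply, if_neg (hv i)]

theorem pointDivisor_nonneg (P : I → Place K F) : 0 ≤ pointDivisor P := by
  classical
  unfold pointDivisor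
  refine Finset.sum_nonneg fun i _ => ?_
  rw [Finsupp.le_def]
  intro v
  rw [Finsupp.single_apply]
  split_ifs <;> simp

theorem degree_pointDivisor (hdeg : ∀ v : Place K F, v.deg = 1) (P : I → Place K F) :
    Divisor.degree (pointDivisor P) = Fintype.card I := by
  unfold pointDivisor
  rw [map_sum]
  simp [Divisor.degree_single, hdeg]

/-- **Interpolation.**  If Riemann's equality `l(D) = deg D + 1 - g` holds for all divisors of
degree `≥ c`, then in a Riemann-Roch space `L(E)` of degree `≥ c + #I`, with `E` not involving the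
distinct degree-one places `P i`, the values at the `P i` can be prescribed. -/
theorem exists_mem_rr_values [HasPrincipalDivisors K F] (hdeg : ∀ v : Place K F, v.deg = 1)
    (P : I → Place K F) (hPinj : Function.Injective P) (g c : ℤ)
    (hR : ∀ D : Divisor K F, c ≤ Divisor.degree D →
      (finrank K (riemannRochSpace D) : ℤ) = Divisor.degree D + 1 - g)
    (E : Divisor K F) (hE : ∀ i, E (P i) = 0) (hdegE : c + Fintype.card I ≤ Divisor.degree E)
    (u : I → K) :
    ∃ f ∈ riemannRochSpace E, ∀ i, valueAt (P i) (hdeg (P i)) f = u i := by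
  classical
  rcases isEmpty_or_nonempty I with hI | ⟨⟨i₀⟩⟩
  · exact ⟨0, zero_mem _, fun i => (hI.false i).elim⟩
  have hreg : ∀ f ∈ riemannRochSpace E, ∀ i, (P i).adicValuation f ≤ 1 := fun f hf i => by
    have := hf (P i)
    rwa [hE i, exp_zero] at this
  have hfinE : Module.Finite K (riemannRochSpace E) :=
    Fermat.Agent.S18.helper981.finite_riemannRochSpace hdeg (P i₀) E
  let φ : riemannRochSpace E →ₗ[K] (I → K) :=
    { toFun := fun f i => valueAt (P i) (hdeg (P i)) (f : F)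
      map_add' := fun a b => by
        funext i
        exact valueAt_add (P i) (hdeg (P i)) (hreg a a.2 i) (hreg b b.2 i)
      map_smul' := fun r a => by
        funext i
        exact valueAt_smul (P i) (hdeg (P i)) r (hreg a a.2 i) }
  have hφ : ∀ (f : riemannRochSpace E) (i : I), φ f i = valueAt (P i) (hdeg (P i)) (f : F) :=
    fun f i => rfl
  have hker : (LinearMap.ker φ).map (riemannRochSpace E).subtype =
      riemannRochSpace (E - pointDivisor P) := by
    ext f
    constructor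
    · rintro ⟨⟨f, hf⟩, hφf, rfl⟩
      intro v
      show v.adicValuation f ≤ exp ((E - pointDivisor P) v)
      by_cases hv : ∃ i, P i = v
      · obtain ⟨i, rfl⟩ := hv
        rw [Finsupp.coe_sub, Pi.sub_apply, hE i, pointDivisor_apply_self P hPinj i]
        have h0 : valueAt (P i) (hdeg (P i)) f = 0 := congrFun hφf i
        have h1 := (valueAt_eq_zero_iff _ _ (hreg f hf i)).mp h0
        have h2 := (Fermat.Agent.S18.helper981.val_lt_exp_succ_iff (P i) (f := f) (n := -1)).mp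
          (by simpa using h1)
        simpa using h2
      · have hv : ∀ i, P i ≠ v := fun i hi => hv ⟨i, hi⟩
        rw [Finsupp.coe_sub, Pi.sub_apply, pointDivisor_apply_of_ne P v hv, sub_zero]
        exact hf v
    · intro hf
      have hfE : f ∈ riemannRochSpace E :=
        Fermat.Agent.S18.helper981.riemannRochSpace_mono
          (sub_le_self E (pointDivisor_nonneg P)) hf
      refine ⟨⟨f, hfE⟩, LinearMap.mem_ker.mpr (funext fun i => ?_), rfl⟩
      rw [hφ]
      show valueAt (P i) (hdeg (P i)) f = 0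
      rw [valueAt_eq_zero_iff _ _ (hreg f hfE i)]
      have h1 := hf (P i)
      rw [Finsupp.coe_sub, Pi.sub_apply, hE i, pointDivisor_apply_self P hPinj i] at h1
      have h2 := (Fermat.Agent.S18.helper981.val_lt_exp_succ_iff (P i) (f := f) (n := -1)).mpr
        (by simpa using h1)
      simpa using h2
  have hrn := φ.finrank_range_add_finrank_ker
  rw [← Submodule.finrank_map_subtype_eq (riemannRochSpace E) (LinearMap.ker φ), hker] at hrn
  have hdeg' : Divisor.degree (E - pointDivisor P) = Divisor.degree E - Fintype.card I := by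
    rw [map_sub, degree_pointDivisor hdeg]
  have h1 := hR E (by omega)
  have h2 := hR (E - pointDivisor P) (by rw [hdeg']; omega)
  rw [hdeg'] at h2
  have hrange : LinearMap.range φ = ⊤ := by
    apply Submodule.eq_top_of_finrank_eq
    rw [Module.finrank_fintype_fun_eq_card]
    omega
  obtain ⟨f, hf⟩ := LinearMap.range_eq_top.mp hrange u
  exact ⟨f, f.2, fun i => by rw [← hφ, hf]⟩

end Interpolation

section ChartDivisor

variable {K F : Type*} [Field K] [Field F] [Algebra K F]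

theorem chartDiv_apply (Yinf Y0 : Divisor K F) (a b : ℕ) (v : Place K F) :
    (a • Yinf + b • Y0) v = a * Yinf v + b * Y0 v := by
  simp [Finsupp.add_apply, Finsupp.smul_apply]

theorem chartDiv_mono {Yinf Y0 : Divisor K F} (hYinf : 0 ≤ Yinf) (hY0 : 0 ≤ Y0) {a a' b b' : ℕ}
    (ha : a ≤ a') (hb : b ≤ b') : a • Yinf + b • Y0 ≤ a' • Yinf + b' • Y0 := by
  rw [Finsupp.le_def]
  intro v
  rw [chartDiv_apply, chartDiv_apply]
  have h1 : (0 : ℤ) ≤ Yinf v := by simpa using Finsupp.le_def.mp hYinf v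
  have h2 : (0 : ℤ) ≤ Y0 v := by simpa using Finsupp.le_def.mp hY0 v
  have h3 : (a : ℤ) ≤ a' := by exact_mod_cast ha
  have h4 : (b : ℤ) ≤ b' := by exact_mod_cast hb
  nlinarith [mul_le_mul_of_nonneg_right h3 h1, mul_le_mul_of_nonneg_right h4 h2]

/-- Pole orders along two disjoint effective divisors intersect. -/
theorem rr_chartDiv_inter {Yinf Y0 : Divisor K F}
    (hdisj : ∀ v : Place K F, Yinf v = 0 ∨ Y0 v = 0) {a b a' b' : ℕ} {f : F}
    (h : f ∈ riemannRochSpace (a • Yinf + b • Y0))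
    (h' : f ∈ riemannRochSpace (a' • Yinf + b' • Y0)) :
    f ∈ riemannRochSpace (min a a' • Yinf + min b b' • Y0) := by
  intro v
  have hv := h v
  have hv' := h' v
  rw [chartDiv_apply] at hv hv' ⊢
  rcases hdisj v with h0 | h0
  · rw [h0, mul_zero, zero_add] at hv hv' ⊢
    rcases le_total b b' with hb | hb
    · rwa [min_eq_left hb]
    · rwa [min_eq_right hb]
  · rw [h0, mul_zero, add_zero] at hv hv' ⊢
    rcases le_total a a' with ha | ha
    · rwa [min_eq_left ha]
    · rwa [min_eq_right ha]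

theorem degree_chartDiv {Yinf Y0 : Divisor K F} {d : ℕ} (hd : Divisor.degree Yinf = d)
    (hd0 : Divisor.degree Y0 = d) (a b : ℕ) :
    Divisor.degree (a • Yinf + b • Y0) = ((a + b : ℕ) : ℤ) * d := by
  rw [map_add, map_nsmul, map_nsmul, hd, hd0]
  push_cast
  simp only [nsmul_eq_mul]
  ring

end ChartDivisor

section TwoFields

variable {k Fk₁ Fk₂ : Type*} [Field k] [Field Fk₁] [Field Fk₂] [Algebra k Fk₁] [Algebra k Fk₂]
variable {I : Type*}

/-- Pairs of functions, regular at the node points, lying in two Riemann–Roch spaces. -/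
def pairRR (P : I → Place k Fk₁) (Q : I → Place k Fk₂) (E₁ : Divisor k Fk₁)
    (E₂ : Divisor k Fk₂) : Submodule k (nodeRing P × nodeRing Q) where
  carrier := {v | (v.1 : Fk₁) ∈ riemannRochSpace E₁ ∧ (v.2 : Fk₂) ∈ riemannRochSpace E₂}
  add_mem' := fun ha hb => ⟨add_mem ha.1 hb.1, add_mem ha.2 hb.2⟩
  zero_mem' := ⟨zero_mem _, zero_mem _⟩
  smul_mem' := fun c _ hv => ⟨Submodule.smul_mem _ c hv.1, Submodule.smul_mem _ c hv.2⟩

theorem mem_pairRR {P : I → Place k Fk₁} {Q : I → Place k Fk₂} {E₁ : Divisor k Fk₁}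
    {E₂ : Divisor k Fk₂} {v : nodeRing P × nodeRing Q} :
    v ∈ pairRR P Q E₁ E₂ ↔
      (v.1 : Fk₁) ∈ riemannRochSpace E₁ ∧ (v.2 : Fk₂) ∈ riemannRochSpace E₂ := Iff.rfl

/-- If the two Riemann–Roch spaces consist of functions regular at the node points, `pairRR` is
their product. -/
def pairRREquiv (P : I → Place k Fk₁) (Q : I → Place k Fk₂) (E₁ : Divisor k Fk₁)
    (E₂ : Divisor k Fk₂) (h₁ : ∀ f ∈ riemannRochSpace E₁, f ∈ nodeRing P)
    (h₂ : ∀ f ∈ riemannRochSpace E₂, f ∈ nodeRing Q) :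
    pairRR P Q E₁ E₂ ≃ₗ[k] riemannRochSpace E₁ × riemannRochSpace E₂ where
  toFun v := (⟨(v.1.1 : Fk₁), v.2.1⟩, ⟨(v.1.2 : Fk₂), v.2.2⟩)
  invFun w := ⟨(⟨w.1, h₁ _ w.1.2⟩, ⟨w.2, h₂ _ w.2.2⟩), ⟨w.1.2, w.2.2⟩⟩
  map_add' _ _ := rfl
  map_smul' _ _ := rfl
  left_inv _ := rfl
  right_inv _ := rfl

theorem rr_le_nodeRing (P : I → Place k Fk₁) (E : Divisor k Fk₁) (hE : ∀ i, E (P i) = 0) :
    ∀ f ∈ riemannRochSpace E, f ∈ nodeRing P := fun f hf i => by
  have := hf (P i)
  rwa [hE i, exp_zero] at this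

variable [Fintype I]

/-- **The Riemann–Roch package of the two components, in Prelude vocabulary.**
`Fk₁`, `Fk₂` function fields over `k` with principal divisors, all places of degree one and a
Riemann bound (S18: `helper3537`, `helper981`); `Yinf_j`, `Y0_j` disjoint effective divisors of
degree `d_j > 0` (pole and zero divisor of the reduction of the chart function on component `j`);
`P i`, `Q i` distinct places off these divisors (the two points of the `i`-th node).  Then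
`T a b = L(a Yinf₁ + b Y0₁) × L(a Yinf₂ + b Y0₂)` inside `nodeRing P × nodeRing Q`, with the
evaluations at `P i`, `Q i`, is an `IsNodalRR` package with `e = d₁ + d₂`,
`s = g(Fk₁) + g(Fk₂)`, `t = 2`. -/
theorem isNodalRR_of_riemann
    [HasPrincipalDivisors k Fk₁] [HasPrincipalDivisors k Fk₂]
    (hdeg₁ : ∀ v : Place k Fk₁, v.deg = 1) (hdeg₂ : ∀ v : Place k Fk₂, v.deg = 1)
    (hRB₁ : Fermat.Agent.S18.helper981.HasRiemannBound k Fk₁)
    (hRB₂ : Fermat.Agent.S18.helper981.HasRiemannBound k Fk₂)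
    (P₁ : Place k Fk₁) (P₂ : Place k Fk₂)
    (P : I → Place k Fk₁) (Q : I → Place k Fk₂)
    (hP : Function.Injective P) (hQ : Function.Injective Q)
    (Yinf₁ Y0₁ : Divisor k Fk₁) (Yinf₂ Y0₂ : Divisor k Fk₂)
    (hYinf₁ : 0 ≤ Yinf₁) (hY0₁ : 0 ≤ Y0₁) (hYinf₂ : 0 ≤ Yinf₂) (hY0₂ : 0 ≤ Y0₂)
    (hdisj₁ : ∀ v : Place k Fk₁, Yinf₁ v = 0 ∨ Y0₁ v = 0)
    (hdisj₂ : ∀ v : Place k Fk₂, Yinf₂ v = 0 ∨ Y0₂ v = 0)
    (d₁ d₂ : ℕ) (hd₁ : 0 < d₁) (hd₂ : 0 < d₂)
    (hdY₁ : Divisor.degree Yinf₁ = d₁) (hdY0₁ : Divisor.degree Y0₁ = d₁)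
    (hdY₂ : Divisor.degree Yinf₂ = d₂) (hdY0₂ : Divisor.degree Y0₂ = d₂)
    (hPY : ∀ i, Yinf₁ (P i) = 0 ∧ Y0₁ (P i) = 0) (hQY : ∀ i, Yinf₂ (Q i) = 0 ∧ Y0₂ (Q i) = 0) :
    ∃ n₀, IsNodalRR (fun a b => pairRR P Q (a • Yinf₁ + b • Y0₁) (a • Yinf₂ + b • Y0₂))
      (fun i => (evalAt P (fun i => hdeg₁ (P i)) i).comp (AlgHom.fst k (nodeRing P) (nodeRing Q)))
      (fun i => (evalAt Q (fun i => hdeg₂ (Q i)) i).comp (AlgHom.snd k (nodeRing P) (nodeRing Q)))
      (d₁ + d₂)
      (Fermat.Agent.S18.helper981.riemannGenus k Fk₁ +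
        Fermat.Agent.S18.helper981.riemannGenus k Fk₂) 2 n₀ := by
  classical
  obtain ⟨c₁, hc₁⟩ := Fermat.Agent.S18.helper981.exists_forall_finrank_eq hdeg₁ P₁ hRB₁
  obtain ⟨c₂, hc₂⟩ := Fermat.Agent.S18.helper981.exists_forall_finrank_eq hdeg₂ P₂ hRB₂
  have hE₁ : ∀ (a b : ℕ) (i : I), (a • Yinf₁ + b • Y0₁) (P i) = 0 := fun a b i => by
    rw [chartDiv_apply, (hPY i).1, (hPY i).2]; simp
  have hE₂ : ∀ (a b : ℕ) (i : I), (a • Yinf₂ + b • Y0₂) (Q i) = 0 := fun a b i => by
    rw [chartDiv_apply, (hQY i).1, (hQY i).2]; simp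
  have hfin₁ : ∀ D : Divisor k Fk₁, Module.Finite k (riemannRochSpace D) :=
    Fermat.Agent.S18.helper981.finite_riemannRochSpace hdeg₁ P₁
  have hfin₂ : ∀ D : Divisor k Fk₂, Module.Finite k (riemannRochSpace D) :=
    Fermat.Agent.S18.helper981.finite_riemannRochSpace hdeg₂ P₂
  let eqv : ∀ a b : ℕ, pairRR P Q (a • Yinf₁ + b • Y0₁) (a • Yinf₂ + b • Y0₂) ≃ₗ[k]
      riemannRochSpace (a • Yinf₁ + b • Y0₁) × riemannRochSpace (a • Yinf₂ + b • Y0₂) :=
    fun a b => pairRREquiv P Q _ _ (rr_le_nodeRing P _ (hE₁ a b)) (rr_le_nodeRing Q _ (hE₂ a b))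
  -- degrees are large on the region
  have hbig : ∀ a b : ℕ, (max c₁ c₂).toNat + Fintype.card I ≤ a + b →
      c₁ + Fintype.card I ≤ Divisor.degree (a • Yinf₁ + b • Y0₁) ∧
      c₂ + Fintype.card I ≤ Divisor.degree (a • Yinf₂ + b • Y0₂) := by
    intro a b hab
    rw [degree_chartDiv hdY₁ hdY0₁, degree_chartDiv hdY₂ hdY0₂]
    have h1 : ((a + b : ℕ) : ℤ) ≤ ((a + b : ℕ) : ℤ) * d₁ := by
      have : (1 : ℤ) ≤ d₁ := by exact_mod_cast hd₁
      nlinarith [Int.natCast_nonneg (a + b)]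
    have h2 : ((a + b : ℕ) : ℤ) ≤ ((a + b : ℕ) : ℤ) * d₂ := by
      have : (1 : ℤ) ≤ d₂ := by exact_mod_cast hd₂
      nlinarith [Int.natCast_nonneg (a + b)]
    have h3 : ((max c₁ c₂).toNat : ℤ) + Fintype.card I ≤ ((a + b : ℕ) : ℤ) := by
      exact_mod_cast hab
    have h4 : max c₁ c₂ ≤ ((max c₁ c₂).toNat : ℤ) := Int.self_le_toNat _
    have h5 := le_max_left c₁ c₂
    have h6 := le_max_right c₁ c₂
    constructor <;> linarith
  refine ⟨(max c₁ c₂).toNat + Fintype.card I, ?_, ?_, ?_, ?_, ?_⟩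
  · -- mono
    intro a a' b b' ha hb v hv
    exact ⟨Fermat.Agent.S18.helper981.riemannRochSpace_mono (chartDiv_mono hYinf₁ hY0₁ ha hb) hv.1,
      Fermat.Agent.S18.helper981.riemannRochSpace_mono (chartDiv_mono hYinf₂ hY0₂ ha hb) hv.2⟩
  · -- inter
    rintro a b a' b' v ⟨hv, hv'⟩
    exact ⟨rr_chartDiv_inter hdisj₁ hv.1 hv'.1, rr_chartDiv_inter hdisj₂ hv.2 hv'.2⟩
  · -- finite
    intro a b
    exact Module.Finite.equiv (eqv a b).symm
  · -- dimension
    intro a b hab
    obtain ⟨hb₁, hb₂⟩ := hbig a b hab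
    have h1 := hc₁ _ (by linarith : c₁ ≤ Divisor.degree (a • Yinf₁ + b • Y0₁))
    have h2 := hc₂ _ (by linarith : c₂ ≤ Divisor.degree (a • Yinf₂ + b • Y0₂))
    rw [degree_chartDiv hdY₁ hdY0₁] at h1
    rw [degree_chartDiv hdY₂ hdY0₂] at h2
    have h3 : finrank k (pairRR P Q (a • Yinf₁ + b • Y0₁) (a • Yinf₂ + b • Y0₂)) =
        finrank k (riemannRochSpace (a • Yinf₁ + b • Y0₁)) +
          finrank k (riemannRochSpace (a • Yinf₂ + b • Y0₂)) := by
      rw [LinearEquiv.finrank_eq (eqv a b), Module.finrank_prod]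
    have h4 : ((finrank k (pairRR P Q (a • Yinf₁ + b • Y0₁) (a • Yinf₂ + b • Y0₂)) +
        (Fermat.Agent.S18.helper981.riemannGenus k Fk₁ +
          Fermat.Agent.S18.helper981.riemannGenus k Fk₂) : ℕ) : ℤ) =
        (((d₁ + d₂) * (a + b) + 2 : ℕ) : ℤ) := by
      rw [h3]
      push_cast
      push_cast at h1 h2
      linarith
    exact_mod_cast h4
  · -- interpolation
    intro a b hab u w
    obtain ⟨hb₁, hb₂⟩ := hbig a b hab
    obtain ⟨f₁, hf₁, hu⟩ := exists_mem_rr_values hdeg₁ P hP _ c₁ hc₁ _ (hE₁ a b) hb₁ u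
    obtain ⟨f₂, hf₂, hw⟩ := exists_mem_rr_values hdeg₂ Q hQ _ c₂ hc₂ _ (hE₂ a b) hb₂ w
    refine ⟨(⟨f₁, rr_le_nodeRing P _ (hE₁ a b) f₁ hf₁⟩, ⟨f₂, rr_le_nodeRing Q _ (hE₂ a b) f₂ hf₂⟩),
      ⟨hf₁, hf₂⟩, fun i => ⟨?_, ?_⟩⟩
    · exact hu i
    · exact hw i

/-! ### The glued spaces inside `Fk₁ × Fk₂` -/

omit [Fintype I] in
/-- The inclusion of `nodeRing P × nodeRing Q` into `Fk₁ × Fk₂`. -/
def nodeIncl (P : I → Place k Fk₁) (Q : I → Place k Fk₂) :
    (nodeRing P × nodeRing Q) →ₗ[k] Fk₁ × Fk₂ :=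
  LinearMap.prodMap (nodeRing P).val.toLinearMap (nodeRing Q).val.toLinearMap

omit [Fintype I] in
theorem nodeIncl_apply (P : I → Place k Fk₁) (Q : I → Place k Fk₂)
    (v : nodeRing P × nodeRing Q) : nodeIncl P Q v = ((v.1 : Fk₁), (v.2 : Fk₂)) := rfl

omit [Fintype I] in
theorem nodeIncl_injective (P : I → Place k Fk₁) (Q : I → Place k Fk₂) :
    Function.Injective (nodeIncl P Q) := by
  intro v w h
  rw [nodeIncl_apply, nodeIncl_apply, Prod.mk.injEq] at h
  exact Prod.ext (Subtype.ext h.1) (Subtype.ext h.2)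

/-- **The glued (nodal) Riemann–Roch space** inside `Fk₁ × Fk₂`: pairs `(f₁, f₂)` with
`f_j ∈ L(E_j)` and `f₂(Q i) = c i * f₁(P i)` at every node. -/
def gluedRR (P : I → Place k Fk₁) (Q : I → Place k Fk₂) (hdeg₁ : ∀ i, (P i).deg = 1)
    (hdeg₂ : ∀ i, (Q i).deg = 1) (c : I → k) (E₁ : Divisor k Fk₁) (E₂ : Divisor k Fk₂) :
    Submodule k (Fk₁ × Fk₂) :=
  (glued (fun i => (evalAt P hdeg₁ i).comp (AlgHom.fst k (nodeRing P) (nodeRing Q)))
    (fun i => (evalAt Q hdeg₂ i).comp (AlgHom.snd k (nodeRing P) (nodeRing Q))) c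
    (pairRR P Q E₁ E₂)).map (nodeIncl P Q)

omit [Fintype I] in
theorem mem_gluedRR (P : I → Place k Fk₁) (Q : I → Place k Fk₂) (hdeg₁ : ∀ i, (P i).deg = 1)
    (hdeg₂ : ∀ i, (Q i).deg = 1) (c : I → k) (E₁ : Divisor k Fk₁) (E₂ : Divisor k Fk₂)
    (hE₁ : ∀ i, E₁ (P i) = 0) (hE₂ : ∀ i, E₂ (Q i) = 0) (w : Fk₁ × Fk₂) :
    w ∈ gluedRR P Q hdeg₁ hdeg₂ c E₁ E₂ ↔
      w.1 ∈ riemannRochSpace E₁ ∧ w.2 ∈ riemannRochSpace E₂ ∧
        ∀ i, valueAt (Q i) (hdeg₂ i) w.2 = c i * valueAt (P i) (hdeg₁ i) w.1 := by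
  constructor
  · rintro ⟨v, ⟨hv, hg⟩, rfl⟩
    exact ⟨hv.1, hv.2, fun i => hg i⟩
  · rintro ⟨h1, h2, hg⟩
    exact ⟨(⟨w.1, rr_le_nodeRing P E₁ hE₁ _ h1⟩, ⟨w.2, rr_le_nodeRing Q E₂ hE₂ _ h2⟩),
      ⟨⟨h1, h2⟩, fun i => hg i⟩, rfl⟩

/-- **Nodal Riemann theorem in Prelude vocabulary** (the special-fibre supply of E3 for the
two-chart Kummer core, shape of `helper1788.isPrincipal_of_countW`): the glued spaces
`N a b = gluedRR c (a Yinf₁ + b Y0₁) (a Yinf₂ + b Y0₂)` are finite-dimensional, increasing,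
their pole orders intersect, and
`dim N a b + #I + g(Fk₁) + g(Fk₂) = (d₁ + d₂) (a + b) + 2` for `a + b ≥ n₀`. -/
theorem gluedRR_package
    [HasPrincipalDivisors k Fk₁] [HasPrincipalDivisors k Fk₂]
    (hdeg₁ : ∀ v : Place k Fk₁, v.deg = 1) (hdeg₂ : ∀ v : Place k Fk₂, v.deg = 1)
    (hRB₁ : Fermat.Agent.S18.helper981.HasRiemannBound k Fk₁)
    (hRB₂ : Fermat.Agent.S18.helper981.HasRiemannBound k Fk₂)
    (P₁ : Place k Fk₁) (P₂ : Place k Fk₂)
    (P : I → Place k Fk₁) (Q : I → Place k Fk₂)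
    (hP : Function.Injective P) (hQ : Function.Injective Q)
    (Yinf₁ Y0₁ : Divisor k Fk₁) (Yinf₂ Y0₂ : Divisor k Fk₂)
    (hYinf₁ : 0 ≤ Yinf₁) (hY0₁ : 0 ≤ Y0₁) (hYinf₂ : 0 ≤ Yinf₂) (hY0₂ : 0 ≤ Y0₂)
    (hdisj₁ : ∀ v : Place k Fk₁, Yinf₁ v = 0 ∨ Y0₁ v = 0)
    (hdisj₂ : ∀ v : Place k Fk₂, Yinf₂ v = 0 ∨ Y0₂ v = 0)
    (d₁ d₂ : ℕ) (hd₁ : 0 < d₁) (hd₂ : 0 < d₂)
    (hdY₁ : Divisor.degree Yinf₁ = d₁) (hdY0₁ : Divisor.degree Y0₁ = d₁)
    (hdY₂ : Divisor.degree Yinf₂ = d₂) (hdY0₂ : Divisor.degree Y0₂ = d₂)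
    (hPY : ∀ i, Yinf₁ (P i) = 0 ∧ Y0₁ (P i) = 0) (hQY : ∀ i, Yinf₂ (Q i) = 0 ∧ Y0₂ (Q i) = 0)
    (c : I → k) :
    (∀ a b : ℕ, Module.Finite k (gluedRR P Q (fun i => hdeg₁ (P i)) (fun i => hdeg₂ (Q i)) c
      (a • Yinf₁ + b • Y0₁) (a • Yinf₂ + b • Y0₂))) ∧
    (∀ a a' b b' : ℕ, a ≤ a' → b ≤ b' →
      gluedRR P Q (fun i => hdeg₁ (P i)) (fun i => hdeg₂ (Q i)) c
        (a • Yinf₁ + b • Y0₁) (a • Yinf₂ + b • Y0₂) ≤
      gluedRR P Q (fun i => hdeg₁ (P i)) (fun i => hdeg₂ (Q i)) c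
        (a' • Yinf₁ + b' • Y0₁) (a' • Yinf₂ + b' • Y0₂)) ∧
    (∀ a b a' b' : ℕ,
      gluedRR P Q (fun i => hdeg₁ (P i)) (fun i => hdeg₂ (Q i)) c
        (a • Yinf₁ + b • Y0₁) (a • Yinf₂ + b • Y0₂) ⊓
      gluedRR P Q (fun i => hdeg₁ (P i)) (fun i => hdeg₂ (Q i)) c
        (a' • Yinf₁ + b' • Y0₁) (a' • Yinf₂ + b' • Y0₂) ≤
      gluedRR P Q (fun i => hdeg₁ (P i)) (fun i => hdeg₂ (Q i)) c
        (min a a' • Yinf₁ + min b b' • Y0₁) (min a a' • Yinf₂ + min b b' • Y0₂)) ∧
    ∃ n₀ : ℕ, ∀ a b : ℕ, n₀ ≤ a + b →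
      finrank k (gluedRR P Q (fun i => hdeg₁ (P i)) (fun i => hdeg₂ (Q i)) c
        (a • Yinf₁ + b • Y0₁) (a • Yinf₂ + b • Y0₂)) + Fintype.card I +
        (Fermat.Agent.S18.helper981.riemannGenus k Fk₁ +
          Fermat.Agent.S18.helper981.riemannGenus k Fk₂) = (d₁ + d₂) * (a + b) + 2 := by
  obtain ⟨n₀, hT⟩ := isNodalRR_of_riemann hdeg₁ hdeg₂ hRB₁ hRB₂ P₁ P₂ P Q hP hQ Yinf₁ Y0₁ Yinf₂ Y0₂
    hYinf₁ hY0₁ hYinf₂ hY0₂ hdisj₁ hdisj₂ d₁ d₂ hd₁ hd₂ hdY₁ hdY0₁ hdY₂ hdY0₂ hPY hQY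
  have hE₁ : ∀ (a b : ℕ) (i : I), (a • Yinf₁ + b • Y0₁) (P i) = 0 := fun a b i => by
    rw [chartDiv_apply, (hPY i).1, (hPY i).2]; simp
  have hE₂ : ∀ (a b : ℕ) (i : I), (a • Yinf₂ + b • Y0₂) (Q i) = 0 := fun a b i => by
    rw [chartDiv_apply, (hQY i).1, (hQY i).2]; simp
  refine ⟨fun a b => ?_, fun a a' b b' ha hb => ?_, fun a b a' b' => ?_, n₀, fun a b hab => ?_⟩
  · have := hT.finite a b
    unfold gluedRR
    infer_instance
  · exact Submodule.map_mono (glued_mono _ _ c (hT.mono a a' b b' ha hb))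
  · intro w hw
    rw [Submodule.mem_inf, mem_gluedRR _ _ _ _ _ _ _ (hE₁ a b) (hE₂ a b),
      mem_gluedRR _ _ _ _ _ _ _ (hE₁ a' b') (hE₂ a' b')] at hw
    rw [mem_gluedRR _ _ _ _ _ _ _ (hE₁ _ _) (hE₂ _ _)]
    exact ⟨rr_chartDiv_inter hdisj₁ hw.1.1 hw.2.1, rr_chartDiv_inter hdisj₂ hw.1.2.1 hw.2.2.1,
      hw.1.2.2⟩
  · have h1 := hT.finrank_glued c a b hab
    unfold gluedRR
    rw [LinearEquiv.finrank_eq
      (Submodule.equivMapOfInjective (nodeIncl P Q) (nodeIncl_injective P Q) _).symm]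
    omega

end TwoFields

end Fermat.Agent.S35.helper603

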