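/-
S35/S34-TWLAT (item (E3) of the shared geometry module), FUNCTION-FIELD ASSEMBLY (helper603).

`helper603_TwistedLattice` (abstract) and `helper603_NodalRRInst` (Riemann–Roch package of the two
components) are combined here with the reduction vocabulary of `helper2459_KummerMultiSF`
(`RedDataW`, `CartesianW`, weights `1`):

* `redBall hred ιV S` : the reduction of the unit ball of a `K`-subspace `S` of the generic
  function field, pulled back to the normalisation ring `Vn` along `ιV : Vn →ₐ[kk] Fk`; with the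
  cartesian dimension comparisons `finrank_le_finrank_redBall`, `finrank_redBall_le`.
* `saturation_of_conductor` : two-chart saturation (no dimension input).
* `node_count_of_reduction` : `deg E₁ = e`, the node count `t + s' = t' + s + #I` and the
  saturation of the untwisted reductions, from the conductor statements in the two charts.
* `exists_glue_const_of_reduction` : the twisted lattice
  `red (ball ∩ L(D₀ + a E₁ + b E₂)) = ιV (glued c (T a b))`, `c i ^ n = 1`
  (the hypothesis `hE3` of the integration leaf (E5)).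
-/
import Mathlib
import Fermat.Agent.S35.helper603_NodalRRInst
import Fermat.Agent.S35.helper2459_KummerMultiSF

set_option autoImplicit false

namespace Fermat.Agent.S35.helper603

open AlgebraicCurve WithZero Module
open Fermat.Agent.S35.helper2459 (RedDataW CartesianW)

/-! ### Riemann–Roch spaces: shift, powers, roots -/

section RR

variable {K F : Type*} [Field K] [Field F] [Algebra K F]

theorem twDiv_apply (D0 A B : Divisor K F) (a b : ℕ) (w : Place K F) :
    (D0 + a • A + b • B) w = D0 w + a * A w + b * B w := by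
  simp [Finsupp.add_apply, Finsupp.smul_apply]

/-- Multiplication by a function with divisor `B - A` moves one unit of pole order from `B`
to `A`. -/
theorem mul_mem_rr_shift_iff {x : F} (hx0 : x ≠ 0) {A B : Divisor K F}
    (hord : ∀ w : Place K F, w.ord x = B w - A w) (a b : ℕ) (f : F) :
    f ∈ riemannRochSpace (a • A + (b + 1) • B) ↔
      x * f ∈ riemannRochSpace ((a + 1) • A + b • B) := by
  rw [mem_riemannRochSpace_iff, mem_riemannRochSpace_iff]
  refine forall_congr' fun w => ?_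
  by_cases hf : f = 0
  · simp [hf]
  · have hxf : x * f ≠ 0 := mul_ne_zero hx0 hf
    simp only [hf, hxf, false_or]
    rw [w.ord_mul hx0 hf, hord w, chartDiv_apply, chartDiv_apply]
    push_cast
    constructor <;> intro h <;> linarith

/-- `1 ∈ L(D)` for an effective divisor `D`. -/
theorem one_mem_rr_of_nonneg {D : Divisor K F} (hD : 0 ≤ D) :
    (1 : F) ∈ riemannRochSpace D := by
  rw [mem_riemannRochSpace_iff]
  intro w
  right
  have h1 : (0 : ℤ) ≤ D w := by simpa using Finsupp.le_def.mp hD w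
  rw [Place.ord_one]
  linarith

/-- Products of sections. -/
theorem mul_mem_rr {D D' : Divisor K F} {f g : F} (hf : f ∈ riemannRochSpace D)
    (hg : g ∈ riemannRochSpace D') : f * g ∈ riemannRochSpace (D + D') := by
  intro w
  have h1 := hf w
  have h2 := hg w
  rw [map_mul, Finsupp.add_apply, exp_add]
  exact mul_le_mul' h1 h2

/-- The `n`-th power of a section of `L(D₀ + a A + b B)`, multiplied by `u` with
`n D₀ ≤ div u`, is a section of `L(n a A + n b B)`. -/
theorem pow_mul_mem_rr {n : ℕ} {D0 A B : Divisor K F} {u f : F} (hu0 : u ≠ 0)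
    (hun : ∀ w : Place K F, (n : ℤ) * D0 w ≤ w.ord u) (a b : ℕ)
    (hf : f ∈ riemannRochSpace (D0 + a • A + b • B)) :
    f ^ n * u ∈ riemannRochSpace ((n * a) • A + (n * b) • B) := by
  rw [mem_riemannRochSpace_iff] at hf ⊢
  intro w
  by_cases hf0 : f = 0
  · rcases Nat.eq_zero_or_pos n with hn | hn
    · subst hn
      right
      have h2 := hun w
      rw [chartDiv_apply, pow_zero, one_mul]
      push_cast at h2 ⊢
      linarith
    · left
      rw [hf0, zero_pow hn.ne', zero_mul]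
  · right
    have h1 := (hf w).resolve_left hf0
    rw [twDiv_apply] at h1
    have h2 := hun w
    rw [w.ord_mul (pow_ne_zero n hf0) hu0, ← zpow_natCast, w.ord_zpow, chartDiv_apply]
    have h3 : (n : ℤ) * (-(D0 w + a * A w + b * B w)) ≤ n * w.ord f :=
      mul_le_mul_of_nonneg_left h1 (Int.natCast_nonneg n)
    push_cast
    linarith

/-- Riemann–Roch spaces are closed under `n`-th roots. -/
theorem mem_rr_of_pow_mem {n : ℕ} (hn : n ≠ 0) {A B : Divisor K F} (a b : ℕ) {y : F}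
    (hy : y ^ n ∈ riemannRochSpace ((n * a) • A + (n * b) • B)) :
    y ∈ riemannRochSpace (a • A + b • B) := by
  rw [mem_riemannRochSpace_iff] at hy ⊢
  intro w
  by_cases hy0 : y = 0
  · exact Or.inl hy0
  · right
    have h1 := (hy w).resolve_left (pow_ne_zero n hy0)
    rw [← zpow_natCast, w.ord_zpow, chartDiv_apply] at h1
    rw [chartDiv_apply]
    have hn' : (0 : ℤ) < n := by exact_mod_cast Nat.pos_of_ne_zero hn
    push_cast at h1
    by_contra hcon
    rw [not_le] at hcon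
    nlinarith

end RR

/-! ### The reduction of a unit ball -/

section RedBall

variable {K F : Type*} [Field K] [Field F] [Algebra K F]
variable {Γ₀ : Type*} [LinearOrderedCommGroupWithZero Γ₀] {ι : Type*}
variable {kk : Type*} [Field kk] {Fk : Type*} [CommRing Fk] [Algebra kk Fk]
variable {Vn : Type*} [CommRing Vn] [Algebra kk Vn]
variable {v : ι → Valuation F Γ₀} {vL : Valuation K Γ₀} {red : F → Fk}

/-- Reduction of powers. -/
theorem red_pow_of_ball (hred : RedDataW v (fun _ => (1 : Γ₀)) vL kk red red) (a : F)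
    (ha : ∀ i, v i a ≤ 1) (m : ℕ) : red (a ^ m) = red a ^ m := by
  induction m with
  | zero => rw [pow_zero, pow_zero, hred.map_one]
  | succ m ih =>
    rw [pow_succ, pow_succ, hred.map_mul _ _ (fun i => by
      rw [map_pow]; exact pow_le_one' (ha i) m) ha, ih]

/-- An element `≡ 1` lies in the unit ball and reduces to `1`. -/
theorem red_eq_one_of_sub_lt (hred : RedDataW v (fun _ => (1 : Γ₀)) vL kk red red) (a : F)
    (ha : ∀ i, v i (a - 1) < 1) : (∀ i, v i a ≤ 1) ∧ red a = 1 := by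
  have h1 : ∀ i, v i (1 : F) ≤ 1 := fun i => le_of_eq (v i).map_one
  have ha' : ∀ i, v i a ≤ 1 := fun i => by
    have e : a = (a - 1) + 1 := by ring
    rw [e]
    exact (v i).map_add_le (ha i).le (h1 i)
  refine ⟨ha', ?_⟩
  have h0 : red (a - 1) = 0 := (hred.eq_zero_iff (a - 1) (fun i => (ha i).le)).mpr ha
  rw [hred.map_sub a 1 ha' h1, hred.map_one, sub_eq_zero] at h0
  exact h0

/-- The reduction of the unit ball of a `K`-subspace `S` of `F`, pulled back along `ιV`. -/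
def redBall (hred : RedDataW v (fun _ => (1 : Γ₀)) vL kk red red) (ιV : Vn →ₐ[kk] Fk)
    (S : Submodule K F) : Submodule kk Vn where
  carrier := {y | ∃ f ∈ S, (∀ i, v i f ≤ 1) ∧ red f = ιV y}
  add_mem' := by
    rintro y y' ⟨f, hf, hfb, hfy⟩ ⟨g, hg, hgb, hgy⟩
    exact ⟨f + g, add_mem hf hg, fun i => (v i).map_add_le (hfb i) (hgb i), by
      rw [hred.map_add f g hfb hgb, hfy, hgy, map_add]⟩
  zero_mem' := ⟨0, zero_mem _, fun i => by simp, by rw [hred.map_zero, map_zero]⟩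
  smul_mem' := by
    rintro κ y ⟨f, hf, hfb, hfy⟩
    obtain ⟨c, hc, hcκ⟩ := hred.exists_const κ
    refine ⟨c • f, S.smul_mem c hf, fun i => hred.smul_mem_ball c hc f hfb i, ?_⟩
    rw [Algebra.smul_def, hred.map_mul _ _ (fun i => by rw [hred.val_algebraMap]; exact hc) hfb,
      hcκ, hfy, ← Algebra.smul_def, ← map_smul]

theorem mem_redBall {hred : RedDataW v (fun _ => (1 : Γ₀)) vL kk red red} {ιV : Vn →ₐ[kk] Fk}
    {S : Submodule K F} {y : Vn} :
    y ∈ redBall hred ιV S ↔ ∃ f ∈ S, (∀ i, v i f ≤ 1) ∧ red f = ιV y := Iff.rfl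

theorem redBall_mono (hred : RedDataW v (fun _ => (1 : Γ₀)) vL kk red red) (ιV : Vn →ₐ[kk] Fk)
    {S S' : Submodule K F} (h : S ≤ S') : redBall hred ιV S ≤ redBall hred ιV S' := by
  rintro y ⟨f, hf, hfb, hfy⟩
  exact ⟨f, h hf, hfb, hfy⟩

/-- Cartesian lower bound: the reduction of the unit ball of a cartesian subspace has at least
the generic dimension. -/
theorem finrank_le_finrank_redBall [Finite ι] [Nonempty ι]
    (hred : RedDataW v (fun _ => (1 : Γ₀)) vL kk red red) (ιV : Vn →ₐ[kk] Fk)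
    (hιV : Function.Injective ιV) {S : Submodule K F}
    (hS : CartesianW v (fun _ => (1 : Γ₀)) vL S) [Module.Finite kk (redBall hred ιV S)]
    (hrange : ∀ f ∈ S, (∀ i, v i f ≤ 1) → ∃ y : Vn, red f = ιV y) :
    finrank K S ≤ finrank kk (redBall hred ιV S) := by
  have hinj : Function.Injective ιV.toLinearMap := hιV
  have h1 := helper2459.le_finrank_of_cartesianW hred hS
    ((redBall hred ιV S).map ιV.toLinearMap)
    (fun a ha hab => by
      obtain ⟨y, hy⟩ := hrange a ha hab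
      exact ⟨y, ⟨a, ha, hab, hy⟩, hy.symm⟩)
  rwa [LinearEquiv.finrank_eq (Submodule.equivMapOfInjective ιV.toLinearMap hinj _).symm] at h1

/-- Cartesian upper bound: if the constants reduce to constants, the reduction of the unit ball
of a cartesian subspace has at most the generic dimension. -/
theorem finrank_redBall_le
    (hred : RedDataW v (fun _ => (1 : Γ₀)) vL kk red red)
    (hconst : ∀ c : K, vL c ≤ 1 → ∃ κ : kk, red (algebraMap K F c) = algebraMap kk Fk κ)
    (ιV : Vn →ₐ[kk] Fk) (hιV : Function.Injective ιV) {S : Submodule K F}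
    (hS : CartesianW v (fun _ => (1 : Γ₀)) vL S) :
    Module.Finite kk (redBall hred ιV S) ∧ finrank kk (redBall hred ιV S) ≤ finrank K S := by
  classical
  have hinj : Function.Injective ιV.toLinearMap := hιV
  obtain ⟨n, e, heS, he1, horth, hspan⟩ := hS
  have hli : LinearIndependent K e := helper2459.linearIndependent_of_orthoW horth
  have hfr : finrank K S = n := by
    rw [← hspan, finrank_span_eq_card hli, Fintype.card_fin]
  have hredsum : ∀ c : Fin n → K, (∀ j, vL (c j) ≤ 1) →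
      red (∑ j, c j • e j) = ∑ j, red (algebraMap K F (c j)) * red (e j) := by
    intro c hc
    rw [hred.mapM_sum]
    · exact Finset.sum_congr rfl fun j _ => hred.mapM_smul (c j) (hc j) (e j) (he1 j)
    · intro j _
      exact hred.smul_mem_ball (c j) (hc j) (e j) (he1 j)
  set N : Submodule kk Fk := Submodule.span kk (Set.range fun j => red (e j)) with hN
  have hle : (redBall hred ιV S).map ιV.toLinearMap ≤ N := by
    rintro _ ⟨y, ⟨f, hf, hfb, hfy⟩, rfl⟩
    have hf' : f ∈ Submodule.span K (Set.range e) := by rw [hspan]; exact hf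
    obtain ⟨c, rfl⟩ := (Submodule.mem_span_range_iff_exists_fun K).mp hf'
    have hc : ∀ j, vL (c j) ≤ 1 := horth c 1 (fun i => by rw [one_mul]; exact hfb i)
    show ιV y ∈ N
    rw [← hfy, hredsum c hc]
    refine Submodule.sum_mem _ fun j _ => ?_
    obtain ⟨κ, hκ⟩ := hconst (c j) (hc j)
    rw [hκ, ← Algebra.smul_def]
    exact Submodule.smul_mem _ κ (Submodule.subset_span ⟨j, rfl⟩)
  have hNfin : Module.Finite kk N := FiniteDimensional.span_of_finite kk (Set.finite_range _)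
  have hmapfin : Module.Finite kk ((redBall hred ιV S).map ιV.toLinearMap) :=
    Submodule.finiteDimensional_of_le hle
  have hfin : Module.Finite kk (redBall hred ιV S) :=
    Module.Finite.equiv (Submodule.equivMapOfInjective ιV.toLinearMap hinj _).symm
  refine ⟨hfin, ?_⟩
  rw [LinearEquiv.finrank_eq (Submodule.equivMapOfInjective ιV.toLinearMap hinj _), hfr]
  have h1 := Submodule.finrank_mono hle
  have h2 : finrank kk N ≤ Fintype.card (Fin n) := finrank_range_le_card (R := kk) _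
  rw [Fintype.card_fin] at h2
  exact h1.trans h2

end RedBall

/-! ### Saturation without dimension input -/

section Sat

variable {k V I : Type*} [Field k] [CommRing V] [Algebra k V] [Fintype I]

omit [Fintype I] in
/-- The package stays valid for a larger threshold. -/
theorem IsNodalRR.of_le {T : ℕ → ℕ → Submodule k V} {p q : I → V →ₐ[k] k} {e s t n₀ n₁ : ℕ}
    (h : IsNodalRR T p q e s t n₀) (hn : n₀ ≤ n₁) : IsNodalRR T p q e s t n₁ :=
  ⟨h.mono, h.inter, h.finite, fun a b hab => h.finrank_eq a b (hn.trans hab),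
    fun a b hab => h.eval_surj a b (hn.trans hab)⟩

/-- **Two-chart saturation** (the first half of `card_nodes_and_saturation`, without any
dimension input): if the conductor statement holds in the chart off `E₁` (`hK1`) and in the chart
off `E₂` (`hK2`), the reductions `R a 0` are the whole glued spaces for large `a`. -/
theorem saturation_of_conductor
    (T : ℕ → ℕ → Submodule k V) (p q : I → V →ₐ[k] k) (e s t n₀ : ℕ)
    (hT : IsNodalRR T p q e s t n₀)
    (x y : V) (hxy : x * y = 1) (hxp : ∀ i, p i x = q i x)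
    (hxT : ∀ a b v, v ∈ T a (b + 1) ↔ x * v ∈ T (a + 1) b)
    (R : ℕ → ℕ → Submodule k V)
    (hRmono : ∀ a a' b b', a ≤ a' → b ≤ b' → R a b ≤ R a' b')
    (hxR : ∀ a b v, v ∈ R a (b + 1) ↔ x * v ∈ R (a + 1) b)
    (hRG : ∀ a, R a 0 ≤ glued p q 1 (T a 0))
    (hK1 : ∀ a, ∀ v ∈ glued p q 1 (T a 0), ∃ a', v ∈ R a' 0)
    (hK2 : ∀ b, ∀ v ∈ glued p q 1 (T 0 b), ∃ b', v ∈ R 0 b') :
    ∃ n₂, ∀ a, n₂ ≤ a → R a 0 = glued p q 1 (T a 0) := by
  have hfinT : ∀ a b, Module.Finite k (T a b) := hT.finite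
  have hpy : ∀ i, p i y = q i y := by
    intro i
    have h1 : p i x * p i y = 1 := by rw [← map_mul, hxy, map_one]
    have h2 : q i x * q i y = 1 := by rw [← map_mul, hxy, map_one]
    calc p i y = p i y * (q i x * q i y) := by rw [h2, mul_one]
      _ = (p i x * p i y) * q i y := by rw [← hxp i]; ring
      _ = q i y := by rw [h1, one_mul]
  have hsat : ∃ n₂, ∀ n, n₂ ≤ n → glued p q 1 (T n 0) = R n 0 := by
    refine exists_saturation x (fun n => R n 0) (fun n => glued p q 1 (T n 0)) hRG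
      (fun a a' ha => hRmono _ _ _ _ ha le_rfl)
      (fun n v hv => (hxR n 0 v).mp (hRmono _ _ _ _ le_rfl (Nat.zero_le 1) hv))
      (n₀ + 1) ?_ (fun n hn => hT.exists_decomp_shift x y hxy hxp hxT n hn) (hK1 _) ?_
    · exact (Submodule.fg_iff_finiteDimensional _).mpr inferInstance
    · intro v hv
      have hw : y ^ (n₀ + 1) * v ∈ glued p q 1 (T 0 (n₀ + 1)) := by
        refine ⟨pow_mul_mem_of_shift_iff T x y hxy hxT (n₀ + 1) 0 v (by simpa using hv.1),
          fun i => ?_⟩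
        rw [map_mul, map_mul, map_pow, map_pow, hv.2 i, hpy i]
        simp
      obtain ⟨b', hb'⟩ := hK2 _ _ hw
      have hb'' : y ^ (n₀ + 1) * v ∈ R 0 (max b' (n₀ + 1)) :=
        hRmono _ _ _ _ le_rfl (le_max_left _ _) hb'
      have h1 := pow_mul_mem_of_shift' R x hxR (max b' (n₀ + 1)) 0 _ hb''
      refine ⟨max b' (n₀ + 1) - (n₀ + 1), ?_⟩
      have h2 : x ^ (max b' (n₀ + 1)) * (y ^ (n₀ + 1) * v) =
          x ^ (max b' (n₀ + 1) - (n₀ + 1)) * v := by
        have h3 : x ^ (max b' (n₀ + 1)) =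
            x ^ (max b' (n₀ + 1) - (n₀ + 1)) * x ^ (n₀ + 1) := by
          rw [← pow_add, Nat.sub_add_cancel (le_max_right _ _)]
        rw [h3, mul_assoc, ← mul_assoc (x ^ (n₀ + 1)), ← mul_pow, hxy, one_pow, one_mul]
      rw [h2] at h1
      have h4 : n₀ + 1 + (max b' (n₀ + 1) - (n₀ + 1)) = 0 + max b' (n₀ + 1) := by
        have := le_max_right b' (n₀ + 1)
        omega
      rw [h4]
      exact h1
  obtain ⟨n₂, hn₂⟩ := hsat
  exact ⟨n₂, fun a ha => (hn₂ a ha).symm⟩

end Sat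

/-! ### The function-field theorems -/

section Core

variable {K F : Type*} [Field K] [Field F] [Algebra K F]
variable {Γ₀ : Type*} [LinearOrderedCommGroupWithZero Γ₀] {ι : Type*} [Finite ι] [Nonempty ι]
variable {kk : Type*} [Field kk] {Fk : Type*} [CommRing Fk] [Algebra kk Fk]
variable {Vn : Type*} [CommRing Vn] [Algebra kk Vn] {I : Type*} [Fintype I]
variable {v : ι → Valuation F Γ₀} {vL : Valuation K Γ₀} {red : F → Fk}

/-- **Node count, degree and saturation from the reduction** (untwisted part of (E3)).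

Generic fibre: `E₁`, `E₂` effective divisors of `F / K`, `x` with `div x = E₂ - E₁`, a unit for
all the valuations `v i`; `red` a reduction datum with weights `1` (`hconst`: constants reduce to
constants).  Special fibre: `ιV : Vn → Fk` injective, `T`, `p`, `q` a nodal Riemann–Roch package
(`IsNodalRR`), `ξ` the reduction of `x`, shifting pole orders (`hxT`).  Assume

* `hcont`: the unit ball of `L(a E₁ + b E₂)` reduces into the glued space `glued 1 (T a b)`
  (reduction containment of pole orders + node conditions);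
* `hcart`, `hRie`: `L(a E₁)` is cartesian and `dim L(a E₁) + s' = e' a + t'` for `a ≥ n₀`
  (Riemann on the generic fibre: `e' = deg E₁`, `s' = g`, `t' = 1`);
* `hK1`, `hK2`: the conductor statements in the chart off `E₁` and in the chart off `E₂`.

Then `e' = e` (conservation of the degree), `t + s' = t' + s + #I` (the number of nodes) and
the reduction of the unit ball of `L(a E₁)` is the whole glued space for large `a`. -/
theorem node_count_of_reduction
    (hred : RedDataW v (fun _ => (1 : Γ₀)) vL kk red red)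
    (hconst : ∀ c : K, vL c ≤ 1 → ∃ κ : kk, red (algebraMap K F c) = algebraMap kk Fk κ)
    (ιV : Vn →ₐ[kk] Fk) (hιV : Function.Injective ιV)
    (T : ℕ → ℕ → Submodule kk Vn) (p q : I → Vn →ₐ[kk] kk) (e s t n₀ : ℕ)
    (hT : IsNodalRR T p q e s t n₀)
    (E1 E2 : Divisor K F) (hE1 : 0 ≤ E1) (hE2 : 0 ≤ E2)
    (x : F) (hx0 : x ≠ 0) (hxord : ∀ w : Place K F, w.ord x = E2 w - E1 w)
    (hxv : ∀ i, v i x = 1)
    (ξ : Vn) (hξ : red x = ιV ξ) (hxT : ∀ a b y, y ∈ T a (b + 1) ↔ ξ * y ∈ T (a + 1) b)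
    (hcont : ∀ a b, ∀ f ∈ riemannRochSpace (a • E1 + b • E2), (∀ i, v i f ≤ 1) →
      ∃ y ∈ glued p q 1 (T a b), red f = ιV y)
    (hcart : ∀ a, n₀ ≤ a → CartesianW v (fun _ => (1 : Γ₀)) vL (riemannRochSpace (a • E1)))
    (e' s' t' : ℕ)
    (hRie : ∀ a, n₀ ≤ a → finrank K (riemannRochSpace (a • E1)) + s' = e' * a + t')
    (hK1 : ∀ a, ∀ y ∈ glued p q 1 (T a 0), ∃ a' : ℕ, ∃ f ∈ riemannRochSpace (a' • E1),
      (∀ i, v i f ≤ 1) ∧ red f = ιV y)
    (hK2 : ∀ b, ∀ y ∈ glued p q 1 (T 0 b), ∃ b' : ℕ, ∃ f ∈ riemannRochSpace (b' • E2),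
      (∀ i, v i f ≤ 1) ∧ red f = ιV y) :
    e' = e ∧ t + s' = t' + s + Fintype.card I ∧
      ∃ n₂, ∀ a, n₂ ≤ a → ∀ y ∈ glued p q 1 (T a 0), ∃ f ∈ riemannRochSpace (a • E1),
        (∀ i, v i f ≤ 1) ∧ red f = ιV y := by
  classical
  have e10 : ∀ a : ℕ, a • E1 + 0 • E2 = a • E1 := fun a => by rw [zero_smul, add_zero]
  have e01 : ∀ b : ℕ, 0 • E1 + b • E2 = b • E2 := fun b => by rw [zero_smul, zero_add]
  have hRmono : ∀ a a' b b', a ≤ a' → b ≤ b' →
      redBall hred ιV (riemannRochSpace (a • E1 + b • E2)) ≤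
        redBall hred ιV (riemannRochSpace (a' • E1 + b' • E2)) := fun a a' b b' ha hb =>
    redBall_mono hred ιV
      (Fermat.Agent.S18.helper981.riemannRochSpace_mono (chartDiv_mono hE1 hE2 ha hb))
  have hRG : ∀ a b, redBall hred ιV (riemannRochSpace (a • E1 + b • E2)) ≤
      glued p q 1 (T a b) := by
    rintro a b y ⟨f, hf, hfb, hfy⟩
    obtain ⟨y', hy', hfy'⟩ := hcont a b f hf hfb
    have hyy : y = y' := hιV (hfy.symm.trans hfy')
    rw [hyy]
    exact hy'
  -- the unit `ξ` and its inverse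
  have hxb : ∀ i, v i x ≤ 1 := fun i => (hxv i).le
  have hxinvv : ∀ i, v i x⁻¹ = 1 := fun i => by rw [map_inv₀, hxv i, inv_one]
  have hxib : ∀ i, v i x⁻¹ ≤ 1 := fun i => (hxinvv i).le
  have h1E2 : (1 : F) ∈ riemannRochSpace (0 • E1 + (0 + 1) • E2) :=
    one_mem_rr_of_nonneg (by rw [zero_smul, zero_add, zero_add, one_smul]; exact hE2)
  have h1E1 : (1 : F) ∈ riemannRochSpace ((0 + 1) • E1 + 0 • E2) :=
    one_mem_rr_of_nonneg (by rw [zero_smul, add_zero, zero_add, one_smul]; exact hE1)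
  have hxL : x ∈ riemannRochSpace ((0 + 1) • E1 + 0 • E2) := by
    have h := (mul_mem_rr_shift_iff hx0 hxord 0 0 1).mp h1E2
    rwa [mul_one] at h
  have hxiL : x⁻¹ ∈ riemannRochSpace (0 • E1 + (0 + 1) • E2) := by
    refine (mul_mem_rr_shift_iff hx0 hxord 0 0 x⁻¹).mpr ?_
    rw [mul_inv_cancel₀ hx0]
    exact h1E1
  obtain ⟨ξ', hξ'G, hξ'⟩ := hcont (0 + 1) 0 x hxL hxb
  have hξξ' : ξ' = ξ := hιV (hξ'.symm.trans hξ)
  rw [hξξ'] at hξ'G
  obtain ⟨η, -, hη⟩ := hcont 0 (0 + 1) x⁻¹ hxiL hxib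
  have hξη : ξ * η = 1 := by
    apply hιV
    rw [map_mul, map_one, ← hξ, ← hη, ← hred.map_mul x x⁻¹ hxb hxib, mul_inv_cancel₀ hx0,
      hred.map_one]
  have hxp : ∀ i, p i ξ = q i ξ := fun i => by
    have h := hξ'G.2 i
    rw [Pi.one_apply, one_mul] at h
    exact h.symm
  have hxR : ∀ a b y, y ∈ redBall hred ιV (riemannRochSpace (a • E1 + (b + 1) • E2)) ↔
      ξ * y ∈ redBall hred ιV (riemannRochSpace ((a + 1) • E1 + b • E2)) := by
    intro a b y
    constructor
    · rintro ⟨f, hf, hfb, hfy⟩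
      refine ⟨x * f, (mul_mem_rr_shift_iff hx0 hxord a b f).mp hf, fun i => ?_, ?_⟩
      · rw [map_mul, hxv i, one_mul]
        exact hfb i
      · rw [hred.map_mul x f hxb hfb, hξ, hfy, map_mul]
    · rintro ⟨g, hg, hgb, hgy⟩
      refine ⟨x⁻¹ * g, (mul_mem_rr_shift_iff hx0 hxord a b _).mpr ?_, fun i => ?_, ?_⟩
      · rw [← mul_assoc, mul_inv_cancel₀ hx0, one_mul]
        exact hg
      · rw [map_mul, hxinvv i, one_mul]
        exact hgb i
      · rw [hred.map_mul x⁻¹ g hxib hgb, hη, hgy, ← map_mul, ← mul_assoc, mul_comm η ξ, hξη,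
          one_mul]
  -- saturation
  obtain ⟨n₂, hn₂⟩ := saturation_of_conductor T p q e s t n₀ hT ξ η hξη hxp hxT
    (fun a b => redBall hred ιV (riemannRochSpace (a • E1 + b • E2))) hRmono hxR
    (fun a => hRG a 0)
    (fun a y hy => by
      obtain ⟨a', f, hf, hfb, hfy⟩ := hK1 a y hy
      exact ⟨a', f, by rw [e10]; exact hf, hfb, hfy⟩)
    (fun b y hy => by
      obtain ⟨b', f, hf, hfb, hfy⟩ := hK2 b y hy
      exact ⟨b', f, by rw [e01]; exact hf, hfb, hfy⟩)
  have hn₂' : ∀ a, n₂ ≤ a →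
      redBall hred ιV (riemannRochSpace (a • E1 + 0 • E2)) = glued p q 1 (T a 0) := hn₂
  -- dimension of the reductions
  have hdim : ∀ a, n₀ ≤ a → finrank kk (redBall hred ιV (riemannRochSpace (a • E1 + 0 • E2))) =
      finrank K (riemannRochSpace (a • E1)) := by
    intro a ha
    have hc : CartesianW v (fun _ => (1 : Γ₀)) vL (riemannRochSpace (a • E1 + 0 • E2)) := by
      rw [e10]
      exact hcart a ha
    obtain ⟨hfin, hle⟩ := finrank_redBall_le hred hconst ιV hιV hc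
    have hge := finrank_le_finrank_redBall hred ιV hιV hc (fun f hf hfb => by
      obtain ⟨y, -, hy⟩ := hcont a 0 f hf hfb
      exact ⟨y, hy⟩)
    have e1 : finrank K (riemannRochSpace (a • E1 + 0 • E2)) =
        finrank K (riemannRochSpace (a • E1)) := by rw [e10]
    omega
  have key : ∀ a, max n₂ n₀ ≤ a → e' * a + t' + Fintype.card I + s = e * a + t + s' := by
    intro a ha
    have ha0 : n₀ ≤ a := (le_max_right _ _).trans ha
    have ha2 : n₂ ≤ a := (le_max_left _ _).trans ha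
    have h1 := hT.finrank_glued 1 a 0 (by omega)
    rw [← hn₂' a ha2, hdim a ha0, add_zero] at h1
    have h2 := hRie a ha0
    omega
  have k0 := key (max n₂ n₀) le_rfl
  have k1 := key (max n₂ n₀ + 1) (Nat.le_succ _)
  rw [mul_add, mul_add, mul_one, mul_one] at k1
  have hee : e' = e := by omega
  refine ⟨hee, ?_, n₂, fun a ha y hy => ?_⟩
  · rw [hee] at k0
    omega
  · rw [← hn₂' a ha] at hy
    obtain ⟨f, hf, hfb, hfy⟩ := hy
    exact ⟨f, by rw [← e10]; exact hf, hfb, hfy⟩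

/-- **Twisted lattice: the reduction of the unit ball of `L(D₀ + a E₁ + b E₂)` is a glued space**
(twisted part of (E3); the conclusion is the hypothesis `hE3` of the integration leaf (E5)).

In the situation of `node_count_of_reduction` (only `hcont` and the node count `hcard` are used),
let `u ≠ 0` with `n D₀ ≤ div u` and `u ≡ 1` for all the valuations (a Kummer element and its
divisor divided by `n`).  Assume that the twisted spaces are cartesian, Riemann's inequality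
`e (a + b) + t' ≤ dim L(D₀ + a E₁ + b E₂) + s'` on the generic fibre, and that `T` is closed under
`n`-th roots of reductions (`hroot`).  Then there are `n`-th roots of unity `c i` such that, for
`n₀ ≤ a + b`, the reduction of the unit ball of `L(D₀ + a E₁ + b E₂)` is exactly
`ιV (glued c (T a b))`. -/
theorem exists_glue_const_of_reduction
    (hred : RedDataW v (fun _ => (1 : Γ₀)) vL kk red red)
    (ιV : Vn →ₐ[kk] Fk) (hιV : Function.Injective ιV)
    (T : ℕ → ℕ → Submodule kk Vn) (p q : I → Vn →ₐ[kk] kk) (e s t n₀ : ℕ)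
    (hT : IsNodalRR T p q e s t n₀)
    (E1 E2 : Divisor K F) (hE1 : 0 ≤ E1) (hE2 : 0 ≤ E2)
    (hcont : ∀ a b, ∀ f ∈ riemannRochSpace (a • E1 + b • E2), (∀ i, v i f ≤ 1) →
      ∃ y ∈ glued p q 1 (T a b), red f = ιV y)
    (s' t' : ℕ) (hcard : t + s' = t' + s + Fintype.card I)
    (n : ℕ) (hn : n ≠ 0)
    (hroot : ∀ a b (f : F), (∀ i, v i f ≤ 1) → ∀ z ∈ T (n * a) (n * b), red f ^ n = ιV z →
      ∃ y ∈ T a b, red f = ιV y)
    (D0 : Divisor K F) (u : F) (hu0 : u ≠ 0)
    (hun : ∀ w : Place K F, (n : ℤ) * D0 w ≤ w.ord u) (hu1 : ∀ i, v i (u - 1) < 1)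
    (hcartM : ∀ a b, n₀ ≤ a + b →
      CartesianW v (fun _ => (1 : Γ₀)) vL (riemannRochSpace (D0 + a • E1 + b • E2)))
    (hRieM : ∀ a b, n₀ ≤ a + b →
      e * (a + b) + t' ≤ finrank K (riemannRochSpace (D0 + a • E1 + b • E2)) + s') :
    ∃ c : I → kk, (∀ i, c i ^ n = 1) ∧ ∀ a b, n₀ ≤ a + b →
      (∀ f ∈ riemannRochSpace (D0 + a • E1 + b • E2), (∀ i, v i f ≤ 1) →
        ∃ y ∈ glued p q c (T a b), red f = ιV y) ∧
      (∀ y ∈ glued p q c (T a b), ∃ f ∈ riemannRochSpace (D0 + a • E1 + b • E2),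
        (∀ i, v i f ≤ 1) ∧ red f = ιV y) := by
  classical
  obtain ⟨hub, hru⟩ := red_eq_one_of_sub_lt hred u hu1
  -- the key step: `n`-th powers land in the untwisted spaces
  have key : ∀ a b, ∀ f ∈ riemannRochSpace (D0 + a • E1 + b • E2), (∀ i, v i f ≤ 1) →
      ∃ y ∈ T a b, red f = ιV y ∧ ∀ i, p i y ^ n = q i y ^ n := by
    intro a b f hf hfb
    have hpb : ∀ i, v i (f ^ n) ≤ 1 := fun i => by
      rw [map_pow]
      exact pow_le_one' (hfb i) n
    have hgb : ∀ i, v i (f ^ n * u) ≤ 1 := fun i => by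
      rw [map_mul]
      exact mul_le_one' (hpb i) (hub i)
    obtain ⟨z, hz, hgz⟩ := hcont (n * a) (n * b) (f ^ n * u) (pow_mul_mem_rr hu0 hun a b hf) hgb
    rw [hred.map_mul _ _ hpb hub, hru, mul_one, red_pow_of_ball hred f hfb n] at hgz
    obtain ⟨y, hy, hfy⟩ := hroot a b f hfb z hz.1 hgz
    refine ⟨y, hy, hfy, fun i => ?_⟩
    have hyz : y ^ n = z := hιV (by rw [map_pow, ← hfy, hgz])
    have h := hz.2 i
    rw [Pi.one_apply, one_mul, ← hyz, map_pow, map_pow] at h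
    exact h.symm
  have hMT : ∀ a b, redBall hred ιV (riemannRochSpace (D0 + a • E1 + b • E2)) ≤ T a b := by
    rintro a b y ⟨f, hf, hfb, hfy⟩
    obtain ⟨y', hy', hfy', -⟩ := key a b f hf hfb
    have hyy : y = y' := hιV (hfy.symm.trans hfy')
    rw [hyy]
    exact hy'
  have hMmono : ∀ a a' b b', a ≤ a' → b ≤ b' →
      redBall hred ιV (riemannRochSpace (D0 + a • E1 + b • E2)) ≤
        redBall hred ιV (riemannRochSpace (D0 + a' • E1 + b' • E2)) := fun a a' b b' ha hb =>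
    redBall_mono hred ιV (Fermat.Agent.S18.helper981.riemannRochSpace_mono (by
      rw [add_assoc, add_assoc]
      exact add_le_add le_rfl (chartDiv_mono hE1 hE2 ha hb)))
  have hMdim : ∀ a b, n₀ ≤ a + b →
      e * (a + b) + t' ≤
        finrank kk (redBall hred ιV (riemannRochSpace (D0 + a • E1 + b • E2))) + s' := by
    intro a b hab
    have hfinT := hT.finite a b
    have hfin : Module.Finite kk (redBall hred ιV (riemannRochSpace (D0 + a • E1 + b • E2))) :=
      Submodule.finiteDimensional_of_le (hMT a b)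
    have hge := finrank_le_finrank_redBall hred ιV hιV (hcartM a b hab) (fun f hf hfb => by
      obtain ⟨y, -, hy, -⟩ := key a b f hf hfb
      exact ⟨y, hy⟩)
    have h2 := hRieM a b hab
    omega
  obtain ⟨c, hc, hMc⟩ := exists_glue_const_of_card T p q e s t n₀ hT s' t' hcard
    (fun a b => redBall hred ιV (riemannRochSpace (D0 + a • E1 + b • E2))) hMmono hMT hMdim n hn
    (fun a b y hy i => by
      obtain ⟨f, hf, hfb, hfy⟩ := hy
      obtain ⟨y', -, hfy', hpow⟩ := key a b f hf hfb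
      have hyy : y = y' := hιV (hfy.symm.trans hfy')
      rw [hyy]
      exact hpow i)
  refine ⟨c, hc, fun a b hab => ⟨fun f hf hfb => ?_, fun y hy => ?_⟩⟩
  · obtain ⟨y, -, hfy, -⟩ := key a b f hf hfb
    have hy : y ∈ redBall hred ιV (riemannRochSpace (D0 + a • E1 + b • E2)) := ⟨f, hf, hfb, hfy⟩
    have h := hMc a b hab
    exact ⟨y, by rw [← h]; exact hy, hfy⟩
  · have h := hMc a b hab
    have hy' : y ∈ redBall hred ιV (riemannRochSpace (D0 + a • E1 + b • E2)) := by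
      rw [h]
      exact hy
    exact hy'

end Core

/-! ### The two components in Prelude vocabulary -/

section Components

variable {kk Fk₁ Fk₂ : Type*} [Field kk] [Field Fk₁] [Field Fk₂] [Algebra kk Fk₁]
  [Algebra kk Fk₂]
variable {I : Type*}

/-- The inclusion of `nodeRing P × nodeRing Q` into `Fk₁ × Fk₂`, as an algebra homomorphism. -/
def nodeInclAlg (P : I → Place kk Fk₁) (Q : I → Place kk Fk₂) :
    (nodeRing P × nodeRing Q) →ₐ[kk] Fk₁ × Fk₂ :=
  AlgHom.prodMap (nodeRing P).val (nodeRing Q).val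

theorem nodeInclAlg_apply (P : I → Place kk Fk₁) (Q : I → Place kk Fk₂)
    (y : nodeRing P × nodeRing Q) : nodeInclAlg P Q y = ((y.1 : Fk₁), (y.2 : Fk₂)) := rfl

theorem nodeInclAlg_injective (P : I → Place kk Fk₁) (Q : I → Place kk Fk₂) :
    Function.Injective (nodeInclAlg P Q) := by
  intro y z h
  rw [nodeInclAlg_apply, nodeInclAlg_apply, Prod.mk.injEq] at h
  exact Prod.ext (Subtype.ext h.1) (Subtype.ext h.2)

/-- `1 ∈ T 0 0` for the package of the two components (hypothesis `hT1` of (E5)). -/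
theorem one_mem_pairRR_zero (P : I → Place kk Fk₁) (Q : I → Place kk Fk₂)
    (A₁ B₁ : Divisor kk Fk₁) (A₂ B₂ : Divisor kk Fk₂) :
    (1 : nodeRing P × nodeRing Q) ∈ pairRR P Q (0 • A₁ + 0 • B₁) (0 • A₂ + 0 • B₂) := by
  refine ⟨?_, ?_⟩
  · show (1 : Fk₁) ∈ riemannRochSpace (0 • A₁ + 0 • B₁)
    exact one_mem_rr_of_nonneg (by rw [zero_smul, zero_smul, add_zero])
  · show (1 : Fk₂) ∈ riemannRochSpace (0 • A₂ + 0 • B₂)
    exact one_mem_rr_of_nonneg (by rw [zero_smul, zero_smul, add_zero])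

/-- Multiplicativity of the package of the two components (hypothesis `hTmul` of (E5)). -/
theorem mul_mem_pairRR (P : I → Place kk Fk₁) (Q : I → Place kk Fk₂)
    (A₁ B₁ : Divisor kk Fk₁) (A₂ B₂ : Divisor kk Fk₂) (a b a' b' : ℕ)
    (y : nodeRing P × nodeRing Q) (hy : y ∈ pairRR P Q (a • A₁ + b • B₁) (a • A₂ + b • B₂))
    (z : nodeRing P × nodeRing Q) (hz : z ∈ pairRR P Q (a' • A₁ + b' • B₁) (a' • A₂ + b' • B₂)) :
    y * z ∈ pairRR P Q ((a + a') • A₁ + (b + b') • B₁) ((a + a') • A₂ + (b + b') • B₂) := by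
  have e₁ : (a + a') • A₁ + (b + b') • B₁ = (a • A₁ + b • B₁) + (a' • A₁ + b' • B₁) := by
    rw [add_smul, add_smul]
    abel
  have e₂ : (a + a') • A₂ + (b + b') • B₂ = (a • A₂ + b • B₂) + (a' • A₂ + b' • B₂) := by
    rw [add_smul, add_smul]
    abel
  refine ⟨?_, ?_⟩
  · show (y.1 : Fk₁) * (z.1 : Fk₁) ∈ riemannRochSpace ((a + a') • A₁ + (b + b') • B₁)
    rw [e₁]
    exact mul_mem_rr hy.1 hz.1
  · show (y.2 : Fk₂) * (z.2 : Fk₂) ∈ riemannRochSpace ((a + a') • A₂ + (b + b') • B₂)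
    rw [e₂]
    exact mul_mem_rr hy.2 hz.2

variable [Fintype I]

/-- **(E3), function-field form: the reduced twisted lattices of a two-component nodal special
fibre are glued Riemann–Roch spaces.**

Generic fibre: `F / K` with principal divisors, places of degree one and a Riemann bound;
`v i` valuations of `F` with reduction datum `red : F → Fk` (weights `1`), constants reducing to
constants, every Riemann–Roch space cartesian.  Special fibre: two function fields `Fk₁`, `Fk₂`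
over `kk` (principal divisors, degree one, Riemann bound) embedded by `jj : Fk₁ × Fk₂ → Fk`, with
`red` of the unit ball landing in the range of `jj`; `Yinf_j`, `Y0_j` the pole and zero divisors
of the two components `x₁`, `x₂` of the reduction of the chart function `x` (`div x = E₂ - E₁`);
`P i`, `Q i` the two points of the `i`-th node, off these divisors.  Assume

* `hcont`: the unit ball of `L(a E₁ + b E₂)` reduces into pairs `(y₁, y₂)` with
  `y_j ∈ L(a Yinf_j + b Y0_j)` and `y₂(Q i) = y₁(P i)`;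
* `hK1`, `hK2`: conversely every such pair with poles along `Yinf` only (resp. `Y0` only) is
  the reduction of a ball element of some `L(a' E₁)` (resp. `L(b' E₂)`) (Kronecker conductor).

Then there is `n₀` such that the package `T a b = L(a Yinf₁ + b Y0₁) × L(a Yinf₂ + b Y0₂)` is
`IsNodalRR` with threshold `n₀`, `deg E₁ = d₁ + d₂`, the number of nodes is
`g(F) + 1 - g(Fk₁) - g(Fk₂)`, and for every `n ≠ 0`, every divisor `D₀` of degree `0` and every
`u ≡ 1` with `n D₀ ≤ div u` there are `n`-th roots of unity `c i` such that for `n₀ ≤ a + b`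
the reduction of the unit ball of `L(D₀ + a E₁ + b E₂)` is exactly the image of
`glued c (T a b)`: this is the hypothesis `hE3` of `helper2423.torFix_of_nodal`. -/
theorem twisted_lattice_of_components
    {K F : Type*} [Field K] [Field F] [Algebra K F] [HasPrincipalDivisors K F]
    (hdegK : ∀ w : Place K F, w.deg = 1)
    (hRBK : Fermat.Agent.S18.helper981.HasRiemannBound K F) (P₀ : Place K F)
    {Γ₀ : Type*} [LinearOrderedCommGroupWithZero Γ₀] {ι : Type*} [Finite ι] [Nonempty ι]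
    (v : ι → Valuation F Γ₀) (vL : Valuation K Γ₀)
    {Fk : Type*} [CommRing Fk] [Algebra kk Fk] {red : F → Fk}
    (hred : RedDataW v (fun _ => (1 : Γ₀)) vL kk red red)
    (hconst : ∀ c : K, vL c ≤ 1 → ∃ κ : kk, red (algebraMap K F c) = algebraMap kk Fk κ)
    (hcart : ∀ D : Divisor K F, CartesianW v (fun _ => (1 : Γ₀)) vL (riemannRochSpace D))
    (jj : Fk₁ × Fk₂ →ₐ[kk] Fk) (hjj : Function.Injective jj)
    (hrange : ∀ f : F, (∀ i, v i f ≤ 1) → ∃ y : Fk₁ × Fk₂, red f = jj y)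
    [HasPrincipalDivisors kk Fk₁] [HasPrincipalDivisors kk Fk₂]
    (hdeg₁ : ∀ w : Place kk Fk₁, w.deg = 1) (hdeg₂ : ∀ w : Place kk Fk₂, w.deg = 1)
    (hRB₁ : Fermat.Agent.S18.helper981.HasRiemannBound kk Fk₁)
    (hRB₂ : Fermat.Agent.S18.helper981.HasRiemannBound kk Fk₂)
    (P₁ : Place kk Fk₁) (P₂ : Place kk Fk₂)
    (P : I → Place kk Fk₁) (Q : I → Place kk Fk₂)
    (hP : Function.Injective P) (hQ : Function.Injective Q)
    (Yinf₁ Y0₁ : Divisor kk Fk₁) (Yinf₂ Y0₂ : Divisor kk Fk₂)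
    (hYinf₁ : 0 ≤ Yinf₁) (hY0₁ : 0 ≤ Y0₁) (hYinf₂ : 0 ≤ Yinf₂) (hY0₂ : 0 ≤ Y0₂)
    (hdisj₁ : ∀ w : Place kk Fk₁, Yinf₁ w = 0 ∨ Y0₁ w = 0)
    (hdisj₂ : ∀ w : Place kk Fk₂, Yinf₂ w = 0 ∨ Y0₂ w = 0)
    (d₁ d₂ : ℕ) (hd₁ : 0 < d₁) (hd₂ : 0 < d₂)
    (hdY₁ : Divisor.degree Yinf₁ = d₁) (hdY0₁ : Divisor.degree Y0₁ = d₁)
    (hdY₂ : Divisor.degree Yinf₂ = d₂) (hdY0₂ : Divisor.degree Y0₂ = d₂)
    (hPY : ∀ i, Yinf₁ (P i) = 0 ∧ Y0₁ (P i) = 0) (hQY : ∀ i, Yinf₂ (Q i) = 0 ∧ Y0₂ (Q i) = 0)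
    (E1 E2 : Divisor K F) (hE1 : 0 ≤ E1) (hE2 : 0 ≤ E2) (hdE1 : 0 < Divisor.degree E1)
    (x : F) (hx0 : x ≠ 0) (hxord : ∀ w : Place K F, w.ord x = E2 w - E1 w)
    (hxv : ∀ i, v i x = 1)
    (x₁ : Fk₁) (x₂ : Fk₂) (hredx : red x = jj (x₁, x₂))
    (hx₁ : ∀ w : Place kk Fk₁, w.ord x₁ = Y0₁ w - Yinf₁ w)
    (hx₂ : ∀ w : Place kk Fk₂, w.ord x₂ = Y0₂ w - Yinf₂ w)
    (hcont : ∀ a b : ℕ, ∀ f ∈ riemannRochSpace (a • E1 + b • E2), (∀ i, v i f ≤ 1) →
      ∃ y₁ ∈ riemannRochSpace (a • Yinf₁ + b • Y0₁),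
        ∃ y₂ ∈ riemannRochSpace (a • Yinf₂ + b • Y0₂), red f = jj (y₁, y₂) ∧
          ∀ i, valueAt (Q i) (hdeg₂ (Q i)) y₂ = valueAt (P i) (hdeg₁ (P i)) y₁)
    (hK1 : ∀ a : ℕ, ∀ y₁ ∈ riemannRochSpace (a • Yinf₁), ∀ y₂ ∈ riemannRochSpace (a • Yinf₂),
      (∀ i, valueAt (Q i) (hdeg₂ (Q i)) y₂ = valueAt (P i) (hdeg₁ (P i)) y₁) →
      ∃ a' : ℕ, ∃ f ∈ riemannRochSpace (a' • E1), (∀ i, v i f ≤ 1) ∧ red f = jj (y₁, y₂))
    (hK2 : ∀ b : ℕ, ∀ y₁ ∈ riemannRochSpace (b • Y0₁), ∀ y₂ ∈ riemannRochSpace (b • Y0₂),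
      (∀ i, valueAt (Q i) (hdeg₂ (Q i)) y₂ = valueAt (P i) (hdeg₁ (P i)) y₁) →
      ∃ b' : ℕ, ∃ f ∈ riemannRochSpace (b' • E2), (∀ i, v i f ≤ 1) ∧ red f = jj (y₁, y₂)) :
    ∃ n₀ : ℕ,
      IsNodalRR (fun a b => pairRR P Q (a • Yinf₁ + b • Y0₁) (a • Yinf₂ + b • Y0₂))
        (fun i => (evalAt P (fun i => hdeg₁ (P i)) i).comp
          (AlgHom.fst kk (nodeRing P) (nodeRing Q)))
        (fun i => (evalAt Q (fun i => hdeg₂ (Q i)) i).comp
          (AlgHom.snd kk (nodeRing P) (nodeRing Q)))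
        (d₁ + d₂)
        (Fermat.Agent.S18.helper981.riemannGenus kk Fk₁ +
          Fermat.Agent.S18.helper981.riemannGenus kk Fk₂) 2 n₀ ∧
      Divisor.degree E1 = ((d₁ + d₂ : ℕ) : ℤ) ∧
      Fermat.Agent.S18.helper981.riemannGenus K F + 1 =
        Fermat.Agent.S18.helper981.riemannGenus kk Fk₁ +
          Fermat.Agent.S18.helper981.riemannGenus kk Fk₂ + Fintype.card I ∧
      ∀ n : ℕ, n ≠ 0 → ∀ D0 : Divisor K F, Divisor.degree D0 = 0 → ∀ u : F, u ≠ 0 →
        (∀ w : Place K F, (n : ℤ) * D0 w ≤ w.ord u) → (∀ i, v i (u - 1) < 1) →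
        ∃ c : I → kk, (∀ i, c i ^ n = 1) ∧ ∀ a b : ℕ, n₀ ≤ a + b →
          (∀ f ∈ riemannRochSpace (D0 + a • E1 + b • E2), (∀ i, v i f ≤ 1) →
            ∃ y ∈ glued
                (fun i => (evalAt P (fun i => hdeg₁ (P i)) i).comp
                  (AlgHom.fst kk (nodeRing P) (nodeRing Q)))
                (fun i => (evalAt Q (fun i => hdeg₂ (Q i)) i).comp
                  (AlgHom.snd kk (nodeRing P) (nodeRing Q))) c
                (pairRR P Q (a • Yinf₁ + b • Y0₁) (a • Yinf₂ + b • Y0₂)),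
              red f = (jj.comp (nodeInclAlg P Q)) y) ∧
          (∀ y ∈ glued
                (fun i => (evalAt P (fun i => hdeg₁ (P i)) i).comp
                  (AlgHom.fst kk (nodeRing P) (nodeRing Q)))
                (fun i => (evalAt Q (fun i => hdeg₂ (Q i)) i).comp
                  (AlgHom.snd kk (nodeRing P) (nodeRing Q))) c
                (pairRR P Q (a • Yinf₁ + b • Y0₁) (a • Yinf₂ + b • Y0₂)),
            ∃ f ∈ riemannRochSpace (D0 + a • E1 + b • E2),
              (∀ i, v i f ≤ 1) ∧ red f = (jj.comp (nodeInclAlg P Q)) y) := by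
  classical
  obtain ⟨n₀', hT'⟩ := isNodalRR_of_riemann hdeg₁ hdeg₂ hRB₁ hRB₂ P₁ P₂ P Q hP hQ Yinf₁ Y0₁
    Yinf₂ Y0₂ hYinf₁ hY0₁ hYinf₂ hY0₂ hdisj₁ hdisj₂ d₁ d₂ hd₁ hd₂ hdY₁ hdY0₁ hdY₂ hdY0₂ hPY hQY
  obtain ⟨cR, hcR⟩ := Fermat.Agent.S18.helper981.exists_forall_finrank_eq hdegK P₀ hRBK
  have hT := hT'.of_le (le_max_left n₀' cR.toNat)
  have hιV : Function.Injective (jj.comp (nodeInclAlg P Q)) :=
    hjj.comp (nodeInclAlg_injective P Q)
  have hA₁ : ∀ (a b : ℕ) (i : I), (a • Yinf₁ + b • Y0₁) (P i) = 0 := fun a b i => by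
    rw [chartDiv_apply, (hPY i).1, (hPY i).2]; simp
  have hA₂ : ∀ (a b : ℕ) (i : I), (a • Yinf₂ + b • Y0₂) (Q i) = 0 := fun a b i => by
    rw [chartDiv_apply, (hQY i).1, (hQY i).2]; simp
  -- the reduction of the chart function
  have hxb : ∀ i, v i x ≤ 1 := fun i => (hxv i).le
  have hxib : ∀ i, v i x⁻¹ ≤ 1 := fun i => by rw [map_inv₀, hxv i, inv_one]
  obtain ⟨z, hz⟩ := hrange x⁻¹ hxib
  have hxz : (x₁, x₂) * z = 1 := hjj (by
    rw [map_mul, ← hredx, ← hz, ← hred.map_mul x x⁻¹ hxb hxib, mul_inv_cancel₀ hx0,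
      hred.map_one, map_one])
  have hx₁0 : x₁ ≠ 0 := by
    have h := congrArg Prod.fst hxz
    exact left_ne_zero_of_mul_eq_one h
  have hx₂0 : x₂ ≠ 0 := by
    have h := congrArg Prod.snd hxz
    exact left_ne_zero_of_mul_eq_one h
  have hx₁m : x₁ ∈ nodeRing P := fun i => by
    rw [Place.adicValuation_le_one_iff]
    right
    rw [hx₁ (P i), (hPY i).1, (hPY i).2, sub_zero]
  have hx₂m : x₂ ∈ nodeRing Q := fun i => by
    rw [Place.adicValuation_le_one_iff]
    right
    rw [hx₂ (Q i), (hQY i).1, (hQY i).2, sub_zero]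
  -- degrees on the generic fibre
  have hdE2 : Divisor.degree E2 = Divisor.degree E1 := by
    obtain ⟨D, hD, hD0⟩ := HasPrincipalDivisors.exists_divisor (K := K) x hx0
    have hDE : D = E2 - E1 := Finsupp.ext fun w => by
      rw [hD w, hxord w, Finsupp.sub_apply]
    rw [hDE, map_sub] at hD0
    linarith
  have he' : ((Divisor.degree E1).toNat : ℤ) = Divisor.degree E1 := Int.toNat_of_nonneg hdE1.le
  have hRie : ∀ a, max n₀' cR.toNat ≤ a →
      finrank K (riemannRochSpace (a • E1)) + Fermat.Agent.S18.helper981.riemannGenus K F =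
        (Divisor.degree E1).toNat * a + 1 := by
    intro a ha
    have hdeg : Divisor.degree (a • E1) = a * Divisor.degree E1 := by
      rw [map_nsmul, nsmul_eq_mul]
    have h1 : cR ≤ (cR.toNat : ℤ) := Int.self_le_toNat cR
    have h2 : (cR.toNat : ℤ) ≤ a := by exact_mod_cast (le_max_right n₀' cR.toNat).trans ha
    have h3 : (a : ℤ) ≤ a * Divisor.degree E1 :=
      le_mul_of_one_le_right (Int.natCast_nonneg a) hdE1
    have h4 := hcR (a • E1) (by rw [hdeg]; linarith)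
    have h5 : (finrank K (riemannRochSpace (a • E1)) : ℤ) +
        Fermat.Agent.S18.helper981.riemannGenus K F =
          ((Divisor.degree E1).toNat : ℤ) * a + 1 := by
      rw [h4, hdeg, he']
      ring
    exact_mod_cast h5
  -- the hypotheses of the core theorems
  have hcont' : ∀ a b : ℕ, ∀ f ∈ riemannRochSpace (a • E1 + b • E2), (∀ i, v i f ≤ 1) →
      ∃ y ∈ glued
          (fun i => (evalAt P (fun i => hdeg₁ (P i)) i).comp
            (AlgHom.fst kk (nodeRing P) (nodeRing Q)))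
          (fun i => (evalAt Q (fun i => hdeg₂ (Q i)) i).comp
            (AlgHom.snd kk (nodeRing P) (nodeRing Q))) 1
          (pairRR P Q (a • Yinf₁ + b • Y0₁) (a • Yinf₂ + b • Y0₂)),
        red f = (jj.comp (nodeInclAlg P Q)) y := by
    intro a b f hf hfb
    obtain ⟨y₁, hy₁, y₂, hy₂, hfy, hnode⟩ := hcont a b f hf hfb
    refine ⟨(⟨y₁, rr_le_nodeRing P _ (hA₁ a b) y₁ hy₁⟩, ⟨y₂, rr_le_nodeRing Q _ (hA₂ a b) y₂ hy₂⟩),
      ⟨⟨hy₁, hy₂⟩, fun i => ?_⟩, hfy⟩
    rw [Pi.one_apply, one_mul]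
    exact hnode i
  have hxT : ∀ (a b : ℕ) (y : nodeRing P × nodeRing Q),
      y ∈ pairRR P Q (a • Yinf₁ + (b + 1) • Y0₁) (a • Yinf₂ + (b + 1) • Y0₂) ↔
        ((⟨x₁, hx₁m⟩, ⟨x₂, hx₂m⟩) : nodeRing P × nodeRing Q) * y ∈
          pairRR P Q ((a + 1) • Yinf₁ + b • Y0₁) ((a + 1) • Yinf₂ + b • Y0₂) := by
    intro a b y
    exact and_congr (mul_mem_rr_shift_iff hx₁0 hx₁ a b _) (mul_mem_rr_shift_iff hx₂0 hx₂ a b _)
  obtain ⟨hee, hcard, -⟩ := node_count_of_reduction hred hconst (jj.comp (nodeInclAlg P Q)) hιV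
    (fun a b => pairRR P Q (a • Yinf₁ + b • Y0₁) (a • Yinf₂ + b • Y0₂))
    (fun i => (evalAt P (fun i => hdeg₁ (P i)) i).comp (AlgHom.fst kk (nodeRing P) (nodeRing Q)))
    (fun i => (evalAt Q (fun i => hdeg₂ (Q i)) i).comp (AlgHom.snd kk (nodeRing P) (nodeRing Q)))
    (d₁ + d₂) _ 2 (max n₀' cR.toNat) hT E1 E2 hE1 hE2 x hx0 hxord hxv
    ((⟨x₁, hx₁m⟩, ⟨x₂, hx₂m⟩) : nodeRing P × nodeRing Q) hredx hxT hcont'
    (fun a _ => hcart _) (Divisor.degree E1).toNat
    (Fermat.Agent.S18.helper981.riemannGenus K F) 1 hRie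
    (fun a y hy => by
      have h1 : (y.1 : Fk₁) ∈ riemannRochSpace (a • Yinf₁) := by
        have := hy.1.1
        rwa [zero_smul, add_zero] at this
      have h2 : (y.2 : Fk₂) ∈ riemannRochSpace (a • Yinf₂) := by
        have := hy.1.2
        rwa [zero_smul, add_zero] at this
      obtain ⟨a', f, hf, hfb, hfy⟩ := hK1 a _ h1 _ h2 (fun i => by
        have := hy.2 i
        rw [Pi.one_apply, one_mul] at this
        exact this)
      exact ⟨a', f, hf, hfb, hfy⟩)
    (fun b y hy => by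
      have h1 : (y.1 : Fk₁) ∈ riemannRochSpace (b • Y0₁) := by
        have := hy.1.1
        rwa [zero_smul, zero_add] at this
      have h2 : (y.2 : Fk₂) ∈ riemannRochSpace (b • Y0₂) := by
        have := hy.1.2
        rwa [zero_smul, zero_add] at this
      obtain ⟨b', f, hf, hfb, hfy⟩ := hK2 b _ h1 _ h2 (fun i => by
        have := hy.2 i
        rw [Pi.one_apply, one_mul] at this
        exact this)
      exact ⟨b', f, hf, hfb, hfy⟩)
  have hdegE1 : Divisor.degree E1 = ((d₁ + d₂ : ℕ) : ℤ) := by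
    rw [← he', hee]
  refine ⟨max n₀' cR.toNat, hT, hdegE1, by omega, ?_⟩
  intro n hn D0 hD0 u hu0 hun hu1
  refine exists_glue_const_of_reduction hred (jj.comp (nodeInclAlg P Q)) hιV
    (fun a b => pairRR P Q (a • Yinf₁ + b • Y0₁) (a • Yinf₂ + b • Y0₂))
    (fun i => (evalAt P (fun i => hdeg₁ (P i)) i).comp (AlgHom.fst kk (nodeRing P) (nodeRing Q)))
    (fun i => (evalAt Q (fun i => hdeg₂ (Q i)) i).comp (AlgHom.snd kk (nodeRing P) (nodeRing Q)))
    (d₁ + d₂) _ 2 (max n₀' cR.toNat) hT E1 E2 hE1 hE2 hcont'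
    (Fermat.Agent.S18.helper981.riemannGenus K F) 1 hcard n hn ?_ D0 u hu0 hun hu1
    (fun a b _ => hcart _) ?_
  · -- closure under `n`-th roots
    intro a b f hfb z hz hfz
    obtain ⟨w, hw⟩ := hrange f hfb
    have h1 : w ^ n = nodeInclAlg P Q z := hjj (by
      rw [map_pow, ← hw, hfz]
      rfl)
    have h11 : w.1 ^ n = (z.1 : Fk₁) := congrArg Prod.fst h1
    have h12 : w.2 ^ n = (z.2 : Fk₂) := congrArg Prod.snd h1
    have hw1 : w.1 ∈ riemannRochSpace (a • Yinf₁ + b • Y0₁) :=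
      mem_rr_of_pow_mem hn a b (by rw [h11]; exact hz.1)
    have hw2 : w.2 ∈ riemannRochSpace (a • Yinf₂ + b • Y0₂) :=
      mem_rr_of_pow_mem hn a b (by rw [h12]; exact hz.2)
    exact ⟨(⟨w.1, rr_le_nodeRing P _ (hA₁ a b) _ hw1⟩, ⟨w.2, rr_le_nodeRing Q _ (hA₂ a b) _ hw2⟩),
      ⟨hw1, hw2⟩, hw⟩
  · -- Riemann's inequality on the generic fibre
    intro a b _
    have h1 := Fermat.Agent.S18.helper981.riemannGenus_mem hRBK (D0 + a • E1 + b • E2)
    have hdeg : Divisor.degree (D0 + a • E1 + b • E2) = ((d₁ + d₂ : ℕ) : ℤ) * (a + b) := by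
      rw [map_add, map_add, map_nsmul, map_nsmul, hD0, hdE2, hdegE1, nsmul_eq_mul, nsmul_eq_mul]
      ring
    rw [hdeg] at h1
    have h2 : (((d₁ + d₂) * (a + b) + 1 : ℕ) : ℤ) ≤
        ((finrank K (riemannRochSpace (D0 + a • E1 + b • E2)) +
          Fermat.Agent.S18.helper981.riemannGenus K F : ℕ) : ℤ) := by
      push_cast
      push_cast at h1
      linarith
    exact_mod_cast h2

omit [Fintype I] in
/-- **The hypothesis `hcont` of `twisted_lattice_of_components` from its chart form.**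
If the unit ball of `L(a E₁ + b E₂)` reduces into `L(a Yinf₁ + b Y0₁) × L(a Yinf₂ + b Y0₂)`
(`hRR`: reduction containment of pole orders, no node condition) and the node conditions hold for
the reductions of the functions of the chart off `E₁` only (`hnode`: `f ∈ L(a E₁)`), then the
node conditions hold for all `(a, b)`: multiply by `x ^ b`, a unit at the nodes with equal
values at the two points of every node. -/
theorem hcont_of_chart
    {K F : Type*} [Field K] [Field F] [Algebra K F]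
    {Γ₀ : Type*} [LinearOrderedCommGroupWithZero Γ₀] {ι : Type*}
    (v : ι → Valuation F Γ₀) (vL : Valuation K Γ₀)
    {Fk : Type*} [CommRing Fk] [Algebra kk Fk] {red : F → Fk}
    (hred : RedDataW v (fun _ => (1 : Γ₀)) vL kk red red)
    (jj : Fk₁ × Fk₂ →ₐ[kk] Fk)
    (P : I → Place kk Fk₁) (Q : I → Place kk Fk₂)
    (hdegP : ∀ i, (P i).deg = 1) (hdegQ : ∀ i, (Q i).deg = 1)
    (Yinf₁ Y0₁ : Divisor kk Fk₁) (Yinf₂ Y0₂ : Divisor kk Fk₂)
    (hY0₁ : 0 ≤ Y0₁) (hY0₂ : 0 ≤ Y0₂)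
    (hPY : ∀ i, Yinf₁ (P i) = 0 ∧ Y0₁ (P i) = 0) (hQY : ∀ i, Yinf₂ (Q i) = 0 ∧ Y0₂ (Q i) = 0)
    (E1 E2 : Divisor K F) (hE2 : 0 ≤ E2)
    (x : F) (hx0 : x ≠ 0) (hxord : ∀ w : Place K F, w.ord x = E2 w - E1 w)
    (hxv : ∀ i, v i x = 1)
    (x₁ : Fk₁) (x₂ : Fk₂) (hx₁0 : x₁ ≠ 0) (hx₂0 : x₂ ≠ 0) (hredx : red x = jj (x₁, x₂))
    (hx₁ : ∀ w : Place kk Fk₁, w.ord x₁ = Y0₁ w - Yinf₁ w)
    (hx₂ : ∀ w : Place kk Fk₂, w.ord x₂ = Y0₂ w - Yinf₂ w)
    (hRR : ∀ a b : ℕ, ∀ f ∈ riemannRochSpace (a • E1 + b • E2), (∀ i, v i f ≤ 1) →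
      ∃ y₁ ∈ riemannRochSpace (a • Yinf₁ + b • Y0₁),
        ∃ y₂ ∈ riemannRochSpace (a • Yinf₂ + b • Y0₂), red f = jj (y₁, y₂))
    (hnode : ∀ a : ℕ, ∀ f ∈ riemannRochSpace (a • E1), (∀ i, v i f ≤ 1) →
      ∀ y₁ ∈ riemannRochSpace (a • Yinf₁), ∀ y₂ ∈ riemannRochSpace (a • Yinf₂),
        red f = jj (y₁, y₂) → ∀ i, valueAt (Q i) (hdegQ i) y₂ = valueAt (P i) (hdegP i) y₁) :
    ∀ a b : ℕ, ∀ f ∈ riemannRochSpace (a • E1 + b • E2), (∀ i, v i f ≤ 1) →
      ∃ y₁ ∈ riemannRochSpace (a • Yinf₁ + b • Y0₁),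
        ∃ y₂ ∈ riemannRochSpace (a • Yinf₂ + b • Y0₂), red f = jj (y₁, y₂) ∧
          ∀ i, valueAt (Q i) (hdegQ i) y₂ = valueAt (P i) (hdegP i) y₁ := by
  have hA₁ : ∀ (a b : ℕ) (i : I), (a • Yinf₁ + b • Y0₁) (P i) = 0 := fun a b i => by
    rw [chartDiv_apply, (hPY i).1, (hPY i).2]; simp
  have hA₂ : ∀ (a b : ℕ) (i : I), (a • Yinf₂ + b • Y0₂) (Q i) = 0 := fun a b i => by
    rw [chartDiv_apply, (hQY i).1, (hQY i).2]; simp
  have hxb : ∀ i, v i x ≤ 1 := fun i => (hxv i).le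
  -- the shifts by powers of `x`, `x₁`, `x₂`
  have hsh : ∀ (a b : ℕ) (f : F), f ∈ riemannRochSpace (a • E1 + b • E2) →
      x ^ b * f ∈ riemannRochSpace ((a + b) • E1) := by
    intro a b f hf
    have h := pow_mul_mem_of_shift' (fun a b => riemannRochSpace (a • E1 + b • E2)) x
      (fun a b f => mul_mem_rr_shift_iff hx0 hxord a b f) b a f hf
    have h' : x ^ b * f ∈ riemannRochSpace ((a + b) • E1 + 0 • E2) := h
    rwa [zero_smul, add_zero] at h'
  have hsh₁ : ∀ (a b : ℕ) (f : Fk₁), f ∈ riemannRochSpace (a • Yinf₁ + b • Y0₁) →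
      x₁ ^ b * f ∈ riemannRochSpace ((a + b) • Yinf₁) := by
    intro a b f hf
    have h := pow_mul_mem_of_shift' (fun a b => riemannRochSpace (a • Yinf₁ + b • Y0₁)) x₁
      (fun a b f => mul_mem_rr_shift_iff hx₁0 hx₁ a b f) b a f hf
    have h' : x₁ ^ b * f ∈ riemannRochSpace ((a + b) • Yinf₁ + 0 • Y0₁) := h
    rwa [zero_smul, add_zero] at h'
  have hsh₂ : ∀ (a b : ℕ) (f : Fk₂), f ∈ riemannRochSpace (a • Yinf₂ + b • Y0₂) →
      x₂ ^ b * f ∈ riemannRochSpace ((a + b) • Yinf₂) := by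
    intro a b f hf
    have h := pow_mul_mem_of_shift' (fun a b => riemannRochSpace (a • Yinf₂ + b • Y0₂)) x₂
      (fun a b f => mul_mem_rr_shift_iff hx₂0 hx₂ a b f) b a f hf
    have h' : x₂ ^ b * f ∈ riemannRochSpace ((a + b) • Yinf₂ + 0 • Y0₂) := h
    rwa [zero_smul, add_zero] at h'
  -- `x`, `x₁`, `x₂` in the first chart
  have hxL : x ∈ riemannRochSpace (1 • E1) := by
    have h := hsh 0 1 1 (one_mem_rr_of_nonneg (by rw [zero_smul, zero_add, one_smul]; exact hE2))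
    rwa [pow_one, mul_one, zero_add] at h
  have hx₁L : x₁ ∈ riemannRochSpace (1 • Yinf₁) := by
    have h := hsh₁ 0 1 1
      (one_mem_rr_of_nonneg (by rw [zero_smul, zero_add, one_smul]; exact hY0₁))
    rwa [pow_one, mul_one, zero_add] at h
  have hx₂L : x₂ ∈ riemannRochSpace (1 • Yinf₂) := by
    have h := hsh₂ 0 1 1
      (one_mem_rr_of_nonneg (by rw [zero_smul, zero_add, one_smul]; exact hY0₂))
    rwa [pow_one, mul_one, zero_add] at h
  -- `x₁`, `x₂` are units at the nodes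
  have hx₁v : ∀ i, (P i).adicValuation x₁ = 1 := fun i => by
    rw [(P i).adicValuation_eq_exp_neg_ord hx₁0, hx₁ (P i), (hPY i).1, (hPY i).2, sub_zero,
      neg_zero, exp_zero]
  have hx₂v : ∀ i, (Q i).adicValuation x₂ = 1 := fun i => by
    rw [(Q i).adicValuation_eq_exp_neg_ord hx₂0, hx₂ (Q i), (hQY i).1, (hQY i).2, sub_zero,
      neg_zero, exp_zero]
  have hx₁m : x₁ ∈ nodeRing P := fun i => (hx₁v i).le
  have hx₂m : x₂ ∈ nodeRing Q := fun i => (hx₂v i).le
  have hxnode := hnode 1 x hxL hxb x₁ hx₁L x₂ hx₂L hredx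
  intro a b f hf hfb
  obtain ⟨y₁, hy₁, y₂, hy₂, hfy⟩ := hRR a b f hf hfb
  refine ⟨y₁, hy₁, y₂, hy₂, hfy, fun i => ?_⟩
  have hy₁m : y₁ ∈ nodeRing P := rr_le_nodeRing P _ (hA₁ a b) y₁ hy₁
  have hy₂m : y₂ ∈ nodeRing Q := rr_le_nodeRing Q _ (hA₂ a b) y₂ hy₂
  have hpb : ∀ i, v i (x ^ b) ≤ 1 := fun i => by
    rw [map_pow, hxv i, one_pow]
  have hgb : ∀ i, v i (x ^ b * f) ≤ 1 := fun i => by
    rw [map_mul]
    exact mul_le_one' (hpb i) (hfb i)
  have hredg : red (x ^ b * f) = jj (x₁ ^ b * y₁, x₂ ^ b * y₂) := by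
    rw [hred.map_mul _ _ hpb hfb, red_pow_of_ball hred x hxb b, hredx, hfy, ← map_pow, ← map_mul]
    rfl
  have h1 := hnode (a + b) (x ^ b * f) (hsh a b f hf) hgb (x₁ ^ b * y₁) (hsh₁ a b y₁ hy₁)
    (x₂ ^ b * y₂) (hsh₂ a b y₂ hy₂) hredg i
  have h2 := hxnode i
  -- multiplicativity of the values
  have e₁ : valueAt (P i) (hdegP i) (x₁ ^ b * y₁) =
      valueAt (P i) (hdegP i) x₁ ^ b * valueAt (P i) (hdegP i) y₁ := by
    have h := map_mul (evalAt P hdegP i) ((⟨x₁, hx₁m⟩ : nodeRing P) ^ b) ⟨y₁, hy₁m⟩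
    rw [map_pow] at h
    exact h
  have e₂ : valueAt (Q i) (hdegQ i) (x₂ ^ b * y₂) =
      valueAt (Q i) (hdegQ i) x₂ ^ b * valueAt (Q i) (hdegQ i) y₂ := by
    have h := map_mul (evalAt Q hdegQ i) ((⟨x₂, hx₂m⟩ : nodeRing Q) ^ b) ⟨y₂, hy₂m⟩
    rw [map_pow] at h
    exact h
  have hne : valueAt (P i) (hdegP i) x₁ ≠ 0 := by
    intro h0
    have h3 := (valueAt_eq_zero_iff (P i) (hdegP i) (hx₁v i).le).mp h0
    rw [hx₁v i] at h3
    exact lt_irrefl _ h3
  rw [e₁, e₂, h2] at h1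
  exact mul_left_cancel₀ (pow_ne_zero b hne) h1

end Components

end Fermat.Agent.S35.helper603
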