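import Fermat.Agent.S37.helper6887_Fricke
import Fermat.Prelude.Def_ModularForm_HeckeOperator

/-!
# The Atkin–Lehner automorphism `W_q` of the function field of `X₀(q M)` (helper1219)

`Kbar = AlgebraicClosure ℚ`, `FN N = modularFunctionFieldBar N = ℚ̄(j(q^D) : D ∣ N)` (here `q^D`
is the formal variable to the power `D`).  Let `q`, `M` be coprime (`q` need not be prime: any
exact divisor `q ‖ N = q M`).

* `atkinLehnerBar q M h : FN (q * M) ≃ₐ[Kbar] FN (q * M)`, the Atkin–Lehner involution `W_q`: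
  for `e f = q` and `d ∣ M` it sends `j(q^(e d)) ↦ j(q^(f d))`
  (`atkinLehnerBar_jBarD`); in particular `j(q^d) ↦ j(q^(q d))` and `j(q^(q d)) ↦ j(q^d)` for
  `d ∣ M` (`atkinLehnerBar_jBarD_cofactor`, `atkinLehnerBar_jBarD_mul_cofactor`).
* `atkinLehnerBar_atkinLehnerBar` : it is an involution.
* `evFun_alA` : the analytic form.  On the analytic model `evFun` of S24 it is the pull-back by
  `τ ↦ γ (q τ)`, `γ = alGamma q M h ∈ SL(2, ℤ)` with bottom row `(M, q)`; i.e. by the matrix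
  `[[q x, y], [q M, q]]` of determinant `q`.
* `atkinLehnerBar_arithmeticRingAut` : `W_q` is defined over `ℚ`: it commutes with the
  coefficientwise action of `Gal(ℚ̄/ℚ)`.
* `atkinLehnerBar_one_right` : for `M = 1` it is the Fricke involution of `helper6887`.

The construction follows `S37/helper6887_Fricke` (Fricke involution `W_N`), with the point map
`τ ↦ -1/(Nτ)` replaced by `τ ↦ γ (q τ)`.
-/

set_option autoImplicit false

open Complex UpperHalfPlane ModularCurve AlgebraicCurve CongruenceSubgroup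
open scoped MatrixGroups

noncomputable section

namespace Fermat.Agent.S35.helper1219

open Fermat.Agent.S24.helper24 Fermat.Agent.S24.helper504 Fermat.Agent.S24

/-! ## Arithmetic of divisors of `q * M`, `q` and `M` coprime -/

/-- A divisor `D` of `q * M` (`q`, `M` coprime) is `e * d` with `e ∣ q` and `d ∣ M`. -/
theorem exists_factor {q M D : ℕ} (h : Nat.Coprime q M) (hD : D ∣ q * M) :
    ∃ e f d m : ℕ, D = e * d ∧ q = e * f ∧ M = d * m := by
  obtain ⟨f, hf⟩ := Nat.gcd_dvd_right D q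
  obtain ⟨m, hm⟩ := Nat.gcd_dvd_right D M
  refine ⟨Nat.gcd D q, f, Nat.gcd D M, m, ?_, hf, hm⟩
  rw [← Nat.Coprime.gcd_mul D h, Nat.gcd_eq_left hD]

/-! ## The point map `τ ↦ γ (q τ)` -/

/-- There is an element of `SL(2, ℤ)` with bottom row `(M, q)`. -/
theorem exists_gamma {q M : ℕ} (h : Nat.Coprime q M) :
    ∃ γ : SL(2, ℤ), γ 1 0 = (M : ℤ) ∧ γ 1 1 = (q : ℤ) := by
  have hc : IsCoprime (q : ℤ) (M : ℤ) := Nat.isCoprime_iff_coprime.mpr h
  obtain ⟨a, b, hab⟩ := hc
  refine ⟨⟨!![a, -b; (M : ℤ), (q : ℤ)], ?_⟩, rfl, rfl⟩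
  rw [Matrix.det_fin_two_of]
  linarith

/-- The chosen element of `SL(2, ℤ)` with bottom row `(M, q)`. -/
def alGamma (q M : ℕ) (h : Nat.Coprime q M) : SL(2, ℤ) := Classical.choose (exists_gamma h)

theorem alGamma_one_zero (q M : ℕ) (h : Nat.Coprime q M) : alGamma q M h 1 0 = (M : ℤ) :=
  (Classical.choose_spec (exists_gamma h)).1

theorem alGamma_one_one (q M : ℕ) (h : Nat.Coprime q M) : alGamma q M h 1 1 = (q : ℤ) :=
  (Classical.choose_spec (exists_gamma h)).2

/-- **Key computation.** For `γ ∈ SL(2, ℤ)` with bottom row `(M, q)`, `q = e f`, `M = d m`: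
`j(e d · γ(q τ)) = j(f d · τ)`. -/
theorem jd_smul_hpt {q M : ℕ} [NeZero q] (γ : SL(2, ℤ)) (h10 : γ 1 0 = (M : ℤ))
    (h11 : γ 1 1 = (q : ℤ)) {e f d m : ℕ} (hq : q = e * f) (hM : M = d * m)
    [NeZero (e * d)] [NeZero (f * d)] (τ : ℍ) :
    jd (e * d) (γ • hpt q 0 1 τ) = jd (f * d) τ := by
  have hq0 : q ≠ 0 := NeZero.ne q
  have he0 : e ≠ 0 := by
    rintro rfl
    exact hq0 (by rw [hq, zero_mul])
  have he : 0 < e := Nat.pos_of_ne_zero he0
  have hdet := γ.det_coe
  rw [Matrix.det_fin_two] at hdet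
  rw [h10, h11] at hdet
  -- the element `γ' = [[e γ₀₀, d γ₀₁], [m, f]]`
  have hdet' : Matrix.det !![(e : ℤ) * γ 0 0, (d : ℤ) * γ 0 1; (m : ℤ), (f : ℤ)] = 1 := by
    rw [Matrix.det_fin_two_of]
    have h1 : ((q : ℕ) : ℤ) = (e : ℤ) * f := by exact_mod_cast hq
    have h2 : ((M : ℕ) : ℤ) = (d : ℤ) * m := by exact_mod_cast hM
    rw [h1, h2] at hdet
    linear_combination hdet
  let γ' : SL(2, ℤ) := ⟨!![(e : ℤ) * γ 0 0, (d : ℤ) * γ 0 1; (m : ℤ), (f : ℤ)], hdet'⟩
  have hMat : (!![((e * d : ℕ) : ℤ), 0; 0, 1] * (γ : Matrix (Fin 2) (Fin 2) ℤ))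
      = (γ' : Matrix (Fin 2) (Fin 2) ℤ) * !![((d : ℕ) : ℤ), ((0 : ℕ) : ℤ); 0, ((e : ℕ) : ℤ)] := by
    have h1 : ((q : ℕ) : ℤ) = (e : ℤ) * f := by exact_mod_cast hq
    have h2 : ((M : ℕ) : ℤ) = (d : ℤ) * m := by exact_mod_cast hM
    ext i j
    fin_cases i <;> fin_cases j
    · simp [γ', Matrix.mul_apply, Fin.sum_univ_two]
      ring
    · simp [γ', Matrix.mul_apply, Fin.sum_univ_two]
      ring
    · simp [γ', Matrix.mul_apply, Fin.sum_univ_two]
      rw [h10, h2]
      ring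
    · simp [γ', Matrix.mul_apply, Fin.sum_univ_two]
      rw [h11, h1]
      ring
  rw [jd_apply, jd_apply]
  refine hermite_invariant he hMat jFun_smul (hpt q 0 1 τ) _ _ ?_ ?_
  · rw [coe_hpt]
    push_cast
    ring
  · rw [coe_hpt, coe_hpt]
    have hec : (e : ℂ) ≠ 0 := Nat.cast_ne_zero.mpr he0
    have hqc : (q : ℂ) = (e : ℂ) * f := by exact_mod_cast hq
    rw [hqc]
    push_cast
    field_simp
    ring

/-! ## Pull-back of functions by the point map -/

/-- Precomposition with `τ ↦ γ (q τ)`. -/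
def pullAL (q : ℕ) [NeZero q] (γ : SL(2, ℤ)) : (ℍ → ℂ) →+* (ℍ → ℂ) where
  toFun f := fun τ => f (γ • hpt q 0 1 τ)
  map_one' := rfl
  map_mul' _ _ := rfl
  map_zero' := rfl
  map_add' _ _ := rfl

theorem pullAL_apply (q : ℕ) [NeZero q] (γ : SL(2, ℤ)) (f : ℍ → ℂ) (τ : ℍ) :
    pullAL q γ f τ = f (γ • hpt q 0 1 τ) := rfl

theorem pullAL_jd {q M : ℕ} [NeZero q] (γ : SL(2, ℤ)) (h10 : γ 1 0 = (M : ℤ))
    (h11 : γ 1 1 = (q : ℤ)) {e f d m : ℕ} (hq : q = e * f) (hM : M = d * m)
    [NeZero (e * d)] [NeZero (f * d)] :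
    pullAL q γ (jd (e * d)) = jd (f * d) := by
  funext τ
  rw [pullAL_apply, jd_smul_hpt γ h10 h11 hq hM]

/-! ## `W_q` on `A_N = ℚ̄[j(q^D) : D ∣ N]`, `N = q M` -/

section Alg

variable (q M : ℕ) [NeZero q] [NeZero M] (h : Nat.Coprime q M)

theorem neZero_mul_of_eq {q M e f d m : ℕ} [NeZero q] [NeZero M] (hq : q = e * f)
    (hM : M = d * m) : NeZero (e * d) ∧ NeZero (f * d) := by
  have hq0 : q ≠ 0 := NeZero.ne q
  have hM0 : M ≠ 0 := NeZero.ne M
  have he : e ≠ 0 := by rintro rfl; exact hq0 (by rw [hq, zero_mul])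
  have hf : f ≠ 0 := by rintro rfl; exact hq0 (by rw [hq, mul_zero])
  have hd : d ≠ 0 := by rintro rfl; exact hM0 (by rw [hM, zero_mul])
  exact ⟨⟨Nat.mul_ne_zero he hd⟩, ⟨Nat.mul_ne_zero hf hd⟩⟩

theorem dvd_of_eq {q M e f d m : ℕ} (hq : q = e * f) (hM : M = d * m) :
    e * d ∣ q * M ∧ f * d ∣ q * M := by
  constructor
  · exact ⟨f * m, by rw [hq, hM]; ring⟩
  · exact ⟨e * m, by rw [hq, hM]; ring⟩

include h in
theorem exists_evFun_eq_pullAL (γ : SL(2, ℤ)) (h10 : γ 1 0 = (M : ℤ)) (h11 : γ 1 1 = (q : ℤ))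
    (a : helper3176.AN (q * M)) :
    ∃ b : helper3176.AN (q * M), evFun (q * M) b = pullAL q γ (evFun (q * M) a) := by
  induction a using AN_induction with
  | gen D hD =>
      obtain ⟨e, f, d, m, rfl, hq, hM⟩ := exists_factor h hD
      have : NeZero (f * d) := (neZero_mul_of_eq hq hM).2
      refine ⟨⟨jBarD (q * M) (f * d) (dvd_of_eq hq hM).2, helper3176.jBarD_mem_AN _ _ _⟩, ?_⟩
      rw [evFun_jBarD, evFun_jBarD, pullAL_jd γ h10 h11 hq hM]
  | const c =>
      refine ⟨algebraMap Kbar (helper3176.AN (q * M)) c, ?_⟩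
      rw [evFun_algebraMap]
      rfl
  | add x y hx hy =>
      obtain ⟨bx, hbx⟩ := hx
      obtain ⟨by', hby⟩ := hy
      exact ⟨bx + by', by rw [map_add, map_add, map_add, hbx, hby]⟩
  | mul x y hx hy =>
      obtain ⟨bx, hbx⟩ := hx
      obtain ⟨by', hby⟩ := hy
      exact ⟨bx * by', by rw [map_mul, map_mul, map_mul, hbx, hby]⟩

/-- `W_q` on `A_N`, as a function. -/
def alFun (a : helper3176.AN (q * M)) : helper3176.AN (q * M) :=
  Classical.choose (exists_evFun_eq_pullAL q M h (alGamma q M h) (alGamma_one_zero q M h)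
    (alGamma_one_one q M h) a)

theorem evFun_alFun (a : helper3176.AN (q * M)) :
    evFun (q * M) (alFun q M h a) = pullAL q (alGamma q M h) (evFun (q * M) a) :=
  Classical.choose_spec (exists_evFun_eq_pullAL q M h (alGamma q M h) (alGamma_one_zero q M h)
    (alGamma_one_one q M h) a)

/-- `W_q` on `A_N` as an algebra hom. -/
def alA : helper3176.AN (q * M) →ₐ[Kbar] helper3176.AN (q * M) where
  toFun := alFun q M h
  map_one' := evFun_injective _ (by rw [evFun_alFun, map_one, map_one])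
  map_mul' x y := evFun_injective _ (by
    rw [evFun_alFun, map_mul, map_mul, map_mul, evFun_alFun, evFun_alFun])
  map_zero' := evFun_injective _ (by rw [evFun_alFun, map_zero, map_zero])
  map_add' x y := evFun_injective _ (by
    rw [evFun_alFun, map_add, map_add, map_add, evFun_alFun, evFun_alFun])
  commutes' c := evFun_injective _ (by
    rw [evFun_alFun, evFun_algebraMap]
    rfl)

/-- **Analytic form of `W_q`**: on the analytic model it is the pull-back by `τ ↦ γ (q τ)`,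
`γ = alGamma q M h` of bottom row `(M, q)`. -/
theorem evFun_alA (a : helper3176.AN (q * M)) :
    evFun (q * M) (alA q M h a) = pullAL q (alGamma q M h) (evFun (q * M) a) :=
  evFun_alFun q M h a

theorem evFun_alA_apply (a : helper3176.AN (q * M)) (τ : ℍ) :
    evFun (q * M) (alA q M h a) τ = evFun (q * M) a (alGamma q M h • hpt q 0 1 τ) := by
  rw [evFun_alA]
  rfl

theorem alA_jBarD {e f d m : ℕ} (hq : q = e * f) (hM : M = d * m)
    [NeZero (e * d)] [NeZero (f * d)] (h1 : e * d ∣ q * M) (h2 : f * d ∣ q * M) :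
    alA q M h ⟨jBarD (q * M) (e * d) h1, helper3176.jBarD_mem_AN _ _ _⟩
      = ⟨jBarD (q * M) (f * d) h2, helper3176.jBarD_mem_AN _ _ _⟩ :=
  evFun_injective _ (by
    rw [evFun_alA, evFun_jBarD, evFun_jBarD,
      pullAL_jd _ (alGamma_one_zero q M h) (alGamma_one_one q M h) hq hM])

theorem alA_alA (a : helper3176.AN (q * M)) : alA q M h (alA q M h a) = a := by
  induction a using AN_induction with
  | gen D hD =>
      obtain ⟨e, f, d, m, rfl, hq, hM⟩ := exists_factor h hD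
      have : NeZero (f * d) := (neZero_mul_of_eq hq hM).2
      rw [alA_jBarD q M h hq hM hD (dvd_of_eq hq hM).2,
        alA_jBarD q M h (hq.trans (mul_comm e f)) hM (dvd_of_eq hq hM).2 hD]
  | const c => rw [AlgHom.commutes, AlgHom.commutes]
  | add x y hx hy => rw [map_add, map_add, hx, hy]
  | mul x y hx hy => rw [map_mul, map_mul, hx, hy]

theorem alA_injective : Function.Injective (alA q M h) :=
  Function.LeftInverse.injective (alA_alA q M h)

theorem alA_val_injective :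
    Function.Injective ((helper3176.AN (q * M)).val.comp (alA q M h)) :=
  fun _ _ hxy => alA_injective q M h (Subtype.val_injective hxy)

/-! ## `W_q` on the function field -/

/-- `W_q` as an algebra endomorphism of the function field. -/
def alHom : FN (q * M) →ₐ[Kbar] FN (q * M) :=
  IsFractionRing.liftAlgHom (A := helper3176.AN (q * M)) (alA_val_injective q M h)

theorem alHom_coe (a : helper3176.AN (q * M)) :
    alHom q M h (a : FN (q * M)) = (alA q M h a : FN (q * M)) :=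
  IsFractionRing.lift_algebraMap (alA_val_injective q M h) a

theorem alHom_alHom (z : FN (q * M)) : alHom q M h (alHom q M h z) = z := by
  have hh : ((alHom q M h : FN (q * M) →+* FN (q * M)).comp
      (alHom q M h : FN (q * M) →+* FN (q * M))) = RingHom.id (FN (q * M)) :=
    helper3176.ringHom_ext_of_AN (q * M) fun a => by
      show alHom q M h (alHom q M h (a : FN (q * M))) = (a : FN (q * M))
      rw [alHom_coe, alHom_coe, alA_alA]
  exact congrArg (fun f : FN (q * M) →+* FN (q * M) => f z) hh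

/-- **The Atkin–Lehner involution** `W_q` of the function field
`F_N = ℚ̄(j(q^D) : D ∣ N)`, `N = q M`, `gcd(q, M) = 1`:
`j(q^(e d)) ↦ j(q^(f d))` for `e f = q`, `d ∣ M`. -/
def atkinLehnerBar : FN (q * M) ≃ₐ[Kbar] FN (q * M) :=
  AlgEquiv.ofAlgHom (alHom q M h) (alHom q M h) (AlgHom.ext (alHom_alHom q M h))
    (AlgHom.ext (alHom_alHom q M h))

theorem atkinLehnerBar_apply (z : FN (q * M)) : atkinLehnerBar q M h z = alHom q M h z := rfl

theorem atkinLehnerBar_atkinLehnerBar (z : FN (q * M)) :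
    atkinLehnerBar q M h (atkinLehnerBar q M h z) = z :=
  alHom_alHom q M h z

theorem atkinLehnerBar_symm : (atkinLehnerBar q M h).symm = atkinLehnerBar q M h := rfl

theorem atkinLehnerBar_coe (a : helper3176.AN (q * M)) :
    atkinLehnerBar q M h (a : FN (q * M)) = (alA q M h a : FN (q * M)) :=
  alHom_coe q M h a

/-- `W_q (j(q^(e d))) = j(q^(f d))` for `e f = q`, `d ∣ M`. -/
theorem atkinLehnerBar_jBarD {e f d m : ℕ} (hq : q = e * f) (hM : M = d * m)
    [NeZero (e * d)] [NeZero (f * d)] (h1 : e * d ∣ q * M) (h2 : f * d ∣ q * M) :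
    atkinLehnerBar q M h (jBarD (q * M) (e * d) h1) = jBarD (q * M) (f * d) h2 := by
  have h3 := alHom_coe q M h ⟨jBarD (q * M) (e * d) h1, helper3176.jBarD_mem_AN _ _ _⟩
  rw [alA_jBarD q M h hq hM h1 h2] at h3
  exact h3

/-- General form: `W_q (j(q^D)) = j(q^D')` whenever `D = e d`, `D' = f d`, `e f = q`, `d ∣ M`. -/
theorem atkinLehnerBar_jBarD_of_eq {D D' : ℕ} [NeZero D] [NeZero D'] (hD : D ∣ q * M)
    (hD' : D' ∣ q * M) {e f d m : ℕ} (hq : q = e * f) (hM : M = d * m) (h1 : D = e * d)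
    (h2 : D' = f * d) :
    atkinLehnerBar q M h (jBarD (q * M) D hD) = jBarD (q * M) D' hD' := by
  subst h1 h2
  exact atkinLehnerBar_jBarD q M h hq hM hD hD'

/-- `W_q (j(q^d)) = j(q^(q d))` for `d ∣ M`. -/
theorem atkinLehnerBar_jBarD_cofactor {d : ℕ} [NeZero d] [NeZero (q * d)] (hd : d ∣ M) :
    atkinLehnerBar q M h (jBarD (q * M) d (hd.mul_left q))
      = jBarD (q * M) (q * d) (Nat.mul_dvd_mul_left q hd) := by
  obtain ⟨m, hm⟩ := hd
  exact atkinLehnerBar_jBarD_of_eq q M h _ _ (e := 1) (f := q) (d := d) (m := m)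
    (one_mul q).symm hm (one_mul d).symm rfl

/-- `W_q (j(q^(q d))) = j(q^d)` for `d ∣ M`. -/
theorem atkinLehnerBar_jBarD_mul_cofactor {d : ℕ} [NeZero d] [NeZero (q * d)] (hd : d ∣ M) :
    atkinLehnerBar q M h (jBarD (q * M) (q * d) (Nat.mul_dvd_mul_left q hd))
      = jBarD (q * M) d (hd.mul_left q) := by
  obtain ⟨m, hm⟩ := hd
  exact atkinLehnerBar_jBarD_of_eq q M h _ _ (e := q) (f := 1) (d := d) (m := m)
    (mul_one q).symm hm rfl (one_mul d).symm

/-- `W_q (j) = j(q^q)`. -/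
theorem atkinLehnerBar_jBar :
    atkinLehnerBar q M h (jBar (q * M)) = jBarD (q * M) q (Dvd.intro M rfl) := by
  obtain ⟨m, hm⟩ := one_dvd M
  exact atkinLehnerBar_jBarD_of_eq q M h _ _ (e := 1) (f := q) (d := 1) (m := m)
    (one_mul q).symm hm (one_mul 1).symm (mul_one q).symm

/-! ## `W_q` is defined over `ℚ` -/

/-- The generators `j(q^d)` have rational coefficients: they are fixed by the coefficientwise
Galois action. -/
theorem arithmeticRingAut_jBarD (N : ℕ) (σ : Kbar ≃ₐ[ℚ] Kbar) (d : ℕ) [NeZero d] (hd : d ∣ N) :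
    arithmeticRingAut (modularFunctionFieldFull N) σ (jBarD N d hd) = jBarD N d hd :=
  Subtype.ext (coeffMap_coeffEmb σ _)

/-- **`W_q` is defined over `ℚ`**: it commutes with the coefficientwise action of
`Gal(ℚ̄/ℚ)` on the function field. -/
theorem atkinLehnerBar_arithmeticRingAut (σ : Kbar ≃ₐ[ℚ] Kbar) (z : FN (q * M)) :
    atkinLehnerBar q M h (arithmeticRingAut (modularFunctionFieldFull (q * M)) σ z)
      = arithmeticRingAut (modularFunctionFieldFull (q * M)) σ (atkinLehnerBar q M h z) := by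
  have hh : ((atkinLehnerBar q M h : FN (q * M) ≃+* FN (q * M)) : FN (q * M) →+* FN (q * M)).comp
        ((arithmeticRingAut (modularFunctionFieldFull (q * M)) σ : FN (q * M) ≃+* FN (q * M)) :
          FN (q * M) →+* FN (q * M))
      = ((arithmeticRingAut (modularFunctionFieldFull (q * M)) σ : FN (q * M) ≃+* FN (q * M)) :
          FN (q * M) →+* FN (q * M)).comp
        ((atkinLehnerBar q M h : FN (q * M) ≃+* FN (q * M)) : FN (q * M) →+* FN (q * M)) := by
    refine helper3176.ringHom_ext_of_gen (q * M) ?_ ?_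
    · intro c
      show atkinLehnerBar q M h (arithmeticRingAut (modularFunctionFieldFull (q * M)) σ
          (algebraMap Kbar (FN (q * M)) c))
        = arithmeticRingAut (modularFunctionFieldFull (q * M)) σ
          (atkinLehnerBar q M h (algebraMap Kbar (FN (q * M)) c))
      rw [arithmeticRingAut_algebraMap, AlgEquiv.commutes, AlgEquiv.commutes,
        arithmeticRingAut_algebraMap]
    · intro D _ hD
      show atkinLehnerBar q M h (arithmeticRingAut (modularFunctionFieldFull (q * M)) σ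
          (jBarD (q * M) D hD))
        = arithmeticRingAut (modularFunctionFieldFull (q * M)) σ
          (atkinLehnerBar q M h (jBarD (q * M) D hD))
      obtain ⟨e, f, d, m, rfl, hq, hM⟩ := exists_factor h hD
      have : NeZero (f * d) := (neZero_mul_of_eq hq hM).2
      rw [arithmeticRingAut_jBarD, atkinLehnerBar_jBarD q M h hq hM hD (dvd_of_eq hq hM).2,
        arithmeticRingAut_jBarD]
  exact congrArg (fun f : FN (q * M) →+* FN (q * M) => f z) hh

/-- `W_q` intertwines the arithmetic Galois action with itself (Prelude formulation). -/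
theorem atkinLehnerBar_intertwines (σ : Kbar ≃ₐ[ℚ] Kbar) :
    SemilinearAut.IntertwinesAlong
      ((atkinLehnerBar q M h : FN (q * M) ≃+* FN (q * M)) : FN (q * M) →+* FN (q * M))
      (arithmeticGalois (modularFunctionFieldFull (q * M)) σ)
      (arithmeticGalois (modularFunctionFieldFull (q * M)) σ) := fun z =>
  (atkinLehnerBar_arithmeticRingAut q M h σ z).symm

end Alg

/-! ## For `M = 1` it is the Fricke involution -/

/-- For `M = 1`, `W_q` agrees on the generators with the Fricke involution `W_N` of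
`helper6887` (`N = q * 1`). -/
theorem atkinLehnerBar_one_right (q : ℕ) [NeZero q] (z : FN (q * 1)) :
    atkinLehnerBar q 1 (Nat.coprime_one_right q) z = Fermat.Agent.S37.helper6887.frickeBar (q * 1) z := by
  have hh : ((atkinLehnerBar q 1 (Nat.coprime_one_right q) : FN (q * 1) ≃+* FN (q * 1)) :
        FN (q * 1) →+* FN (q * 1))
      = ((Fermat.Agent.S37.helper6887.frickeBar (q * 1) : FN (q * 1) ≃+* FN (q * 1)) :
        FN (q * 1) →+* FN (q * 1)) := by
    refine helper3176.ringHom_ext_of_gen (q * 1) ?_ ?_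
    · intro c
      show atkinLehnerBar q 1 (Nat.coprime_one_right q) (algebraMap Kbar (FN (q * 1)) c)
        = Fermat.Agent.S37.helper6887.frickeBar (q * 1) (algebraMap Kbar (FN (q * 1)) c)
      rw [AlgEquiv.commutes, AlgEquiv.commutes]
    · intro D _ hD
      show atkinLehnerBar q 1 (Nat.coprime_one_right q) (jBarD (q * 1) D hD)
        = Fermat.Agent.S37.helper6887.frickeBar (q * 1) (jBarD (q * 1) D hD)
      obtain ⟨e, f, d, m, rfl, hq, hM⟩ := exists_factor (Nat.coprime_one_right q) hD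
      have hd1 : d = 1 := Nat.eq_one_of_mul_eq_one_right hM.symm
      subst hd1
      have : NeZero (f * 1) := (neZero_mul_of_eq hq hM).2
      have hef : e * 1 * (f * 1) = q * 1 := by rw [hq]; ring
      rw [atkinLehnerBar_jBarD q 1 (Nat.coprime_one_right q) hq hM hD (dvd_of_eq hq hM).2,
        Fermat.Agent.S37.helper6887.frickeBar_jBarD (q * 1) (e * 1) (f * 1) hef]
  exact congrArg (fun f : FN (q * 1) →+* FN (q * 1) => f z) hh

/-! ## The level `M * q` form and the degeneracy maps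

The Prelude degeneracy maps `heckeAlphaBar Kbar M q`, `heckeBetaBar Kbar M q` go from level `M` to
level `M * q` (in this order), so we transport `W_q` to `FN (M * q)`. -/

/-- Transport of the function field along an equality of levels. -/
def castFN {N N' : ℕ} (hN : N = N') : FN N ≃ₐ[Kbar] FN N' := by
  subst hN
  exact AlgEquiv.refl

theorem coe_castFN {N N' : ℕ} (hN : N = N') (z : FN N) :
    ((castFN hN z : FN N') : LaurentSeries Kbar) = (z : LaurentSeries Kbar) := by
  subst hN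
  rfl

theorem castFN_symm {N N' : ℕ} (hN : N = N') : (castFN hN).symm = castFN hN.symm := by
  subst hN
  rfl

theorem castFN_castFN {N N' : ℕ} (hN : N = N') (hN' : N' = N) (z : FN N) :
    castFN hN' (castFN hN z) = z :=
  Subtype.ext (by rw [coe_castFN, coe_castFN])

theorem castFN_jBarD {N N' : ℕ} (hN : N = N') (d : ℕ) [NeZero d] (hd : d ∣ N) (hd' : d ∣ N') :
    castFN hN (jBarD N d hd) = jBarD N' d hd' :=
  Subtype.ext (coe_castFN hN _)

theorem castFN_arithmeticRingAut {N N' : ℕ} (hN : N = N') (σ : Kbar ≃ₐ[ℚ] Kbar) (z : FN N) :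
    castFN hN (arithmeticRingAut (modularFunctionFieldFull N) σ z)
      = arithmeticRingAut (modularFunctionFieldFull N') σ (castFN hN z) := by
  subst hN
  rfl

theorem jBarD_congr (N : ℕ) {d d' : ℕ} [NeZero d] [NeZero d'] (hdd : d = d') (hd : d ∣ N)
    (hd' : d' ∣ N) : jBarD N d hd = jBarD N d' hd' := by
  subst hdd
  rfl

section Right

variable (M q : ℕ) [NeZero M] [NeZero q] (h : Nat.Coprime q M)

/-- **The Atkin–Lehner involution `W_q` at level `M * q`** (the level of the Prelude degeneracy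
maps `heckeAlphaBar Kbar M q`, `heckeBetaBar Kbar M q`). -/
def atkinLehnerBarR : FN (M * q) ≃ₐ[Kbar] FN (M * q) :=
  ((castFN (mul_comm M q)).trans (atkinLehnerBar q M h)).trans (castFN (mul_comm q M))

theorem atkinLehnerBarR_apply (z : FN (M * q)) :
    atkinLehnerBarR M q h z
      = castFN (mul_comm q M) (atkinLehnerBar q M h (castFN (mul_comm M q) z)) := rfl

theorem atkinLehnerBarR_atkinLehnerBarR (z : FN (M * q)) :
    atkinLehnerBarR M q h (atkinLehnerBarR M q h z) = z := by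
  rw [atkinLehnerBarR_apply, atkinLehnerBarR_apply, castFN_castFN,
    atkinLehnerBar_atkinLehnerBar, castFN_castFN]

theorem atkinLehnerBarR_symm : (atkinLehnerBarR M q h).symm = atkinLehnerBarR M q h :=
  AlgEquiv.ext fun z => by
    rw [AlgEquiv.symm_apply_eq, atkinLehnerBarR_atkinLehnerBarR]

/-- `W_q (j(q^(e d))) = j(q^(f d))` for `e f = q`, `d ∣ M`, at level `M * q`. -/
theorem atkinLehnerBarR_jBarD {e f d m : ℕ} (hq : q = e * f) (hM : M = d * m)
    [NeZero (e * d)] [NeZero (f * d)] (h1 : e * d ∣ M * q) (h2 : f * d ∣ M * q) :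
    atkinLehnerBarR M q h (jBarD (M * q) (e * d) h1) = jBarD (M * q) (f * d) h2 := by
  rw [atkinLehnerBarR_apply, castFN_jBarD (mul_comm M q) (e * d) h1 (dvd_of_eq hq hM).1,
    atkinLehnerBar_jBarD q M h hq hM _ (dvd_of_eq hq hM).2, castFN_jBarD]

/-- `W_q (j(q^d)) = j(q^(d q))` for `d ∣ M`, at level `M * q`. -/
theorem atkinLehnerBarR_jBarD_cofactor {d : ℕ} [NeZero d] [NeZero (d * q)] (hd : d ∣ M) :
    atkinLehnerBarR M q h (jBarD (M * q) d (hd.mul_right q))
      = jBarD (M * q) (d * q) (Nat.mul_dvd_mul_right hd q) := by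
  obtain ⟨m, hm⟩ := id hd
  have hq1 : q = 1 * q := (one_mul q).symm
  have : NeZero (1 * d) := ⟨by rw [one_mul]; exact NeZero.ne d⟩
  have : NeZero (q * d) := ⟨by rw [mul_comm]; exact NeZero.ne (d * q)⟩
  rw [jBarD_congr (M * q) (one_mul d).symm (hd.mul_right q)
      ((one_mul d).symm ▸ hd.mul_right q),
    atkinLehnerBarR_jBarD M q h hq1 hm _ ((mul_comm d q) ▸ Nat.mul_dvd_mul_right hd q)]
  exact jBarD_congr (M * q) (mul_comm q d) _ _

/-- `W_q (j(q^(d q))) = j(q^d)` for `d ∣ M`, at level `M * q`. -/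
theorem atkinLehnerBarR_jBarD_mul_cofactor {d : ℕ} [NeZero d] [NeZero (d * q)] (hd : d ∣ M) :
    atkinLehnerBarR M q h (jBarD (M * q) (d * q) (Nat.mul_dvd_mul_right hd q))
      = jBarD (M * q) d (hd.mul_right q) := by
  rw [← atkinLehnerBarR_jBarD_cofactor M q h hd, atkinLehnerBarR_atkinLehnerBarR]

/-- **`W_q ∘ α^* = β^*`**: on functions of level `M`, `W_q` exchanges the two degeneracy maps
`f(z) ↦ f(z)` and `f(z) ↦ f(q z)` to level `M * q`. -/
theorem atkinLehnerBarR_heckeAlphaBar (z : FN M) :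
    atkinLehnerBarR M q h (heckeAlphaBar Kbar M q z) = heckeBetaBar Kbar M q z := by
  have key : (((atkinLehnerBarR M q h : FN (M * q) ≃ₐ[Kbar] FN (M * q)) :
        FN (M * q) →ₐ[Kbar] FN (M * q)).comp (heckeAlphaBar Kbar M q) : FN M →+* FN (M * q))
      = (heckeBetaBar Kbar M q : FN M →+* FN (M * q)) := by
    apply helper3176.ringHom_ext_of_gen M
    · intro c
      show atkinLehnerBarR M q h (heckeAlphaBar Kbar M q (algebraMap Kbar (FN M) c))
        = heckeBetaBar Kbar M q (algebraMap Kbar (FN M) c)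
      rw [AlgHom.commutes, AlgEquiv.commutes, AlgHom.commutes]
    · intro d _ hd
      show atkinLehnerBarR M q h (heckeAlphaBar Kbar M q (jBarD M d hd))
        = heckeBetaBar Kbar M q (jBarD M d hd)
      have : NeZero (d * q) := ⟨Nat.mul_ne_zero (NeZero.ne d) (NeZero.ne q)⟩
      rw [Fermat.Agent.S37.helper6887.heckeAlphaBar_jBarD,
        Fermat.Agent.S37.helper6887.heckeBetaBar_jBarD, atkinLehnerBarR_jBarD_cofactor M q h hd]
  exact congrArg (fun f : FN M →+* FN (M * q) => f z) key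

/-- **`W_q ∘ β^* = α^*`**. -/
theorem atkinLehnerBarR_heckeBetaBar (z : FN M) :
    atkinLehnerBarR M q h (heckeBetaBar Kbar M q z) = heckeAlphaBar Kbar M q z := by
  rw [← atkinLehnerBarR_heckeAlphaBar M q h z, atkinLehnerBarR_atkinLehnerBarR]

/-- `W_q` at level `M * q` is defined over `ℚ`. -/
theorem atkinLehnerBarR_arithmeticRingAut (σ : Kbar ≃ₐ[ℚ] Kbar) (z : FN (M * q)) :
    atkinLehnerBarR M q h (arithmeticRingAut (modularFunctionFieldFull (M * q)) σ z)
      = arithmeticRingAut (modularFunctionFieldFull (M * q)) σ (atkinLehnerBarR M q h z) := by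
  rw [atkinLehnerBarR_apply, atkinLehnerBarR_apply, castFN_arithmeticRingAut,
    atkinLehnerBar_arithmeticRingAut, castFN_arithmeticRingAut]

/-- `W_q` at level `M * q` intertwines the arithmetic Galois action with itself. -/
theorem atkinLehnerBarR_intertwines (σ : Kbar ≃ₐ[ℚ] Kbar) :
    SemilinearAut.IntertwinesAlong
      ((atkinLehnerBarR M q h : FN (M * q) ≃+* FN (M * q)) : FN (M * q) →+* FN (M * q))
      (arithmeticGalois (modularFunctionFieldFull (M * q)) σ)
      (arithmeticGalois (modularFunctionFieldFull (M * q)) σ) := fun z =>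
  (atkinLehnerBarR_arithmeticRingAut M q h σ z).symm

/-- `W_q` at level `M * q` commutes with the arithmetic Galois action (`•` form). -/
theorem atkinLehnerBarR_arithmeticGalois_smul (σ : Kbar ≃ₐ[ℚ] Kbar) (z : FN (M * q)) :
    atkinLehnerBarR M q h (arithmeticGalois (modularFunctionFieldFull (M * q)) σ • z)
      = arithmeticGalois (modularFunctionFieldFull (M * q)) σ • atkinLehnerBarR M q h z :=
  atkinLehnerBarR_arithmeticRingAut M q h σ z

end Right

/-! ## The Atkin–Lehner matrix in `GL(2, ℝ)` and a model-independent analytic form -/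

theorem hpt_eq_heckeDiagMatrix_smul (q : ℕ) [NeZero q] (τ : ℍ) :
    hpt q 0 1 τ = ModularForm.heckeDiagMatrix q • τ := by
  apply UpperHalfPlane.ext
  rw [ModularForm.coe_heckeDiagMatrix_smul (NeZero.ne q), coe_hpt]
  simp

/-- For any `SL(2, ℤ)`-invariant function `J`, `γ ∈ SL(2, ℤ)` with bottom row `(M, q)`,
`q = e f`, `M = d m`: `J(e d · γ(q τ)) = J(f d · τ)`. -/
theorem invariant_smul_hpt {q M : ℕ} [NeZero q] (γ : SL(2, ℤ)) (h10 : γ 1 0 = (M : ℤ))
    (h11 : γ 1 1 = (q : ℤ)) {e f d m : ℕ} (hq : q = e * f) (hM : M = d * m)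
    {J : ℍ → ℂ} (hJ : ∀ (γ : SL(2, ℤ)) (τ : ℍ), J (γ • τ) = J τ) (τ z z' : ℍ)
    (hz : (z : ℂ) = ((e * d : ℕ) : ℂ) * ((γ • hpt q 0 1 τ : ℍ) : ℂ))
    (hz' : (z' : ℂ) = ((f * d : ℕ) : ℂ) * (τ : ℂ)) : J z = J z' := by
  have hq0 : q ≠ 0 := NeZero.ne q
  have he0 : e ≠ 0 := by
    rintro rfl
    exact hq0 (by rw [hq, zero_mul])
  have he : 0 < e := Nat.pos_of_ne_zero he0
  have hdet := γ.det_coe
  rw [Matrix.det_fin_two] at hdet
  rw [h10, h11] at hdet
  have hdet' : Matrix.det !![(e : ℤ) * γ 0 0, (d : ℤ) * γ 0 1; (m : ℤ), (f : ℤ)] = 1 := by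
    rw [Matrix.det_fin_two_of]
    have h1 : ((q : ℕ) : ℤ) = (e : ℤ) * f := by exact_mod_cast hq
    have h2 : ((M : ℕ) : ℤ) = (d : ℤ) * m := by exact_mod_cast hM
    rw [h1, h2] at hdet
    linear_combination hdet
  let γ' : SL(2, ℤ) := ⟨!![(e : ℤ) * γ 0 0, (d : ℤ) * γ 0 1; (m : ℤ), (f : ℤ)], hdet'⟩
  have hMat : (!![((e * d : ℕ) : ℤ), 0; 0, 1] * (γ : Matrix (Fin 2) (Fin 2) ℤ))
      = (γ' : Matrix (Fin 2) (Fin 2) ℤ) * !![((d : ℕ) : ℤ), ((0 : ℕ) : ℤ); 0, ((e : ℕ) : ℤ)] := by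
    have h1 : ((q : ℕ) : ℤ) = (e : ℤ) * f := by exact_mod_cast hq
    have h2 : ((M : ℕ) : ℤ) = (d : ℤ) * m := by exact_mod_cast hM
    ext i j
    fin_cases i <;> fin_cases j
    · simp [γ', Matrix.mul_apply, Fin.sum_univ_two]
      ring
    · simp [γ', Matrix.mul_apply, Fin.sum_univ_two]
      ring
    · simp [γ', Matrix.mul_apply, Fin.sum_univ_two]
      rw [h10, h2]
      ring
    · simp [γ', Matrix.mul_apply, Fin.sum_univ_two]
      rw [h11, h1]
      ring
  refine hermite_invariant he hMat hJ (hpt q 0 1 τ) z z' hz ?_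
  rw [hz', coe_hpt]
  have hec : (e : ℂ) ≠ 0 := Nat.cast_ne_zero.mpr he0
  have hqc : (q : ℂ) = (e : ℂ) * f := by exact_mod_cast hq
  rw [hqc]
  push_cast
  field_simp
  ring

section AnalyticGL

variable (q M : ℕ) [NeZero q] [NeZero M] (h : Nat.Coprime q M)

/-- The Atkin–Lehner matrix `γ · diag(q, 1) = [[q x, y], [q M, q]]` in `GL(2, ℝ)`
(determinant `q`), `γ = alGamma q M h`. -/
def alGL : GL (Fin 2) ℝ :=
  Matrix.SpecialLinearGroup.mapGL ℝ (alGamma q M h) * ModularForm.heckeDiagMatrix q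

omit [NeZero q] [NeZero M] in
theorem alGL_det_pos : 0 < (alGL q M h).det.val := by
  rw [alGL, map_mul]
  have h1 : ((Matrix.SpecialLinearGroup.mapGL ℝ (alGamma q M h) : GL (Fin 2) ℝ).det : ℝ) = 1 := by
    simp
  rw [Units.val_mul, h1, one_mul]
  exact ModularForm.det_heckeDiagMatrix_pos q

omit [NeZero M] in
theorem alGL_smul (τ : ℍ) : alGL q M h • τ = alGamma q M h • hpt q 0 1 τ := by
  rw [alGL, mul_smul, hpt_eq_heckeDiagMatrix_smul]
  rfl

/-- Analytic form of `W_q` on the S24 model `evFun`, with the `GL(2, ℝ)`-action. -/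
theorem evFun_alA_apply_alGL (a : helper3176.AN (q * M)) (τ : ℍ) :
    evFun (q * M) (alA q M h a) τ = evFun (q * M) a (alGL q M h • τ) := by
  rw [evFun_alA_apply, alGL_smul]

/-- **Model-independent analytic form of `W_q`.** Let `E : A_N → (ℍ → ℂ)` be any ring hom which
sends `j(q^D)` to `τ ↦ J(D τ)` for an `SL(2, ℤ)`-invariant function `J`, and constants to constant
functions.  Then `E (W_q a) = E a ∘ w`, `w = alGL q M h`. -/
theorem ev_alA_of_gen {J : ℍ → ℂ} (hJ : ∀ (γ : SL(2, ℤ)) (τ : ℍ), J (γ • τ) = J τ)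
    (E : helper3176.AN (q * M) →+* (ℍ → ℂ))
    (hgen : ∀ (D : ℕ) [NeZero D] (hD : D ∣ q * M) (τ z : ℍ), (z : ℂ) = (D : ℂ) * (τ : ℂ) →
      E ⟨jBarD (q * M) D hD, helper3176.jBarD_mem_AN _ _ _⟩ τ = J z)
    (hconst : ∀ (c : Kbar) (τ τ' : ℍ), E (algebraMap Kbar (helper3176.AN (q * M)) c) τ
      = E (algebraMap Kbar (helper3176.AN (q * M)) c) τ')
    (a : helper3176.AN (q * M)) (τ : ℍ) :
    E (alA q M h a) τ = E a (alGL q M h • τ) := by
  induction a using AN_induction generalizing τ with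
  | gen D hD =>
      obtain ⟨e, f, d, m, rfl, hq, hM⟩ := exists_factor h hD
      have : NeZero (f * d) := (neZero_mul_of_eq hq hM).2
      rw [alA_jBarD q M h hq hM hD (dvd_of_eq hq hM).2,
        hgen (f * d) (dvd_of_eq hq hM).2 τ (hpt (f * d) 0 1 τ) (by rw [coe_hpt]; simp),
        hgen (e * d) hD (alGL q M h • τ) (hpt (e * d) 0 1 (alGL q M h • τ))
          (by rw [coe_hpt]; simp)]
      refine (invariant_smul_hpt (alGamma q M h) (alGamma_one_zero q M h)
        (alGamma_one_one q M h) hq hM hJ τ _ _ ?_ ?_).symm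
      · rw [coe_hpt, alGL_smul]
        simp
      · rw [coe_hpt]
        simp
  | const c =>
      rw [AlgHom.commutes]
      exact hconst c _ _
  | add x y hx hy => rw [map_add, map_add, map_add, Pi.add_apply, Pi.add_apply, hx, hy]
  | mul x y hx hy => rw [map_mul, map_mul, map_mul, Pi.mul_apply, Pi.mul_apply, hx, hy]

end AnalyticGL

/-- `W_q` at level `q * M` commutes with the arithmetic Galois action (`•` form). -/
theorem atkinLehnerBar_arithmeticGalois_smul (q M : ℕ) [NeZero q] [NeZero M]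
    (h : Nat.Coprime q M) (σ : Kbar ≃ₐ[ℚ] Kbar) (z : FN (q * M)) :
    atkinLehnerBar q M h (arithmeticGalois (modularFunctionFieldFull (q * M)) σ • z)
      = arithmeticGalois (modularFunctionFieldFull (q * M)) σ • atkinLehnerBar q M h z :=
  atkinLehnerBar_arithmeticRingAut q M h σ z

/-! ## The level-general form: `W_q` on `FN M` for a prime `q ∥ M` -/

theorem coprime_div_of_not_sq_dvd {M q : ℕ} (hq : q.Prime) (hqM : q ∣ M) (hq2 : ¬ q ^ 2 ∣ M) :
    Nat.Coprime q (M / q) := by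
  rw [Nat.Prime.coprime_iff_not_dvd hq]
  intro h
  exact hq2 (by rw [pow_two]; exact Nat.mul_dvd_of_dvd_div hqM h)

theorem neZero_div_of_dvd {M q : ℕ} [NeZero M] (hqM : q ∣ M) : NeZero (M / q) := by
  refine ⟨fun h => NeZero.ne M ?_⟩
  rw [← Nat.mul_div_cancel' hqM, h, mul_zero]

/-- Two `ℚ̄`-algebra endomorphisms of the function field which agree on the generators
`j(q^d)`, `d ∣ N`, are equal. -/
theorem algHom_eq_of_jBarD {N : ℕ} (Φ Ψ : FN N →ₐ[Kbar] FN N)
    (hgen : ∀ (d : ℕ) [NeZero d] (hd : d ∣ N), Φ (jBarD N d hd) = Ψ (jBarD N d hd)) (z : FN N) :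
    Φ z = Ψ z := by
  have hh : (Φ : FN N →+* FN N) = (Ψ : FN N →+* FN N) := by
    refine helper3176.ringHom_ext_of_gen N ?_ ?_
    · intro c
      show Φ (algebraMap Kbar (FN N) c) = Ψ (algebraMap Kbar (FN N) c)
      rw [AlgHom.commutes, AlgHom.commutes]
    · intro d _ hd
      exact hgen d hd
  exact congrArg (fun f : FN N →+* FN N => f z) hh

section LevelGeneral

variable (M q : ℕ) [NeZero M] [NeZero q] (hq : q.Prime) (hqM : q ∣ M) (hq2 : ¬ q ^ 2 ∣ M)

/-- **The Atkin–Lehner involution `W_q` of `FN M`, for a prime `q ∥ M`** (level-general form: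
no product decomposition of the level). -/
def atkinLehnerAt : FN M ≃ₐ[Kbar] FN M :=
  ((castFN (Nat.mul_div_cancel' hqM).symm).trans
    (@atkinLehnerBar q (M / q) _ (neZero_div_of_dvd hqM)
      (coprime_div_of_not_sq_dvd hq hqM hq2))).trans
    (castFN (Nat.mul_div_cancel' hqM))

theorem atkinLehnerAt_apply (z : FN M) :
    atkinLehnerAt M q hq hqM hq2 z
      = castFN (Nat.mul_div_cancel' hqM)
          (@atkinLehnerBar q (M / q) _ (neZero_div_of_dvd hqM)
            (coprime_div_of_not_sq_dvd hq hqM hq2)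
            (castFN (Nat.mul_div_cancel' hqM).symm z)) := rfl

theorem atkinLehnerAt_atkinLehnerAt (z : FN M) :
    atkinLehnerAt M q hq hqM hq2 (atkinLehnerAt M q hq hqM hq2 z) = z := by
  rw [atkinLehnerAt_apply, atkinLehnerAt_apply, castFN_castFN]
  have := @atkinLehnerBar_atkinLehnerBar q (M / q) _ (neZero_div_of_dvd hqM)
    (coprime_div_of_not_sq_dvd hq hqM hq2)
  rw [this, castFN_castFN]

theorem atkinLehnerAt_symm :
    (atkinLehnerAt M q hq hqM hq2).symm = atkinLehnerAt M q hq hqM hq2 :=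
  AlgEquiv.ext fun z => by
    rw [AlgEquiv.symm_apply_eq, atkinLehnerAt_atkinLehnerAt]

/-- `W_q (j(q^(q d))) = j(q^d)` for `q d ∣ M`. -/
theorem atkinLehnerAt_jBarD_mul (d : ℕ) [NeZero d] [NeZero (q * d)] (hqd : q * d ∣ M)
    (hd : d ∣ M) :
    atkinLehnerAt M q hq hqM hq2 (jBarD M (q * d) hqd) = jBarD M d hd := by
  have hd' : d ∣ M / q := Nat.dvd_div_of_mul_dvd hqd
  have := @atkinLehnerBar_jBarD_mul_cofactor q (M / q) _ (neZero_div_of_dvd hqM)
    (coprime_div_of_not_sq_dvd hq hqM hq2) d _ _ hd'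
  rw [atkinLehnerAt_apply, castFN_jBarD (Nat.mul_div_cancel' hqM).symm (q * d) hqd
      (Nat.mul_dvd_mul_left q hd'), this, castFN_jBarD]

/-- `W_q (j(q^d)) = j(q^(q d))` for `d ∣ M`, `q ∤ d`. -/
theorem atkinLehnerAt_jBarD_of_not_dvd (d : ℕ) [NeZero d] [NeZero (q * d)] (hd : d ∣ M)
    (_hqd : ¬ q ∣ d) (hqdM : q * d ∣ M) :
    atkinLehnerAt M q hq hqM hq2 (jBarD M d hd) = jBarD M (q * d) hqdM := by
  rw [← atkinLehnerAt_jBarD_mul M q hq hqM hq2 d hqdM hd, atkinLehnerAt_atkinLehnerAt]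

/-- For `d ∣ M` with `q ∤ d` one has `q d ∣ M`. -/
theorem mul_dvd_of_not_dvd {M q d : ℕ} (hq : q.Prime) (hqM : q ∣ M) (hd : d ∣ M)
    (hqd : ¬ q ∣ d) : q * d ∣ M :=
  Nat.Coprime.mul_dvd_of_dvd_of_dvd ((Nat.Prime.coprime_iff_not_dvd hq).mpr hqd) hqM hd

/-- `W_q (j) = j(q^q)`. -/
theorem atkinLehnerAt_jBar :
    atkinLehnerAt M q hq hqM hq2 (jBar M) = jBarD M q hqM := by
  have h1 : ¬ q ∣ 1 := fun h => hq.one_lt.ne' (Nat.dvd_one.mp h)
  have h2 : q * 1 ∣ M := by rw [mul_one]; exact hqM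
  have h3 := atkinLehnerAt_jBarD_of_not_dvd M q hq hqM hq2 1 (one_dvd M) h1 h2
  rw [jBarD_congr M (mul_one q) h2 hqM] at h3
  exact h3

/-- `W_q (j(q^q)) = j`. -/
theorem atkinLehnerAt_jBarD_self :
    atkinLehnerAt M q hq hqM hq2 (jBarD M q hqM) = jBar M := by
  rw [← atkinLehnerAt_jBar M q hq hqM hq2, atkinLehnerAt_atkinLehnerAt]

/-- Uniqueness: a `ℚ̄`-algebra endomorphism with the generator formulas of `W_q` is `W_q`. -/
theorem eq_atkinLehnerAt_of_jBarD (Φ : FN M →ₐ[Kbar] FN M)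
    (h1 : ∀ (d : ℕ) [NeZero d] [NeZero (q * d)] (hd : d ∣ M) (_ : ¬ q ∣ d) (hqdM : q * d ∣ M),
      Φ (jBarD M d hd) = jBarD M (q * d) hqdM)
    (h2 : ∀ (d : ℕ) [NeZero d] [NeZero (q * d)] (hqd : q * d ∣ M) (hd : d ∣ M),
      Φ (jBarD M (q * d) hqd) = jBarD M d hd) (z : FN M) :
    Φ z = atkinLehnerAt M q hq hqM hq2 z := by
  refine algHom_eq_of_jBarD Φ ((atkinLehnerAt M q hq hqM hq2 : FN M ≃ₐ[Kbar] FN M) :
    FN M →ₐ[Kbar] FN M) ?_ z
  intro D _ hD
  show Φ (jBarD M D hD) = atkinLehnerAt M q hq hqM hq2 (jBarD M D hD)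
  by_cases hqD : q ∣ D
  · obtain ⟨d, rfl⟩ := hqD
    have hd0 : d ≠ 0 := fun h => NeZero.ne (q * d) (by rw [h, mul_zero])
    have : NeZero d := ⟨hd0⟩
    have hd : d ∣ M := (Dvd.intro_left q rfl).trans hD
    rw [h2 d hD hd, atkinLehnerAt_jBarD_mul M q hq hqM hq2 d hD hd]
  · have hqDM : q * D ∣ M := mul_dvd_of_not_dvd hq hqM hD hqD
    have : NeZero (q * D) := ⟨Nat.mul_ne_zero (NeZero.ne q) (NeZero.ne D)⟩
    rw [h1 D hD hqD hqDM, atkinLehnerAt_jBarD_of_not_dvd M q hq hqM hq2 D hD hqD hqDM]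

/-- `W_q` (level-general) is defined over `ℚ`. -/
theorem atkinLehnerAt_arithmeticRingAut (σ : Kbar ≃ₐ[ℚ] Kbar) (z : FN M) :
    atkinLehnerAt M q hq hqM hq2 (arithmeticRingAut (modularFunctionFieldFull M) σ z)
      = arithmeticRingAut (modularFunctionFieldFull M) σ (atkinLehnerAt M q hq hqM hq2 z) := by
  have := @atkinLehnerBar_arithmeticRingAut q (M / q) _ (neZero_div_of_dvd hqM)
    (coprime_div_of_not_sq_dvd hq hqM hq2) σ
  rw [atkinLehnerAt_apply, atkinLehnerAt_apply, castFN_arithmeticRingAut, this,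
    castFN_arithmeticRingAut]

/-- `W_q` (level-general) commutes with the arithmetic Galois action (`•` form). -/
theorem atkinLehnerAt_arithmeticGalois_smul (σ : Kbar ≃ₐ[ℚ] Kbar) (z : FN M) :
    atkinLehnerAt M q hq hqM hq2 (arithmeticGalois (modularFunctionFieldFull M) σ • z)
      = arithmeticGalois (modularFunctionFieldFull M) σ • atkinLehnerAt M q hq hqM hq2 z :=
  atkinLehnerAt_arithmeticRingAut M q hq hqM hq2 σ z

/-- `W_q` (level-general) intertwines the arithmetic Galois action with itself. -/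
theorem atkinLehnerAt_intertwines (σ : Kbar ≃ₐ[ℚ] Kbar) :
    SemilinearAut.IntertwinesAlong
      ((atkinLehnerAt M q hq hqM hq2 : FN M ≃+* FN M) : FN M →+* FN M)
      (arithmeticGalois (modularFunctionFieldFull M) σ)
      (arithmeticGalois (modularFunctionFieldFull M) σ) := fun z =>
  (atkinLehnerAt_arithmeticRingAut M q hq hqM hq2 σ z).symm

end LevelGeneral

/-! ### Bridges between the three forms -/

theorem not_sq_dvd_mul_of_not_dvd {N q : ℕ} (hq : q.Prime) (hqN : ¬ q ∣ N) :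
    ¬ q ^ 2 ∣ N * q := by
  intro h
  rw [pow_two] at h
  exact hqN (Nat.dvd_of_mul_dvd_mul_right hq.pos h)

/-- At level `N * q` the level-general `W_q` is `atkinLehnerBarR`. -/
theorem atkinLehnerAt_eq_atkinLehnerBarR (N q : ℕ) [NeZero N] [NeZero q] (hq : q.Prime)
    (hqN : ¬ q ∣ N) (z : FN (N * q)) :
    atkinLehnerAt (N * q) q hq (dvd_mul_left q N) (not_sq_dvd_mul_of_not_dvd hq hqN) z
      = atkinLehnerBarR N q ((Nat.Prime.coprime_iff_not_dvd hq).mpr hqN) z := by
  have hcop : Nat.Coprime q N := (Nat.Prime.coprime_iff_not_dvd hq).mpr hqN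
  refine (eq_atkinLehnerAt_of_jBarD (N * q) q hq (dvd_mul_left q N)
    (not_sq_dvd_mul_of_not_dvd hq hqN)
    ((atkinLehnerBarR N q hcop : FN (N * q) ≃ₐ[Kbar] FN (N * q)) :
      FN (N * q) →ₐ[Kbar] FN (N * q)) ?_ ?_ z).symm
  · intro d _ _ hd hqd hqdM
    show atkinLehnerBarR N q hcop (jBarD (N * q) d hd) = jBarD (N * q) (q * d) hqdM
    have hdN : d ∣ N :=
      Nat.Coprime.dvd_of_dvd_mul_right ((Nat.Prime.coprime_iff_not_dvd hq).mpr hqd).symm hd
    have : NeZero (d * q) := ⟨Nat.mul_ne_zero (NeZero.ne d) (NeZero.ne q)⟩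
    rw [atkinLehnerBarR_jBarD_cofactor N q hcop hdN]
    exact jBarD_congr (N * q) (mul_comm d q) _ _
  · intro d _ _ hqd hd
    show atkinLehnerBarR N q hcop (jBarD (N * q) (q * d) hqd) = jBarD (N * q) d hd
    have hdN : d ∣ N := by
      have h1 : d * q ∣ N * q := by rw [mul_comm d q]; exact hqd
      exact Nat.dvd_of_mul_dvd_mul_right hq.pos h1
    have : NeZero (d * q) := ⟨Nat.mul_ne_zero (NeZero.ne d) (NeZero.ne q)⟩
    rw [jBarD_congr (N * q) (mul_comm q d) hqd (Nat.mul_dvd_mul_right hdN q),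
      atkinLehnerBarR_jBarD_mul_cofactor N q hcop hdN]

/-- **`W_q ∘ α^* = β^*`** in the level-general form, at the Prelude level `N * q`. -/
theorem atkinLehnerAt_heckeAlphaBar (N q : ℕ) [NeZero N] [NeZero q] (hq : q.Prime)
    (hqN : ¬ q ∣ N) (y : FN N) :
    atkinLehnerAt (N * q) q hq (dvd_mul_left q N) (not_sq_dvd_mul_of_not_dvd hq hqN)
        (heckeAlphaBar Kbar N q y) = heckeBetaBar Kbar N q y := by
  rw [atkinLehnerAt_eq_atkinLehnerBarR N q hq hqN, atkinLehnerBarR_heckeAlphaBar]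

/-- **`W_q ∘ β^* = α^*`** in the level-general form, at the Prelude level `N * q`. -/
theorem atkinLehnerAt_heckeBetaBar (N q : ℕ) [NeZero N] [NeZero q] (hq : q.Prime)
    (hqN : ¬ q ∣ N) (y : FN N) :
    atkinLehnerAt (N * q) q hq (dvd_mul_left q N) (not_sq_dvd_mul_of_not_dvd hq hqN)
        (heckeBetaBar Kbar N q y) = heckeAlphaBar Kbar N q y := by
  rw [atkinLehnerAt_eq_atkinLehnerBarR N q hq hqN, atkinLehnerBarR_heckeBetaBar]

end Fermat.Agent.S35.helper1219
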