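import Fermat.Agent.S35.helper1219_AtkinLehnerFF
import Fermat.Agent.S29.helper8217_KummerClass

/-!
# The Atkin–Lehner involution `W_q` on `J₀(M) = Pic⁰` (helper1219)

`JZero M = Pic0 ℚ̄ (modularFunctionFieldBar M)` (Prelude).  For a prime `q ∥ M`:

* `wPic M q hq hqM hq2 : JZero M →+ JZero M`, the action of `W_q = atkinLehnerAt M q hq hqM hq2`
  on divisor classes (`= SemilinearAut.ofAlgAut W_q • ·`);
* `wPic_wPic` : it is an involution;
* `smul_wPic` : it commutes with the Prelude action of `Gal(ℚ̄/ℚ)` on `JZero M`;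
* `wPic_kummerClass` : on Kummer classes it is `u ↦ W_q u`
  (`helper8217.kummerClass`, the S29 dictionary);
* `wPicAll M : ℕ → JZero M →+ JZero M` : the total form (`wPic` at primes `q ∥ M`, the identity
  otherwise), with `wPicAll_eq`, `wPicAll_wPicAll`, `smul_wPicAll`, `wPicAll_kummerClass`.

The general statements (`picOfAlgEquiv`) hold for any `ℚ̄`-algebra automorphism of the function
field commuting with the coefficientwise Galois action.
-/

set_option autoImplicit false

open ModularCurve AlgebraicCurve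

noncomputable section

namespace Fermat.Agent.S35.helper1219

open Fermat.Agent.S24.helper24 Fermat.Agent.S29.helper8217

/-! ## The two Prelude actions of an algebra automorphism on `Pic⁰` agree -/

section Bridge

variable {K F : Type*} [Field K] [Field F] [Algebra K F]

open scoped Pointwise

theorem ofAlgAut_smul_place (W : F ≃ₐ[K] F) (v : Place K F) :
    SemilinearAut.ofAlgAut W • v = W • v := by
  ext1
  rw [SemilinearAut.smul_toValuationSubring, Place.smul_toValuationSubring]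
  ext x
  rw [ValuationSubring.mem_pointwise_smul_iff_inv_smul_mem,
    ValuationSubring.mem_pointwise_smul_iff_inv_smul_mem]
  rfl

theorem ofAlgAut_smul_divisor (W : F ≃ₐ[K] F) (D : Divisor K F) :
    SemilinearAut.ofAlgAut W • D = W • D := by
  ext w
  rw [SemilinearAut.divisor_smul_apply, Divisor.smul_apply, ← map_inv, ofAlgAut_smul_place]

/-- The `SemilinearAut` action of `ofAlgAut W` on `Pic0` is the `AlgEquiv` action of `W`. -/
theorem ofAlgAut_smul_pic0 (W : F ≃ₐ[K] F) (x : Pic0 K F) :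
    SemilinearAut.ofAlgAut W • x = W • x := by
  obtain ⟨D, rfl⟩ := Pic0.mk_surjective x
  rw [SemilinearAut.pic0_smul_mk, Pic0.smul_mk]
  refine congrArg Pic0.mk (Subtype.ext ?_)
  rw [SemilinearAut.coe_degZeroSMulHom, Pic0.coe_degZeroSMulHom, ofAlgAut_smul_divisor]

end Bridge

/-! ## The action of an automorphism of the function field on `Pic⁰` -/

section General

variable (M : ℕ)

/-- The action of a `ℚ̄`-algebra automorphism of the function field on `JZero M`. -/
def picOfAlgEquiv (W : FN M ≃ₐ[Kbar] FN M) : JZero M →+ JZero M :=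
  DistribSMul.toAddMonoidHom (JZero M) (SemilinearAut.ofAlgAut W)

theorem picOfAlgEquiv_apply (W : FN M ≃ₐ[Kbar] FN M) (x : JZero M) :
    picOfAlgEquiv M W x = SemilinearAut.ofAlgAut W • x := rfl

/-- In terms of the `AlgEquiv` action of the Prelude on `Pic0`. -/
theorem picOfAlgEquiv_apply' (W : FN M ≃ₐ[Kbar] FN M) (x : JZero M) :
    picOfAlgEquiv M W x = W • x :=
  ofAlgAut_smul_pic0 W x

theorem picOfAlgEquiv_mul (W W' : FN M ≃ₐ[Kbar] FN M) (x : JZero M) :
    picOfAlgEquiv M W (picOfAlgEquiv M W' x) = picOfAlgEquiv M (W * W') x := by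
  rw [picOfAlgEquiv_apply, picOfAlgEquiv_apply, picOfAlgEquiv_apply, map_mul, mul_smul]

theorem picOfAlgEquiv_one (x : JZero M) : picOfAlgEquiv M 1 x = x := by
  rw [picOfAlgEquiv_apply, map_one, one_smul]

/-- An involution of the function field induces an involution of `JZero M`. -/
theorem picOfAlgEquiv_involutive (W : FN M ≃ₐ[Kbar] FN M) (hW : ∀ z, W (W z) = z)
    (x : JZero M) : picOfAlgEquiv M W (picOfAlgEquiv M W x) = x := by
  have h1 : W * W = 1 := AlgEquiv.ext fun z => hW z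
  rw [picOfAlgEquiv_mul, h1, picOfAlgEquiv_one]

/-- An automorphism defined over `ℚ` commutes with the Galois action on `JZero M`. -/
theorem smul_picOfAlgEquiv (W : FN M ≃ₐ[Kbar] FN M)
    (hW : ∀ (σ : Kbar ≃ₐ[ℚ] Kbar) (z : FN M),
      W (arithmeticRingAut (modularFunctionFieldFull M) σ z)
        = arithmeticRingAut (modularFunctionFieldFull M) σ (W z))
    (σ : Kbar ≃ₐ[ℚ] Kbar) (x : JZero M) :
    σ • picOfAlgEquiv M W x = picOfAlgEquiv M W (σ • x) := by
  have hcomm : arithmeticGalois (modularFunctionFieldFull M) σ * SemilinearAut.ofAlgAut W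
      = SemilinearAut.ofAlgAut W * arithmeticGalois (modularFunctionFieldFull M) σ := by
    refine Subtype.ext (Prod.ext (RingEquiv.ext fun z => ?_) ?_)
    · exact (hW σ z).symm
    · show σ.toRingEquiv * 1 = 1 * σ.toRingEquiv
      rw [mul_one, one_mul]
  rw [picOfAlgEquiv_apply, picOfAlgEquiv_apply, galois_smul_pic0_def, galois_smul_pic0_def,
    ← mul_smul, ← mul_smul, hcomm]

/-- On Kummer classes the action is through the function. -/
theorem picOfAlgEquiv_kummerClass [HasPrincipalDivisors Kbar (FN M)]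
    (W : FN M ≃ₐ[Kbar] FN M) (n : ℕ) (u : FN M) :
    picOfAlgEquiv M W (kummerClass Kbar n u) = kummerClass Kbar n (W u) := by
  rw [picOfAlgEquiv_apply, smul_kummerClass]
  rfl

end General

/-! ## `W_q` on `JZero M` -/

section WPic

variable (M q : ℕ) [NeZero M] [NeZero q] (hq : q.Prime) (hqM : q ∣ M) (hq2 : ¬ q ^ 2 ∣ M)

/-- **The Atkin–Lehner involution `W_q` on `J₀(M)`**, `q ∥ M` prime. -/
def wPic : JZero M →+ JZero M := picOfAlgEquiv M (atkinLehnerAt M q hq hqM hq2)

theorem wPic_apply (x : JZero M) :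
    wPic M q hq hqM hq2 x = SemilinearAut.ofAlgAut (atkinLehnerAt M q hq hqM hq2) • x := rfl

theorem wPic_apply' (x : JZero M) :
    wPic M q hq hqM hq2 x = atkinLehnerAt M q hq hqM hq2 • x :=
  picOfAlgEquiv_apply' M _ x

theorem wPic_wPic (x : JZero M) : wPic M q hq hqM hq2 (wPic M q hq hqM hq2 x) = x :=
  picOfAlgEquiv_involutive M _ (atkinLehnerAt_atkinLehnerAt M q hq hqM hq2) x

/-- `W_q` commutes with the Galois action on `J₀(M)`. -/
theorem smul_wPic (σ : Kbar ≃ₐ[ℚ] Kbar) (x : JZero M) :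
    σ • wPic M q hq hqM hq2 x = wPic M q hq hqM hq2 (σ • x) :=
  smul_picOfAlgEquiv M _ (atkinLehnerAt_arithmeticRingAut M q hq hqM hq2) σ x

/-- `W_q [u] = [W_q u]` on Kummer classes. -/
theorem wPic_kummerClass [HasPrincipalDivisors Kbar (FN M)] (n : ℕ) (u : FN M) :
    wPic M q hq hqM hq2 (kummerClass Kbar n u)
      = kummerClass Kbar n (atkinLehnerAt M q hq hqM hq2 u) :=
  picOfAlgEquiv_kummerClass M _ n u

end WPic

/-! ## The total form -/

section Total

variable (M : ℕ) [NeZero M]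

open Classical in
/-- `W_q` on `J₀(M)` for all `q` at once: `wPic` if `q` is a prime with `q ∥ M`, the identity
otherwise. -/
def wPicAll (q : ℕ) : JZero M →+ JZero M :=
  if h : q.Prime ∧ q ∣ M ∧ ¬ q ^ 2 ∣ M then
    @wPic M q _ ⟨h.1.ne_zero⟩ h.1 h.2.1 h.2.2
  else AddMonoidHom.id (JZero M)

theorem wPicAll_eq (q : ℕ) [NeZero q] (hq : q.Prime) (hqM : q ∣ M) (hq2 : ¬ q ^ 2 ∣ M) :
    wPicAll M q = wPic M q hq hqM hq2 := by
  unfold wPicAll
  rw [dif_pos ⟨hq, hqM, hq2⟩]

theorem wPicAll_wPicAll (q : ℕ) (x : JZero M) : wPicAll M q (wPicAll M q x) = x := by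
  by_cases h : q.Prime ∧ q ∣ M ∧ ¬ q ^ 2 ∣ M
  · have : NeZero q := ⟨h.1.ne_zero⟩
    rw [wPicAll_eq M q h.1 h.2.1 h.2.2, wPic_wPic]
  · unfold wPicAll
    rw [dif_neg h]
    rfl

theorem smul_wPicAll (q : ℕ) (σ : Kbar ≃ₐ[ℚ] Kbar) (x : JZero M) :
    σ • wPicAll M q x = wPicAll M q (σ • x) := by
  by_cases h : q.Prime ∧ q ∣ M ∧ ¬ q ^ 2 ∣ M
  · have : NeZero q := ⟨h.1.ne_zero⟩
    rw [wPicAll_eq M q h.1 h.2.1 h.2.2, smul_wPic]
  · unfold wPicAll
    rw [dif_neg h]
    rfl

theorem wPicAll_kummerClass [HasPrincipalDivisors Kbar (FN M)] (q : ℕ) [NeZero q]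
    (hq : q.Prime) (hqM : q ∣ M) (hq2 : ¬ q ^ 2 ∣ M) (n : ℕ) (u : FN M) :
    wPicAll M q (kummerClass Kbar n u)
      = kummerClass Kbar n (atkinLehnerAt M q hq hqM hq2 u) := by
  rw [wPicAll_eq M q hq hqM hq2, wPic_kummerClass]

end Total

end Fermat.Agent.S35.helper1219
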