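/-
S35 / S34 -- (F2) THE BRIDGE: the transposed Hecke correspondence `U_q = β_* α^*` at a prime
`q ∣ M`, on functions, is the Kronecker norm `kronNorm ζ q` on `t`-expansions.
Author: helper2106.  All proofs complete.

`Kbar = ℚ̄`, `FN M = modularFunctionFieldBar M ⊆ ℚ̄((t))`, `α = heckeAlphaBar Kbar M q` (inclusion),
`β = heckeBetaBar Kbar M q` (`t ↦ t^q`), `V = qExpand _ q`.

Series level (any field `K`):
* `det_secMat_eq_det`      : if `x * y i = ∑ k, V (a k i) * y k` for a family `y : Fin p → K((t))`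
                             independent over `V (K((t)))`, then `det (secMat p x) = det a`;
* `det_secMat_eq_kronNorm` : `det (secMat p h) = kronNorm ζ p h` (domain, `ζ` primitive);
* `indep_pow_of_orderTop`  : `1, J, …, J^(p-1)` are independent over `V (K((t)))` if `ord J = -1`.

Modular level (`q` prime, `q ∣ M`):
* `linearIndependent_jPow` : `1, j, …, j^(q-1)` are linearly independent over `F_M` along `β`
                             (every `q ≠ 0`, every `M`);
* `le_finrankAlong_heckeBetaBar` : `q ≤ deg β` (every `q ≠ 0`);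
* `finrankAlong_heckeBetaBar_of_dvd` (B1) : `deg β = q`;
* `coe_normAlong_heckeAlphaBar` (B2) : the `t`-expansion of `N_β (α u)` is `kronNorm ζ q u`;
* `uNorm`, `coe_uNorm`, `uPic`, `uPic_kummerPic`, `dvd_ord_uNorm` (B3) : the multiplicative
  `U_q` on functions, the transposed correspondence `heckePic0BarTranspose` on `JZero M` with all
  its inputs supplied, and its value on Kummer classes.
-/
import Fermat.Agent.S37.helper9343_BetaDegree
import Fermat.Agent.S37.helper6826_KroneckerSeries
import Fermat.Agent.S37.helper5666_KroneckerSeries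
import Fermat.Agent.S37.helper8426_HeckeInputs
import Fermat.Agent.S29.helper36_KummerCorr

set_option autoImplicit false
set_option linter.style.haveILetI false
set_option linter.unusedSectionVars false

namespace Fermat.Agent.S35.helper2106

open ModularCurve AlgebraicCurve Matrix
open Fermat.Agent.S28.helper2082

noncomputable section

/-! ### 1. Series level -/

section Series

variable {R : Type*} [CommRing R]

/-- Column `0` of `secMat p f` is the decomposition of `f` in the basis `1, t, …, t^(p-1)`. -/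
theorem dec_secMat_col_zero (p : ℕ) [NeZero p] (f : LaurentSeries R) :
    dec p (fun a => secMat p f a 0) = f := by
  rw [dec_secMat_col]
  have h0 : (((0 : Fin p) : ℕ) : ℤ) = 0 := by simp
  rw [h0]
  exact mul_one f

theorem secMat_injective (p : ℕ) [NeZero p] : Function.Injective (secMat (R := R) p) := by
  intro f g h
  rw [← dec_secMat_col_zero p f, ← dec_secMat_col_zero p g, h]

/-- Column `0` of `secMat p (∑ k, V (c k) * y k)`. -/
theorem secMat_sum_qExpand_mul_apply (p : ℕ) [NeZero p] {ι : Type*} (s : Finset ι)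
    (c y : ι → LaurentSeries R) (a b : Fin p) :
    secMat p (∑ k ∈ s, qExpand R p (c k) * y k) a b = ∑ k ∈ s, c k * secMat p (y k) a b := by
  rw [← secMatHom_apply, map_sum, Matrix.sum_apply]
  refine Finset.sum_congr rfl fun k _ => ?_
  rw [secMatHom_apply, secMat_qExpand_mul, Matrix.smul_apply, smul_eq_mul]

variable {K : Type*} [Field K]

/-- **Change of basis.**  If `y : Fin p → K((t))` is independent over `V (K((t)))`
(`V = qExpand K p`) and multiplication by `x` has matrix `a` on the `y i`, then the determinant of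
`a` is the determinant of the `p`-section matrix of `x`. -/
theorem det_secMat_eq_det (p : ℕ) [NeZero p] (x : LaurentSeries K)
    (y : Fin p → LaurentSeries K) (a : Matrix (Fin p) (Fin p) (LaurentSeries K))
    (hind : ∀ c : Fin p → LaurentSeries K, ∑ k, qExpand K p (c k) * y k = 0 → c = 0)
    (hmul : ∀ i, x * y i = ∑ k, qExpand K p (a k i) * y k) :
    (secMat p x).det = a.det := by
  classical
  let P : Matrix (Fin p) (Fin p) (LaurentSeries K) := fun c i => secMat p (y i) c 0
  have hP : secMat p x * P = P * a := by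
    refine Matrix.ext fun c i => ?_
    have h1 : (secMat p x * P) c i = secMat p (x * y i) c 0 := by
      rw [secMat_mul, Matrix.mul_apply, Matrix.mul_apply]
    rw [h1, hmul i, secMat_sum_qExpand_mul_apply, Matrix.mul_apply]
    exact Finset.sum_congr rfl fun k _ => mul_comm (a k i) (secMat p (y k) c 0)
  have hdet : P.det ≠ 0 := by
    intro h0
    obtain ⟨v, hv, hv0⟩ := Matrix.exists_mulVec_eq_zero_iff.mpr h0
    apply hv
    apply hind
    have h2 : ∀ c, secMat p (∑ k, qExpand K p (v k) * y k) c 0 = 0 := by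
      intro c
      rw [secMat_sum_qExpand_mul_apply]
      have h3 : ∑ i, P c i * v i = 0 := congrFun hv0 c
      exact (Finset.sum_congr rfl fun k _ => mul_comm (v k) (secMat p (y k) c 0)).trans h3
    rw [← dec_secMat_col_zero p (∑ k, qExpand K p (v k) * y k)]
    have h4 : (fun c => secMat p (∑ k, qExpand K p (v k) * y k) c 0) = 0 := funext h2
    rw [h4, dec_zero]
  have h5 := congrArg Matrix.det hP
  rw [Matrix.det_mul, Matrix.det_mul, mul_comm] at h5
  exact mul_left_cancel₀ hdet h5

/-- The determinant of the section matrix is the Kronecker norm. -/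
theorem det_secMat_eq_kronNorm {A : Type*} [CommRing A] [IsDomain A] (p : ℕ) [NeZero p] (ζ : Aˣ)
    (hζ : IsPrimitiveRoot ζ p) (h : LaurentSeries A) :
    (secMat p h).det = Fermat.Agent.S37.helper5666.kronNorm ζ p h := by
  apply qExpand_injective p
  rw [Fermat.Agent.S37.helper5666.qExpand_kronNorm ζ p hζ.pow_eq_one
    (Fermat.Agent.S37.helper5666.hreg_of_isPrimitiveRoot p ζ hζ) h,
    ← Fermat.Agent.S37.helper6826.prod_range_twist_eq_qExpand_det p ζ hζ h]
  rfl

/-- The order of `x(t^m)` is `m` times the order of `x`. -/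
theorem order_qExpand_field (m : ℕ) [NeZero m] {x : LaurentSeries K} (hx : x ≠ 0) :
    (qExpand K m x).order = (m : ℤ) * x.order := by
  have hx' : qExpand K m x ≠ 0 := (map_ne_zero_iff _ (qExpand_injective m)).mpr hx
  have h1 : (qExpand K m x).orderTop = WithTop.map (fun k : ℤ => (m : ℤ) * k) x.orderTop :=
    HahnSeries.orderTop_embDomain
  rw [← HahnSeries.order_eq_orderTop_of_ne_zero hx',
    ← HahnSeries.order_eq_orderTop_of_ne_zero hx, WithTop.map_coe] at h1
  exact_mod_cast h1

/-- `1, J, …, J^(p-1)` are independent over `V (K((t)))`, `V = qExpand K p`, when `J` has a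
simple pole at `t = 0`: the terms `V (c k) * J^k` have pairwise distinct orders mod `p`. -/
theorem indep_pow_of_order (p : ℕ) [NeZero p] (J : LaurentSeries K) (hJ0 : J ≠ 0)
    (hJ : J.order = -1) (c : Fin p → LaurentSeries K)
    (h : ∑ k : Fin p, qExpand K p (c k) * J ^ (k : ℕ) = 0) : c = 0 := by
  classical
  by_contra hc
  obtain ⟨k₁, hk₁⟩ : ∃ k, c k ≠ 0 := by
    by_contra hall
    push Not at hall
    exact hc (funext hall)
  let w : Fin p → ℤ := fun k => (p : ℤ) * (c k).order - (k : ℤ)
  have hT : ∀ k, c k ≠ 0 → qExpand K p (c k) * J ^ (k : ℕ) ≠ 0 ∧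
      (qExpand K p (c k) * J ^ (k : ℕ)).order = w k := by
    intro k hk
    have h1 : qExpand K p (c k) ≠ 0 := (map_ne_zero_iff _ (qExpand_injective p)).mpr hk
    have h2 : J ^ (k : ℕ) ≠ 0 := pow_ne_zero _ hJ0
    refine ⟨mul_ne_zero h1 h2, ?_⟩
    rw [HahnSeries.order_mul h1 h2, order_qExpand_field p hk, HahnSeries.order_pow, hJ]
    show (p : ℤ) * (c k).order + (k : ℕ) • (-1 : ℤ) = (p : ℤ) * (c k).order - (k : ℤ)
    rw [nsmul_eq_mul]
    ring
  let S : Finset (Fin p) := Finset.univ.filter (fun k => c k ≠ 0)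
  have hS : S.Nonempty := ⟨k₁, Finset.mem_filter.mpr ⟨Finset.mem_univ _, hk₁⟩⟩
  obtain ⟨k₀, hk₀S, hmin⟩ := Finset.exists_min_image S w hS
  have hk₀ : c k₀ ≠ 0 := (Finset.mem_filter.mp hk₀S).2
  have hcoeff : (∑ k : Fin p, qExpand K p (c k) * J ^ (k : ℕ)).coeff (w k₀) = 0 := by
    rw [h, HahnSeries.coeff_zero]
  rw [coeff_sum', Finset.sum_eq_single k₀] at hcoeff
  · rw [← (hT k₀ hk₀).2] at hcoeff
    exact (hT k₀ hk₀).1 (HahnSeries.coeff_order_eq_zero.mp hcoeff)
  · intro k _ hk
    by_cases hck : c k = 0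
    · rw [hck, map_zero, zero_mul, HahnSeries.coeff_zero]
    · apply HahnSeries.coeff_eq_zero_of_lt_order
      rw [(hT k hck).2]
      have hle := hmin k (Finset.mem_filter.mpr ⟨Finset.mem_univ _, hck⟩)
      refine lt_of_le_of_ne hle ?_
      intro heq
      apply hk
      have heq' : (p : ℤ) * (c k₀).order - (k₀ : ℤ) = (p : ℤ) * (c k).order - (k : ℤ) := heq
      have hdvd : (p : ℤ) ∣ (k : ℤ) - (k₀ : ℤ) :=
        ⟨(c k).order - (c k₀).order, by linarith⟩
      have hk1 := k.isLt
      have hk2 := k₀.isLt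
      have h3 : ((k : ℤ) - (k₀ : ℤ)) = 0 := by
        apply Int.eq_zero_of_abs_lt_dvd hdvd
        rw [abs_lt]
        constructor <;> omega
      apply Fin.ext
      omega
  · intro hk
    exact absurd (Finset.mem_univ _) hk

end Series

/-! ### 2. The degree of `β : t ↦ t^q` at a prime `q ∣ M` -/

section Modular

open Fermat.Agent.S24.helper24 Fermat.Agent.S37.helper9343 Fermat.Agent.S37.helper5162

variable (M q : ℕ) [NeZero M] [NeZero q]

/-- The formal `j` over `ℚ̄` has order `-1`. -/
theorem order_JK : (JK : LaurentSeries Kbar).order = -1 := by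
  have h := orderTop_coeffEmb_jq
  rw [← HahnSeries.order_eq_orderTop_of_ne_zero coeffEmb_jq_ne_zero] at h
  exact_mod_cast h

/-- The powers `1, j, …, j^(q-1)` of the `j`-function in `F_{Mq}`. -/
def jPow (i : Fin q) : FN (M * q) := jBar (M * q) ^ (i : ℕ)

theorem coe_jPow (i : Fin q) :
    ((jPow M q i : FN (M * q)) : LaurentSeries Kbar) = JK ^ (i : ℕ) := by
  show ((jBar (M * q) ^ (i : ℕ) : FN (M * q)) : LaurentSeries Kbar) = _
  rw [IntermediateField.coe_pow, coe_jBar]
  rfl

/-- The `t`-expansion of a `β`-linear combination of the `j^i`. -/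
theorem coe_sum_smul_jPow (g : Fin q → FN M) :
    letI := algebraAlong (heckeBetaBar Kbar M q)
    ((∑ i, g i • jPow M q i : FN (M * q)) : LaurentSeries Kbar)
      = ∑ i, qExpand Kbar q ((g i : FN M) : LaurentSeries Kbar) * JK ^ (i : ℕ) := by
  letI := algebraAlong (heckeBetaBar Kbar M q)
  rw [← IntermediateField.coe_val, map_sum]
  refine Finset.sum_congr rfl fun i _ => ?_
  rw [IntermediateField.coe_val, Algebra.smul_def]
  show ((heckeBetaBar Kbar M q (g i) * jPow M q i : FN (M * q)) : LaurentSeries Kbar) = _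
  rw [IntermediateField.coe_mul, coe_heckeBetaBar, coe_jPow]

/-- `1, j, …, j^(q-1)` are linearly independent over `F_M` along `β : t ↦ t^q`. -/
theorem linearIndependent_jPow :
    letI := algebraAlong (heckeBetaBar Kbar M q)
    LinearIndependent (FN M) (jPow M q) := by
  letI := algebraAlong (heckeBetaBar Kbar M q)
  rw [Fintype.linearIndependent_iff]
  intro g hg i
  have h1 := coe_sum_smul_jPow M q g
  rw [hg] at h1
  have h2 := indep_pow_of_order q JK coeffEmb_jq_ne_zero order_JK
    (fun k => ((g k : FN M) : LaurentSeries Kbar)) h1.symm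
  exact Subtype.ext (congrFun h2 i)

/-- `q ≤ deg β` for every `q ≠ 0`. -/
theorem le_finrankAlong_heckeBetaBar : q ≤ finrankAlong Kbar (heckeBetaBar Kbar M q) := by
  letI := algebraAlong (heckeBetaBar Kbar M q)
  haveI : Module.Finite (FN M) (FN (M * q)) := finiteAlong_heckeBetaBar M q
  have h := (linearIndependent_jPow M q).fintype_card_le_finrank
  rw [Fintype.card_fin] at h
  exact h

/-- **(B1)** At a prime `q ∣ M` the degree of `β : t ↦ t^q` is exactly `q`. -/
theorem finrankAlong_heckeBetaBar_of_dvd (hq : q.Prime) (hqM : q ∣ M) :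
    finrankAlong Kbar (heckeBetaBar Kbar M q) = q := by
  apply le_antisymm
  · have h1 := finrankAlong_prime_mul_le q hq M
    rw [Fermat.Agent.Lib.helper1356.dedekindPsi_mul_prime_of_dvd hq (NeZero.ne M) hqM] at h1
    exact Nat.le_of_mul_le_mul_right h1 (dedekindPsi_pos' M (NeZero.ne M))
  · exact le_finrankAlong_heckeBetaBar M q

/-! ### 3. The norm along `β` of `α u` is the Kronecker norm -/

open Fermat.Agent.S29.helper36 (normAlong kummerPic)

/-- **(B2)** For a prime `q ∣ M` and `u ∈ F_M`, the `t`-expansion of the norm of `α u = u`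
from `F_{Mq}` down to `F_M` along `β : t ↦ t^q` is the Kronecker norm of the `t`-expansion of
`u`: `N_β (α u) (t^q) = ∏_{b<q} u(ζ^b t)`.  In particular `kronNorm ζ q u ∈ F_M`. -/
theorem coe_normAlong_heckeAlphaBar (hq : q.Prime) (hqM : q ∣ M) (ζ : Kbarˣ)
    (hζ : IsPrimitiveRoot ζ q) (u : FN M) :
    ((normAlong (heckeBetaBar Kbar M q) (heckeAlphaBar Kbar M q u) : FN M) : LaurentSeries Kbar)
      = Fermat.Agent.S37.helper5666.kronNorm ζ q (u : LaurentSeries Kbar) := by
  classical
  letI := algebraAlong (heckeBetaBar Kbar M q)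
  haveI : Module.Finite (FN M) (FN (M * q)) := finiteAlong_heckeBetaBar M q
  have hcard : Fintype.card (Fin q) = Module.finrank (FN M) (FN (M * q)) := by
    rw [Fintype.card_fin]
    exact (finrankAlong_heckeBetaBar_of_dvd M q hq hqM).symm
  let b : Module.Basis (Fin q) (FN M) (FN (M * q)) :=
    basisOfLinearIndependentOfCardEqFinrank (linearIndependent_jPow M q) hcard
  have hb : ∀ i, b i = jPow M q i := fun i => by
    show (basisOfLinearIndependentOfCardEqFinrank (linearIndependent_jPow M q) hcard) i = _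
    rw [coe_basisOfLinearIndependentOfCardEqFinrank]
  obtain ⟨x, hx⟩ : ∃ x : FN (M * q), x = heckeAlphaBar Kbar M q u := ⟨_, rfl⟩
  obtain ⟨A, hAdef⟩ : ∃ A : Matrix (Fin q) (Fin q) (FN M), A = Algebra.leftMulMatrix b x :=
    ⟨_, rfl⟩
  have hnorm : normAlong (heckeBetaBar Kbar M q) x = A.det := by
    rw [hAdef]
    exact Algebra.norm_eq_matrix_det b x
  have hA : ∀ i, x * jPow M q i = ∑ k, A k i • jPow M q k := by
    intro i
    have h1 := b.sum_repr (x * b i)
    rw [← hb i, ← h1]
    refine Finset.sum_congr rfl fun k _ => ?_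
    rw [hAdef, Algebra.leftMulMatrix_eq_repr_mul, hb k]
  have hA' : ∀ i : Fin q, (u : LaurentSeries Kbar) * JK ^ (i : ℕ)
      = ∑ k, qExpand Kbar q ((A.map (modularFunctionFieldBar M).val) k i) * JK ^ (k : ℕ) := by
    intro i
    have h1 : ((x * jPow M q i : FN (M * q)) : LaurentSeries Kbar)
        = ((∑ k, A k i • jPow M q k : FN (M * q)) : LaurentSeries Kbar) :=
      congrArg (fun y : FN (M * q) => (y : LaurentSeries Kbar)) (hA i)
    rw [coe_sum_smul_jPow M q (fun k => A k i), IntermediateField.coe_mul, coe_jPow, hx,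
      coe_heckeAlphaBar] at h1
    exact h1
  have key := det_secMat_eq_det q (u : LaurentSeries Kbar) (fun i => JK ^ (i : ℕ))
    (A.map (modularFunctionFieldBar M).val)
    (indep_pow_of_order q JK coeffEmb_jq_ne_zero order_JK) hA'
  rw [det_secMat_eq_kronNorm q ζ hζ] at key
  rw [key, ← hx, hnorm]
  exact RingHom.map_det (modularFunctionFieldBar M).val.toRingHom A

/-! ### 4. The transposed correspondence `U_q = β_* α^*` on functions and on `JZero M` -/

open Fermat.Agent.S37.helper8426 in
/-- The transposed Hecke correspondence `U_q = β_* α^*` on `JZero M` (the Prelude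
`heckePic0BarTranspose` with all its inputs supplied; any level `M`, any `q ≠ 0`). -/
def uPic : JZero M →+ JZero M :=
  heckePic0BarTranspose (heckeAlphaBarIntegral M q) (heckeBetaBarIntegral M q)
    (fundamentalIdentityAlong_heckeAlphaBar M q) (finiteAlong_heckeBetaBar M q)
    (normFormulaAlong_heckeBetaBar M q)

/-- `uPic` is the Prelude transposed correspondence, whatever proofs of the inputs are used. -/
theorem heckePic0BarTranspose_eq_uPic (hα : HeckeAlphaBarIntegral Kbar M q)
    (hβ : HeckeBetaBarIntegral Kbar M q)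
    (hFI : FundamentalIdentityAlong Kbar (heckeAlphaBar Kbar M q) hα)
    (hfin : FiniteAlong Kbar (heckeBetaBar Kbar M q))
    (hN : NormFormulaAlong Kbar (heckeBetaBar Kbar M q) hfin) :
    heckePic0BarTranspose hα hβ hFI hfin hN = uPic M q := rfl

/-- The multiplicative `U_q` on functions: `u ↦ N_β (α u)`, the norm from `F_{Mq}` to `F_M`
along `β : t ↦ t^q` of `u` viewed in `F_{Mq}`. -/
def uNorm : FN M →* FN M :=
  (normAlong (heckeBetaBar Kbar M q)).comp
    ((heckeAlphaBar Kbar M q : FN M →ₐ[Kbar] FN (M * q)) : FN M →* FN (M * q))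

theorem uNorm_apply (u : FN M) :
    uNorm M q u = normAlong (heckeBetaBar Kbar M q) (heckeAlphaBar Kbar M q u) := rfl

theorem uNorm_ne_zero {u : FN M} (hu : u ≠ 0) : uNorm M q u ≠ 0 := by
  rw [uNorm_apply]
  exact Fermat.Agent.S29.helper36.normAlong_ne_zero _ (finiteAlong_heckeBetaBar M q)
    ((map_ne_zero _).mpr hu)

/-- **(B2)** for `uNorm`: its `t`-expansion is the Kronecker norm. -/
theorem coe_uNorm (hq : q.Prime) (hqM : q ∣ M) (ζ : Kbarˣ) (hζ : IsPrimitiveRoot ζ q)
    (u : FN M) :
    ((uNorm M q u : FN M) : LaurentSeries Kbar)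
      = Fermat.Agent.S37.helper5666.kronNorm ζ q (u : LaurentSeries Kbar) :=
  coe_normAlong_heckeAlphaBar M q hq hqM ζ hζ u

/-- **(B2)**, product form: `(U_q u)(t^q) = ∏_{b<q} u(ζ^b t)`. -/
theorem qExpand_coe_uNorm (hq : q.Prime) (hqM : q ∣ M) (ζ : Kbarˣ) (hζ : IsPrimitiveRoot ζ q)
    (u : FN M) :
    qExpand Kbar q ((uNorm M q u : FN M) : LaurentSeries Kbar)
      = Fermat.Agent.S37.helper5666.kronProd ζ q (u : LaurentSeries Kbar) := by
  rw [coe_uNorm M q hq hqM ζ hζ]
  exact Fermat.Agent.S37.helper5666.qExpand_kronNorm ζ q hζ.pow_eq_one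
    (Fermat.Agent.S37.helper5666.hreg_of_isPrimitiveRoot q ζ hζ) _

/-- The Kronecker norm preserves the modular function field of level `M` when `q ∣ M`. -/
theorem kronNorm_mem (hq : q.Prime) (hqM : q ∣ M) (ζ : Kbarˣ) (hζ : IsPrimitiveRoot ζ q)
    {f : LaurentSeries Kbar} (hf : f ∈ modularFunctionFieldBar M) :
    Fermat.Agent.S37.helper5666.kronNorm ζ q f ∈ modularFunctionFieldBar M := by
  have h := coe_uNorm M q hq hqM ζ hζ ⟨f, hf⟩
  rw [← h]
  exact (uNorm M q ⟨f, hf⟩).2

/-- The orders of `U_q u` are divisible by `n` if those of `u` are. -/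
theorem dvd_ord_uNorm {n : ℕ} {u : FN M} (h : ∀ v : Place Kbar (FN M), (n : ℤ) ∣ v.ord u)
    (v : Place Kbar (FN M)) : (n : ℤ) ∣ v.ord (uNorm M q u) :=
  Fermat.Agent.S29.helper36.dvd_ord_normAlong (heckeAlphaBar Kbar M q) (heckeBetaBar Kbar M q)
    (heckeAlphaBarIntegral M q) (heckeBetaBarIntegral M q) (finiteAlong_heckeBetaBar M q)
    (Fermat.Agent.S37.helper8426.normFormulaAlong_heckeBetaBar M q) h v

/-- **(B3)** The transposed correspondence on Kummer classes:
`U_q [u]_n = [N_β (α u)]_n`. -/
theorem uPic_kummerPic {n : ℕ} (hn : n ≠ 0) {u : FN M}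
    (h : ∀ v : Place Kbar (FN M), (n : ℤ) ∣ v.ord u) :
    uPic M q (kummerPic Kbar n u) = kummerPic Kbar n (uNorm M q u) :=
  Fermat.Agent.S29.helper36.correspondence_kummerPic (heckeAlphaBar Kbar M q)
    (heckeBetaBar Kbar M q) (heckeAlphaBarIntegral M q) (heckeBetaBarIntegral M q)
    (Fermat.Agent.S37.helper8426.fundamentalIdentityAlong_heckeAlphaBar M q)
    (finiteAlong_heckeBetaBar M q)
    (Fermat.Agent.S37.helper8426.normFormulaAlong_heckeBetaBar M q) hn h

end Modular

end

end Fermat.Agent.S35.helper2106
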