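import Fermat.Agent.S29.helper8217_KummerClass
import Fermat.Agent.S18.helper8991_GaussInst
import Fermat.Agent.S37.helper5666_KroneckerVal
import Fermat.Agent.S37.helper8426_HeckeInputs
import Fermat.Agent.Lib.helper6879_ResidueQbar
import Fermat.Agent.S29.helper5500_GalHecke
import Fermat.Agent.S35.helper2106_UqBridge

/-!
# S35/S34-UQCONG (helper1687): the `U_q`-congruence at a prime `q` dividing the level

Step (1) of route #2739 (item (F) of the S35 captain's list), part (F3): everything downstream of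
the bridge (F2) `Stmt_UqBridge` (owner helper2106).

* `IsOneAt A h` : the series `h ∈ ℚ̄((t))` is congruent to `1` at the Gauss valuation attached to
  the valuation subring `A` of `ℚ̄` (`h * Y = X` with `X, Y ∈ A((t))`, `X̄ = Ȳ ≠ 0`);
  `isOneAt_iff_gaussFRed`, `isOneAt_iff_valuation` : the same in terms of the landed S18 Gauss
  ring `helper8991.gaussF A (residue A) M` (`v (f - 1) < 1`).
* `uFun M q u` : the multiplicative `U_q` on functions, `Norm_{F_{Mq}/β(F_M)} (α u)`;
  `uOp M q` : the operator `U_q` on `J₀(M)` (the transpose Prelude correspondence `β_* ∘ α^*`);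
  `uOp_kummerClass` : `uOp (kummerClass n u) = kummerClass n (uFun u)`.
* `Stmt_UqBridge M q` : the `t`-expansion of `uFun M q u` is `∏_{b<q} u(ζ^b t^{1/q})`
  (`helper5666.kronNorm`); this is leaf (F2).
* `exists_series_frobenius`, `exists_series_inertia` : the series computations (Gauss normal
  form + Kronecker congruence `helper5666.coeffMap_kronNorm`).
* `exists_isOneAt_frobenius` : for a Frobenius lift `σ` at `A ∣ q`, `σ u = c * h * U_q u` with a
  constant `c ≠ 0` and `h ≡ 1` at `A`.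
* `exists_isOneAt_inertia` : for `τ` in the inertia group of `A`, `τ u = c * h * u`.
* `kInfty A M n` (`K^∞_n`) : classes of `n`-Kummer functions `≡ 1` at `A`;
  `frobenius_sub_uOp_mem` : `σ x - U_q x ∈ K^∞_n` for `x ∈ J₀(M)[n]`;
  `inertia_sub_mem` : `τ x - x ∈ K^∞_n`.
* `kZero A M n W = W • K^∞_n` for a `ℚ̄`-automorphism `W` of `F_M` commuting with Galois
  (Atkin–Lehner); `frobenius_sub_conj_uOp_mem` : `σ x - W U_q W⁻¹ x ∈ K^0_n`;
  `inertia_sub_mem_inf` : `τ x - x ∈ K^∞_n ⊓ K^0_n`.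
-/

set_option autoImplicit false

open ModularCurve AlgebraicCurve HahnSeries

namespace Fermat.Agent.S35.helper1687

noncomputable section

local notation "Kbar" => AlgebraicClosure ℚ
local notation "GQ" => (AlgebraicClosure ℚ ≃ₐ[ℚ] AlgebraicClosure ℚ)

open Fermat.Agent.S18.helper8991 (inc red)
open Fermat.Agent.S37.helper5666 (kronNorm)

/-! ### The decomposition group acting on `A((t))` -/

section GalA

variable {A : ValuationSubring Kbar}

/-- An element of the decomposition group of `A`, as a ring endomorphism of `A`. -/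
def galA (σ : GQ) (hσ : σ ∈ A.decompositionSubgroup ℚ) : A →+* A where
  toFun a := ⟨σ a, Fermat.Agent.Lib.helper6879.map_mem_of_mem_decompositionSubgroup hσ a.2⟩
  map_one' := Subtype.ext (map_one σ)
  map_mul' a b := Subtype.ext (map_mul σ (a : Kbar) (b : Kbar))
  map_zero' := Subtype.ext (map_zero σ)
  map_add' a b := Subtype.ext (map_add σ (a : Kbar) (b : Kbar))

@[simp] theorem coe_galA (σ : GQ) (hσ : σ ∈ A.decompositionSubgroup ℚ) (a : A) :
    ((galA σ hσ a : A) : Kbar) = σ a := rfl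

theorem inc_galA (σ : GQ) (hσ : σ ∈ A.decompositionSubgroup ℚ) (X : LaurentSeries A) :
    coeffMap A.subtype (coeffMap (galA σ hσ) X) =
      coeffMap (σ : Kbar →+* Kbar) (coeffMap A.subtype X) := by
  rw [coeffMap_coeffMap, coeffMap_coeffMap]
  exact coeffMap_congr (RingHom.ext fun a => rfl) X

theorem red_galA_frobenius {q : ℕ} [ExpChar (IsLocalRing.ResidueField A) q] {σ : GQ}
    (h : A.IsFrobeniusAt σ q) (X : LaurentSeries A) :
    coeffMap (IsLocalRing.residue A) (coeffMap (galA σ h.mem_decompositionSubgroup) X) =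
      coeffMap (frobenius (IsLocalRing.ResidueField A) q)
        (coeffMap (IsLocalRing.residue A) X) := by
  rw [coeffMap_coeffMap, coeffMap_coeffMap]
  refine coeffMap_congr (RingHom.ext fun a => ?_) X
  exact Fermat.Agent.Lib.helper6879.IsFrobeniusAt_residue h a

theorem red_galA_inertia {τ : GQ} (h : τ ∈ A.inertiaSubgroupIn ℚ) (X : LaurentSeries A) :
    coeffMap (IsLocalRing.residue A) (coeffMap (galA τ
      (Fermat.Agent.Lib.helper6879.mem_decompositionSubgroup_of_mem_inertiaSubgroupIn h)) X) =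
      coeffMap (IsLocalRing.residue A) X := by
  rw [coeffMap_coeffMap]
  refine coeffMap_congr (RingHom.ext fun a => ?_) X
  exact Fermat.Agent.Lib.helper6879.inertia_residue h a

end GalA

/-! ### Congruence to `1` at the Gauss valuation -/

section IsOneAt

variable (A : ValuationSubring Kbar)

/-- The series `h` is congruent to `1` at the Gauss valuation of `A`: `h = X / Y` with
`X, Y ∈ A((t))` and `X̄ = Ȳ ≠ 0`. -/
def IsOneAt (h : LaurentSeries Kbar) : Prop :=
  ∃ X Y : LaurentSeries A, coeffMap (IsLocalRing.residue A) Y ≠ 0 ∧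
    coeffMap (IsLocalRing.residue A) X = coeffMap (IsLocalRing.residue A) Y ∧
    h * coeffMap A.subtype Y = coeffMap A.subtype X

variable {A}

theorem isOneAt_one : IsOneAt A 1 :=
  ⟨1, 1, by rw [map_one]; exact one_ne_zero, rfl, by rw [map_one, mul_one]⟩

theorem IsOneAt.mul {h h' : LaurentSeries Kbar} (H : IsOneAt A h) (H' : IsOneAt A h') :
    IsOneAt A (h * h') := by
  obtain ⟨X, Y, hY, hXY, e⟩ := H
  obtain ⟨X', Y', hY', hXY', e'⟩ := H'
  refine ⟨X * X', Y * Y', ?_, ?_, ?_⟩
  · rw [map_mul]; exact mul_ne_zero hY hY'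
  · rw [map_mul, map_mul, hXY, hXY']
  · rw [map_mul, map_mul, ← e, ← e']; ring

theorem IsOneAt.ne_zero {h : LaurentSeries Kbar} (H : IsOneAt A h) : h ≠ 0 := by
  obtain ⟨X, Y, hY, hXY, e⟩ := H
  rintro rfl
  rw [zero_mul] at e
  have hX : X = 0 :=
    Fermat.Agent.S18.helper8991.inc_injective A (by rw [← e, map_zero])
  rw [hX, map_zero] at hXY
  exact hY hXY.symm

theorem IsOneAt.inv {h : LaurentSeries Kbar} (H : IsOneAt A h) : IsOneAt A h⁻¹ := by
  have h0 := H.ne_zero
  obtain ⟨X, Y, hY, hXY, e⟩ := H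
  refine ⟨Y, X, by rw [hXY]; exact hY, hXY.symm, ?_⟩
  rw [← e, ← mul_assoc, inv_mul_cancel₀ h0, one_mul]

theorem IsOneAt.div {h h' : LaurentSeries Kbar} (H : IsOneAt A h) (H' : IsOneAt A h') :
    IsOneAt A (h / h') := by
  rw [div_eq_mul_inv]
  exact H.mul H'.inv

/-- `IsOneAt` in terms of the Gauss valuation subring of `helper8991`: `f` lies in it and
reduces to `1`. -/
theorem isOneAt_iff_gaussFRed (M : ℕ) (f : modularFunctionFieldBar M) :
    IsOneAt A (f : LaurentSeries Kbar) ↔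
      ∃ hf : f ∈ Fermat.Agent.S18.helper8991.gaussF A (IsLocalRing.residue A) M,
        Fermat.Agent.S18.helper8991.gaussFRed A (IsLocalRing.residue A) M ⟨f, hf⟩ = 1 := by
  constructor
  · rintro ⟨X, Y, hY, hXY, e⟩
    have hf : f ∈ Fermat.Agent.S18.helper8991.gaussF A (IsLocalRing.residue A) M :=
      (Fermat.Agent.S18.helper8991.mem_gaussF_iff A (IsLocalRing.residue A) M f).mpr
        ⟨X, Y, hY, e⟩
    refine ⟨hf, ?_⟩
    rw [Fermat.Agent.S18.helper8991.gaussFRed_eq A (IsLocalRing.residue A) M ⟨f, hf⟩ hY e, hXY]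
    exact div_self hY
  · rintro ⟨hf, h1⟩
    obtain ⟨X, Y, hY, e⟩ :=
      (Fermat.Agent.S18.helper8991.mem_gaussF_iff A (IsLocalRing.residue A) M f).mp hf
    rw [Fermat.Agent.S18.helper8991.gaussFRed_eq A (IsLocalRing.residue A) M ⟨f, hf⟩ hY e] at h1
    exact ⟨X, Y, hY, (div_eq_one_iff_eq hY).mp h1, e⟩

/-- `IsOneAt` in valuation form (the shape consumed by `S34/helper584_UniBridge`):
`v (f - 1) < 1` for the Gauss valuation subring `gaussF A (residue A) M` of `F_M`. -/
theorem isOneAt_iff_valuation (M : ℕ) (f : modularFunctionFieldBar M) :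
    IsOneAt A (f : LaurentSeries Kbar) ↔
      (Fermat.Agent.S18.helper8991.gaussF A (IsLocalRing.residue A) M).valuation (f - 1) < 1 := by
  rw [isOneAt_iff_gaussFRed]
  constructor
  · rintro ⟨hf, h1⟩
    have hmem : ((⟨f, hf⟩ : ↥(Fermat.Agent.S18.helper8991.gaussF A (IsLocalRing.residue A) M))
        - 1) ∈ IsLocalRing.maximalIdeal
          ↥(Fermat.Agent.S18.helper8991.gaussF A (IsLocalRing.residue A) M) := by
      rw [← Fermat.Agent.S18.helper8991.gaussFRed_eq_zero_iff, map_sub, h1, map_one, sub_self]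
    exact (ValuationSubring.valuation_lt_one_iff _ _).mp hmem
  · intro h
    have h1 : f - 1 ∈ Fermat.Agent.S18.helper8991.gaussF A (IsLocalRing.residue A) M :=
      (ValuationSubring.valuation_le_one_iff _ _).mp h.le
    have hf : f ∈ Fermat.Agent.S18.helper8991.gaussF A (IsLocalRing.residue A) M := by
      have h2 := (Fermat.Agent.S18.helper8991.gaussF A (IsLocalRing.residue A) M).add_mem _ _ h1
        (Fermat.Agent.S18.helper8991.gaussF A (IsLocalRing.residue A) M).one_mem
      rwa [sub_add_cancel] at h2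
    refine ⟨hf, ?_⟩
    have hmem : (⟨f - 1, h1⟩ : ↥(Fermat.Agent.S18.helper8991.gaussF A (IsLocalRing.residue A) M))
        ∈ IsLocalRing.maximalIdeal
          ↥(Fermat.Agent.S18.helper8991.gaussF A (IsLocalRing.residue A) M) :=
      (ValuationSubring.valuation_lt_one_iff _ _).mpr h
    have h0 := (Fermat.Agent.S18.helper8991.gaussFRed_eq_zero_iff A (IsLocalRing.residue A) M
      _).mpr hmem
    have e : (⟨f - 1, h1⟩ : ↥(Fermat.Agent.S18.helper8991.gaussF A (IsLocalRing.residue A) M)) =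
        ⟨f, hf⟩ - 1 := rfl
    rw [e, map_sub, map_one, sub_eq_zero] at h0
    exact h0

end IsOneAt

/-! ### Multiplicativity of the Kronecker norm -/

section KronNorm

variable {R : Type*} [CommRing R]

theorem kronProd_mul (ζ : Rˣ) (l : ℕ) (x y : LaurentSeries R) :
    Fermat.Agent.S37.helper5666.kronProd ζ l (x * y) =
      Fermat.Agent.S37.helper5666.kronProd ζ l x * Fermat.Agent.S37.helper5666.kronProd ζ l y := by
  unfold Fermat.Agent.S37.helper5666.kronProd
  simp only [map_mul]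
  exact Finset.prod_mul_distrib

theorem kronProd_C (ζ : Rˣ) (l : ℕ) (c : R) :
    Fermat.Agent.S37.helper5666.kronProd ζ l (HahnSeries.C c) = HahnSeries.C (c ^ l) := by
  unfold Fermat.Agent.S37.helper5666.kronProd
  have h : ∀ b ∈ Finset.range l,
      Fermat.Agent.S37.helper5666.rot (ζ ^ b) (HahnSeries.C c : LaurentSeries R) =
        HahnSeries.C c := by
    intro b _
    rw [HahnSeries.C_apply, Fermat.Agent.S37.helper5666.rot_single]
    simp
  rw [Finset.prod_congr rfl h, Finset.prod_const, Finset.card_range, ← map_pow]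

variable [IsDomain R]

theorem qExpand_kronNorm_of_isPrimitiveRoot (ζ : Rˣ) (l : ℕ) [NeZero l]
    (hζ : IsPrimitiveRoot ζ l) (x : LaurentSeries R) :
    qExpand R l (kronNorm ζ l x) = Fermat.Agent.S37.helper5666.kronProd ζ l x :=
  Fermat.Agent.S37.helper5666.qExpand_kronNorm ζ l hζ.pow_eq_one
    (Fermat.Agent.S37.helper5666.hreg_of_isPrimitiveRoot l ζ hζ) x

theorem kronNorm_mul (ζ : Rˣ) (l : ℕ) [NeZero l] (hζ : IsPrimitiveRoot ζ l)
    (x y : LaurentSeries R) : kronNorm ζ l (x * y) = kronNorm ζ l x * kronNorm ζ l y := by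
  apply qExpand_injective (R := R) (N := l)
  rw [map_mul, qExpand_kronNorm_of_isPrimitiveRoot ζ l hζ,
    qExpand_kronNorm_of_isPrimitiveRoot ζ l hζ, qExpand_kronNorm_of_isPrimitiveRoot ζ l hζ,
    kronProd_mul]

theorem kronNorm_C (ζ : Rˣ) (l : ℕ) [NeZero l] (hζ : IsPrimitiveRoot ζ l) (c : R) :
    kronNorm ζ l (HahnSeries.C c : LaurentSeries R) = HahnSeries.C (c ^ l) := by
  apply qExpand_injective (R := R) (N := l)
  rw [qExpand_kronNorm_of_isPrimitiveRoot ζ l hζ, kronProd_C, qExpand_C]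

end KronNorm

/-! ### The operator `U_q` -/

section UOp

variable (M q : ℕ) [NeZero M] [NeZero q]

/-- The multiplicative `U_q` on functions: `u ↦ Norm_{F_{Mq} / β(F_M)} (α u)`, where `α` is the
inclusion and `β : t ↦ t^q`.  Its `t`-expansion is `∏_{b<q} u(ζ^b t^{1/q})` (`Stmt_UqBridge`). -/
def uFun (u : modularFunctionFieldBar M) : modularFunctionFieldBar M :=
  Fermat.Agent.S29.helper8217.normAlong (heckeBetaBar Kbar M q) (heckeAlphaBar Kbar M q u)

/-- The operator `U_q` on `J₀(M)`: the transpose Prelude correspondence `β_* ∘ α^*`. -/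
def uOp : JZero M →+ JZero M :=
  heckePic0BarTranspose (Fermat.Agent.S37.helper5162.heckeAlphaBarIntegral M q)
    (Fermat.Agent.S37.helper5162.heckeBetaBarIntegral M q)
    (Fermat.Agent.S37.helper8426.fundamentalIdentityAlong_heckeAlphaBar M q)
    (Fermat.Agent.S37.helper5162.finiteAlong_heckeBetaBar M q)
    (Fermat.Agent.S37.helper8426.normFormulaAlong_heckeBetaBar M q)

variable {M q}

/-- `U_q` on Kummer classes: `U_q [u] = [uFun u]`. -/
theorem uOp_kummerClass {n : ℕ} (hn : n ≠ 0) {u : modularFunctionFieldBar M}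
    (h : Fermat.Agent.S29.helper8217.IsKummer Kbar n u) :
    Fermat.Agent.S29.helper8217.IsKummer Kbar n (uFun M q u) ∧
      uOp M q (Fermat.Agent.S29.helper8217.kummerClass Kbar n u) =
        Fermat.Agent.S29.helper8217.kummerClass Kbar n (uFun M q u) :=
  Fermat.Agent.S29.helper8217.correspondence_kummerClass (heckeAlphaBar Kbar M q)
    (heckeBetaBar Kbar M q) (Fermat.Agent.S37.helper5162.heckeAlphaBarIntegral M q)
    (Fermat.Agent.S37.helper5162.heckeBetaBarIntegral M q)
    (Fermat.Agent.S37.helper8426.fundamentalIdentityAlong_heckeAlphaBar M q)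
    (Fermat.Agent.S37.helper5162.finiteAlong_heckeBetaBar M q)
    (Fermat.Agent.S37.helper8426.normFormulaAlong_heckeBetaBar M q) hn h

variable (M q)

/-- **The bridge (F2)** (owner helper2106): the `t`-expansion of the multiplicative `U_q` is the
Kronecker norm `∏_{b<q} u(ζ^b t^{1/q})`, for some (equivalently every) primitive `q`-th root of
unity `ζ`. -/
def Stmt_UqBridge : Prop :=
  ∃ ζ : Kbarˣ, IsPrimitiveRoot ζ q ∧ ∀ u : modularFunctionFieldBar M,
    ((uFun M q u : modularFunctionFieldBar M) : LaurentSeries Kbar) =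
      kronNorm ζ q (u : LaurentSeries Kbar)

omit [NeZero M] in
theorem exists_primitiveRoot_unit : ∃ ζ : Kbarˣ, IsPrimitiveRoot ζ q := by
  have : NeZero ((q : ℕ) : ℚ) := ⟨Nat.cast_ne_zero.mpr (NeZero.ne q)⟩
  obtain ⟨ζ, hζ⟩ := HasEnoughRootsOfUnity.exists_primitiveRoot Kbar q
  exact ⟨(hζ.isUnit (NeZero.ne q)).unit, IsPrimitiveRoot.coe_units_iff.mp hζ⟩

/-- The bridge in the "for every primitive root" form implies `Stmt_UqBridge`. -/
theorem stmt_UqBridge_of_forall
    (h : ∀ ζ : Kbarˣ, IsPrimitiveRoot ζ q → ∀ u : modularFunctionFieldBar M,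
      ((uFun M q u : modularFunctionFieldBar M) : LaurentSeries Kbar) =
        kronNorm ζ q (u : LaurentSeries Kbar)) : Stmt_UqBridge M q := by
  obtain ⟨ζ, hζ⟩ := exists_primitiveRoot_unit q
  exact ⟨ζ, hζ, h ζ hζ⟩

end UOp

/-! ### The series computation -/

section Series

variable {A : ValuationSubring Kbar}

/-- Quotient of two normal forms. -/
theorem ratio_normal_form {L : Type*} [Field L] {f₁ f₂ Y₁ Y₂ X₁ X₂ : LaurentSeries L} {a b : L}
    (hb : b ≠ 0) (e1 : f₁ * Y₁ = HahnSeries.C a * X₁) (e2 : f₂ * Y₂ = HahnSeries.C b * X₂) :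
    f₁ * (Y₁ * X₂) = HahnSeries.C (a / b) * (f₂ * (X₁ * Y₂)) := by
  have hC : (HahnSeries.C b⁻¹ : LaurentSeries L) * HahnSeries.C b = 1 := by
    rw [← map_mul, inv_mul_cancel₀ hb, map_one]
  calc f₁ * (Y₁ * X₂) = (f₁ * Y₁) * X₂ := by ring
    _ = (HahnSeries.C a * X₁) * ((HahnSeries.C b⁻¹ * HahnSeries.C b) * X₂) := by
        rw [e1, hC, one_mul]
    _ = (HahnSeries.C a * X₁) * (HahnSeries.C b⁻¹ * (f₂ * Y₂)) := by
        rw [mul_assoc (HahnSeries.C b⁻¹), ← e2]
    _ = HahnSeries.C (a / b) * (f₂ * (X₁ * Y₂)) := by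
        rw [div_eq_mul_inv, map_mul]; ring

theorem coeffMap_C {R S : Type*} [CommRing R] [CommRing S] (f : R →+* S) (c : R) :
    coeffMap f (HahnSeries.C c : LaurentSeries R) = HahnSeries.C (f c) := by
  rw [HahnSeries.C_apply, HahnSeries.C_apply, coeffMap_single]

/-- **Frobenius congruence, series form.**  For `f ≠ 0` in `F_M`, `σ` a Frobenius lift at
`A ∣ q`: `σ f * Y₁ = c * (∏_b f(ζ^b t^{1/q})) * X₁` with `X₁, Y₁ ∈ A((t))`, `X̄₁ = Ȳ₁ ≠ 0`. -/
theorem exists_series_frobenius {q : ℕ} [NeZero q] (hq : q.Prime) (hA : A.LiesOverPrime q)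
    {σ : GQ} (hσ : A.IsFrobeniusAt σ q) (ζ : Kbarˣ) (hζ : IsPrimitiveRoot ζ q) (M : ℕ)
    {f : LaurentSeries Kbar} (hf : f ∈ modularFunctionFieldBar M) (hf0 : f ≠ 0) :
    ∃ (c : Kbar) (X₁ Y₁ : LaurentSeries A), c ≠ 0 ∧
      coeffMap (IsLocalRing.residue A) Y₁ ≠ 0 ∧
      coeffMap (IsLocalRing.residue A) X₁ = coeffMap (IsLocalRing.residue A) Y₁ ∧
      coeffMap (σ : Kbar →+* Kbar) f * coeffMap A.subtype Y₁ =
        HahnSeries.C c * (kronNorm ζ q f * coeffMap A.subtype X₁) := by
  have : CharP (IsLocalRing.ResidueField A) q :=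
    Fermat.Agent.Lib.helper6879.charP_residueField hq A hA
  have : ExpChar (IsLocalRing.ResidueField A) q := ExpChar.prime hq
  obtain ⟨c₀, X, Y, hc₀, hX, hY, -, -, e⟩ :=
    Fermat.Agent.S18.helper8991.exists_normal_form A (IsLocalRing.residue A) M hf hf0
  obtain ⟨ζA, hζA⟩ := Fermat.Agent.S37.helper5666.exists_unit_of_pow_eq_one A ζ q (NeZero.ne q)
    hζ.pow_eq_one
  have hζA' : Units.map ((A.subtype : A →+* Kbar) : A →* Kbar) ζA = ζ := hζA
  have hζA1 : ζA ^ q = 1 := by
    have h1 : Units.map ((A.subtype : A →+* Kbar) : A →* Kbar) (ζA ^ q) =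
        Units.map ((A.subtype : A →+* Kbar) : A →* Kbar) 1 := by
      rw [map_pow, hζA', hζ.pow_eq_one, map_one]
    exact Units.map_injective (f := ((A.subtype : A →+* Kbar) : A →* Kbar))
      Subtype.val_injective h1
  have hπ : IsLocalRing.residue A (ζA : A) = 1 :=
    Fermat.Agent.S37.helper5666.map_unit_eq_one_of_pow_eq_one (IsLocalRing.residue A) q ζA hζA1
  have hdec := hσ.mem_decompositionSubgroup
  -- the Galois twist of the normal form
  have E1 : coeffMap (σ : Kbar →+* Kbar) f * coeffMap A.subtype (coeffMap (galA σ hdec) Y) =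
      HahnSeries.C (σ c₀) * coeffMap A.subtype (coeffMap (galA σ hdec) X) := by
    have h1 := congrArg (coeffMap (σ : Kbar →+* Kbar)) e
    rw [map_mul, map_mul, coeffMap_C] at h1
    rw [inc_galA, inc_galA]
    exact h1
  -- the Kronecker norm of the normal form
  have E2 : kronNorm ζ q f * coeffMap A.subtype (kronNorm ζA q Y) =
      HahnSeries.C (c₀ ^ q) * coeffMap A.subtype (kronNorm ζA q X) := by
    have h1 := congrArg (kronNorm ζ q) e
    rw [kronNorm_mul ζ q hζ, kronNorm_mul ζ q hζ, kronNorm_C ζ q hζ] at h1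
    rw [Fermat.Agent.S37.helper5666.coeffMap_kronNorm_map, Fermat.Agent.S37.helper5666.coeffMap_kronNorm_map,
      hζA']
    exact h1
  have hFr : ∀ Z : LaurentSeries A, coeffMap (IsLocalRing.residue A) Z ≠ 0 →
      coeffMap (frobenius (IsLocalRing.ResidueField A) q) (coeffMap (IsLocalRing.residue A) Z)
        ≠ 0 := fun Z hZ => (map_ne_zero _).mpr hZ
  have rX1 := red_galA_frobenius hσ X
  have rY1 := red_galA_frobenius hσ Y
  have rX2 := Fermat.Agent.S37.helper5666.coeffMap_kronNorm (IsLocalRing.residue A) ζA hπ q X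
  have rY2 := Fermat.Agent.S37.helper5666.coeffMap_kronNorm (IsLocalRing.residue A) ζA hπ q Y
  refine ⟨σ c₀ / c₀ ^ q, coeffMap (galA σ hdec) X * kronNorm ζA q Y,
    coeffMap (galA σ hdec) Y * kronNorm ζA q X,
    div_ne_zero ((map_ne_zero σ).mpr hc₀) (pow_ne_zero q hc₀), ?_, ?_, ?_⟩
  · rw [map_mul, rY1, rX2]
    exact mul_ne_zero (hFr Y hY) (hFr X hX)
  · rw [map_mul, map_mul, rX1, rY2, rY1, rX2, mul_comm]
  · rw [map_mul, map_mul]
    exact ratio_normal_form (pow_ne_zero q hc₀) E1 E2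

/-- **Inertia congruence, series form.**  For `f ≠ 0` in `F_M`, `τ` in the inertia group of `A`:
`τ f * Y₁ = c * f * X₁` with `X₁, Y₁ ∈ A((t))`, `X̄₁ = Ȳ₁ ≠ 0`. -/
theorem exists_series_inertia {τ : GQ} (hτ : τ ∈ A.inertiaSubgroupIn ℚ) (M : ℕ)
    {f : LaurentSeries Kbar} (hf : f ∈ modularFunctionFieldBar M) (hf0 : f ≠ 0) :
    ∃ (c : Kbar) (X₁ Y₁ : LaurentSeries A), c ≠ 0 ∧
      coeffMap (IsLocalRing.residue A) Y₁ ≠ 0 ∧
      coeffMap (IsLocalRing.residue A) X₁ = coeffMap (IsLocalRing.residue A) Y₁ ∧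
      coeffMap (τ : Kbar →+* Kbar) f * coeffMap A.subtype Y₁ =
        HahnSeries.C c * (f * coeffMap A.subtype X₁) := by
  obtain ⟨c₀, X, Y, hc₀, hX, hY, -, -, e⟩ :=
    Fermat.Agent.S18.helper8991.exists_normal_form A (IsLocalRing.residue A) M hf hf0
  have hdec := Fermat.Agent.Lib.helper6879.mem_decompositionSubgroup_of_mem_inertiaSubgroupIn hτ
  have E1 : coeffMap (τ : Kbar →+* Kbar) f * coeffMap A.subtype (coeffMap (galA τ hdec) Y) =
      HahnSeries.C (τ c₀) * coeffMap A.subtype (coeffMap (galA τ hdec) X) := by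
    have h1 := congrArg (coeffMap (τ : Kbar →+* Kbar)) e
    rw [map_mul, map_mul, coeffMap_C] at h1
    rw [inc_galA, inc_galA]
    exact h1
  have rX1 := red_galA_inertia hτ X
  have rY1 := red_galA_inertia hτ Y
  refine ⟨τ c₀ / c₀, coeffMap (galA τ hdec) X * Y, coeffMap (galA τ hdec) Y * X,
    div_ne_zero ((map_ne_zero τ).mpr hc₀) hc₀, ?_, ?_, ?_⟩
  · rw [map_mul, rY1]
    exact mul_ne_zero hY hX
  · rw [map_mul, map_mul, rX1, rY1, mul_comm]
  · rw [map_mul, map_mul]
    exact ratio_normal_form hc₀ E1 e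

end Series

/-! ### Function form -/

section Functions

variable {A : ValuationSubring Kbar} {M : ℕ}

theorem coe_algebraMap_FN (c : Kbar) :
    ((algebraMap Kbar (modularFunctionFieldBar M) c : modularFunctionFieldBar M) :
      LaurentSeries Kbar) = HahnSeries.C c := by
  rw [Fermat.Agent.S18.helper8991.C_eq_algebraMap]
  rfl

/-- From a series identity `g * Y₁ = c * (g' * X₁)` in `F_M` to `g / (c * g') ≡ 1`. -/
theorem isOneAt_div_of_series {g g' : modularFunctionFieldBar M} (hg : g ≠ 0) {c : Kbar}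
    {X₁ Y₁ : LaurentSeries A} (hY : coeffMap (IsLocalRing.residue A) Y₁ ≠ 0)
    (hXY : coeffMap (IsLocalRing.residue A) X₁ = coeffMap (IsLocalRing.residue A) Y₁)
    (e : (g : LaurentSeries Kbar) * coeffMap A.subtype Y₁ =
      HahnSeries.C c * ((g' : LaurentSeries Kbar) * coeffMap A.subtype X₁)) :
    g' ≠ 0 ∧ c ≠ 0 ∧
      IsOneAt A ((g / (algebraMap Kbar (modularFunctionFieldBar M) c * g') :
        modularFunctionFieldBar M) : LaurentSeries Kbar) := by
  have hg0 : (g : LaurentSeries Kbar) ≠ 0 := fun h => hg (Subtype.ext h)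
  have hincY : coeffMap A.subtype Y₁ ≠ 0 :=
    Fermat.Agent.S18.helper8991.inc_ne_zero A (IsLocalRing.residue A) hY
  have hL : (g : LaurentSeries Kbar) * coeffMap A.subtype Y₁ ≠ 0 := mul_ne_zero hg0 hincY
  have hc : c ≠ 0 := by
    rintro rfl
    rw [map_zero, zero_mul] at e
    exact hL e
  have hg' : g' ≠ 0 := by
    rintro rfl
    rw [ZeroMemClass.coe_zero, zero_mul, mul_zero] at e
    exact hL e
  have hg'0 : (g' : LaurentSeries Kbar) ≠ 0 := fun h => hg' (Subtype.ext h)
  have hC : (HahnSeries.C c : LaurentSeries Kbar) ≠ 0 := (map_ne_zero _).mpr hc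
  refine ⟨hg', hc, X₁, Y₁, hY, hXY, ?_⟩
  have hcoe : ((g / (algebraMap Kbar (modularFunctionFieldBar M) c * g') :
      modularFunctionFieldBar M) : LaurentSeries Kbar) =
      (g : LaurentSeries Kbar) / (HahnSeries.C c * (g' : LaurentSeries Kbar)) := by
    rw [IntermediateField.coe_div, IntermediateField.coe_mul, coe_algebraMap_FN]
  rw [hcoe, div_mul_eq_mul_div, e, ← mul_assoc, mul_div_cancel_left₀ _ (mul_ne_zero hC hg'0)]

variable [NeZero M] {q : ℕ} [NeZero q]

/-- **Frobenius congruence, function form** (step (1) of #2739).  For `u ≠ 0` in `F_M`, `σ` a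
Frobenius lift at `A ∣ q`, and the bridge (F2): `σ u = c * h * U_q u` with `c` a nonzero constant
and `h ≡ 1` at the Gauss valuation of `A`. -/
theorem exists_isOneAt_frobenius (hq : q.Prime) (hA : A.LiesOverPrime q) {σ : GQ}
    (hσ : A.IsFrobeniusAt σ q) (hB : Stmt_UqBridge M q) {u : modularFunctionFieldBar M}
    (hu : u ≠ 0) :
    uFun M q u ≠ 0 ∧ ∃ c : Kbar, c ≠ 0 ∧
      IsOneAt A (((arithmeticGalois (modularFunctionFieldFull M) σ • u) /
        (algebraMap Kbar (modularFunctionFieldBar M) c * uFun M q u) :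
          modularFunctionFieldBar M) : LaurentSeries Kbar) := by
  obtain ⟨ζ, hζ, hB⟩ := hB
  have hf0 : (u : LaurentSeries Kbar) ≠ 0 := fun h => hu (Subtype.ext h)
  obtain ⟨c, X₁, Y₁, -, hY, hXY, e⟩ := exists_series_frobenius hq hA hσ ζ hζ M u.2 hf0
  rw [← hB u] at e
  have hσu : arithmeticGalois (modularFunctionFieldFull M) σ • u ≠ 0 := by
    rw [SemilinearAut.smul_def]
    exact (map_ne_zero _).mpr hu
  obtain ⟨h1, h2, h3⟩ := isOneAt_div_of_series (g := arithmeticGalois (modularFunctionFieldFull M) σ • u)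
    (g' := uFun M q u) hσu hY hXY e
  exact ⟨h1, c, h2, h3⟩

omit [NeZero M] in
/-- **Inertia congruence, function form.**  For `u ≠ 0` in `F_M` and `τ` in the inertia group of
`A`: `τ u = c * h * u` with `c` a nonzero constant and `h ≡ 1` at the Gauss valuation of `A`.
(No hypothesis on the level.) -/
theorem exists_isOneAt_inertia {τ : GQ} (hτ : τ ∈ A.inertiaSubgroupIn ℚ)
    {u : modularFunctionFieldBar M} (hu : u ≠ 0) :
    ∃ c : Kbar, c ≠ 0 ∧
      IsOneAt A (((arithmeticGalois (modularFunctionFieldFull M) τ • u) /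
        (algebraMap Kbar (modularFunctionFieldBar M) c * u) :
          modularFunctionFieldBar M) : LaurentSeries Kbar) := by
  have hf0 : (u : LaurentSeries Kbar) ≠ 0 := fun h => hu (Subtype.ext h)
  obtain ⟨c, X₁, Y₁, -, hY, hXY, e⟩ := exists_series_inertia hτ M u.2 hf0
  have hτu : arithmeticGalois (modularFunctionFieldFull M) τ • u ≠ 0 := by
    rw [SemilinearAut.smul_def]
    exact (map_ne_zero _).mpr hu
  obtain ⟨-, h2, h3⟩ := isOneAt_div_of_series (g := arithmeticGalois (modularFunctionFieldFull M) τ • u)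
    (g' := u) hτu hY hXY e
  exact ⟨c, h2, h3⟩

end Functions

/-! ### Class form -/

section Classes

open Fermat.Agent.S29.helper8217

variable (A : ValuationSubring Kbar) (M n : ℕ) [NeZero M]

/-- `K^∞_n`: the classes of `n`-Kummer functions congruent to `1` at the Gauss valuation of
`A` (on `t`-expansions at the cusp `∞`). -/
def kInfty : AddSubgroup (JZero M) where
  carrier := {x | ∃ h : modularFunctionFieldBar M, IsKummer Kbar n h ∧
    IsOneAt A (h : LaurentSeries Kbar) ∧ kummerClass Kbar n h = x}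
  zero_mem' := ⟨1, isKummer_one n, isOneAt_one, kummerClass_one n⟩
  add_mem' := by
    rintro _ _ ⟨h, hk, ho, rfl⟩ ⟨h', hk', ho', rfl⟩
    exact ⟨h * h', hk.mul hk', ho.mul ho', kummerClass_mul hk hk'⟩
  neg_mem' := by
    rintro _ ⟨h, hk, ho, rfl⟩
    exact ⟨h⁻¹, hk.inv, ho.inv, kummerClass_inv hk⟩

variable {A M n}

theorem mem_kInfty_iff {x : JZero M} :
    x ∈ kInfty A M n ↔ ∃ h : modularFunctionFieldBar M, IsKummer Kbar n h ∧
      IsOneAt A (h : LaurentSeries Kbar) ∧ kummerClass Kbar n h = x := Iff.rfl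

theorem kInfty_le_torsion : kInfty A M n ≤ Pic0.torsion Kbar (modularFunctionFieldBar M) n := by
  rintro _ ⟨h, -, -, rfl⟩
  exact kummerClass_mem_torsion n h

variable {q : ℕ} [NeZero q]

/-- **Step (1) of #2739, class form.**  For `x ∈ J₀(M)[n]` and `σ` a Frobenius lift at `A ∣ q`:
`σ x - U_q x ∈ K^∞_n`. -/
theorem frobenius_sub_uOp_mem (hq : q.Prime) (hA : A.LiesOverPrime q) {σ : GQ}
    (hσ : A.IsFrobeniusAt σ q) (hB : Stmt_UqBridge M q) (hn : n ≠ 0) {x : JZero M}
    (hx : (n : ℤ) • x = 0) : σ • x - uOp M q x ∈ kInfty A M n := by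
  obtain ⟨u, hu, rfl⟩ := exists_kummerClass_eq hn (Pic0.mem_torsion.mpr hx)
  obtain ⟨hUk, hUc⟩ := uOp_kummerClass (q := q) hn hu
  obtain ⟨-, c, hc, ho⟩ := exists_isOneAt_frobenius hq hA hσ hB hu.ne_zero
  have hσk : IsKummer Kbar n (arithmeticGalois (modularFunctionFieldFull M) σ • u) :=
    (isKummer_smul_iff _).mpr hu
  have hck : IsKummer Kbar n (algebraMap Kbar (modularFunctionFieldBar M) c) :=
    isKummer_of_ord_eq_zero n ((map_ne_zero _).mpr hc) (fun v => ord_algebraMap v c)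
  refine ⟨_, hσk.div (hck.mul hUk), ho, ?_⟩
  rw [kummerClass_div hσk (hck.mul hUk), kummerClass_mul hck hUk, kummerClass_algebraMap,
    zero_add, galois_smul_kummerClass, hUc]

omit [NeZero M] in
/-- **Inertia, class form.**  For `x ∈ J₀(M)[n]` and `τ` in the inertia group of `A`:
`τ x - x ∈ K^∞_n`. -/
theorem inertia_sub_mem [NeZero M] {τ : GQ} (hτ : τ ∈ A.inertiaSubgroupIn ℚ) (hn : n ≠ 0)
    {x : JZero M} (hx : (n : ℤ) • x = 0) : τ • x - x ∈ kInfty A M n := by
  obtain ⟨u, hu, rfl⟩ := exists_kummerClass_eq hn (Pic0.mem_torsion.mpr hx)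
  obtain ⟨c, hc, ho⟩ := exists_isOneAt_inertia (A := A) hτ hu.ne_zero
  have hτk : IsKummer Kbar n (arithmeticGalois (modularFunctionFieldFull M) τ • u) :=
    (isKummer_smul_iff _).mpr hu
  have hck : IsKummer Kbar n (algebraMap Kbar (modularFunctionFieldBar M) c) :=
    isKummer_of_ord_eq_zero n ((map_ne_zero _).mpr hc) (fun v => ord_algebraMap v c)
  refine ⟨_, hτk.div (hck.mul hu), ho, ?_⟩
  rw [kummerClass_div hτk (hck.mul hu), kummerClass_mul hck hu, kummerClass_algebraMap,
    zero_add, galois_smul_kummerClass]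

end Classes

/-! ### Transport by an automorphism commuting with Galois (Atkin–Lehner `W_q`) -/

section Transport

open Fermat.Agent.S29.helper8217

variable {A : ValuationSubring Kbar} {M n : ℕ} [NeZero M]

/-- A `ℚ̄`-automorphism of `F_M` commuting with the arithmetic Galois action on functions
commutes with it on torsion classes. -/
theorem galois_smul_algEquiv_smul
    (W : modularFunctionFieldBar M ≃ₐ[Kbar] modularFunctionFieldBar M)
    (hW : ∀ (σ : GQ) (z : modularFunctionFieldBar M),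
      W (arithmeticGalois (modularFunctionFieldFull M) σ • z) =
        arithmeticGalois (modularFunctionFieldFull M) σ • W z)
    (σ : GQ) (hn : n ≠ 0) {x : JZero M} (hx : (n : ℤ) • x = 0) :
    σ • (W • x) = W • (σ • x) := by
  obtain ⟨u, -, rfl⟩ := exists_kummerClass_eq hn (Pic0.mem_torsion.mpr hx)
  rw [algEquiv_smul_kummerClass, galois_smul_kummerClass, galois_smul_kummerClass,
    algEquiv_smul_kummerClass, hW]

variable (A M n) in
/-- `K^0_n := W • K^∞_n`: the classes of `n`-Kummer functions `h` with `W⁻¹ h ≡ 1` at the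
Gauss valuation of `A`, i.e. `h ≡ 1` at the valuation `v_∞ ∘ W⁻¹`. -/
def kZero (W : modularFunctionFieldBar M ≃ₐ[Kbar] modularFunctionFieldBar M) :
    AddSubgroup (JZero M) :=
  (kInfty A M n).map (DistribSMul.toAddMonoidHom (JZero M) W)

theorem mem_kZero_iff {W : modularFunctionFieldBar M ≃ₐ[Kbar] modularFunctionFieldBar M}
    {x : JZero M} : x ∈ kZero A M n W ↔ ∃ y ∈ kInfty A M n, W • y = x := Iff.rfl

/-- Function form of membership in `K^0_n`. -/
theorem mem_kZero_iff_exists {W : modularFunctionFieldBar M ≃ₐ[Kbar] modularFunctionFieldBar M}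
    {x : JZero M} : x ∈ kZero A M n W ↔ ∃ h : modularFunctionFieldBar M, IsKummer Kbar n h ∧
      IsOneAt A ((W.symm h : modularFunctionFieldBar M) : LaurentSeries Kbar) ∧
      kummerClass Kbar n h = x := by
  have hk : ∀ (V : modularFunctionFieldBar M ≃ₐ[Kbar] modularFunctionFieldBar M)
      (w : modularFunctionFieldBar M), IsKummer Kbar n w → IsKummer Kbar n (V w) := by
    intro V w h
    refine ⟨by simpa using h.1, fun v => ?_⟩
    have h1 := Place.ord_smul V (V⁻¹ • v) w
    rw [smul_inv_smul] at h1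
    rw [h1]
    exact h.2 _
  constructor
  · rintro ⟨_, ⟨h, hk', ho, rfl⟩, rfl⟩
    refine ⟨W h, hk W h hk', ?_, ?_⟩
    · rw [AlgEquiv.symm_apply_apply]
      exact ho
    · exact (algEquiv_smul_kummerClass W n h).symm
  · rintro ⟨h, hk', ho, rfl⟩
    refine ⟨kummerClass Kbar n (W.symm h), ⟨W.symm h, hk W.symm h hk', ho, rfl⟩, ?_⟩
    show W • kummerClass Kbar n (W.symm h) = _
    rw [algEquiv_smul_kummerClass, AlgEquiv.apply_symm_apply]

variable {q : ℕ} [NeZero q]

/-- **Step (1) of #2739, transported.**  For `x ∈ J₀(M)[n]`, `σ` a Frobenius lift at `A ∣ q` and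
`W` a `ℚ̄`-automorphism of `F_M` commuting with Galois: `σ x - W U_q W⁻¹ x ∈ K^0_n = W K^∞_n`. -/
theorem frobenius_sub_conj_uOp_mem (hq : q.Prime) (hA : A.LiesOverPrime q) {σ : GQ}
    (hσ : A.IsFrobeniusAt σ q) (hB : Stmt_UqBridge M q)
    (W : modularFunctionFieldBar M ≃ₐ[Kbar] modularFunctionFieldBar M)
    (hW : ∀ (σ : GQ) (z : modularFunctionFieldBar M),
      W (arithmeticGalois (modularFunctionFieldFull M) σ • z) =
        arithmeticGalois (modularFunctionFieldFull M) σ • W z)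
    (hn : n ≠ 0) {x : JZero M} (hx : (n : ℤ) • x = 0) :
    σ • x - W • uOp M q (W⁻¹ • x) ∈ kZero A M n W := by
  have hx' : (n : ℤ) • (W⁻¹ • x) = 0 := by
    rw [smul_comm, hx]
    exact smul_zero (A := JZero M) W⁻¹
  refine ⟨_, frobenius_sub_uOp_mem hq hA hσ hB hn hx', ?_⟩
  show W • (σ • (W⁻¹ • x) - uOp M q (W⁻¹ • x)) = _
  rw [smul_sub, ← galois_smul_algEquiv_smul W hW σ hn hx', smul_inv_smul]

/-- **Inertia, transported.**  For `x ∈ J₀(M)[n]`, `τ` in the inertia group of `A` and `W` a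
`ℚ̄`-automorphism of `F_M` commuting with Galois: `τ x - x ∈ K^∞_n ⊓ K^0_n`. -/
theorem inertia_sub_mem_inf {τ : GQ} (hτ : τ ∈ A.inertiaSubgroupIn ℚ)
    (W : modularFunctionFieldBar M ≃ₐ[Kbar] modularFunctionFieldBar M)
    (hW : ∀ (σ : GQ) (z : modularFunctionFieldBar M),
      W (arithmeticGalois (modularFunctionFieldFull M) σ • z) =
        arithmeticGalois (modularFunctionFieldFull M) σ • W z)
    (hn : n ≠ 0) {x : JZero M} (hx : (n : ℤ) • x = 0) :
    τ • x - x ∈ kInfty A M n ⊓ kZero A M n W := by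
  have hx' : (n : ℤ) • (W⁻¹ • x) = 0 := by
    rw [smul_comm, hx]
    exact smul_zero (A := JZero M) W⁻¹
  refine ⟨inertia_sub_mem hτ hn hx, _, inertia_sub_mem (A := A) hτ hn hx', ?_⟩
  show W • (τ • (W⁻¹ • x) - W⁻¹ • x) = _
  rw [smul_sub, ← galois_smul_algEquiv_smul W hW τ hn hx', smul_inv_smul]

end Transport

/-! ### Unconditional forms: the bridge (F2) is `helper2106.coe_normAlong_heckeAlphaBar` -/

section Unconditional

open Fermat.Agent.S29.helper8217

variable {A : ValuationSubring Kbar} {M n q : ℕ} [NeZero M] [NeZero q]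

variable (M q) in
/-- `uFun` is the `uNorm` of `helper2106_UqBridge`. -/
theorem uFun_eq_uNorm (u : modularFunctionFieldBar M) :
    uFun M q u = Fermat.Agent.S35.helper2106.uNorm M q u := rfl

variable (M q) in
/-- `uOp` is the `uPic` of `helper2106_UqBridge`. -/
theorem uOp_eq_uPic : uOp M q = Fermat.Agent.S35.helper2106.uPic M q := rfl

/-- **The bridge (F2)** holds for a prime `q ∣ M` (helper2106). -/
theorem stmt_UqBridge (hq : q.Prime) (hqM : q ∣ M) : Stmt_UqBridge M q :=
  stmt_UqBridge_of_forall M q fun ζ hζ u =>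
    Fermat.Agent.S35.helper2106.coe_normAlong_heckeAlphaBar M q hq hqM ζ hζ u

/-- `U_q` commutes with the Galois action on all of `J₀(M)` (any `M`, `q`). -/
theorem galois_smul_uOp (σ : GQ) (x : JZero M) : σ • uOp M q x = uOp M q (σ • x) := by
  rw [galois_smul_pic0_def, galois_smul_pic0_def]
  exact (Fermat.Agent.S29.helper5500.pic0_correspondence_smul (heckeAlphaBar Kbar M q)
    (heckeBetaBar Kbar M q) (Fermat.Agent.S37.helper5162.heckeAlphaBarIntegral M q)
    (Fermat.Agent.S37.helper5162.heckeBetaBarIntegral M q)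
    (Fermat.Agent.S37.helper8426.fundamentalIdentityAlong_heckeAlphaBar M q)
    (Fermat.Agent.S37.helper5162.finiteAlong_heckeBetaBar M q)
    (Fermat.Agent.S37.helper8426.normFormulaAlong_heckeBetaBar M q) _ _
    (Fermat.Agent.S29.helper5500.intertwines_heckeAlphaBar M q σ)
    (Fermat.Agent.S29.helper5500.intertwines_heckeBetaBar M q σ) x).symm

/-- **Frobenius congruence, function form, unconditional** (`q` prime, `q ∣ M`). -/
theorem exists_isOneAt_frobenius_of_dvd (hq : q.Prime) (hqM : q ∣ M) (hA : A.LiesOverPrime q)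
    {σ : GQ} (hσ : A.IsFrobeniusAt σ q) {u : modularFunctionFieldBar M} (hu : u ≠ 0) :
    uFun M q u ≠ 0 ∧ ∃ c : Kbar, c ≠ 0 ∧
      IsOneAt A (((arithmeticGalois (modularFunctionFieldFull M) σ • u) /
        (algebraMap Kbar (modularFunctionFieldBar M) c * uFun M q u) :
          modularFunctionFieldBar M) : LaurentSeries Kbar) :=
  exists_isOneAt_frobenius hq hA hσ (stmt_UqBridge hq hqM) hu

/-- **(KRON)**, the shape consumed by the `Q`-bridge: for an `n`-Kummer `u` there is an
`n`-Kummer `h ≡ 1` at the Gauss valuation of `A` with `σ u = (U_q u * h) * (c * w ^ n)`,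
`c` divisor-free (here a constant, and `w = 1`). -/
theorem kron_frobenius (hq : q.Prime) (hqM : q ∣ M) (hA : A.LiesOverPrime q) {σ : GQ}
    (hσ : A.IsFrobeniusAt σ q) (hn : n ≠ 0) {u : modularFunctionFieldBar M}
    (hu : IsKummer Kbar n u) :
    ∃ h : modularFunctionFieldBar M, IsKummer Kbar n h ∧
      (Fermat.Agent.S18.helper8991.gaussF A (IsLocalRing.residue A) M).valuation (h - 1) < 1 ∧
      ∃ w c : modularFunctionFieldBar M, w ≠ 0 ∧ c ≠ 0 ∧
        (∀ v : Place Kbar (modularFunctionFieldBar M), v.ord c = 0) ∧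
        arithmeticGalois (modularFunctionFieldFull M) σ • u = (uFun M q u * h) * (c * w ^ n) := by
  obtain ⟨hUk, -⟩ := uOp_kummerClass (q := q) hn hu
  obtain ⟨hU0, c, hc, ho⟩ := exists_isOneAt_frobenius_of_dvd hq hqM hA hσ hu.ne_zero
  have hσk : IsKummer Kbar n (arithmeticGalois (modularFunctionFieldFull M) σ • u) :=
    (isKummer_smul_iff _).mpr hu
  have hc' : algebraMap Kbar (modularFunctionFieldBar M) c ≠ 0 := (map_ne_zero _).mpr hc
  have hck : IsKummer Kbar n (algebraMap Kbar (modularFunctionFieldBar M) c) :=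
    isKummer_of_ord_eq_zero n hc' (fun v => ord_algebraMap v c)
  refine ⟨_, hσk.div (hck.mul hUk), (isOneAt_iff_valuation M _).mp ho, 1,
    algebraMap Kbar (modularFunctionFieldBar M) c, one_ne_zero, hc',
    fun v => ord_algebraMap v c, ?_⟩
  rw [one_pow, mul_one]
  field_simp

omit [NeZero M] in
/-- **(KRON) for inertia**: for an `n`-Kummer `u` and `τ` in the inertia group of `A` there is an
`n`-Kummer `h ≡ 1` at the Gauss valuation of `A` with `τ u = (u * h) * (c * w ^ n)`. -/
theorem kron_inertia {τ : GQ} (hτ : τ ∈ A.inertiaSubgroupIn ℚ) {u : modularFunctionFieldBar M}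
    (hu : IsKummer Kbar n u) :
    ∃ h : modularFunctionFieldBar M, IsKummer Kbar n h ∧
      (Fermat.Agent.S18.helper8991.gaussF A (IsLocalRing.residue A) M).valuation (h - 1) < 1 ∧
      ∃ w c : modularFunctionFieldBar M, w ≠ 0 ∧ c ≠ 0 ∧
        (∀ v : Place Kbar (modularFunctionFieldBar M), v.ord c = 0) ∧
        arithmeticGalois (modularFunctionFieldFull M) τ • u = (u * h) * (c * w ^ n) := by
  obtain ⟨c, hc, ho⟩ := exists_isOneAt_inertia (A := A) hτ hu.ne_zero
  have hu0 := hu.ne_zero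
  have hτk : IsKummer Kbar n (arithmeticGalois (modularFunctionFieldFull M) τ • u) :=
    (isKummer_smul_iff _).mpr hu
  have hc' : algebraMap Kbar (modularFunctionFieldBar M) c ≠ 0 := (map_ne_zero _).mpr hc
  have hck : IsKummer Kbar n (algebraMap Kbar (modularFunctionFieldBar M) c) :=
    isKummer_of_ord_eq_zero n hc' (fun v => ord_algebraMap v c)
  refine ⟨_, hτk.div (hck.mul hu), (isOneAt_iff_valuation M _).mp ho, 1,
    algebraMap Kbar (modularFunctionFieldBar M) c, one_ne_zero, hc',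
    fun v => ord_algebraMap v c, ?_⟩
  rw [one_pow, mul_one]
  field_simp

/-- **Step (1) of #2739, class form, unconditional**: for a prime `q ∣ M`, `x ∈ J₀(M)[n]` and
`σ` a Frobenius lift at `A ∣ q`: `σ x - U_q x ∈ K^∞_n`. -/
theorem frobenius_sub_uOp_mem_of_dvd (hq : q.Prime) (hqM : q ∣ M) (hA : A.LiesOverPrime q)
    {σ : GQ} (hσ : A.IsFrobeniusAt σ q) (hn : n ≠ 0) {x : JZero M} (hx : (n : ℤ) • x = 0) :
    σ • x - uOp M q x ∈ kInfty A M n :=
  frobenius_sub_uOp_mem hq hA hσ (stmt_UqBridge hq hqM) hn hx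

/-- **Step (1) of #2739, transported, unconditional**: for a prime `q ∣ M`, `x ∈ J₀(M)[n]`, `σ` a
Frobenius lift at `A ∣ q` and `W` a `ℚ̄`-automorphism of `F_M` commuting with Galois
(Atkin–Lehner): `σ x - W U_q W⁻¹ x ∈ K^0_n = W K^∞_n`. -/
theorem frobenius_sub_conj_uOp_mem_of_dvd (hq : q.Prime) (hqM : q ∣ M) (hA : A.LiesOverPrime q)
    {σ : GQ} (hσ : A.IsFrobeniusAt σ q)
    (W : modularFunctionFieldBar M ≃ₐ[Kbar] modularFunctionFieldBar M)
    (hW : ∀ (σ : GQ) (z : modularFunctionFieldBar M),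
      W (arithmeticGalois (modularFunctionFieldFull M) σ • z) =
        arithmeticGalois (modularFunctionFieldFull M) σ • W z)
    (hn : n ≠ 0) {x : JZero M} (hx : (n : ℤ) • x = 0) :
    σ • x - W • uOp M q (W⁻¹ • x) ∈ kZero A M n W :=
  frobenius_sub_conj_uOp_mem hq hA hσ (stmt_UqBridge hq hqM) W hW hn hx

end Unconditional

/-! ### `K^∞_n ⊓ K^0_n`: class form ⟺ function-field form of the Tor-statements -/

section TorForms

open Fermat.Agent.S29.helper8217

variable {A : ValuationSubring Kbar} {M n : ℕ} [NeZero M]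

/-- "`g` acts as multiplication by `e` on `K^∞_n ⊓ K^0_n`", class form ⟺ Kummer-class form on
representatives (one representative for each valuation).
TorFrob is `g = σ * σ`, `e = q ^ 2`; TorFix is `g = τ`, `e = 1`. -/
theorem smul_eq_nsmul_on_tor_iff
    (W : modularFunctionFieldBar M ≃ₐ[Kbar] modularFunctionFieldBar M) (g : GQ) (e : ℕ) :
    (∀ y : JZero M, y ∈ kInfty A M n → y ∈ kZero A M n W → g • y = e • y) ↔
      ∀ h₁ h₂ : modularFunctionFieldBar M, IsKummer Kbar n h₁ → IsKummer Kbar n h₂ →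
        IsOneAt A (h₁ : LaurentSeries Kbar) →
        IsOneAt A ((W.symm h₂ : modularFunctionFieldBar M) : LaurentSeries Kbar) →
        kummerClass Kbar n h₁ = kummerClass Kbar n h₂ →
        kummerClass Kbar n (arithmeticGalois (modularFunctionFieldFull M) g • h₁) =
          kummerClass Kbar n (h₁ ^ e) := by
  constructor
  · intro H h₁ h₂ hk₁ hk₂ ho₁ ho₂ hc
    have h1 := H (kummerClass Kbar n h₁) ⟨h₁, hk₁, ho₁, rfl⟩
      (mem_kZero_iff_exists.mpr ⟨h₂, hk₂, ho₂, hc.symm⟩)
    rw [galois_smul_kummerClass] at h1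
    rw [h1, kummerClass_pow hk₁]
  · rintro H _ ⟨h₁, hk₁, ho₁, rfl⟩ hy
    obtain ⟨h₂, hk₂, ho₂, hc⟩ := mem_kZero_iff_exists.mp hy
    rw [galois_smul_kummerClass, H h₁ h₂ hk₁ hk₂ ho₁ ho₂ hc.symm, kummerClass_pow hk₁]

/-- The same in pure function-field vocabulary: valuations of the Gauss ring
`helper8991.gaussF A (residue A) M` and "equal up to a divisor-free element times an `n`-th
power" (`x = y * (c * w ^ n)`), the shape of the geometry exports. -/
theorem smul_eq_nsmul_on_tor_iff_ff (hn : n ≠ 0)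
    (W : modularFunctionFieldBar M ≃ₐ[Kbar] modularFunctionFieldBar M) (g : GQ) (e : ℕ) :
    (∀ y : JZero M, y ∈ kInfty A M n → y ∈ kZero A M n W → g • y = e • y) ↔
      ∀ h₁ h₂ : modularFunctionFieldBar M, IsKummer Kbar n h₁ → IsKummer Kbar n h₂ →
        (Fermat.Agent.S18.helper8991.gaussF A (IsLocalRing.residue A) M).valuation (h₁ - 1) < 1 →
        (Fermat.Agent.S18.helper8991.gaussF A (IsLocalRing.residue A) M).valuation
          (W.symm h₂ - 1) < 1 →
        (∃ w c : modularFunctionFieldBar M, w ≠ 0 ∧ c ≠ 0 ∧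
          (∀ v : Place Kbar (modularFunctionFieldBar M), v.ord c = 0) ∧ h₁ = h₂ * (c * w ^ n)) →
        ∃ w c : modularFunctionFieldBar M, w ≠ 0 ∧ c ≠ 0 ∧
          (∀ v : Place Kbar (modularFunctionFieldBar M), v.ord c = 0) ∧
          arithmeticGalois (modularFunctionFieldFull M) g • h₁ = h₁ ^ e * (c * w ^ n) := by
  rw [smul_eq_nsmul_on_tor_iff]
  refine forall₂_congr fun h₁ h₂ => forall₂_congr fun hk₁ hk₂ => ?_
  rw [isOneAt_iff_valuation, isOneAt_iff_valuation, kummerClass_eq_iff hn hk₁ hk₂,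
    kummerClass_eq_iff hn ((isKummer_smul_iff _).mpr hk₁) (hk₁.pow e)]

/-- **TorFrob** (`σ² = q²` on `K^∞_n ⊓ K^0_n`), class form ⟺ function-field form. -/
theorem torFrob_iff_ff (hn : n ≠ 0)
    (W : modularFunctionFieldBar M ≃ₐ[Kbar] modularFunctionFieldBar M) (σ : GQ) (q : ℕ) :
    (∀ y : JZero M, y ∈ kInfty A M n → y ∈ kZero A M n W → σ • σ • y = q ^ 2 • y) ↔
      ∀ h₁ h₂ : modularFunctionFieldBar M, IsKummer Kbar n h₁ → IsKummer Kbar n h₂ →
        (Fermat.Agent.S18.helper8991.gaussF A (IsLocalRing.residue A) M).valuation (h₁ - 1) < 1 →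
        (Fermat.Agent.S18.helper8991.gaussF A (IsLocalRing.residue A) M).valuation
          (W.symm h₂ - 1) < 1 →
        (∃ w c : modularFunctionFieldBar M, w ≠ 0 ∧ c ≠ 0 ∧
          (∀ v : Place Kbar (modularFunctionFieldBar M), v.ord c = 0) ∧ h₁ = h₂ * (c * w ^ n)) →
        ∃ w c : modularFunctionFieldBar M, w ≠ 0 ∧ c ≠ 0 ∧
          (∀ v : Place Kbar (modularFunctionFieldBar M), v.ord c = 0) ∧
          arithmeticGalois (modularFunctionFieldFull M) σ •
            arithmeticGalois (modularFunctionFieldFull M) σ • h₁ = h₁ ^ (q ^ 2) * (c * w ^ n) := by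
  have h := smul_eq_nsmul_on_tor_iff_ff (A := A) (M := M) hn W (σ * σ) (q ^ 2)
  simp only [mul_smul, map_mul] at h
  exact h

/-- **TorFix** (`τ = 1` on `K^∞_n ⊓ K^0_n`), class form ⟺ function-field form. -/
theorem torFix_iff_ff (hn : n ≠ 0)
    (W : modularFunctionFieldBar M ≃ₐ[Kbar] modularFunctionFieldBar M) (τ : GQ) :
    (∀ y : JZero M, y ∈ kInfty A M n → y ∈ kZero A M n W → τ • y = y) ↔
      ∀ h₁ h₂ : modularFunctionFieldBar M, IsKummer Kbar n h₁ → IsKummer Kbar n h₂ →
        (Fermat.Agent.S18.helper8991.gaussF A (IsLocalRing.residue A) M).valuation (h₁ - 1) < 1 →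
        (Fermat.Agent.S18.helper8991.gaussF A (IsLocalRing.residue A) M).valuation
          (W.symm h₂ - 1) < 1 →
        (∃ w c : modularFunctionFieldBar M, w ≠ 0 ∧ c ≠ 0 ∧
          (∀ v : Place Kbar (modularFunctionFieldBar M), v.ord c = 0) ∧ h₁ = h₂ * (c * w ^ n)) →
        ∃ w c : modularFunctionFieldBar M, w ≠ 0 ∧ c ≠ 0 ∧
          (∀ v : Place Kbar (modularFunctionFieldBar M), v.ord c = 0) ∧
          arithmeticGalois (modularFunctionFieldFull M) τ • h₁ = h₁ * (c * w ^ n) := by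
  have h := smul_eq_nsmul_on_tor_iff_ff (A := A) (M := M) hn W τ 1
  simp only [one_smul, pow_one] at h
  exact h

/-- **(UNI) from TorFix**: if `τ` in the inertia group of `A` fixes `K^∞_n ⊓ K^0_n` then
`(τ - 1)² = 0` on `J₀(M)[n]` (the shape of the hypothesis `hUni` of the S34 core). -/
theorem unipotent_of_torFix {τ : GQ} (hτ : τ ∈ A.inertiaSubgroupIn ℚ)
    (W : modularFunctionFieldBar M ≃ₐ[Kbar] modularFunctionFieldBar M)
    (hW : ∀ (σ : GQ) (z : modularFunctionFieldBar M),
      W (arithmeticGalois (modularFunctionFieldFull M) σ • z) =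
        arithmeticGalois (modularFunctionFieldFull M) σ • W z)
    (hn : n ≠ 0)
    (hT : ∀ y : JZero M, y ∈ kInfty A M n → y ∈ kZero A M n W → τ • y = y)
    {x : JZero M} (hx : (n : ℤ) • x = 0) :
    τ • τ • x - (2 : ℤ) • (τ • x) + x = 0 := by
  obtain ⟨h1, h2⟩ := inertia_sub_mem_inf hτ W hW hn hx
  have h3 := hT _ h1 h2
  rw [smul_sub] at h3
  have h4 : τ • τ • x = (τ • x - x) + τ • x := by
    rw [← h3]; abel
  rw [h4]
  abel

end TorForms






end

end Fermat.Agent.S35.helper1687
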