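import Fermat.Agent.S35.helper1073_AtkinLehnerSwap
import Fermat.Agent.S35.helper1219_AtkinLehnerFF
import Fermat.Agent.S35.helper1219_AtkinLehnerPic
import Fermat.Agent.S35.helper1687_UqCong

/-!
# S35/S34-WQ-FF, bridge (helper1073): the two Atkin–Lehner automorphisms on main agree

`helper1219.atkinLehnerBar q M h : FN (q * M) ≃ₐ[Kbar] FN (q * M)` (level written `q * M`,
`q` coprime to `M`) and `helper1073.atkinLehnerBar M' q hq hqM hq2 : FN M' ≃ₐ[Kbar] FN M'`
(any level `M'` exactly divisible by the prime `q`) are the same map at level `q * M`.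
So every statement proved for one of them (analytic form `evFun_alA_apply`, Fricke comparison;
exchange of the Prelude degeneracy maps `heckeAlphaBar` / `heckeBetaBar`) is available for the
other.
-/

set_option autoImplicit false

open ModularCurve

namespace Fermat.Agent.S35.helper1073

open Fermat.Agent.S24.helper24
open Fermat.Agent.S24.helper137

noncomputable section

theorem not_sq_dvd_of_coprime {q M : ℕ} (hq : q.Prime) (h : Nat.Coprime q M) :
    ¬ q ^ 2 ∣ q * M := by
  intro hd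
  rw [sq] at hd
  exact (Nat.Prime.coprime_iff_not_dvd hq).mp h ((Nat.mul_dvd_mul_iff_left hq.pos).mp hd)

/-- The two constructions of `W_q` agree at level `q * M`. -/
theorem atkinLehnerBar_eq_helper1219 (q M : ℕ) [NeZero q] [NeZero M] (hq : q.Prime)
    (h : Nat.Coprime q M) (z : FN (q * M)) :
    helper1219.atkinLehnerBar q M h z
      = atkinLehnerBar (q * M) q hq (dvd_mul_right q M) (not_sq_dvd_of_coprime hq h) z := by
  refine eq_atkinLehnerBar (q * M) q hq (dvd_mul_right q M) (not_sq_dvd_of_coprime hq h)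
    (helper1219.atkinLehnerBar q M h).toAlgHom (fun e => ?_) z
  haveI := e.neZero
  haveI : NeZero (wIdx q e.1) := ⟨wIdx_ne_zero hq e.neZero.ne⟩
  show helper1219.atkinLehnerBar q M h (jBarD (q * M) e.1 e.2)
    = jBarD (q * M) (wIdx q e.1) (wIdx_dvd hq (dvd_mul_right q M) e.2)
  by_cases hd : q ∣ e.1
  · obtain ⟨d, hd'⟩ := hd
    have hdM : d ∣ M := (Nat.mul_dvd_mul_iff_left hq.pos).mp (hd' ▸ e.2)
    obtain ⟨m, hm⟩ := hdM
    exact helper1219.atkinLehnerBar_jBarD_of_eq q M h e.2 _ (e := q) (f := 1) (d := d) (m := m)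
      (mul_one q).symm hm hd'
      (by rw [wIdx_of_dvd ⟨d, hd'⟩, hd', Nat.mul_div_cancel_left _ hq.pos, one_mul])
  · have hcop : Nat.Coprime e.1 q := Nat.Coprime.symm ((Nat.Prime.coprime_iff_not_dvd hq).mpr hd)
    have heM : e.1 ∣ M := hcop.dvd_of_dvd_mul_left e.2
    obtain ⟨m, hm⟩ := heM
    exact helper1219.atkinLehnerBar_jBarD_of_eq q M h e.2 _ (e := 1) (f := q) (d := e.1) (m := m)
      (one_mul q).symm hm (one_mul e.1).symm (by rw [wIdx_of_not_dvd hd, mul_comm])

/-! ## `K^0_n = W_q K^∞_n` in terms of the canonical operator `atkinLehnerPic`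

(for the S35 / S34 Spec: `helper1687.kZero A M n (atkinLehnerBar M q hq hqM hq2)`.) -/

section KZero

variable (M q : ℕ) [NeZero M] (hq : q.Prime) (hqM : q ∣ M) (hq2 : ¬ q ^ 2 ∣ M)

/-- `K^0_n = W_q K^∞_n` (`helper1687.kZero` at `W = atkinLehnerBar`) in terms of the canonical
operator: `y ∈ K^0_n ↔ W_q y ∈ K^∞_n`. -/
theorem mem_kZero_atkinLehnerBar_iff (A : ValuationSubring Kbar) (n : ℕ) (y : JZero M) :
    y ∈ helper1687.kZero A M n (atkinLehnerBar M q hq hqM hq2)
      ↔ atkinLehnerPic M q hq hqM hq2 y ∈ helper1687.kInfty A M n := by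
  rw [helper1687.mem_kZero_iff]
  constructor
  · rintro ⟨z, hz, rfl⟩
    rw [atkinLehnerPic_apply', atkinLehnerBar_smul_smul]
    exact hz
  · intro h
    exact ⟨_, h, by rw [atkinLehnerPic_apply', atkinLehnerBar_smul_smul]⟩

/-- `K^0_n` is the image of `K^∞_n` under the canonical operator. -/
theorem atkinLehnerPic_mem_kZero (A : ValuationSubring Kbar) (n : ℕ) {z : JZero M}
    (hz : z ∈ helper1687.kInfty A M n) :
    atkinLehnerPic M q hq hqM hq2 z ∈ helper1687.kZero A M n (atkinLehnerBar M q hq hqM hq2) := by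
  rw [mem_kZero_atkinLehnerBar_iff, atkinLehnerPic_atkinLehnerPic]
  exact hz

/-- The Galois-commutation hypothesis `hW` of `helper1687.frobenius_sub_conj_uOp_mem_of_dvd`,
`inertia_sub_mem_inf`, `galois_smul_algEquiv_smul` for `W = atkinLehnerBar`. -/
theorem atkinLehnerBar_hW (σ : Kbar ≃ₐ[ℚ] Kbar) (z : FN M) :
    atkinLehnerBar M q hq hqM hq2 (arithmeticGalois (modularFunctionFieldFull M) σ • z)
      = arithmeticGalois (modularFunctionFieldFull M) σ • atkinLehnerBar M q hq hqM hq2 z :=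
  atkinLehnerBar_arithmeticGalois_smul M q hq hqM hq2 σ z

end KZero

/-! ## All the `W_q` on main are the canonical one

`helper1219.atkinLehnerAt` (level-general), `helper1219.atkinLehnerBarR` (level `M * q`),
`helper1219.wPic` / `wPicAll` (on `JZero M`) versus `atkinLehnerBar` / `atkinLehnerPic`. -/

section MoreBridges

/-- helper1219's level-general `atkinLehnerAt` is the canonical `atkinLehnerBar`. -/
theorem atkinLehnerAt_eq (M q : ℕ) [NeZero M] [NeZero q] (hq : q.Prime) (hqM : q ∣ M)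
    (hq2 : ¬ q ^ 2 ∣ M) (z : FN M) :
    helper1219.atkinLehnerAt M q hq hqM hq2 z = atkinLehnerBar M q hq hqM hq2 z := by
  refine (helper1219.eq_atkinLehnerAt_of_jBarD M q hq hqM hq2
    ((atkinLehnerBar M q hq hqM hq2 : FN M ≃ₐ[Kbar] FN M) : FN M →ₐ[Kbar] FN M) ?_ ?_ z).symm
  · intro d _ _ hd hqd hqdM
    show atkinLehnerBar M q hq hqM hq2 (jBarD M d hd) = jBarD M (q * d) hqdM
    haveI : NeZero (d * q) := ⟨Nat.mul_ne_zero (NeZero.ne d) (NeZero.ne q)⟩
    rw [atkinLehnerBar_jBarD_of_not_dvd M q hq hqM hq2 d hd hqd (by rw [mul_comm]; exact hqdM)]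
    exact jBarD_congr M (mul_comm d q) _ _
  · intro d _ _ hqd hd
    show atkinLehnerBar M q hq hqM hq2 (jBarD M (q * d) hqd) = jBarD M d hd
    haveI : NeZero (d * q) := ⟨Nat.mul_ne_zero (NeZero.ne d) (NeZero.ne q)⟩
    rw [jBarD_congr M (mul_comm q d) hqd (by rw [mul_comm]; exact hqd)]
    exact atkinLehnerBar_jBarD_mul M q hq hqM hq2 d _ hd

/-- As `ℚ̄`-algebra automorphisms. -/
theorem atkinLehnerAt_eq' (M q : ℕ) [NeZero M] [NeZero q] (hq : q.Prime) (hqM : q ∣ M)
    (hq2 : ¬ q ^ 2 ∣ M) :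
    helper1219.atkinLehnerAt M q hq hqM hq2 = atkinLehnerBar M q hq hqM hq2 :=
  AlgEquiv.ext (atkinLehnerAt_eq M q hq hqM hq2)

/-- helper1219's `atkinLehnerBarR` (level written `M * q`, the Prelude shape of the degeneracy
maps) is the canonical `atkinLehnerBar` at level `M * q`. -/
theorem atkinLehnerBarR_eq (M q : ℕ) [NeZero M] [NeZero q] (hq : q.Prime)
    (h : Nat.Coprime q M) (z : FN (M * q)) :
    helper1219.atkinLehnerBarR M q h z
      = atkinLehnerBar (M * q) q hq (dvd_mul_left q M)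
          (helper1219.not_sq_dvd_mul_of_not_dvd hq ((Nat.Prime.coprime_iff_not_dvd hq).mp h))
          z := by
  rw [← atkinLehnerAt_eq (M * q) q hq (dvd_mul_left q M)
    (helper1219.not_sq_dvd_mul_of_not_dvd hq ((Nat.Prime.coprime_iff_not_dvd hq).mp h)) z]
  exact (helper1219.atkinLehnerAt_eq_atkinLehnerBarR M q hq
    ((Nat.Prime.coprime_iff_not_dvd hq).mp h) z).symm

/-- helper1219's `wPic` is the canonical `atkinLehnerPic`. -/
theorem wPic_eq_atkinLehnerPic (M q : ℕ) [NeZero M] [NeZero q] (hq : q.Prime) (hqM : q ∣ M)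
    (hq2 : ¬ q ^ 2 ∣ M) :
    helper1219.wPic M q hq hqM hq2 = atkinLehnerPic M q hq hqM hq2 := by
  refine AddMonoidHom.ext fun x => ?_
  rw [helper1219.wPic_apply, atkinLehnerPic_apply, atkinLehnerSemi, atkinLehnerAt_eq']

/-- helper1219's total form `wPicAll` at a prime `q ∥ M` is the canonical `atkinLehnerPic`. -/
theorem wPicAll_eq_atkinLehnerPic (M q : ℕ) [NeZero M] [NeZero q] (hq : q.Prime) (hqM : q ∣ M)
    (hq2 : ¬ q ^ 2 ∣ M) :
    helper1219.wPicAll M q = atkinLehnerPic M q hq hqM hq2 := by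
  rw [helper1219.wPicAll_eq M q hq hqM hq2, wPic_eq_atkinLehnerPic]

end MoreBridges

end

end Fermat.Agent.S35.helper1073
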