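import Fermat.Agent.S37.helper137_Swap
import Fermat.Agent.S29.helper5500_GalHecke
import Fermat.Agent.S29.helper8217_KummerClass
import Fermat.Prelude.Def_ModularCurve_HeckeOperator
import Fermat.Prelude.Def_ModularCurve_ArithmeticGalois
import Fermat.Prelude.Def_ModularCurve_HeckeModule

/-!
# S35/S34-WQ-FF (helper1073): the Atkin–Lehner automorphism `W_q` of the function field of
`X₀(M)` for a prime `q` exactly dividing `M`

`Kbar = AlgebraicClosure ℚ`, `FN M = modularFunctionFieldBar M = ℚ̄(j(t^d) : d ∣ M)`.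
For a prime `q` with `q ∣ M` and `¬ q ^ 2 ∣ M` (the shape of the frozen S34 / S35 hypotheses; no
product decomposition of the level is needed):

* `atkinLehnerBar M q hq hqM hq2 : FN M ≃ₐ[Kbar] FN M`, with
  `j(t^d) ↦ j(t^(d q))` for `q ∤ d` and `j(t^(d q)) ↦ j(t^d)`
  (`atkinLehnerBar_jBarD`, `atkinLehnerBar_jBarD_of_not_dvd`, `atkinLehnerBar_jBarD_mul`,
  `atkinLehnerBar_jBar`);
* it is an involution (`atkinLehnerBar_atkinLehnerBar`, `atkinLehnerBar_symm`);
* it is unique with these values (`eq_atkinLehnerBar`);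
* it commutes with the coefficientwise Galois action of `Gal(ℚ̄/ℚ)` on `FN M`
  (`atkinLehnerBar_arithmeticRingAut`): `W_q` is defined over `ℚ`;
* it exchanges the two degeneracy maps `α, β : F_N → F_{N q}` of the Prelude
  (`atkinLehnerBar_heckeAlphaBar`, `atkinLehnerBar_heckeBetaBar`), `q ∤ N`;
* it commutes with the degeneracy maps `α, β : F_M → F_{M ℓ}` for `q ∤ ℓ`
  (`atkinLehnerBar_heckeAlphaBar_comm`, `atkinLehnerBar_heckeBetaBar_comm`);
* `atkinLehnerSemi M q hq hqM hq2 : SemilinearAut Kbar (FN M)`: `W_q` acting on places, divisors,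
  `JZero M` and its torsion through the Prelude actions; on `JZero M` it is an involution
  (`atkinLehnerSemi_smul_smul`), commutes with `Gal(ℚ̄/ℚ)` (`atkinLehnerSemi_smul_galois`) and
  with the Prelude Hecke operators `heckeOperatorBar M ℓ`, `ℓ ≠ q`
  (`atkinLehnerSemi_smul_heckeOperatorBar`); `atkinLehnerTorsion` is the induced `ZMod n`-linear
  involution of `JZero M [n]`, commuting with `JZero.torsionGaloisRep`.

Internals: the kernel lemma of the S24 cusp dictionary in `∀ τ` form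
(`helper137.aeval_genF_eq_zero_iff_forall`) and the substitution `τ ↦ γ (q τ)`, `γ ∈ SL₂(ℤ)` with
bottom row `(M / q, q)`.
-/

set_option autoImplicit false

open ModularCurve AlgebraicCurve UpperHalfPlane Complex
open scoped MatrixGroups Real

namespace Fermat.Agent.S35.helper1073

open Fermat.Agent.S24.helper24
open Fermat.Agent.S24.helper137
open Fermat.Agent.S37.helper137

noncomputable section

/-! ## The index map -/

/-- `e ↦ e / q` if `q ∣ e`, and `e ↦ e q` otherwise. -/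
def wIdx (q e : ℕ) : ℕ := if q ∣ e then e / q else e * q

theorem wIdx_of_dvd {q e : ℕ} (h : q ∣ e) : wIdx q e = e / q := if_pos h

theorem wIdx_of_not_dvd {q e : ℕ} (h : ¬ q ∣ e) : wIdx q e = e * q := if_neg h

theorem wIdx_mul_self {q : ℕ} (hq : 0 < q) (d : ℕ) : wIdx q (d * q) = d := by
  rw [wIdx_of_dvd (dvd_mul_left q d), Nat.mul_div_cancel _ hq]

theorem wIdx_dvd {M q e : ℕ} (hq : q.Prime) (hqM : q ∣ M) (he : e ∣ M) : wIdx q e ∣ M := by
  by_cases h : q ∣ e
  · rw [wIdx_of_dvd h]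
    exact (Nat.div_dvd_of_dvd h).trans he
  · rw [wIdx_of_not_dvd h]
    have hcop : Nat.Coprime e q := Nat.Coprime.symm ((Nat.Prime.coprime_iff_not_dvd hq).mpr h)
    exact hcop.mul_dvd_of_dvd_of_dvd he hqM

theorem wIdx_ne_zero {q e : ℕ} (hq : q.Prime) (he : e ≠ 0) : wIdx q e ≠ 0 := by
  by_cases h : q ∣ e
  · rw [wIdx_of_dvd h]
    obtain ⟨d, rfl⟩ := h
    rw [Nat.mul_div_cancel_left _ hq.pos]
    rintro rfl
    exact he (mul_zero q)
  · rw [wIdx_of_not_dvd h]
    exact Nat.mul_ne_zero he hq.ne_zero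

theorem wIdx_wIdx {M q e : ℕ} (hq : q.Prime) (hq2 : ¬ q ^ 2 ∣ M) (he : e ∣ M) :
    wIdx q (wIdx q e) = e := by
  by_cases h : q ∣ e
  · obtain ⟨d, rfl⟩ := h
    rw [wIdx_of_dvd (dvd_mul_right q d), Nat.mul_div_cancel_left _ hq.pos]
    have hd : ¬ q ∣ d := by
      rintro ⟨c, rfl⟩
      apply hq2
      refine Dvd.dvd.trans ?_ he
      exact ⟨c, by ring⟩
    rw [wIdx_of_not_dvd hd, mul_comm]
  · rw [wIdx_of_not_dvd h, wIdx_mul_self hq.pos]

/-! ## Affine maps of the upper half plane -/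

theorem affH_div_affH_one {d l : ℤ} (hd : 0 < d) (hl : 0 < l) (τ : ℍ) :
    affH d 0 l (affH l 0 1 τ) = affH d 0 1 τ := by
  apply UpperHalfPlane.ext
  rw [coe_affH hd hl, coe_affH hl one_pos, coe_affH hd one_pos]
  have hl0 : (l : ℂ) ≠ 0 := by exact_mod_cast hl.ne'
  push_cast
  field_simp
  ring

theorem affH_affH_inv {l : ℤ} (hl : 0 < l) (x : ℍ) :
    affH l 0 1 (affH 1 0 l x) = x := by
  apply UpperHalfPlane.ext
  rw [coe_affH hl one_pos, coe_affH one_pos hl]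
  have hl0 : (l : ℂ) ≠ 0 := by exact_mod_cast hl.ne'
  push_cast
  field_simp
  ring

/-- The analytic Atkin–Lehner substitution: `j(e · W τ) = j(wIdx e · τ)` for `e ∣ N q`,
`W τ = γ (q τ)`, `γ ∈ SL₂(ℤ)` with bottom row `(N, q)`. -/
theorem jConj_atkinLehner {N q e : ℕ} (hq : q.Prime) (γ : SL(2, ℤ))
    (h10 : γ 1 0 = N) (h11 : γ 1 1 = q) (he0 : 0 < e) (he : e ∣ N * q) (τ : ℍ) :
    jConj e 1 (γ • affH (q : ℤ) 0 1 τ) = jConj (wIdx q e) 1 τ := by
  have hqpos : (0 : ℤ) < q := by exact_mod_cast hq.pos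
  simp only [jConj, inv_one, one_smul]
  by_cases hdvd : q ∣ e
  · obtain ⟨d, rfl⟩ := hdvd
    have hdN : d ∣ N := by
      rw [mul_comm N q] at he
      exact (Nat.mul_dvd_mul_iff_left hq.pos).mp he
    have hd0 : 0 < d := by
      rcases Nat.eq_zero_or_pos d with h | h
      · rw [h, mul_zero] at he0; exact absurd he0 (lt_irrefl 0)
      · exact h
    rw [wIdx_of_dvd (dvd_mul_right q d), Nat.mul_div_cancel_left _ hq.pos]
    have hcast : ((q * d : ℕ) : ℤ) = (d : ℤ) * q := by push_cast; ring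
    rw [hcast, jFun_affH_gamma_of_dvd_mul γ h10 h11 hq.pos hd0 hdN,
      affH_div_affH_one (by exact_mod_cast hd0) hqpos]
  · have heN : e ∣ N := by
      have hcop : Nat.Coprime e q :=
        Nat.Coprime.symm ((Nat.Prime.coprime_iff_not_dvd hq).mpr hdvd)
      exact hcop.dvd_of_dvd_mul_right he
    have hcast : ((e * q : ℕ) : ℤ) = (e : ℤ) * q := by push_cast; ring
    rw [wIdx_of_not_dvd hdvd, jFun_affH_gamma_of_dvd γ h10 h11 he0 heN,
      affH_affH_one (by exact_mod_cast he0) hqpos, hcast]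

/-! ## The Atkin–Lehner endomorphism on generators -/

theorem jSeries_congr {d d' : ℕ} [NeZero d] [NeZero d'] (h : d = d') : jSeries d = jSeries d' := by
  subst h
  rfl

theorem jBarD_congr (M : ℕ) {d d' : ℕ} [NeZero d] [NeZero d'] (h : d = d') (hd : d ∣ M)
    (hd' : d' ∣ M) : jBarD M d hd = jBarD M d' hd' :=
  Subtype.ext (jSeries_congr h)

/-- The target family `e ↦ j(t^(wIdx e))`, in the function field of level `M`. -/
def wGen (M : ℕ) {q : ℕ} [NeZero M] (hq : q.Prime) (hqM : q ∣ M) (e : Dv M) : FN M :=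
  haveI : NeZero (wIdx q e.1) := ⟨wIdx_ne_zero hq e.neZero.ne⟩
  jBarD M (wIdx q e.1) (wIdx_dvd hq hqM e.2)

theorem wGen_eq_genF (M : ℕ) {q : ℕ} [NeZero M] (hq : q.Prime) (hqM : q ∣ M) (e : Dv M) :
    wGen M hq hqM e = genF M ⟨wIdx q e.1, wIdx_dvd hq hqM e.2⟩ :=
  rfl

/-- **Existence of the Atkin–Lehner endomorphism** of the function field of level `M` at a prime
`q` exactly dividing `M`. -/
theorem exists_atkinLehner {M q : ℕ} [NeZero M] (hq : q.Prime) (hqM : q ∣ M)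
    (hq2 : ¬ q ^ 2 ∣ M) :
    ∃ W : FN M →ₐ[Kbar] FN M, ∀ e : Dv M, W (genF M e) = wGen M hq hqM e := by
  obtain ⟨N, rfl⟩ : ∃ N, M = N * q := ⟨M / q, (Nat.div_mul_cancel hqM).symm⟩
  have hcop : Nat.Coprime q N := by
    rw [Nat.Prime.coprime_iff_not_dvd hq]
    intro h
    apply hq2
    rw [sq]
    exact Nat.mul_dvd_mul h (dvd_refl q)
  obtain ⟨γ, h10, h11⟩ := exists_gamma hcop
  have hqpos : (0 : ℤ) < q := by exact_mod_cast hq.pos
  haveI inst : ∀ e : Dv (N * q), NeZero (wIdx q e.1) :=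
    fun e => ⟨wIdx_ne_zero hq e.neZero.ne⟩
  refine exists_algHom (N * q) (wGen (N * q) hq hqM) fun P => ?_
  have hcoe : ((MvPolynomial.aeval (wGen (N * q) hq hqM) P : FN (N * q)) : LaurentSeries Kbar)
      = MvPolynomial.aeval (fun e : Dv (N * q) => jSeries (wIdx q e.1)) P :=
    MvPolynomial.comp_aeval_apply (wGen (N * q) hq hqM) (modularFunctionFieldBar (N * q)).val P
  have h1 : MvPolynomial.aeval (wGen (N * q) hq hqM) P = 0 ↔
      MvPolynomial.aeval (fun e : Dv (N * q) => jSeries (wIdx q e.1)) P = 0 := by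
    rw [← hcoe]
    exact ⟨fun h => by rw [h]; rfl, fun h => Subtype.ext h⟩
  have h2 : MvPolynomial.aeval (fun e : Dv (N * q) => jSeries (wIdx q e.1)) P = 0 ↔
      ∀ τ : ℍ, MvPolynomial.eval₂ phi0 (fun e : Dv (N * q) => jConj (wIdx q e.1) 1 τ) P = 0 :=
    aeval_jSeries_eq_zero_iff_forall (fun e : Dv (N * q) => wIdx q e.1) P
  rw [aeval_genF_eq_zero_iff_forall, h1, h2]
  have key : ∀ τ : ℍ, (fun e : Dv (N * q) => jConj e.1 1 (γ • affH (q : ℤ) 0 1 τ))
      = fun e : Dv (N * q) => jConj (wIdx q e.1) 1 τ := by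
    intro τ
    funext e
    exact jConj_atkinLehner hq γ h10 h11 (Nat.pos_of_ne_zero e.neZero.ne) e.2 τ
  constructor
  · intro h τ
    rw [← key]
    exact h _
  · intro h τ
    have h' := h (affH 1 0 (q : ℤ) (γ⁻¹ • τ))
    rw [← key, affH_affH_inv hqpos, smul_inv_smul] at h'
    exact h'

/-- The Atkin–Lehner endomorphism `W_q` of the function field of level `M`. -/
def atkinLehnerHom (M q : ℕ) [NeZero M] (hq : q.Prime) (hqM : q ∣ M) (hq2 : ¬ q ^ 2 ∣ M) :
    FN M →ₐ[Kbar] FN M :=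
  Classical.choose (exists_atkinLehner hq hqM hq2)

theorem atkinLehnerHom_genF (M q : ℕ) [NeZero M] (hq : q.Prime) (hqM : q ∣ M)
    (hq2 : ¬ q ^ 2 ∣ M) (e : Dv M) :
    atkinLehnerHom M q hq hqM hq2 (genF M e) = wGen M hq hqM e :=
  Classical.choose_spec (exists_atkinLehner hq hqM hq2) e

theorem atkinLehnerHom_atkinLehnerHom (M q : ℕ) [NeZero M] (hq : q.Prime) (hqM : q ∣ M)
    (hq2 : ¬ q ^ 2 ∣ M) (z : FN M) :
    atkinLehnerHom M q hq hqM hq2 (atkinLehnerHom M q hq hqM hq2 z) = z := by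
  have h : (atkinLehnerHom M q hq hqM hq2).comp (atkinLehnerHom M q hq hqM hq2)
      = AlgHom.id Kbar (FN M) := by
    refine algHom_ext_genF M fun e => ?_
    rw [AlgHom.comp_apply, atkinLehnerHom_genF, wGen_eq_genF, atkinLehnerHom_genF,
      AlgHom.id_apply]
    haveI := e.neZero
    haveI : NeZero (wIdx q e.1) := ⟨wIdx_ne_zero hq e.neZero.ne⟩
    haveI : NeZero (wIdx q (wIdx q e.1)) := ⟨wIdx_ne_zero hq (wIdx_ne_zero hq e.neZero.ne)⟩
    exact jBarD_congr M (wIdx_wIdx hq hq2 e.2) _ e.2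
  exact congrArg (fun f : FN M →ₐ[Kbar] FN M => f z) h

/-! ## The automorphism -/

/-- **The Atkin–Lehner automorphism `W_q`** of the function field of `X₀(M)` over `ℚ̄`, for a
prime `q` exactly dividing `M`. -/
def atkinLehnerBar (M q : ℕ) [NeZero M] (hq : q.Prime) (hqM : q ∣ M) (hq2 : ¬ q ^ 2 ∣ M) :
    FN M ≃ₐ[Kbar] FN M :=
  AlgEquiv.ofAlgHom (atkinLehnerHom M q hq hqM hq2) (atkinLehnerHom M q hq hqM hq2)
    (AlgHom.ext fun z => atkinLehnerHom_atkinLehnerHom M q hq hqM hq2 z)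
    (AlgHom.ext fun z => atkinLehnerHom_atkinLehnerHom M q hq hqM hq2 z)

section API

variable (M q : ℕ) [NeZero M] (hq : q.Prime) (hqM : q ∣ M) (hq2 : ¬ q ^ 2 ∣ M)

theorem atkinLehnerBar_apply (z : FN M) :
    atkinLehnerBar M q hq hqM hq2 z = atkinLehnerHom M q hq hqM hq2 z := rfl

/-- (W3) `W_q` is an involution. -/
theorem atkinLehnerBar_atkinLehnerBar (z : FN M) :
    atkinLehnerBar M q hq hqM hq2 (atkinLehnerBar M q hq hqM hq2 z) = z :=
  atkinLehnerHom_atkinLehnerHom M q hq hqM hq2 z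

theorem atkinLehnerBar_symm :
    (atkinLehnerBar M q hq hqM hq2).symm = atkinLehnerBar M q hq hqM hq2 := rfl

theorem atkinLehnerBar_genF (e : Dv M) :
    atkinLehnerBar M q hq hqM hq2 (genF M e) = genF M ⟨wIdx q e.1, wIdx_dvd hq hqM e.2⟩ :=
  atkinLehnerHom_genF M q hq hqM hq2 e

/-- (W2), uniform form: `W_q (j(t^d)) = j(t^(wIdx q d))` for `d ∣ M`. -/
theorem atkinLehnerBar_jBarD (d : ℕ) [NeZero d] [NeZero (wIdx q d)] (hd : d ∣ M) :
    atkinLehnerBar M q hq hqM hq2 (jBarD M d hd) = jBarD M (wIdx q d) (wIdx_dvd hq hqM hd) :=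
  atkinLehnerHom_genF M q hq hqM hq2 ⟨d, hd⟩

/-- (W2) `W_q (j(t^d)) = j(t^(d q))` for `d ∣ M`, `q ∤ d`. -/
theorem atkinLehnerBar_jBarD_of_not_dvd (d : ℕ) [NeZero d] [NeZero (d * q)] (hd : d ∣ M)
    (hqd : ¬ q ∣ d) (hdq : d * q ∣ M) :
    atkinLehnerBar M q hq hqM hq2 (jBarD M d hd) = jBarD M (d * q) hdq := by
  haveI : NeZero (wIdx q d) := ⟨wIdx_ne_zero hq (NeZero.ne d)⟩
  rw [atkinLehnerBar_jBarD M q hq hqM hq2 d hd]
  exact jBarD_congr M (wIdx_of_not_dvd hqd) _ _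

/-- (W2) `W_q (j(t^(d q))) = j(t^d)` for `d q ∣ M`. -/
theorem atkinLehnerBar_jBarD_mul (d : ℕ) [NeZero d] [NeZero (d * q)] (hdq : d * q ∣ M)
    (hd : d ∣ M) :
    atkinLehnerBar M q hq hqM hq2 (jBarD M (d * q) hdq) = jBarD M d hd := by
  haveI : NeZero (wIdx q (d * q)) := ⟨wIdx_ne_zero hq (NeZero.ne (d * q))⟩
  rw [atkinLehnerBar_jBarD M q hq hqM hq2 (d * q) hdq]
  exact jBarD_congr M (wIdx_mul_self hq.pos d) _ _

/-- `W_q (j) = j_q`, i.e. `j(t) ↦ j(t^q)`. -/
theorem atkinLehnerBar_jBar [NeZero q] :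
    atkinLehnerBar M q hq hqM hq2 (jBar M) = jBarD M q hqM := by
  haveI : NeZero (wIdx q 1) := ⟨wIdx_ne_zero hq one_ne_zero⟩
  have h := atkinLehnerBar_jBarD M q hq hqM hq2 1 (one_dvd M)
  rw [show jBarD M 1 (one_dvd M) = jBar M from rfl] at h
  rw [h]
  have h1 : ¬ q ∣ 1 := fun hd => hq.one_lt.ne' (Nat.dvd_one.mp hd)
  exact jBarD_congr M ((wIdx_of_not_dvd h1).trans (one_mul q)) _ _

/-- `W_q (j_q) = j`. -/
theorem atkinLehnerBar_jBarD_self [NeZero q] :
    atkinLehnerBar M q hq hqM hq2 (jBarD M q hqM) = jBar M := by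
  rw [← atkinLehnerBar_jBar M q hq hqM hq2, atkinLehnerBar_atkinLehnerBar]

/-- The values on the `t`-expansions. -/
theorem coe_atkinLehnerBar_jBarD (d : ℕ) [NeZero d] [NeZero (wIdx q d)] (hd : d ∣ M) :
    ((atkinLehnerBar M q hq hqM hq2 (jBarD M d hd) : FN M) : LaurentSeries Kbar)
      = jSeries (wIdx q d) := by
  rw [atkinLehnerBar_jBarD M q hq hqM hq2 d hd]
  rfl

/-- Uniqueness: a `ℚ̄`-algebra endomorphism of the function field with the values of `W_q` on
the generators `j(t^d)` is `W_q`. -/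
theorem eq_atkinLehnerBar (Φ : FN M →ₐ[Kbar] FN M)
    (h : ∀ e : Dv M, Φ (genF M e) = genF M ⟨wIdx q e.1, wIdx_dvd hq hqM e.2⟩) (z : FN M) :
    Φ z = atkinLehnerBar M q hq hqM hq2 z := by
  have h' : Φ = atkinLehnerHom M q hq hqM hq2 :=
    algHom_ext_genF M fun e => (h e).trans (atkinLehnerHom_genF M q hq hqM hq2 e).symm
  rw [h']
  rfl

end API

/-! ## `W_q` is defined over `ℚ`: commutation with the coefficientwise Galois action -/

section Galois

variable (M q : ℕ) [NeZero M] (hq : q.Prime) (hqM : q ∣ M) (hq2 : ¬ q ^ 2 ∣ M)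

theorem coeffMap_jSeries (σ : Kbar ≃ₐ[ℚ] Kbar) (d : ℕ) [NeZero d] :
    coeffMap (σ : Kbar →+* Kbar) (jSeries d) = jSeries d := by
  rw [jSeries, coeffEmb, coeffMap_coeffMap]
  exact coeffMap_congr (Subsingleton.elim _ _) _

theorem arithmeticRingAut_genF (σ : Kbar ≃ₐ[ℚ] Kbar) (e : Dv M) :
    arithmeticRingAut (modularFunctionFieldFull M) σ (genF M e) = genF M e := by
  haveI := e.neZero
  exact Subtype.ext (coeffMap_jSeries σ e.1)

/-- (W6) `W_q` commutes with the coefficientwise action of `Gal(ℚ̄/ℚ)` on the function field. -/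
theorem atkinLehnerBar_arithmeticRingAut (σ : Kbar ≃ₐ[ℚ] Kbar) (z : FN M) :
    atkinLehnerBar M q hq hqM hq2 (arithmeticRingAut (modularFunctionFieldFull M) σ z)
      = arithmeticRingAut (modularFunctionFieldFull M) σ (atkinLehnerBar M q hq hqM hq2 z) := by
  set A := arithmeticRingAut (modularFunctionFieldFull M) σ with hA
  set W := atkinLehnerBar M q hq hqM hq2 with hW
  -- the conjugate `A⁻¹ ∘ W ∘ A` is a `ℚ̄`-algebra endomorphism with the same values on generators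
  let ψ : FN M →ₐ[Kbar] FN M :=
    { toRingHom := (A.symm.toRingHom.comp (W : FN M →+* FN M)).comp A.toRingHom
      commutes' := fun c => by
        show A.symm (W (A (algebraMap Kbar (FN M) c))) = algebraMap Kbar (FN M) c
        rw [hA, arithmeticRingAut_algebraMap, ← hA, AlgEquiv.commutes, RingEquiv.symm_apply_eq,
          hA, arithmeticRingAut_algebraMap] }
  have hψ : ∀ x : FN M, ψ x = A.symm (W (A x)) := fun x => rfl
  have hgen : ∀ e : Dv M, ψ (genF M e) = genF M ⟨wIdx q e.1, wIdx_dvd hq hqM e.2⟩ := by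
    intro e
    rw [hψ, hA, arithmeticRingAut_genF, hW, atkinLehnerBar_genF, RingEquiv.symm_apply_eq,
      arithmeticRingAut_genF]
  have h := eq_atkinLehnerBar M q hq hqM hq2 ψ hgen z
  rw [hψ, RingEquiv.symm_apply_eq] at h
  exact h

/-- (W6), `SemilinearAut` form: `W_q` commutes with `arithmeticGalois`. -/
theorem atkinLehnerBar_arithmeticGalois_smul (σ : Kbar ≃ₐ[ℚ] Kbar) (z : FN M) :
    atkinLehnerBar M q hq hqM hq2 (arithmeticGalois (modularFunctionFieldFull M) σ • z)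
      = arithmeticGalois (modularFunctionFieldFull M) σ • atkinLehnerBar M q hq hqM hq2 z :=
  atkinLehnerBar_arithmeticRingAut M q hq hqM hq2 σ z

end Galois

/-! ## `W_q` exchanges the two degeneracy maps `α, β : F_N → F_{N q}` -/

section Degeneracy

variable (N q : ℕ) [NeZero N] [NeZero q] (hq : q.Prime) (hqN : ¬ q ∣ N)

include hq hqN in
theorem not_sq_dvd_mul : ¬ q ^ 2 ∣ N * q := by
  intro h
  apply hqN
  rw [sq] at h
  exact (Nat.mul_dvd_mul_iff_right hq.pos).mp h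

theorem coe_heckeBetaBar_genF (d : Dv N) :
    ((heckeBetaBar Kbar N q (genF N d) : FN (N * q)) : LaurentSeries Kbar)
      = (haveI := d.neZero; jSeries (q * d.1)) := by
  haveI := d.neZero
  show qExpand Kbar q (coeffEmb Kbar (qExpand ℚ d.1 jq)) = coeffEmb Kbar (qExpand ℚ (q * d.1) jq)
  rw [coeffEmb, ← coeffMap_qExpand, qExpand_qExpand]

/-- (W7) `W_q ∘ α = β` on the function field of level `N`, `q ∤ N`. -/
theorem atkinLehnerBar_heckeAlphaBar (y : FN N) :
    atkinLehnerBar (N * q) q hq (dvd_mul_left q N) (not_sq_dvd_mul N q hq hqN)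
        (heckeAlphaBar Kbar N q y) = heckeBetaBar Kbar N q y := by
  have h : ((atkinLehnerBar (N * q) q hq (dvd_mul_left q N)
      (not_sq_dvd_mul N q hq hqN)).toAlgHom.comp (heckeAlphaBar Kbar N q))
      = heckeBetaBar Kbar N q := by
    refine algHom_ext_genF N fun d => ?_
    haveI := d.neZero
    have hd : ¬ q ∣ d.1 := fun hqd => hqN (hqd.trans d.2)
    haveI : NeZero (d.1 * q) := ⟨Nat.mul_ne_zero (NeZero.ne d.1) hq.ne_zero⟩
    have hα : heckeAlphaBar Kbar N q (genF N d) = jBarD (N * q) d.1 (d.2.trans (dvd_mul_right N q)) :=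
      Subtype.ext (coe_heckeAlphaBar N q (genF N d))
    rw [AlgHom.comp_apply, hα]
    show atkinLehnerBar (N * q) q hq _ _ (jBarD (N * q) d.1 _) = _
    rw [atkinLehnerBar_jBarD_of_not_dvd (N * q) q hq (dvd_mul_left q N)
      (not_sq_dvd_mul N q hq hqN) d.1 _ hd (Nat.mul_dvd_mul d.2 (dvd_refl q))]
    apply Subtype.ext
    rw [coe_heckeBetaBar_genF]
    exact jSeries_congr (mul_comm d.1 q)
  exact congrArg (fun f : FN N →ₐ[Kbar] FN (N * q) => f y) h

/-- (W7) `W_q ∘ β = α` on the function field of level `N`, `q ∤ N`. -/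
theorem atkinLehnerBar_heckeBetaBar (y : FN N) :
    atkinLehnerBar (N * q) q hq (dvd_mul_left q N) (not_sq_dvd_mul N q hq hqN)
        (heckeBetaBar Kbar N q y) = heckeAlphaBar Kbar N q y := by
  rw [← atkinLehnerBar_heckeAlphaBar N q hq hqN y, atkinLehnerBar_atkinLehnerBar]

end Degeneracy

/-! ## `W_q` commutes with the degeneracy maps `α, β : F_M → F_{M ℓ}`, `q ∤ ℓ` -/

theorem wIdx_mul_left {q ℓ e : ℕ} (hq : q.Prime) (hℓ : ¬ q ∣ ℓ) :
    wIdx q (ℓ * e) = ℓ * wIdx q e := by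
  by_cases h : q ∣ e
  · rw [wIdx_of_dvd h, wIdx_of_dvd (h.mul_left ℓ), Nat.mul_div_assoc _ h]
  · have h' : ¬ q ∣ ℓ * e := fun hd => (hq.dvd_mul.mp hd).elim hℓ h
    rw [wIdx_of_not_dvd h, wIdx_of_not_dvd h', mul_assoc]

theorem qExpand_jSeries (ℓ d : ℕ) [NeZero ℓ] [NeZero d] [NeZero (ℓ * d)] :
    qExpand Kbar ℓ (jSeries d) = jSeries (ℓ * d) := by
  show qExpand Kbar ℓ (coeffEmb Kbar (qExpand ℚ d jq)) = coeffEmb Kbar (qExpand ℚ (ℓ * d) jq)
  rw [coeffEmb, ← coeffMap_qExpand, qExpand_qExpand]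

section LevelChange

variable (M q ℓ : ℕ) [NeZero M] [NeZero ℓ] (hq : q.Prime) (hqM : q ∣ M) (hq2 : ¬ q ^ 2 ∣ M)
  (hℓ : ¬ q ∣ ℓ)

include hq hq2 hℓ in
theorem not_sq_dvd_mul_of_not_dvd : ¬ q ^ 2 ∣ M * ℓ := by
  intro h
  have hcop : Nat.Coprime (q ^ 2) ℓ :=
    Nat.Coprime.pow_left 2 ((Nat.Prime.coprime_iff_not_dvd hq).mpr hℓ)
  exact hq2 (hcop.dvd_of_dvd_mul_right h)

/-- (W8) `W_q` at level `M ℓ` restricts to `W_q` at level `M` along `α`. -/
theorem atkinLehnerBar_heckeAlphaBar_comm (y : FN M) :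
    atkinLehnerBar (M * ℓ) q hq (hqM.mul_right ℓ) (not_sq_dvd_mul_of_not_dvd M q ℓ hq hq2 hℓ)
        (heckeAlphaBar Kbar M ℓ y)
      = heckeAlphaBar Kbar M ℓ (atkinLehnerBar M q hq hqM hq2 y) := by
  have h : ((atkinLehnerBar (M * ℓ) q hq (hqM.mul_right ℓ)
      (not_sq_dvd_mul_of_not_dvd M q ℓ hq hq2 hℓ)).toAlgHom.comp (heckeAlphaBar Kbar M ℓ))
      = (heckeAlphaBar Kbar M ℓ).comp (atkinLehnerBar M q hq hqM hq2).toAlgHom := by
    refine algHom_ext_genF M fun e => ?_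
    haveI := e.neZero
    haveI : NeZero (wIdx q e.1) := ⟨wIdx_ne_zero hq e.neZero.ne⟩
    have hα : heckeAlphaBar Kbar M ℓ (genF M e)
        = jBarD (M * ℓ) e.1 (e.2.trans (dvd_mul_right M ℓ)) :=
      Subtype.ext (coe_heckeAlphaBar M ℓ (genF M e))
    rw [AlgHom.comp_apply, AlgHom.comp_apply, hα]
    show atkinLehnerBar (M * ℓ) q hq _ _ (jBarD (M * ℓ) e.1 _)
      = heckeAlphaBar Kbar M ℓ (atkinLehnerBar M q hq hqM hq2 (genF M e))
    rw [atkinLehnerBar_jBarD (M * ℓ) q hq (hqM.mul_right ℓ)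
      (not_sq_dvd_mul_of_not_dvd M q ℓ hq hq2 hℓ) e.1, atkinLehnerBar_genF]
    apply Subtype.ext
    rw [coe_heckeAlphaBar]
    rfl
  exact congrArg (fun f : FN M →ₐ[Kbar] FN (M * ℓ) => f y) h

/-- (W8) `W_q` at level `M ℓ` restricts to `W_q` at level `M` along `β`. -/
theorem atkinLehnerBar_heckeBetaBar_comm (y : FN M) :
    atkinLehnerBar (M * ℓ) q hq (hqM.mul_right ℓ) (not_sq_dvd_mul_of_not_dvd M q ℓ hq hq2 hℓ)
        (heckeBetaBar Kbar M ℓ y)
      = heckeBetaBar Kbar M ℓ (atkinLehnerBar M q hq hqM hq2 y) := by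
  have h : ((atkinLehnerBar (M * ℓ) q hq (hqM.mul_right ℓ)
      (not_sq_dvd_mul_of_not_dvd M q ℓ hq hq2 hℓ)).toAlgHom.comp (heckeBetaBar Kbar M ℓ))
      = (heckeBetaBar Kbar M ℓ).comp (atkinLehnerBar M q hq hqM hq2).toAlgHom := by
    refine algHom_ext_genF M fun e => ?_
    haveI := e.neZero
    haveI : NeZero (wIdx q e.1) := ⟨wIdx_ne_zero hq e.neZero.ne⟩
    haveI : NeZero (ℓ * e.1) := ⟨Nat.mul_ne_zero (NeZero.ne ℓ) (NeZero.ne e.1)⟩
    haveI : NeZero (wIdx q (ℓ * e.1)) := ⟨wIdx_ne_zero hq (NeZero.ne (ℓ * e.1))⟩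
    haveI : NeZero (ℓ * wIdx q e.1) := ⟨Nat.mul_ne_zero (NeZero.ne ℓ) (NeZero.ne (wIdx q e.1))⟩
    have hdvd : ℓ * e.1 ∣ M * ℓ := by
      rw [mul_comm M ℓ]
      exact Nat.mul_dvd_mul_left ℓ e.2
    have hβ : heckeBetaBar Kbar M ℓ (genF M e) = jBarD (M * ℓ) (ℓ * e.1) hdvd :=
      Subtype.ext (qExpand_jSeries ℓ e.1)
    rw [AlgHom.comp_apply, AlgHom.comp_apply, hβ]
    show atkinLehnerBar (M * ℓ) q hq _ _ (jBarD (M * ℓ) (ℓ * e.1) _)
      = heckeBetaBar Kbar M ℓ (atkinLehnerBar M q hq hqM hq2 (genF M e))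
    rw [atkinLehnerBar_jBarD (M * ℓ) q hq (hqM.mul_right ℓ)
      (not_sq_dvd_mul_of_not_dvd M q ℓ hq hq2 hℓ) (ℓ * e.1), atkinLehnerBar_genF]
    apply Subtype.ext
    show jSeries (wIdx q (ℓ * e.1)) = qExpand Kbar ℓ (jSeries (wIdx q e.1))
    rw [qExpand_jSeries ℓ (wIdx q e.1)]
    exact jSeries_congr (wIdx_mul_left hq hℓ)
  exact congrArg (fun f : FN M →ₐ[Kbar] FN (M * ℓ) => f y) h

end LevelChange

/-! ## `W_q` on places, divisors, `JZero M` and its torsion -/

section JZeroAction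

open AlgebraicCurve

variable (M q : ℕ) [NeZero M] (hq : q.Prime) (hqM : q ∣ M) (hq2 : ¬ q ^ 2 ∣ M)

/-- `W_q` as a (`ℚ̄`-linear) semilinear automorphism of the function field: through the Prelude
actions of `SemilinearAut` it acts on `Place`, `Divisor`, `JZero M = Pic0` and the torsion. -/
def atkinLehnerSemi : SemilinearAut Kbar (FN M) :=
  SemilinearAut.ofAlgAut (atkinLehnerBar M q hq hqM hq2)

theorem atkinLehnerSemi_smul (z : FN M) :
    atkinLehnerSemi M q hq hqM hq2 • z = atkinLehnerBar M q hq hqM hq2 z := rfl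

theorem atkinLehnerSemi_mul_self :
    atkinLehnerSemi M q hq hqM hq2 * atkinLehnerSemi M q hq hqM hq2 = 1 := by
  rw [atkinLehnerSemi, ← map_mul, ← map_one SemilinearAut.ofAlgAut]
  congr 1
  exact AlgEquiv.ext fun z => atkinLehnerBar_atkinLehnerBar M q hq hqM hq2 z

theorem atkinLehnerSemi_inv :
    (atkinLehnerSemi M q hq hqM hq2)⁻¹ = atkinLehnerSemi M q hq hqM hq2 :=
  inv_eq_of_mul_eq_one_left (atkinLehnerSemi_mul_self M q hq hqM hq2)

/-- `W_q` commutes with the arithmetic Galois action, as elements of `SemilinearAut`. -/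
theorem atkinLehnerSemi_mul_arithmeticGalois (σ : Kbar ≃ₐ[ℚ] Kbar) :
    atkinLehnerSemi M q hq hqM hq2 * arithmeticGalois (modularFunctionFieldFull M) σ
      = arithmeticGalois (modularFunctionFieldFull M) σ * atkinLehnerSemi M q hq hqM hq2 := by
  refine Subtype.ext (Prod.ext (RingEquiv.ext fun z => ?_) ?_)
  · exact atkinLehnerBar_arithmeticRingAut M q hq hqM hq2 σ z
  · show (1 : RingAut Kbar) * σ.toRingEquiv = σ.toRingEquiv * 1
    rw [one_mul, mul_one]

/-- `W_q` is an involution of `JZero M`. -/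
theorem atkinLehnerSemi_smul_smul (x : JZero M) :
    atkinLehnerSemi M q hq hqM hq2 • atkinLehnerSemi M q hq hqM hq2 • x = x := by
  rw [← mul_smul, atkinLehnerSemi_mul_self, one_smul]

/-- `W_q` commutes with the Galois action on `JZero M`. -/
theorem atkinLehnerSemi_smul_galois (σ : Kbar ≃ₐ[ℚ] Kbar) (x : JZero M) :
    atkinLehnerSemi M q hq hqM hq2 • (σ • x) = σ • (atkinLehnerSemi M q hq hqM hq2 • x) := by
  rw [galois_smul_pic0_def, galois_smul_pic0_def, ← mul_smul, ← mul_smul,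
    atkinLehnerSemi_mul_arithmeticGalois]

/-- `W_q` at levels `M` and `M ℓ` are intertwined along `α`, `q ∤ ℓ`. -/
theorem atkinLehnerSemi_intertwines_heckeAlphaBar (ℓ : ℕ) [NeZero ℓ] (hℓ : ¬ q ∣ ℓ) :
    SemilinearAut.IntertwinesAlong
      ((heckeAlphaBar Kbar M ℓ : FN M →ₐ[Kbar] FN (M * ℓ)) : FN M →+* FN (M * ℓ))
      (atkinLehnerSemi M q hq hqM hq2)
      (atkinLehnerSemi (M * ℓ) q hq (hqM.mul_right ℓ)
        (not_sq_dvd_mul_of_not_dvd M q ℓ hq hq2 hℓ)) :=
  fun y => atkinLehnerBar_heckeAlphaBar_comm M q ℓ hq hqM hq2 hℓ y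

/-- `W_q` at levels `M` and `M ℓ` are intertwined along `β`, `q ∤ ℓ`. -/
theorem atkinLehnerSemi_intertwines_heckeBetaBar (ℓ : ℕ) [NeZero ℓ] (hℓ : ¬ q ∣ ℓ) :
    SemilinearAut.IntertwinesAlong
      ((heckeBetaBar Kbar M ℓ : FN M →ₐ[Kbar] FN (M * ℓ)) : FN M →+* FN (M * ℓ))
      (atkinLehnerSemi M q hq hqM hq2)
      (atkinLehnerSemi (M * ℓ) q hq (hqM.mul_right ℓ)
        (not_sq_dvd_mul_of_not_dvd M q ℓ hq hq2 hℓ)) :=
  fun y => atkinLehnerBar_heckeBetaBar_comm M q ℓ hq hqM hq2 hℓ y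

/-- `W_q` commutes with the Prelude Hecke correspondence at `ℓ` on `Pic⁰`, `q ∤ ℓ`
(unconditionally: if the Hecke inputs fail the operator is `0`). -/
theorem atkinLehnerSemi_smul_heckeOperatorAlong (ℓ : ℕ) [NeZero ℓ] (hℓ : ¬ q ∣ ℓ) (x : JZero M) :
    heckeOperatorAlong Kbar M ℓ (atkinLehnerSemi M q hq hqM hq2 • x)
      = atkinLehnerSemi M q hq hqM hq2 • heckeOperatorAlong Kbar M ℓ x := by
  by_cases h : HeckeInputsAlong Kbar M ℓ
  · obtain ⟨hα, hβ, hP, hfin, hFI, hN⟩ := h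
    haveI := hP
    rw [heckeOperatorAlong_eq hα hβ hFI hfin hN]
    exact Fermat.Agent.S29.helper5500.pic0_correspondence_smul (heckeBetaBar Kbar M ℓ)
      (heckeAlphaBar Kbar M ℓ) hβ hα hFI hfin hN _ _
      (atkinLehnerSemi_intertwines_heckeBetaBar M q hq hqM hq2 ℓ hℓ)
      (atkinLehnerSemi_intertwines_heckeAlphaBar M q hq hqM hq2 ℓ hℓ) x
  · rw [heckeOperatorAlong_of_not h]
    simp

/-- **`W_q` commutes with the Prelude Hecke operators `T_ℓ` on `JZero M`, `ℓ ≠ q`.** -/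
theorem atkinLehnerSemi_smul_heckeOperatorBar (ℓ : Nat.Primes) (hℓq : (ℓ : ℕ) ≠ q) (x : JZero M) :
    atkinLehnerSemi M q hq hqM hq2 • heckeOperatorBar M ℓ x
      = heckeOperatorBar M ℓ (atkinLehnerSemi M q hq hqM hq2 • x) := by
  haveI : NeZero (ℓ : ℕ) := ⟨ℓ.2.ne_zero⟩
  have hℓ : ¬ q ∣ (ℓ : ℕ) := fun hd =>
    hℓq (((Nat.prime_dvd_prime_iff_eq hq ℓ.2).mp hd).symm)
  rw [heckeOperatorBar_apply, heckeOperatorBar_apply]
  exact (atkinLehnerSemi_smul_heckeOperatorAlong M q hq hqM hq2 (ℓ : ℕ) hℓ x).symm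

/-- The `ZMod n`-linear involution of `JZero M [n]` induced by `W_q`. -/
def atkinLehnerTorsion (n : ℕ) : Module.End (ZMod n) (Pic0.torsion Kbar (FN M) n) :=
  SemilinearAut.torsionRep Kbar (FN M) n (atkinLehnerSemi M q hq hqM hq2)

theorem atkinLehnerTorsion_apply (n : ℕ) (x : Pic0.torsion Kbar (FN M) n) :
    atkinLehnerTorsion M q hq hqM hq2 n x = atkinLehnerSemi M q hq hqM hq2 • x := rfl

theorem coe_atkinLehnerTorsion_apply (n : ℕ) (x : Pic0.torsion Kbar (FN M) n) :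
    ((atkinLehnerTorsion M q hq hqM hq2 n x : Pic0.torsion Kbar (FN M) n) : JZero M)
      = atkinLehnerSemi M q hq hqM hq2 • (x : JZero M) := rfl

theorem atkinLehnerTorsion_mul_self (n : ℕ) :
    atkinLehnerTorsion M q hq hqM hq2 n * atkinLehnerTorsion M q hq hqM hq2 n = 1 := by
  rw [atkinLehnerTorsion, ← map_mul, atkinLehnerSemi_mul_self, map_one]

theorem atkinLehnerTorsion_comm_torsionGaloisRep (n : ℕ) (σ : Kbar ≃ₐ[ℚ] Kbar) :
    atkinLehnerTorsion M q hq hqM hq2 n * JZero.torsionGaloisRep M n σ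
      = JZero.torsionGaloisRep M n σ * atkinLehnerTorsion M q hq hqM hq2 n := by
  show SemilinearAut.torsionRep Kbar (FN M) n (atkinLehnerSemi M q hq hqM hq2)
      * SemilinearAut.torsionRep Kbar (FN M) n (arithmeticGalois (modularFunctionFieldFull M) σ)
    = SemilinearAut.torsionRep Kbar (FN M) n (arithmeticGalois (modularFunctionFieldFull M) σ)
      * SemilinearAut.torsionRep Kbar (FN M) n (atkinLehnerSemi M q hq hqM hq2)
  rw [← map_mul, ← map_mul, atkinLehnerSemi_mul_arithmeticGalois]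

end JZeroAction

/-! ## Additions (03:50Z): the `AlgEquiv` action, and `W_q` as an additive endomorphism

The Prelude has two actions on `Pic⁰`: of `F ≃ₐ[K] F` (used by `helper1687.kZero`) and of
`SemilinearAut K F` (used above); they agree (`ofAlgAut_smul_pic0`).  `atkinLehnerPic` is the
canonical operator `W_q : JZero M →+ JZero M`. -/

section TwoActions

open scoped Pointwise

variable {K F : Type*} [Field K] [Field F] [Algebra K F]

/-- The Prelude actions of `F ≃ₐ[K] F` and of `SemilinearAut K F` on places agree. -/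
theorem ofAlgAut_smul_place (W : F ≃ₐ[K] F) (v : Place K F) :
    SemilinearAut.ofAlgAut W • v = W • v := by
  apply Place.ext
  show SemilinearAut.ofAlgAut W • v.toValuationSubring = W • v.toValuationSubring
  ext x
  rw [ValuationSubring.mem_pointwise_smul_iff_inv_smul_mem,
    ValuationSubring.mem_pointwise_smul_iff_inv_smul_mem]
  rfl

/-- The Prelude actions of `F ≃ₐ[K] F` and of `SemilinearAut K F` on divisors agree. -/
theorem ofAlgAut_smul_divisor (W : F ≃ₐ[K] F) (D : Divisor K F) :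
    SemilinearAut.ofAlgAut W • D = W • D := by
  rw [SemilinearAut.divisor_smul_def, Divisor.smul_def]
  exact congrArg (fun f : Place K F → Place K F => Finsupp.mapDomain f D)
    (funext fun v => ofAlgAut_smul_place W v)

/-- **The Prelude actions of `F ≃ₐ[K] F` and of `SemilinearAut K F` on `Pic⁰` agree.** -/
theorem ofAlgAut_smul_pic0 (W : F ≃ₐ[K] F) (x : Pic0 K F) :
    SemilinearAut.ofAlgAut W • x = W • x := by
  obtain ⟨D, rfl⟩ := Pic0.mk_surjective x
  rw [SemilinearAut.pic0_smul_mk, Pic0.smul_mk]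
  exact congrArg Pic0.mk (Subtype.ext (ofAlgAut_smul_divisor W (D : Divisor K F)))

end TwoActions

section PicHom

variable (M q : ℕ) [NeZero M] (hq : q.Prime) (hqM : q ∣ M) (hq2 : ¬ q ^ 2 ∣ M)

/-- On `JZero M`, the semilinear action of `W_q` is the `AlgEquiv` action of `atkinLehnerBar`
(the action used by `helper1687.kZero`). -/
theorem atkinLehnerSemi_smul_eq (x : JZero M) :
    atkinLehnerSemi M q hq hqM hq2 • x = atkinLehnerBar M q hq hqM hq2 • x :=
  ofAlgAut_smul_pic0 (atkinLehnerBar M q hq hqM hq2) x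

/-- `W_q` is an involution of `JZero M`, `AlgEquiv`-action form. -/
theorem atkinLehnerBar_smul_smul (x : JZero M) :
    atkinLehnerBar M q hq hqM hq2 • atkinLehnerBar M q hq hqM hq2 • x = x := by
  rw [← atkinLehnerSemi_smul_eq, ← atkinLehnerSemi_smul_eq, atkinLehnerSemi_smul_smul]

/-- `W_q⁻¹ = W_q` on `JZero M`, `AlgEquiv`-action form. -/
theorem atkinLehnerBar_inv_smul (x : JZero M) :
    (atkinLehnerBar M q hq hqM hq2)⁻¹ • x = atkinLehnerBar M q hq hqM hq2 • x := by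
  rw [inv_smul_eq_iff, atkinLehnerBar_smul_smul]

/-- `W_q` commutes with the Galois action on `JZero M`, `AlgEquiv`-action form. -/
theorem atkinLehnerBar_smul_galois (σ : Kbar ≃ₐ[ℚ] Kbar) (x : JZero M) :
    atkinLehnerBar M q hq hqM hq2 • (σ • x) = σ • (atkinLehnerBar M q hq hqM hq2 • x) := by
  rw [← atkinLehnerSemi_smul_eq, ← atkinLehnerSemi_smul_eq, atkinLehnerSemi_smul_galois]

/-- **`W_q` as an additive endomorphism of `JZero M`** (the canonical operator `W_q` of the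
S35 / S34 seam). -/
def atkinLehnerPic : JZero M →+ JZero M :=
  DistribSMul.toAddMonoidHom (JZero M) (atkinLehnerSemi M q hq hqM hq2)

theorem atkinLehnerPic_apply (x : JZero M) :
    atkinLehnerPic M q hq hqM hq2 x = atkinLehnerSemi M q hq hqM hq2 • x := rfl

theorem atkinLehnerPic_apply' (x : JZero M) :
    atkinLehnerPic M q hq hqM hq2 x = atkinLehnerBar M q hq hqM hq2 • x :=
  atkinLehnerSemi_smul_eq M q hq hqM hq2 x

/-- `W_q ∘ W_q = 1` on `JZero M`. -/
theorem atkinLehnerPic_atkinLehnerPic (x : JZero M) :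
    atkinLehnerPic M q hq hqM hq2 (atkinLehnerPic M q hq hqM hq2 x) = x :=
  atkinLehnerSemi_smul_smul M q hq hqM hq2 x

/-- `W_q` commutes with `Gal(ℚ̄/ℚ)` on all of `JZero M`. -/
theorem galois_smul_atkinLehnerPic (σ : Kbar ≃ₐ[ℚ] Kbar) (x : JZero M) :
    σ • atkinLehnerPic M q hq hqM hq2 x = atkinLehnerPic M q hq hqM hq2 (σ • x) :=
  (atkinLehnerSemi_smul_galois M q hq hqM hq2 σ x).symm

/-- `W_q` commutes with the Prelude Hecke operators `T_ℓ`, `ℓ ≠ q`, on `JZero M`. -/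
theorem atkinLehnerPic_heckeOperatorBar (ℓ : Nat.Primes) (hℓq : (ℓ : ℕ) ≠ q) (x : JZero M) :
    atkinLehnerPic M q hq hqM hq2 (heckeOperatorBar M ℓ x)
      = heckeOperatorBar M ℓ (atkinLehnerPic M q hq hqM hq2 x) :=
  atkinLehnerSemi_smul_heckeOperatorBar M q hq hqM hq2 ℓ hℓq x

/-- `W_q` on Kummer classes: `W_q [u]_n = [W_q u]_n`. -/
theorem atkinLehnerPic_kummerClass [HasPrincipalDivisors Kbar (FN M)] (n : ℕ) (u : FN M) :
    atkinLehnerPic M q hq hqM hq2 (Fermat.Agent.S29.helper8217.kummerClass Kbar n u)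
      = Fermat.Agent.S29.helper8217.kummerClass Kbar n (atkinLehnerBar M q hq hqM hq2 u) :=
  Fermat.Agent.S29.helper8217.smul_kummerClass (atkinLehnerSemi M q hq hqM hq2) n u

/-- `W_q` preserves `n`-torsion. -/
theorem atkinLehnerPic_zsmul (m : ℤ) (x : JZero M) :
    atkinLehnerPic M q hq hqM hq2 (m • x) = m • atkinLehnerPic M q hq hqM hq2 x :=
  map_zsmul _ m x

end PicHom

end

end Fermat.Agent.S35.helper1073
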