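/-
S35 / S34, integration leaf (E5) of the shared geometry module, abstract part (helper2423).

Setting (two Gauss valuations `v_∞`, `v_0` on a function field `F`):
`O = V_∞ ∩ V_0`, `ρ : O →+* Rt` the simultaneous reduction (`Rt = κ_∞ × κ_0` or a subring),
`T` the group of `n`-Kummer elements `h` with `ρ h = 1`, and for every `h ∈ T` the lattice
`Lam h = {a ∈ O : n ord_P a + ord_P h ≥ 0 for all places P of a chart}`.

* `one_mem_Mc_pow`: the `n`-th power of a glued module
  `M_c = {(a, b) : Q_i b = c_i P_i a}` (`c_i ^ n = 1`) contains `1`.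
* `exists_mem_pow_of_red`: hence, if `ρ (Lam h) = M_c`, some element of `(Lam h) ^ n`
  reduces to `1`  (statement (GEN)).
* `torfix_core`: if `τ` is an automorphism of `F` which is the identity after reduction and
  (GEN) holds for `h`, then `Lam (τ h / h)` contains an element reducing to `1`.

Together with the two-chart Kummer core ("a section reducing to `1` in both charts forces an
`n`-th power") this gives: inertia acts trivially on the toric classes.
No glueing constant is compared between charts, no homomorphism property is used.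
-/
import Mathlib
import Fermat.Agent.S29.helper8217_KummerClass
import Fermat.Agent.S37.helper8523_KroneckerDiv

set_option autoImplicit false

namespace Fermat.Agent.S35.helper2423

/-! ### Lagrange interpolation for finitely many distinct points -/

section Interp

variable {k B ι : Type*} [Field k] [CommRing B] [Algebra k B] [Finite ι]

/-- Finitely many pairwise distinct `k`-points of a `k`-algebra can be interpolated. -/
theorem exists_interp (Q : ι → B →ₐ[k] k) (hQ : Function.Injective Q) (v : ι → k) :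
    ∃ b : B, ∀ i, Q i b = v i := by
  classical
  cases nonempty_fintype ι
  -- separating elements
  have hsep : ∀ i j : ι, i ≠ j → ∃ b : B, Q i b ≠ Q j b := by
    intro i j hij
    by_contra hcon
    exact hij (hQ (AlgHom.ext fun b => not_not.mp fun hb => hcon ⟨b, hb⟩))
  choose! s hs using hsep
  -- the delta functions
  let δ : ι → B := fun i =>
    ∏ j ∈ Finset.univ.erase i,
      (s i j - algebraMap k B (Q j (s i j))) * algebraMap k B ((Q i (s i j) - Q j (s i j))⁻¹)
  have hδ1 : ∀ i, Q i (δ i) = 1 := by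
    intro i
    simp only [δ, map_prod, map_mul, map_sub, AlgHom.commutes, Algebra.algebraMap_self_apply]
    refine Finset.prod_eq_one fun j hj => ?_
    have hij : i ≠ j := fun h => (Finset.ne_of_mem_erase hj) h.symm
    exact mul_inv_cancel₀ (sub_ne_zero.mpr (hs i j hij))
  have hδ0 : ∀ i l, l ≠ i → Q l (δ i) = 0 := by
    intro i l hl
    simp only [δ, map_prod, map_mul, map_sub, AlgHom.commutes, Algebra.algebraMap_self_apply]
    refine Finset.prod_eq_zero (Finset.mem_erase.mpr ⟨hl, Finset.mem_univ l⟩) ?_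
    simp
  refine ⟨∑ i, algebraMap k B (v i) * δ i, fun l => ?_⟩
  simp only [map_sum, map_mul, AlgHom.commutes, Algebra.algebraMap_self_apply]
  rw [Finset.sum_eq_single l]
  · rw [hδ1, mul_one]
  · intro i _ hil
    rw [hδ0 i l (Ne.symm hil), mul_zero]
  · intro h
    exact absurd (Finset.mem_univ l) h

end Interp

/-! ### The glued module `M_c` and its `n`-th power -/

section Glue

variable {k B1 B2 ι : Type*} [Field k] [CommRing B1] [CommRing B2] [Algebra k B1] [Algebra k B2]

/-- The glued module `M_c = {(a, b) : Q_i b = c_i * P_i a for all nodes i}` inside `B1 × B2`,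
as an additive subgroup (`ℤ`-submodule). -/
def Mc (P : ι → B1 →ₐ[k] k) (Q : ι → B2 →ₐ[k] k) (c : ι → k) : Submodule ℤ (B1 × B2) where
  carrier := {x | ∀ i, Q i x.2 = c i * P i x.1}
  add_mem' := by
    intro x y hx hy i
    simp only [Prod.snd_add, Prod.fst_add, map_add, hx i, hy i, mul_add]
  zero_mem' := by
    intro i
    simp
  smul_mem' := by
    intro z x hx i
    show Q i (z • x.2) = c i * P i (z • x.1)
    rw [map_zsmul, map_zsmul, hx i, zsmul_eq_mul, zsmul_eq_mul]
    ring

theorem mem_Mc {P : ι → B1 →ₐ[k] k} {Q : ι → B2 →ₐ[k] k} {c : ι → k} {x : B1 × B2} :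
    x ∈ Mc P Q c ↔ ∀ i, Q i x.2 = c i * P i x.1 := Iff.rfl

/-- The conductor `{(a, b) : P_i a = 0 = Q_i b}` lies in every power of `M_c`. -/
theorem conductor_le_Mc_pow [Finite ι] (P : ι → B1 →ₐ[k] k) (Q : ι → B2 →ₐ[k] k)
    (hQ : Function.Injective Q) (c : ι → k) (hc : ∀ i, c i ≠ 0) (j : ℕ) :
    ∀ z : B1 × B2, (∀ i, P i z.1 = 0) → (∀ i, Q i z.2 = 0) → z ∈ Mc P Q c ^ (j + 1) := by
  obtain ⟨e2, he2⟩ := exists_interp Q hQ c
  obtain ⟨d, hd⟩ := exists_interp Q hQ (fun i => (c i)⁻¹)
  -- `1 = m * r + z0` with `m ∈ M_c`, `z0` in the conductor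
  set m : B1 × B2 := (1, e2) with hm
  set r : B1 × B2 := (1, d) with hr
  set z0 : B1 × B2 := (0, 1 - e2 * d) with hz0
  have hmM : m ∈ Mc P Q c := fun i => by simp [hm, he2 i]
  have hone : (1 : B1 × B2) = m * r + z0 := by
    ext <;> simp [hm, hr, hz0]
  have hz0P : ∀ i, P i z0.1 = 0 := fun i => by simp [hz0]
  have hz0Q : ∀ i, Q i z0.2 = 0 := fun i => by
    simp [hz0, he2 i, hd i, mul_inv_cancel₀ (hc i)]
  have hcondM : ∀ z : B1 × B2, (∀ i, P i z.1 = 0) → (∀ i, Q i z.2 = 0) → z ∈ Mc P Q c := by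
    intro z hzP hzQ i
    rw [hzP i, hzQ i, mul_zero]
  induction j with
  | zero =>
    intro z hzP hzQ
    rw [zero_add, pow_one]
    exact hcondM z hzP hzQ
  | succ j ih =>
    intro z hzP hzQ
    have hz : z = m * (z * r) + z0 * z := by
      calc z = z * 1 := (mul_one z).symm
        _ = z * (m * r + z0) := by rw [← hone]
        _ = m * (z * r) + z0 * z := by ring
    rw [hz, pow_succ']
    refine add_mem (Submodule.mul_mem_mul hmM (ih _ ?_ ?_))
      (Submodule.mul_mem_mul (hcondM z0 hz0P hz0Q) (ih z hzP hzQ))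
    · intro i; simp [hzP i]
    · intro i; simp [hzQ i]

/-- **(S3)** If `c_i ^ n = 1` for all nodes, the `n`-th power of the glued module `M_c`
contains `1`. -/
theorem one_mem_Mc_pow [Finite ι] (P : ι → B1 →ₐ[k] k) (Q : ι → B2 →ₐ[k] k)
    (hQ : Function.Injective Q) (c : ι → k) (n : ℕ) (hn : 0 < n) (hc : ∀ i, c i ^ n = 1) :
    (1 : B1 × B2) ∈ Mc P Q c ^ n := by
  have hc0 : ∀ i, c i ≠ 0 := fun i h0 => by
    have := hc i
    rw [h0, zero_pow hn.ne'] at this
    exact zero_ne_one this
  obtain ⟨e2, he2⟩ := exists_interp Q hQ c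
  set m : B1 × B2 := (1, e2) with hm
  have hmM : m ∈ Mc P Q c := fun i => by simp [hm, he2 i]
  have h1 : m ^ n ∈ Mc P Q c ^ n := Submodule.pow_mem_pow _ hmM n
  have h2 : (1 : B1 × B2) - m ^ n ∈ Mc P Q c ^ n := by
    obtain ⟨j, rfl⟩ : ∃ j, n = j + 1 := ⟨n - 1, by omega⟩
    refine conductor_le_Mc_pow P Q hQ c hc0 j _ ?_ ?_
    · intro i; simp [hm]
    · intro i; simp [hm, he2 i, hc i]
  have : (1 : B1 × B2) = m ^ n + (1 - m ^ n) := by ring
  rw [this]
  exact add_mem h1 h2

end Glue

/-! ### Lifting `1 ∈ M_c ^ n` to the lattice -/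

section Lift

variable {F Rt : Type*} [Field F] [CommRing Rt]

/-- Powers of an additive subgroup contained in a subring stay in the subring. -/
theorem pow_le_of_le (O : Subring F) (M : Submodule ℤ F) (hM : ∀ a ∈ M, a ∈ O) (j : ℕ) :
    ∀ x ∈ M ^ j, x ∈ O := by
  intro x hx
  refine Submodule.pow_induction_on_left (M := M) (C := fun x => x ∈ O) ?_ ?_ ?_ hx
  · intro r
    simp
  · intro x y hx hy
    exact O.add_mem hx hy
  · intro m hm x hx
    exact O.mul_mem (hM m hm) hx

/-- **(GEN) from the shape of the reduced lattice.** If the reduction of the lattice `M` is a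
subgroup `Mbar` of `Rt` whose `n`-th power contains `1`, then some element of `M ^ n` reduces
to `1`. -/
theorem exists_mem_pow_of_red (O : Subring F) (ρ : O →+* Rt) (M : Submodule ℤ F)
    (hM : ∀ a ∈ M, a ∈ O) (Mbar : Submodule ℤ Rt)
    (hred : ∀ r ∈ Mbar, ∃ a, ∃ ha : a ∈ M, ρ ⟨a, hM a ha⟩ = r)
    (n : ℕ) (h1 : (1 : Rt) ∈ Mbar ^ n) :
    ∃ x, ∃ hx : x ∈ M ^ n, ρ ⟨x, pow_le_of_le O M hM n x hx⟩ = 1 := by
  have key : ∀ (j : ℕ) (r : Rt), r ∈ Mbar ^ j →
      ∃ x, ∃ hx : x ∈ M ^ j, ρ ⟨x, pow_le_of_le O M hM j x hx⟩ = r := by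
    intro j r hr
    induction hr using Submodule.pow_induction_on_left' with
    | algebraMap z =>
      refine ⟨(z : F), ?_, ?_⟩
      · rw [pow_zero]
        exact Submodule.mem_one.mpr ⟨z, by simp⟩
      · have : (⟨(z : F), pow_le_of_le O M hM 0 _ (by
            rw [pow_zero]; exact Submodule.mem_one.mpr ⟨z, by simp⟩)⟩ : O) = (z : O) := by
          ext; simp
        rw [this]
        simp
    | add x y i hx hy ihx ihy =>
      obtain ⟨a, ha, hax⟩ := ihx
      obtain ⟨b, hb, hby⟩ := ihy
      refine ⟨a + b, add_mem ha hb, ?_⟩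
      rw [← hax, ← hby, ← map_add]
      rfl
    | mem_mul m hm i x hx ih =>
      obtain ⟨a, ha, hax⟩ := ih
      obtain ⟨b, hb, hbm⟩ := hred m hm
      refine ⟨b * a, ?_, ?_⟩
      · rw [pow_succ']
        exact Submodule.mul_mem_mul hb ha
      · rw [← hax, ← hbm, ← map_mul]
        rfl
  exact key n 1 h1

end Lift

/-! ### The core: inertia fixes the toric classes -/

section Core

variable {F : Type*} [Field F]

/-- **(S2), abstract TORFIX core.**
`O` a subring of the field `F`, `mO` an additive subgroup of `F` stable under multiplication by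
`O` (the elements that reduce to `0`); `T` a group of units `h` of `F` lying in `O` with
`h ≡ 1 mod mO`; `Lam h ⊆ O` lattices with `Lam h * Lam h' ⊆ Lam (h h')` and
`Lam (g h ^ n) * h ⊆ Lam g`; `τ` an automorphism of `F` preserving `T` and the lattices and
inducing the identity modulo `mO`.  If some element of `(Lam h) ^ n` is `≡ 1 mod mO`, then
`Lam (τ h / h)` contains an element `≡ 1 mod mO`. -/
theorem torfix_core (n : ℕ) (hn : 0 < n) (O : Subring F) (mO : AddSubgroup F)
    (hmO : ∀ x ∈ O, ∀ y ∈ mO, x * y ∈ mO)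
    (T : Subgroup Fˣ) (hTO : ∀ h ∈ T, (h : F) ∈ O) (hT1 : ∀ h ∈ T, (h : F) - 1 ∈ mO)
    (Lam : Fˣ → Submodule ℤ F)
    (hLamO : ∀ h ∈ T, ∀ a ∈ Lam h, a ∈ O)
    (hmul : ∀ h ∈ T, ∀ h' ∈ T, ∀ a ∈ Lam h, ∀ b ∈ Lam h', a * b ∈ Lam (h * h'))
    (hshift : ∀ h ∈ T, ∀ g ∈ T, ∀ x ∈ Lam (g * h ^ n), x * (h : F) ∈ Lam g)
    (τ : F ≃+* F) (hτ : ∀ x ∈ O, τ x - x ∈ mO)
    (hτT : ∀ h ∈ T, Units.map (τ : F →* F) h ∈ T)
    (hτLam : ∀ h ∈ T, ∀ a ∈ Lam h, τ a ∈ Lam (Units.map (τ : F →* F) h))
    (h : Fˣ) (hh : h ∈ T)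
    (hGen : ∃ x ∈ Lam h ^ n, x - 1 ∈ mO) :
    ∃ y ∈ Lam (Units.map (τ : F →* F) h / h), y - 1 ∈ mO := by
  set h' : Fˣ := Units.map (τ : F →* F) h with hh'def
  have hh' : h' ∈ T := hτT h hh
  -- product closure: `b ∈ Lam g`, `x ∈ (Lam h)^j` ⟹ `b * x ∈ Lam (g * h ^ j)`
  have hprod : ∀ (j : ℕ) (x : F), x ∈ Lam h ^ j → ∀ g ∈ T, ∀ b ∈ Lam g,
      b * x ∈ Lam (g * h ^ j) := by
    intro j x hx
    induction hx using Submodule.pow_induction_on_left' with
    | algebraMap z =>
      intro g _ b hb
      rw [pow_zero, mul_one]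
      have : b * (algebraMap ℤ F z) = z • b := by
        rw [zsmul_eq_mul, mul_comm]; simp
      rw [this]
      exact (Lam g).smul_mem z hb
    | add x y i hx hy ihx ihy =>
      intro g hg b hb
      rw [mul_add]
      exact add_mem (ihx g hg b hb) (ihy g hg b hb)
    | mem_mul m hm i x hx ih =>
      intro g hg b hb
      have h1 : b * m ∈ Lam (g * h) := hmul g hg h hh b hb m hm
      have h2 := ih (g * h) (T.mul_mem hg hh) (b * m) h1
      have e : g * h * h ^ i = g * h ^ (i + 1) := by rw [pow_succ', mul_assoc]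
      rw [e] at h2
      rw [← mul_assoc]
      exact h2
  obtain ⟨j, rfl⟩ : ∃ j, n = j + 1 := ⟨n - 1, by omega⟩
  obtain ⟨x, hx, hx1⟩ := hGen
  have hLamjO : ∀ x ∈ Lam h ^ j, x ∈ O := pow_le_of_le O (Lam h) (hLamO h hh) j
  -- twist the first factor by `τ`
  have htw : ∀ x ∈ Lam h * Lam h ^ j, ∃ y ∈ Lam (h' * h ^ j), y - x ∈ mO := by
    intro x hx
    induction hx using Submodule.mul_induction_on' with
    | mem_mul_mem m hm x' hx' =>
      refine ⟨τ m * x', hprod j x' hx' h' hh' (τ m) (hτLam h hh m hm), ?_⟩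
      have e : τ m * x' - m * x' = x' * (τ m - m) := by ring
      rw [e]
      exact hmO x' (hLamjO x' hx') _ (hτ m (hLamO h hh m hm))
    | add x hx y hy ihx ihy =>
      obtain ⟨a, ha, hax⟩ := ihx
      obtain ⟨b, hb, hby⟩ := ihy
      refine ⟨a + b, add_mem ha hb, ?_⟩
      have e : a + b - (x + y) = (a - x) + (b - y) := by ring
      rw [e]
      exact add_mem hax hby
  have hx' : x ∈ Lam h * Lam h ^ j := by rw [← pow_succ']; exact hx
  obtain ⟨y, hy, hyx⟩ := htw x hx'
  -- shift by `h`
  have hg : h' / h ∈ T := T.div_mem hh' hh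
  have e : h' / h * h ^ (j + 1) = h' * h ^ j := by
    rw [pow_succ', ← mul_assoc, div_mul_cancel]
  have hyh : y * (h : F) ∈ Lam (h' / h) := hshift h hh (h' / h) hg y (by rw [e]; exact hy)
  refine ⟨y * (h : F), hyh, ?_⟩
  have hxO : x ∈ O := pow_le_of_le O (Lam h) (hLamO h hh) (j + 1) x hx
  have e2 : y * (h : F) - 1 = (h : F) * (y - x) + x * ((h : F) - 1) + (x - 1) := by ring
  rw [e2]
  exact add_mem (add_mem (hmO _ (hTO h hh) _ hyx) (hmO x hxO _ (hT1 h hh))) hx1

end Core

/-! ### Function-field form: (TORFIX) in the shape of the S34 bridge -/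

section FunctionField

open AlgebraicCurve Fermat.Agent.S29.helper8217

variable {K F : Type*} [Field K] [Field F] [Algebra K F]

/-- The elements of `F` that are non-units for both valuation subrings. -/
def mBoth (V₁ V₂ : ValuationSubring F) : AddSubgroup F where
  carrier := {x | V₁.valuation x < 1 ∧ V₂.valuation x < 1}
  add_mem' := by
    intro a b ha hb
    exact ⟨lt_of_le_of_lt (V₁.valuation.map_add a b) (max_lt ha.1 hb.1),
      lt_of_le_of_lt (V₂.valuation.map_add a b) (max_lt ha.2 hb.2)⟩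
  zero_mem' := by simp
  neg_mem' := by
    intro a ha
    simpa [Valuation.map_neg] using ha

theorem mem_mBoth {V₁ V₂ : ValuationSubring F} {x : F} :
    x ∈ mBoth V₁ V₂ ↔ V₁.valuation x < 1 ∧ V₂.valuation x < 1 := Iff.rfl

/-- **The chart lattice** of an element `h` (in the application an `n`-Kummer element with
`h ≡ 1` for both valuations): the elements `a` of `V₁ ∩ V₂` with `n ord_v a + ord_v h ≥ 0` at
every place `v` outside the set `X` (the poles of the chart coordinate). -/
def chartLat (K : Type*) {F : Type*} [Field K] [Field F] [Algebra K F]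
    (V₁ V₂ : ValuationSubring F) (X : Set (Place K F)) (n : ℕ) (h : F) : Submodule ℤ F :=
  AddSubgroup.toIntSubmodule
    { carrier := {a | V₁.valuation a ≤ 1 ∧ V₂.valuation a ≤ 1 ∧
        (a = 0 ∨ ∀ v : Place K F, v ∉ X → 0 ≤ (n : ℤ) * v.ord a + v.ord h)}
      add_mem' := by
        rintro a b ⟨ha1, ha2, ha⟩ ⟨hb1, hb2, hb⟩
        refine ⟨(V₁.valuation.map_add a b).trans (max_le ha1 hb1),
          (V₂.valuation.map_add a b).trans (max_le ha2 hb2), ?_⟩
        by_cases hab : a + b = 0
        · exact Or.inl hab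
        · refine Or.inr fun v hv => ?_
          rcases Nat.eq_zero_or_pos n with rfl | hn
          · rcases ha with rfl | ha
            · rcases hb with rfl | hb
              · simp at hab
              · simpa using hb v hv
            · simpa using ha v hv
          · have hn' : (0 : ℤ) < n := by exact_mod_cast hn
            -- `-(ord h) / n ≤ ord a, ord b`
            have key : ∀ c : F, (c = 0 ∨ ∀ v : Place K F, v ∉ X → 0 ≤ (n : ℤ) * v.ord c + v.ord h) →
                c = 0 ∨ -(v.ord h / (n : ℤ)) ≤ v.ord c := by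
              intro c hc
              rcases hc with rfl | hc
              · exact Or.inl rfl
              · refine Or.inr ?_
                have h1 := hc v hv
                have h2 : v.ord h / (n : ℤ) * n ≤ v.ord h := Int.ediv_mul_le _ hn'.ne'
                have h3 : v.ord h < (v.ord h / (n : ℤ) + 1) * n := Int.lt_ediv_add_one_mul_self _ hn'
                nlinarith
            have h4 := Fermat.Agent.S37.helper8523.le_ord_add v hab (key a ha) (key b hb)
            have h2 : v.ord h / (n : ℤ) * n ≤ v.ord h := Int.ediv_mul_le _ hn'.ne'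
            nlinarith
      zero_mem' := by simp
      neg_mem' := by
        rintro a ⟨ha1, ha2, ha⟩
        refine ⟨by rwa [Valuation.map_neg], by rwa [Valuation.map_neg], ?_⟩
        rcases ha with rfl | ha
        · exact Or.inl neg_zero
        · exact Or.inr fun v hv => by
            rw [Fermat.Agent.S37.helper8523.ord_neg]; exact ha v hv }

theorem mem_chartLat {V₁ V₂ : ValuationSubring F} {X : Set (Place K F)} {n : ℕ} {h a : F} :
    a ∈ chartLat K V₁ V₂ X n h ↔ V₁.valuation a ≤ 1 ∧ V₂.valuation a ≤ 1 ∧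
      (a = 0 ∨ ∀ v : Place K F, v ∉ X → 0 ≤ (n : ℤ) * v.ord a + v.ord h) := Iff.rfl

/-- The group of `n`-Kummer units that are `≡ 1` for both valuations (representatives of the
toric classes). -/
def torGroup (K : Type*) {F : Type*} [Field K] [Field F] [Algebra K F]
    (V₁ V₂ : ValuationSubring F) (n : ℕ) : Subgroup Fˣ where
  carrier := {h | IsKummer K n (h : F) ∧ V₁.valuation ((h : F) - 1) < 1 ∧
    V₂.valuation ((h : F) - 1) < 1}
  mul_mem' := by
    rintro a b ⟨ha, ha1, ha2⟩ ⟨hb, hb1, hb2⟩
    have key : ∀ V : ValuationSubring F, V.valuation ((a : F) - 1) < 1 →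
        V.valuation ((b : F) - 1) < 1 → V.valuation (((a * b : Fˣ) : F) - 1) < 1 := by
      intro V h1 h2
      have hb' : V.valuation (b : F) = 1 := by
        have := Valuation.map_one_add_of_lt (v := V.valuation) h2
        rwa [add_sub_cancel] at this
      have e : ((a * b : Fˣ) : F) - 1 = ((a : F) - 1) * (b : F) + ((b : F) - 1) := by
        push_cast; ring
      rw [e]
      refine lt_of_le_of_lt (V.valuation.map_add _ _) (max_lt ?_ h2)
      rw [map_mul, hb', mul_one]
      exact h1
    exact ⟨by simpa using ha.mul hb, key V₁ ha1 hb1, key V₂ ha2 hb2⟩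
  one_mem' := by
    refine ⟨by simpa using isKummer_one (K := K) (F := F) n, ?_, ?_⟩ <;> simp
  inv_mem' := by
    rintro a ⟨ha, ha1, ha2⟩
    have key : ∀ V : ValuationSubring F, V.valuation ((a : F) - 1) < 1 →
        V.valuation (((a⁻¹ : Fˣ) : F) - 1) < 1 := by
      intro V h1
      have ha' : V.valuation (a : F) = 1 := by
        have := Valuation.map_one_add_of_lt (v := V.valuation) h1
        rwa [add_sub_cancel] at this
      have e : ((a⁻¹ : Fˣ) : F) - 1 = -(((a : F) - 1) * (a : F)⁻¹) := by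
        have : (a : F) ≠ 0 := a.ne_zero
        push_cast
        field_simp
        ring
      rw [e, Valuation.map_neg, map_mul, map_inv₀, ha', inv_one, mul_one]
      exact h1
    exact ⟨by simpa using ha.inv, key V₁ ha1, key V₂ ha2⟩

theorem mem_torGroup {V₁ V₂ : ValuationSubring F} {n : ℕ} {h : Fˣ} :
    h ∈ torGroup K V₁ V₂ n ↔ IsKummer K n (h : F) ∧ V₁.valuation ((h : F) - 1) < 1 ∧
      V₂.valuation ((h : F) - 1) < 1 := Iff.rfl

theorem valuation_eq_one_of_sub_one {V : ValuationSubring F} {h : F}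
    (h1 : V.valuation (h - 1) < 1) : V.valuation h = 1 := by
  have := Valuation.map_one_add_of_lt (v := V.valuation) h1
  rwa [add_sub_cancel] at this

/-- **(TORFIX) in the shape of the S34 bridge** (hypothesis `hTor` of
`Fermat.Agent.S34.helper584.uniFF_of_rep_of_torFix`).

`g` a semilinear automorphism of the function field `F/K` inducing the identity on the residue
fields of the valuation subrings `V₁`, `V₂` (inertia), `X j` a family of `g`-stable sets of
places (pole sets of the charts).  Assume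
* (GEN) for every `n`-Kummer `h ≡ 1` and every chart `j`, some element of the `n`-th power of
  the chart lattice of `h` is `≡ 1` for both valuations;
* (KC) an `n`-Kummer `h ≡ 1` whose chart lattices all contain an element `≡ 1` is a
  divisor-free element times an `n`-th power (two-chart Kummer core).
Then `g` fixes the class of every `n`-Kummer `h ≡ 1`. -/
theorem torFix_of_gen_of_kc {n : ℕ} (hn : 0 < n) (g : SemilinearAut K F)
    (V₁ V₂ : ValuationSubring F)
    (hg₁ : ∀ x : F, V₁.valuation x ≤ 1 → V₁.valuation (g • x - x) < 1)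
    (hg₂ : ∀ x : F, V₂.valuation x ≤ 1 → V₂.valuation (g • x - x) < 1)
    {ι : Type*} (X : ι → Set (Place K F))
    (hX : ∀ j (v : Place K F), v ∈ X j → g • v ∈ X j)
    (hGen : ∀ j (h : F), IsKummer K n h → V₁.valuation (h - 1) < 1 → V₂.valuation (h - 1) < 1 →
      ∃ x ∈ chartLat K V₁ V₂ (X j) n h ^ n,
        V₁.valuation (x - 1) < 1 ∧ V₂.valuation (x - 1) < 1)
    (hKC : ∀ h : F, IsKummer K n h → V₁.valuation (h - 1) < 1 → V₂.valuation (h - 1) < 1 →
      (∀ j, ∃ a ∈ chartLat K V₁ V₂ (X j) n h,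
        V₁.valuation (a - 1) < 1 ∧ V₂.valuation (a - 1) < 1) →
      ∃ w c : F, w ≠ 0 ∧ c ≠ 0 ∧ (∀ v : Place K F, v.ord c = 0) ∧ h = c * w ^ n) :
    ∀ h : F, IsKummer K n h → V₁.valuation (h - 1) < 1 → V₂.valuation (h - 1) < 1 →
      ∃ w c : F, w ≠ 0 ∧ c ≠ 0 ∧ (∀ v : Place K F, v.ord c = 0) ∧ g • h = h * (c * w ^ n) := by
  intro h hK h1 h2
  set τ : F ≃+* F := SemilinearAut.toRingAut g with hτdef
  have hτsmul : ∀ x : F, τ x = g • x := fun x => rfl
  set O : Subring F := V₁.toSubring ⊓ V₂.toSubring with hO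
  have hOmem : ∀ x : F, x ∈ O ↔ V₁.valuation x ≤ 1 ∧ V₂.valuation x ≤ 1 := by
    intro x
    rw [hO, Subring.mem_inf, ValuationSubring.mem_toSubring, ValuationSubring.mem_toSubring,
      ValuationSubring.valuation_le_one_iff, ValuationSubring.valuation_le_one_iff]
  set T : Subgroup Fˣ := torGroup K V₁ V₂ n with hT
  set hu : Fˣ := Units.mk0 h hK.ne_zero with hhu
  have hhT : hu ∈ T := ⟨by simpa [hhu] using hK, by simpa [hhu] using h1, by simpa [hhu] using h2⟩
  -- invariance of valuations under `g`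
  have hgval : ∀ (V : ValuationSubring F),
      (∀ x : F, V.valuation x ≤ 1 → V.valuation (g • x - x) < 1) →
      ∀ x : F, V.valuation x ≤ 1 → V.valuation (g • x) ≤ 1 := by
    intro V hV x hx
    have e : g • x = (g • x - x) + x := by ring
    rw [e]
    exact (V.valuation.map_add _ _).trans (max_le (hV x hx).le hx)
  have hτT : ∀ u ∈ T, Units.map (τ : F →* F) u ∈ T := by
    rintro u ⟨huK, hu1, hu2⟩
    have key : ∀ (V : ValuationSubring F),
        (∀ x : F, V.valuation x ≤ 1 → V.valuation (g • x - x) < 1) →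
        V.valuation ((u : F) - 1) < 1 → V.valuation (g • (u : F) - 1) < 1 := by
      intro V hV hu1
      have e : g • (u : F) - 1 = (g • (u : F) - (u : F)) + ((u : F) - 1) := by ring
      rw [e]
      exact lt_of_le_of_lt (V.valuation.map_add _ _)
        (max_lt (hV _ (valuation_eq_one_of_sub_one hu1).le) hu1)
    exact ⟨(isKummer_smul_iff g).mpr huK, key V₁ hg₁ hu1, key V₂ hg₂ hu2⟩
  have main : ∀ j, ∃ y ∈ chartLat K V₁ V₂ (X j) n (g • h / h), y - 1 ∈ mBoth V₁ V₂ := by
    intro j
    have hcore := torfix_core n hn O (mBoth V₁ V₂)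
      (by
        intro x hx y hy
        rw [hOmem] at hx
        exact ⟨by rw [map_mul]; exact mul_lt_one_of_nonneg_of_lt_one_right hx.1 zero_le hy.1,
          by rw [map_mul]; exact mul_lt_one_of_nonneg_of_lt_one_right hx.2 zero_le hy.2⟩)
      T
      (by
        rintro u ⟨_, hu1, hu2⟩
        rw [hOmem]
        exact ⟨(valuation_eq_one_of_sub_one hu1).le, (valuation_eq_one_of_sub_one hu2).le⟩)
      (by
        rintro u ⟨_, hu1, hu2⟩
        exact ⟨hu1, hu2⟩)
      (fun u => chartLat K V₁ V₂ (X j) n (u : F))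
      (by
        rintro u _ a ⟨ha1, ha2, _⟩
        rw [hOmem]
        exact ⟨ha1, ha2⟩)
      (by
        rintro u _ u' _ a ⟨ha1, ha2, ha⟩ b ⟨hb1, hb2, hb⟩
        refine ⟨by rw [map_mul]; exact mul_le_one' ha1 hb1,
          by rw [map_mul]; exact mul_le_one' ha2 hb2, ?_⟩
        rcases ha with rfl | ha
        · exact Or.inl (zero_mul b)
        rcases hb with rfl | hb
        · exact Or.inl (mul_zero a)
        by_cases ha0 : a = 0
        · exact Or.inl (by rw [ha0, zero_mul])
        by_cases hb0 : b = 0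
        · exact Or.inl (by rw [hb0, mul_zero])
        refine Or.inr fun v hv => ?_
        have e1 : v.ord (a * b) = v.ord a + v.ord b := v.ord_mul ha0 hb0
        have e2 : v.ord ((u * u' : Fˣ) : F) = v.ord (u : F) + v.ord (u' : F) := by
          rw [Units.val_mul]; exact v.ord_mul u.ne_zero u'.ne_zero
        have := ha v hv
        have := hb v hv
        rw [e1, e2]
        linarith)
      (by
        rintro u ⟨_, hu1, hu2⟩ w _ x ⟨hx1, hx2, hx⟩
        refine ⟨by rw [map_mul, valuation_eq_one_of_sub_one hu1, mul_one]; exact hx1,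
          by rw [map_mul, valuation_eq_one_of_sub_one hu2, mul_one]; exact hx2, ?_⟩
        by_cases hx0 : x = 0
        · exact Or.inl (by rw [hx0, zero_mul])
        rcases hx with rfl | hx
        · exact absurd rfl hx0
        refine Or.inr fun v hv => ?_
        have e1 : v.ord (x * (u : F)) = v.ord x + v.ord (u : F) := v.ord_mul hx0 u.ne_zero
        have e2 : v.ord ((w * u ^ n : Fˣ) : F) = v.ord (w : F) + (n : ℤ) * v.ord (u : F) := by
          rw [Units.val_mul, Units.val_pow_eq_pow_val,
            v.ord_mul w.ne_zero (pow_ne_zero n u.ne_zero), ← zpow_natCast, v.ord_zpow]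
        have := hx v hv
        rw [e2] at this
        rw [e1]
        linarith)
      τ
      (by
        intro x hx
        rw [hOmem] at hx
        exact ⟨hg₁ x hx.1, hg₂ x hx.2⟩)
      hτT
      (by
        rintro u _ a ⟨ha1, ha2, ha⟩
        refine ⟨hgval V₁ hg₁ a ha1, hgval V₂ hg₂ a ha2, ?_⟩
        rcases ha with rfl | ha
        · exact Or.inl (map_zero τ)
        refine Or.inr fun v hv => ?_
        have hv' : g⁻¹ • v ∉ X j := fun hmem => hv (by simpa using hX j _ hmem)
        have e1 : v.ord (τ a) = (g⁻¹ • v).ord a := by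
          have := SemilinearAut.ord_smul g (g⁻¹ • v) a
          rwa [smul_inv_smul] at this
        have e2 : v.ord ((Units.map (τ : F →* F) u : Fˣ) : F) = (g⁻¹ • v).ord (u : F) := by
          have := SemilinearAut.ord_smul g (g⁻¹ • v) (u : F)
          rwa [smul_inv_smul] at this
        rw [e1, e2]
        exact ha _ hv')
      hu hhT
      (by
        obtain ⟨x, hx, hx1, hx2⟩ := hGen j h hK h1 h2
        exact ⟨x, hx, hx1, hx2⟩)
    obtain ⟨y, hy, hy1⟩ := hcore
    refine ⟨y, ?_, hy1⟩
    have e : ((Units.map (τ : F →* F) hu / hu : Fˣ) : F) = g • h / h := by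
      rw [Units.val_div_eq_div_val]
      rfl
    rw [← e]
    exact hy
  have hgT : Units.map (τ : F →* F) hu / hu ∈ T := T.div_mem (hτT hu hhT) hhT
  have e : ((Units.map (τ : F →* F) hu / hu : Fˣ) : F) = g • h / h := by
    rw [Units.val_div_eq_div_val]
    rfl
  obtain ⟨hK', h1', h2'⟩ := hgT
  rw [e] at hK' h1' h2'
  obtain ⟨w, c, hw, hc, hcv, hrel⟩ := hKC (g • h / h) hK' h1' h2'
    (fun j => by
      obtain ⟨y, hy, hy1⟩ := main j
      exact ⟨y, hy, hy1.1, hy1.2⟩)
  refine ⟨w, c, hw, hc, hcv, ?_⟩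
  rw [← hrel, mul_div_cancel₀ _ hK.ne_zero]

end FunctionField

end Fermat.Agent.S35.helper2423
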