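/-
S35 / S34, integration leaf (E5) of the shared geometry module, special-fibre assembly
(helper2423).

`helper2423_TorFix.torFix_of_gen_of_kc` reduces (TORFIX) to
* (GEN) per chart: some element of `(chartLat h) ^ n` is `≡ 1`, and
* (KC)  the two-chart Kummer core with seeds `≡ 1`.

This file discharges (KC) by the landed multi-valuation Kummer core with special-fibre inputs
(`Fermat.Agent.S35.helper2459.kummer_core_special_fibreW`, weights `1`, `u = h`, `θ = 1`) for the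
Riemann-Roch families `L(D_h + k E1)`, `L(D_h + k E2)`, `L(D_h + k E1 + k E2)`,
`D_h = div(h)/n`, and (GEN) by the shape of the reduced lattices.  What remains as hypothesis is
exactly the special-fibre description of the reduced twisted lattices (item (E3) of the module):
for every `n`-Kummer `h ≡ 1`, subspaces `N1 k, N2 k, N12 k` of the special fibre with
reduction containment, surjectivity of the reductions, the sum formula, and the two facts
"`1 ∈ N12 k → 1 ∈ N1 k₀ ⊓ N2 k₀`", "`1 ∈ (⋃ N_j k) ^ n`" (both immediate for glued spaces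
`{(α, β) : Q_i β = c_i P_i α}` with `c_i ^ n = 1`, see `one_mem_span_pow_of_glued`).
-/
import Mathlib
import Fermat.Agent.S35.helper2423_TorFix
import Fermat.Agent.S35.helper2459_KummerMultiSF
import Fermat.Agent.S35.helper603_TwistedLattice
import Fermat.Agent.S18.helper4226_KummerInst

set_option autoImplicit false

namespace Fermat.Agent.S35.helper2423

open AlgebraicCurve Fermat.Agent.S29.helper8217 Fermat.Agent.S18.helper4226

/-! ### `1 ∈ (span S) ^ n` for a set containing a glued module -/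

section GluedSpan

variable {kk B1 B2 ι Fk : Type*} [Field kk] [CommRing B1] [CommRing B2] [Algebra kk B1]
  [Algebra kk B2] [CommRing Fk]

/-- If a set `S` of the special fibre contains the image of a glued module `M_c` with
`c_i ^ n = 1`, then `1` lies in the `n`-th power of the additive span of `S`. -/
theorem one_mem_span_pow_of_glued [Finite ι] (φ : B1 × B2 →+* Fk)
    (P : ι → B1 →ₐ[kk] kk) (Q : ι → B2 →ₐ[kk] kk) (hQ : Function.Injective Q)
    (c : ι → kk) {n : ℕ} (hn : 0 < n) (hc : ∀ i, c i ^ n = 1)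
    (S : Set Fk) (hS : ∀ x ∈ Mc P Q c, φ x ∈ S) :
    (1 : Fk) ∈ Submodule.span ℤ S ^ n := by
  have hle : (Mc P Q c).map φ.toIntAlgHom.toLinearMap ≤ Submodule.span ℤ S := by
    rintro _ ⟨x, hx, rfl⟩
    exact Submodule.subset_span (hS x hx)
  have h1 : (1 : Fk) ∈ (Mc P Q c).map φ.toIntAlgHom.toLinearMap ^ n := by
    rw [← Submodule.map_pow]
    exact ⟨1, one_mem_Mc_pow P Q hQ c n hn hc, map_one φ⟩
  exact pow_le_pow_left' hle n h1

end GluedSpan

/-! ### `1 ∈ G ^ n` for glued spaces in a filtered algebra (single-algebra form) -/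

section Graded

variable {k V I : Type*} [Field k] [CommRing V] [Algebra k V]

/-- Filtered form of `one_mem_Mc_pow`: `T' a` an increasing multiplicative filtration of the
`k`-algebra `V` (functions with pole order `≤ a`), `p i`, `q i` the evaluations at the two points
of the `i`-th node, jointly interpolable at some level.  If `c i ^ n = 1`, then `1` lies in the
`n`-th power of every additive subgroup containing all glued spaces
`{v ∈ T' a | q i v = c i * p i v}`. -/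
theorem one_mem_pow_of_graded (p q : I → V →ₐ[k] k) (c : I → k) {n : ℕ} (hn : 0 < n)
    (hc : ∀ i, c i ^ n = 1) (T' : ℕ → Submodule k V) (h1 : (1 : V) ∈ T' 0)
    (hmono : ∀ a a', a ≤ a' → T' a ≤ T' a')
    (hmul : ∀ a a', ∀ x ∈ T' a, ∀ y ∈ T' a', x * y ∈ T' (a + a'))
    (a₀ : ℕ) (hev : ∀ u w : I → k, ∃ x ∈ T' a₀, ∀ i, p i x = u i ∧ q i x = w i)
    (G : Submodule ℤ V) (hG : ∀ a, ∀ x ∈ T' a, (∀ i, q i x = c i * p i x) → x ∈ G) :
    (1 : V) ∈ G ^ n := by
  have hc0 : ∀ i, c i ≠ 0 := fun i h0 => by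
    have := hc i
    rw [h0, zero_pow hn.ne'] at this
    exact zero_ne_one this
  obtain ⟨m, hmT, hm⟩ := hev (fun _ => 1) c
  obtain ⟨r, hrT, hr⟩ := hev (fun _ => 1) (fun i => (c i)⁻¹)
  have hmG : m ∈ G := hG a₀ m hmT fun i => by rw [(hm i).1, (hm i).2, mul_one]
  have h1a : ∀ a, (1 : V) ∈ T' a := fun a => hmono 0 a (Nat.zero_le a) h1
  -- the conductor element `1 - m * r`
  have hz0T : 1 - m * r ∈ T' (a₀ + a₀) := sub_mem (h1a _) (hmul _ _ m hmT r hrT)
  have hz0p : ∀ i, p i (1 - m * r) = 0 := fun i => by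
    rw [map_sub, map_one, map_mul, (hm i).1, (hr i).1, mul_one, sub_self]
  have hz0q : ∀ i, q i (1 - m * r) = 0 := fun i => by
    rw [map_sub, map_one, map_mul, (hm i).2, (hr i).2, mul_inv_cancel₀ (hc0 i), sub_self]
  have hz0G : 1 - m * r ∈ G := hG _ _ hz0T fun i => by rw [hz0p i, hz0q i, mul_zero]
  have hcond : ∀ (j a : ℕ) (z : V), z ∈ T' a → (∀ i, p i z = 0) → (∀ i, q i z = 0) →
      z ∈ G ^ (j + 1) := by
    intro j
    induction j with
    | zero =>
      intro a z hz hzp hzq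
      rw [zero_add, pow_one]
      exact hG a z hz fun i => by rw [hzp i, hzq i, mul_zero]
    | succ j ih =>
      intro a z hz hzp hzq
      have hzr : z * r ∈ G ^ (j + 1) := ih (a + a₀) (z * r) (hmul _ _ z hz r hrT)
        (fun i => by rw [map_mul, hzp i, zero_mul]) (fun i => by rw [map_mul, hzq i, zero_mul])
      have e : z = m * (z * r) + (1 - m * r) * z := by ring
      rw [e, pow_succ']
      exact add_mem (Submodule.mul_mem_mul hmG hzr)
        (Submodule.mul_mem_mul hz0G (ih a z hz hzp hzq))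
  -- `m ^ n` lies in some level
  have hmpow : ∀ j : ℕ, ∃ a, m ^ j ∈ T' a := by
    intro j
    induction j with
    | zero => exact ⟨0, by rw [pow_zero]; exact h1⟩
    | succ j ih =>
      obtain ⟨a, ha⟩ := ih
      exact ⟨a + a₀, by rw [pow_succ]; exact hmul _ _ _ ha m hmT⟩
  obtain ⟨a, ha⟩ := hmpow n
  have h2 : (1 : V) - m ^ n ∈ G ^ n := by
    obtain ⟨j, rfl⟩ : ∃ j, n = j + 1 := ⟨n - 1, by omega⟩
    refine hcond j a _ (sub_mem (h1a a) ha) (fun i => ?_) (fun i => ?_)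
    · rw [map_sub, map_one, map_pow, (hm i).1, one_pow, sub_self]
    · rw [map_sub, map_one, map_pow, (hm i).2, hc i, sub_self]
  have e : (1 : V) = m ^ n + (1 - m ^ n) := by ring
  rw [e]
  exact add_mem (Submodule.pow_mem_pow _ hmG n) h2

/-- Image form of `one_mem_pow_of_graded`: `1 ∈ (span S) ^ n` for every set `S` containing the
images of the glued spaces under a ring homomorphism `φ`. -/
theorem one_mem_span_pow_of_graded {Fk : Type*} [CommRing Fk] (φ : V →+* Fk)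
    (p q : I → V →ₐ[k] k) (c : I → k) {n : ℕ} (hn : 0 < n)
    (hc : ∀ i, c i ^ n = 1) (T' : ℕ → Submodule k V) (h1 : (1 : V) ∈ T' 0)
    (hmono : ∀ a a', a ≤ a' → T' a ≤ T' a')
    (hmul : ∀ a a', ∀ x ∈ T' a, ∀ y ∈ T' a', x * y ∈ T' (a + a'))
    (a₀ : ℕ) (hev : ∀ u w : I → k, ∃ x ∈ T' a₀, ∀ i, p i x = u i ∧ q i x = w i)
    (S : Set Fk) (hS : ∀ a, ∀ x ∈ T' a, (∀ i, q i x = c i * p i x) → φ x ∈ S) :
    (1 : Fk) ∈ Submodule.span ℤ S ^ n := by
  set G : Submodule ℤ V := (Submodule.span ℤ S).comap φ.toIntAlgHom.toLinearMap with hGdef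
  have h1G : (1 : V) ∈ G ^ n := one_mem_pow_of_graded p q c hn hc T' h1 hmono hmul a₀ hev G
    fun a x hx hx' => Submodule.subset_span (hS a x hx hx')
  have hle : G.map φ.toIntAlgHom.toLinearMap ≤ Submodule.span ℤ S := Submodule.map_comap_le _ _
  have h2 : (1 : Fk) ∈ G.map φ.toIntAlgHom.toLinearMap ^ n := by
    rw [← Submodule.map_pow]
    exact ⟨1, h1G, map_one φ⟩
  exact pow_le_pow_left' hle n h2

end Graded

/-! ### Chart lattices and Riemann-Roch spaces -/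

section ChartRR

variable {K F : Type*} [Field K] [Field F] [Algebra K F] [HasPrincipalDivisors K F]

/-- An element of `L(D_h + k E)` lying in both valuation rings belongs to the chart lattice of
every set of places containing the support of `E`. -/
theorem mem_chartLat_of_mem_rr {V₁ V₂ : ValuationSubring F} {n : ℕ} {h : F}
    (hK : IsKummer K n h) (E : Divisor K F) (X : Set (Place K F))
    (hEX : ∀ v : Place K F, v ∉ X → E v = 0) (k : ℕ) {a : F}
    (ha : a ∈ riemannRochSpace (kummerDivisor K n h + k • E)) (h1 : a ∈ V₁) (h2 : a ∈ V₂) :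
    a ∈ chartLat K V₁ V₂ X n h := by
  refine mem_chartLat.mpr ⟨(V₁.valuation_le_one_iff a).mpr h1, (V₂.valuation_le_one_iff a).mpr h2,
    ?_⟩
  by_cases ha0 : a = 0
  · exact Or.inl ha0
  refine Or.inr fun v hv => ?_
  have h3 := (mem_rr_iff_ord ha0).mp ha v
  rw [add_nsmul_apply, hEX v hv, mul_zero, add_zero, kummerDivisor_apply] at h3
  have h4 := hK.mul_ediv_cancel v
  have hn0 : (0 : ℤ) ≤ n := Int.natCast_nonneg n
  nlinarith

/-- An element of the chart lattice of `X` lies in `L(D_h + k E)` for all large `k`, if `E` is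
effective and positive on `X`. -/
theorem exists_mem_rr_of_mem_chartLat {V₁ V₂ : ValuationSubring F} {n : ℕ} (hn : 0 < n) {h : F}
    (hK : IsKummer K n h) (E : Divisor K F) (hE : ∀ v : Place K F, 0 ≤ E v)
    (X : Set (Place K F)) (hXE : ∀ v ∈ X, 0 < E v) {a : F}
    (ha : a ∈ chartLat K V₁ V₂ X n h) :
    ∃ k₁ : ℕ, ∀ k, k₁ ≤ k → a ∈ riemannRochSpace (kummerDivisor K n h + k • E) := by
  classical
  by_cases ha0 : a = 0
  · exact ⟨0, fun k _ => by rw [ha0]; exact zero_mem _⟩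
  obtain ⟨-, -, ha3⟩ := mem_chartLat.mp ha
  have ha3' : ∀ v : Place K F, v ∉ X → 0 ≤ (n : ℤ) * v.ord a + v.ord h := by
    rcases ha3 with h0 | h3
    · exact absurd h0 ha0
    · exact h3
  set D0 : Divisor K F := kummerDivisor K n h with hD0
  set S : Finset (Place K F) := (finite_support_ord K a).toFinset ∪ D0.support with hS
  set k₁ : ℕ := S.sup (fun v => (-(v.ord a + D0 v)).toNat) with hk₁
  refine ⟨k₁, fun k hk => (mem_rr_iff_ord ha0).mpr fun v => ?_⟩
  rw [add_nsmul_apply]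
  have hkE : (0 : ℤ) ≤ (k : ℤ) * E v := mul_nonneg (Int.natCast_nonneg k) (hE v)
  by_cases hv : v ∈ X
  · by_cases hvS : v ∈ S
    · have h1 : (-(v.ord a + D0 v)).toNat ≤ k₁ :=
        Finset.le_sup (f := fun v => (-(v.ord a + D0 v)).toNat) hvS
      have h2 : -(v.ord a + D0 v) ≤ ((-(v.ord a + D0 v)).toNat : ℤ) := Int.self_le_toNat _
      have h3 : ((-(v.ord a + D0 v)).toNat : ℤ) ≤ (k : ℤ) := by exact_mod_cast h1.trans hk
      have h4 : (k : ℤ) ≤ (k : ℤ) * E v := by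
        have := hXE v hv
        nlinarith [Int.natCast_nonneg k]
      linarith
    · have h1 : v.ord a = 0 := by
        by_contra hne
        exact hvS (Finset.mem_union_left _ ((finite_support_ord K a).mem_toFinset.mpr hne))
      have h2 : D0 v = 0 := by
        by_contra hne
        exact hvS (Finset.mem_union_right _ (Finsupp.mem_support_iff.mpr hne))
      rw [h1, h2]
      linarith
  · have h1 := ha3' v hv
    have h2 := hK.mul_ediv_cancel v
    have h3 : D0 v = v.ord h / (n : ℤ) := rfl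
    have hn' : (0 : ℤ) < n := by exact_mod_cast hn
    have h4 : 0 ≤ v.ord a + D0 v := by
      rw [h3]
      by_contra hneg
      rw [not_le] at hneg
      nlinarith
    linarith

/-- A nonzero element of `L(D_h)` trivialises the Kummer class of `h`. -/
theorem kc_of_rr (hdeg : ∀ v : Place K F, 0 < v.deg) {n : ℕ} {h : F} (hK : IsKummer K n h)
    {f : F} (hf0 : f ≠ 0) (hf : f ∈ riemannRochSpace (kummerDivisor K n h)) :
    ∃ w c : F, w ≠ 0 ∧ c ≠ 0 ∧ (∀ v : Place K F, v.ord c = 0) ∧ h = c * w ^ n := by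
  have hord := ord_eq_neg_of_mem_rr hdeg (degree_kummerDivisor hK) hf0 hf
  have hfn : f ^ n ≠ 0 := pow_ne_zero n hf0
  refine ⟨f⁻¹, h * f ^ n, inv_ne_zero hf0, mul_ne_zero hK.ne_zero hfn, fun v => ?_, ?_⟩
  · rw [v.ord_mul hK.ne_zero hfn, ← zpow_natCast, v.ord_zpow, hord v, kummerDivisor_apply]
    have := hK.mul_ediv_cancel v
    linarith
  · rw [inv_pow, mul_assoc, mul_inv_cancel₀ hfn, mul_one]

end ChartRR

/-! ### (KC) and (GEN) from the special fibre -/

section SpecialFibre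

variable {K F : Type*} [Field K] [Field F] [Algebra K F] [HasPrincipalDivisors K F]
variable {Γ₀ : Type*} [LinearOrderedCommGroupWithZero Γ₀] {ι : Type*}
variable {kk : Type*} [Field kk] {Fk : Type*} [CommRing Fk] [Algebra kk Fk]

omit [HasPrincipalDivisors K F] in
/-- Reduction of powers. -/
theorem red_pow {v : ι → Valuation F Γ₀} {vL : Valuation K Γ₀} {red : F → Fk}
    (hred : helper2459.RedDataW v (fun _ => (1 : Γ₀)) vL kk red red) (a : F)
    (ha : ∀ i, v i a ≤ 1) (m : ℕ) : red (a ^ m) = red a ^ m := by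
  induction m with
  | zero => rw [pow_zero, pow_zero, hred.map_one]
  | succ m ih =>
    rw [pow_succ, pow_succ, hred.map_mul _ _ (fun i => by
      rw [map_pow]; exact pow_le_one' (ha i) m) ha, ih]

omit [HasPrincipalDivisors K F] in
/-- An element `≡ 1` reduces to `1`. -/
theorem red_eq_one {v : ι → Valuation F Γ₀} {vL : Valuation K Γ₀} {red : F → Fk}
    (hred : helper2459.RedDataW v (fun _ => (1 : Γ₀)) vL kk red red) (a : F)
    (ha : ∀ i, v i (a - 1) < 1) : red a = 1 := by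
  have h1 : ∀ i, v i (1 : F) ≤ 1 := fun i => le_of_eq (v i).map_one
  have ha' : ∀ i, v i a ≤ 1 := fun i => by
    have e : a = (a - 1) + 1 := by ring
    rw [e]
    exact ((v i).map_add _ _).trans (max_le (ha i).le (h1 i))
  have h0 : red (a - 1) = 0 :=
    (hred.eq_zero_iff (a - 1) (fun i => (ha i).le)).mpr ha
  rw [hred.map_sub a 1 ha' h1, hred.map_one, sub_eq_zero] at h0
  exact h0

/-- **(KC) from the special fibre.**  For an `n`-Kummer element `h ≡ 1` (both valuations), the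
Riemann-Roch families of `D_h = div(h)/n` and two effective divisors `E1`, `E2` with disjoint
supports, the special-fibre inputs of `helper2459.kummer_core_special_fibreW` (weights `1`) and
ONE seed `≡ 1` in the chart lattice off `E1` force `h = c * w ^ n` with `c` divisor-free. -/
theorem kc_of_special_fibre (hdeg : ∀ v : Place K F, 0 < v.deg)
    [Finite ι] [Nonempty ι] (v : ι → Valuation F Γ₀) (vL : Valuation K Γ₀)
    (harch : ∀ ε κ : Γ₀, ε < 1 → κ ≠ 0 → ∃ n : ℕ, ε ^ n < κ)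
    {n : ℕ} (hn : 0 < n) (hm : ∀ i, v i (n : F) = 1)
    (V₁ V₂ : ValuationSubring F)
    (hball : ∀ x : F, (∀ i, v i x ≤ 1) ↔ x ∈ V₁ ∧ x ∈ V₂)
    (hopen : ∀ x : F, (∀ i, v i x < 1) ↔ V₁.valuation x < 1 ∧ V₂.valuation x < 1)
    (E1 E2 : Divisor K F) (hE1 : ∀ w : Place K F, 0 ≤ E1 w) (hE2 : ∀ w : Place K F, 0 ≤ E2 w)
    (hdisj : ∀ w : Place K F, E1 w = 0 ∨ E2 w = 0)
    {red : F → Fk} (hred : helper2459.RedDataW v (fun _ => (1 : Γ₀)) vL kk red red)
    (hVG : ∀ (i : ι) (f : F), f ≠ 0 → ∃ c : K, vL c = v i f)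
    {h : F} (hK : IsKummer K n h) (h1 : V₁.valuation (h - 1) < 1)
    (h2 : V₂.valuation (h - 1) < 1) (k₀ : ℕ)
    (hcart : ∀ k, k₀ ≤ k → helper2459.CartesianW v (fun _ => (1 : Γ₀)) vL
      (riemannRochSpace (kummerDivisor K n h + k • E1 + k • E2)))
    (N1 N2 N12 : ℕ → Submodule kk Fk)
    (hcont : ∀ k, k₀ ≤ k → ∀ a ∈ riemannRochSpace (kummerDivisor K n h + k • E1 + k • E2),
      (∀ i, v i a ≤ 1) → red a ∈ N12 k)
    (hsum : ∀ k, k₀ ≤ k → N12 k ≤ N12 k₀ ⊔ N1 k ⊔ N2 k)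
    (hs12 : ∀ y ∈ N12 k₀, ∃ a ∈ riemannRochSpace (kummerDivisor K n h + k₀ • E1 + k₀ • E2),
      (∀ i, v i a ≤ 1) ∧ red a = y)
    (hs1 : ∀ k, k₀ ≤ k → ∀ y ∈ N1 k, ∃ a ∈ riemannRochSpace (kummerDivisor K n h + k • E1),
      (∀ i, v i a ≤ 1) ∧ red a = y)
    (hs2 : ∀ k, k₀ ≤ k → ∀ y ∈ N2 k, ∃ a ∈ riemannRochSpace (kummerDivisor K n h + k • E2),
      (∀ i, v i a ≤ 1) ∧ red a = y)
    (hone : (∃ k, k₀ ≤ k ∧ (1 : Fk) ∈ N12 k) → (1 : Fk) ∈ N1 k₀ ∧ (1 : Fk) ∈ N2 k₀)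
    (hseed : ∃ a ∈ chartLat K V₁ V₂ {w : Place K F | 0 < E1 w} n h,
      V₁.valuation (a - 1) < 1 ∧ V₂.valuation (a - 1) < 1) :
    ∃ w c : F, w ≠ 0 ∧ c ≠ 0 ∧ (∀ v : Place K F, v.ord c = 0) ∧ h = c * w ^ n := by
  set D0 : Divisor K F := kummerDivisor K n h with hD0
  have hord : ∀ w : Place K F, (n : ℤ) * D0 w ≤ w.ord h := fun w =>
    (hK.mul_ediv_cancel w).le
  have hh1 : ∀ i, v i (h - 1) < 1 := (hopen (h - 1)).mpr ⟨h1, h2⟩
  have hvh : ∀ i, v i h = 1 := fun i => by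
    have := (v i).map_one_add_of_lt (hh1 i)
    rwa [add_sub_cancel] at this
  have hredh : red h = 1 := red_eq_one hred h hh1
  -- the class `θ = 1`
  obtain ⟨hθ1, hθ2⟩ : (1 : Fk) ∈ N1 k₀ ∧ (1 : Fk) ∈ N2 k₀ := by
    apply hone
    obtain ⟨a, ha, ha1, ha2⟩ := hseed
    obtain ⟨k₁, hk₁⟩ := exists_mem_rr_of_mem_chartLat hn hK E1 hE1 {w : Place K F | 0 < E1 w}
      (fun w hw => hw) ha
    refine ⟨max k₀ k₁, le_max_left _ _, ?_⟩
    have hamem : a ∈ riemannRochSpace (D0 + max k₀ k₁ • E1 + max k₀ k₁ • E2) :=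
      kc_hM1 D0 E1 E2 hE2 _ (hk₁ _ (le_max_right _ _))
    have haball : ∀ i, v i a ≤ 1 := by
      obtain ⟨hb1, hb2, -⟩ := mem_chartLat.mp ha
      exact (hball a).mpr ⟨(V₁.valuation_le_one_iff a).mp hb1, (V₂.valuation_le_one_iff a).mp hb2⟩
    have hra : red a = 1 := red_eq_one hred a ((hopen (a - 1)).mpr ⟨ha1, ha2⟩)
    rw [← hra]
    exact hcont _ (le_max_left _ _) a hamem haball
  have hmono : ∀ k, k₀ ≤ k → riemannRochSpace (D0 + k₀ • E1 + k₀ • E2) ≤
      riemannRochSpace (D0 + k • E1 + k • E2) := fun k hk =>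
    rr_le_of_le fun w => by
      rw [add_nsmul_add_nsmul_apply, add_nsmul_add_nsmul_apply]
      have hk' : (k₀ : ℤ) ≤ k := by exact_mod_cast hk
      have := mul_le_mul_of_nonneg_right hk' (hE1 w)
      have := mul_le_mul_of_nonneg_right hk' (hE2 w)
      linarith
  obtain ⟨f, hf0, hf1, hf2⟩ := helper2459.kummer_core_special_fibreW v (fun _ => (1 : Γ₀)) vL harch
    n hm h (fun i => by rw [hvh i, one_pow, mul_one])
    (fun k : ℕ => riemannRochSpace (D0 + k • E1)) (fun k : ℕ => riemannRochSpace (D0 + k • E2))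
    (fun k : ℕ => riemannRochSpace (D0 + k • E1 + k • E2))
    (fun k : ℕ => riemannRochSpace (k • E1)) (fun k : ℕ => riemannRochSpace (k • E2))
    (kc_hM1 D0 E1 E2 hE2) (kc_hM2 D0 E1 E2 hE1) (kc_hP1 E1 hE1) (kc_hP1 E2 hE2)
    (kc_hP D0 E1 n h hK.ne_zero hord) (kc_hP D0 E2 n h hK.ne_zero hord) (kc_hPM D0 E1)
    (kc_hPM D0 E2) k₀ (kc_hsep D0 E1 E2 hE1 hE2 hdisj k₀) hmono hred
    (fun i f hf => by
      obtain ⟨c, hc⟩ := hVG i f hf
      exact ⟨c, by rw [hc, div_one]⟩)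
    hcart N1 N2 N12 hcont hsum hs12 hs1 hs2 1
    (fun a ha => by
      have hpow_ball : ∀ i, v i (a ^ n) ≤ 1 := fun i => by
        rw [map_pow]; exact pow_le_one' (ha i) n
      rw [hred.map_mul _ _ hpow_ball (fun i => (hvh i).le), red_pow hred a ha n, hredh])
    1 hθ1 hθ2 (by rw [one_pow, one_mul])
  have hfD : f ∈ riemannRochSpace D0 := by
    rw [← rr_inf_eq D0 E1 E2 hE1 hE2 hdisj k₀]
    exact ⟨hf1, hf2⟩
  exact kc_of_rr hdeg hK hf0 hfD

/-- **(GEN) from the special fibre.**  If the reductions of the unit balls of `L(D_h + k E)`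
(`k ≥ k₀`) cover subspaces `N k` of the special fibre and `1` lies in the `n`-th power of the
additive span of `⋃ N k`, then some element of the `n`-th power of the chart lattice off `E` is
`≡ 1` for both valuations. -/
theorem gen_of_special_fibre (v : ι → Valuation F Γ₀) (vL : Valuation K Γ₀) {n : ℕ}
    (V₁ V₂ : ValuationSubring F)
    (hball : ∀ x : F, (∀ i, v i x ≤ 1) ↔ x ∈ V₁ ∧ x ∈ V₂)
    (hopen : ∀ x : F, (∀ i, v i x < 1) ↔ V₁.valuation x < 1 ∧ V₂.valuation x < 1)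
    (E : Divisor K F) (hE : ∀ w : Place K F, 0 ≤ E w)
    {red : F → Fk} (hred : helper2459.RedDataW v (fun _ => (1 : Γ₀)) vL kk red red)
    {h : F} (hK : IsKummer K n h) (k₀ : ℕ) (N : ℕ → Submodule kk Fk)
    (hs : ∀ k, k₀ ≤ k → ∀ y ∈ N k, ∃ a ∈ riemannRochSpace (kummerDivisor K n h + k • E),
      (∀ i, v i a ≤ 1) ∧ red a = y)
    (hG : (1 : Fk) ∈ Submodule.span ℤ (⋃ k ∈ Set.Ici k₀, (N k : Set Fk)) ^ n) :
    ∃ x ∈ chartLat K V₁ V₂ {w : Place K F | 0 < E w} n h ^ n,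
      V₁.valuation (x - 1) < 1 ∧ V₂.valuation (x - 1) < 1 := by
  set O : Subring F := V₁.toSubring ⊓ V₂.toSubring with hO
  have hOmem : ∀ x : F, x ∈ O ↔ ∀ i, v i x ≤ 1 := fun x => by
    rw [hball x, hO, Subring.mem_inf]
    rfl
  let ρ : O →+* Fk :=
    { toFun := fun x => red (x : F)
      map_one' := hred.map_one
      map_mul' := fun x y => hred.map_mul _ _ ((hOmem x).mp x.2) ((hOmem y).mp y.2)
      map_zero' := hred.map_zero
      map_add' := fun x y => hred.map_add _ _ ((hOmem x).mp x.2) ((hOmem y).mp y.2) }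
  have hρ : ∀ x : O, ρ x = red (x : F) := fun _ => rfl
  set M : Submodule ℤ F := chartLat K V₁ V₂ {w : Place K F | 0 < E w} n h with hM
  have hMO : ∀ a ∈ M, a ∈ O := by
    intro a ha
    obtain ⟨hb1, hb2, -⟩ := mem_chartLat.mp ha
    rw [hOmem, hball]
    exact ⟨(V₁.valuation_le_one_iff a).mp hb1, (V₂.valuation_le_one_iff a).mp hb2⟩
  have hsurj : ∀ r ∈ Submodule.span ℤ (⋃ k ∈ Set.Ici k₀, (N k : Set Fk)),
      ∃ a, ∃ ha : a ∈ M, ρ ⟨a, hMO a ha⟩ = r := by
    intro r hr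
    induction hr using Submodule.span_induction with
    | mem r hr =>
      obtain ⟨k, hk, hrk⟩ := Set.mem_iUnion₂.mp hr
      obtain ⟨a, ha, hab, har⟩ := hs k hk r hrk
      have haV := (hball a).mp hab
      exact ⟨a, mem_chartLat_of_mem_rr hK E _ (fun w hw => le_antisymm (not_lt.mp hw) (hE w)) k ha
        haV.1 haV.2, har⟩
    | zero => exact ⟨0, zero_mem _, hred.map_zero⟩
    | add x y _ _ ihx ihy =>
      obtain ⟨a, ha, hax⟩ := ihx
      obtain ⟨b, hb, hby⟩ := ihy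
      refine ⟨a + b, add_mem ha hb, ?_⟩
      rw [← hax, ← hby, ← map_add]
      rfl
    | smul z x _ ih =>
      obtain ⟨a, ha, hax⟩ := ih
      refine ⟨z • a, M.smul_mem z ha, ?_⟩
      rw [← hax, ← map_zsmul]
      rfl
  obtain ⟨x, hx, hx1⟩ := exists_mem_pow_of_red O ρ M hMO _ hsurj n hG
  refine ⟨x, hx, ?_⟩
  have hxO : x ∈ O := pow_le_of_le O M hMO n x hx
  have hxb : ∀ i, v i x ≤ 1 := (hOmem x).mp hxO
  have h1b : ∀ i, v i (1 : F) ≤ 1 := fun i => le_of_eq (v i).map_one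
  have hx1' : red x = 1 := hx1
  have h0 : red (x - 1) = 0 := by
    rw [hred.map_sub x 1 hxb h1b, hx1', hred.map_one, sub_self]
  exact (hopen (x - 1)).mp
    ((hred.eq_zero_iff (x - 1) (fun i => ((v i).map_sub _ _).trans (max_le (hxb i) (h1b i)))).mp h0)

/-- **(TORFIX) from the special-fibre description of the reduced twisted lattices.**

`g` a semilinear automorphism of `F/K` inducing the identity on the residue rings of `V₁`, `V₂`
and preserving the supports of the effective divisors `E1`, `E2` (disjoint supports: poles and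
zeros of a `g`-fixed chart coordinate); `v i` a finite family of valuations (common value group)
whose unit balls cut out `V₁ ∩ V₂`, with reduction datum `red` (weights `1`).  Assume that for
every `n`-Kummer `h ≡ 1` the reductions of the unit balls of `L(D_h + k E1)`, `L(D_h + k E2)`,
`L(D_h + k E1 + k E2)` are described by subspaces `N1 k`, `N2 k`, `N12 k` as in
`helper2459.kummer_core_special_fibreW`, with `1 ∈ N12 k → 1 ∈ N1 k₀ ⊓ N2 k₀` and
`1 ∈ (⋃ N_j k) ^ n`.  Then `g` fixes the class of every `n`-Kummer `h ≡ 1`: the conclusion is the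
hypothesis `hTor` of `Fermat.Agent.S34.helper584.uniFF_of_rep_of_torFix`. -/
theorem torFix_of_special_fibre (hdeg : ∀ v : Place K F, 0 < v.deg)
    [Finite ι] [Nonempty ι] (v : ι → Valuation F Γ₀) (vL : Valuation K Γ₀)
    (harch : ∀ ε κ : Γ₀, ε < 1 → κ ≠ 0 → ∃ n : ℕ, ε ^ n < κ)
    {n : ℕ} (hn : 0 < n) (hm : ∀ i, v i (n : F) = 1)
    (g : SemilinearAut K F) (V₁ V₂ : ValuationSubring F)
    (hg₁ : ∀ x : F, V₁.valuation x ≤ 1 → V₁.valuation (g • x - x) < 1)
    (hg₂ : ∀ x : F, V₂.valuation x ≤ 1 → V₂.valuation (g • x - x) < 1)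
    (hball : ∀ x : F, (∀ i, v i x ≤ 1) ↔ x ∈ V₁ ∧ x ∈ V₂)
    (hopen : ∀ x : F, (∀ i, v i x < 1) ↔ V₁.valuation x < 1 ∧ V₂.valuation x < 1)
    (E1 E2 : Divisor K F) (hE1 : ∀ w : Place K F, 0 ≤ E1 w) (hE2 : ∀ w : Place K F, 0 ≤ E2 w)
    (hdisj : ∀ w : Place K F, E1 w = 0 ∨ E2 w = 0)
    (hgE1 : ∀ w : Place K F, 0 < E1 w → 0 < E1 (g • w))
    (hgE2 : ∀ w : Place K F, 0 < E2 w → 0 < E2 (g • w))
    {red : F → Fk} (hred : helper2459.RedDataW v (fun _ => (1 : Γ₀)) vL kk red red)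
    (hVG : ∀ (i : ι) (f : F), f ≠ 0 → ∃ c : K, vL c = v i f)
    (hSF : ∀ h : F, IsKummer K n h → V₁.valuation (h - 1) < 1 → V₂.valuation (h - 1) < 1 →
      ∃ (k₀ : ℕ) (N1 N2 N12 : ℕ → Submodule kk Fk),
        (∀ k, k₀ ≤ k → helper2459.CartesianW v (fun _ => (1 : Γ₀)) vL
          (riemannRochSpace (kummerDivisor K n h + k • E1 + k • E2))) ∧
        (∀ k, k₀ ≤ k → ∀ a ∈ riemannRochSpace (kummerDivisor K n h + k • E1 + k • E2),
          (∀ i, v i a ≤ 1) → red a ∈ N12 k) ∧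
        (∀ k, k₀ ≤ k → N12 k ≤ N12 k₀ ⊔ N1 k ⊔ N2 k) ∧
        (∀ y ∈ N12 k₀, ∃ a ∈ riemannRochSpace (kummerDivisor K n h + k₀ • E1 + k₀ • E2),
          (∀ i, v i a ≤ 1) ∧ red a = y) ∧
        (∀ k, k₀ ≤ k → ∀ y ∈ N1 k, ∃ a ∈ riemannRochSpace (kummerDivisor K n h + k • E1),
          (∀ i, v i a ≤ 1) ∧ red a = y) ∧
        (∀ k, k₀ ≤ k → ∀ y ∈ N2 k, ∃ a ∈ riemannRochSpace (kummerDivisor K n h + k • E2),
          (∀ i, v i a ≤ 1) ∧ red a = y) ∧
        ((∃ k, k₀ ≤ k ∧ (1 : Fk) ∈ N12 k) → (1 : Fk) ∈ N1 k₀ ∧ (1 : Fk) ∈ N2 k₀) ∧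
        (1 : Fk) ∈ Submodule.span ℤ (⋃ k ∈ Set.Ici k₀, (N1 k : Set Fk)) ^ n ∧
        (1 : Fk) ∈ Submodule.span ℤ (⋃ k ∈ Set.Ici k₀, (N2 k : Set Fk)) ^ n) :
    ∀ h : F, IsKummer K n h → V₁.valuation (h - 1) < 1 → V₂.valuation (h - 1) < 1 →
      ∃ w c : F, w ≠ 0 ∧ c ≠ 0 ∧ (∀ v : Place K F, v.ord c = 0) ∧ g • h = h * (c * w ^ n) := by
  refine torFix_of_gen_of_kc hn g V₁ V₂ hg₁ hg₂
    (fun b : Bool => if b then {w : Place K F | 0 < E1 w} else {w : Place K F | 0 < E2 w})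
    ?_ ?_ ?_
  · rintro (_ | _) w hw
    · exact hgE2 w hw
    · exact hgE1 w hw
  · rintro (_ | _) h hK h1 h2
    · obtain ⟨k₀, N1, N2, N12, -, -, -, -, -, hs2, -, -, hG2⟩ := hSF h hK h1 h2
      exact gen_of_special_fibre v vL V₁ V₂ hball hopen E2 hE2 hred hK k₀ N2 hs2 hG2
    · obtain ⟨k₀, N1, N2, N12, -, -, -, -, hs1, -, -, hG1, -⟩ := hSF h hK h1 h2
      exact gen_of_special_fibre v vL V₁ V₂ hball hopen E1 hE1 hred hK k₀ N1 hs1 hG1
  · intro h hK h1 h2 hseeds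
    obtain ⟨k₀, N1, N2, N12, hcart, hcont, hsum, hs12, hs1, hs2, hone, -, -⟩ := hSF h hK h1 h2
    exact kc_of_special_fibre hdeg v vL harch hn hm V₁ V₂ hball hopen E1 E2 hE1 hE2 hdisj hred hVG
      hK h1 h2 k₀ hcart N1 N2 N12 hcont hsum hs12 hs1 hs2 hone (hseeds true)

/-- **(TORFIX) from the nodal description of the reduced twisted lattices** (the export of
`Fermat.Agent.S35.helper603`: `red (ball ∩ L(D_h + a E1 + b E2)) = glued c (T a b)`).

`Vn` is the algebra of pairs of functions on the two components (regular at the nodes),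
`ιV : Vn → Fk` its embedding into the special fibre of the reduction datum, `T a b` the pairs with
pole order `≤ a` along `Ē₁` and `≤ b` along `Ē₂`, `p i`, `q i` the evaluations at the two points of
the `i`-th node (`IsNodalRR`).  If for every `n`-Kummer `h ≡ 1` there are `n`-th roots of unity
`c i` such that the reduction of the unit ball of `L(D_h + a E1 + b E2)` is exactly the glued
space `glued p q c (T a b)` for `n₀ ≤ a + b`, then `g` fixes the class of every such `h`. -/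
theorem torFix_of_nodal (hdeg : ∀ v : Place K F, 0 < v.deg)
    [Finite ι] [Nonempty ι] (v : ι → Valuation F Γ₀) (vL : Valuation K Γ₀)
    (harch : ∀ ε κ : Γ₀, ε < 1 → κ ≠ 0 → ∃ n : ℕ, ε ^ n < κ)
    {n : ℕ} (hn : 0 < n) (hm : ∀ i, v i (n : F) = 1)
    (g : SemilinearAut K F) (V₁ V₂ : ValuationSubring F)
    (hg₁ : ∀ x : F, V₁.valuation x ≤ 1 → V₁.valuation (g • x - x) < 1)
    (hg₂ : ∀ x : F, V₂.valuation x ≤ 1 → V₂.valuation (g • x - x) < 1)
    (hball : ∀ x : F, (∀ i, v i x ≤ 1) ↔ x ∈ V₁ ∧ x ∈ V₂)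
    (hopen : ∀ x : F, (∀ i, v i x < 1) ↔ V₁.valuation x < 1 ∧ V₂.valuation x < 1)
    (E1 E2 : Divisor K F) (hE1 : ∀ w : Place K F, 0 ≤ E1 w) (hE2 : ∀ w : Place K F, 0 ≤ E2 w)
    (hdisj : ∀ w : Place K F, E1 w = 0 ∨ E2 w = 0)
    (hgE1 : ∀ w : Place K F, 0 < E1 w → 0 < E1 (g • w))
    (hgE2 : ∀ w : Place K F, 0 < E2 w → 0 < E2 (g • w))
    {red : F → Fk} (hred : helper2459.RedDataW v (fun _ => (1 : Γ₀)) vL kk red red)
    (hVG : ∀ (i : ι) (f : F), f ≠ 0 → ∃ c : K, vL c = v i f)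
    {Vn : Type*} [CommRing Vn] [Algebra kk Vn] {I : Type*} [Fintype I]
    (ιV : Vn →ₐ[kk] Fk) (hιV : Function.Injective ιV)
    (T : ℕ → ℕ → Submodule kk Vn) (p q : I → Vn →ₐ[kk] kk) (e s t n₀ : ℕ)
    (hT : helper603.IsNodalRR T p q e s t n₀) (hT1 : (1 : Vn) ∈ T 0 0)
    (hTmul : ∀ a b a' b', ∀ x ∈ T a b, ∀ y ∈ T a' b', x * y ∈ T (a + a') (b + b'))
    (hE3 : ∀ h : F, IsKummer K n h → V₁.valuation (h - 1) < 1 → V₂.valuation (h - 1) < 1 →
      (∀ k, n₀ ≤ k → helper2459.CartesianW v (fun _ => (1 : Γ₀)) vL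
        (riemannRochSpace (kummerDivisor K n h + k • E1 + k • E2))) ∧
      ∃ c : I → kk, (∀ i, c i ^ n = 1) ∧ ∀ a b, n₀ ≤ a + b →
        (∀ x ∈ riemannRochSpace (kummerDivisor K n h + a • E1 + b • E2), (∀ i, v i x ≤ 1) →
          ∃ y ∈ helper603.glued p q c (T a b), red x = ιV y) ∧
        (∀ y ∈ helper603.glued p q c (T a b),
          ∃ x ∈ riemannRochSpace (kummerDivisor K n h + a • E1 + b • E2),
            (∀ i, v i x ≤ 1) ∧ red x = ιV y)) :
    ∀ h : F, IsKummer K n h → V₁.valuation (h - 1) < 1 → V₂.valuation (h - 1) < 1 →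
      ∃ w c : F, w ≠ 0 ∧ c ≠ 0 ∧ (∀ v : Place K F, v.ord c = 0) ∧ g • h = h * (c * w ^ n) := by
  refine torFix_of_special_fibre hdeg v vL harch hn hm g V₁ V₂ hg₁ hg₂ hball hopen E1 E2 hE1 hE2
    hdisj hgE1 hgE2 hred hVG ?_
  intro h hK h1 h2
  obtain ⟨hcart, c, hc, hred_eq⟩ := hE3 h hK h1 h2
  have e10 : ∀ a : ℕ, kummerDivisor K n h + a • E1 + 0 • E2 = kummerDivisor K n h + a • E1 :=
    fun a => by rw [zero_smul, add_zero]
  have e01 : ∀ b : ℕ, kummerDivisor K n h + 0 • E1 + b • E2 = kummerDivisor K n h + b • E2 :=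
    fun b => by rw [zero_smul, add_zero]
  have hT1' : ∀ a b, (1 : Vn) ∈ T a b := fun a b =>
    hT.mono 0 a 0 b (Nat.zero_le a) (Nat.zero_le b) hT1
  refine ⟨n₀, fun k => (helper603.glued p q c (T k 0)).map ιV.toLinearMap,
    fun k => (helper603.glued p q c (T 0 k)).map ιV.toLinearMap,
    fun k => (helper603.glued p q c (T k k)).map ιV.toLinearMap, hcart, ?_, ?_, ?_, ?_, ?_, ?_, ?_, ?_⟩
  · -- hcont
    intro k hk a ha hab
    obtain ⟨y, hy, hay⟩ := (hred_eq k k (by omega)).1 a ha hab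
    exact ⟨y, hy, hay.symm⟩
  · -- hsum
    intro k hk
    have := hT.glued_sum_formula c n₀ le_rfl k hk
    have h3 := Submodule.map_mono (f := ιV.toLinearMap) this
    rwa [Submodule.map_sup, Submodule.map_sup] at h3
  · -- hs12
    rintro _ ⟨y, hy, rfl⟩
    obtain ⟨x, hx, hxb, hxy⟩ := (hred_eq n₀ n₀ (by omega)).2 y hy
    exact ⟨x, hx, hxb, hxy⟩
  · -- hs1
    rintro k hk _ ⟨y, hy, rfl⟩
    obtain ⟨x, hx, hxb, hxy⟩ := (hred_eq k 0 (by omega)).2 y hy
    rw [e10] at hx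
    exact ⟨x, hx, hxb, hxy⟩
  · -- hs2
    rintro k hk _ ⟨y, hy, rfl⟩
    obtain ⟨x, hx, hxb, hxy⟩ := (hred_eq 0 k (by omega)).2 y hy
    rw [e01] at hx
    exact ⟨x, hx, hxb, hxy⟩
  · -- hone
    rintro ⟨k, -, y, hy, hy1⟩
    have hy1' : y = 1 := hιV (by rw [map_one]; exact hy1)
    rw [hy1'] at hy
    have hc1 : ∀ i, c i = 1 := (helper603.one_mem_glued_iff p q c (T k k) (hT1' k k)).mp hy
    exact ⟨⟨1, (helper603.one_mem_glued_iff p q c (T n₀ 0) (hT1' n₀ 0)).mpr hc1, map_one ιV⟩,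
      ⟨1, (helper603.one_mem_glued_iff p q c (T 0 n₀) (hT1' 0 n₀)).mpr hc1, map_one ιV⟩⟩
  · -- hG1
    refine one_mem_span_pow_of_graded (ιV : Vn →+* Fk) p q c hn hc (fun a => T a 0) hT1
      (fun a a' haa' => hT.mono a a' 0 0 haa' le_rfl)
      (fun a a' x hx y hy => by simpa using hTmul a 0 a' 0 x hx y hy)
      n₀ (hT.eval_surj n₀ 0 (by omega)) _ ?_
    intro a x hx hx'
    refine Set.mem_iUnion₂.mpr ⟨max a n₀, le_max_right a n₀, ?_⟩
    exact ⟨x, ⟨hT.mono a (max a n₀) 0 0 (le_max_left a n₀) le_rfl hx, hx'⟩, rfl⟩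
  · -- hG2
    refine one_mem_span_pow_of_graded (ιV : Vn →+* Fk) p q c hn hc (fun b => T 0 b) hT1
      (fun b b' hbb' => hT.mono 0 0 b b' le_rfl hbb')
      (fun b b' x hx y hy => by simpa using hTmul 0 b 0 b' x hx y hy)
      n₀ (hT.eval_surj 0 n₀ (by omega)) _ ?_
    intro b x hx hx'
    refine Set.mem_iUnion₂.mpr ⟨max b n₀, le_max_right b n₀, ?_⟩
    exact ⟨x, ⟨hT.mono 0 0 b (max b n₀) le_rfl (le_max_left b n₀) hx, hx'⟩, rfl⟩

end SpecialFibre

end Fermat.Agent.S35.helper2423
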