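import Fermat.Agent.S35.helper1219_AtkinLehnerFF
import Fermat.Agent.S18.helper8991_GaussInst
import Fermat.Agent.Lib.helper7516_LaurentFrob

/-!
# The Kronecker witness for the two Gauss valuation rings at `q ∣ N` (helper1219)

`Kbar = ℚ̄`, `FN N = modularFunctionFieldBar N`, `A` a valuation subring of `ℚ̄`, `π : A →+* k`
with `k` a field of characteristic `q` (`q` prime), `V₁ := gaussF A π N` the Gauss valuation
subring of `FN N` (landed S18 file `helper8991_GaussInst`, valid for every level `N`).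

For `q ∣ N` put `b := j - j_q ^ q` and `b' := j_q - j ^ q` (`j_q = j(t^q)`).

* `kronWitness_mem`, `gaussFRed_kronWitness_ne_zero`, `valuation_kronWitness` : `b` is a unit
  of `V₁` (the coefficient of `t⁻¹` of its reduction is `1`, since a `q`-th power in
  characteristic `q` has no `t⁻¹`-term).
* `exists_kronWitness'_eq` : **Kronecker's congruence**, `b' = q * c` with `c ∈ V₁` (over `ℤ`:
  `u(t^q) - u(t)^q ∈ q ℤ((t))`, `exists_qExpand_sub_pow_eq`).
* For any `W : FN N ≃ₐ[ℚ̄] FN N` with `W j = j_q`, `W j_q = j` (`W_q`: `atkinLehnerBarR M q h` at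
  `N = M * q`, `atkinLehnerBar q M h` at `N = q * M`), and `V₂ := V₁.comap W`:
  `V₁.valuation b = 1`, `b = q * c` with `c ∈ V₂`, `V₁.valuation (W b) < 1`,
  `V₂.valuation (W b) = 1`, `V₂.valuation b < 1`, `¬ V₁ ≤ V₂`, `¬ V₂ ≤ V₁`.
-/

set_option autoImplicit false

open ModularCurve HahnSeries

noncomputable section

namespace Fermat.Agent.S35.helper1219

open Fermat.Agent.S24.helper24 Fermat.Agent.S24 Fermat.Agent.S18.helper8991
  Fermat.Agent.Lib.helper7516

/-! ## Kronecker's congruence for integer Laurent series -/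

/-- Division of an integer Laurent series by `q`, coefficientwise. -/
def divSeries (q : ℤ) (X : LaurentSeries ℤ) : LaurentSeries ℤ where
  coeff n := X.coeff n / q
  isPWO_support' := X.isPWO_support.mono (by
    intro n hn
    simp only [Function.mem_support, ne_eq] at hn
    simp only [HahnSeries.mem_support, ne_eq]
    intro h0
    exact hn (by rw [h0, Int.zero_ediv]))

theorem divSeries_coeff (q : ℤ) (X : LaurentSeries ℤ) (n : ℤ) :
    (divSeries q X).coeff n = X.coeff n / q := rfl

theorem C_mul_divSeries (q : ℤ) (X : LaurentSeries ℤ) (h : ∀ n, q ∣ X.coeff n) :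
    HahnSeries.C q * divSeries q X = X := by
  ext n
  rw [HahnSeries.C_mul_eq_smul, HahnSeries.coeff_smul, smul_eq_mul, divSeries_coeff,
    Int.mul_ediv_cancel' (h n)]

/-- **Kronecker's congruence over `ℤ`**: `u(t^q) - u(t)^q ∈ q ℤ((t))`. -/
theorem exists_qExpand_sub_pow_eq (q : ℕ) [Fact q.Prime] (u : LaurentSeries ℤ) :
    ∃ Y : LaurentSeries ℤ, qExpand ℤ q u - u ^ q = HahnSeries.C (q : ℤ) * Y := by
  have hzero : coeffMap (Int.castRingHom (ZMod q)) (qExpand ℤ q u - u ^ q) = 0 := by
    rw [map_sub, map_pow, coeffMap_qExpand, qExpand_zmod, sub_self]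
  refine ⟨divSeries (q : ℤ) (qExpand ℤ q u - u ^ q), (C_mul_divSeries _ _ fun n => ?_).symm⟩
  have h1 := congrArg (fun Z : LaurentSeries (ZMod q) => Z.coeff n) hzero
  simp only [coeffMap_coeff, HahnSeries.coeff_zero] at h1
  exact (ZMod.intCast_zmod_eq_zero_iff_dvd _ q).mp h1

/-- Kronecker's congruence for `j`: `j(t^q) - j(t)^q = q Y` over any ring. -/
theorem exists_jqNModC_sub_pow_eq (R : Type*) [CommRing R] (q : ℕ) [Fact q.Prime] :
    ∃ Y : LaurentSeries R, jqNModC R q - jqModC R ^ q = HahnSeries.C (q : R) * Y := by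
  obtain ⟨Y, hY⟩ := exists_qExpand_sub_pow_eq q (jqModC ℤ)
  refine ⟨coeffMap (Int.castRingHom R) Y, ?_⟩
  have h := congrArg (coeffMap (Int.castRingHom R)) hY
  rw [map_sub, map_pow, map_mul, coeffMap_qExpand, coeffMap_jqModC] at h
  rw [jqNModC, h]
  congr 1
  rw [HahnSeries.C_apply, HahnSeries.C_apply, coeffMap_single]
  simp

/-! ## The witness in the function field -/

section Witness

variable (A : ValuationSubring Kbar) {k : Type*} [Field k] (π : A →+* k)
variable (N q : ℕ) [Fact q.Prime] (hqN : q ∣ N)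

/-- The underlying series of `j(t^d)` is the inclusion of the integral series `jqNModC A d`. -/
theorem coe_jBarD_eq_inc (d : ℕ) [NeZero d] (hd : d ∣ N) :
    ((jBarD N d hd : FN N) : LaurentSeries Kbar) = inc A (jqNModC A d) := by
  rw [inc_jqNModC]
  exact coeffEmb_qExpand_jq d

theorem coe_jBar_eq_inc : ((jBar N : FN N) : LaurentSeries Kbar) = inc A (jqModC A) := by
  have h := coe_jBarD_eq_inc A N 1 (one_dvd N)
  rwa [jqNModC_one] at h

/-- The witness `b = j - j_q ^ q`. -/
def kronWitness : FN N := jBar N - jBarD N q hqN ^ q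

/-- The twin `b' = j_q - j ^ q`. -/
def kronWitness' : FN N := jBarD N q hqN - jBar N ^ q

theorem kronWitness_def : kronWitness N q hqN = jBar N - jBarD N q hqN ^ q := rfl

theorem kronWitness'_def : kronWitness' N q hqN = jBarD N q hqN - jBar N ^ q := rfl

theorem coe_kronWitness :
    ((kronWitness N q hqN : FN N) : LaurentSeries Kbar)
      = inc A (jqModC A - jqNModC A q ^ q) := by
  rw [map_sub, map_pow, ← coe_jBar_eq_inc A N, ← coe_jBarD_eq_inc A N q hqN]
  rfl

theorem coe_kronWitness' :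
    ((kronWitness' N q hqN : FN N) : LaurentSeries Kbar)
      = inc A (jqNModC A q - jqModC A ^ q) := by
  rw [map_sub, map_pow, ← coe_jBar_eq_inc A N, ← coe_jBarD_eq_inc A N q hqN]
  rfl

/-- `b ∈ V₁`. -/
theorem kronWitness_mem : kronWitness N q hqN ∈ gaussF A π N := by
  rw [mem_gaussF_iff]
  refine ⟨jqModC A - jqNModC A q ^ q, 1, ?_, ?_⟩
  · rw [map_one]
    exact one_ne_zero
  · rw [map_one, mul_one, coe_kronWitness A]

/-- The reduction of `b` is `j̄ - j̄_q ^ q`. -/
theorem gaussFRed_kronWitness :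
    gaussFRed A π N ⟨kronWitness N q hqN, kronWitness_mem A π N q hqN⟩
      = jqModC k - jqNModC k q ^ q := by
  have hY : red A π (1 : LaurentSeries A) ≠ 0 := by
    rw [map_one]
    exact one_ne_zero
  rw [gaussFRed_eq A π N _ (X := jqModC A - jqNModC A q ^ q) (Y := 1) hY
    (by rw [map_one, mul_one, coe_kronWitness A])]
  rw [map_one, div_one, map_sub, map_pow, red_jqNModC]
  congr 1
  exact coeffMap_jqModC π

/-- In characteristic `q`, `j̄ - j̄_q ^ q ≠ 0`: its coefficient at `t⁻¹` is `1`. -/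
theorem jqModC_sub_pow_ne_zero [CharP k q] : jqModC k - jqNModC k q ^ q ≠ 0 := by
  have : ExpChar k q := ExpChar.prime (Fact.out : q.Prime)
  intro h
  have h1 := congrArg (fun Z : LaurentSeries k => Z.coeff (-1)) h
  simp only [HahnSeries.coeff_sub, HahnSeries.coeff_zero] at h1
  rw [coeff_jqModC_neg_one, ← qExpand_coeffMap_frobenius q (jqNModC k q),
    qExpand_coeff_of_not_dvd, sub_zero] at h1
  · exact one_ne_zero h1
  · intro hdvd
    have h2 : (q : ℤ) ∣ 1 := (dvd_neg).mp hdvd
    have h3 : q ∣ 1 := Int.natCast_dvd_natCast.mp (by simpa using h2)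
    exact (Fact.out : q.Prime).one_lt.ne' (Nat.dvd_one.mp h3)

theorem gaussFRed_kronWitness_ne_zero [CharP k q] :
    gaussFRed A π N ⟨kronWitness N q hqN, kronWitness_mem A π N q hqN⟩ ≠ 0 := by
  rw [gaussFRed_kronWitness]
  exact jqModC_sub_pow_ne_zero q

/-- `b` is a unit of `V₁`. -/
theorem isUnit_kronWitness [CharP k q] :
    IsUnit (⟨kronWitness N q hqN, kronWitness_mem A π N q hqN⟩ : ↥(gaussF A π N)) :=
  (isUnit_iff_gaussFRed_ne_zero A π N _).mpr (gaussFRed_kronWitness_ne_zero A π N q hqN)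

/-- `V₁.valuation b = 1`. -/
theorem valuation_kronWitness [CharP k q] :
    (gaussF A π N).valuation (kronWitness N q hqN) = 1 :=
  ((gaussF A π N).valuation_eq_one_iff ⟨kronWitness N q hqN, kronWitness_mem A π N q hqN⟩).mp
    (isUnit_kronWitness A π N q hqN)

include A π in
theorem kronWitness_ne_zero [CharP k q] : kronWitness N q hqN ≠ 0 := by
  intro h
  have h1 := valuation_kronWitness A π N q hqN
  rw [h, map_zero] at h1
  exact zero_ne_one h1

/-- **Kronecker's congruence in the function field**: `b' = j_q - j ^ q = q * c`, `c ∈ V₁`. -/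
theorem exists_kronWitness'_eq :
    ∃ c : FN N, c ∈ gaussF A π N ∧
      kronWitness' N q hqN = algebraMap Kbar (FN N) (q : Kbar) * c := by
  obtain ⟨Y, hY⟩ := exists_jqNModC_sub_pow_eq A q
  have hq0 : (q : Kbar) ≠ 0 := Nat.cast_ne_zero.mpr (Fact.out : q.Prime).ne_zero
  have hq0' : algebraMap Kbar (FN N) (q : Kbar) ≠ 0 := by
    rw [Ne, map_eq_zero]
    exact hq0
  refine ⟨(algebraMap Kbar (FN N) (q : Kbar))⁻¹ * kronWitness' N q hqN, ?_, ?_⟩
  · rw [mem_gaussF_iff]
    refine ⟨Y, 1, ?_, ?_⟩
    · rw [map_one]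
      exact one_ne_zero
    · rw [map_one, mul_one]
      have h1 : (((algebraMap Kbar (FN N) (q : Kbar))⁻¹ * kronWitness' N q hqN : FN N) :
          LaurentSeries Kbar)
          = (HahnSeries.C (q : Kbar))⁻¹ * ((kronWitness' N q hqN : FN N) : LaurentSeries Kbar) := by
        rw [Fermat.Agent.S18.helper8991.C_eq_algebraMap]
        rfl
      rw [h1, coe_kronWitness' A, hY, map_mul]
      have h2 : inc A (HahnSeries.C ((q : ℕ) : A)) = HahnSeries.C (q : Kbar) := by
        rw [inc_C]
        simp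
      have h3 : (HahnSeries.C (q : Kbar) : LaurentSeries Kbar) ≠ 0 := by
        rw [Ne, map_eq_zero]
        exact hq0
      rw [h2, ← mul_assoc, inv_mul_cancel₀ h3, one_mul]
  · rw [← mul_assoc, mul_inv_cancel₀ hq0', one_mul]

omit [Fact (Nat.Prime q)] in
/-- `q` is a non-unit of `V₁` (characteristic of `k` is `q`). -/
theorem valuation_algebraMap_natCast_lt_one [CharP k q] :
    (gaussF A π N).valuation (algebraMap Kbar (FN N) (q : Kbar)) < 1 := by
  have hqA : (q : Kbar) ∈ A := natCast_mem A q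
  have hmem : algebraMap Kbar (FN N) (q : Kbar) ∈ gaussF A π N :=
    (algebraMap_mem_gaussSubring A π _ _ hqA)
  have hred : gaussFRed A π N ⟨algebraMap Kbar (FN N) (q : Kbar), hmem⟩ = 0 := by
    have h1 := gaussRed_algebraMap A π (laurentBaseChange Kbar (modularFunctionFieldFull N))
      (fun _ hf hf0 => isNormalizable_of_mem_full A π N hf hf0) hqA
    have h2 : π ⟨(q : Kbar), hqA⟩ = 0 := by
      have h3 : (⟨(q : Kbar), hqA⟩ : A) = ((q : ℕ) : A) := Subtype.ext (by simp)
      rw [h3, map_natCast]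
      exact CharP.cast_eq_zero k q
    rw [h2, map_zero] at h1
    exact h1
  have h4 := (gaussFRed_eq_zero_iff A π N _).mp hred
  exact ((gaussF A π N).valuation_lt_one_iff _).mp h4

/-- `V₁.valuation b' < 1`. -/
theorem valuation_kronWitness'_lt_one [CharP k q] :
    (gaussF A π N).valuation (kronWitness' N q hqN) < 1 := by
  obtain ⟨c, hc, hbc⟩ := exists_kronWitness'_eq A π N q hqN
  rw [hbc, map_mul]
  have h1 := valuation_algebraMap_natCast_lt_one A π N q
  have h2 : (gaussF A π N).valuation c ≤ 1 := ((gaussF A π N).valuation_le_one_iff c).mpr hc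
  calc (gaussF A π N).valuation (algebraMap Kbar (FN N) (q : Kbar)) * (gaussF A π N).valuation c
      ≤ (gaussF A π N).valuation (algebraMap Kbar (FN N) (q : Kbar)) * 1 :=
        mul_le_mul_right h2 _
    _ = (gaussF A π N).valuation (algebraMap Kbar (FN N) (q : Kbar)) := mul_one _
    _ < 1 := h1

end Witness

/-! ## Valuations of a pulled-back valuation subring -/

section ComapGeneral

variable {K L : Type*} [Field K] [Field L] (V : ValuationSubring L) (f : K →+* L)

theorem valuation_comap_le_one_iff (x : K) :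
    (V.comap f).valuation x ≤ 1 ↔ V.valuation (f x) ≤ 1 := by
  rw [ValuationSubring.valuation_le_one_iff, ValuationSubring.valuation_le_one_iff,
    ValuationSubring.mem_comap]

theorem valuation_comap_lt_one_iff (x : K) :
    (V.comap f).valuation x < 1 ↔ V.valuation (f x) < 1 := by
  rw [← ValuationSubring.mem_nonunits_iff, ← ValuationSubring.mem_nonunits_iff,
    ValuationSubring.mem_nonunits_iff_or, ValuationSubring.mem_nonunits_iff_or,
    ValuationSubring.mem_comap, map_inv₀, map_eq_zero]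

theorem valuation_comap_eq_one_iff (x : K) :
    (V.comap f).valuation x = 1 ↔ V.valuation (f x) = 1 := by
  constructor
  · intro h
    exact le_antisymm ((valuation_comap_le_one_iff V f x).mp h.le)
      (not_lt.mp fun hlt => (ne_of_lt ((valuation_comap_lt_one_iff V f x).mpr hlt)) h)
  · intro h
    exact le_antisymm ((valuation_comap_le_one_iff V f x).mpr h.le)
      (not_lt.mp fun hlt => (ne_of_lt ((valuation_comap_lt_one_iff V f x).mp hlt)) h)

end ComapGeneral

/-! ## The second Gauss ring `V₂ = V₁ ∘ W` -/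

section Comap

variable (A : ValuationSubring Kbar) {k : Type*} [Field k] (π : A →+* k)
variable (N q : ℕ) [Fact q.Prime] (hqN : q ∣ N)
variable (W : FN N ≃ₐ[Kbar] FN N)

/-- The second Gauss valuation subring `V₂ := {x | W x ∈ V₁}` (in the application `W = W_q`,
the Gauss ring of the expansions at the cusp `0`-over-`q`). -/
def gaussFW : ValuationSubring (FN N) :=
  (gaussF A π N).comap ((W : FN N ≃+* FN N) : FN N →+* FN N)

theorem mem_gaussFW_iff (x : FN N) : x ∈ gaussFW A π N W ↔ W x ∈ gaussF A π N := Iff.rfl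

theorem valuation_gaussFW_le_one_iff (x : FN N) :
    (gaussFW A π N W).valuation x ≤ 1 ↔ (gaussF A π N).valuation (W x) ≤ 1 :=
  valuation_comap_le_one_iff _ _ x

theorem valuation_gaussFW_lt_one_iff (x : FN N) :
    (gaussFW A π N W).valuation x < 1 ↔ (gaussF A π N).valuation (W x) < 1 :=
  valuation_comap_lt_one_iff _ _ x

theorem valuation_gaussFW_eq_one_iff (x : FN N) :
    (gaussFW A π N W).valuation x = 1 ↔ (gaussF A π N).valuation (W x) = 1 :=
  valuation_comap_eq_one_iff _ _ x

variable (hW1 : W (jBar N) = jBarD N q hqN) (hW2 : W (jBarD N q hqN) = jBar N)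

include hW1 hW2 in
theorem W_kronWitness : W (kronWitness N q hqN) = kronWitness' N q hqN := by
  rw [kronWitness_def, kronWitness'_def, map_sub, map_pow, hW1, hW2]

include hW1 hW2 in
theorem W_kronWitness' : W (kronWitness' N q hqN) = kronWitness N q hqN := by
  rw [kronWitness_def, kronWitness'_def, map_sub, map_pow, hW1, hW2]

include hW1 hW2 in
/-- `V₂.valuation b < 1`. -/
theorem valuation_gaussFW_kronWitness_lt_one [CharP k q] :
    (gaussFW A π N W).valuation (kronWitness N q hqN) < 1 := by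
  rw [valuation_gaussFW_lt_one_iff, W_kronWitness N q hqN W hW1 hW2]
  exact valuation_kronWitness'_lt_one A π N q hqN

include hW1 hW2 in
/-- `b = q * c` with `c ∈ V₂`. -/
theorem exists_kronWitness_eq_gaussFW :
    ∃ c : FN N, c ∈ gaussFW A π N W ∧
      kronWitness N q hqN = algebraMap Kbar (FN N) (q : Kbar) * c := by
  obtain ⟨c, hc, hbc⟩ := exists_kronWitness'_eq A π N q hqN
  refine ⟨W.symm c, ?_, ?_⟩
  · rw [mem_gaussFW_iff, AlgEquiv.apply_symm_apply]
    exact hc
  · apply W.injective
    rw [W_kronWitness N q hqN W hW1 hW2, map_mul, AlgEquiv.commutes, AlgEquiv.apply_symm_apply]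
    exact hbc

include hW1 hW2 in
/-- `V₂.valuation b ≤ V₂.valuation q`. -/
theorem valuation_gaussFW_kronWitness_le :
    (gaussFW A π N W).valuation (kronWitness N q hqN)
      ≤ (gaussFW A π N W).valuation (algebraMap Kbar (FN N) (q : Kbar)) := by
  obtain ⟨c, hc, hbc⟩ := exists_kronWitness_eq_gaussFW A π N q hqN W hW1 hW2
  rw [hbc, map_mul]
  have h2 : (gaussFW A π N W).valuation c ≤ 1 :=
    ((gaussFW A π N W).valuation_le_one_iff c).mpr hc
  calc (gaussFW A π N W).valuation (algebraMap Kbar (FN N) (q : Kbar))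
        * (gaussFW A π N W).valuation c
      ≤ (gaussFW A π N W).valuation (algebraMap Kbar (FN N) (q : Kbar)) * 1 :=
        mul_le_mul_right h2 _
    _ = (gaussFW A π N W).valuation (algebraMap Kbar (FN N) (q : Kbar)) := mul_one _

include hW1 hW2 in
/-- `V₂.valuation b' = 1`. -/
theorem valuation_gaussFW_kronWitness' [CharP k q] :
    (gaussFW A π N W).valuation (kronWitness' N q hqN) = 1 := by
  rw [valuation_gaussFW_eq_one_iff, W_kronWitness' N q hqN W hW1 hW2]
  exact valuation_kronWitness A π N q hqN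

include hW1 hW2 in
/-- The two Gauss rings are incomparable: `¬ V₁ ≤ V₂`. -/
theorem not_gaussF_le_gaussFW [CharP k q] : ¬ gaussF A π N ≤ gaussFW A π N W := by
  intro hle
  have hb0 : kronWitness N q hqN ≠ 0 := kronWitness_ne_zero A π N q hqN
  have h1 : (kronWitness N q hqN)⁻¹ ∈ gaussF A π N := by
    rw [← ValuationSubring.valuation_le_one_iff, map_inv₀, valuation_kronWitness A π N q hqN,
      inv_one]
  have h2 := hle h1
  have h3 := valuation_gaussFW_kronWitness_lt_one A π N q hqN W hW1 hW2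
  rw [← ValuationSubring.mem_nonunits_iff, ValuationSubring.mem_nonunits_iff_or] at h3
  rcases h3 with h3 | h3
  · exact hb0 h3
  · exact h3 h2

include hW1 hW2 in
/-- The two Gauss rings are incomparable: `¬ V₂ ≤ V₁`. -/
theorem not_gaussFW_le_gaussF [CharP k q] : ¬ gaussFW A π N W ≤ gaussF A π N := by
  intro hle
  have h0 := valuation_gaussFW_kronWitness' A π N q hqN W hW1 hW2
  have hb0 : kronWitness' N q hqN ≠ 0 := by
    intro h
    rw [h, map_zero] at h0
    exact zero_ne_one h0
  have h1 : (kronWitness' N q hqN)⁻¹ ∈ gaussFW A π N W := by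
    rw [← ValuationSubring.valuation_le_one_iff, map_inv₀, h0, inv_one]
  have h2 := hle h1
  have h3 := valuation_kronWitness'_lt_one A π N q hqN
  rw [← ValuationSubring.mem_nonunits_iff, ValuationSubring.mem_nonunits_iff_or] at h3
  rcases h3 with h3 | h3
  · exact hb0 h3
  · exact h3 h2

end Comap

/-! ## The instances `W = W_q` -/

section Instances

/-- `W_q j = j_q` at level `M * q`. -/
theorem atkinLehnerBarR_jBar (M q : ℕ) [NeZero M] [NeZero q] (h : Nat.Coprime q M) :
    atkinLehnerBarR M q h (jBar (M * q)) = jBarD (M * q) q (Dvd.intro_left M rfl) := by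
  have h1 := atkinLehnerBarR_jBarD_cofactor M q h (d := 1) (one_dvd M)
  rw [jBarD_congr (M * q) (one_mul q) _ (Dvd.intro_left M rfl)] at h1
  exact h1

/-- `W_q j_q = j` at level `M * q`. -/
theorem atkinLehnerBarR_jBarD_self (M q : ℕ) [NeZero M] [NeZero q] (h : Nat.Coprime q M) :
    atkinLehnerBarR M q h (jBarD (M * q) q (Dvd.intro_left M rfl)) = jBar (M * q) := by
  rw [← atkinLehnerBarR_jBar M q h, atkinLehnerBarR_atkinLehnerBarR]

/-- `W_q j_q = j` at level `q * M`. -/
theorem atkinLehnerBar_jBarD_self (q M : ℕ) [NeZero q] [NeZero M] (h : Nat.Coprime q M) :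
    atkinLehnerBar q M h (jBarD (q * M) q (Dvd.intro M rfl)) = jBar (q * M) := by
  rw [← atkinLehnerBar_jBar q M h, atkinLehnerBar_atkinLehnerBar]

/-- **The witness package at level `M * q`** (`V₁ = gaussF A π (M * q)`,
`V₂ = gaussFW A π (M * q) W_q = V₁.comap W_q`): `b = j - j_q^q` and `c' = W_q b = j_q - j^q`
satisfy `|b|₁ = 1`, `|c'|₁ < 1`, `|c'|₂ = 1`, `|b|₂ < 1`, `|b|₂ ≤ |q|₂`. -/
theorem exists_witness_atkinLehnerBarR (M q : ℕ) [NeZero M] [Fact q.Prime]
    (h : Nat.Coprime q M) (A : ValuationSubring Kbar) {k : Type*} [Field k] (π : A →+* k)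
    [CharP k q] :
    ∃ b c' : FN (M * q),
      atkinLehnerBarR M q h b = c' ∧ atkinLehnerBarR M q h c' = b ∧
      (gaussF A π (M * q)).valuation b = 1 ∧
      (gaussF A π (M * q)).valuation c' < 1 ∧
      (gaussFW A π (M * q) (atkinLehnerBarR M q h)).valuation c' = 1 ∧
      (gaussFW A π (M * q) (atkinLehnerBarR M q h)).valuation b < 1 ∧
      (gaussFW A π (M * q) (atkinLehnerBarR M q h)).valuation b
        ≤ (gaussFW A π (M * q) (atkinLehnerBarR M q h)).valuation
          (algebraMap Kbar (FN (M * q)) (q : Kbar)) ∧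
      (∃ c : FN (M * q), c ∈ gaussF A π (M * q) ∧
        c' = algebraMap Kbar (FN (M * q)) (q : Kbar) * c) :=
  ⟨kronWitness (M * q) q (Dvd.intro_left M rfl), kronWitness' (M * q) q (Dvd.intro_left M rfl),
    W_kronWitness _ q _ _ (atkinLehnerBarR_jBar M q h) (atkinLehnerBarR_jBarD_self M q h),
    W_kronWitness' _ q _ _ (atkinLehnerBarR_jBar M q h) (atkinLehnerBarR_jBarD_self M q h),
    valuation_kronWitness A π _ q _,
    valuation_kronWitness'_lt_one A π _ q _,
    valuation_gaussFW_kronWitness' A π _ q _ _ (atkinLehnerBarR_jBar M q h)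
      (atkinLehnerBarR_jBarD_self M q h),
    valuation_gaussFW_kronWitness_lt_one A π _ q _ _ (atkinLehnerBarR_jBar M q h)
      (atkinLehnerBarR_jBarD_self M q h),
    valuation_gaussFW_kronWitness_le A π _ q _ _ (atkinLehnerBarR_jBar M q h)
      (atkinLehnerBarR_jBarD_self M q h),
    exists_kronWitness'_eq A π _ q _⟩

/-- The two Gauss rings at level `M * q` are incomparable. -/
theorem gaussF_incomparable_atkinLehnerBarR (M q : ℕ) [NeZero M] [Fact q.Prime]
    (h : Nat.Coprime q M) (A : ValuationSubring Kbar) {k : Type*} [Field k] (π : A →+* k)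
    [CharP k q] :
    ¬ gaussF A π (M * q) ≤ gaussFW A π (M * q) (atkinLehnerBarR M q h) ∧
      ¬ gaussFW A π (M * q) (atkinLehnerBarR M q h) ≤ gaussF A π (M * q) :=
  ⟨not_gaussF_le_gaussFW A π _ q _ _ (atkinLehnerBarR_jBar M q h)
      (atkinLehnerBarR_jBarD_self M q h),
    not_gaussFW_le_gaussF A π _ q _ _ (atkinLehnerBarR_jBar M q h)
      (atkinLehnerBarR_jBarD_self M q h)⟩

/-- **The witness package, level-general form**: `q` a prime with `q ∥ M`,
`W = atkinLehnerAt M q`, `V₁ = gaussF A π M`, `V₂ = gaussFW A π M W`. -/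
theorem exists_witness_atkinLehnerAt (M q : ℕ) [NeZero M] [Fact q.Prime] (hqM : q ∣ M)
    (hq2 : ¬ q ^ 2 ∣ M) (A : ValuationSubring Kbar) {k : Type*} [Field k] (π : A →+* k)
    [CharP k q] :
    ∃ b c' : FN M,
      atkinLehnerAt M q Fact.out hqM hq2 b = c' ∧ atkinLehnerAt M q Fact.out hqM hq2 c' = b ∧
      (gaussF A π M).valuation b = 1 ∧
      (gaussF A π M).valuation c' < 1 ∧
      (gaussFW A π M (atkinLehnerAt M q Fact.out hqM hq2)).valuation c' = 1 ∧
      (gaussFW A π M (atkinLehnerAt M q Fact.out hqM hq2)).valuation b < 1 ∧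
      (gaussFW A π M (atkinLehnerAt M q Fact.out hqM hq2)).valuation b
        ≤ (gaussFW A π M (atkinLehnerAt M q Fact.out hqM hq2)).valuation
          (algebraMap Kbar (FN M) (q : Kbar)) ∧
      (∃ c : FN M, c ∈ gaussF A π M ∧ c' = algebraMap Kbar (FN M) (q : Kbar) * c) :=
  ⟨kronWitness M q hqM, kronWitness' M q hqM,
    W_kronWitness _ q _ _ (atkinLehnerAt_jBar M q Fact.out hqM hq2)
      (atkinLehnerAt_jBarD_self M q Fact.out hqM hq2),
    W_kronWitness' _ q _ _ (atkinLehnerAt_jBar M q Fact.out hqM hq2)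
      (atkinLehnerAt_jBarD_self M q Fact.out hqM hq2),
    valuation_kronWitness A π _ q _,
    valuation_kronWitness'_lt_one A π _ q _,
    valuation_gaussFW_kronWitness' A π _ q _ _ (atkinLehnerAt_jBar M q Fact.out hqM hq2)
      (atkinLehnerAt_jBarD_self M q Fact.out hqM hq2),
    valuation_gaussFW_kronWitness_lt_one A π _ q _ _ (atkinLehnerAt_jBar M q Fact.out hqM hq2)
      (atkinLehnerAt_jBarD_self M q Fact.out hqM hq2),
    valuation_gaussFW_kronWitness_le A π _ q _ _ (atkinLehnerAt_jBar M q Fact.out hqM hq2)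
      (atkinLehnerAt_jBarD_self M q Fact.out hqM hq2),
    exists_kronWitness'_eq A π _ q _⟩

/-- The two Gauss rings at a level `M` with `q ∥ M` are incomparable. -/
theorem gaussF_incomparable_atkinLehnerAt (M q : ℕ) [NeZero M] [Fact q.Prime] (hqM : q ∣ M)
    (hq2 : ¬ q ^ 2 ∣ M) (A : ValuationSubring Kbar) {k : Type*} [Field k] (π : A →+* k)
    [CharP k q] :
    ¬ gaussF A π M ≤ gaussFW A π M (atkinLehnerAt M q Fact.out hqM hq2) ∧
      ¬ gaussFW A π M (atkinLehnerAt M q Fact.out hqM hq2) ≤ gaussF A π M :=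
  ⟨not_gaussF_le_gaussFW A π _ q _ _ (atkinLehnerAt_jBar M q Fact.out hqM hq2)
      (atkinLehnerAt_jBarD_self M q Fact.out hqM hq2),
    not_gaussFW_le_gaussF A π _ q _ _ (atkinLehnerAt_jBar M q Fact.out hqM hq2)
      (atkinLehnerAt_jBarD_self M q Fact.out hqM hq2)⟩

end Instances

end Fermat.Agent.S35.helper1219
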