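/-
S35/S34 two-valuation kit (helper882): the abstract half of the geometry module (2)(a) of the
S35 route, in VALUATION form, built on the S18 valued-field kit `helper1733_ValuedKit`.

Part A. Ultrametric norms `N : F → Γ₀` homogeneous over a subfield (`IsNormOver`), orthonormal
families for such a norm (`IsOrthoN`), max-pivot elimination, and the cartesian theorem over the
constant field `L` when `F` has an orthonormal basis over `L(x)`, `x` residually transcendental.

Part B. Two valuations `v₁ v₂` on `F`: weak approximation for incomparable valuations (no rank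
hypothesis), strong approximation under an archimedean hypothesis, the norm
`maxNorm v₁ v₂ = max (v₁ ·) (v₂ ·)`, an orthonormal basis for it over `K` from orthonormal
families for `v₁` and `v₂` whose cardinalities add up to `[F : K]`, and the resulting cartesian
theorem for (twisted) unit balls `{a | v₁ a ≤ r * v₁ a₀ ∧ v₂ a ≤ r * v₂ a₀}` over `L`.
-/
import Mathlib
import Fermat.Agent.S18.helper1733_ValuedKit

set_option autoImplicit false

namespace Fermat.Agent.S35.helper882

open Polynomial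
open Fermat.Agent.S18.helper1733

/-! ## Part A: ultrametric norms homogeneous over a subfield -/

section Norm

variable {F : Type*} [Field F] {Γ₀ : Type*} [LinearOrderedCommGroupWithZero Γ₀]

/-- `N : F → Γ₀` is an ultrametric norm on `F`, homogeneous over the subfield `M` with respect to
the valuation `v` (only the values of `v` on `M` matter). -/
structure IsNormOver (v : Valuation F Γ₀) (M : Type*) [Field M] [Algebra M F] (N : F → Γ₀) :
    Prop where
  map_zero : N 0 = 0
  map_add_le : ∀ a b : F, N (a + b) ≤ max (N a) (N b)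
  map_smul : ∀ (c : M) (a : F), N (c • a) = v (algebraMap M F c) * N a

/-- A valuation is a norm over every subfield. -/
theorem isNormOver_valuation (v : Valuation F Γ₀) (M : Type*) [Field M] [Algebra M F] :
    IsNormOver v M v where
  map_zero := map_zero v
  map_add_le := fun a b => v.map_add a b
  map_smul := fun c a => by rw [Algebra.smul_def, map_mul]

namespace IsNormOver

variable {v : Valuation F Γ₀} {M : Type*} [Field M] [Algebra M F] {N : F → Γ₀}

theorem map_neg (hN : IsNormOver v M N) (a : F) : N (-a) = N a := by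
  have h := hN.map_smul (-1 : M) a
  rw [neg_one_smul, _root_.map_neg, _root_.map_one, Valuation.map_neg, _root_.map_one,
    one_mul] at h
  exact h

theorem map_sub_le (hN : IsNormOver v M N) (a b : F) : N (a - b) ≤ max (N a) (N b) := by
  rw [sub_eq_add_neg]
  have := hN.map_add_le a (-b)
  rwa [hN.map_neg] at this

theorem map_add_le_of_le (hN : IsNormOver v M N) {a b : F} {g : Γ₀} (ha : N a ≤ g)
    (hb : N b ≤ g) : N (a + b) ≤ g :=
  (hN.map_add_le a b).trans (max_le ha hb)

theorem map_sub_le_of_le (hN : IsNormOver v M N) {a b : F} {g : Γ₀} (ha : N a ≤ g)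
    (hb : N b ≤ g) : N (a - b) ≤ g :=
  (hN.map_sub_le a b).trans (max_le ha hb)

theorem map_sum_le (hN : IsNormOver v M N) {ι : Type*} (s : Finset ι) (f : ι → F) {g : Γ₀}
    (h : ∀ i ∈ s, N (f i) ≤ g) : N (∑ i ∈ s, f i) ≤ g := by
  classical
  induction s using Finset.induction_on with
  | empty => rw [Finset.sum_empty, hN.map_zero]; exact zero_le
  | insert a s ha ih =>
    rw [Finset.sum_insert ha]
    exact hN.map_add_le_of_le (h a (Finset.mem_insert_self a s))
      (ih fun i hi => h i (Finset.mem_insert_of_mem hi))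

/-- Restriction of scalars: a norm over `M` is a norm over every subfield `L` of `M`. -/
theorem restrictScalars (hN : IsNormOver v M N) (L : Type*) [Field L] [Algebra L M] [Algebra L F]
    [IsScalarTower L M F] : IsNormOver v L N where
  map_zero := hN.map_zero
  map_add_le := hN.map_add_le
  map_smul := fun c a => by
    have h := hN.map_smul (algebraMap L M c) a
    rw [algebraMap_smul, ← IsScalarTower.algebraMap_apply] at h
    exact h

/-- Multiplication by an element of `M` (seen in `F`) scales the norm. -/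
theorem map_algebraMap_mul (hN : IsNormOver v M N) (c : M) (a : F) :
    N (algebraMap M F c * a) = v (algebraMap M F c) * N a := by
  rw [← Algebra.smul_def]
  exact hN.map_smul c a

end IsNormOver

/-- Orthonormal family for the norm `N` over the subfield `M`: all members have norm `≤ 1`, and
every coefficient of a finite combination is bounded by the norm of the combination. -/
def IsOrthoN (v : Valuation F Γ₀) (M : Type*) [Field M] [Algebra M F] (N : F → Γ₀)
    {ι : Type*} (u : ι → F) : Prop :=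
  (∀ k, N (u k) ≤ 1) ∧
    ∀ (s : Finset ι) (c : ι → M) (k : ι), k ∈ s →
      v (algebraMap M F (c k)) ≤ N (∑ i ∈ s, c i • u i)

/-- For `N = v` this is the S18 notion. -/
theorem isOrthoN_valuation_iff {v : Valuation F Γ₀} {M : Type*} [Field M] [Algebra M F]
    {ι : Type*} {u : ι → F} : IsOrthoN v M v u ↔ IsOrtho v M u := Iff.rfl

namespace IsOrthoN

variable {v : Valuation F Γ₀} {M : Type*} [Field M] [Algebra M F] {N : F → Γ₀}
  {ι : Type*} {u : ι → F}

theorem le_one (h : IsOrthoN v M N u) (k : ι) : N (u k) ≤ 1 := h.1 k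

theorem coeff_le (h : IsOrthoN v M N u) (s : Finset ι) (c : ι → M) {k : ι} (hk : k ∈ s) :
    v (algebraMap M F (c k)) ≤ N (∑ i ∈ s, c i • u i) := h.2 s c k hk

/-- Upper bound: the norm of a combination is at most any bound on the coefficients. -/
theorem sum_le (h : IsOrthoN v M N u) (hN : IsNormOver v M N) (s : Finset ι) (c : ι → M)
    {g : Γ₀} (hg : ∀ i ∈ s, v (algebraMap M F (c i)) ≤ g) : N (∑ i ∈ s, c i • u i) ≤ g := by
  refine hN.map_sum_le s _ fun i hi => ?_
  rw [hN.map_smul]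
  calc v (algebraMap M F (c i)) * N (u i) ≤ g * 1 := mul_le_mul' (hg i hi) (h.1 i)
    _ = g := mul_one g

/-- The norm of a combination is the value of one of its coefficients (the maximal one). -/
theorem exists_eq (h : IsOrthoN v M N u) (hN : IsNormOver v M N) (s : Finset ι) (c : ι → M)
    (hs : s.Nonempty) :
    ∃ k ∈ s, N (∑ i ∈ s, c i • u i) = v (algebraMap M F (c k)) ∧
      ∀ i ∈ s, v (algebraMap M F (c i)) ≤ v (algebraMap M F (c k)) := by
  obtain ⟨k, hk, hmax⟩ := s.exists_max_image (fun i => v (algebraMap M F (c i))) hs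
  exact ⟨k, hk, le_antisymm (h.sum_le hN s c hmax) (h.coeff_le s c hk), hmax⟩

/-- Two-sided bound: a combination has norm `≤ r` iff all coefficients have value `≤ r`. -/
theorem sum_le_iff (h : IsOrthoN v M N u) (hN : IsNormOver v M N) (s : Finset ι) (c : ι → M)
    (r : Γ₀) : N (∑ i ∈ s, c i • u i) ≤ r ↔ ∀ i ∈ s, v (algebraMap M F (c i)) ≤ r :=
  ⟨fun hr _ hi => (h.coeff_le s c hi).trans hr, fun hr => h.sum_le hN s c hr⟩

/-- An orthonormal family is linearly independent. -/
theorem linearIndependent (h : IsOrthoN v M N u) (hN : IsNormOver v M N) :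
    LinearIndependent M u := by
  rw [linearIndependent_iff']
  intro s c hc i hi
  have := h.coeff_le s c hi
  rw [hc, hN.map_zero] at this
  have h0 : v (algebraMap M F (c i)) = 0 := le_antisymm this zero_le
  rw [Valuation.zero_iff] at h0
  exact (map_eq_zero (algebraMap M F)).mp h0

/-- Finsupp form of the coefficient bound. -/
theorem coeff_le_linearCombination (h : IsOrthoN v M N u) (c : ι →₀ M) (k : ι) :
    v (algebraMap M F (c k)) ≤ N (Finsupp.linearCombination M u c) := by
  rw [Finsupp.linearCombination_apply, Finsupp.sum]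
  by_cases hk : k ∈ c.support
  · exact h.coeff_le c.support c hk
  · rw [Finsupp.notMem_support_iff.mp hk, map_zero, map_zero]
    exact zero_le

/-- Fintype form of the coefficient bound. -/
theorem coeff_le_univ [Fintype ι] (h : IsOrthoN v M N u) (c : ι → M) (k : ι) :
    v (algebraMap M F (c k)) ≤ N (∑ i, c i • u i) :=
  h.coeff_le Finset.univ c (Finset.mem_univ k)

/-- Fintype form of the two-sided bound. -/
theorem sum_univ_le_iff [Fintype ι] (h : IsOrthoN v M N u) (hN : IsNormOver v M N) (c : ι → M)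
    (r : Γ₀) : N (∑ i, c i • u i) ≤ r ↔ ∀ i, v (algebraMap M F (c i)) ≤ r := by
  rw [h.sum_le_iff hN]
  simp

/-- Multiplying an orthonormal family by an element which does not change norms. -/
theorem mul_left (h : IsOrthoN v M N u) {γ : F} (hγ : ∀ y, N (γ * y) = N y) :
    IsOrthoN v M N (fun i => γ * u i) := by
  refine ⟨fun k => by rw [hγ]; exact h.1 k, fun s c k hk => ?_⟩
  have hsum : ∑ i ∈ s, c i • (γ * u i) = γ * ∑ i ∈ s, c i • u i := by
    rw [Finset.mul_sum]
    exact Finset.sum_congr rfl fun i _ => by rw [mul_smul_comm]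
  rw [hsum, hγ]
  exact h.coeff_le s c hk

end IsOrthoN

variable {v : Valuation F Γ₀} {L : Type*} [Field L] [Algebra L F] {N : F → Γ₀}

/-- Fintype form implies orthonormality. -/
theorem isOrthoN_of_fintype {ι : Type*} [Fintype ι] {u : ι → F} (h1 : ∀ k, N (u k) ≤ 1)
    (h2 : ∀ (c : ι → L) (k : ι), v (algebraMap L F (c k)) ≤ N (∑ i, c i • u i)) :
    IsOrthoN v L N u := by
  classical
  refine ⟨h1, fun s c k hk => ?_⟩
  have := h2 (fun i => if i ∈ s then c i else 0) k
  rw [if_pos hk] at this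
  refine this.trans (le_of_eq ?_)
  congr 1
  rw [← Finset.sum_subset (Finset.subset_univ s)]
  · exact Finset.sum_congr rfl fun i hi => by rw [if_pos hi]
  · intro i _ hi
    rw [if_neg hi, zero_smul]

/-- **Max-pivot elimination** for a norm. A finite-dimensional subspace of the span of an
orthonormal family has an orthonormal basis. -/
theorem exists_isOrthoN_of_le_span (hN : IsNormOver v L N) {κ : Type*} {u : κ → F}
    (hu : IsOrthoN v L N u) :
    ∀ (d : ℕ) (V : Submodule L F), V ≤ Submodule.span L (Set.range u) →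
      FiniteDimensional L V → Module.finrank L V = d →
      ∃ e : Fin d → F, (∀ i, e i ∈ V) ∧ IsOrthoN v L N e ∧
        Submodule.span L (Set.range e) = V := by
  classical
  intro d
  induction d with
  | zero =>
    intro V _ hfd hV
    have hbot : V = ⊥ := Submodule.finrank_eq_zero.mp hV
    refine ⟨Fin.elim0, fun i => i.elim0, ⟨fun k => k.elim0, fun _ _ k _ => k.elim0⟩, ?_⟩
    rw [hbot]
    have : Set.range (Fin.elim0 : Fin 0 → F) = ∅ := Set.range_eq_empty _
    rw [this, Submodule.span_empty]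
  | succ d ih =>
    intro V hVS hfd hV
    have hli := hu.linearIndependent hN
    have hVne : V ≠ ⊥ := by
      intro hbot
      rw [hbot, finrank_bot] at hV
      exact absurd hV (Nat.succ_ne_zero d).symm
    obtain ⟨w, hwV, hw0⟩ := Submodule.exists_mem_ne_zero_of_ne_bot hVne
    set S := Submodule.span L (Set.range u) with hS
    set c := hli.repr ⟨w, hVS hwV⟩ with hc
    have hwc : Finsupp.linearCombination L u c = w := hli.linearCombination_repr ⟨w, hVS hwV⟩
    have hc0 : c ≠ 0 := by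
      intro h0
      rw [h0, map_zero] at hwc
      exact hw0 hwc.symm
    obtain ⟨k0, hk0, hmax⟩ := c.support.exists_max_image (fun k => v (algebraMap L F (c k)))
      (Finsupp.support_nonempty_iff.mpr hc0)
    have ha0 : c k0 ≠ 0 := Finsupp.mem_support_iff.mp hk0
    have hva0 : v (algebraMap L F (c k0)) ≠ 0 := by
      rw [Valuation.ne_zero_iff]
      exact (map_ne_zero (algebraMap L F)).mpr ha0
    -- the coordinate functional
    obtain ⟨ψ, hψ⟩ := LinearMap.exists_extend ((Finsupp.lapply k0).comp hli.repr)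
    have hψS : ∀ (y : F) (hy : y ∈ S), ψ y = hli.repr ⟨y, hy⟩ k0 := by
      intro y hy
      have := LinearMap.congr_fun hψ ⟨y, hy⟩
      simpa using this
    have K1 : ∀ y ∈ S, v (algebraMap L F (ψ y)) ≤ N y := by
      intro y hy
      rw [hψS y hy]
      have := hu.coeff_le_linearCombination (hli.repr ⟨y, hy⟩) k0
      rwa [hli.linearCombination_repr ⟨y, hy⟩] at this
    set e0 : F := (c k0)⁻¹ • w with he0
    have he0V : e0 ∈ V := V.smul_mem _ hwV
    have hψe0 : ψ e0 = 1 := by
      rw [he0, map_smul, hψS w (hVS hwV), smul_eq_mul, ← hc, inv_mul_cancel₀ ha0]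
    have hve0 : N e0 ≤ 1 := by
      have hsum : e0 = ∑ k ∈ c.support, ((c k0)⁻¹ * c k) • u k := by
        rw [he0, ← hwc, Finsupp.linearCombination_apply, Finsupp.sum, Finset.smul_sum]
        exact Finset.sum_congr rfl fun k _ => by rw [mul_smul]
      rw [hsum]
      refine hu.sum_le hN _ _ fun k hk => ?_
      rw [map_mul, map_mul, map_inv₀, map_inv₀]
      exact (inv_mul_le_one₀ (zero_lt_iff.mpr hva0)).mpr (hmax k hk)
    -- the complement
    set V' : Submodule L F := V ⊓ LinearMap.ker ψ with hV'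
    have hV'V : V' ≤ V := inf_le_left
    have hfin' : Module.finrank L V' = d := by
      have hker : Submodule.map V.subtype (LinearMap.ker (ψ.domRestrict V)) = V' := by
        rw [LinearMap.ker_domRestrict, Submodule.map_comap_subtype]
      have hrange : LinearMap.range (ψ.domRestrict V) = ⊤ := by
        rw [LinearMap.range_eq_top]
        intro t
        refine ⟨⟨t • e0, V.smul_mem _ he0V⟩, ?_⟩
        simp [LinearMap.domRestrict_apply, hψe0]
      have h1 := LinearMap.finrank_range_add_finrank_ker (ψ.domRestrict V)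
      rw [hrange, finrank_top, Module.finrank_self, hV] at h1
      rw [← hker, Submodule.finrank_map_subtype_eq]
      omega
    obtain ⟨e', he'V, he'o, he'span⟩ := ih V' (hV'V.trans hVS) inferInstance hfin'
    have hψe' : ∀ i, ψ (e' i) = 0 := fun i => LinearMap.mem_ker.mp (he'V i).2
    refine ⟨Fin.cons e0 e', ?_, ?_, ?_⟩
    · intro i
      refine Fin.cases ?_ (fun j => ?_) i
      · simpa using he0V
      · simpa using hV'V (he'V j)
    · refine isOrthoN_of_fintype ?_ ?_
      · intro k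
        refine Fin.cases ?_ (fun j => ?_) k
        · simpa using hve0
        · simpa using he'o.le_one j
      · intro c' k
        set y' : F := ∑ i : Fin d, c' i.succ • e' i with hy'
        have hy : ∑ i, c' i • (Fin.cons e0 e' : Fin (d + 1) → F) i = c' 0 • e0 + y' := by
          rw [Fin.sum_univ_succ]
          simp [hy']
        rw [hy]
        have hy'V' : y' ∈ V' := Submodule.sum_mem _ fun i _ => V'.smul_mem _ (he'V i)
        have hyV : c' 0 • e0 + y' ∈ V := V.add_mem (V.smul_mem _ he0V) (hV'V hy'V')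
        have hψy : ψ (c' 0 • e0 + y') = c' 0 := by
          rw [map_add, map_smul, hψe0, LinearMap.mem_ker.mp hy'V'.2]
          simp
        have h0 : v (algebraMap L F (c' 0)) ≤ N (c' 0 • e0 + y') := by
          have := K1 _ (hVS hyV)
          rwa [hψy] at this
        have hy'le : N y' ≤ N (c' 0 • e0 + y') := by
          have hsub : y' = (c' 0 • e0 + y') - c' 0 • e0 := by ring
          have hsm0 : N (c' 0 • e0) ≤ v (algebraMap L F (c' 0)) := by
            rw [hN.map_smul]
            calc v (algebraMap L F (c' 0)) * N e0 ≤ v (algebraMap L F (c' 0)) * 1 :=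
                  mul_le_mul' le_rfl hve0
              _ = v (algebraMap L F (c' 0)) := mul_one _
          have hsm : N (c' 0 • e0) ≤ N (c' 0 • e0 + y') := hsm0.trans h0
          calc N y' = N ((c' 0 • e0 + y') - c' 0 • e0) := congrArg N hsub
            _ ≤ N (c' 0 • e0 + y') := hN.map_sub_le_of_le le_rfl hsm
        refine Fin.cases ?_ (fun j => ?_) k
        · exact h0
        · exact (he'o.coeff_le_univ (fun i => c' i.succ) j).trans hy'le
    · rw [Fin.range_cons, Submodule.span_insert, he'span]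
      apply le_antisymm
      · exact sup_le ((Submodule.span_singleton_le_iff_mem _ _).mpr he0V) hV'V
      · intro y hyV
        have hdecomp : y = ψ y • e0 + (y - ψ y • e0) := by ring
        rw [hdecomp]
        have hker : y - ψ y • e0 ∈ LinearMap.ker ψ := by
          rw [LinearMap.mem_ker, map_sub, map_smul, hψe0]
          simp
        exact Submodule.add_mem_sup (Submodule.smul_mem _ _ (Submodule.mem_span_singleton_self _))
          (Submodule.mem_inf.mpr ⟨V.sub_mem hyV (V.smul_mem _ he0V), hker⟩)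

end Norm

/-! ### The Gauss tower and the cartesian theorem for a norm -/

section Tower

variable {F : Type*} [Field F] {Γ₀ : Type*} [LinearOrderedCommGroupWithZero Γ₀]
  {v : Valuation F Γ₀} {L : Type*} [Field L] [Algebra L F] {x : F} {N : F → Γ₀}

/-- Multiplication by an element of `L(x)` of value one does not change the norm. -/
theorem IsNormOver.map_mul_of_mem_adjoin (hN : IsNormOver v (IntermediateField.adjoin L {x}) N)
    {γ : F} (hγ : γ ∈ IntermediateField.adjoin L {x}) (y : F) : N (γ * y) = v γ * N y := by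
  have h := hN.map_smul (⟨γ, hγ⟩ : IntermediateField.adjoin L {x}) y
  exact h

/-- The double family `x ^ j * b i` is `N`-orthonormal over `L` when `b` is `N`-orthonormal over
`L(x)` and `x` is residually transcendental for `v`. -/
theorem isOrthoN_pow_mul (hx : ResTranscendental v L x)
    (hN : IsNormOver v (IntermediateField.adjoin L {x}) N) {ι : Type*}
    {b : ι → F} (hb : IsOrthoN v (IntermediateField.adjoin L {x}) N b) :
    IsOrthoN v L N (fun p : ℕ × ι => x ^ p.1 * b p.2) := by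
  classical
  refine ⟨fun p => ?_, fun s c k hk => ?_⟩
  · have hmem : x ^ p.1 ∈ IntermediateField.adjoin L {x} :=
      pow_mem (IntermediateField.mem_adjoin_simple_self L x) _
    show N (x ^ p.1 * b p.2) ≤ 1
    rw [hN.map_mul_of_mem_adjoin hmem, map_pow, hx.map_eq_one, one_pow, one_mul]
    exact hb.le_one _
  · set gen : IntermediateField.adjoin L {x} := IntermediateField.AdjoinSimple.gen L x with hgen
    have hgenx : (gen : F) = x := IntermediateField.AdjoinSimple.coe_gen L x
    set g : ι → IntermediateField.adjoin L {x} :=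
      fun i => ∑ p ∈ s.filter (fun p => p.2 = i), c p • gen ^ p.1 with hg
    have hgcoe : ∀ i, ((g i : IntermediateField.adjoin L {x}) : F)
        = ∑ p ∈ s.filter (fun p => p.2 = i), c p • x ^ p.1 := by
      intro i
      rw [hg]
      simp only [AddSubmonoidClass.coe_finsetSum, IntermediateField.coe_smul,
        IntermediateField.coe_pow, hgenx]
    have hy : ∑ p ∈ s, c p • (x ^ p.1 * b p.2) = ∑ i ∈ s.image Prod.snd, g i • b i := by
      rw [← Finset.sum_fiberwise_of_maps_to (g := Prod.snd) (t := s.image Prod.snd)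
        (fun p hp => Finset.mem_image_of_mem _ hp)]
      refine Finset.sum_congr rfl fun i _ => ?_
      have : g i • b i = ((g i : IntermediateField.adjoin L {x}) : F) * b i := rfl
      rw [this, hgcoe, Finset.sum_mul]
      refine Finset.sum_congr rfl fun p hp => ?_
      rw [(Finset.mem_filter.mp hp).2, smul_mul_assoc]
    rw [hy]
    have h1 := hb.coeff_le (s.image Prod.snd) g (Finset.mem_image_of_mem _ hk)
    refine le_trans ?_ h1
    have hcoe : algebraMap (IntermediateField.adjoin L {x}) F (g k.2)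
        = ((g k.2 : IntermediateField.adjoin L {x}) : F) := rfl
    rw [hcoe, hgcoe]
    have hinj : Set.InjOn Prod.fst (s.filter (fun p => p.2 = k.2) : Set (ℕ × ι)) := by
      intro p hp q hq hpq
      have hp2 := (Finset.mem_filter.mp hp).2
      have hq2 := (Finset.mem_filter.mp hq).2
      exact Prod.ext hpq (hp2.trans hq2.symm)
    have hre : ∑ p ∈ s.filter (fun p => p.2 = k.2), c p • x ^ p.1
        = ∑ j ∈ (s.filter (fun p => p.2 = k.2)).image Prod.fst, c (j, k.2) • x ^ j := by
      rw [Finset.sum_image hinj]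
      refine Finset.sum_congr rfl fun p hp => ?_
      have hp2 := (Finset.mem_filter.mp hp).2
      rw [← hp2]
    rw [hre]
    have hk' : k.1 ∈ (s.filter (fun p => p.2 = k.2)).image Prod.fst :=
      Finset.mem_image_of_mem _ (Finset.mem_filter.mpr ⟨hk, rfl⟩)
    exact hx.isOrtho_pow.coeff_le _ (fun j => c (j, k.2)) hk'

/-- **Cartesian subspaces for a norm.** If `x` is residually transcendental over `L` for `v`,
the norm `N` is homogeneous over `L(x)` and `F` has an `N`-orthonormal spanning family over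
`L(x)`, then every finite-dimensional `L`-subspace of `F` has an `N`-orthonormal `L`-basis. -/
theorem exists_isOrthoN_basis (hx : ResTranscendental v L x)
    (hN : IsNormOver v (IntermediateField.adjoin L {x}) N) {ι : Type*} {b : ι → F}
    (hb : IsOrthoN v (IntermediateField.adjoin L {x}) N b)
    (hspan : Submodule.span (IntermediateField.adjoin L {x}) (Set.range b) = ⊤)
    (V : Submodule L F) [FiniteDimensional L V] :
    ∃ e : Fin (Module.finrank L V) → F,
      (∀ i, e i ∈ V) ∧ IsOrthoN v L N e ∧ Submodule.span L (Set.range e) = V := by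
  classical
  have hNL : IsNormOver v L N := hN.restrictScalars L
  -- a common denominator for a finite generating set
  obtain ⟨t, ht⟩ : V.FG := (Submodule.fg_iff_finiteDimensional V).mpr inferInstance
  choose q hq0 hqP using exists_aeval_mul_mem_polySpan (L := L) (x := x) (b := b) hspan
  set Q : L[X] := ∏ w ∈ t, q w with hQ
  have hQ0 : aeval x Q ≠ 0 := by
    rw [hQ, map_prod]
    exact Finset.prod_ne_zero_iff.mpr fun w _ => hq0 w
  have hQne : Q ≠ 0 := fun h => hQ0 (by rw [h, map_zero])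
  have hQt : ∀ w ∈ t, aeval x Q * w ∈ polySpan L x b := by
    intro w hw
    have : Q = (∏ w' ∈ t.erase w, q w') * q w := by
      rw [hQ, Finset.prod_erase_mul t q hw]
    rw [this, map_mul, mul_assoc]
    exact aeval_mul_mem_polySpan _ (hqP w)
  obtain ⟨a, ha0, ha1⟩ := hx.exists_smul_eq_one hQne
  set γ : F := a • aeval x Q with hγ
  have hγ0 : γ ≠ 0 := by
    intro h0
    rw [h0, map_zero] at ha1
    exact zero_ne_one ha1
  have hγmem : γ ∈ IntermediateField.adjoin L {x} := by
    rw [hγ, Algebra.smul_def]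
    refine mul_mem (IntermediateField.algebraMap_mem _ a) ?_
    rw [← IntermediateField.AdjoinSimple.coe_aeval_gen_apply]
    exact Subtype.mem _
  have hγV : ∀ y ∈ V, γ * y ∈ polySpan L x b := by
    intro y hy
    rw [← ht] at hy
    induction hy using Submodule.span_induction with
    | mem z hz =>
      rw [hγ, smul_mul_assoc]
      exact Submodule.smul_mem _ _ (hQt z hz)
    | zero => simp
    | add z w _ _ hz hw => rw [mul_add]; exact Submodule.add_mem _ hz hw
    | smul c z _ hz => rw [mul_smul_comm]; exact Submodule.smul_mem _ c hz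
  -- transport V into the polynomial span
  set mγ : F →ₗ[L] F := LinearMap.mulLeft L γ with hmγ
  have hmγinj : Function.Injective mγ := fun y z hyz => mul_left_cancel₀ hγ0 hyz
  set V1 : Submodule L F := V.map mγ with hV1
  have hV1le : V1 ≤ Submodule.span L (Set.range fun p : ℕ × ι => x ^ p.1 * b p.2) := by
    rintro _ ⟨y, hy, rfl⟩
    exact hγV y hy
  have eqv : V ≃ₗ[L] V1 := Submodule.equivMapOfInjective mγ hmγinj V
  have : FiniteDimensional L V1 := LinearEquiv.finiteDimensional eqv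
  obtain ⟨e1, he1V, he1o, he1span⟩ := exists_isOrthoN_of_le_span hNL (isOrthoN_pow_mul hx hN hb)
    (Module.finrank L V) V1 hV1le inferInstance eqv.finrank_eq.symm
  have hγinv : ∀ y, N (γ⁻¹ * y) = N y := by
    intro y
    rw [hN.map_mul_of_mem_adjoin (inv_mem hγmem), map_inv₀, ha1, inv_one, one_mul]
  refine ⟨fun i => γ⁻¹ * e1 i, fun i => ?_, he1o.mul_left hγinv, ?_⟩
  · obtain ⟨y, hy, hy'⟩ := he1V i
    have : γ⁻¹ * e1 i = y := by
      rw [← hy']
      show γ⁻¹ * (γ * y) = y
      rw [inv_mul_cancel_left₀ hγ0]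
    show γ⁻¹ * e1 i ∈ V
    rw [this]
    exact hy
  · have hrange : (Set.range fun i => γ⁻¹ * e1 i) = LinearMap.mulLeft L γ⁻¹ '' Set.range e1 := by
      rw [← Set.range_comp]
      rfl
    rw [hrange, ← Submodule.map_span, he1span, hV1, ← Submodule.map_comp]
    have : (LinearMap.mulLeft L γ⁻¹).comp mγ = LinearMap.id := by
      ext y
      simp [hmγ, inv_mul_cancel_left₀ hγ0]
    rw [this, Submodule.map_id]

end Tower

/-! ## Part B: two valuations -/

/-! ### Approximation for two incomparable valuations -/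

section Approx

variable {F : Type*} [Field F] {Γ₁ Γ₂ : Type*} [LinearOrderedCommGroupWithZero Γ₁]
  [LinearOrderedCommGroupWithZero Γ₂] (v₁ : Valuation F Γ₁) (v₂ : Valuation F Γ₂)

/-- `v₁` is not coarser-or-equal to `v₂` in the sense of valuation rings: some element is
integral for `v₁` but not for `v₂`. Two valuations are *incomparable* if this holds both ways. -/
def NotLE : Prop := ∃ a : F, v₁ a ≤ 1 ∧ 1 < v₂ a

variable {v₁ v₂}

theorem exists_approx_one_aux {a : F} (h1 : v₁ a < 1) (h2 : 1 < v₂ a) :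
    ∃ u : F, v₁ (u - 1) < 1 ∧ v₂ u < 1 := by
  have hv1 : v₁ (1 + a) = 1 := v₁.map_one_add_of_lt h1
  have hne : (1 + a : F) ≠ 0 := by
    intro h0
    rw [h0, map_zero] at hv1
    exact zero_ne_one hv1
  have hv2 : v₂ (1 + a) = v₂ a := v₂.map_add_eq_of_lt_right (by rwa [map_one])
  refine ⟨(1 + a)⁻¹, ?_, ?_⟩
  · have hu : (1 + a)⁻¹ - 1 = -a * (1 + a)⁻¹ := by field_simp; ring
    rw [hu, map_mul, map_inv₀, hv1, inv_one, mul_one, Valuation.map_neg]
    exact h1
  · rw [map_inv₀, hv2]
    exact inv_lt_one_of_one_lt₀ h2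

/-- **Weak approximation, idempotent form.** For two incomparable valuations there is an element
which is `≡ 1` for `v₁` and `≡ 0` for `v₂`. No rank hypothesis. -/
theorem exists_approx_one (h₁ : NotLE v₁ v₂) (h₂ : NotLE v₂ v₁) :
    ∃ u : F, v₁ (u - 1) < 1 ∧ v₂ u < 1 := by
  obtain ⟨a, ha1, ha2⟩ := h₁
  obtain ⟨b, hb2, hb1⟩ := h₂
  rcases lt_or_eq_of_le ha1 with h | h
  · exact exists_approx_one_aux h ha2
  · rcases lt_or_eq_of_le hb2 with h' | h'
    · obtain ⟨u', hu'2, hu'1⟩ := exists_approx_one_aux (v₁ := v₂) (v₂ := v₁) h' hb1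
      refine ⟨1 - u', ?_, ?_⟩
      · have : (1 - u') - 1 = -u' := by ring
        rw [this, Valuation.map_neg]
        exact hu'1
      · rw [Valuation.map_sub_swap]
        exact hu'2
    · have hb0 : v₁ b ≠ 0 := (lt_trans zero_lt_one hb1).ne'
      refine exists_approx_one_aux (a := a / b) ?_ ?_
      · rw [map_div₀, h, one_div]
        exact inv_lt_one_of_one_lt₀ hb1
      · rw [map_div₀, h', div_one]
        exact ha2

theorem le_one_of_sub_lt_one {Γ : Type*} [LinearOrderedCommGroupWithZero Γ] (v : Valuation F Γ)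
    {z y : F} (h : v (z - y) < 1) (hy : v y ≤ 1) : v z ≤ 1 := by
  have : z = (z - y) + y := by ring
  rw [this]
  exact (v.map_add _ _).trans (max_le h.le hy)

/-- **Weak approximation.** For two incomparable valuations and `y` integral for `v₁` there is
`z` with `z ≡ y` for `v₁` and `z ≡ 0` for `v₂`. No rank hypothesis. -/
theorem exists_approx (h₁ : NotLE v₁ v₂) (h₂ : NotLE v₂ v₁) {y : F} (hy : v₁ y ≤ 1) :
    ∃ z : F, v₁ (z - y) < 1 ∧ v₂ z < 1 := by
  obtain ⟨u, hu1, hu2⟩ := exists_approx_one h₁ h₂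
  by_cases hy2 : v₂ y ≤ 1
  · refine ⟨y * u, ?_, ?_⟩
    · have : y * u - y = y * (u - 1) := by ring
      rw [this, map_mul]
      calc v₁ y * v₁ (u - 1) ≤ 1 * v₁ (u - 1) := mul_le_mul' hy le_rfl
        _ = v₁ (u - 1) := one_mul _
        _ < 1 := hu1
    · rw [map_mul]
      calc v₂ y * v₂ u ≤ 1 * v₂ u := mul_le_mul' hy2 le_rfl
        _ = v₂ u := one_mul _
        _ < 1 := hu2
  · have hy2' : 1 < v₂ y := not_le.mp hy2
    have hy20 : v₂ y ≠ 0 := (lt_trans zero_lt_one hy2').ne'
    set w : F := 1 - u with hw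
    have hw1 : v₁ w < 1 := by
      rw [hw, Valuation.map_sub_swap]
      exact hu1
    have hw2 : v₂ w = 1 := v₂.map_one_sub_of_lt hu2
    have hwy1 : v₁ (w * y ^ 2) < 1 := by
      rw [map_mul, map_pow]
      calc v₁ w * v₁ y ^ 2 ≤ v₁ w * 1 := mul_le_mul' le_rfl (pow_le_one' hy 2)
        _ = v₁ w := mul_one _
        _ < 1 := hw1
    have hv1 : v₁ (1 + w * y ^ 2) = 1 := v₁.map_one_add_of_lt hwy1
    have hne : (1 + w * y ^ 2 : F) ≠ 0 := by
      intro h0
      rw [h0, map_zero] at hv1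
      exact zero_ne_one hv1
    have hwy2 : v₂ (w * y ^ 2) = v₂ y ^ 2 := by rw [map_mul, map_pow, hw2, one_mul]
    have hv2 : v₂ (1 + w * y ^ 2) = v₂ y ^ 2 := by
      rw [← hwy2]
      refine v₂.map_add_eq_of_lt_right ?_
      rw [map_one, hwy2]
      exact one_lt_pow₀ hy2' two_ne_zero
    refine ⟨y * (1 + w * y ^ 2)⁻¹, ?_, ?_⟩
    · have key : ∀ D : F, D ≠ 0 → y * D⁻¹ - y = y * (-(D - 1) * D⁻¹) := by
        intro D hD
        field_simp
        ring
      have := key (1 + w * y ^ 2) hne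
      rw [add_sub_cancel_left] at this
      rw [this, map_mul, map_mul, map_inv₀, hv1, inv_one, mul_one, Valuation.map_neg]
      calc v₁ y * v₁ (w * y ^ 2) ≤ 1 * v₁ (w * y ^ 2) := mul_le_mul' hy le_rfl
        _ = v₁ (w * y ^ 2) := one_mul _
        _ < 1 := hwy1
    · rw [map_mul, map_inv₀, hv2]
      have : v₂ y * (v₂ y ^ 2)⁻¹ = (v₂ y)⁻¹ := by
        rw [pow_two, mul_inv, ← mul_assoc, mul_inv_cancel₀ hy20, one_mul]
      rw [this]
      exact inv_lt_one_of_one_lt₀ hy2'

/-- **Weak approximation, CRT form**: `V₁ ⊓ V₂ → κ₁ × κ₂` is surjective. -/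
theorem exists_approx_pair (h₁ : NotLE v₁ v₂) (h₂ : NotLE v₂ v₁) {y₁ y₂ : F} (hy₁ : v₁ y₁ ≤ 1)
    (hy₂ : v₂ y₂ ≤ 1) : ∃ z : F, v₁ (z - y₁) < 1 ∧ v₂ (z - y₂) < 1 := by
  obtain ⟨z₁, hz₁, hz₁'⟩ := exists_approx h₁ h₂ hy₁
  obtain ⟨z₂, hz₂, hz₂'⟩ := exists_approx h₂ h₁ hy₂
  refine ⟨z₁ + z₂, ?_, ?_⟩
  · have : z₁ + z₂ - y₁ = (z₁ - y₁) + z₂ := by ring
    rw [this]
    exact v₁.map_add_lt hz₁ hz₂'
  · have : z₁ + z₂ - y₂ = z₁ + (z₂ - y₂) := by ring
    rw [this]
    exact v₂.map_add_lt hz₁' hz₂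

theorem pow_sub_one_lt_one {Γ : Type*} [LinearOrderedCommGroupWithZero Γ] (v : Valuation F Γ)
    {u : F} (hu : v (u - 1) < 1) (n : ℕ) : v (u ^ n - 1) < 1 := by
  have hu1 : v u ≤ 1 := le_one_of_sub_lt_one v hu (by rw [map_one])
  induction n with
  | zero => simp
  | succ n ih =>
    have : u ^ (n + 1) - 1 = u * (u ^ n - 1) + (u - 1) := by ring
    rw [this]
    refine v.map_add_lt ?_ hu
    rw [map_mul]
    calc v u * v (u ^ n - 1) ≤ 1 * v (u ^ n - 1) := mul_le_mul' hu1 le_rfl
      _ = v (u ^ n - 1) := one_mul _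
      _ < 1 := ih

/-- The archimedean property of a valuation used for strong approximation: powers of an element
of value `< 1` become smaller than any nonzero value. -/
def PowSmall {Γ : Type*} [LinearOrderedCommGroupWithZero Γ] (v : Valuation F Γ) : Prop :=
  ∀ t : F, v t < 1 → ∀ g : F, g ≠ 0 → ∃ n : ℕ, v t ^ n < v g

/-- An archimedean value group makes every valuation `PowSmall`. -/
theorem powSmall_of_arch {Γ : Type*} [LinearOrderedCommGroupWithZero Γ]
    (harch : ∀ ε κ : Γ, ε < 1 → κ ≠ 0 → ∃ n : ℕ, ε ^ n < κ) (v : Valuation F Γ) : PowSmall v :=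
  fun t ht g hg => harch (v t) (v g) ht ((Valuation.ne_zero_iff _).mpr hg)

/-- **Strong approximation** (second valuation archimedean): `z ≡ y` for `v₁` and `v₂ z`
smaller than any prescribed nonzero value. -/
theorem exists_approx_lt (h₁ : NotLE v₁ v₂) (h₂ : NotLE v₂ v₁) (hpow : PowSmall v₂) {y : F}
    (hy : v₁ y ≤ 1) {g : F} (hg : g ≠ 0) : ∃ z : F, v₁ (z - y) < 1 ∧ v₂ z < v₂ g := by
  obtain ⟨u, hu1, hu2⟩ := exists_approx_one h₁ h₂
  obtain ⟨z₀, hz1, hz2⟩ := exists_approx h₁ h₂ hy
  obtain ⟨n, hn⟩ := hpow u hu2 g hg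
  have hz01 : v₁ z₀ ≤ 1 := le_one_of_sub_lt_one v₁ hz1 hy
  refine ⟨z₀ * u ^ n, ?_, ?_⟩
  · have : z₀ * u ^ n - y = (z₀ - y) + z₀ * (u ^ n - 1) := by ring
    rw [this]
    refine v₁.map_add_lt hz1 ?_
    rw [map_mul]
    calc v₁ z₀ * v₁ (u ^ n - 1) ≤ 1 * v₁ (u ^ n - 1) := mul_le_mul' hz01 le_rfl
      _ = v₁ (u ^ n - 1) := one_mul _
      _ < 1 := pow_sub_one_lt_one v₁ hu1 n
  · rw [map_mul, map_pow]
    calc v₂ z₀ * v₂ u ^ n ≤ 1 * v₂ u ^ n := mul_le_mul' hz2.le le_rfl
      _ = v₂ u ^ n := one_mul _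
      _ < v₂ g := hn

/-- **Prescribed values** (both valuations archimedean): an element of value `1` for `v₁` and of
the same value as `f` for `v₂`. -/
theorem exists_map_eq_one_and_eq (h₁ : NotLE v₁ v₂) (h₂ : NotLE v₂ v₁) (hpow₁ : PowSmall v₁)
    (hpow₂ : PowSmall v₂) {f : F} (hf : f ≠ 0) : ∃ a : F, v₁ a = 1 ∧ v₂ a = v₂ f := by
  have hf1 : v₁ f ≠ 0 := (Valuation.ne_zero_iff _).mpr hf
  have hf2 : v₂ f ≠ 0 := (Valuation.ne_zero_iff _).mpr hf
  obtain ⟨s, hs1, hs2⟩ := exists_approx_lt h₁ h₂ hpow₂ (y := 1) (by rw [map_one]) hf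
  obtain ⟨t, ht2, ht1⟩ := exists_approx_lt h₂ h₁ hpow₁ (y := 1) (by rw [map_one])
    (inv_ne_zero hf)
  rw [map_inv₀] at ht1
  refine ⟨s + f * t, ?_, ?_⟩
  · have hft : v₁ (f * t) < 1 := by
      rw [map_mul]
      calc v₁ f * v₁ t < v₁ f * (v₁ f)⁻¹ := by
            exact mul_lt_mul_of_pos_left ht1 (zero_lt_iff.mpr hf1)
        _ = 1 := mul_inv_cancel₀ hf1
    have h : v₁ ((s - 1) + f * t) < 1 := v₁.map_add_lt hs1 hft
    have : s + f * t = 1 + ((s - 1) + f * t) := by ring
    rw [this]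
    exact v₁.map_one_add_of_lt h
  · have hft : v₂ (f * (t - 1)) < v₂ f := by
      rw [map_mul]
      calc v₂ f * v₂ (t - 1) < v₂ f * 1 := by
            exact mul_lt_mul_of_pos_left ht2 (zero_lt_iff.mpr hf2)
        _ = v₂ f := mul_one _
    have h : v₂ (s + f * (t - 1)) < v₂ f := v₂.map_add_lt hs2 hft
    have : s + f * t = f + (s + f * (t - 1)) := by ring
    rw [this]
    exact v₂.map_add_eq_of_lt_left h

/-- **Prescribed values**, general form. -/
theorem exists_map_eq_and_eq (h₁ : NotLE v₁ v₂) (h₂ : NotLE v₂ v₁) (hpow₁ : PowSmall v₁)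
    (hpow₂ : PowSmall v₂) {f₁ f₂ : F} (hf₁ : f₁ ≠ 0) (hf₂ : f₂ ≠ 0) :
    ∃ a : F, a ≠ 0 ∧ v₁ a = v₁ f₁ ∧ v₂ a = v₂ f₂ := by
  obtain ⟨a, ha1, ha2⟩ := exists_map_eq_one_and_eq h₁ h₂ hpow₁ hpow₂
    (f := f₂ / f₁) (div_ne_zero hf₂ hf₁)
  have hf1 : v₂ f₁ ≠ 0 := (Valuation.ne_zero_iff _).mpr hf₁
  have ha0 : a ≠ 0 := by
    intro h0
    rw [h0, map_zero] at ha1
    exact zero_ne_one ha1
  refine ⟨f₁ * a, mul_ne_zero hf₁ ha0, ?_, ?_⟩
  · rw [map_mul, ha1, mul_one]
  · rw [map_mul, ha2, map_div₀, mul_div_cancel₀ _ hf1]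

end Approx

/-! ### The max-norm of two valuations and its orthonormal bases -/

section MaxNorm

variable {F : Type*} [Field F] {Γ₀ : Type*} [LinearOrderedCommGroupWithZero Γ₀]

/-- The max-norm of two valuations. -/
def maxNorm (v₁ v₂ : Valuation F Γ₀) (a : F) : Γ₀ := max (v₁ a) (v₂ a)

variable {v₁ v₂ : Valuation F Γ₀}

theorem maxNorm_le_iff {a : F} {r : Γ₀} : maxNorm v₁ v₂ a ≤ r ↔ v₁ a ≤ r ∧ v₂ a ≤ r :=
  max_le_iff

theorem le_maxNorm_left (a : F) : v₁ a ≤ maxNorm v₁ v₂ a := le_max_left _ _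

theorem le_maxNorm_right (a : F) : v₂ a ≤ maxNorm v₁ v₂ a := le_max_right _ _

/-- The max-norm is a norm over every subfield on which the two valuations agree. -/
theorem isNormOver_maxNorm {M : Type*} [Field M] [Algebra M F]
    (hM : ∀ c : M, v₂ (algebraMap M F c) = v₁ (algebraMap M F c)) :
    IsNormOver v₁ M (maxNorm v₁ v₂) where
  map_zero := by simp [maxNorm]
  map_add_le := fun a b => by
    rw [maxNorm_le_iff]
    exact ⟨(v₁.map_add a b).trans (max_le_max (le_maxNorm_left a) (le_maxNorm_left b)),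
      (v₂.map_add a b).trans (max_le_max (le_maxNorm_right a) (le_maxNorm_right b))⟩
  map_smul := fun c a => by
    simp only [maxNorm, Algebra.smul_def, map_mul, hM]
    exact max_mul_mul_left _ _ _

/-- Two residually transcendental structures on the same `x` which agree on `L` agree on
`L(x)`. -/
theorem map_eq_of_mem_adjoin {L : Type*} [Field L] [Algebra L F] {x : F}
    (hx₁ : ResTranscendental v₁ L x) (hx₂ : ResTranscendental v₂ L x)
    (hL : ∀ c : L, v₂ (algebraMap L F c) = v₁ (algebraMap L F c)) {g : F}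
    (hg : g ∈ IntermediateField.adjoin L {x}) : v₂ g = v₁ g := by
  have key : ∀ p : L[X], v₂ (aeval x p) = v₁ (aeval x p) := by
    intro p
    obtain ⟨k₁, hk₁, hmax₁⟩ := hx₁.exists_coeff_eq p
    obtain ⟨k₂, hk₂, hmax₂⟩ := hx₂.exists_coeff_eq p
    rw [hk₁, hk₂]
    refine le_antisymm ?_ ?_
    · rw [hL]; exact hmax₁ k₂
    · rw [← hL]; exact hmax₂ k₁
  obtain ⟨r, s, rfl⟩ := (IntermediateField.mem_adjoin_simple_iff L g).mp hg
  rw [map_div₀, map_div₀, key, key]

theorem map_algebraMap_adjoin_eq {L : Type*} [Field L] [Algebra L F] {x : F}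
    (hx₁ : ResTranscendental v₁ L x) (hx₂ : ResTranscendental v₂ L x)
    (hL : ∀ c : L, v₂ (algebraMap L F c) = v₁ (algebraMap L F c))
    (c : IntermediateField.adjoin L {x}) :
    v₂ (algebraMap (IntermediateField.adjoin L {x}) F c)
      = v₁ (algebraMap (IntermediateField.adjoin L {x}) F c) :=
  map_eq_of_mem_adjoin hx₁ hx₂ hL c.2

/-- Perturbation lemma: an orthonormal combination plus an error smaller than the maximal
coefficient still has value at least that coefficient. -/
theorem le_map_sum_add_of_lt {v : Valuation F Γ₀} {K : Type*} [Field K] [Algebra K F]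
    {ι : Type*} {e : ι → F} (he : IsOrtho v K e) (s : Finset ι) (c : ι → K) {i₀ : ι}
    (hi₀ : i₀ ∈ s) {R : F} (hR : v R < v (algebraMap K F (c i₀))) :
    v (algebraMap K F (c i₀)) ≤ v (∑ i ∈ s, c i • e i + R) := by
  have h1 := he.coeff_le s c hi₀
  rw [v.map_add_eq_of_lt_left (lt_of_lt_of_le hR h1)]
  exact h1

/-- A combination of elements of value `< 1` with coefficients of value `≤ ρ` has value `< ρ`. -/
theorem map_sum_smul_lt {v : Valuation F Γ₀} {K : Type*} [Field K] [Algebra K F]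
    {ι : Type*} (s : Finset ι) (c : ι → K) (z : ι → F) (hz : ∀ i, v (z i) < 1) {ρ : Γ₀}
    (hρ0 : ρ ≠ 0) (hρ : ∀ i ∈ s, v (algebraMap K F (c i)) ≤ ρ) :
    v (∑ i ∈ s, c i • z i) < ρ := by
  refine v.map_sum_lt hρ0 fun i hi => ?_
  rw [Algebra.smul_def, map_mul]
  by_cases h0 : v (algebraMap K F (c i)) = 0
  · rw [h0, zero_mul]
    exact zero_lt_iff.mpr hρ0
  · calc v (algebraMap K F (c i)) * v (z i) < v (algebraMap K F (c i)) * 1 :=
          mul_lt_mul_of_pos_left (hz i) (zero_lt_iff.mpr h0)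
      _ = v (algebraMap K F (c i)) := mul_one _
      _ ≤ ρ := hρ i hi

/-- **Two-valuation orthonormal family.** Given families `e₁`, `e₂` orthonormal over `K` for two
incomparable valuations `v₁`, `v₂` which agree on `K`, there is a family indexed by the disjoint
union which is orthonormal for `max v₁ v₂`: lifts of `e₁` which are `≡ 0` for `v₂`, and lifts of
`e₂` which are `≡ 0` for `v₁`. No rank hypothesis, no finiteness. -/
theorem exists_isOrthoN_maxNorm {K : Type*} [Field K] [Algebra K F]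
    (hK : ∀ c : K, v₂ (algebraMap K F c) = v₁ (algebraMap K F c))
    (h₁ : NotLE v₁ v₂) (h₂ : NotLE v₂ v₁) {ι₁ ι₂ : Type*} {e₁ : ι₁ → F} {e₂ : ι₂ → F}
    (he₁ : IsOrtho v₁ K e₁) (he₂ : IsOrtho v₂ K e₂) :
    ∃ b : ι₁ ⊕ ι₂ → F, IsOrthoN v₁ K (maxNorm v₁ v₂) b ∧
      (∀ i, v₁ (b (Sum.inl i) - e₁ i) < 1 ∧ v₂ (b (Sum.inl i)) < 1) ∧
      (∀ j, v₂ (b (Sum.inr j) - e₂ j) < 1 ∧ v₁ (b (Sum.inr j)) < 1) := by
  classical
  choose z₁ hz₁ hz₁' using fun i => exists_approx h₁ h₂ (he₁.le_one i)
  choose z₂ hz₂ hz₂' using fun j => exists_approx h₂ h₁ (he₂.le_one j)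
  refine ⟨Sum.elim z₁ z₂, ⟨?_, ?_⟩, fun i => ⟨hz₁ i, hz₁' i⟩, fun j => ⟨hz₂ j, hz₂' j⟩⟩
  · rintro (i | j)
    · rw [maxNorm_le_iff]
      exact ⟨le_one_of_sub_lt_one v₁ (hz₁ i) (he₁.le_one i), (hz₁' i).le⟩
    · rw [maxNorm_le_iff]
      exact ⟨(hz₂' j).le, le_one_of_sub_lt_one v₂ (hz₂ j) (he₂.le_one j)⟩
  · intro s c k hk
    -- the maximal coefficient
    obtain ⟨m, hm, hmax⟩ := s.exists_max_image (fun i => v₁ (algebraMap K F (c i))) ⟨k, hk⟩
    refine (hmax k hk).trans ?_
    by_cases hρ0 : v₁ (algebraMap K F (c m)) = 0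
    · rw [hρ0]; exact zero_le
    -- split the sum
    have hsplit : ∑ i ∈ s, c i • Sum.elim z₁ z₂ i
        = ∑ i ∈ s.toLeft, c (Sum.inl i) • z₁ i + ∑ j ∈ s.toRight, c (Sum.inr j) • z₂ j := by
      conv_lhs => rw [← Finset.toLeft_disjSum_toRight (u := s)]
      rw [Finset.sum_disjSum]
      simp
    have hmaxL : ∀ i ∈ s.toLeft, v₁ (algebraMap K F (c (Sum.inl i)))
        ≤ v₁ (algebraMap K F (c m)) := fun i hi => hmax _ (Finset.mem_toLeft.mp hi)
    have hmaxR : ∀ j ∈ s.toRight, v₁ (algebraMap K F (c (Sum.inr j)))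
        ≤ v₁ (algebraMap K F (c m)) := fun j hj => hmax _ (Finset.mem_toRight.mp hj)
    rcases m with i₀ | j₀
    · -- the maximum is attained on the first block: use `v₁`
      refine le_trans ?_ (le_maxNorm_left _)
      have hi₀ : i₀ ∈ s.toLeft := Finset.mem_toLeft.mpr hm
      have hdecomp : ∑ i ∈ s, c i • Sum.elim z₁ z₂ i
          = ∑ i ∈ s.toLeft, c (Sum.inl i) • e₁ i
            + (∑ i ∈ s.toLeft, c (Sum.inl i) • (z₁ i - e₁ i)
              + ∑ j ∈ s.toRight, c (Sum.inr j) • z₂ j) := by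
        rw [hsplit, ← add_assoc, ← Finset.sum_add_distrib]
        congr 1
        refine Finset.sum_congr rfl fun i _ => ?_
        rw [← smul_add, add_sub_cancel]
      rw [hdecomp]
      refine le_map_sum_add_of_lt he₁ s.toLeft (fun i => c (Sum.inl i)) hi₀ ?_
      exact v₁.map_add_lt
        (map_sum_smul_lt s.toLeft (fun i => c (Sum.inl i)) (fun i => z₁ i - e₁ i) hz₁ hρ0 hmaxL)
        (map_sum_smul_lt s.toRight (fun j => c (Sum.inr j)) z₂ hz₂' hρ0 hmaxR)
    · -- the maximum is attained on the second block: use `v₂`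
      refine le_trans ?_ (le_maxNorm_right _)
      have hj₀ : j₀ ∈ s.toRight := Finset.mem_toRight.mpr hm
      have hdecomp : ∑ i ∈ s, c i • Sum.elim z₁ z₂ i
          = ∑ j ∈ s.toRight, c (Sum.inr j) • e₂ j
            + (∑ j ∈ s.toRight, c (Sum.inr j) • (z₂ j - e₂ j)
              + ∑ i ∈ s.toLeft, c (Sum.inl i) • z₁ i) := by
        rw [hsplit, ← add_assoc, ← Finset.sum_add_distrib, add_comm]
        congr 1
        refine Finset.sum_congr rfl fun i _ => ?_
        rw [← smul_add, add_sub_cancel]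
      rw [hdecomp, ← hK (c (Sum.inr j₀))]
      have hρ0' : v₂ (algebraMap K F (c (Sum.inr j₀))) ≠ 0 := by rwa [hK]
      refine le_map_sum_add_of_lt he₂ s.toRight (fun j => c (Sum.inr j)) hj₀ ?_
      exact v₂.map_add_lt
        (map_sum_smul_lt s.toRight (fun j => c (Sum.inr j)) (fun j => z₂ j - e₂ j) hz₂ hρ0'
          (fun j hj => by rw [hK, hK]; exact hmaxR j hj))
        (map_sum_smul_lt s.toLeft (fun i => c (Sum.inl i)) z₁ hz₁' hρ0'
          (fun i hi => by rw [hK, hK]; exact hmaxL i hi))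

end MaxNorm

/-! ### The two-valuation cartesian theorem over the constant field -/

section Cartesian

variable {F : Type*} [Field F] {Γ₀ : Type*} [LinearOrderedCommGroupWithZero Γ₀]
  {v₁ v₂ : Valuation F Γ₀} {L : Type*} [Field L] [Algebra L F] {x : F}

/-- Variant of `exists_isOrthoN_basis` with a free index `d = dim V`. -/
theorem exists_isOrthoN_basis' {v : Valuation F Γ₀} {N : F → Γ₀} (hx : ResTranscendental v L x)
    (hN : IsNormOver v (IntermediateField.adjoin L {x}) N) {ι : Type*} {b : ι → F}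
    (hb : IsOrthoN v (IntermediateField.adjoin L {x}) N b)
    (hspan : Submodule.span (IntermediateField.adjoin L {x}) (Set.range b) = ⊤)
    (V : Submodule L F) [FiniteDimensional L V] (d : ℕ) (hd : Module.finrank L V = d) :
    ∃ e : Fin d → F,
      (∀ i, e i ∈ V) ∧ IsOrthoN v L N e ∧ Submodule.span L (Set.range e) = V := by
  subst hd
  exact exists_isOrthoN_basis hx hN hb hspan V

/-- **Two-valuation cartesian theorem (T5), norm form.** Let `v₁`, `v₂` be incomparable
valuations of `F` agreeing on the constant field `L`, let `x` be residually transcendental for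
both, and suppose `F` has orthonormal families over `K = L(x)` for `v₁` and for `v₂` whose
cardinalities add up to `[F : K]`. Then every finite-dimensional `L`-subspace `W` of `F` has an
`L`-basis which is orthonormal for `max v₁ v₂`. No rank hypothesis. -/
theorem exists_maxNorm_basis (hx₁ : ResTranscendental v₁ L x) (hx₂ : ResTranscendental v₂ L x)
    (hL : ∀ c : L, v₂ (algebraMap L F c) = v₁ (algebraMap L F c))
    (h₁ : NotLE v₁ v₂) (h₂ : NotLE v₂ v₁) [FiniteDimensional (IntermediateField.adjoin L {x}) F]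
    {ι₁ ι₂ : Type*} [Fintype ι₁] [Fintype ι₂] {e₁ : ι₁ → F} {e₂ : ι₂ → F}
    (he₁ : IsOrtho v₁ (IntermediateField.adjoin L {x}) e₁)
    (he₂ : IsOrtho v₂ (IntermediateField.adjoin L {x}) e₂)
    (hcard : Fintype.card ι₁ + Fintype.card ι₂
      = Module.finrank (IntermediateField.adjoin L {x}) F)
    (W : Submodule L F) [FiniteDimensional L W] (d : ℕ) (hd : Module.finrank L W = d) :
    ∃ e : Fin d → F, (∀ i, e i ∈ W) ∧ IsOrthoN v₁ L (maxNorm v₁ v₂) e ∧
      Submodule.span L (Set.range e) = W := by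
  have hK := map_algebraMap_adjoin_eq hx₁ hx₂ hL
  obtain ⟨b, hb, -, -⟩ := exists_isOrthoN_maxNorm hK h₁ h₂ he₁ he₂
  have hN : IsNormOver v₁ (IntermediateField.adjoin L {x}) (maxNorm v₁ v₂) :=
    isNormOver_maxNorm hK
  have hli := hb.linearIndependent hN
  have hspan : Submodule.span (IntermediateField.adjoin L {x}) (Set.range b) = ⊤ :=
    hli.span_eq_top_of_card_eq_finrank' (by rw [Fintype.card_sum, hcard])
  exact exists_isOrthoN_basis' hx₁ hN hb hspan W d hd

/-- The two valuations have the same value on an orthonormal basis element-wise bound: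
unpacking `IsOrthoN` for the max-norm over `L` (Fintype form). -/
theorem IsOrthoN.maxNorm_ball_iff {ι : Type*} [Fintype ι] {e : ι → F}
    (he : IsOrthoN v₁ L (maxNorm v₁ v₂) e)
    (hL : ∀ c : L, v₂ (algebraMap L F c) = v₁ (algebraMap L F c)) (c : ι → L) (r : Γ₀) :
    (v₁ (∑ i, c i • e i) ≤ r ∧ v₂ (∑ i, c i • e i) ≤ r) ↔
      ∀ i, v₁ (algebraMap L F (c i)) ≤ r := by
  rw [← maxNorm_le_iff]
  exact he.sum_univ_le_iff (isNormOver_maxNorm hL) c r

/-- **Two-valuation cartesian theorem (T5), ball form with a reference element.** In the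
situation of `exists_maxNorm_basis`, for every `a₀ ≠ 0` every finite-dimensional `L`-subspace `W`
has an `L`-basis `e` such that a combination `∑ c i • e i` lies in the weighted ball
`{y | v₁ y ≤ r * v₁ a₀ ∧ v₂ y ≤ r * v₂ a₀}` iff all its coefficients have value `≤ r`.
(Weights `w i = v i a₀`: the form consumed by the multi-valuation Kummer core.) -/
theorem exists_basis_ball (hx₁ : ResTranscendental v₁ L x) (hx₂ : ResTranscendental v₂ L x)
    (hL : ∀ c : L, v₂ (algebraMap L F c) = v₁ (algebraMap L F c))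
    (h₁ : NotLE v₁ v₂) (h₂ : NotLE v₂ v₁) [FiniteDimensional (IntermediateField.adjoin L {x}) F]
    {ι₁ ι₂ : Type*} [Fintype ι₁] [Fintype ι₂] {e₁ : ι₁ → F} {e₂ : ι₂ → F}
    (he₁ : IsOrtho v₁ (IntermediateField.adjoin L {x}) e₁)
    (he₂ : IsOrtho v₂ (IntermediateField.adjoin L {x}) e₂)
    (hcard : Fintype.card ι₁ + Fintype.card ι₂
      = Module.finrank (IntermediateField.adjoin L {x}) F)
    {a₀ : F} (ha₀ : a₀ ≠ 0) (W : Submodule L F) [FiniteDimensional L W] :
    ∃ e : Fin (Module.finrank L W) → F, (∀ i, e i ∈ W) ∧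
      Submodule.span L (Set.range e) = W ∧ LinearIndependent L e ∧
      (∀ i, v₁ (e i) ≤ v₁ a₀ ∧ v₂ (e i) ≤ v₂ a₀) ∧
      ∀ (c : Fin (Module.finrank L W) → L) (r : Γ₀),
        (v₁ (∑ i, c i • e i) ≤ r * v₁ a₀ ∧ v₂ (∑ i, c i • e i) ≤ r * v₂ a₀) ↔
          ∀ i, v₁ (algebraMap L F (c i)) ≤ r := by
  classical
  have ha1 : 0 < v₁ a₀ := zero_lt_iff.mpr ((Valuation.ne_zero_iff _).mpr ha₀)
  have ha2 : 0 < v₂ a₀ := zero_lt_iff.mpr ((Valuation.ne_zero_iff _).mpr ha₀)
  set m : F →ₗ[L] F := LinearMap.mulLeft L a₀⁻¹ with hm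
  have hminj : Function.Injective m := fun y z hyz => mul_left_cancel₀ (inv_ne_zero ha₀) hyz
  set W' : Submodule L F := W.map m with hW'
  have eqv : W ≃ₗ[L] W' := Submodule.equivMapOfInjective m hminj W
  have : FiniteDimensional L W' := LinearEquiv.finiteDimensional eqv
  obtain ⟨e', he'W, he'o, he'span⟩ := exists_maxNorm_basis hx₁ hx₂ hL h₁ h₂ he₁ he₂ hcard W'
    (Module.finrank L W) eqv.finrank_eq.symm
  have hNL : IsNormOver v₁ L (maxNorm v₁ v₂) := isNormOver_maxNorm hL
  have hsum : ∀ c : Fin (Module.finrank L W) → L,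
      ∑ i, c i • (a₀ * e' i) = a₀ * ∑ i, c i • e' i := by
    intro c
    rw [Finset.mul_sum]
    exact Finset.sum_congr rfl fun i _ => by rw [mul_smul_comm]
  refine ⟨fun i => a₀ * e' i, fun i => ?_, ?_, ?_, fun i => ?_, fun c r => ?_⟩
  · obtain ⟨y, hy, hy'⟩ := he'W i
    have : a₀ * e' i = y := by
      rw [← hy']
      show a₀ * (a₀⁻¹ * y) = y
      rw [mul_inv_cancel_left₀ ha₀]
    show a₀ * e' i ∈ W
    rw [this]
    exact hy
  · have hrange : (Set.range fun i => a₀ * e' i) = LinearMap.mulLeft L a₀ '' Set.range e' := by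
      rw [← Set.range_comp]
      rfl
    rw [hrange, ← Submodule.map_span, he'span, hW', ← Submodule.map_comp]
    have : (LinearMap.mulLeft L a₀).comp m = LinearMap.id := by
      ext y
      simp [hm, mul_inv_cancel_left₀ ha₀]
    rw [this, Submodule.map_id]
  · have hli := he'o.linearIndependent hNL
    have h2 := hli.map' (LinearMap.mulLeft L a₀)
      (LinearMap.ker_eq_bot.mpr fun y z hyz => mul_left_cancel₀ ha₀ hyz)
    exact h2
  · have h := maxNorm_le_iff.mp (he'o.le_one i)
    refine ⟨?_, ?_⟩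
    · show v₁ (a₀ * e' i) ≤ v₁ a₀
      rw [map_mul]
      calc v₁ a₀ * v₁ (e' i) ≤ v₁ a₀ * 1 := mul_le_mul' le_rfl h.1
        _ = v₁ a₀ := mul_one _
    · show v₂ (a₀ * e' i) ≤ v₂ a₀
      rw [map_mul]
      calc v₂ a₀ * v₂ (e' i) ≤ v₂ a₀ * 1 := mul_le_mul' le_rfl h.2
        _ = v₂ a₀ := mul_one _
  · rw [hsum, map_mul, map_mul, mul_comm r, mul_comm r, mul_le_mul_iff_right₀ ha1,
      mul_le_mul_iff_right₀ ha2]
    exact he'o.maxNorm_ball_iff hL c r

/-- **Two-valuation cartesian theorem (T5), ball form with independent twists.** If moreover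
both valuations are archimedean (`PowSmall`), the weights may be prescribed independently:
`{y | v₁ y ≤ r * v₁ f₁ ∧ v₂ y ≤ r * v₂ f₂}` (e.g. `f₁ = 1`: the twisted unit ball
`{|a|₁ ≤ 1, |a / f|₂ ≤ 1}`). -/
theorem exists_basis_ball_of_powSmall (hx₁ : ResTranscendental v₁ L x)
    (hx₂ : ResTranscendental v₂ L x)
    (hL : ∀ c : L, v₂ (algebraMap L F c) = v₁ (algebraMap L F c))
    (h₁ : NotLE v₁ v₂) (h₂ : NotLE v₂ v₁) (hpow₁ : PowSmall v₁) (hpow₂ : PowSmall v₂)
    [FiniteDimensional (IntermediateField.adjoin L {x}) F]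
    {ι₁ ι₂ : Type*} [Fintype ι₁] [Fintype ι₂] {e₁ : ι₁ → F} {e₂ : ι₂ → F}
    (he₁ : IsOrtho v₁ (IntermediateField.adjoin L {x}) e₁)
    (he₂ : IsOrtho v₂ (IntermediateField.adjoin L {x}) e₂)
    (hcard : Fintype.card ι₁ + Fintype.card ι₂
      = Module.finrank (IntermediateField.adjoin L {x}) F)
    {f₁ f₂ : F} (hf₁ : f₁ ≠ 0) (hf₂ : f₂ ≠ 0) (W : Submodule L F) [FiniteDimensional L W] :
    ∃ e : Fin (Module.finrank L W) → F, (∀ i, e i ∈ W) ∧
      Submodule.span L (Set.range e) = W ∧ LinearIndependent L e ∧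
      (∀ i, v₁ (e i) ≤ v₁ f₁ ∧ v₂ (e i) ≤ v₂ f₂) ∧
      ∀ (c : Fin (Module.finrank L W) → L) (r : Γ₀),
        (v₁ (∑ i, c i • e i) ≤ r * v₁ f₁ ∧ v₂ (∑ i, c i • e i) ≤ r * v₂ f₂) ↔
          ∀ i, v₁ (algebraMap L F (c i)) ≤ r := by
  obtain ⟨a₀, ha₀, ha1, ha2⟩ := exists_map_eq_and_eq h₁ h₂ hpow₁ hpow₂ hf₁ hf₂
  obtain ⟨e, heW, hspan, hli, hle, hball⟩ :=
    exists_basis_ball hx₁ hx₂ hL h₁ h₂ he₁ he₂ hcard ha₀ W
  refine ⟨e, heW, hspan, hli, fun i => ?_, fun c r => ?_⟩
  · rw [← ha1, ← ha2]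
    exact hle i
  · rw [← ha1, ← ha2]
    exact hball c r

/-- Family form of `exists_basis_ball` (index `Fin 2`, weights `w i = v i a₀`), in the shape of
the orthonormality hypothesis of the multi-valuation Kummer cores. -/
theorem exists_basis_ball_family (hx₁ : ResTranscendental v₁ L x)
    (hx₂ : ResTranscendental v₂ L x)
    (hL : ∀ c : L, v₂ (algebraMap L F c) = v₁ (algebraMap L F c))
    (h₁ : NotLE v₁ v₂) (h₂ : NotLE v₂ v₁) [FiniteDimensional (IntermediateField.adjoin L {x}) F]
    {ι₁ ι₂ : Type*} [Fintype ι₁] [Fintype ι₂] {e₁ : ι₁ → F} {e₂ : ι₂ → F}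
    (he₁ : IsOrtho v₁ (IntermediateField.adjoin L {x}) e₁)
    (he₂ : IsOrtho v₂ (IntermediateField.adjoin L {x}) e₂)
    (hcard : Fintype.card ι₁ + Fintype.card ι₂
      = Module.finrank (IntermediateField.adjoin L {x}) F)
    {a₀ : F} (ha₀ : a₀ ≠ 0) (W : Submodule L F) [FiniteDimensional L W] :
    ∃ (n : ℕ) (e : Fin n → F), (∀ j, e j ∈ W) ∧ W ≤ Submodule.span L (Set.range e) ∧
      (∀ (j : Fin n) (i : Fin 2), (![v₁, v₂] i) (e j) ≤ (![v₁, v₂] i) a₀) ∧
      ∀ (c : Fin n → L) (r : Γ₀),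
        (∀ i : Fin 2, (![v₁, v₂] i) (∑ j, c j • e j) ≤ r * (![v₁, v₂] i) a₀) →
          ∀ j, v₁ (algebraMap L F (c j)) ≤ r := by
  obtain ⟨e, heW, hspan, -, hle, hball⟩ :=
    exists_basis_ball hx₁ hx₂ hL h₁ h₂ he₁ he₂ hcard ha₀ W
  refine ⟨_, e, heW, hspan.ge, fun j i => ?_, fun c r h => ?_⟩
  · fin_cases i
    · exact (hle j).1
    · exact (hle j).2
  · exact (hball c r).mp ⟨h 0, h 1⟩

/-- Family form of `exists_basis_ball` for a family `v : Fin 2 → Valuation F Γ₀` with a common
restriction `vL` to the constant field: literally the one-sided weighted orthonormality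
hypothesis of the multi-valuation Kummer cores (weights `w i = v i a₀`). -/
theorem exists_orthonormal_family (vL : Valuation L Γ₀) (v : Fin 2 → Valuation F Γ₀)
    (hL : ∀ (i : Fin 2) (c : L), v i (algebraMap L F c) = vL c)
    (hx : ∀ i, ResTranscendental (v i) L x)
    (h₁ : NotLE (v 0) (v 1)) (h₂ : NotLE (v 1) (v 0))
    [FiniteDimensional (IntermediateField.adjoin L {x}) F]
    {ι₁ ι₂ : Type*} [Fintype ι₁] [Fintype ι₂] {e₁ : ι₁ → F} {e₂ : ι₂ → F}
    (he₁ : IsOrtho (v 0) (IntermediateField.adjoin L {x}) e₁)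
    (he₂ : IsOrtho (v 1) (IntermediateField.adjoin L {x}) e₂)
    (hcard : Fintype.card ι₁ + Fintype.card ι₂
      = Module.finrank (IntermediateField.adjoin L {x}) F)
    {a₀ : F} (ha₀ : a₀ ≠ 0) (W : Submodule L F) [FiniteDimensional L W] :
    ∃ (n : ℕ) (e : Fin n → F), (∀ j, e j ∈ W) ∧ W ≤ Submodule.span L (Set.range e) ∧
      (∀ (j : Fin n) (i : Fin 2), v i (e j) ≤ v i a₀) ∧
      ∀ (c : Fin n → L) (r : Γ₀),
        (∀ i : Fin 2, v i (∑ j, c j • e j) ≤ r * v i a₀) → ∀ j, vL (c j) ≤ r := by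
  have hL' : ∀ c : L, v 1 (algebraMap L F c) = v 0 (algebraMap L F c) := fun c => by
    rw [hL, hL]
  obtain ⟨e, heW, hspan, -, hle, hball⟩ :=
    exists_basis_ball (hx 0) (hx 1) hL' h₁ h₂ he₁ he₂ hcard ha₀ W
  refine ⟨_, e, heW, hspan.ge, fun j i => ?_, fun c r h j => ?_⟩
  · fin_cases i
    · exact (hle j).1
    · exact (hle j).2
  · rw [← hL 0]
    exact (hball c r).mp ⟨h 0, h 1⟩ j

end Cartesian

/-! ### The archimedean property for algebraic extensions of `ℚ` -/

section Archimedean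

variable {L : Type*} [Field L] {Γ₀ : Type*} [LinearOrderedCommGroupWithZero Γ₀]
  (v : Valuation L Γ₀)

theorem map_natCast_le_one' (n : ℕ) : v (n : L) ≤ 1 := by
  induction n with
  | zero => simp
  | succ n ih =>
    rw [Nat.cast_succ]
    exact (v.map_add _ _).trans (max_le ih (by rw [map_one]))

theorem map_intCast_le_one' (n : ℤ) : v (n : L) ≤ 1 := by
  rcases Int.natAbs_eq n with h | h
  · rw [h, Int.cast_natCast]
    exact map_natCast_le_one' v _
  · rw [h, Int.cast_neg, Int.cast_natCast, Valuation.map_neg]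
    exact map_natCast_le_one' v _

variable {v} {p : ℕ}

theorem map_natCast_eq_one_of_not_dvd (hp : p.Prime) (hvp : v (p : L) < 1) {m : ℕ}
    (hm : ¬ p ∣ m) : v (m : L) = 1 := by
  refine le_antisymm (map_natCast_le_one' v m) ?_
  have hcop : IsCoprime (m : ℤ) (p : ℤ) :=
    Nat.isCoprime_iff_coprime.mpr ((Nat.Prime.coprime_iff_not_dvd hp).mpr hm).symm
  obtain ⟨a, b, hab⟩ := hcop
  have hL : (a : L) * (m : L) + (b : L) * (p : L) = 1 := by
    have := congrArg (fun z : ℤ => (z : L)) hab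
    simpa using this
  by_contra hlt
  rw [not_le] at hlt
  have h1 : v ((a : L) * (m : L)) < 1 := by
    rw [map_mul]
    calc v (a : L) * v (m : L) ≤ 1 * v (m : L) := mul_le_mul' (map_intCast_le_one' v a) le_rfl
      _ = v (m : L) := one_mul _
      _ < 1 := hlt
  have h2 : v ((b : L) * (p : L)) < 1 := by
    rw [map_mul]
    calc v (b : L) * v (p : L) ≤ 1 * v (p : L) := mul_le_mul' (map_intCast_le_one' v b) le_rfl
      _ = v (p : L) := one_mul _
      _ < 1 := hvp
  have h3 := v.map_add_lt h1 h2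
  rw [hL, map_one] at h3
  exact lt_irrefl _ h3

theorem exists_map_natCast_eq_pow (hp : p.Prime) (hvp : v (p : L) < 1) {m : ℕ} (hm : m ≠ 0) :
    ∃ e : ℕ, v (m : L) = v (p : L) ^ e := by
  obtain ⟨e, m', hm', rfl⟩ := Nat.exists_eq_pow_mul_and_not_dvd hm p hp.ne_one
  refine ⟨e, ?_⟩
  rw [Nat.cast_mul, Nat.cast_pow, map_mul, map_pow, map_natCast_eq_one_of_not_dvd hp hvp hm',
    mul_one]

theorem exists_map_intCast_eq_pow (hp : p.Prime) (hvp : v (p : L) < 1) {m : ℤ} (hm : m ≠ 0) :
    ∃ e : ℕ, v (m : L) = v (p : L) ^ e := by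
  have hm' : m.natAbs ≠ 0 := Int.natAbs_ne_zero.mpr hm
  obtain ⟨e, he⟩ := exists_map_natCast_eq_pow hp hvp hm'
  refine ⟨e, ?_⟩
  rcases Int.natAbs_eq m with h | h
  · rw [h, Int.cast_natCast]
    exact he
  · rw [h, Int.cast_neg, Int.cast_natCast, Valuation.map_neg]
    exact he

/-- Lower bound: the value of a nonzero algebraic number is at least a power of `v p`. -/
theorem exists_pow_le_map_of_isAlgebraic (hp : p.Prime) (hvp : v (p : L) < 1) {b : L}
    (hb : b ≠ 0) (halg : IsAlgebraic ℤ b) : ∃ e : ℕ, v (p : L) ^ e ≤ v b := by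
  classical
  by_cases h1 : 1 ≤ v b
  · exact ⟨0, by rw [pow_zero]; exact h1⟩
  rw [not_le] at h1
  have hvb0 : v b ≠ 0 := (Valuation.ne_zero_iff _).mpr hb
  obtain ⟨P, hP0, hP⟩ := halg
  set k := P.natTrailingDegree with hk
  have hmk : P.coeff k ≠ 0 := by
    rw [hk, ← Polynomial.trailingCoeff]
    exact Polynomial.trailingCoeff_nonzero_iff_nonzero.mpr hP0
  have hksupp : k ∈ P.support := Polynomial.mem_support_iff.mpr hmk
  have hsum : ∑ i ∈ P.support, ((P.coeff i : ℤ) : L) * b ^ i = 0 := by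
    rw [← hP, Polynomial.aeval_def, Polynomial.eval₂_eq_sum, Polynomial.sum_def]
    rfl
  rw [← Finset.add_sum_erase _ _ hksupp] at hsum
  have hTk : ((P.coeff k : ℤ) : L) * b ^ k
      = -∑ i ∈ P.support.erase k, ((P.coeff i : ℤ) : L) * b ^ i := eq_neg_of_add_eq_zero_left hsum
  have hle : v (((P.coeff k : ℤ) : L) * b ^ k) ≤ v b ^ (k + 1) := by
    rw [hTk, Valuation.map_neg]
    refine v.map_sum_le fun i hi => ?_
    have hi' := Finset.mem_erase.mp hi
    have hki : k + 1 ≤ i := by
      have h1 : k ≤ i := Polynomial.natTrailingDegree_le_of_ne_zero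
        (Polynomial.mem_support_iff.mp hi'.2)
      have h2 : i ≠ k := hi'.1
      omega
    rw [map_mul, map_pow]
    calc v ((P.coeff i : ℤ) : L) * v b ^ i ≤ 1 * v b ^ i :=
          mul_le_mul' (map_intCast_le_one' v _) le_rfl
      _ = v b ^ i := one_mul _
      _ ≤ v b ^ (k + 1) := pow_le_pow_right_of_le_one' h1.le hki
  rw [map_mul, map_pow, pow_succ, mul_comm (v b ^ k) (v b),
    mul_le_mul_iff_left₀ (zero_lt_iff.mpr (pow_ne_zero k hvb0))] at hle
  obtain ⟨e, he⟩ := exists_map_intCast_eq_pow hp hvp hmk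
  exact ⟨e, he ▸ hle⟩

theorem exists_pow_le_aux (hvp : v (p : L) < 1) (hp0 : v (p : L) ≠ 0) {A : Γ₀} (hA0 : A ≠ 0)
    (hA1 : A < 1) {i j eᵢ eⱼ : ℕ} (hij : i < j)
    (h : v (p : L) ^ eᵢ * A ^ i = v (p : L) ^ eⱼ * A ^ j) :
    ∃ n : ℕ, n ≠ 0 ∧ A ^ n ≤ v (p : L) := by
  obtain ⟨n, rfl⟩ := Nat.exists_eq_add_of_lt hij
  have hn : i + n + 1 = i + (n + 1) := by ring
  rw [hn, pow_add, ← mul_assoc, mul_comm (v (p : L) ^ eⱼ) (A ^ i), mul_assoc,
    mul_comm (v (p : L) ^ eᵢ) (A ^ i),
    mul_right_inj' (pow_ne_zero i hA0)] at h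
  have hAn : A ^ (n + 1) < 1 := pow_lt_one₀ zero_le hA1 (Nat.succ_ne_zero n)
  have hlt : eⱼ < eᵢ := by
    by_contra hcon
    rw [not_lt] at hcon
    have h1 : v (p : L) ^ eⱼ ≤ v (p : L) ^ eᵢ := pow_le_pow_right_of_le_one' hvp.le hcon
    have h2 : v (p : L) ^ eⱼ * A ^ (n + 1) < v (p : L) ^ eⱼ * 1 :=
      mul_lt_mul_of_pos_left hAn (zero_lt_iff.mpr (pow_ne_zero eⱼ hp0))
    rw [mul_one, ← h] at h2
    exact lt_irrefl _ (lt_of_lt_of_le h2 h1)
  obtain ⟨k, rfl⟩ := Nat.exists_eq_add_of_lt hlt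
  have hk : eⱼ + k + 1 = eⱼ + (k + 1) := by ring
  rw [hk, pow_add, mul_right_inj' (pow_ne_zero eⱼ hp0)] at h
  refine ⟨n + 1, Nat.succ_ne_zero n, ?_⟩
  rw [← h]
  calc v (p : L) ^ (k + 1) ≤ v (p : L) ^ 1 := pow_le_pow_right_of_le_one' hvp.le (by omega)
    _ = v (p : L) := pow_one _

/-- Upper bound: a power of an algebraic number of value `< 1` has value at most `v p`
(two terms of maximal value in an algebraic relation). -/
theorem exists_pow_le_of_isAlgebraic [CharZero L] (hp : p.Prime) (hvp : v (p : L) < 1) {a : L}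
    (ha : a ≠ 0) (ha1 : v a < 1) (halg : IsAlgebraic ℤ a) :
    ∃ n : ℕ, n ≠ 0 ∧ v a ^ n ≤ v (p : L) := by
  classical
  have hp0 : v (p : L) ≠ 0 :=
    (Valuation.ne_zero_iff _).mpr (Nat.cast_ne_zero.mpr hp.ne_zero)
  have hva0 : v a ≠ 0 := (Valuation.ne_zero_iff _).mpr ha
  obtain ⟨P, hP0, hP⟩ := halg
  set T : ℕ → L := fun i => ((P.coeff i : ℤ) : L) * a ^ i with hT
  have hsum : ∑ i ∈ P.support, T i = 0 := by
    rw [← hP, Polynomial.aeval_def, Polynomial.eval₂_eq_sum, Polynomial.sum_def]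
    rfl
  have hTne : ∀ i ∈ P.support, v (T i) ≠ 0 := by
    intro i hi
    rw [Valuation.ne_zero_iff]
    exact mul_ne_zero (Int.cast_ne_zero.mpr (Polynomial.mem_support_iff.mp hi)) (pow_ne_zero i ha)
  have hne : P.support.Nonempty := Polynomial.nonempty_support_iff.mpr hP0
  obtain ⟨i₀, hi₀, hmax⟩ := P.support.exists_max_image (fun i => v (T i)) hne
  -- a second index of maximal value
  have hex : ∃ j ∈ P.support, j ≠ i₀ ∧ v (T j) = v (T i₀) := by
    by_contra hcon
    push Not at hcon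
    have hlt : ∀ i ∈ P.support \ {i₀}, v (T i) < v (T i₀) := by
      intro i hi
      rw [Finset.mem_sdiff, Finset.mem_singleton] at hi
      exact lt_of_le_of_ne (hmax i hi.1) (hcon i hi.1 hi.2)
    have := v.map_sum_eq_of_lt hi₀ hlt
    rw [hsum, map_zero] at this
    exact hTne i₀ hi₀ this.symm
  obtain ⟨j, hj, hji, hjv⟩ := hex
  obtain ⟨eᵢ, heᵢ⟩ := exists_map_intCast_eq_pow hp hvp (Polynomial.mem_support_iff.mp hi₀)
  obtain ⟨eⱼ, heⱼ⟩ := exists_map_intCast_eq_pow hp hvp (Polynomial.mem_support_iff.mp hj)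
  have hEq : v (p : L) ^ eⱼ * v a ^ j = v (p : L) ^ eᵢ * v a ^ i₀ := by
    rw [← heᵢ, ← heⱼ, ← map_pow, ← map_pow, ← map_mul, ← map_mul]
    exact hjv
  rcases lt_or_gt_of_ne hji with hlt | hlt
  · exact exists_pow_le_aux hvp hp0 hva0 ha1 hlt hEq
  · exact exists_pow_le_aux hvp hp0 hva0 ha1 hlt hEq.symm

/-- **Archimedean property.** A valuation of a field of characteristic zero all of whose elements
are algebraic over `ℤ` (e.g. an algebraic extension of `ℚ`), with `v p < 1` for a prime `p`, has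
`PowSmall`. -/
theorem powSmall_of_isAlgebraic [CharZero L] (hp : p.Prime) (hvp : v (p : L) < 1)
    (halg : ∀ a : L, IsAlgebraic ℤ a) : PowSmall v := by
  intro t ht g hg
  by_cases ht0 : t = 0
  · refine ⟨1, ?_⟩
    rw [ht0, map_zero, pow_one]
    exact zero_lt_iff.mpr ((Valuation.ne_zero_iff _).mpr hg)
  have hp0 : v (p : L) ≠ 0 :=
    (Valuation.ne_zero_iff _).mpr (Nat.cast_ne_zero.mpr hp.ne_zero)
  obtain ⟨n, -, hn⟩ := exists_pow_le_of_isAlgebraic hp hvp ht0 ht (halg t)
  obtain ⟨e, he⟩ := exists_pow_le_map_of_isAlgebraic hp hvp hg (halg g)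
  refine ⟨n * (e + 1), ?_⟩
  rw [pow_mul]
  calc (v t ^ n) ^ (e + 1) ≤ v (p : L) ^ (e + 1) := pow_le_pow_left' hn (e + 1)
    _ = v (p : L) ^ e * v (p : L) := pow_succ _ _
    _ < v (p : L) ^ e * 1 := mul_lt_mul_of_pos_left hvp (zero_lt_iff.mpr (pow_ne_zero e hp0))
    _ = v (p : L) ^ e := mul_one _
    _ ≤ v g := he

/-- Elements of an algebraic extension of `ℚ` are algebraic over `ℤ`. -/
theorem isAlgebraic_int_of_rat [Algebra ℚ L] [Algebra.IsAlgebraic ℚ L] (a : L) :
    IsAlgebraic ℤ a :=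
  (IsFractionRing.isAlgebraic_iff ℤ ℚ L).mpr (Algebra.IsAlgebraic.isAlgebraic a)

/-- The archimedean property for algebraic extensions of `ℚ` (any `ℚ`-algebra instance). -/
theorem powSmall_of_isAlgebraic_rat [CharZero L] [Algebra ℚ L] [Algebra.IsAlgebraic ℚ L]
    (hp : p.Prime) (hvp : v (p : L) < 1) : PowSmall v :=
  powSmall_of_isAlgebraic hp hvp isAlgebraic_int_of_rat

/-- The archimedean property for valuations of `AlgebraicClosure ℚ` above a prime (stated with
the instances of the application, to spare consumers the `Algebra ℚ` diamond). -/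
theorem powSmall_algebraicClosure_rat (w : Valuation (AlgebraicClosure ℚ) Γ₀) (hp : p.Prime)
    (hwp : w (p : AlgebraicClosure ℚ) < 1) : PowSmall w :=
  @powSmall_of_isAlgebraic_rat _ _ _ _ w p _ (AlgebraicClosure.instAlgebra ℚ)
    (AlgebraicClosure.isAlgebraic ℚ) hp hwp

/-- Transfer of the archimedean property to an extension with the same value group. -/
theorem powSmall_of_exists_map_eq {F : Type*} [Field F] [Algebra L F] {w : Valuation F Γ₀}
    (hval : ∀ y : F, ∃ a : L, w y = w (algebraMap L F a))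
    (hL : PowSmall (w.comap (algebraMap L F))) : PowSmall w := by
  intro t ht g hg
  obtain ⟨a, ha⟩ := hval t
  obtain ⟨b, hb⟩ := hval g
  have hb0 : b ≠ 0 := by
    rintro rfl
    rw [map_zero, map_zero] at hb
    exact (Valuation.ne_zero_iff _).mpr hg hb
  have := hL a (by rw [Valuation.comap_apply, ← ha]; exact ht) b hb0
  simpa only [Valuation.comap_apply, ← ha, ← hb] using this

end Archimedean

end Fermat.Agent.S35.helper882
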