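/-
S35/S34 shared geometry module: the concrete valuation-family package at the Gauss ring
(helper882, board S35/S34-GAUSSPAIR).

`Kbar = ℚ̄`, `F = modularFunctionFieldBar N`, `A` a valuation subring of `ℚ̄` above a prime `q`,
`V₁ := helper8991.gaussF A (residue A) N` (the Gauss valuation ring of the expansions at `∞`;
`= helper584.gaussV A N = helper1928.vInf`), `W` an arbitrary `ℚ̄`-automorphism of `F`
(the Atkin–Lehner involution in the application), `V₂ := V₁.comap W`
(`= helper1219.gaussFW A (residue A) N W`).

The landed multi-valuation Kummer cores (`helper2459.kummer_core_special_fibreW`,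
`helper1788.isPrincipal_of_seed`, `helper2423.torFix_of_special_fibre`) are stated for a family
`v : ι → Valuation F Γ₀` with a common value group and a base valuation `vL : Valuation L Γ₀`.
This file supplies that family at the Gauss ring, with every structural hypothesis proved:

* `gpVal A N W : Fin 2 → Valuation F Γ₀`, `gpBase A N : Valuation ℚ̄ Γ₀`, `Γ₀ := V₁.ValueGroup`;
* `gpVal_algebraMap` (`hL`), `gpVal_le_one_iff` (`hball`), `gpVal_lt_one_iff` (`hopen`),
  `gp_arch` (`harch`), `gpVal_natCast` (`hm`), `exists_gpBase_eq` (`hVG`);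
* `gpRed A N W : F → k((t)) × k((t))`, `f ↦ (ρ f, ρ (W f))`, and `gpRedData` :
  `helper2459.RedDataW (gpVal A N W) (fun _ => 1) (gpBase A N) k (gpRed A N W) (gpRed A N W)`.
-/
import Mathlib
import Fermat.Agent.S18.helper8991_GaussInst
import Fermat.Agent.S35.helper882_TwoValKit
import Fermat.Agent.S35.helper2459_KummerMultiSF

set_option autoImplicit false

open ModularCurve

noncomputable section

namespace Fermat.Agent.S35.helper882

open Fermat.Agent.S18

local notation "Kbar" => AlgebraicClosure ℚ

section GaussPair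

variable (A : ValuationSubring Kbar) (N : ℕ)

/-- The Gauss valuation ring of `ℚ̄(X₀(N))` attached to `A` (expansions at `∞`). -/
abbrev gpRing : ValuationSubring (modularFunctionFieldBar N) :=
  helper8991.gaussF A (IsLocalRing.residue A) N

variable (W : modularFunctionFieldBar N ≃ₐ[Kbar] modularFunctionFieldBar N)

/-- The second Gauss ring `V₂ = {x | W x ∈ V₁}`. -/
abbrev gpRingW : ValuationSubring (modularFunctionFieldBar N) :=
  (gpRing A N).comap
    ((W : modularFunctionFieldBar N ≃+* modularFunctionFieldBar N) :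
      modularFunctionFieldBar N →+* modularFunctionFieldBar N)

/-- The pair of Gauss valuations `(v_∞, v_∞ ∘ W)` with the common value group of `V₁`. -/
def gpVal : Fin 2 → Valuation (modularFunctionFieldBar N) (gpRing A N).ValueGroup :=
  ![(gpRing A N).valuation,
    (gpRing A N).valuation.comap
      ((W : modularFunctionFieldBar N ≃+* modularFunctionFieldBar N) :
        modularFunctionFieldBar N →+* modularFunctionFieldBar N)]

/-- The restriction of the Gauss valuation to the constants. -/
def gpBase : Valuation Kbar (gpRing A N).ValueGroup :=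
  (gpRing A N).valuation.comap (algebraMap Kbar (modularFunctionFieldBar N))

theorem gpVal_zero (x : modularFunctionFieldBar N) :
    gpVal A N W 0 x = (gpRing A N).valuation x := rfl

theorem gpVal_one (x : modularFunctionFieldBar N) :
    gpVal A N W 1 x = (gpRing A N).valuation (W x) := rfl

theorem gpBase_apply (c : Kbar) :
    gpBase A N c = (gpRing A N).valuation (algebraMap Kbar (modularFunctionFieldBar N) c) := rfl

/-- `hL`: both valuations restrict to `gpBase` on the constants. -/
theorem gpVal_algebraMap (i : Fin 2) (c : Kbar) :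
    gpVal A N W i (algebraMap Kbar (modularFunctionFieldBar N) c) = gpBase A N c := by
  fin_cases i
  · rfl
  · show (gpRing A N).valuation (W (algebraMap Kbar (modularFunctionFieldBar N) c)) = _
    rw [AlgEquiv.commutes]
    rfl

/-- The unit ball of `gpBase` is `A`. -/
theorem gpBase_le_one_iff (c : Kbar) : gpBase A N c ≤ 1 ↔ c ∈ A := by
  rw [gpBase_apply, ValuationSubring.valuation_le_one_iff]
  exact helper8991.algebraMap_mem_gaussF_iff A (IsLocalRing.residue A) N
    (fun a ha => (IsLocalRing.residue_eq_zero_iff a).mpr ha) c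

/-- The open unit ball of `gpBase` is the maximal ideal of `A`. -/
theorem gpBase_lt_one_iff (c : Kbar) : gpBase A N c < 1 ↔ c ∈ A.nonunits := by
  rw [ValuationSubring.mem_nonunits_iff_or]
  by_cases hc : c = 0
  · subst hc
    simp
  · have h0 : gpBase A N c ≠ 0 := (Valuation.ne_zero_iff _).mpr hc
    constructor
    · intro h
      right
      intro hinv
      have h1 := (gpBase_le_one_iff A N c⁻¹).mpr hinv
      rw [map_inv₀, inv_le_one₀ (zero_lt_iff.mpr h0)] at h1
      exact absurd h (not_lt.mpr h1)
    · rintro (h | h)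
      · exact absurd h hc
      · by_contra hlt
        rw [not_lt] at hlt
        apply h
        rw [← gpBase_le_one_iff A N, map_inv₀, inv_le_one₀ (zero_lt_iff.mpr h0)]
        exact hlt

/-- `hball`: the common unit ball is `V₁ ∩ V₂`. -/
theorem gpVal_le_one_iff (x : modularFunctionFieldBar N) :
    (∀ i, gpVal A N W i x ≤ 1) ↔ x ∈ gpRing A N ∧ x ∈ gpRingW A N W := by
  rw [Fin.forall_fin_two, gpVal_zero, gpVal_one, ValuationSubring.valuation_le_one_iff,
    ValuationSubring.valuation_le_one_iff]
  rfl

/-- The valuation of `V₂ = V₁.comap W` is `< 1` iff that of `V₁` at `W x` is. -/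
theorem gpRingW_valuation_lt_one_iff (x : modularFunctionFieldBar N) :
    (gpRingW A N W).valuation x < 1 ↔ (gpRing A N).valuation (W x) < 1 := by
  rw [← ValuationSubring.mem_nonunits_iff, ← ValuationSubring.mem_nonunits_iff,
    ValuationSubring.mem_nonunits_iff_or, ValuationSubring.mem_nonunits_iff_or]
  constructor
  · rintro (h | h)
    · left
      rw [h, map_zero]
    · right
      intro h'
      apply h
      show W x⁻¹ ∈ gpRing A N
      rw [map_inv₀]
      exact h'
  · rintro (h | h)
    · left
      exact (map_eq_zero_iff W W.injective).mp h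
    · right
      intro h'
      apply h
      have : W x⁻¹ ∈ gpRing A N := h'
      rwa [map_inv₀] at this

/-- `hopen`: the common open unit ball. -/
theorem gpVal_lt_one_iff (x : modularFunctionFieldBar N) :
    (∀ i, gpVal A N W i x < 1) ↔
      (gpRing A N).valuation x < 1 ∧ (gpRingW A N W).valuation x < 1 := by
  rw [Fin.forall_fin_two, gpVal_zero, gpVal_one, gpRingW_valuation_lt_one_iff]

/-- `e = 1` for the Gauss valuation (any level): the value of a nonzero function is the value
of a constant. -/
theorem exists_gpBase_eq_valuation {f : modularFunctionFieldBar N} (hf : f ≠ 0) :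
    ∃ c : Kbar, c ≠ 0 ∧ gpBase A N c = (gpRing A N).valuation f := by
  obtain ⟨c, u, hc, hu, hfu⟩ :=
    helper8991.exists_const_mul_unit_F A (IsLocalRing.residue A) N f hf
  refine ⟨c, hc, ?_⟩
  have hunit : IsUnit u := (helper8991.isUnit_iff_gaussFRed_ne_zero A _ N u).mpr hu
  have h1 : (gpRing A N).valuation (u : modularFunctionFieldBar N) = 1 :=
    (ValuationSubring.valuation_eq_one_iff _ u).mp hunit
  rw [hfu, map_mul, h1, mul_one]
  rfl

/-- `hVG`: the value group of both valuations is that of the constants. -/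
theorem exists_gpBase_eq (i : Fin 2) (f : modularFunctionFieldBar N) (hf : f ≠ 0) :
    ∃ c : Kbar, gpBase A N c = gpVal A N W i f := by
  fin_cases i
  · obtain ⟨c, -, hc⟩ := exists_gpBase_eq_valuation A N hf
    exact ⟨c, hc⟩
  · obtain ⟨c, -, hc⟩ := exists_gpBase_eq_valuation A N (f := W f)
      ((map_ne_zero_iff W W.injective).mpr hf)
    exact ⟨c, hc⟩

variable {q : ℕ}

/-- The base valuation is archimedean (`A` lies over a prime). -/
theorem gpBase_powSmall (hq : q.Prime) (hA : (q : Kbar) ∈ A.nonunits) : PowSmall (gpBase A N) :=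
  powSmall_algebraicClosure_rat (gpBase A N) hq ((gpBase_lt_one_iff A N _).mpr hA)

/-- The Gauss valuation is archimedean. -/
theorem gpRing_powSmall (hq : q.Prime) (hA : (q : Kbar) ∈ A.nonunits) :
    PowSmall (gpRing A N).valuation := by
  refine powSmall_of_exists_map_eq (L := Kbar) (fun y => ?_) (gpBase_powSmall A N hq hA)
  by_cases hy : y = 0
  · exact ⟨0, by rw [hy, map_zero, map_zero, map_zero]⟩
  · obtain ⟨c, -, hc⟩ := exists_gpBase_eq_valuation A N hy
    exact ⟨c, hc.symm⟩

/-- Both valuations of the pair are archimedean. -/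
theorem gpVal_powSmall (hq : q.Prime) (hA : (q : Kbar) ∈ A.nonunits) (i : Fin 2) :
    PowSmall (gpVal A N W i) := by
  fin_cases i
  · exact gpRing_powSmall A N hq hA
  · intro t ht g hg
    exact gpRing_powSmall A N hq hA (W t) ht (W g) ((map_ne_zero_iff W W.injective).mpr hg)

/-- `harch`: the common value group is archimedean. -/
theorem gp_arch (hq : q.Prime) (hA : (q : Kbar) ∈ A.nonunits) (ε κ : (gpRing A N).ValueGroup)
    (hε : ε < 1) (hκ : κ ≠ 0) : ∃ n : ℕ, ε ^ n < κ := by
  obtain ⟨t, rfl⟩ := (gpRing A N).valuation_surjective ε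
  obtain ⟨g, rfl⟩ := (gpRing A N).valuation_surjective κ
  have hg : g ≠ 0 := (Valuation.ne_zero_iff _).mp hκ
  exact gpRing_powSmall A N hq hA t hε g hg

/-- `hm`: integers prime to `q` are units for both valuations. -/
theorem gpVal_natCast (hq : q.Prime) (hA : (q : Kbar) ∈ A.nonunits) {n : ℕ} (hn : ¬ q ∣ n)
    (i : Fin 2) : gpVal A N W i (n : modularFunctionFieldBar N) = 1 := by
  have h1 : (n : modularFunctionFieldBar N) = algebraMap Kbar (modularFunctionFieldBar N) n :=
    (map_natCast _ n).symm
  rw [h1, gpVal_algebraMap]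
  exact map_natCast_eq_one_of_not_dvd hq ((gpBase_lt_one_iff A N _).mpr hA) hn

/-! ### The reduction map -/

/-- The reduction map of the Gauss ring `V₁ → k((t))`, extended by `0` outside `V₁`. -/
def gpRho (x : modularFunctionFieldBar N) : LaurentSeries (IsLocalRing.ResidueField A) :=
  open Classical in
  if h : x ∈ gpRing A N then helper8991.gaussFRed A (IsLocalRing.residue A) N ⟨x, h⟩ else 0

theorem gpRho_of_mem {x : modularFunctionFieldBar N} (h : x ∈ gpRing A N) :
    gpRho A N x = helper8991.gaussFRed A (IsLocalRing.residue A) N ⟨x, h⟩ := by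
  unfold gpRho
  exact dif_pos h

theorem gpRho_add {x y : modularFunctionFieldBar N} (hx : x ∈ gpRing A N)
    (hy : y ∈ gpRing A N) : gpRho A N (x + y) = gpRho A N x + gpRho A N y := by
  rw [gpRho_of_mem A N hx, gpRho_of_mem A N hy, gpRho_of_mem A N ((gpRing A N).add_mem _ _ hx hy),
    ← map_add]
  rfl

theorem gpRho_mul {x y : modularFunctionFieldBar N} (hx : x ∈ gpRing A N)
    (hy : y ∈ gpRing A N) : gpRho A N (x * y) = gpRho A N x * gpRho A N y := by
  rw [gpRho_of_mem A N hx, gpRho_of_mem A N hy, gpRho_of_mem A N ((gpRing A N).mul_mem _ _ hx hy),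
    ← map_mul]
  rfl

theorem gpRho_one : gpRho A N 1 = 1 := by
  rw [gpRho_of_mem A N (gpRing A N).one_mem]
  exact map_one (helper8991.gaussFRed A (IsLocalRing.residue A) N)

theorem gpRho_eq_zero_iff {x : modularFunctionFieldBar N} (hx : x ∈ gpRing A N) :
    gpRho A N x = 0 ↔ (gpRing A N).valuation x < 1 := by
  rw [gpRho_of_mem A N hx, helper8991.gaussFRed_eq_zero_iff]
  exact ValuationSubring.valuation_lt_one_iff (gpRing A N) ⟨x, hx⟩

/-- Reduction of a constant of `A`. -/
theorem gpRho_algebraMap {c : Kbar} (hc : c ∈ A) :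
    gpRho A N (algebraMap Kbar (modularFunctionFieldBar N) c)
      = algebraMap (IsLocalRing.ResidueField A) (LaurentSeries (IsLocalRing.ResidueField A))
          (IsLocalRing.residue A ⟨c, hc⟩) := by
  have hmem : algebraMap Kbar (modularFunctionFieldBar N) c ∈ gpRing A N :=
    helper8991.algebraMap_mem_gaussSubring A (IsLocalRing.residue A) _ _ hc
  rw [gpRho_of_mem A N hmem, ← helper8991.C_eq_algebraMap]
  exact helper8991.gaussRed_algebraMap A (IsLocalRing.residue A) _ _ hc

/-- The pair reduction `f ↦ (ρ f, ρ (W f))` into `k((t)) × k((t))`. -/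
def gpRed (x : modularFunctionFieldBar N) :
    LaurentSeries (IsLocalRing.ResidueField A) × LaurentSeries (IsLocalRing.ResidueField A) :=
  (gpRho A N x, gpRho A N (W x))

theorem gpRed_fst (x : modularFunctionFieldBar N) : (gpRed A N W x).1 = gpRho A N x := rfl

theorem gpRed_snd (x : modularFunctionFieldBar N) : (gpRed A N W x).2 = gpRho A N (W x) := rfl

theorem gpVal_le_one_mem {x : modularFunctionFieldBar N} (hx : ∀ i, gpVal A N W i x ≤ 1) :
    x ∈ gpRing A N ∧ W x ∈ gpRing A N :=
  (gpVal_le_one_iff A N W x).mp hx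

/-- `hred`: the reduction data of the pair of Gauss valuations, weights `1`, residue field
`k = A / 𝔪_A`, special fibre `k((t)) × k((t))`. -/
theorem gpRedData :
    helper2459.RedDataW (gpVal A N W) (fun _ => (1 : (gpRing A N).ValueGroup)) (gpBase A N)
      (IsLocalRing.ResidueField A) (gpRed A N W) (gpRed A N W) where
  val_algebraMap := gpVal_algebraMap A N W
  weight_ne_zero := fun _ => one_ne_zero
  map_add := fun a b ha hb => by
    obtain ⟨ha1, ha2⟩ := gpVal_le_one_mem A N W ha
    obtain ⟨hb1, hb2⟩ := gpVal_le_one_mem A N W hb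
    refine Prod.ext (gpRho_add A N ha1 hb1) ?_
    show gpRho A N (W (a + b)) = gpRho A N (W a) + gpRho A N (W b)
    rw [map_add]
    exact gpRho_add A N ha2 hb2
  map_mul := fun a b ha hb => by
    obtain ⟨ha1, ha2⟩ := gpVal_le_one_mem A N W ha
    obtain ⟨hb1, hb2⟩ := gpVal_le_one_mem A N W hb
    refine Prod.ext (gpRho_mul A N ha1 hb1) ?_
    show gpRho A N (W (a * b)) = gpRho A N (W a) * gpRho A N (W b)
    rw [map_mul]
    exact gpRho_mul A N ha2 hb2
  map_one := by
    refine Prod.ext (gpRho_one A N) ?_
    show gpRho A N (W 1) = 1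
    rw [map_one]
    exact gpRho_one A N
  eq_zero_iff := fun a ha => by
    obtain ⟨ha1, ha2⟩ := gpVal_le_one_mem A N W ha
    rw [Fin.forall_fin_two, gpVal_zero, gpVal_one, ← gpRho_eq_zero_iff A N ha1,
      ← gpRho_eq_zero_iff A N ha2, Prod.ext_iff]
    rfl
  exists_const := fun κ => by
    obtain ⟨a, rfl⟩ := IsLocalRing.residue_surjective κ
    refine ⟨(a : Kbar), (gpBase_le_one_iff A N _).mpr a.2, ?_⟩
    refine Prod.ext (gpRho_algebraMap A N a.2) ?_
    show gpRho A N (W (algebraMap Kbar (modularFunctionFieldBar N) (a : Kbar))) = _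
    rw [AlgEquiv.commutes]
    exact gpRho_algebraMap A N a.2
  mapM_add := fun a b ha hb => by
    obtain ⟨ha1, ha2⟩ := gpVal_le_one_mem A N W ha
    obtain ⟨hb1, hb2⟩ := gpVal_le_one_mem A N W hb
    refine Prod.ext (gpRho_add A N ha1 hb1) ?_
    show gpRho A N (W (a + b)) = gpRho A N (W a) + gpRho A N (W b)
    rw [map_add]
    exact gpRho_add A N ha2 hb2
  mapM_mul := fun a b ha hb => by
    obtain ⟨ha1, ha2⟩ := gpVal_le_one_mem A N W ha
    obtain ⟨hb1, hb2⟩ := gpVal_le_one_mem A N W hb
    refine Prod.ext (gpRho_mul A N ha1 hb1) ?_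
    show gpRho A N (W (a * b)) = gpRho A N (W a) * gpRho A N (W b)
    rw [map_mul]
    exact gpRho_mul A N ha2 hb2
  eqM_zero_iff := fun a ha => by
    obtain ⟨ha1, ha2⟩ := gpVal_le_one_mem A N W ha
    show gpRed A N W a = 0 ↔ ∀ i, gpVal A N W i a < 1
    rw [Fin.forall_fin_two, gpVal_zero, gpVal_one, ← gpRho_eq_zero_iff A N ha1,
      ← gpRho_eq_zero_iff A N ha2, Prod.ext_iff]
    rfl

end GaussPair

end Fermat.Agent.S35.helper882
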