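import Fermat.Agent.S35.helper1928_TwoValOrtho
import Fermat.Agent.S35.helper882_GaussPair

/-!
# S35/S34 RESFIELD (helper1928): the residue field of the Gauss valuation of `F_{ℓ M}` is `F_k(M)`

Setting of `helper1928_TwoValBasis` / `helper1928_TwoValOrtho`: `ℓ` prime, `ℓ ∤ M`,
`A ⊂ ℚ̄` a valuation subring above `ℓ`, `k` its residue field, `V = gaussF A (residue A) (ℓ M)`
the Gauss ring of `F_{ℓ M}`, `W = W_ℓ` the Atkin–Lehner involution.

* `span_twoBasis`, `exists_coeffs` : the two-chart basis is a `ℚ̄(j)`-basis of `F_{ℓ M}`;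
* `gaussFRed_mem_fullC_level` : the Gauss reduction of every element of `V` lies in
  `modularFunctionFieldFullC k M` (level `M`: both components of the special fibre are
  `X₀(M)_k`);
* `gpRho_mem_fullC`, `gpRed_mem_fullC` : the same in the vocabulary of `helper882_GaussPair`
  (the hypothesis `hrange` of the twisted-lattice theorem);
* explicit reductions: `gpRho_twoBasis`, `gpRho_wAL_twoBasis`, `gpRho_aeval_jBar`,
  `gpRho_wAL_aeval_jBar`, and the closed formulas `gpRho_of_rel`, `gpRho_wAL_of_rel` for the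
  reductions of `f = ∑ (P_e / Q)(j) · e_e`.
-/

set_option autoImplicit false

noncomputable section

namespace Fermat.Agent.S35.helper1928

open ModularCurve Polynomial IntermediateField
open Fermat.Agent.S28
open Fermat.Agent.S18.helper508
open Fermat.Agent.S24.helper24
open Fermat.Agent.S18

section ResField

variable (ℓ M : ℕ) [Fact ℓ.Prime] [NeZero M] (hℓM : ¬ ℓ ∣ M) (A : ValuationSubring Kbar)
  (hA : (ℓ : Kbar) ∈ A.nonunits)

include hA in
/-- The two-chart basis spans `F_{ℓ M}` over `ℚ̄(j)`. -/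
theorem span_twoBasis :
    Submodule.span (↥Kbar⟮jBar (ℓ * M)⟯) (Set.range (twoBasis ℓ M hℓM)) = ⊤ := by
  have hK : ∀ c : ↥Kbar⟮jBar (ℓ * M)⟯,
      valZero ℓ M hℓM A (algebraMap (↥Kbar⟮jBar (ℓ * M)⟯) (FN (ℓ * M)) c) =
        valInf ℓ M A (algebraMap (↥Kbar⟮jBar (ℓ * M)⟯) (FN (ℓ * M)) c) :=
    fun c => val_wAL_of_mem_adjoin ℓ M hℓM A c.2
  have hli := (isOrthoN_twoBasis ℓ M hℓM A hA).linearIndependent
    (helper882.isNormOver_maxNorm hK)
  have := finiteDimensional_adjoin_jBar ℓ M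
  exact hli.span_eq_top_of_card_eq_finrank'
    (by rw [Fintype.card_sum]; exact card_add_card_eq_finrank ℓ M hℓM)

include hA in
/-- Every element of `F_{ℓ M}` is a `ℚ̄(j)`-combination of the two-chart basis. -/
theorem exists_coeffs (z : FN (ℓ * M)) :
    ∃ c : TwoIdx ℓ (dedekindPsi M) → FN (ℓ * M), (∀ e, c e ∈ Kbar⟮jBar (ℓ * M)⟯) ∧
      z = ∑ e, c e * twoBasis ℓ M hℓM e := by
  have hz : z ∈ Submodule.span (↥Kbar⟮jBar (ℓ * M)⟯) (Set.range (twoBasis ℓ M hℓM)) := by
    rw [span_twoBasis ℓ M hℓM A hA]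
    trivial
  obtain ⟨c, hc⟩ := (Submodule.mem_span_range_iff_exists_fun _).mp hz
  refine ⟨fun e => (c e : FN (ℓ * M)), fun e => (c e).2, ?_⟩
  rw [← hc]
  exact Finset.sum_congr rfl fun e _ => by rw [Algebra.smul_def]; rfl

omit [NeZero M] in
/-- The reductions of the first family lie in `F_k(M)`. -/
theorem zTo_famInf_mem (k : Type*) [Field k] [CharP k ℓ] {n : ℕ} (b : Fin n → LaurentSeries ℤ)
    (hb : ∀ i, b i ∈ Submonoid.closure (helper1595.genZ M)) (e : TwoIdx ℓ n) :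
    zTo k (famInf ℓ b e) ∈ modularFunctionFieldFullC k M := by
  rcases e with i | ⟨a, i⟩
  · exact zTo_mem_fullC k M (hb i)
  · rw [famInf_inr, map_mul, map_mul, zTo_kronInf, zero_mul, zero_mul]
    exact zero_mem _

/-- **Closed formula for the reduction at `∞`.**  If `f · Q(j) = ∑ P_e(j) · e_e` with `P_e, Q` in
`A[X]`, `Q̄ ≠ 0`, then `f` is Gauss-integral and
`red f = (∑ P̄_e(j̄) · red(e_e)) / Q̄(j̄)`, where `red(e_e) = zTo k (famInf e)`. -/
theorem gaussFRed_of_rel (P : TwoIdx ℓ (dedekindPsi M) → A[X]) (Q : A[X])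
    (hQ : Q.map (IsLocalRing.residue A) ≠ 0) (f : FN (ℓ * M))
    (hf : f * aeval (jBar (ℓ * M)) (Q.map A.subtype) =
      ∑ e, aeval (jBar (ℓ * M)) ((P e).map A.subtype) * twoBasis ℓ M hℓM e) :
    ∃ h : f ∈ vInf ℓ M A,
      helper8991.gaussFRed A (IsLocalRing.residue A) (ℓ * M) ⟨f, h⟩ =
        (∑ e, aeval (jqModC (IsLocalRing.ResidueField A)) ((P e).map (IsLocalRing.residue A)) *
            zTo (IsLocalRing.ResidueField A) (famInf ℓ (gaussBasis M ℓ hℓM) e)) /
          aeval (jqModC (IsLocalRing.ResidueField A)) (Q.map (IsLocalRing.residue A)) := by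
  have e1 : (f : LaurentSeries Kbar) * coeffMap A.subtype (aeval (jqModC A) Q) =
      coeffMap A.subtype
        (∑ e, aeval (jqModC A) (P e) * zTo A (famInf ℓ (gaussBasis M ℓ hℓM) e)) := by
    rw [← coe_mul_aeval_jBar, hf, coe_sum_aeval_twoBasis]
  have hmem : f ∈ vInf ℓ M A :=
    (helper8991.mem_gaussF_iff A (IsLocalRing.residue A) (ℓ * M) f).mpr
      ⟨_, _, residue_aeval_ne_zero A hQ, e1⟩
  refine ⟨hmem, ?_⟩
  rw [helper8991.gaussFRed_eq A (IsLocalRing.residue A) (ℓ * M) ⟨f, hmem⟩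
    (residue_aeval_ne_zero A hQ) e1]
  congr 1
  · show coeffMap (IsLocalRing.residue A) _ = _
    rw [map_sum]
    refine Finset.sum_congr rfl fun e _ => ?_
    rw [map_mul, coeffMap_aeval, coeffMap_jqModC, coeffMap_zTo]
  · show coeffMap (IsLocalRing.residue A) _ = _
    rw [coeffMap_aeval, coeffMap_jqModC]

/-- **Closed formula for the reduction at `0`.**  In the situation of `gaussFRed_of_rel`,
`W f` is Gauss-integral and `red (W f) = (∑ P̄_e(j̄(t^ℓ)) · red(W e_e)) / Q̄(j̄(t^ℓ))`, where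
`red(W e_e) = zTo k (famZero e)`. -/
theorem gaussFRed_wAL_of_rel (P : TwoIdx ℓ (dedekindPsi M) → A[X]) (Q : A[X])
    (hQ : Q.map (IsLocalRing.residue A) ≠ 0) (f : FN (ℓ * M))
    (hf : f * aeval (jBar (ℓ * M)) (Q.map A.subtype) =
      ∑ e, aeval (jBar (ℓ * M)) ((P e).map A.subtype) * twoBasis ℓ M hℓM e) :
    ∃ h : wAL ℓ M hℓM f ∈ vInf ℓ M A,
      helper8991.gaussFRed A (IsLocalRing.residue A) (ℓ * M) ⟨wAL ℓ M hℓM f, h⟩ =
        (∑ e, aeval (qExpand (IsLocalRing.ResidueField A) ℓ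
              (jqModC (IsLocalRing.ResidueField A))) ((P e).map (IsLocalRing.residue A)) *
            zTo (IsLocalRing.ResidueField A) (famZero ℓ (gaussBasis M ℓ hℓM) e)) /
          aeval (qExpand (IsLocalRing.ResidueField A) ℓ (jqModC (IsLocalRing.ResidueField A)))
            (Q.map (IsLocalRing.residue A)) := by
  have e2 : ((wAL ℓ M hℓM f : FN (ℓ * M)) : LaurentSeries Kbar) *
        coeffMap A.subtype (aeval (qExpand A ℓ (jqModC A)) Q) =
      coeffMap A.subtype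
        (∑ e, aeval (qExpand A ℓ (jqModC A)) (P e) *
          zTo A (famZero ℓ (gaussBasis M ℓ hℓM) e)) := by
    rw [← coe_wAL_mul_aeval_jBar, hf, coe_wAL_sum_aeval_twoBasis]
  have hmem : wAL ℓ M hℓM f ∈ vInf ℓ M A :=
    (helper8991.mem_gaussF_iff A (IsLocalRing.residue A) (ℓ * M) _).mpr
      ⟨_, _, residue_aeval_qExpand_ne_zero ℓ A hQ, e2⟩
  refine ⟨hmem, ?_⟩
  rw [helper8991.gaussFRed_eq A (IsLocalRing.residue A) (ℓ * M) ⟨wAL ℓ M hℓM f, hmem⟩
    (residue_aeval_qExpand_ne_zero ℓ A hQ) e2]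
  congr 1
  · show coeffMap (IsLocalRing.residue A) _ = _
    rw [map_sum]
    refine Finset.sum_congr rfl fun e _ => ?_
    rw [map_mul, coeffMap_aeval, coeffMap_qExpand, coeffMap_jqModC, coeffMap_zTo]
  · show coeffMap (IsLocalRing.residue A) _ = _
    rw [coeffMap_aeval, coeffMap_qExpand, coeffMap_jqModC]

include hℓM hA in
/-- **(RESFIELD)**  The Gauss reduction of every element of the Gauss ring of `F_{ℓ M}` lies in
`F_k(M) = modularFunctionFieldFullC k M`. -/
theorem gaussFRed_mem_fullC_level (f : ↥(vInf ℓ M A)) :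
    helper8991.gaussFRed A (IsLocalRing.residue A) (ℓ * M) f ∈
      modularFunctionFieldFullC (IsLocalRing.ResidueField A) M := by
  have hchar := charP_residueField ℓ A hA
  -- weak approximation: `z ≡ f` at `∞`, `z` integral at `0`
  obtain ⟨z, hz1, hz2⟩ := helper882.exists_approx (notLE_inf_zero ℓ M hℓM A hA)
    (notLE_zero_inf ℓ M hℓM A hA) (y := (f : FN (ℓ * M)))
    (((vInf ℓ M A).valuation_le_one_iff _).mpr f.2)
  have hzf : z - (f : FN (ℓ * M)) ∈ vInf ℓ M A :=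
    ((vInf ℓ M A).valuation_le_one_iff _).mp hz1.le
  have hzV : z ∈ vInf ℓ M A := by
    have := (vInf ℓ M A).add_mem _ _ hzf f.2
    rwa [sub_add_cancel] at this
  have hred : helper8991.gaussFRed A (IsLocalRing.residue A) (ℓ * M) ⟨z, hzV⟩ =
      helper8991.gaussFRed A (IsLocalRing.residue A) (ℓ * M) f := by
    have h0 : helper8991.gaussFRed A (IsLocalRing.residue A) (ℓ * M)
        (⟨z, hzV⟩ - f) = 0 := by
      rw [helper8991.gaussFRed_eq_zero_iff]
      exact (ValuationSubring.valuation_lt_one_iff (vInf ℓ M A) (⟨z, hzV⟩ - f)).mpr hz1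
    rw [map_sub, sub_eq_zero] at h0
    exact h0
  rw [← hred]
  obtain ⟨c, hc, hzc⟩ := exists_coeffs ℓ M hℓM A hA z
  have h1 : (vInf ℓ M A).valuation (∑ e, c e * twoBasis ℓ M hℓM e) ≤ 1 := by
    rw [← hzc]
    exact ((vInf ℓ M A).valuation_le_one_iff _).mpr hzV
  have h2 : (vInf ℓ M A).valuation (wAL ℓ M hℓM (∑ e, c e * twoBasis ℓ M hℓM e)) ≤ 1 := by
    rw [← hzc]
    exact hz2.le
  obtain ⟨S, R, hS, hR⟩ := exists_integral_form ℓ M hℓM A hA c hc h1 h2
  have hsum : z * aeval (jBar (ℓ * M)) (S.map A.subtype) =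
      ∑ e, aeval (jBar (ℓ * M)) ((R e).map A.subtype) * twoBasis ℓ M hℓM e := by
    rw [hzc, Finset.sum_mul]
    refine Finset.sum_congr rfl fun e _ => ?_
    rw [← hR e]
    ring
  obtain ⟨h, hform⟩ := gaussFRed_of_rel ℓ M hℓM A R S hS z hsum
  rw [hform]
  refine div_mem (sum_mem fun e _ => mul_mem ?_ ?_) ?_
  · exact aeval_mem_of_mem _ (jqModC_mem_full _ M) _
  · exact zTo_famInf_mem ℓ M _ _ (gaussBasis_mem M ℓ hℓM) e
  · exact aeval_mem_of_mem _ (jqModC_mem_full _ M) _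

/-! ### The same in the vocabulary of `helper882_GaussPair` -/

include hℓM hA in
/-- `(hrange)`, first form: the reduction `gpRho` of `helper882_GaussPair` at level `ℓ M` takes
its values in `F_k(M)` (for every `f`: it is `0` off the Gauss ring). -/
theorem gpRho_mem_fullC (f : FN (ℓ * M)) :
    helper882.gpRho A (ℓ * M) f ∈ modularFunctionFieldFullC (IsLocalRing.ResidueField A) M := by
  by_cases h : f ∈ helper882.gpRing A (ℓ * M)
  · rw [helper882.gpRho_of_mem A (ℓ * M) h]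
    exact gaussFRed_mem_fullC_level ℓ M hℓM A hA ⟨f, h⟩
  · unfold helper882.gpRho
    rw [dif_neg h]
    exact zero_mem _

include hℓM hA in
/-- `(hrange)`, pair form: both components of `gpRed f = (ρ f, ρ (W f))` lie in `F_k(M)`, for
any automorphism `W`. -/
theorem gpRed_mem_fullC (W : FN (ℓ * M) ≃ₐ[Kbar] FN (ℓ * M)) (f : FN (ℓ * M)) :
    (helper882.gpRed A (ℓ * M) W f).1 ∈
        modularFunctionFieldFullC (IsLocalRing.ResidueField A) M ∧
      (helper882.gpRed A (ℓ * M) W f).2 ∈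
        modularFunctionFieldFullC (IsLocalRing.ResidueField A) M :=
  ⟨gpRho_mem_fullC ℓ M hℓM A hA f, gpRho_mem_fullC ℓ M hℓM A hA (W f)⟩

/-- The product of the two `q`-expansion embeddings `F_k(M) × F_k(M) → k((t)) × k((t))` of the
function fields of the two components of the special fibre. -/
def fibreIncl (k : Type*) [Field k] (M : ℕ) :
    (↥(modularFunctionFieldFullC k M) × ↥(modularFunctionFieldFullC k M)) →ₐ[k]
      (LaurentSeries k × LaurentSeries k) :=
  AlgHom.prodMap (modularFunctionFieldFullC k M).val (modularFunctionFieldFullC k M).val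

theorem fibreIncl_apply (k : Type*) [Field k] (M : ℕ)
    (x : ↥(modularFunctionFieldFullC k M) × ↥(modularFunctionFieldFullC k M)) :
    fibreIncl k M x = ((x.1 : LaurentSeries k), (x.2 : LaurentSeries k)) := rfl

theorem fibreIncl_injective (k : Type*) [Field k] (M : ℕ) :
    Function.Injective (fibreIncl k M) := by
  rintro ⟨a, b⟩ ⟨a', b'⟩ h
  have h1 := congrArg Prod.fst h
  have h2 := congrArg Prod.snd h
  simp only [fibreIncl_apply] at h1 h2
  exact Prod.ext (Subtype.ext h1) (Subtype.ext h2)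

theorem mem_range_fibreIncl (k : Type*) [Field k] (M : ℕ)
    (y : LaurentSeries k × LaurentSeries k) :
    y ∈ Set.range (fibreIncl k M) ↔
      y.1 ∈ modularFunctionFieldFullC k M ∧ y.2 ∈ modularFunctionFieldFullC k M := by
  constructor
  · rintro ⟨x, rfl⟩
    exact ⟨x.1.2, x.2.2⟩
  · rintro ⟨h1, h2⟩
    exact ⟨(⟨y.1, h1⟩, ⟨y.2, h2⟩), rfl⟩

include hℓM hA in
/-- `(hrange)`, range form: `gpRed f ∈ range (F_k(M) × F_k(M) → k((t)) × k((t)))`. -/
theorem gpRed_mem_range (W : FN (ℓ * M) ≃ₐ[Kbar] FN (ℓ * M)) (f : FN (ℓ * M)) :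
    helper882.gpRed A (ℓ * M) W f ∈ Set.range (fibreIncl (IsLocalRing.ResidueField A) M) :=
  (mem_range_fibreIncl _ M _).mpr (gpRed_mem_fullC ℓ M hℓM A hA W f)

/-! ### Explicit reductions -/

omit [Fact ℓ.Prime] [NeZero M] in
/-- Reduction of a function with an `A`-integral expansion (any level). -/
theorem gpRho_of_coe (N : ℕ) (f : FN N) (X : LaurentSeries A)
    (h : (f : LaurentSeries Kbar) = coeffMap A.subtype X) :
    helper882.gpRho A N f = coeffMap (IsLocalRing.residue A) X := by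
  have e1 : (f : LaurentSeries Kbar) * coeffMap A.subtype (1 : LaurentSeries A) =
      coeffMap A.subtype X := by rw [map_one, mul_one, h]
  have h1 : coeffMap (IsLocalRing.residue A) (1 : LaurentSeries A) ≠ 0 := by
    rw [map_one]; exact one_ne_zero
  have hmem : f ∈ helper882.gpRing A N :=
    (helper8991.mem_gaussF_iff A (IsLocalRing.residue A) N f).mpr ⟨X, 1, h1, e1⟩
  rw [helper882.gpRho_of_mem A N hmem,
    helper8991.gaussFRed_eq A (IsLocalRing.residue A) N ⟨f, hmem⟩ h1 e1]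
  show coeffMap (IsLocalRing.residue A) X / coeffMap (IsLocalRing.residue A) 1 = _
  rw [map_one, div_one]

/-- Reduction at `∞` of the two-chart basis. -/
theorem gpRho_twoBasis (e : TwoIdx ℓ (dedekindPsi M)) :
    helper882.gpRho A (ℓ * M) (twoBasis ℓ M hℓM e) =
      zTo (IsLocalRing.ResidueField A) (famInf ℓ (gaussBasis M ℓ hℓM) e) := by
  rw [gpRho_of_coe A (ℓ * M) _ (zTo A (famInf ℓ (gaussBasis M ℓ hℓM) e))
    (by rw [coe_twoBasis, coeffMap_zTo]), coeffMap_zTo]

/-- Reduction at `0` of the two-chart basis. -/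
theorem gpRho_wAL_twoBasis (e : TwoIdx ℓ (dedekindPsi M)) :
    helper882.gpRho A (ℓ * M) (wAL ℓ M hℓM (twoBasis ℓ M hℓM e)) =
      zTo (IsLocalRing.ResidueField A) (famZero ℓ (gaussBasis M ℓ hℓM) e) := by
  rw [gpRho_of_coe A (ℓ * M) _ (zTo A (famZero ℓ (gaussBasis M ℓ hℓM) e))
    (by rw [coe_wAL_twoBasis, coeffMap_zTo]), coeffMap_zTo]

omit [Fact ℓ.Prime] [NeZero M] in
/-- Reduction at `∞` of a polynomial in `j` with coefficients in `A`. -/
theorem gpRho_aeval_jBar (P : A[X]) :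
    helper882.gpRho A (ℓ * M) (aeval (jBar (ℓ * M)) (P.map A.subtype)) =
      aeval (jqModC (IsLocalRing.ResidueField A)) (P.map (IsLocalRing.residue A)) := by
  rw [gpRho_of_coe A (ℓ * M) _ (aeval (jqModC A) P)
    (by rw [coe_aeval, coe_jBar_eq, coeffMap_aeval, coeffMap_jqModC]), coeffMap_aeval,
    coeffMap_jqModC]

/-- Reduction at `0` of a polynomial in `j` with coefficients in `A`: `j` reduces to
`j̄(t^ℓ)`. -/
theorem gpRho_wAL_aeval_jBar (P : A[X]) :
    helper882.gpRho A (ℓ * M) (wAL ℓ M hℓM (aeval (jBar (ℓ * M)) (P.map A.subtype))) =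
      aeval (qExpand (IsLocalRing.ResidueField A) ℓ (jqModC (IsLocalRing.ResidueField A)))
        (P.map (IsLocalRing.residue A)) := by
  rw [gpRho_of_coe A (ℓ * M) _ (aeval (qExpand A ℓ (jqModC A)) P)
    (by rw [wAL_aeval, coe_aeval, coe_wAL_jBar, coeffMap_aeval, coeffMap_qExpand,
      coeffMap_jqModC]), coeffMap_aeval, coeffMap_qExpand, coeffMap_jqModC]

/-- Closed formula for `gpRho f`, `f · Q(j) = ∑ P_e(j) · e_e`. -/
theorem gpRho_of_rel (P : TwoIdx ℓ (dedekindPsi M) → A[X]) (Q : A[X])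
    (hQ : Q.map (IsLocalRing.residue A) ≠ 0) (f : FN (ℓ * M))
    (hf : f * aeval (jBar (ℓ * M)) (Q.map A.subtype) =
      ∑ e, aeval (jBar (ℓ * M)) ((P e).map A.subtype) * twoBasis ℓ M hℓM e) :
    helper882.gpRho A (ℓ * M) f =
      (∑ e, aeval (jqModC (IsLocalRing.ResidueField A)) ((P e).map (IsLocalRing.residue A)) *
          zTo (IsLocalRing.ResidueField A) (famInf ℓ (gaussBasis M ℓ hℓM) e)) /
        aeval (jqModC (IsLocalRing.ResidueField A)) (Q.map (IsLocalRing.residue A)) := by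
  obtain ⟨h, hform⟩ := gaussFRed_of_rel ℓ M hℓM A P Q hQ f hf
  rw [helper882.gpRho_of_mem A (ℓ * M) h, hform]

/-- Closed formula for `gpRho (W f)`, `f · Q(j) = ∑ P_e(j) · e_e`. -/
theorem gpRho_wAL_of_rel (P : TwoIdx ℓ (dedekindPsi M) → A[X]) (Q : A[X])
    (hQ : Q.map (IsLocalRing.residue A) ≠ 0) (f : FN (ℓ * M))
    (hf : f * aeval (jBar (ℓ * M)) (Q.map A.subtype) =
      ∑ e, aeval (jBar (ℓ * M)) ((P e).map A.subtype) * twoBasis ℓ M hℓM e) :
    helper882.gpRho A (ℓ * M) (wAL ℓ M hℓM f) =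
      (∑ e, aeval (qExpand (IsLocalRing.ResidueField A) ℓ
            (jqModC (IsLocalRing.ResidueField A))) ((P e).map (IsLocalRing.residue A)) *
          zTo (IsLocalRing.ResidueField A) (famZero ℓ (gaussBasis M ℓ hℓM) e)) /
        aeval (qExpand (IsLocalRing.ResidueField A) ℓ (jqModC (IsLocalRing.ResidueField A)))
          (Q.map (IsLocalRing.residue A)) := by
  obtain ⟨h, hform⟩ := gaussFRed_wAL_of_rel ℓ M hℓM A P Q hQ f hf
  rw [helper882.gpRho_of_mem A (ℓ * M) h, hform]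

include hA in
/-- Every element of the two-chart ball `V ∩ W V` has the normal form of `gpRho_of_rel`. -/
theorem exists_rel_of_mem (f : FN (ℓ * M)) (h1 : (vInf ℓ M A).valuation f ≤ 1)
    (h2 : (vInf ℓ M A).valuation (wAL ℓ M hℓM f) ≤ 1) :
    ∃ (P : TwoIdx ℓ (dedekindPsi M) → A[X]) (Q : A[X]), Q.map (IsLocalRing.residue A) ≠ 0 ∧
      f * aeval (jBar (ℓ * M)) (Q.map A.subtype) =
        ∑ e, aeval (jBar (ℓ * M)) ((P e).map A.subtype) * twoBasis ℓ M hℓM e := by
  obtain ⟨c, hc, hzc⟩ := exists_coeffs ℓ M hℓM A hA f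
  obtain ⟨S, R, hS, hR⟩ := exists_integral_form ℓ M hℓM A hA c hc (by rw [← hzc]; exact h1)
    (by rw [← hzc]; exact h2)
  refine ⟨R, S, hS, ?_⟩
  rw [hzc, Finset.sum_mul]
  refine Finset.sum_congr rfl fun e _ => ?_
  rw [← hR e]
  ring

/-! ### `F_k(ℓ M) = F_k(M)` in characteristic `ℓ`, and the exact residue field -/

omit [NeZero M] in
/-- In characteristic `ℓ` the level-`ℓ M` field of `q`-expansions is the level-`M` one:
`j̄(t^(ℓ d)) = j̄(t^d)^ℓ`. -/
theorem fullC_mul_eq (k : Type*) [Field k] [CharP k ℓ] :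
    modularFunctionFieldFullC k (ℓ * M) = modularFunctionFieldFullC k M := by
  have hℓ : ℓ.Prime := Fact.out
  have : ExpChar k ℓ := ExpChar.prime hℓ
  apply le_antisymm
  · rw [modularFunctionFieldFullC, IntermediateField.adjoin_le_iff]
    rintro _ ⟨d, hd, hdN, rfl⟩
    by_cases hℓd : ℓ ∣ d
    · obtain ⟨d', rfl⟩ := hℓd
      have hd' : d' ∣ M := (Nat.mul_dvd_mul_iff_left hℓ.pos).mp hdN
      have hd'0 : NeZero d' := ⟨fun h0 => hd.out (by rw [h0, mul_zero])⟩
      have e : qExpand k (ℓ * d') (jqModC k) = qExpand k d' (jqModC k) ^ ℓ := by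
        rw [← qExpand_qExpand, ← zTo_jqModC k, ← zTo_qExpand, zTo_pow_char]
      rw [SetLike.mem_coe, e]
      exact pow_mem (jqModCd_mem_full k M hd') ℓ
    · have hcop : Nat.Coprime d ℓ := ((Nat.Prime.coprime_iff_not_dvd hℓ).mpr hℓd).symm
      exact jqModCd_mem_full k M (hcop.dvd_of_dvd_mul_left hdN)
  · rw [modularFunctionFieldFullC, IntermediateField.adjoin_le_iff]
    rintro _ ⟨d, hd, hdN, rfl⟩
    exact jqModCd_mem_full k (ℓ * M) (Dvd.dvd.mul_left hdN ℓ)

include hℓM hA in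
/-- **The residue field of the Gauss valuation of `F_{ℓ M}` is exactly `F_k(M)`.** -/
theorem range_gaussFRed :
    Set.range (helper8991.gaussFRed A (IsLocalRing.residue A) (ℓ * M)) =
      (modularFunctionFieldFullC (IsLocalRing.ResidueField A) M : Set _) := by
  have hchar := charP_residueField ℓ A hA
  ext x
  constructor
  · rintro ⟨f, rfl⟩
    exact gaussFRed_mem_fullC_level ℓ M hℓM A hA f
  · intro hx
    rw [SetLike.mem_coe, ← fullC_mul_eq ℓ M (IsLocalRing.ResidueField A)] at hx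
    exact helper8991.exists_gaussFRed_eq A (IsLocalRing.residue A) (ℓ * M)
      IsLocalRing.residue_surjective hx

/-! ### The reductions of the two families, simplified -/

omit [NeZero M] in
theorem zTo_famInf_inl (k : Type*) [CommRing k] {n : ℕ} (b : Fin n → LaurentSeries ℤ)
    (i : Fin n) : zTo k (famInf ℓ b (Sum.inl i)) = zTo k (b i) := rfl

omit [NeZero M] in
theorem zTo_famInf_inr (k : Type*) [Field k] [CharP k ℓ] {n : ℕ} (b : Fin n → LaurentSeries ℤ)
    (a : Fin ℓ) (i : Fin n) : zTo k (famInf ℓ b (Sum.inr (a, i))) = 0 := by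
  rw [famInf_inr, map_mul, map_mul, zTo_kronInf, zero_mul, zero_mul]

omit [NeZero M] in
theorem zTo_famZero_inl (k : Type*) [Field k] [CharP k ℓ] {n : ℕ} (b : Fin n → LaurentSeries ℤ)
    (i : Fin n) : zTo k (famZero ℓ b (Sum.inl i)) = zTo k (b i) ^ ℓ := by
  have : ExpChar k ℓ := ExpChar.prime Fact.out
  rw [famZero_inl, zTo_qExpand, zTo_pow_char]

omit [NeZero M] in
theorem zTo_famZero_inr (k : Type*) [Field k] [CharP k ℓ] {n : ℕ} (b : Fin n → LaurentSeries ℤ)
    (a : Fin ℓ) (i : Fin n) :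
    zTo k (famZero ℓ b (Sum.inr (a, i))) =
      (jqModC k - jqModC k ^ (ℓ ^ 2)) * jqModC k ^ (a : ℕ) * zTo k (b i) := by
  rw [famZero_inr, map_mul, map_mul, zTo_kronZero, map_pow, zTo_jqModC]

end ResField

/-! ### The `helper1024_TwoVal` form: `IsCartesian`, the basis, integrality of `V ∩ W V` -/

section Cartesian

/-- The maximal ideal of a comap valuation ring. -/
theorem mem_nonunits_comap_iff {E F : Type*} [Field E] [Field F] (V : ValuationSubring F)
    (φ : E →+* F) (x : E) : x ∈ (V.comap φ).nonunits ↔ φ x ∈ V.nonunits := by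
  rw [ValuationSubring.mem_nonunits_iff_or, ValuationSubring.mem_nonunits_iff_or,
    ValuationSubring.mem_comap, map_inv₀, map_eq_zero]

variable (ℓ M : ℕ) [Fact ℓ.Prime] [NeZero M] (hℓM : ¬ ℓ ∣ M) (A : ValuationSubring Kbar)
  (hA : (ℓ : Kbar) ∈ A.nonunits)

/-- The Gauss ring of `ℚ̄(j)`: the trace of the Gauss ring of `F_{ℓ M}`. -/
abbrev vBase : ValuationSubring (↥Kbar⟮jBar (ℓ * M)⟯) :=
  (vInf ℓ M A).comap (algebraMap (↥Kbar⟮jBar (ℓ * M)⟯) (FN (ℓ * M)))

omit [Fact ℓ.Prime] [NeZero M] in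
theorem mem_vBase_iff (c : ↥Kbar⟮jBar (ℓ * M)⟯) :
    c ∈ vBase ℓ M A ↔ (vInf ℓ M A).valuation (c : FN (ℓ * M)) ≤ 1 := by
  rw [(vInf ℓ M A).valuation_le_one_iff]
  rfl

omit [Fact ℓ.Prime] [NeZero M] in
theorem mem_nonunits_vBase_iff (c : ↥Kbar⟮jBar (ℓ * M)⟯) :
    c ∈ (vBase ℓ M A).nonunits ↔ (vInf ℓ M A).valuation (c : FN (ℓ * M)) < 1 := by
  rw [mem_nonunits_comap_iff, (vInf ℓ M A).mem_nonunits_iff]
  rfl

/-- The second Gauss ring `V₂ = W⁻¹ V` also lies over the Gauss ring of `ℚ̄(j)`. -/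
theorem comap_gpRingW :
    (helper882.gpRingW A (ℓ * M) (wAL ℓ M hℓM)).comap
        (algebraMap (↥Kbar⟮jBar (ℓ * M)⟯) (FN (ℓ * M))) = vBase ℓ M A := by
  ext c
  rw [ValuationSubring.mem_comap, ValuationSubring.mem_comap, ValuationSubring.mem_comap,
    ← (vInf ℓ M A).valuation_le_one_iff, ← (vInf ℓ M A).valuation_le_one_iff]
  show (vInf ℓ M A).valuation (wAL ℓ M hℓM (c : FN (ℓ * M))) ≤ 1 ↔ _
  rw [val_wAL_of_mem_adjoin ℓ M hℓM A c.2]
  rfl

include hA in
/-- **The two-chart basis is cartesian** for `(V, W⁻¹ V)` over the Gauss ring of `ℚ̄(j)`, in the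
vocabulary of `helper1024_TwoVal`. -/
theorem isCartesian_twoBasis :
    helper1024.IsCartesian (vBase ℓ M A) (vInf ℓ M A)
      (helper882.gpRingW A (ℓ * M) (wAL ℓ M hℓM)) 1 (twoBasis ℓ M hℓM) := by
  have e : ∀ a : TwoIdx ℓ (dedekindPsi M) → ↥Kbar⟮jBar (ℓ * M)⟯,
      ∑ k, a k • twoBasis ℓ M hℓM k = ∑ k, (a k : FN (ℓ * M)) * twoBasis ℓ M hℓM k :=
    fun a => Finset.sum_congr rfl fun k _ => by rw [Algebra.smul_def]; rfl
  constructor
  · intro a
    rw [helper1024.mem_twBall_iff, div_one, e a, ← (vInf ℓ M A).valuation_le_one_iff]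
    have h2 : (∑ k, (a k : FN (ℓ * M)) * twoBasis ℓ M hℓM k) ∈
        helper882.gpRingW A (ℓ * M) (wAL ℓ M hℓM) ↔
        (vInf ℓ M A).valuation (wAL ℓ M hℓM (∑ k, (a k : FN (ℓ * M)) * twoBasis ℓ M hℓM k))
          ≤ 1 := by
      rw [(vInf ℓ M A).valuation_le_one_iff]
      rfl
    rw [h2, twoChart_le_one ℓ M hℓM A hA (fun k => (a k : FN (ℓ * M))) (fun k => (a k).2)]
    exact forall_congr' fun k => (mem_vBase_iff ℓ M A (a k)).symm
  · intro a
    rw [helper1024.mem_twOpenBall_iff, div_one, e a, (vInf ℓ M A).mem_nonunits_iff,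
      ValuationSubring.mem_nonunits_iff, helper882.gpRingW_valuation_lt_one_iff,
      twoChart_lt_one ℓ M hℓM A hA (fun k => (a k : FN (ℓ * M))) (fun k => (a k).2)]
    exact forall_congr' fun k => (mem_nonunits_vBase_iff ℓ M A (a k)).symm

include hA in
/-- The two-chart basis as a `Module.Basis` of `F_{ℓ M}` over `ℚ̄(j)`. -/
def twoBasisE : Module.Basis (TwoIdx ℓ (dedekindPsi M)) (↥Kbar⟮jBar (ℓ * M)⟯) (FN (ℓ * M)) :=
  Module.Basis.mk (isCartesian_twoBasis ℓ M hℓM A hA).linearIndependent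
    (span_twoBasis ℓ M hℓM A hA).ge

theorem coe_twoBasisE : ⇑(twoBasisE ℓ M hℓM A hA) = twoBasis ℓ M hℓM :=
  Module.Basis.coe_mk _ _

theorem isCartesian_twoBasisE :
    helper1024.IsCartesian (vBase ℓ M A) (vInf ℓ M A)
      (helper882.gpRingW A (ℓ * M) (wAL ℓ M hℓM)) 1 (twoBasisE ℓ M hℓM A hA) := by
  rw [coe_twoBasisE]
  exact isCartesian_twoBasis ℓ M hℓM A hA

include hA in
/-- **(T4) at level `ℓ M`.**  Every element of `V ∩ W⁻¹ V` is a root of a monic polynomial whose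
coefficients are Gauss-integral elements of `ℚ̄(j)` (the characteristic polynomial of the
multiplication in the cartesian basis). -/
theorem exists_monic_of_mem {z : FN (ℓ * M)} (hz₁ : z ∈ vInf ℓ M A)
    (hz₂ : z ∈ helper882.gpRingW A (ℓ * M) (wAL ℓ M hℓM)) :
    ∃ p : (FN (ℓ * M))[X], p.Monic ∧ (∀ i, p.coeff i ∈ vInf ℓ M A) ∧
      (∀ i, p.coeff i ∈ Kbar⟮jBar (ℓ * M)⟯) ∧ aeval z p = 0 := by
  classical
  set 𝔟 := twoBasisE ℓ M hℓM A hA with h𝔟
  have he := isCartesian_twoBasisE ℓ M hℓM A hA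
  refine ⟨(Algebra.leftMulMatrix 𝔟 z).charpoly.map
      (algebraMap (↥Kbar⟮jBar (ℓ * M)⟯) (FN (ℓ * M))),
    (Matrix.charpoly_monic _).map _, fun i => ?_, fun i => ?_, ?_⟩
  · rw [coeff_map]
    exact he.charpoly_coeff_mem 𝔟 hz₁ hz₂ i
  · rw [coeff_map]
    exact ((Algebra.leftMulMatrix 𝔟 z).charpoly.coeff i).2
  · rw [aeval_map_algebraMap]
    apply Algebra.leftMulMatrix_injective 𝔟
    rw [map_zero, ← Polynomial.aeval_algHom_apply, Matrix.aeval_self_charpoly]

end Cartesian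

end Fermat.Agent.S35.helper1928
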