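import Fermat.Agent.S18.helper508_GaussMod
import Fermat.Agent.S18.helper8991_GaussInst
import Fermat.Agent.S37.helper5666_KroneckerSeries
import Fermat.Agent.S35.helper1219_AtkinLehnerFF

/-!
# S35/S34 TWOVAL-MOD (helper1928): the two-chart Gauss basis at a prime `ℓ ∥ M ℓ`

`ℓ` a prime, `b : Fin n → ℤ((t))` a family whose reductions mod `ℓ` are linearly independent over
`𝔽_ℓ[j̄]` (application: the S28 / GAUSSMOD basis of level `M`, `ℓ ∤ M`, `n = ψ(M)`).

The function field of level `M ℓ` has two "charts": the standard expansion at `∞` and the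
expansion composed with the Atkin–Lehner involution `W_ℓ` (`j(t^d) ↦ j(t^(d ℓ))`,
`j(t^(d ℓ)) ↦ j(t^d)` for `d ∣ M`).  The `(ℓ + 1) n` functions

* `b i` (chart `∞`: `b i`, chart `0`: `b i (t^ℓ)`),
* `Y · j_ℓ^a · b i (t^ℓ)`, `a < ℓ`, `Y = j(t^ℓ) - j(t)^ℓ`
  (chart `∞`: the same, `≡ 0` mod `ℓ` by Kronecker; chart `0`: `(j - j_ℓ^ℓ) · j^a · b i`)

have *jointly* independent reductions (`twoChart_indep`): this is the explicit orthonormal basis of
`F_{M ℓ}` for the maximum of the two Gauss norms.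
-/

set_option autoImplicit false

noncomputable section

namespace Fermat.Agent.S35.helper1928

open ModularCurve Polynomial
open Fermat.Agent.S28
open Fermat.Agent.S18.helper508

/-! ### Frobenius on integer series -/

section Frobenius

theorem zTo_qExpand (R : Type*) [CommRing R] (d : ℕ) [NeZero d] (x : LaurentSeries ℤ) :
    zTo R (qExpand ℤ d x) = qExpand R d (zTo R x) :=
  coeffMap_qExpand _ d x

/-- In characteristic `ℓ`, the `ℓ`-th power of the reduction of an integer series `x(t)` is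
`x(t^ℓ)`. -/
theorem zTo_pow_char (k : Type*) [CommRing k] (ℓ : ℕ) [NeZero ℓ] [ExpChar k ℓ]
    (x : LaurentSeries ℤ) : zTo k x ^ ℓ = qExpand k ℓ (zTo k x) := by
  rw [Fermat.Agent.S37.helper5666.pow_expChar_eq_qExpand k ℓ (zTo k x), coeffMap_zTo]

end Frobenius

/-! ### The two-chart family -/

section Family

variable (ℓ : ℕ) [NeZero ℓ] {n : ℕ} (b : Fin n → LaurentSeries ℤ)

/-- Index type of the two-chart family: `n + ℓ n` elements. -/
abbrev TwoIdx (ℓ n : ℕ) : Type := Fin n ⊕ (Fin ℓ × Fin n)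

/-- Kronecker's element `Y = j(t^ℓ) - j(t)^ℓ`, in the chart `∞`. -/
def kronInf : LaurentSeries ℤ := qExpand ℤ ℓ (jqModC ℤ) - jqModC ℤ ^ ℓ

/-- Kronecker's element in the chart `0`: `j(t) - j(t^ℓ)^ℓ`. -/
def kronZero : LaurentSeries ℤ := jqModC ℤ - qExpand ℤ ℓ (jqModC ℤ) ^ ℓ

/-- The two-chart family, expansions in the chart `∞`. -/
def famInf : TwoIdx ℓ n → LaurentSeries ℤ
  | Sum.inl i => b i
  | Sum.inr (a, i) => kronInf ℓ * qExpand ℤ ℓ (jqModC ℤ) ^ (a : ℕ) * qExpand ℤ ℓ (b i)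

/-- The two-chart family, expansions in the chart `0` (after the Atkin–Lehner involution). -/
def famZero : TwoIdx ℓ n → LaurentSeries ℤ
  | Sum.inl i => qExpand ℤ ℓ (b i)
  | Sum.inr (a, i) => kronZero ℓ * jqModC ℤ ^ (a : ℕ) * b i

@[simp] theorem famInf_inl (i : Fin n) : famInf ℓ b (Sum.inl i) = b i := rfl

@[simp] theorem famInf_inr (a : Fin ℓ) (i : Fin n) :
    famInf ℓ b (Sum.inr (a, i)) =
      kronInf ℓ * qExpand ℤ ℓ (jqModC ℤ) ^ (a : ℕ) * qExpand ℤ ℓ (b i) := rfl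

@[simp] theorem famZero_inl (i : Fin n) : famZero ℓ b (Sum.inl i) = qExpand ℤ ℓ (b i) := rfl

@[simp] theorem famZero_inr (a : Fin ℓ) (i : Fin n) :
    famZero ℓ b (Sum.inr (a, i)) = kronZero ℓ * jqModC ℤ ^ (a : ℕ) * b i := rfl

end Family

/-! ### Joint independence of the reductions -/

section Indep

variable (ℓ : ℕ) [Fact ℓ.Prime] {n : ℕ} (b : Fin n → LaurentSeries ℤ)

/-- **Kronecker's congruence**: the element `Y = j(t^ℓ) - j(t)^ℓ` vanishes mod `ℓ`. -/
theorem zTo_kronInf (k : Type*) [Field k] [CharP k ℓ] : zTo k (kronInf ℓ) = 0 := by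
  have : ExpChar k ℓ := ExpChar.prime Fact.out
  rw [kronInf, map_sub, map_pow, zTo_qExpand, zTo_pow_char, sub_self]

/-- In the chart `0`, `Y` reduces to `j̄ - j̄^(ℓ²)`. -/
theorem zTo_kronZero (k : Type*) [Field k] [CharP k ℓ] :
    zTo k (kronZero ℓ) = jqModC k - jqModC k ^ (ℓ ^ 2) := by
  have : ExpChar k ℓ := ExpChar.prime Fact.out
  rw [kronZero, map_sub, map_pow, zTo_qExpand, ← zTo_pow_char, ← pow_mul, zTo_jqModC, pow_two]

theorem jq_sub_pow_ne_zero (k : Type*) [Field k] : jqModC k - jqModC k ^ (ℓ ^ 2) ≠ 0 := by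
  have hℓ : ℓ.Prime := Fact.out
  have hX : (X - X ^ (ℓ ^ 2) : k[X]) ≠ 0 := by
    intro h0
    have h1 := congrArg (fun p : k[X] => p.coeff 1) h0
    have hne : (1 : ℕ) ≠ ℓ ^ 2 := by
      have := hℓ.one_lt
      nlinarith
    simp only [coeff_sub, coeff_X_one, coeff_X_pow, if_neg hne, sub_zero, coeff_zero] at h1
    exact one_ne_zero h1
  have h2 := aeval_jqModC_ne_zero hX
  simpa using h2

/-- Chart `∞` half of the independence: a relation among the reductions of `famInf` forces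
the `inl` coefficients to vanish. -/
theorem indep_inl (hb : Spec.LinIndepModL ℓ b) (k : Type*) [Field k] [CharP k ℓ]
    (c : TwoIdx ℓ n → k[X])
    (h1 : ∑ e, aeval (jqModC k) (c e) * zTo k (famInf ℓ b e) = 0) :
    ∀ i, c (Sum.inl i) = 0 := by
  classical
  have h := h1
  rw [Fintype.sum_sum_type] at h
  have hz : ∑ x : Fin ℓ × Fin n,
      aeval (jqModC k) (c (Sum.inr x)) * zTo k (famInf ℓ b (Sum.inr x)) = 0 := by
    refine Finset.sum_eq_zero fun x _ => ?_
    obtain ⟨a, i⟩ := x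
    rw [famInf_inr, map_mul, map_mul, zTo_kronInf, zero_mul, zero_mul, mul_zero]
  rw [hz, add_zero] at h
  have h' := linIndep_extend b hb k (fun i => c (Sum.inl i)) h
  exact fun i => congrFun h' i

/-- Chart `0` half of the independence: once the `inl` coefficients vanish, a relation among
the reductions of `famZero` forces all coefficients to vanish. -/
theorem indep_inr (hb : Spec.LinIndepModL ℓ b) (k : Type*) [Field k] [CharP k ℓ]
    (c : TwoIdx ℓ n → k[X]) (hinl : ∀ i, c (Sum.inl i) = 0)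
    (h2 : ∑ e, aeval (qExpand k ℓ (jqModC k)) (c e) * zTo k (famZero ℓ b e) = 0) : c = 0 := by
  classical
  have hℓ : ℓ.Prime := Fact.out
  have : ExpChar k ℓ := ExpChar.prime hℓ
  set J := jqModC k with hJ
  have hJ' : zTo k (jqModC ℤ) = J := zTo_jqModC k
  have hfr : qExpand k ℓ J = J ^ ℓ := by rw [← hJ', zTo_pow_char]
  have h := h2
  rw [Fintype.sum_sum_type] at h
  have hz : ∑ i : Fin n,
      aeval (qExpand k ℓ J) (c (Sum.inl i)) * zTo k (famZero ℓ b (Sum.inl i)) = 0 := by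
    refine Finset.sum_eq_zero fun i _ => ?_
    rw [hinl i, map_zero, zero_mul]
  rw [hz, zero_add, Fintype.sum_prod_type] at h
  have hterm : ∀ (a : Fin ℓ) (i : Fin n),
      aeval (qExpand k ℓ J) (c (Sum.inr (a, i))) * zTo k (famZero ℓ b (Sum.inr (a, i))) =
        (J - J ^ (ℓ ^ 2)) *
          (aeval J (expand k ℓ (c (Sum.inr (a, i))) * X ^ (a : ℕ)) * zTo k (b i)) := by
    intro a i
    rw [famZero_inr, map_mul, map_mul, map_pow, hJ', zTo_kronZero, hfr, ← expand_aeval, map_mul,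
      map_pow, aeval_X]
    ring
  have hsum : (J - J ^ (ℓ ^ 2)) * ∑ i : Fin n,
      aeval J (∑ a : Fin ℓ, expand k ℓ (c (Sum.inr (a, i))) * X ^ (a : ℕ)) * zTo k (b i) = 0 := by
    rw [← h, Finset.mul_sum, Finset.sum_comm]
    refine Finset.sum_congr rfl fun i _ => ?_
    rw [map_sum, Finset.sum_mul, Finset.mul_sum]
    exact Finset.sum_congr rfl fun a _ => (hterm a i).symm
  have hd := linIndep_extend b hb k _
    ((mul_eq_zero.mp hsum).resolve_left (jq_sub_pow_ne_zero ℓ k))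
  funext e
  rcases e with i | ⟨a, i⟩
  · exact hinl i
  · ext m
    have h3 := congrArg (fun p : k[X] => p.coeff (ℓ * m + a)) (congrFun hd i)
    simp only [Pi.zero_apply, coeff_zero, finsetSum_coeff] at h3
    rw [Finset.sum_eq_single a] at h3
    · rw [coeff_mul_X_pow', if_pos (Nat.le_add_left _ _), Nat.add_sub_cancel,
        coeff_expand hℓ.pos, if_pos (dvd_mul_right _ _), Nat.mul_div_cancel_left _ hℓ.pos] at h3
      simpa using h3
    · intro a' _ ha'
      rw [coeff_mul_X_pow']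
      split_ifs with hle
      · rw [coeff_expand hℓ.pos, if_neg]
        rintro ⟨r, hr⟩
        apply ha'
        apply Fin.ext
        have e1 : ℓ * m + (a : ℕ) = ℓ * r + (a' : ℕ) := by omega
        have e2 := congrArg (· % ℓ) e1
        simp only [Nat.mul_add_mod] at e2
        rw [Nat.mod_eq_of_lt a.2, Nat.mod_eq_of_lt a'.2] at e2
        exact e2.symm
      · rfl
    · intro h; exact absurd (Finset.mem_univ a) h

/-- **Two-chart independence.**  If the reductions of the `b i` mod `ℓ` are linearly independent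
over `𝔽_ℓ[j̄]`, then for every field `k` of characteristic `ℓ` the pairs of reductions
`(famInf e, famZero e)` of the two-chart family are linearly independent over `k[X]`, where `X`
acts as `j̄` in the chart `∞` and as `j̄(t^ℓ) = j̄^ℓ` in the chart `0`. -/
theorem twoChart_indep (hb : Spec.LinIndepModL ℓ b) (k : Type*) [Field k] [CharP k ℓ]
    (c : TwoIdx ℓ n → k[X])
    (h1 : ∑ e, aeval (jqModC k) (c e) * zTo k (famInf ℓ b e) = 0)
    (h2 : ∑ e, aeval (qExpand k ℓ (jqModC k)) (c e) * zTo k (famZero ℓ b e) = 0) : c = 0 :=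
  indep_inr ℓ b hb k c (indep_inl ℓ b hb k c h1) h2

end Indep

/-! ### The Atkin–Lehner involution on integer expansions -/

section ALRel

open Fermat.Agent.S24.helper24

variable (ℓ M : ℕ) [NeZero ℓ] [NeZero M] (hcop : Nat.Coprime ℓ M)

/-- `W_ℓ` maps a function of `F_{ℓ M}` with `t`-expansion `x` to a function with `t`-expansion `y`
(`x`, `y` integer series). -/
def ALRel (x y : LaurentSeries ℤ) : Prop :=
  ∃ f : FN (ℓ * M), (f : LaurentSeries Kbar) = zTo Kbar x ∧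
    ((Fermat.Agent.S35.helper1219.atkinLehnerBar ℓ M hcop f : FN (ℓ * M)) : LaurentSeries Kbar) =
      zTo Kbar y

variable {ℓ M hcop}

theorem ALRel.symm {x y : LaurentSeries ℤ} (h : ALRel ℓ M hcop x y) : ALRel ℓ M hcop y x := by
  obtain ⟨f, h1, h2⟩ := h
  exact ⟨_, h2, by rw [Fermat.Agent.S35.helper1219.atkinLehnerBar_atkinLehnerBar, h1]⟩

theorem ALRel.one : ALRel ℓ M hcop 1 1 :=
  ⟨1, by rw [map_one]; rfl, by rw [map_one, map_one]; rfl⟩

theorem ALRel.mul {x y x' y' : LaurentSeries ℤ} (h : ALRel ℓ M hcop x y)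
    (h' : ALRel ℓ M hcop x' y') : ALRel ℓ M hcop (x * x') (y * y') := by
  obtain ⟨f, h1, h2⟩ := h
  obtain ⟨f', h1', h2'⟩ := h'
  refine ⟨f * f', ?_, ?_⟩
  · rw [map_mul, ← h1, ← h1']; rfl
  · rw [map_mul, map_mul, ← h2, ← h2']; rfl

theorem ALRel.sub {x y x' y' : LaurentSeries ℤ} (h : ALRel ℓ M hcop x y)
    (h' : ALRel ℓ M hcop x' y') : ALRel ℓ M hcop (x - x') (y - y') := by
  obtain ⟨f, h1, h2⟩ := h
  obtain ⟨f', h1', h2'⟩ := h'
  refine ⟨f - f', ?_, ?_⟩
  · rw [map_sub, ← h1, ← h1']; rfl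
  · rw [map_sub, map_sub, ← h2, ← h2']; rfl

theorem ALRel.pow {x y : LaurentSeries ℤ} (h : ALRel ℓ M hcop x y) (n : ℕ) :
    ALRel ℓ M hcop (x ^ n) (y ^ n) := by
  induction n with
  | zero => rw [pow_zero, pow_zero]; exact ALRel.one
  | succ n ih => rw [pow_succ, pow_succ]; exact ih.mul h

theorem zTo_jq_eq_jSeries (d : ℕ) [NeZero d] :
    zTo Kbar (qExpand ℤ d (jqModC ℤ)) = jSeries d := by
  rw [zTo_qExpand, zTo_jqModC, jSeries, Fermat.Agent.S18.helper8991.coeffEmb_qExpand_jq]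

theorem ALRel_gen {d : ℕ} [NeZero d] [NeZero (ℓ * d)] (hd : d ∣ M) :
    ALRel ℓ M hcop (qExpand ℤ d (jqModC ℤ)) (qExpand ℤ (ℓ * d) (jqModC ℤ)) := by
  refine ⟨jBarD (ℓ * M) d (hd.mul_left ℓ), (zTo_jq_eq_jSeries d).symm, ?_⟩
  rw [Fermat.Agent.S35.helper1219.atkinLehnerBar_jBarD_cofactor ℓ M hcop hd]
  exact (zTo_jq_eq_jSeries (ℓ * d)).symm

theorem ALRel_closure {x : LaurentSeries ℤ}
    (hx : x ∈ Submonoid.closure (helper1595.genZ M)) :
    ALRel ℓ M hcop x (qExpand ℤ ℓ x) := by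
  induction hx using Submonoid.closure_induction with
  | mem x hx =>
    obtain ⟨d, hd, hdM, rfl⟩ := hx
    have := hd
    rw [qExpand_qExpand]
    exact ALRel_gen hdM
  | one => rw [map_one]; exact ALRel.one
  | mul x y _ _ hx hy => rw [map_mul]; exact hx.mul hy

theorem ALRel_j : ALRel ℓ M hcop (jqModC ℤ) (qExpand ℤ ℓ (jqModC ℤ)) := by
  have h := ALRel_gen (ℓ := ℓ) (M := M) (hcop := hcop) (d := 1) (one_dvd M)
  rw [qExpand_one_apply, qExpand_congr (mul_one ℓ)] at h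
  exact h

theorem ALRel_kron : ALRel ℓ M hcop (kronInf ℓ) (kronZero ℓ) :=
  (ALRel_j.symm).sub (ALRel_j.pow ℓ)

/-- The two-chart family is a family of functions of `F_{ℓ M}`: `famInf` are the expansions at
`∞`, `famZero` the expansions of the Atkin–Lehner transforms. -/
theorem ALRel_fam {n : ℕ} (b : Fin n → LaurentSeries ℤ)
    (hb : ∀ i, b i ∈ Submonoid.closure (helper1595.genZ M)) (e : TwoIdx ℓ n) :
    ALRel ℓ M hcop (famInf ℓ b e) (famZero ℓ b e) := by
  rcases e with i | ⟨a, i⟩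
  · exact ALRel_closure (hb i)
  · exact (ALRel_kron.mul (ALRel_j.symm.pow a)).mul (ALRel_closure (hb i)).symm

end ALRel

/-! ### Generic series facts -/

section SeriesFacts

theorem coeffMap_aeval {R S : Type*} [CommRing R] [CommRing S] (f : R →+* S)
    (x : LaurentSeries R) (p : R[X]) :
    coeffMap f (aeval x p) = aeval (coeffMap f x) (p.map f) := by
  rw [Polynomial.aeval_def, Polynomial.aeval_def, Polynomial.hom_eval₂, Polynomial.eval₂_map]
  congr 1
  exact RingHom.ext fun a => helper3292.coeffMap_algebraMap' f a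

theorem aeval_qExpand (K : Type*) [Field K] (d : ℕ) [NeZero d] (x : LaurentSeries K) (p : K[X]) :
    aeval (qExpand K d x) p = qExpand K d (aeval x p) :=
  Polynomial.aeval_algHom_apply (qExpandAlgHomC K d) x p

end SeriesFacts

/-! ### The two Gauss valuations of `F_{ℓ M}` and the two-chart basis -/

section TwoChart

open Fermat.Agent.S24.helper24
open Fermat.Agent.S18

theorem coprime_of_not_dvd (ℓ M : ℕ) [Fact ℓ.Prime] (hℓM : ¬ ℓ ∣ M) : Nat.Coprime ℓ M :=
  (Nat.Prime.coprime_iff_not_dvd Fact.out).mpr hℓM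

variable (ℓ M : ℕ) [Fact ℓ.Prime] [NeZero M] (hℓM : ¬ ℓ ∣ M) (A : ValuationSubring Kbar)

/-- The Atkin–Lehner involution `W_ℓ` of `F_{ℓ M}` (landed: `helper1219.atkinLehnerBar`). -/
abbrev wAL : FN (ℓ * M) ≃ₐ[Kbar] FN (ℓ * M) :=
  Fermat.Agent.S35.helper1219.atkinLehnerBar ℓ M (coprime_of_not_dvd ℓ M hℓM)

/-- The Gauss valuation ring of `F_{ℓ M}` at `A`, chart `∞` (landed: `helper8991.gaussF`). -/
abbrev vInf : ValuationSubring (FN (ℓ * M)) :=
  helper8991.gaussF A (IsLocalRing.residue A) (ℓ * M)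

/-- The two-chart basis of `F_{ℓ M}`: functions whose expansions at `∞` are `famInf` and whose
Atkin–Lehner transforms have the expansions `famZero` (built on the GAUSSMOD basis of level
`M`). -/
theorem exists_twoBasis (e : TwoIdx ℓ (dedekindPsi M)) :
    ∃ f : FN (ℓ * M),
      (f : LaurentSeries Kbar) = zTo Kbar (famInf ℓ (gaussBasis M ℓ hℓM) e) ∧
      ((wAL ℓ M hℓM f : FN (ℓ * M)) : LaurentSeries Kbar) =
        zTo Kbar (famZero ℓ (gaussBasis M ℓ hℓM) e) :=
  ALRel_fam _ (gaussBasis_mem M ℓ hℓM) e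

/-- The two-chart basis of `F_{ℓ M}`. -/
def twoBasis (e : TwoIdx ℓ (dedekindPsi M)) : FN (ℓ * M) := (exists_twoBasis ℓ M hℓM e).choose

theorem coe_twoBasis (e : TwoIdx ℓ (dedekindPsi M)) :
    (twoBasis ℓ M hℓM e : LaurentSeries Kbar) = zTo Kbar (famInf ℓ (gaussBasis M ℓ hℓM) e) :=
  (exists_twoBasis ℓ M hℓM e).choose_spec.1

theorem coe_wAL_twoBasis (e : TwoIdx ℓ (dedekindPsi M)) :
    ((wAL ℓ M hℓM (twoBasis ℓ M hℓM e) : FN (ℓ * M)) : LaurentSeries Kbar) =
      zTo Kbar (famZero ℓ (gaussBasis M ℓ hℓM) e) :=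
  (exists_twoBasis ℓ M hℓM e).choose_spec.2

theorem coe_jBar_eq (N : ℕ) : ((jBar N : FN N) : LaurentSeries Kbar) = jqModC Kbar := by
  rw [coe_jBar, ← jqModC_rat]
  exact coeffMap_jqModC _

theorem coe_aeval (N : ℕ) (x : FN N) (p : Kbar[X]) :
    ((aeval x p : FN N) : LaurentSeries Kbar) = aeval (x : LaurentSeries Kbar) p :=
  (Polynomial.aeval_algHom_apply (IntermediateField.val (modularFunctionFieldBar N)) x p).symm

theorem coe_wAL_jBar :
    ((wAL ℓ M hℓM (jBar (ℓ * M)) : FN (ℓ * M)) : LaurentSeries Kbar) =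
      qExpand Kbar ℓ (jqModC Kbar) := by
  rw [Fermat.Agent.S35.helper1219.atkinLehnerBar_jBar]
  show jSeries ℓ = _
  rw [jSeries, helper8991.coeffEmb_qExpand_jq]

theorem wAL_aeval (x : FN (ℓ * M)) (p : Kbar[X]) :
    wAL ℓ M hℓM (aeval x p) = aeval (wAL ℓ M hℓM x) p :=
  (Polynomial.aeval_algHom_apply
    ((wAL ℓ M hℓM : FN (ℓ * M) ≃ₐ[Kbar] FN (ℓ * M)) : FN (ℓ * M) →ₐ[Kbar] FN (ℓ * M)) x p).symm

omit [Fact ℓ.Prime] [NeZero M] in
/-- Valuation of an element given by a fraction of integral series. -/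
theorem val_of_rel (f : FN (ℓ * M)) (X Y : LaurentSeries A)
    (hY : coeffMap (IsLocalRing.residue A) Y ≠ 0)
    (h : (f : LaurentSeries Kbar) * coeffMap A.subtype Y = coeffMap A.subtype X) :
    (vInf ℓ M A).valuation f ≤ 1 ∧
      ((vInf ℓ M A).valuation f < 1 ↔ coeffMap (IsLocalRing.residue A) X = 0) := by
  have hf : f ∈ vInf ℓ M A :=
    (helper8991.mem_gaussF_iff A (IsLocalRing.residue A) (ℓ * M) f).mpr ⟨X, Y, hY, h⟩
  refine ⟨((vInf ℓ M A).valuation_le_one_iff f).mpr hf, ?_⟩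
  rw [← (vInf ℓ M A).valuation_lt_one_iff ⟨f, hf⟩, ← helper8991.gaussFRed_eq_zero_iff,
    helper8991.gaussFRed_eq A (IsLocalRing.residue A) (ℓ * M) ⟨f, hf⟩ hY h, div_eq_zero_iff]
  exact ⟨fun h' => h'.resolve_right hY, Or.inl⟩

end TwoChart

/-! ### Two-chart orthonormality -/

section Ortho

open Fermat.Agent.S24.helper24
open Fermat.Agent.S18

variable (ℓ M : ℕ) [Fact ℓ.Prime] [NeZero M] (hℓM : ¬ ℓ ∣ M) (A : ValuationSubring Kbar)
  (hA : (ℓ : Kbar) ∈ A.nonunits)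

omit [Fact ℓ.Prime] [NeZero M] in
theorem coe_mul_aeval_jBar (f : FN (ℓ * M)) (Q : A[X]) :
    ((f * aeval (jBar (ℓ * M)) (Q.map A.subtype) : FN (ℓ * M)) : LaurentSeries Kbar) =
      (f : LaurentSeries Kbar) * coeffMap A.subtype (aeval (jqModC A) Q) := by
  rw [IntermediateField.coe_mul, coe_aeval, coe_jBar_eq, coeffMap_aeval, coeffMap_jqModC]

theorem coe_wAL_mul_aeval_jBar (f : FN (ℓ * M)) (Q : A[X]) :
    ((wAL ℓ M hℓM (f * aeval (jBar (ℓ * M)) (Q.map A.subtype)) : FN (ℓ * M)) :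
        LaurentSeries Kbar) =
      ((wAL ℓ M hℓM f : FN (ℓ * M)) : LaurentSeries Kbar) *
        coeffMap A.subtype (aeval (qExpand A ℓ (jqModC A)) Q) := by
  rw [map_mul, IntermediateField.coe_mul, wAL_aeval, coe_aeval, coe_wAL_jBar, coeffMap_aeval,
    coeffMap_qExpand, coeffMap_jqModC]

theorem coe_sum_aeval_twoBasis (P : TwoIdx ℓ (dedekindPsi M) → A[X]) :
    ((∑ e, aeval (jBar (ℓ * M)) ((P e).map A.subtype) * twoBasis ℓ M hℓM e : FN (ℓ * M)) :
        LaurentSeries Kbar) =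
      coeffMap A.subtype
        (∑ e, aeval (jqModC A) (P e) * zTo A (famInf ℓ (gaussBasis M ℓ hℓM) e)) := by
  rw [IntermediateField.coe_sum, map_sum]
  refine Finset.sum_congr rfl fun e _ => ?_
  rw [IntermediateField.coe_mul, coe_aeval, coe_jBar_eq, coe_twoBasis, map_mul, coeffMap_aeval,
    coeffMap_jqModC, coeffMap_zTo]

theorem coe_wAL_sum_aeval_twoBasis (P : TwoIdx ℓ (dedekindPsi M) → A[X]) :
    ((wAL ℓ M hℓM (∑ e, aeval (jBar (ℓ * M)) ((P e).map A.subtype) * twoBasis ℓ M hℓM e) :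
        FN (ℓ * M)) : LaurentSeries Kbar) =
      coeffMap A.subtype
        (∑ e, aeval (qExpand A ℓ (jqModC A)) (P e) *
          zTo A (famZero ℓ (gaussBasis M ℓ hℓM) e)) := by
  rw [map_sum, IntermediateField.coe_sum, map_sum]
  refine Finset.sum_congr rfl fun e _ => ?_
  rw [map_mul, IntermediateField.coe_mul, wAL_aeval, coe_aeval, coe_wAL_jBar, coe_wAL_twoBasis,
    map_mul, coeffMap_aeval, coeffMap_qExpand, coeffMap_jqModC, coeffMap_zTo]

omit [Fact ℓ.Prime] [NeZero M] in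
theorem residue_aeval_ne_zero {Q : A[X]} (hQ : Q.map (IsLocalRing.residue A) ≠ 0) :
    coeffMap (IsLocalRing.residue A) (aeval (jqModC A) Q) ≠ 0 := by
  rw [coeffMap_aeval, coeffMap_jqModC]
  exact aeval_jqModC_ne_zero hQ

omit [NeZero M] in
theorem residue_aeval_qExpand_ne_zero {Q : A[X]} (hQ : Q.map (IsLocalRing.residue A) ≠ 0) :
    coeffMap (IsLocalRing.residue A) (aeval (qExpand A ℓ (jqModC A)) Q) ≠ 0 := by
  rw [coeffMap_aeval, coeffMap_qExpand, coeffMap_jqModC, aeval_qExpand]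
  exact fun h => aeval_jqModC_ne_zero hQ
    (qExpand_injective ℓ (by rw [h, map_zero]))

include hA in
/-- Chart `∞` half of the key reduction: if `f = ∑ (P_e / Q)(j) · e_e` is small for the Gauss
valuation at `∞`, then the `inl` polynomials reduce to `0`. -/
theorem key_inf (P : TwoIdx ℓ (dedekindPsi M) → A[X]) (Q : A[X])
    (hQ : Q.map (IsLocalRing.residue A) ≠ 0) (f : FN (ℓ * M))
    (hf : f * aeval (jBar (ℓ * M)) (Q.map A.subtype) =
      ∑ e, aeval (jBar (ℓ * M)) ((P e).map A.subtype) * twoBasis ℓ M hℓM e)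
    (h1 : (vInf ℓ M A).valuation f < 1) :
    ∀ i, (P (Sum.inl i)).map (IsLocalRing.residue A) = 0 := by
  have hchar := charP_residueField ℓ A hA
  have e1 : (f : LaurentSeries Kbar) * coeffMap A.subtype (aeval (jqModC A) Q) =
      coeffMap A.subtype
        (∑ e, aeval (jqModC A) (P e) * zTo A (famInf ℓ (gaussBasis M ℓ hℓM) e)) := by
    rw [← coe_mul_aeval_jBar, hf, coe_sum_aeval_twoBasis]
  have r1 := (val_of_rel ℓ M A f _ _ (residue_aeval_ne_zero A hQ) e1).2.mp h1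
  rw [map_sum] at r1
  refine indep_inl ℓ (gaussBasis M ℓ hℓM) (gaussBasis_linIndepModL M ℓ hℓM)
    (IsLocalRing.ResidueField A) (fun e => (P e).map (IsLocalRing.residue A)) ?_
  rw [← r1]
  refine Finset.sum_congr rfl fun e _ => ?_
  rw [map_mul, coeffMap_aeval, coeffMap_jqModC, coeffMap_zTo]

include hA in
/-- Chart `0` half of the key reduction: if moreover the `inl` polynomials reduce to `0` and
`W f` is small for the Gauss valuation, then all `P_e` reduce to `0`. -/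
theorem key_zero (P : TwoIdx ℓ (dedekindPsi M) → A[X]) (Q : A[X])
    (hQ : Q.map (IsLocalRing.residue A) ≠ 0) (f : FN (ℓ * M))
    (hf : f * aeval (jBar (ℓ * M)) (Q.map A.subtype) =
      ∑ e, aeval (jBar (ℓ * M)) ((P e).map A.subtype) * twoBasis ℓ M hℓM e)
    (hinl : ∀ i, (P (Sum.inl i)).map (IsLocalRing.residue A) = 0)
    (h2 : (vInf ℓ M A).valuation (wAL ℓ M hℓM f) < 1) :
    ∀ e, (P e).map (IsLocalRing.residue A) = 0 := by
  have hchar := charP_residueField ℓ A hA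
  have e2 : ((wAL ℓ M hℓM f : FN (ℓ * M)) : LaurentSeries Kbar) *
        coeffMap A.subtype (aeval (qExpand A ℓ (jqModC A)) Q) =
      coeffMap A.subtype
        (∑ e, aeval (qExpand A ℓ (jqModC A)) (P e) *
          zTo A (famZero ℓ (gaussBasis M ℓ hℓM) e)) := by
    rw [← coe_wAL_mul_aeval_jBar, hf, coe_wAL_sum_aeval_twoBasis]
  have r2 := (val_of_rel ℓ M A _ _ _ (residue_aeval_qExpand_ne_zero ℓ A hQ) e2).2.mp h2
  rw [map_sum] at r2
  have key := indep_inr ℓ (gaussBasis M ℓ hℓM) (gaussBasis_linIndepModL M ℓ hℓM)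
    (IsLocalRing.ResidueField A) (fun e => (P e).map (IsLocalRing.residue A)) hinl ?_
  · exact fun e => congrFun key e
  · rw [← r2]
    refine Finset.sum_congr rfl fun e _ => ?_
    rw [map_mul, coeffMap_aeval, coeffMap_qExpand, coeffMap_jqModC, coeffMap_zTo]

include hA in
/-- **Key reduction step.**  If `f = ∑ (P_e / Q)(j) · e_e` with `P_e, Q ∈ A[X]`, `Q̄ ≠ 0`, is
small for both Gauss valuations, then all `P_e` reduce to `0`. -/
theorem key_reduction (P : TwoIdx ℓ (dedekindPsi M) → A[X]) (Q : A[X])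
    (hQ : Q.map (IsLocalRing.residue A) ≠ 0) (f : FN (ℓ * M))
    (hf : f * aeval (jBar (ℓ * M)) (Q.map A.subtype) =
      ∑ e, aeval (jBar (ℓ * M)) ((P e).map A.subtype) * twoBasis ℓ M hℓM e)
    (h1 : (vInf ℓ M A).valuation f < 1)
    (h2 : (vInf ℓ M A).valuation (wAL ℓ M hℓM f) < 1) :
    ∀ e, (P e).map (IsLocalRing.residue A) = 0 :=
  key_zero ℓ M hℓM A hA P Q hQ f hf (key_inf ℓ M hℓM A hA P Q hQ f hf h1) h2

end Ortho

/-! ### Orthonormality: polynomial coefficients -/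

section PForm

open Fermat.Agent.S24.helper24
open Fermat.Agent.S18

variable (ℓ M : ℕ) [Fact ℓ.Prime] [NeZero M] (hℓM : ¬ ℓ ∣ M) (A : ValuationSubring Kbar)
  (hA : (ℓ : Kbar) ∈ A.nonunits)

omit [Fact ℓ.Prime] [NeZero M] in
/-- Constants of the maximal ideal of `A` are small for the Gauss valuation. -/
theorem val_algebraMap_lt_one {c : Kbar} (hc : c ∈ A.nonunits) :
    (vInf ℓ M A).valuation (algebraMap Kbar (FN (ℓ * M)) c) < 1 := by
  obtain ⟨hcA, hm⟩ := A.mem_nonunits_iff_exists_mem_maximalIdeal.mp hc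
  refine (val_of_rel ℓ M A _ (HahnSeries.C (⟨c, hcA⟩ : A)) 1 ?_ ?_).2.mpr ?_
  · rw [map_one]; exact one_ne_zero
  · rw [map_one, mul_one]
    show algebraMap Kbar (LaurentSeries Kbar) c = _
    rw [← helper8991.C_eq_algebraMap]
    exact (helper8991.inc_C A ⟨c, hcA⟩).symm
  · have h := helper8991.red_C A (IsLocalRing.residue A) ⟨c, hcA⟩
    rw [(IsLocalRing.residue_eq_zero_iff _).mpr hm, map_zero] at h
    exact h

omit [Fact ℓ.Prime] [NeZero M] in
/-- Constants of `A` are integral for the Gauss valuation. -/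
theorem val_algebraMap_le_one {c : Kbar} (hc : c ∈ A) :
    (vInf ℓ M A).valuation (algebraMap Kbar (FN (ℓ * M)) c) ≤ 1 := by
  refine (val_of_rel ℓ M A _ (HahnSeries.C (⟨c, hc⟩ : A)) 1 ?_ ?_).1
  · rw [map_one]; exact one_ne_zero
  · rw [map_one, mul_one]
    show algebraMap Kbar (LaurentSeries Kbar) c = _
    rw [← helper8991.C_eq_algebraMap]
    exact (helper8991.inc_C A ⟨c, hc⟩).symm

omit [Fact ℓ.Prime] [NeZero M] in
/-- A polynomial in `j` with coefficients in `A` is integral; it is a unit iff its reduction is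
nonzero. -/
theorem val_aeval_jBar (R : A[X]) :
    (vInf ℓ M A).valuation (aeval (jBar (ℓ * M)) (R.map A.subtype)) ≤ 1 ∧
      ((vInf ℓ M A).valuation (aeval (jBar (ℓ * M)) (R.map A.subtype)) < 1 ↔
        R.map (IsLocalRing.residue A) = 0) := by
  have h := val_of_rel ℓ M A (aeval (jBar (ℓ * M)) (R.map A.subtype)) (aeval (jqModC A) R) 1
    (by rw [map_one]; exact one_ne_zero)
    (by rw [map_one, mul_one, coe_aeval, coe_jBar_eq, coeffMap_aeval, coeffMap_jqModC])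
  refine ⟨h.1, h.2.trans ?_⟩
  rw [coeffMap_aeval, coeffMap_jqModC]
  exact helper3292.aeval_jqModC_eq_zero_iff _ _

/-- The same for the Atkin–Lehner transform. -/
theorem val_wAL_aeval_jBar (R : A[X]) :
    (vInf ℓ M A).valuation (wAL ℓ M hℓM (aeval (jBar (ℓ * M)) (R.map A.subtype))) ≤ 1 ∧
      ((vInf ℓ M A).valuation (wAL ℓ M hℓM (aeval (jBar (ℓ * M)) (R.map A.subtype))) < 1 ↔
        R.map (IsLocalRing.residue A) = 0) := by
  have h := val_of_rel ℓ M A (wAL ℓ M hℓM (aeval (jBar (ℓ * M)) (R.map A.subtype)))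
    (aeval (qExpand A ℓ (jqModC A)) R) 1
    (by rw [map_one]; exact one_ne_zero)
    (by rw [map_one, mul_one, wAL_aeval, coe_aeval, coe_wAL_jBar, coeffMap_aeval,
      coeffMap_qExpand, coeffMap_jqModC])
  refine ⟨h.1, h.2.trans ?_⟩
  rw [coeffMap_aeval, coeffMap_qExpand, coeffMap_jqModC, aeval_qExpand]
  constructor
  · intro h0
    exact (helper3292.aeval_jqModC_eq_zero_iff _ _).mp
      (qExpand_injective ℓ (by rw [h0, map_zero]))
  · intro h0
    rw [h0, map_zero, map_zero]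

include hA in
/-- **Orthonormality, polynomial form.**  If `∑ P_e(j) · e_e` (`P_e ∈ ℚ̄[X]`) is integral for both
Gauss valuations, then all `P_e` have coefficients in `A`. -/
theorem coeff_mem_of_val_le_one (P : TwoIdx ℓ (dedekindPsi M) → Kbar[X])
    (h1 : (vInf ℓ M A).valuation
      (∑ e, aeval (jBar (ℓ * M)) (P e) * twoBasis ℓ M hℓM e) ≤ 1)
    (h2 : (vInf ℓ M A).valuation
      (wAL ℓ M hℓM (∑ e, aeval (jBar (ℓ * M)) (P e) * twoBasis ℓ M hℓM e)) ≤ 1) :
    ∀ e m, (P e).coeff m ∈ A := by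
  classical
  by_cases hP : P = 0
  · intro e m
    rw [hP, Pi.zero_apply, coeff_zero]
    exact A.zero_mem
  obtain ⟨c₀, P', hc₀, hP', e₀, he₀⟩ := exists_primitive_scaling A P hP
  by_cases hc : c₀ ∈ A
  · intro e m
    have h := congrArg (fun p : Kbar[X] => p.coeff m) (hP' e)
    simp only [coeff_map, coeff_C_mul] at h
    have h3 : (P e).coeff m = c₀ * (((P' e).coeff m : A) : Kbar) := by
      have h4 : (((P' e).coeff m : A) : Kbar) = c₀⁻¹ * (P e).coeff m := h
      rw [h4, ← mul_assoc, mul_inv_cancel₀ hc₀, one_mul]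
    rw [h3]
    exact A.mul_mem _ _ hc (SetLike.coe_mem _)
  · exfalso
    have hc' : c₀⁻¹ ∈ A.nonunits := A.inv_mem_nonunits_iff.mpr (Or.inr hc)
    have hlt := val_algebraMap_lt_one ℓ M A hc'
    have hrel : (algebraMap Kbar (FN (ℓ * M)) c₀⁻¹ *
          ∑ e, aeval (jBar (ℓ * M)) (P e) * twoBasis ℓ M hℓM e) *
        aeval (jBar (ℓ * M)) ((1 : A[X]).map A.subtype) =
        ∑ e, aeval (jBar (ℓ * M)) ((P' e).map A.subtype) * twoBasis ℓ M hℓM e := by
      rw [Polynomial.map_one, map_one, mul_one, Finset.mul_sum]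
      refine Finset.sum_congr rfl fun e _ => ?_
      rw [hP' e, map_mul, aeval_C, mul_assoc]
    have hv1 : (vInf ℓ M A).valuation (algebraMap Kbar (FN (ℓ * M)) c₀⁻¹ *
        ∑ e, aeval (jBar (ℓ * M)) (P e) * twoBasis ℓ M hℓM e) < 1 := by
      rw [map_mul]
      exact lt_of_le_of_lt (mul_le_mul' le_rfl h1) (by rwa [mul_one])
    have hv2 : (vInf ℓ M A).valuation (wAL ℓ M hℓM (algebraMap Kbar (FN (ℓ * M)) c₀⁻¹ *
        ∑ e, aeval (jBar (ℓ * M)) (P e) * twoBasis ℓ M hℓM e)) < 1 := by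
      rw [map_mul, AlgEquiv.commutes, map_mul]
      exact lt_of_le_of_lt (mul_le_mul' le_rfl h2) (by rwa [mul_one])
    exact he₀ (key_reduction ℓ M hℓM A hA P' 1 (by rw [Polynomial.map_one]; exact one_ne_zero)
      _ hrel hv1 hv2 e₀)

end PForm

/-! ### Orthonormality over `ℚ̄(j)` -/

section EForm

open Fermat.Agent.S24.helper24
open Fermat.Agent.S18
open IntermediateField

variable (ℓ M : ℕ) [Fact ℓ.Prime] [NeZero M] (hℓM : ¬ ℓ ∣ M) (A : ValuationSubring Kbar)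
  (hA : (ℓ : Kbar) ∈ A.nonunits)

theorem aeval_jBar_ne_zero (N : ℕ) {s : Kbar[X]} (hs : s ≠ 0) : aeval (jBar N) s ≠ 0 := by
  intro h
  have h1 := coe_aeval N (jBar N) s
  rw [h, coe_jBar_eq] at h1
  exact aeval_jqModC_ne_zero hs h1.symm

/-- The valuation of a nonzero polynomial in `j` is the valuation of a constant, in both
charts. -/
theorem exists_const_val_aeval {p : Kbar[X]} (hp : p ≠ 0) :
    ∃ c₀ : Kbar, c₀ ≠ 0 ∧
      (vInf ℓ M A).valuation (aeval (jBar (ℓ * M)) p) =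
        (vInf ℓ M A).valuation (algebraMap Kbar (FN (ℓ * M)) c₀) ∧
      (vInf ℓ M A).valuation (wAL ℓ M hℓM (aeval (jBar (ℓ * M)) p)) =
        (vInf ℓ M A).valuation (algebraMap Kbar (FN (ℓ * M)) c₀) := by
  obtain ⟨c₀, P', hc₀, hP', i, hi⟩ := exists_primitive_scaling A (fun _ : Unit => p)
    (fun h => hp (congrFun h ()))
  have hp' : p = C c₀ * (P' ()).map A.subtype := by
    rw [hP' (), ← mul_assoc, ← C_mul, mul_inv_cancel₀ hc₀, C_1, one_mul]
  have h1 := val_aeval_jBar ℓ M A (P' ())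
  have h2 := val_wAL_aeval_jBar ℓ M hℓM A (P' ())
  have hu1 : (vInf ℓ M A).valuation (aeval (jBar (ℓ * M)) ((P' ()).map A.subtype)) = 1 :=
    le_antisymm h1.1 (not_lt.mp fun h => hi (h1.2.mp h))
  have hu2 : (vInf ℓ M A).valuation
      (wAL ℓ M hℓM (aeval (jBar (ℓ * M)) ((P' ()).map A.subtype))) = 1 :=
    le_antisymm h2.1 (not_lt.mp fun h => hi (h2.2.mp h))
  refine ⟨c₀, hc₀, ?_, ?_⟩
  · conv_lhs => rw [hp']
    rw [map_mul, aeval_C, map_mul, hu1, mul_one]
  · conv_lhs => rw [hp']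
    rw [map_mul, aeval_C, map_mul, AlgEquiv.commutes, map_mul, hu2, mul_one]

/-- `W_ℓ` preserves the Gauss valuation on `ℚ̄(j)`. -/
theorem val_wAL_of_mem_adjoin {c : FN (ℓ * M)} (hc : c ∈ Kbar⟮jBar (ℓ * M)⟯) :
    (vInf ℓ M A).valuation (wAL ℓ M hℓM c) = (vInf ℓ M A).valuation c := by
  obtain ⟨r, s, rfl⟩ := (IntermediateField.mem_adjoin_simple_iff Kbar _).mp hc
  by_cases hr : r = 0
  · simp [hr]
  by_cases hs : s = 0
  · simp [hs]
  obtain ⟨a, -, ha1, ha2⟩ := exists_const_val_aeval ℓ M hℓM A hr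
  obtain ⟨b, -, hb1, hb2⟩ := exists_const_val_aeval ℓ M hℓM A hs
  rw [map_div₀, map_div₀, map_div₀, ha1, ha2, hb1, hb2]

omit [Fact ℓ.Prime] [NeZero M] in
theorem exists_common_den {ι : Type*} [Fintype ι] (c : ι → FN (ℓ * M))
    (hc : ∀ e, c e ∈ Kbar⟮jBar (ℓ * M)⟯) :
    ∃ (S : Kbar[X]) (R : ι → Kbar[X]), S ≠ 0 ∧
      ∀ e, c e * aeval (jBar (ℓ * M)) S = aeval (jBar (ℓ * M)) (R e) := by
  classical
  have h : ∀ e, ∃ r s : Kbar[X], s ≠ 0 ∧
      c e * aeval (jBar (ℓ * M)) s = aeval (jBar (ℓ * M)) r := by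
    intro e
    obtain ⟨r, s, hrs⟩ := (IntermediateField.mem_adjoin_simple_iff Kbar _).mp (hc e)
    by_cases hs : s = 0
    · refine ⟨0, 1, one_ne_zero, ?_⟩
      rw [hrs, hs, map_zero, div_zero, zero_mul]
    · exact ⟨r, s, hs, by rw [hrs, div_mul_cancel₀ _ (aeval_jBar_ne_zero _ hs)]⟩
  choose r s hs hrs using h
  refine ⟨∏ e, s e, fun e => r e * ∏ m ∈ Finset.univ.erase e, s m,
    Finset.prod_ne_zero_iff.mpr (fun e _ => hs e), fun e => ?_⟩
  rw [← Finset.mul_prod_erase Finset.univ s (Finset.mem_univ e), map_mul, map_mul, ← hrs e]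
  ring

omit [Fact ℓ.Prime] [NeZero M] in
/-- Common denominator with nonzero reduction. -/
theorem exists_common_den_unit {ι : Type*} [Fintype ι] (c : ι → FN (ℓ * M))
    (hc : ∀ e, c e ∈ Kbar⟮jBar (ℓ * M)⟯) :
    ∃ (S : A[X]) (R : ι → Kbar[X]), S.map (IsLocalRing.residue A) ≠ 0 ∧
      ∀ e, c e * aeval (jBar (ℓ * M)) (S.map A.subtype) = aeval (jBar (ℓ * M)) (R e) := by
  obtain ⟨S, R, hS, hR⟩ := exists_common_den ℓ M c hc
  obtain ⟨s₀, S', hs₀, hS', i, hi⟩ := exists_primitive_scaling A (fun _ : Unit => S)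
    (fun h => hS (congrFun h ()))
  refine ⟨S' (), fun e => C s₀⁻¹ * R e, hi, fun e => ?_⟩
  rw [hS' (), map_mul, map_mul, aeval_C, ← hR e]
  ring

theorem val_twoBasis_le_one (e : TwoIdx ℓ (dedekindPsi M)) :
    (vInf ℓ M A).valuation (twoBasis ℓ M hℓM e) ≤ 1 :=
  (val_of_rel ℓ M A _ (zTo A (famInf ℓ (gaussBasis M ℓ hℓM) e)) 1
    (by rw [map_one]; exact one_ne_zero)
    (by rw [map_one, mul_one, coe_twoBasis, coeffMap_zTo])).1

theorem val_wAL_twoBasis_le_one (e : TwoIdx ℓ (dedekindPsi M)) :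
    (vInf ℓ M A).valuation (wAL ℓ M hℓM (twoBasis ℓ M hℓM e)) ≤ 1 :=
  (val_of_rel ℓ M A _ (zTo A (famZero ℓ (gaussBasis M ℓ hℓM) e)) 1
    (by rw [map_one]; exact one_ne_zero)
    (by rw [map_one, mul_one, coe_wAL_twoBasis, coeffMap_zTo])).1

include hA in
/-- Integral normal form of a two-chart integral element. -/
theorem exists_integral_form (c : TwoIdx ℓ (dedekindPsi M) → FN (ℓ * M))
    (hc : ∀ e, c e ∈ Kbar⟮jBar (ℓ * M)⟯)
    (h1 : (vInf ℓ M A).valuation (∑ e, c e * twoBasis ℓ M hℓM e) ≤ 1)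
    (h2 : (vInf ℓ M A).valuation (wAL ℓ M hℓM (∑ e, c e * twoBasis ℓ M hℓM e)) ≤ 1) :
    ∃ (S : A[X]) (R : TwoIdx ℓ (dedekindPsi M) → A[X]), S.map (IsLocalRing.residue A) ≠ 0 ∧
      ∀ e, c e * aeval (jBar (ℓ * M)) (S.map A.subtype) =
        aeval (jBar (ℓ * M)) ((R e).map A.subtype) := by
  obtain ⟨S, R₂, hS, hR₂⟩ := exists_common_den_unit ℓ M A c hc
  have hu1 : (vInf ℓ M A).valuation (aeval (jBar (ℓ * M)) (S.map A.subtype)) = 1 :=
    le_antisymm (val_aeval_jBar ℓ M A S).1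
      (not_lt.mp fun h => hS ((val_aeval_jBar ℓ M A S).2.mp h))
  have hu2 : (vInf ℓ M A).valuation
      (wAL ℓ M hℓM (aeval (jBar (ℓ * M)) (S.map A.subtype))) = 1 :=
    le_antisymm (val_wAL_aeval_jBar ℓ M hℓM A S).1
      (not_lt.mp fun h => hS ((val_wAL_aeval_jBar ℓ M hℓM A S).2.mp h))
  have hsum : (∑ e, c e * twoBasis ℓ M hℓM e) * aeval (jBar (ℓ * M)) (S.map A.subtype) =
      ∑ e, aeval (jBar (ℓ * M)) (R₂ e) * twoBasis ℓ M hℓM e := by
    rw [Finset.sum_mul]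
    refine Finset.sum_congr rfl fun e _ => ?_
    rw [← hR₂ e]
    ring
  have h1' : (vInf ℓ M A).valuation
      (∑ e, aeval (jBar (ℓ * M)) (R₂ e) * twoBasis ℓ M hℓM e) ≤ 1 := by
    rw [← hsum, map_mul, hu1, mul_one]
    exact h1
  have h2' : (vInf ℓ M A).valuation
      (wAL ℓ M hℓM (∑ e, aeval (jBar (ℓ * M)) (R₂ e) * twoBasis ℓ M hℓM e)) ≤ 1 := by
    rw [← hsum, map_mul, map_mul, hu2, mul_one]
    exact h2
  have hcoef := coeff_mem_of_val_le_one ℓ M hℓM A hA R₂ h1' h2'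
  have hex : ∀ e, ∃ R' : A[X], R'.map A.subtype = R₂ e :=
    fun e => exists_map_subtype_eq A (R₂ e) (hcoef e)
  choose R' hR' using hex
  exact ⟨S, R', hS, fun e => by rw [hR' e, hR₂ e]⟩

include hA in
/-- **Two-chart orthonormality (unit ball).**  For coefficients `c e ∈ ℚ̄(j)`: the function
`∑ c_e · e_e` is integral for both Gauss valuations `v_∞` and `v_0 = v_∞ ∘ W_ℓ` iff all `c_e` are
Gauss-integral. -/
theorem twoChart_le_one (c : TwoIdx ℓ (dedekindPsi M) → FN (ℓ * M))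
    (hc : ∀ e, c e ∈ Kbar⟮jBar (ℓ * M)⟯) :
    ((vInf ℓ M A).valuation (∑ e, c e * twoBasis ℓ M hℓM e) ≤ 1 ∧
      (vInf ℓ M A).valuation (wAL ℓ M hℓM (∑ e, c e * twoBasis ℓ M hℓM e)) ≤ 1) ↔
      ∀ e, (vInf ℓ M A).valuation (c e) ≤ 1 := by
  constructor
  · rintro ⟨h1, h2⟩ e
    obtain ⟨S, R, hS, hR⟩ := exists_integral_form ℓ M hℓM A hA c hc h1 h2
    have hu1 : (vInf ℓ M A).valuation (aeval (jBar (ℓ * M)) (S.map A.subtype)) = 1 :=
      le_antisymm (val_aeval_jBar ℓ M A S).1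
        (not_lt.mp fun h => hS ((val_aeval_jBar ℓ M A S).2.mp h))
    have h3 : (vInf ℓ M A).valuation (c e) =
        (vInf ℓ M A).valuation (c e * aeval (jBar (ℓ * M)) (S.map A.subtype)) := by
      rw [map_mul, hu1, mul_one]
    rw [h3, hR e]
    exact (val_aeval_jBar ℓ M A (R e)).1
  · intro h
    refine ⟨Valuation.map_sum_le _ fun e _ => ?_, ?_⟩
    · rw [map_mul]
      exact mul_le_one' (h e) (val_twoBasis_le_one ℓ M hℓM A e)
    · rw [map_sum]
      refine Valuation.map_sum_le _ fun e _ => ?_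
      rw [map_mul, map_mul, val_wAL_of_mem_adjoin ℓ M hℓM A (hc e)]
      exact mul_le_one' (h e) (val_wAL_twoBasis_le_one ℓ M hℓM A e)

include hA in
/-- **Two-chart orthonormality (open unit ball).**  `∑ c_e · e_e` is in the maximal ideals of
both Gauss valuation rings iff all `c_e` are in the maximal ideal of the Gauss ring of `ℚ̄(j)`. -/
theorem twoChart_lt_one (c : TwoIdx ℓ (dedekindPsi M) → FN (ℓ * M))
    (hc : ∀ e, c e ∈ Kbar⟮jBar (ℓ * M)⟯) :
    ((vInf ℓ M A).valuation (∑ e, c e * twoBasis ℓ M hℓM e) < 1 ∧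
      (vInf ℓ M A).valuation (wAL ℓ M hℓM (∑ e, c e * twoBasis ℓ M hℓM e)) < 1) ↔
      ∀ e, (vInf ℓ M A).valuation (c e) < 1 := by
  constructor
  · rintro ⟨h1, h2⟩ e
    obtain ⟨S, R, hS, hR⟩ := exists_integral_form ℓ M hℓM A hA c hc h1.le h2.le
    have hu1 : (vInf ℓ M A).valuation (aeval (jBar (ℓ * M)) (S.map A.subtype)) = 1 :=
      le_antisymm (val_aeval_jBar ℓ M A S).1
        (not_lt.mp fun h => hS ((val_aeval_jBar ℓ M A S).2.mp h))
    have hsum : (∑ e, c e * twoBasis ℓ M hℓM e) * aeval (jBar (ℓ * M)) (S.map A.subtype) =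
        ∑ e, aeval (jBar (ℓ * M)) ((R e).map A.subtype) * twoBasis ℓ M hℓM e := by
      rw [Finset.sum_mul]
      refine Finset.sum_congr rfl fun e _ => ?_
      rw [← hR e]
      ring
    have hred := key_reduction ℓ M hℓM A hA R S hS _ hsum h1 h2 e
    have h3 : (vInf ℓ M A).valuation (c e) =
        (vInf ℓ M A).valuation (c e * aeval (jBar (ℓ * M)) (S.map A.subtype)) := by
      rw [map_mul, hu1, mul_one]
    rw [h3, hR e]
    exact (val_aeval_jBar ℓ M A (R e)).2.mpr hred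
  · intro h
    refine ⟨Valuation.map_sum_lt _ one_ne_zero fun e _ => ?_, ?_⟩
    · rw [map_mul]
      exact lt_of_le_of_lt (mul_le_mul' le_rfl (val_twoBasis_le_one ℓ M hℓM A e))
        (by rw [mul_one]; exact h e)
    · rw [map_sum]
      refine Valuation.map_sum_lt _ one_ne_zero fun e _ => ?_
      rw [map_mul, map_mul, val_wAL_of_mem_adjoin ℓ M hℓM A (hc e)]
      exact lt_of_le_of_lt (mul_le_mul' le_rfl (val_wAL_twoBasis_le_one ℓ M hℓM A e))
        (by rw [mul_one]; exact h e)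

end EForm

end Fermat.Agent.S35.helper1928
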