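/-
S35/S34 shared geometry module: the concrete valuation-family package at the Gauss ring, part 2
(helper882, board S35/S34-GAUSSPAIR): the cartesian property at level `ℓ * M`, `ℓ ∤ M`.

`F = FN (ℓ * M)`, `W = helper1928.wAL ℓ M hℓM = helper1219.atkinLehnerBar ℓ M _`,
`v = gpVal A (ℓ * M) W = (v_∞, v_∞ ∘ W)`, `vL = gpBase A (ℓ * M)`.

* `gpRing_resTranscendental` : `j` is residually transcendental for the Gauss valuation
  (every level).
* `twoBasis_isOrthoN`, `twoBasis_span` : the landed two-chart basis `helper1928.twoBasis` is an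
  orthonormal `ℚ̄(j)`-basis of `F` for the max-norm of the two Gauss valuations.
* `gp_cartesianW` : **every** finite-dimensional `ℚ̄`-subspace `S` of `F` is
  `helper2459.CartesianW v (fun _ => 1) vL S` (hypothesis `hcart` of the multi-valuation Kummer
  cores and of `helper2423.torFix_of_special_fibre` / `torFix_of_nodal`), and
  `gp_exists_basis` : the underlying statement (an `L`-basis of `S` orthonormal for the max-norm).
-/
import Mathlib
import Fermat.Agent.S35.helper882_GaussPair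
import Fermat.Agent.S35.helper1928_TwoValBasis
import Fermat.Agent.S18.helper380_TLineOrtho
import Fermat.Agent.S28.helper3292_JqFacts
import Fermat.Agent.Lib.helper1356_Gamma0Index

set_option autoImplicit false

noncomputable section

namespace Fermat.Agent.S35.helper882

open ModularCurve Polynomial IntermediateField
open Fermat.Agent.S24.helper24 Fermat.Agent.S18 Fermat.Agent.S18.helper1733

section ResTr

variable (A : ValuationSubring Kbar)

/-- `j` is residually transcendental over `ℚ̄` for the Gauss valuation, at every level. -/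
theorem gpRing_resTranscendental (N : ℕ) :
    ResTranscendental (gpRing A N).valuation Kbar (jBar N) := by
  have hinc : helper8991.inc A (jqModC A) = jqModC Kbar := coeffMap_jqModC A.subtype
  have hy : helper8991.inc A (jqModC A) ∈ modularFunctionFieldBar N := by
    rw [hinc, ← Fermat.Agent.S35.helper1928.coe_jBar_eq N]
    exact (jBar N).2
  have htr : Transcendental (IsLocalRing.ResidueField A)
      (helper8991.red A (IsLocalRing.residue A) (jqModC A)) := by
    have h1 : helper8991.red A (IsLocalRing.residue A) (jqModC A)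
        = jqModC (IsLocalRing.ResidueField A) := coeffMap_jqModC (IsLocalRing.residue A)
    rw [h1, transcendental_iff_injective]
    exact Fermat.Agent.S28.helper3292.aeval_jqModC_injective (IsLocalRing.ResidueField A)
  have h := helper380.resTranscendental_gaussSubring_of_transcendental A (IsLocalRing.residue A)
    (laurentBaseChange Kbar (modularFunctionFieldFull N))
    (fun _ hf hf0 => helper8991.isNormalizable_of_mem_full A (IsLocalRing.residue A) N hf hf0)
    (fun a ha => (IsLocalRing.residue_eq_zero_iff a).mpr ha) hy htr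
  have hj : (⟨helper8991.inc A (jqModC A), hy⟩ : FN N) = jBar N :=
    Subtype.ext (by rw [Fermat.Agent.S35.helper1928.coe_jBar_eq]; exact hinc)
  rw [hj] at h
  exact h

end ResTr

section Cart

variable (ℓ M : ℕ) [Fact ℓ.Prime] [NeZero M] (hℓM : ¬ ℓ ∣ M) (A : ValuationSubring Kbar)
  (hA : (ℓ : Kbar) ∈ A.nonunits)

/-- The two Gauss valuations agree on `ℚ̄(j)`. -/
theorem gpVal_adjoin (c : Kbar⟮jBar (ℓ * M)⟯) :
    gpVal A (ℓ * M) (helper1928.wAL ℓ M hℓM) 1 (algebraMap Kbar⟮jBar (ℓ * M)⟯ (FN (ℓ * M)) c)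
      = gpVal A (ℓ * M) (helper1928.wAL ℓ M hℓM) 0
          (algebraMap Kbar⟮jBar (ℓ * M)⟯ (FN (ℓ * M)) c) :=
  helper1928.val_wAL_of_mem_adjoin ℓ M hℓM A c.2

include hA in
/-- The two-chart basis is orthonormal over `ℚ̄(j)` for the max-norm of the two Gauss
valuations. -/
theorem twoBasis_isOrthoN :
    IsOrthoN (gpVal A (ℓ * M) (helper1928.wAL ℓ M hℓM) 0) Kbar⟮jBar (ℓ * M)⟯
      (maxNorm (gpVal A (ℓ * M) (helper1928.wAL ℓ M hℓM) 0)
        (gpVal A (ℓ * M) (helper1928.wAL ℓ M hℓM) 1))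
      (helper1928.twoBasis ℓ M hℓM) := by
  classical
  have hN := isNormOver_maxNorm (gpVal_adjoin ℓ M hℓM A)
  refine isOrthoN_of_fintype (fun e => maxNorm_le_iff.mpr
    ⟨helper1928.val_twoBasis_le_one ℓ M hℓM A e,
      helper1928.val_wAL_twoBasis_le_one ℓ M hℓM A e⟩) fun c k => ?_
  obtain ⟨m, -, hmax⟩ := Finset.univ.exists_max_image
    (fun i => gpVal A (ℓ * M) (helper1928.wAL ℓ M hℓM) 0
      (algebraMap Kbar⟮jBar (ℓ * M)⟯ (FN (ℓ * M)) (c i))) ⟨k, Finset.mem_univ k⟩
  refine (hmax k (Finset.mem_univ k)).trans ?_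
  by_cases hcm : c m = 0
  · rw [hcm, map_zero, map_zero]
    exact zero_le
  have hvm : gpVal A (ℓ * M) (helper1928.wAL ℓ M hℓM) 0
      (algebraMap Kbar⟮jBar (ℓ * M)⟯ (FN (ℓ * M)) (c m)) ≠ 0 :=
    (Valuation.ne_zero_iff _).mpr ((_root_.map_ne_zero _).mpr hcm)
  by_contra hlt
  rw [not_le] at hlt
  have h1 : maxNorm (gpVal A (ℓ * M) (helper1928.wAL ℓ M hℓM) 0)
      (gpVal A (ℓ * M) (helper1928.wAL ℓ M hℓM) 1)
      ((c m)⁻¹ • ∑ i, c i • helper1928.twoBasis ℓ M hℓM i) < 1 := by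
    rw [hN.map_smul, map_inv₀, map_inv₀]
    exact (inv_mul_lt_one₀ (zero_lt_iff.mpr hvm)).mpr hlt
  have h2 : (c m)⁻¹ • ∑ i, c i • helper1928.twoBasis ℓ M hℓM i
      = ∑ e, algebraMap Kbar⟮jBar (ℓ * M)⟯ (FN (ℓ * M)) ((c m)⁻¹ * c e)
          * helper1928.twoBasis ℓ M hℓM e := by
    rw [Finset.smul_sum]
    refine Finset.sum_congr rfl fun i _ => ?_
    rw [smul_smul, Algebra.smul_def]
  rw [h2] at h1
  have h1a : gpVal A (ℓ * M) (helper1928.wAL ℓ M hℓM) 0
      (∑ e, algebraMap Kbar⟮jBar (ℓ * M)⟯ (FN (ℓ * M)) ((c m)⁻¹ * c e)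
          * helper1928.twoBasis ℓ M hℓM e) < 1 := lt_of_le_of_lt (le_maxNorm_left _) h1
  have h1b : gpVal A (ℓ * M) (helper1928.wAL ℓ M hℓM) 1
      (∑ e, algebraMap Kbar⟮jBar (ℓ * M)⟯ (FN (ℓ * M)) ((c m)⁻¹ * c e)
          * helper1928.twoBasis ℓ M hℓM e) < 1 := lt_of_le_of_lt (le_maxNorm_right _) h1
  have h3 := (helper1928.twoChart_lt_one ℓ M hℓM A hA
    (fun e => algebraMap Kbar⟮jBar (ℓ * M)⟯ (FN (ℓ * M)) ((c m)⁻¹ * c e))
    (fun e => ((c m)⁻¹ * c e).2)).mp ⟨h1a, h1b⟩ m
  rw [inv_mul_cancel₀ hcm, map_one, map_one] at h3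
  exact lt_irrefl _ h3

include hA in
/-- The two-chart basis spans `F_{ℓ M}` over `ℚ̄(j)`. -/
theorem twoBasis_span :
    Submodule.span Kbar⟮jBar (ℓ * M)⟯ (Set.range (helper1928.twoBasis ℓ M hℓM)) = ⊤ := by
  have hN := isNormOver_maxNorm (gpVal_adjoin ℓ M hℓM A)
  have hli := (twoBasis_isOrthoN ℓ M hℓM A hA).linearIndependent hN
  have hℓ : ℓ.Prime := Fact.out
  have : NeZero (ℓ * M) := ⟨Nat.mul_ne_zero hℓ.ne_zero (NeZero.ne M)⟩
  have : FiniteDimensional Kbar⟮jBar (ℓ * M)⟯ (FN (ℓ * M)) :=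
    (Fermat.Agent.S24.helper504.stmt_JFinrank (ℓ * M)).1
  refine hli.span_eq_top_of_card_eq_finrank' ?_
  rw [Fermat.Agent.S37.helper6887.finrank_jBar, Fintype.card_sum, Fintype.card_prod,
    Fintype.card_fin, Fintype.card_fin, mul_comm ℓ M,
    Fermat.Agent.Lib.helper1356.dedekindPsi_mul_prime_of_not_dvd hℓ (NeZero.ne M) hℓM]
  ring

include hA in
/-- **Cartesian property, norm form.** Every finite-dimensional `ℚ̄`-subspace `S` of `F_{ℓ M}`
has a `ℚ̄`-basis which is orthonormal for the max-norm of the two Gauss valuations. -/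
theorem gp_exists_basis (S : Submodule Kbar (FN (ℓ * M))) [FiniteDimensional Kbar S] :
    ∃ e : Fin (Module.finrank Kbar S) → FN (ℓ * M), (∀ i, e i ∈ S) ∧
      IsOrthoN (gpVal A (ℓ * M) (helper1928.wAL ℓ M hℓM) 0) Kbar
        (maxNorm (gpVal A (ℓ * M) (helper1928.wAL ℓ M hℓM) 0)
          (gpVal A (ℓ * M) (helper1928.wAL ℓ M hℓM) 1)) e ∧
      Submodule.span Kbar (Set.range e) = S :=
  exists_isOrthoN_basis (gpRing_resTranscendental A (ℓ * M))
    (isNormOver_maxNorm (gpVal_adjoin ℓ M hℓM A)) (twoBasis_isOrthoN ℓ M hℓM A hA)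
    (twoBasis_span ℓ M hℓM A hA) S

include hA in
/-- **`hcart`**: every finite-dimensional `ℚ̄`-subspace of `F_{ℓ M}` is cartesian for the pair
of Gauss valuations, weights `1`. -/
theorem gp_cartesianW (S : Submodule Kbar (FN (ℓ * M))) [FiniteDimensional Kbar S] :
    helper2459.CartesianW (gpVal A (ℓ * M) (helper1928.wAL ℓ M hℓM))
      (fun _ => (1 : (gpRing A (ℓ * M)).ValueGroup)) (gpBase A (ℓ * M)) S := by
  obtain ⟨e, heS, heo, hspan⟩ := gp_exists_basis ℓ M hℓM A hA S
  have hL : ∀ c : Kbar, gpVal A (ℓ * M) (helper1928.wAL ℓ M hℓM) 1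
      (algebraMap Kbar (FN (ℓ * M)) c) = gpVal A (ℓ * M) (helper1928.wAL ℓ M hℓM) 0
      (algebraMap Kbar (FN (ℓ * M)) c) := fun c => by
    rw [gpVal_algebraMap, gpVal_algebraMap]
  refine ⟨_, e, heS, fun j i => ?_, fun c r hr j => ?_, hspan⟩
  · have h := maxNorm_le_iff.mp (heo.le_one j)
    fin_cases i
    · exact h.1
    · exact h.2
  · have h := (heo.maxNorm_ball_iff hL c r).mp
      ⟨by simpa using hr 0, by simpa using hr 1⟩ j
    rwa [gpVal_algebraMap] at h

end Cart

end Fermat.Agent.S35.helper882
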