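import Mathlib
import Fermat.Prelude.Def_CuspForm_HeckeGaloisRepDatum
import Fermat.Prelude.Def_CuspForm_Newforms
import Fermat.Prelude.Def_GaloisRep_LocalConditions
import Fermat.Agent.S30.helper54_CoreGlue

/-!
# S35: the algebraic side, on top of the landed S30 core (helper1307)

Route: findings #2739 (helper2039) with the delta of team_s35_chat #16.

The frozen statement S35 is split along ONE interface, `EigenDatumQ`: an S30 eigen-datum
(`Fermat.Agent.S30.helper54.EigenDatum`: a nonzero finite free module with a continuous Galois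
action and the Eichler-Shimura relation at the good Frobenius lifts) which satisfies in addition,
for every prime `q ≠ p` exactly dividing the level and every Frobenius lift `σ` at `q`, the
operator identity

  `(σ² - 1) (σ² - q²) = 0`.                                                         (Q)

On the q-new part of the Tate module of `J₀(M)` this identity follows from the two congruences
`(σ - U_q) V' ⊆ Tor` (bad-prime Eichler-Shimura at both cusps) and `(σ² - q²) Tor = 0`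
(Frobenius squared fixes every node and raises the glueing constants to the power `q²`), together
with `U_q² = 1` on the q-new part.

The algebra: the S30 core produces a rank-two representation `ρ'` over the SAME ring with
`charpoly (ρ' g) = X² - t(g) X + ε(g)` where `t(g)` is the scalar of the quadratic relation
`g² - t(g) g + ε(g) = 0` on the whole eigen-datum module.  At a Frobenius lift `σ` at `q` one has
`ε(σ) = q`, and the relation turns (Q) into `(t(σ)² - (q+1)²) σ² = 0`, hence `t(σ) = ± (q+1)`.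
No rank count, no multiplicity one, no pairing, no eigenvalue bookkeeping is needed.

* `sq_eq_of_quartic`        : the five-line algebra lemma;
* `conclusionQ_of_eigenDatumQ` : `Stmt_GenCheb → EigenDatumQ → ConclusionQ`;
* `result_of`               : the frozen statement S35 from `Stmt_EigenQ` and `Stmt_GenCheb`.
-/

set_option autoImplicit false

open Polynomial

namespace Fermat.Agent.S35.helper1307

open Fermat.Agent.S30.helper54

/-! ### The algebra lemma -/

/-- If an invertible endomorphism `f` of a nonzero torsion-free module satisfies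
`f² - t f + q = 0` and `(f² - 1)(f² - q²) = 0`, then `t² = (q + 1)²`. -/
theorem sq_eq_of_quartic {R : Type*} [CommRing R] [IsDomain R] {M : Type*} [AddCommGroup M]
    [Module R M] [Module.IsTorsionFree R M] [Nontrivial M] (f g : Module.End R M) (t q : R)
    (hfg : f * g = 1)
    (hrel : f * f - t • f + q • (1 : Module.End R M) = 0)
    (hQ : (f * f - 1) * (f * f - (q ^ 2) • (1 : Module.End R M)) = 0) :
    t ^ 2 = (q + 1) ^ 2 := by
  -- `f * f = t • f - q • 1`
  have h2 : f * f = t • f - q • (1 : Module.End R M) := by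
    have := hrel
    rw [sub_add_eq_add_sub, sub_eq_zero] at this
    rw [← this]
    abel
  -- the quartic, reduced modulo the quadratic relation
  have hmul : ∀ a b c d : R, (a • f + b • (1 : Module.End R M)) * (c • f + d • (1 : Module.End R M))
      = (a * c) • (f * f) + (a * d + b * c) • f + (b * d) • (1 : Module.End R M) := by
    intro a b c d
    simp only [add_mul, mul_add, smul_mul_assoc, mul_smul_comm, one_mul, mul_one]
    module
  have hA : f * f - 1 = t • f + (-q - 1) • (1 : Module.End R M) := by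
    rw [h2]
    module
  have hB : f * f - (q ^ 2) • (1 : Module.End R M) = t • f + (-q - q ^ 2) • (1 : Module.End R M) := by
    rw [h2]
    module
  have h4 : (f * f - 1) * (f * f - (q ^ 2) • (1 : Module.End R M))
      = (t ^ 2 - (q + 1) ^ 2) • (f * f) := by
    rw [hA, hB, hmul, h2]
    module
  rw [h4] at hQ
  -- cancel `f * f`
  have h5 : (t ^ 2 - (q + 1) ^ 2) • (1 : Module.End R M) = 0 := by
    have := congrArg (fun e : Module.End R M => e * (g * g)) hQ
    simp only [zero_mul, smul_mul_assoc] at this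
    have e1 : f * f * (g * g) = 1 := by
      rw [mul_assoc, ← mul_assoc f g g, hfg, one_mul, hfg]
    rwa [e1] at this
  obtain ⟨m, hm⟩ := exists_ne (0 : M)
  have h6 : (t ^ 2 - (q + 1) ^ 2) • m = 0 := by
    have := congrArg (fun e : Module.End R M => e m) h5
    simpa using this
  rcases smul_eq_zero.mp h6 with h | h
  · exact sub_eq_zero.mp h
  · exact absurd h hm

/-! ### The interface -/

/-- **Eigen-datum with the bad-prime identity (Q)**: an S30 eigen-datum on which, moreover, every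
Frobenius lift `σ` at a prime `q ≠ p` exactly dividing `N` satisfies `(σ² - 1)(σ² - q²) = 0`. -/
def EigenDatumQ (p N : ℕ) (S : Finset ℕ) (R : Type) [CommRing R] [IsLocalRing R] (a : ℕ → R) :
    Prop :=
  ∃ (M : Type) (_ : AddCommGroup M) (_ : Module R M) (_ : Module.Free R M) (_ : Module.Finite R M)
    (ρ : Gal →* Module.End R M),
    Nontrivial M ∧ GaloisActionIsAdicContinuous R ρ ∧
    (∀ q : ℕ, q.Prime → ¬ q ∣ N → q ≠ p →
      ∀ A : ValuationSubring (AlgebraicClosure ℚ), A.LiesOverPrime q →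
        ∀ σ ∈ A.inertiaSubgroupIn ℚ, ρ σ = 1) ∧
    (∀ ℓ : ℕ, ℓ.Prime → ¬ ℓ ∣ N → ℓ ∉ S →
      ∀ A : ValuationSubring (AlgebraicClosure ℚ), A.LiesOverPrime ℓ →
        ∀ σ : Gal, A.IsFrobeniusAt σ ℓ → ρ σ * ρ σ - a ℓ • ρ σ + (ℓ : R) • 1 = 0) ∧
    (∀ q : ℕ, q.Prime → q ≠ p → q ∣ N → ¬ q ^ 2 ∣ N →
      ∀ A : ValuationSubring (AlgebraicClosure ℚ), A.LiesOverPrime q →
        ∀ σ : Gal, A.IsFrobeniusAt σ q →
          (ρ σ * ρ σ - 1) * (ρ σ * ρ σ - ((q : R) ^ 2) • (1 : Module.End R M)) = 0)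

/-- An `EigenDatumQ` is in particular an S30 `EigenDatum`. -/
theorem EigenDatumQ.eigenDatum {p N : ℕ} {S : Finset ℕ} {R : Type} [CommRing R] [IsLocalRing R]
    {a : ℕ → R} (h : EigenDatumQ p N S R a) : EigenDatum p N S R a := by
  obtain ⟨M, i1, i2, i3, i4, ρ, hnt, hcont, hunr, hfrob, -⟩ := h
  exact ⟨M, i1, i2, i3, i4, ρ, hnt, hcont, hunr, hfrob⟩

/-- The conclusion of the frozen statement S35 for a family of eigenvalues `a`, over the
coefficient ring itself. -/
def ConclusionQ (p N : ℕ) (S : Finset ℕ) (𝒪' : Type) [CommRing 𝒪'] [IsLocalRing 𝒪']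
    (a : ℕ → 𝒪') : Prop :=
  ∃ ρ : GaloisRepAdic 𝒪',
    (∀ ℓ : ℕ, ℓ.Prime → ¬ ℓ ∣ N → ℓ ∉ (↑S : Set ℕ) →
      ∀ A : ValuationSubring (AlgebraicClosure ℚ), A.LiesOverPrime ℓ →
        ∀ σ : AlgebraicClosure ℚ ≃ₐ[ℚ] AlgebraicClosure ℚ, A.IsFrobeniusAt σ ℓ →
          LinearMap.charpoly (ρ.ρ σ) = X ^ 2 - C (a ℓ) * X + C ((ℓ : 𝒪'))) ∧
    (∀ q : ℕ, q.Prime → ¬ q ∣ N → q ≠ p → ρ.IsUnramifiedAt q) ∧
    (∀ q : ℕ, q.Prime → q ≠ p → q ∣ N → ¬ q ^ 2 ∣ N →
      ∀ A : ValuationSubring (AlgebraicClosure ℚ), A.LiesOverPrime q →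
        ∀ σ : AlgebraicClosure ℚ ≃ₐ[ℚ] AlgebraicClosure ℚ, A.IsFrobeniusAt σ q →
          LinearMap.charpoly (ρ.ρ σ) = X ^ 2 - C ((q : 𝒪') + 1) * X + C ((q : 𝒪')) ∨
          LinearMap.charpoly (ρ.ρ σ) = X ^ 2 + C ((q : 𝒪') + 1) * X + C ((q : 𝒪')))

/-! ### The core -/

/-- **The algebraic core of S35**: generator-Chebotarev and an eigen-datum with the identity (Q)
give a two-dimensional representation over the same ring with the exact characteristic
polynomials at the good primes AND at the primes exactly dividing the level. -/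
theorem conclusionQ_of_eigenDatumQ (p : ℕ) [Fact p.Prime] (N : ℕ) [NeZero N] (S : Finset ℕ)
    (hpS : p ∈ S)
    (𝒪' : Type) [CommRing 𝒪'] [IsDomain 𝒪'] [IsDiscreteValuationRing 𝒪']
    [IsAdicComplete (IsLocalRing.maximalIdeal 𝒪') 𝒪'] [Finite (IsLocalRing.ResidueField 𝒪')]
    [CharZero 𝒪'] (hp𝒪' : (p : 𝒪') ∈ IsLocalRing.maximalIdeal 𝒪') (a : ℕ → 𝒪')
    (hG : Stmt_GenCheb) (hE : EigenDatumQ p N S 𝒪' a) : ConclusionQ p N S 𝒪' a := by
  obtain ⟨M, i1, i2, i3, i4, ρ, hnt, hcont, hunr, hfrob, hQ⟩ := hE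
  obtain ⟨ε, hεc, hεu, hεf, hεo⟩ := stmt_Cyclo p 𝒪' hp𝒪'
  -- QUAD: a quadratic relation for every element
  have hquad : ∀ g : Gal, ∃ t : 𝒪', ρ g * ρ g - t • ρ g + ((ε g : 𝒪'ˣ) : 𝒪') • 1 = 0 := by
    intro g
    refine Fermat.Agent.S30.helper3194.exists_quadratic_of_genCheb hG ρ hcont ε hεc
      (S ∪ N.primeFactors) a ?_ g
    intro ℓ hℓ hℓT A hA σ hσ
    have hℓS : ℓ ∉ S := fun h => hℓT (Finset.mem_union_left _ h)
    have hℓN : ¬ ℓ ∣ N := fun h =>
      hℓT (Finset.mem_union_right _ (Nat.mem_primeFactors.mpr ⟨hℓ, h, NeZero.ne N⟩))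
    have hℓp : ℓ ≠ p := fun h => hℓS (h ▸ hpS)
    rw [hεf ℓ hℓ hℓp A hA σ hσ]
    exact hfrob ℓ hℓ hℓN hℓS A hA σ hσ
  choose t ht using hquad
  have hrel : ∀ (g : Gal) (m : M), ρ g (ρ g m) - t g • ρ g m + ((ε g : 𝒪'ˣ) : 𝒪') • m = 0 := by
    intro g m
    have h := congrArg (fun f : Module.End 𝒪' M => f m) (ht g)
    simpa using h
  have h2 : (2 : 𝒪') ≠ 0 := two_ne_zero
  have hεc' : ((ε complexConjugation : 𝒪'ˣ) : 𝒪') = -1 := by
    rw [hεo, Units.val_neg, Units.val_one]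
  obtain ⟨V, j1, j2, j3, j4, ρ', hrank, hchar, htriv, hcong⟩ :=
    Fermat.Agent.S30.helper2646.abstract_core h2 ρ t ε complexConjugation hrel
      complexConjugation_mul_self hεc'
  -- the scalar at a good Frobenius lift is the prescribed one
  have ht_frob : ∀ ℓ : ℕ, ℓ.Prime → ¬ ℓ ∣ N → ℓ ∉ S →
      ∀ A : ValuationSubring (AlgebraicClosure ℚ), A.LiesOverPrime ℓ →
        ∀ σ : Gal, A.IsFrobeniusAt σ ℓ → t σ = a ℓ ∧ ((ε σ : 𝒪'ˣ) : 𝒪') = (ℓ : 𝒪') := by
    intro ℓ hℓ hℓN hℓS A hA σ hσ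
    have hℓp : ℓ ≠ p := fun h => hℓS (h ▸ hpS)
    have hεσ : ((ε σ : 𝒪'ˣ) : 𝒪') = (ℓ : 𝒪') := hεf ℓ hℓ hℓp A hA σ hσ
    refine ⟨?_, hεσ⟩
    obtain ⟨m, hm⟩ := exists_ne (0 : M)
    have e1 := hrel σ (ρ σ⁻¹ m)
    have e2 := congrArg (fun f : Module.End 𝒪' M => f (ρ σ⁻¹ m)) (hfrob ℓ hℓ hℓN hℓS A hA σ hσ)
    have e3 : ρ σ (ρ σ⁻¹ m) = m := by
      rw [← Module.End.mul_apply, ← map_mul, mul_inv_cancel, map_one, Module.End.one_apply]
    rw [hεσ, e3] at e1
    simp only [LinearMap.add_apply, LinearMap.sub_apply, Module.End.mul_apply,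
      LinearMap.smul_apply, Module.End.one_apply, LinearMap.zero_apply] at e2
    rw [e3] at e2
    have e4 : (t σ - a ℓ) • m = 0 := by
      rw [sub_smul]
      have : t σ • m - a ℓ • m = (ρ σ m - a ℓ • m + (ℓ : 𝒪') • ρ σ⁻¹ m)
          - (ρ σ m - t σ • m + (ℓ : 𝒪') • ρ σ⁻¹ m) := by abel
      rw [this, e1, e2, sub_zero]
    rcases smul_eq_zero.mp e4 with h | h
    · exact sub_eq_zero.mp h
    · exact absurd h hm
  -- the scalar at a Frobenius lift at a prime exactly dividing the level is `± (q + 1)`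
  have ht_bad : ∀ q : ℕ, q.Prime → q ≠ p → q ∣ N → ¬ q ^ 2 ∣ N →
      ∀ A : ValuationSubring (AlgebraicClosure ℚ), A.LiesOverPrime q →
        ∀ σ : Gal, A.IsFrobeniusAt σ q →
          (t σ = (q : 𝒪') + 1 ∨ t σ = -((q : 𝒪') + 1)) ∧ ((ε σ : 𝒪'ˣ) : 𝒪') = (q : 𝒪') := by
    intro q hq hqp hqN hqN2 A hA σ hσ
    have hεσ : ((ε σ : 𝒪'ˣ) : 𝒪') = (q : 𝒪') := hεf q hq hqp A hA σ hσ
    refine ⟨?_, hεσ⟩
    have hfg : ρ σ * ρ σ⁻¹ = 1 := by rw [← map_mul, mul_inv_cancel, map_one]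
    have hr : ρ σ * ρ σ - t σ • ρ σ + (q : 𝒪') • (1 : Module.End 𝒪' M) = 0 := by
      have := ht σ
      rwa [hεσ] at this
    have hsq : t σ ^ 2 = ((q : 𝒪') + 1) ^ 2 :=
      sq_eq_of_quartic (ρ σ) (ρ σ⁻¹) (t σ) (q : 𝒪') hfg hr (hQ q hq hqp hqN hqN2 A hA σ hσ)
    rcases sq_eq_sq_iff_eq_or_eq_neg.mp hsq with h | h
    · exact Or.inl h
    · exact Or.inr h
  -- the representation
  let R : GaloisRepAdic 𝒪' :=
    { V := V
      finrank_eq := hrank
      ρ := ρ'
      isAdicContinuous := by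
        intro n
        obtain ⟨L₁, hL₁, h₁⟩ := hcont n
        obtain ⟨L₂, hL₂, h₂⟩ := hεc n
        have : FiniteDimensional ℚ (L₁ ⊔ L₂ : IntermediateField ℚ (AlgebraicClosure ℚ)) :=
          IntermediateField.finiteDimensional_sup L₁ L₂
        refine ⟨L₁ ⊔ L₂, inferInstance, fun σ hσ v => ?_⟩
        exact hcong (IsLocalRing.maximalIdeal 𝒪' ^ n) σ
          (h₁ σ fun x hx => hσ x ((le_sup_left : L₁ ≤ L₁ ⊔ L₂) hx))
          (h₂ σ fun x hx => hσ x ((le_sup_right : L₂ ≤ L₁ ⊔ L₂) hx)) v }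
  refine ⟨R, ?_, ?_, ?_⟩
  · intro ℓ hℓ hℓN hℓS A hA σ hσ
    obtain ⟨e1, e2⟩ := ht_frob ℓ hℓ hℓN (by simpa using hℓS) A hA σ hσ
    show LinearMap.charpoly (ρ' σ) = _
    rw [hchar σ, e1, e2]
  · intro q hq hqN hqp P hP σ hσ
    show ρ' σ = 1
    refine htriv σ (hunr q hq hqN hqp P hP σ hσ) ?_
    rw [hεu q hq hqp P hP σ hσ, Units.val_one]
  · intro q hq hqp hqN hqN2 A hA σ hσ
    obtain ⟨e1, e2⟩ := ht_bad q hq hqp hqN hqN2 A hA σ hσ
    show LinearMap.charpoly (ρ' σ) = _ ∨ LinearMap.charpoly (ρ' σ) = _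
    rcases e1 with e1 | e1
    · left
      rw [hchar σ, e1, e2]
    · right
      rw [hchar σ, e1, e2, C_neg, neg_mul, sub_neg_eq_add]

/-! ### The frozen statement -/

/-- **Geometric side of S35**: the eigensystem of a newform has an eigen-datum with the bad-prime
identity (Q) over every complete DVR receiving its Hecke eigenvalues. -/
def Stmt_EigenQ : Prop :=
  ∀ {M : ℕ} [NeZero M] {g : CuspForm (CongruenceSubgroup.Gamma0 M) 2} (_hg : g.IsNewform)
    (lam : ℕ) [Fact lam.Prime] (S : Finset ℕ)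
    (O' : Type) [CommRing O'] [IsDomain O'] [IsDiscreteValuationRing O']
    [IsAdicComplete (IsLocalRing.maximalIdeal O') O'] [Finite (IsLocalRing.ResidueField O')]
    [CharZero O'] (_hlamO' : (lam : O') ∈ IsLocalRing.maximalIdeal O')
    (chig : CuspForm.heckeAlgebra M 2 (↑S : Set ℕ) →+* ℂ)
    (_hchig : ∀ (ℓ : ℕ) (hℓ : ℓ.Prime) (hℓM : ¬ ℓ ∣ M) (hℓS : ℓ ∉ (↑S : Set ℕ)),
      chig (CuspForm.heckeAlgebra.T hℓ hℓM hℓS) = ModularFormClass.qCoeff g ℓ)
    (iota : chig.range →+* O')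
    (_hlamS : lam ∈ S) (_hMS : ∀ q : ℕ, q.Prime → q ∣ M → q ∈ S),
    EigenDatumQ lam M S O' (eigenvalue (iota.comp chig.rangeRestrict))

/-- **The frozen statement S35** from the geometric side `Stmt_EigenQ` and generator-Chebotarev
(the coefficient ring is not extended). -/
theorem result_of (hE : Stmt_EigenQ) (hG : Stmt_GenCheb)
    {M : ℕ} [NeZero M] {g : CuspForm (CongruenceSubgroup.Gamma0 M) 2} (hg : g.IsNewform)
    (lam : ℕ) [Fact lam.Prime]
    (S : Finset ℕ)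
    (O' : Type) [CommRing O'] [IsDomain O'] [IsDiscreteValuationRing O']
    [IsAdicComplete (IsLocalRing.maximalIdeal O') O'] [Finite (IsLocalRing.ResidueField O')]
    [CharZero O'] (hlamO' : (lam : O') ∈ IsLocalRing.maximalIdeal O')
    (chig : CuspForm.heckeAlgebra M 2 (↑S : Set ℕ) →+* ℂ)
    (hchig : ∀ (ℓ : ℕ) (hℓ : ℓ.Prime) (hℓM : ¬ ℓ ∣ M) (hℓS : ℓ ∉ (↑S : Set ℕ)),
      chig (CuspForm.heckeAlgebra.T hℓ hℓM hℓS) = ModularFormClass.qCoeff g ℓ)
    (iota : chig.range →+* O')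
    (hlamS : lam ∈ S) (hMS : ∀ q : ℕ, q.Prime → q ∣ M → q ∈ S)
    :
    ∃ (O'' : Type) (_ : CommRing O'') (_ : IsDomain O'') (_ : IsDiscreteValuationRing O'')
      (_ : IsAdicComplete (IsLocalRing.maximalIdeal O'') O'') (_ : Finite (IsLocalRing.ResidueField O''))
      (_ : CharZero O'') (_ : Algebra O' O'') (_ : Module.Finite O' O'') (_ : IsLocalHom (algebraMap O' O'')),
      Function.Injective (algebraMap O' O'') ∧
      ∃ ρ : GaloisRepAdic O'',
        (∀ (ℓ : ℕ) (hℓ : ℓ.Prime) (hℓM : ¬ ℓ ∣ M) (hℓS : ℓ ∉ (↑S : Set ℕ)),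
          ∀ A : ValuationSubring (AlgebraicClosure ℚ), A.LiesOverPrime ℓ →
            ∀ σ : AlgebraicClosure ℚ ≃ₐ[ℚ] AlgebraicClosure ℚ, A.IsFrobeniusAt σ ℓ →
              LinearMap.charpoly (ρ.ρ σ) =
                X ^ 2 - C (algebraMap O' O'' ((iota.comp chig.rangeRestrict) (CuspForm.heckeAlgebra.T hℓ hℓM hℓS))) * X
                  + C ((ℓ : O''))) ∧
        (∀ q : ℕ, q.Prime → q ≠ lam → q ∣ M → ¬ q ^ 2 ∣ M →
          ∀ A : ValuationSubring (AlgebraicClosure ℚ), A.LiesOverPrime q →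
            ∀ σ : AlgebraicClosure ℚ ≃ₐ[ℚ] AlgebraicClosure ℚ, A.IsFrobeniusAt σ q →
              LinearMap.charpoly (ρ.ρ σ) = X ^ 2 - C ((q : O'') + 1) * X + C ((q : O'')) ∨
              LinearMap.charpoly (ρ.ρ σ) = X ^ 2 + C ((q : O'') + 1) * X + C ((q : O''))) := by
  obtain ⟨ρ, h1, -, h3⟩ :=
    conclusionQ_of_eigenDatumQ lam M S hlamS O' hlamO' (eigenvalue (iota.comp chig.rangeRestrict)) hG
      (hE hg lam S O' hlamO' chig hchig iota hlamS hMS)
  refine ⟨O', inferInstance, inferInstance, inferInstance, inferInstance, inferInstance,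
    inferInstance, Algebra.id O', inferInstance, ?_, Function.injective_id, ρ, ?_, h3⟩
  · show IsLocalHom (RingHom.id O')
    infer_instance
  · intro ℓ hℓ hℓM hℓS A hA σ hσ
    rw [h1 ℓ hℓ hℓM hℓS A hA σ hσ, eigenvalue_eq (iota.comp chig.rangeRestrict) hℓ hℓM hℓS]
    rfl

end Fermat.Agent.S35.helper1307
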