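import Mathlib
import Fermat.Agent.S30.helper1094_E1
import Fermat.Agent.S30.helper501_Transport
import Fermat.Agent.S30.helper767_TateFin
import Fermat.Agent.S30.helper1094_Eigen
import Fermat.Agent.S35.helper1307_CoreQ

/-!
# S35-E1Q: the geometry-free glue `JDatumQ → EigenDatumRel`  (helper1989)

The S35 twin of the landed S30 leaf `helper1094.stmt_E1_of` (`JDatum → EigenDatum`).

Route (chat #16 / #25 of `team_s35_chat`): clause 2 of the frozen S35 follows from the S30 core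
as soon as the eigen-datum satisfies, for every `q ∥ M`, `q ≠ λ` and every Frobenius lift `σ`
at `q`, the extra relation `(σ² - 1)(σ² - q²) = 0`.  Geometrically this relation holds on the
`q`-new part of the `λ`-power torsion of `J₀(M)`, i.e. on the common kernel of the operators
`U_q + W_q` and `U_q W_q + 1`; it does NOT hold on all of `J₀(M)[λ^∞]`.

This file provides the construction of the eigen-lattice inside the common kernel of a finite
family of "kernel operators", with transfer of EVERY group-ring relation that holds on that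
kernel:

* `baseChange_eq_zero_of_forall_ker` : flat base change of a relation valid on a common kernel;
* `JDatumQ p N S 𝒪' a Rel` : the S30 `JDatum` fields, a finite family `B k` of additive
  operators on `J` commuting with the Galois action, a set `Rel` of elements of the group ring
  `ℤ[G_ℚ]` killing `J[p^∞] ∩ ⋂ ker B k`, and lattice-level occurrence of the eigensystem inside
  the kernel of the lattice twins `b k` of the `B k`;
* `EigenDatumRel p N S R a Rel` : `helper54.EigenDatum` together with `ρ(r) = 0` for `r ∈ Rel`;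
* `stmt_E1Q` : `JDatumQ → EigenDatumRel`;
* `relQ p N`, `eigenDatumQ_of_rel`, `stmt_E1Q_relQ` : the relations `σ⁴ - (q² + 1) σ² + q²` for
  Frobenius lifts at `q ∥ N`, `q ≠ p`; with them the conclusion is the landed
  `helper1307.EigenDatumQ` (input of the landed core `helper1307.result_of`);
* `Stmt_KerOps`, `stmt_JQK_of`, `result_of_kerOps` : the frozen statement S35 from the S30
  machine statements (U), (ES) at the good primes and ONE S35-specific statement about `J₀(M)`: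
  kernel operators `B k` commuting with Galois, the relation on `J₀(M)[λ^∞] ∩ ⋂ ker B k`, a
  lattice with twins of the Hecke operators and of the `B k`, and occurrence of every newform
  eigensystem in the kernel of the lattice twins.

Compared with `helper1307.JDatumQ` (where `J` itself must be the `q`-new subgroup, stable under
the `τ ℓ`, and the lattice must carry a faithful ring action through which the eigensystem
factors), the kernel-operator form needs NO commutation between the Hecke operators `T_ℓ` and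
`U_q`, `W_q` on `J₀(M)`, no sub-object and no ring action on the lattice: only an eigenvector.
-/

set_option autoImplicit false
set_option linter.style.haveILetI false

open scoped TensorProduct

namespace Fermat.Agent.S35.helper1989

open Fermat.Agent.S30.helper54 Fermat.Agent.Lib.helper4786 Fermat.Agent.Lib.helper9377
  Fermat.Agent.S30.helper4204

/-! ### Part A: relations valid on a kernel survive a flat base change -/

section KerBaseChange

variable {R : Type*} [CommRing R] {O : Type*} [CommRing O] [Algebra R O] [Module.Flat R O]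
variable {T : Type*} [AddCommGroup T] [Module R T]

/-- If `f` vanishes on the kernel of `B`, then `f ⊗ 1` vanishes on the kernel of `B ⊗ 1`
(`O` flat over `R`). -/
theorem baseChange_eq_zero_of_ker {P Q : Type*} [AddCommGroup P] [Module R P]
    [AddCommGroup Q] [Module R Q] (B : T →ₗ[R] P) (f : T →ₗ[R] Q)
    (hf : ∀ t : T, B t = 0 → f t = 0) (x : O ⊗[R] T) (hx : B.baseChange O x = 0) :
    f.baseChange O x = 0 := by
  have hex : Function.Exact ((LinearMap.ker B).subtype.lTensor O) (B.lTensor O) :=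
    Module.Flat.lTensor_exact O (LinearMap.exact_subtype_ker_map B)
  have hx' : B.lTensor O x = 0 := by
    rw [← LinearMap.baseChange_eq_ltensor]; exact hx
  obtain ⟨y, rfl⟩ := (hex x).mp hx'
  have h0 : f.comp (LinearMap.ker B).subtype = 0 := by
    ext t
    exact hf t.1 t.2
  rw [LinearMap.baseChange_eq_ltensor, ← LinearMap.comp_apply, ← LinearMap.lTensor_comp, h0,
    LinearMap.lTensor_zero, LinearMap.zero_apply]

/-- Finite-family version: if `f` vanishes on the common kernel of the `β k`, then `f ⊗ 1`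
vanishes on the common kernel of the `β k ⊗ 1`. -/
theorem baseChange_eq_zero_of_forall_ker {κ : Type*} [Finite κ] {Q : Type*} [AddCommGroup Q]
    [Module R Q] (β : κ → Module.End R T) (f : T →ₗ[R] Q)
    (hf : ∀ t : T, (∀ k, β k t = 0) → f t = 0) (x : O ⊗[R] T)
    (hx : ∀ k, (β k).baseChange O x = 0) : f.baseChange O x = 0 := by
  classical
  cases nonempty_fintype κ
  refine baseChange_eq_zero_of_ker (LinearMap.pi β) f (fun t ht => hf t fun k => ?_) x ?_
  · have := congrFun ht k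
    simpa using this
  · -- the components of `(pi β) ⊗ 1` are the `β k ⊗ 1`
    have hcomp : ∀ (y : O ⊗[R] T) (k : κ),
        TensorProduct.piRight R R O (fun _ : κ => T) ((LinearMap.pi β).baseChange O y) k
          = (β k).baseChange O y := by
      intro y k
      induction y using TensorProduct.induction_on with
      | zero => simp
      | tmul c t =>
        rw [LinearMap.baseChange_tmul, TensorProduct.piRight_apply,
          TensorProduct.piRightHom_tmul, LinearMap.baseChange_tmul]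
        rfl
      | add y z hy hz =>
        rw [map_add, map_add, Pi.add_apply, hy, hz, map_add]
    apply (TensorProduct.piRight R R O (fun _ : κ => T)).injective
    rw [map_zero]
    funext k
    rw [hcomp x k, hx k]
    rfl

end KerBaseChange

/-! ### Part B: the data -/

/-- **Eigen-datum with relations**: `helper54.EigenDatum` (nonzero finite free module with an
adically continuous Galois action, unramified outside `N p`, Eichler–Shimura relation at the
good primes) on which every element `r` of the set `Rel ⊆ ℤ[G_ℚ]` acts as zero. -/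
def EigenDatumRel (p N : ℕ) (S : Finset ℕ) (R : Type) [CommRing R] [IsLocalRing R] (a : ℕ → R)
    (Rel : Set (Gal →₀ ℤ)) : Prop :=
  ∃ (M : Type) (_ : AddCommGroup M) (_ : Module R M) (_ : Module.Free R M) (_ : Module.Finite R M)
    (ρ : Gal →* Module.End R M),
    Nontrivial M ∧ GaloisActionIsAdicContinuous R ρ ∧
    (∀ q : ℕ, q.Prime → ¬ q ∣ N → q ≠ p →
      ∀ A : ValuationSubring (AlgebraicClosure ℚ), A.LiesOverPrime q →
        ∀ σ ∈ A.inertiaSubgroupIn ℚ, ρ σ = 1) ∧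
    (∀ ℓ : ℕ, ℓ.Prime → ¬ ℓ ∣ N → ℓ ∉ S →
      ∀ A : ValuationSubring (AlgebraicClosure ℚ), A.LiesOverPrime ℓ →
        ∀ σ : Gal, A.IsFrobeniusAt σ ℓ → ρ σ * ρ σ - a ℓ • ρ σ + (ℓ : R) • 1 = 0) ∧
    (∀ r ∈ Rel, (r.sum fun g c => (c : R) • ρ g) = 0)

/-- An eigen-datum with relations is an eigen-datum. -/
theorem EigenDatumRel.eigenDatum {p N : ℕ} {S : Finset ℕ} {R : Type} [CommRing R] [IsLocalRing R]
    {a : ℕ → R} {Rel : Set (Gal →₀ ℤ)} (h : EigenDatumRel p N S R a Rel) :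
    EigenDatum p N S R a := by
  obtain ⟨M, i1, i2, i3, i4, ρ, h1, h2, h3, h4, -⟩ := h
  exact ⟨M, i1, i2, i3, i4, ρ, h1, h2, h3, h4⟩

/-- **Abstract Jacobian datum with kernel operators and relations.**

The fields of the S30 `helper1094.JDatum` (without the ring action on the lattice), together with

* a finite family `B k` of additive operators on `J` commuting with the Galois action
  (in the application: `U_q + W_q` and `U_q W_q + 1` for the primes `q ∥ N`, `q ≠ p`);
* `(rel)`: every `r ∈ Rel` kills the points of `p`-power order in the common kernel of the `B k`;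
* `(occ)`: a lattice `Λ` with operators `t ℓ`, `b k`, level-wise injections `Λ / p ^ n → J[p ^ n]`
  compatible in `n` and intertwining `t ℓ` with `τ ℓ` and `b k` with `B k`, and a nonzero
  element of `𝒪' ⊗ Λ` which is an eigenvector of the `t ℓ` with eigenvalues `a ℓ` and is killed
  by the `b k`.

No commutation between the `τ ℓ` and the `B k`, or among the `B k`, is required. -/
def JDatumQ (p N : ℕ) (S : Finset ℕ) (𝒪' : Type) [CommRing 𝒪'] (a : ℕ → 𝒪')
    (Rel : Set (Gal →₀ ℤ)) : Prop :=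
  ∃ (J : Type) (_ : AddCommGroup J) (_ : DistribMulAction Gal J) (τ : ℕ → J →+ J)
    (κ : Type) (_ : Finite κ) (B : κ → J →+ J),
    -- (fin) finitely many `p`-torsion points
    Set.Finite {x : J | p • x = 0} ∧
    -- (lev) open stabilisers on `p`-power torsion
    (∀ x : J, (∃ n : ℕ, p ^ n • x = 0) →
      ∃ L : IntermediateField ℚ (AlgebraicClosure ℚ), FiniteDimensional ℚ L ∧
        ∀ σ : Gal, (∀ y ∈ L, σ y = y) → σ • x = x) ∧
    -- (comm) the operators `τ ℓ` commute with the Galois action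
    (∀ ℓ : ℕ, ℓ.Prime → ¬ ℓ ∣ N → ℓ ∉ S → ∀ (σ : Gal) (x : J), σ • τ ℓ x = τ ℓ (σ • x)) ∧
    -- (commB) the kernel operators commute with the Galois action
    (∀ (k : κ) (σ : Gal) (x : J), σ • B k x = B k (σ • x)) ∧
    -- (unr) inertia at `q ∤ N p` acts trivially on `p`-power torsion
    (∀ q : ℕ, q.Prime → ¬ q ∣ N → q ≠ p →
      ∀ A : ValuationSubring (AlgebraicClosure ℚ), A.LiesOverPrime q →
        ∀ σ ∈ A.inertiaSubgroupIn ℚ, ∀ x : J, (∃ n : ℕ, p ^ n • x = 0) → σ • x = x) ∧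
    -- (frob) Eichler–Shimura relation on `p`-power torsion
    (∀ ℓ : ℕ, ℓ.Prime → ¬ ℓ ∣ N → ℓ ∉ S →
      ∀ A : ValuationSubring (AlgebraicClosure ℚ), A.LiesOverPrime ℓ →
        ∀ σ : Gal, A.IsFrobeniusAt σ ℓ → ∀ x : J, (∃ n : ℕ, p ^ n • x = 0) →
          σ • σ • x - τ ℓ (σ • x) + ℓ • x = 0) ∧
    -- (rel) the relations hold on the `p`-power torsion killed by the kernel operators
    (∀ r ∈ Rel, ∀ x : J, (∃ n : ℕ, p ^ n • x = 0) → (∀ k, B k x = 0) →
      (r.sum fun g c => c • (g • x)) = 0) ∧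
    -- (occ) a lattice with level-wise equivariant injections and an eigenvector in the kernel
    ∃ (Λ : Type) (_ : AddCommGroup Λ) (_ : Module.Free ℤ Λ) (_ : Module.Finite ℤ Λ)
      (t : ℕ → Module.End ℤ Λ) (b : κ → Module.End ℤ Λ) (ι : ℕ → Λ →+ J),
      (∀ (n : ℕ) (x : Λ), p ^ n • ι n x = 0) ∧
      (∀ (n : ℕ) (x : Λ), ι n x = 0 → ∃ y : Λ, x = p ^ n • y) ∧
      (∀ (n : ℕ) (x : Λ), p • ι (n + 1) x = ι n x) ∧
      (∀ ℓ : ℕ, ℓ.Prime → ¬ ℓ ∣ N → ℓ ∉ S → ∀ (n : ℕ) (x : Λ), ι n (t ℓ x) = τ ℓ (ι n x)) ∧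
      (∀ (k : κ) (n : ℕ) (x : Λ), ι n (b k x) = B k (ι n x)) ∧
      ∃ y : 𝒪' ⊗[ℤ] Λ, y ≠ 0 ∧
        (∀ ℓ : ℕ, ℓ.Prime → ¬ ℓ ∣ N → ℓ ∉ S → (t ℓ).baseChange 𝒪' y = a ℓ • y) ∧
        (∀ k : κ, (b k).baseChange 𝒪' y = 0)

/-! ### Part C: the glue -/

section Glue

/-- Base change of an integral combination of endomorphisms, evaluated at a point. -/
theorem baseChange_intSum_apply {R O T : Type*} [CommRing R] [CommRing O] [Algebra R O]
    [AddCommGroup T] [Module R T] {G : Type*} (r : G →₀ ℤ) (ρ : G → Module.End R T)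
    (x : O ⊗[R] T) :
    (r.sum fun g c => (c : R) • ρ g).baseChange O x
      = r.sum fun g c => (c : O) • (ρ g).baseChange O x := by
  classical
  unfold Finsupp.sum
  have h1 : (∑ g ∈ r.support, ((r g : ℤ) : R) • ρ g).baseChange O
      = ∑ g ∈ r.support, (((r g : ℤ) : R) • ρ g).baseChange O :=
    map_sum (LinearMap.baseChangeHom R O T T) _ _
  rw [h1, LinearMap.sum_apply]
  refine Finset.sum_congr rfl fun g _ => ?_
  rw [LinearMap.baseChange_smul, LinearMap.smul_apply, Int.cast_smul_eq_zsmul]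
  exact (Int.cast_smul_eq_zsmul O (r g) _).symm

/-- Coordinates of an integral combination of the Galois action on the Tate module. -/
theorem tateRep_intSum_apply {J : Type*} [AddCommGroup J] {G : Type*} [Monoid G]
    [DistribMulAction G J] (p : ℕ) [Fact p.Prime] (r : G →₀ ℤ) (x : tateModule J p) (n : ℕ) :
    ((r.sum fun g c => (c : ℤ_[p]) • tateRep J p G g) x).1 n
      = r.sum fun g c => c • (g • x.1 n) := by
  classical
  unfold Finsupp.sum
  rw [LinearMap.sum_apply, tateModule.coe_sum_apply]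
  refine Finset.sum_congr rfl fun g _ => ?_
  rw [LinearMap.smul_apply, Int.cast_smul_eq_zsmul]
  rfl

/-- **E1Q**: an abstract Jacobian datum with kernel operators and relations gives an eigen-datum
with the same relations. -/
theorem stmt_E1Q (p : ℕ) [Fact p.Prime] (N : ℕ) (S : Finset ℕ)
    (𝒪' : Type) [CommRing 𝒪'] [IsDomain 𝒪'] [IsDiscreteValuationRing 𝒪']
    [IsAdicComplete (IsLocalRing.maximalIdeal 𝒪') 𝒪'] [Finite (IsLocalRing.ResidueField 𝒪')]
    [CharZero 𝒪'] (hp𝒪' : (p : 𝒪') ∈ IsLocalRing.maximalIdeal 𝒪') (a : ℕ → 𝒪')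
    (Rel : Set (Gal →₀ ℤ)) (hJ : JDatumQ p N S 𝒪' a Rel) : EigenDatumRel p N S 𝒪' a Rel := by
  obtain ⟨J, iJ1, iJ2, τ, κ, iκ, B, hfin, hlev, hcomm, hcommB, hunr, hfrob, hrel, Λ, iΛ1, iΛ2,
    iΛ3, t, b, ι, hι1, hι2, hι3, hι4, hι5, y, hy0, hyt, hyb⟩ := hJ
  have hp : p.Prime := Fact.out
  -- the `ℤ_p`-algebra structure
  letI alg𝒪 : Algebra ℤ_[p] 𝒪' := padicIntAlgebra p 𝒪' hp𝒪'
  have hinj : Function.Injective (algebraMap ℤ_[p] 𝒪') :=
    algebraMap_padicIntAlgebra_injective p 𝒪' hp𝒪'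
  haveI hOtf : Module.IsTorsionFree ℤ_[p] 𝒪' := by
    rw [Module.isTorsionFree_iff_smul_eq_zero]
    intro r x hrx
    rw [Algebra.smul_def, mul_eq_zero] at hrx
    rcases hrx with h | h
    · exact Or.inl (hinj (by rw [h, map_zero]))
    · exact Or.inr h
  haveI hOflat : Module.Flat ℤ_[p] 𝒪' := inferInstance
  -- the Tate module
  haveI hTfin : Module.Finite ℤ_[p] (tateModule J p) :=
    Fermat.Agent.S30.helper767.tateModule_finite_of_finite J p hfin
  haveI hTtf : Module.IsTorsionFree ℤ_[p] (tateModule J p) :=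
    Fermat.Agent.S30.helper1094.tateModule_isTorsionFree J p
  haveI hTfree : Module.Free ℤ_[p] (tateModule J p) := Module.free_of_finite_type_torsion_free'
  -- the actions
  let ρ : Gal →* Module.End ℤ_[p] (tateModule J p) := tateRep J p Gal
  let ι' : Type := {ℓ : ℕ // ℓ.Prime ∧ ¬ ℓ ∣ N ∧ ℓ ∉ S}
  let τ' : ι' → Module.End ℤ_[p] (tateModule J p) := fun i => tateEnd J p (τ i.1)
  let β' : κ → Module.End ℤ_[p] (tateModule J p) := fun k => tateEnd J p (B k)
  let fam : ι' ⊕ κ → Module.End ℤ_[p] (tateModule J p) := Sum.elim τ' β'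
  let eig : ι' ⊕ κ → 𝒪' := Sum.elim (fun i => a i.1) (fun _ => 0)
  have hc : ∀ g i, Commute (ρ g) (fam i) := by
    intro g i
    rcases i with i | k
    · show ρ g * τ' i = τ' i * ρ g
      ext x n
      exact hcomm i.1 i.2.1 i.2.2.1 i.2.2.2 g (x.1 n)
    · show ρ g * β' k = β' k * ρ g
      ext x n
      exact hcommB k g (x.1 n)
  let σf : ι' ⊕ κ → Module.End 𝒪' (𝒪' ⊗[ℤ_[p]] tateModule J p) :=
    fun i => (fam i).baseChange 𝒪'
  have hcb : ∀ g i, Commute (baseChangeRep 𝒪' ρ g) (σf i) :=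
    fun g i => commute_baseChange (hc g i)
  have hp0 : algebraMap ℤ_[p] 𝒪' (p : ℤ_[p]) ≠ 0 := by
    rw [map_natCast]
    exact Nat.cast_ne_zero.2 hp.ne_zero
  refine ⟨eigenLattice σf eig, inferInstance, inferInstance, inferInstance, inferInstance,
    eigRep σf eig (baseChangeRep 𝒪' ρ) hcb, ?_, ?_, ?_, ?_, ?_⟩
  · -- nontriviality: occurrence, transported into the Tate module
    rw [nontrivial_eigenLattice_iff]
    let j : Λ →+ tateModule J p :=
      { toFun := fun x => ⟨fun n => ι n x, ⟨fun n => hι1 n x, fun n => hι3 n x⟩⟩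
        map_zero' := by
          ext n
          exact map_zero (ι n)
        map_add' := fun x y => by
          ext n
          exact map_add (ι n) x y }
    have hj : ∀ (x : Λ) (n : ℕ), (j x).1 n = ι n x := fun _ _ => rfl
    have hsat : ∀ x : Λ, (∃ z : tateModule J p, j x = (p : ℤ_[p]) • z) →
        ∃ z : Λ, x = (p : ℤ) • z := by
      rintro x ⟨z, hz⟩
      have h0 : ι 1 x = 0 := by
        rw [← hj x 1, hz, tateModule.natCast_smul_apply]
        have := tateModule.pow_smul_apply z 1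
        rwa [pow_one] at this
      obtain ⟨w, hw⟩ := hι2 1 x h0
      exact ⟨w, by rw [hw, pow_one, natCast_zsmul]⟩
    obtain ⟨v, hv0, hv⟩ := Fermat.Agent.S30.helper501.exists_eigenvector_transport p
      (Sum.elim (fun i : ι' => t i.1) b) fam j
      (by
        intro i x
        rcases i with i | k
        · ext n
          exact hι4 i.1 i.2.1 i.2.2.1 i.2.2.2 n x
        · ext n
          exact hι5 k n x)
      (fun z hz => tateModule.eq_zero_of_p_smul_eq_zero z hz) hsat hinj eig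
      ⟨y, hy0, by
        intro i
        rcases i with i | k
        · exact hyt i.1 i.2.1 i.2.2.1 i.2.2.2
        · show (b k).baseChange 𝒪' y = (0 : 𝒪') • y
          rw [hyb k, zero_smul]⟩
    exact ⟨v, hv0, hv⟩
  · -- continuity
    intro n
    obtain ⟨L, hL, hLσ⟩ := Fermat.Agent.S30.helper1094.exists_common_level
      {x : J | p ^ n • x = 0} (Fermat.Agent.S30.helper1094.finite_pow_torsion p hfin n)
      (fun x hx => hlev x ⟨n, hx⟩)
    refine ⟨L, hL, fun σ hσ v => ?_⟩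
    refine eigRep_sub_mem σf eig (baseChangeRep 𝒪' ρ) hcb hp0 (n := n)
      (fun x => exists_baseChange_sub_eq_smul (fun z => ?_) x) (IsLocalRing.maximalIdeal 𝒪')
      (by rw [map_natCast]; exact hp𝒪') v
    refine (tateModule.apply_eq_zero_iff (ρ σ z - z) n).mp ?_
    show σ • z.1 n - z.1 n = 0
    rw [hLσ σ hσ (z.1 n) (tateModule.pow_smul_apply z n), sub_self]
  · -- unramified
    intro q hq' hqN hqp A hA σ hσ
    refine eigRep_eq_one σf eig (baseChangeRep 𝒪' ρ) hcb ?_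
    rw [baseChangeRep_apply,
      show ρ σ = 1 from tateRep_eq_one_of_forall σ fun x hx => hunr q hq' hqN hqp A hA σ hσ x hx,
      LinearMap.baseChange_one]
  · -- Frobenius
    intro ℓ hℓ hℓN hℓS A hA σ hσ
    have hrel' : ρ σ * ρ σ - τ' ⟨ℓ, hℓ, hℓN, hℓS⟩ * ρ σ
        + (ℓ : ℤ_[p]) • (1 : Module.End ℤ_[p] (tateModule J p)) = 0 := by
      ext x n
      have h2 := hfrob ℓ hℓ hℓN hℓS A hA σ hσ (x.1 n) ⟨n, tateModule.pow_smul_apply x n⟩
      rw [LinearMap.add_apply, LinearMap.sub_apply, LinearMap.smul_apply, Module.End.one_apply]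
      show (σ • σ • x.1 n - τ ℓ (σ • x.1 n)) + ((ℓ : ℤ_[p]) • x).1 n = 0
      rw [tateModule.natCast_smul_apply]
      exact h2
    have h := eigRep_quadratic σf eig (baseChangeRep 𝒪' ρ) hcb (g := σ)
      (i := Sum.inl ⟨ℓ, hℓ, hℓN, hℓS⟩) (c := algebraMap ℤ_[p] 𝒪' (ℓ : ℤ_[p]))
      (baseChange_quadratic hrel')
    rw [map_natCast] at h
    exact h
  · -- the relations
    intro r hr
    refine LinearMap.ext fun v => Subtype.ext ?_
    have hfker : ∀ x : tateModule J p, (∀ k, β' k x = 0) →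
        (r.sum fun g c => (c : ℤ_[p]) • ρ g) x = 0 := by
      intro x hx
      ext n
      have hxn : ∀ k, B k (x.1 n) = 0 := fun k =>
        congrArg (fun z : tateModule J p => z.1 n) (hx k)
      rw [tateRep_intSum_apply p r x n]
      exact hrel r hr (x.1 n) ⟨n, tateModule.pow_smul_apply x n⟩ hxn
    have hv : ∀ k, (β' k).baseChange 𝒪' (v : 𝒪' ⊗[ℤ_[p]] tateModule J p) = 0 := by
      intro k
      have h1 := mem_eigenLattice.1 v.2 (Sum.inr k)
      have h2 : σf (Sum.inr k) (v : 𝒪' ⊗[ℤ_[p]] tateModule J p)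
          = (0 : 𝒪') • (v : 𝒪' ⊗[ℤ_[p]] tateModule J p) := h1
      rw [zero_smul] at h2
      exact h2
    have h0 := baseChange_eq_zero_of_forall_ker (O := 𝒪') β'
      (r.sum fun g c => (c : ℤ_[p]) • ρ g) hfker (v : 𝒪' ⊗[ℤ_[p]] tateModule J p) hv
    rw [baseChange_intSum_apply] at h0
    rw [LinearMap.zero_apply, Submodule.coe_zero, ← h0]
    unfold Finsupp.sum
    rw [LinearMap.sum_apply, Submodule.coe_sum]
    refine Finset.sum_congr rfl fun g _ => ?_
    rw [LinearMap.smul_apply, Submodule.coe_smul, coe_eigRep, baseChangeRep_apply]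

end Glue

/-! ### Part D: the relations `σ⁴ - (q² + 1) σ² + q²` at the primes `q ∥ N` -/

section RelQ

/-- The element `σ⁴ - (q² + 1) σ² + q²` of the group ring `ℤ[G_ℚ]`. -/
noncomputable def frobRel (σ : Gal) (q : ℕ) : Gal →₀ ℤ :=
  Finsupp.single (σ ^ 4) 1 + Finsupp.single (σ ^ 2) (-((q : ℤ) ^ 2 + 1))
    + Finsupp.single 1 ((q : ℤ) ^ 2)

/-- The relations of S35: `σ⁴ - (q² + 1) σ² + q²` for the Frobenius lifts `σ` at the primes
`q ≠ p` dividing `N` exactly once. -/
def relQ (p N : ℕ) : Set (Gal →₀ ℤ) :=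
  {r | ∃ (q : ℕ) (A : ValuationSubring (AlgebraicClosure ℚ)) (σ : Gal),
    q.Prime ∧ q ≠ p ∧ q ∣ N ∧ ¬ q ^ 2 ∣ N ∧ A.LiesOverPrime q ∧ A.IsFrobeniusAt σ q ∧
      r = frobRel σ q}

/-- The action of `frobRel σ q` on a point. -/
theorem frobRel_sum_smul {J : Type*} [AddCommGroup J] [DistribMulAction Gal J] (σ : Gal) (q : ℕ)
    (x : J) :
    ((frobRel σ q).sum fun g c => c • (g • x))
      = σ • σ • σ • σ • x - (q ^ 2 + 1) • (σ • σ • x) + q ^ 2 • x := by
  have hz : ∀ g : Gal, (0 : ℤ) • (g • x) = 0 := fun g => zero_smul _ _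
  have ha : ∀ (g : Gal) (c₁ c₂ : ℤ), (c₁ + c₂) • (g • x) = c₁ • (g • x) + c₂ • (g • x) :=
    fun g c₁ c₂ => add_smul _ _ _
  unfold frobRel
  rw [Finsupp.sum_add_index' hz ha, Finsupp.sum_add_index' hz ha,
    Finsupp.sum_single_index (hz _), Finsupp.sum_single_index (hz _),
    Finsupp.sum_single_index (hz _), one_smul, one_smul, neg_smul, ← sub_eq_add_neg]
  have h4 : σ ^ 4 • x = σ • σ • σ • σ • x := by
    rw [show σ ^ 4 = σ * (σ * (σ * σ)) by rw [pow_succ', pow_succ', pow_succ', pow_one], mul_smul, mul_smul, mul_smul]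
  have h2 : σ ^ 2 • x = σ • σ • x := by
    rw [pow_two, mul_smul]
  have hc1 : ((q : ℤ) ^ 2 + 1) • (σ • σ • x) = (q ^ 2 + 1) • (σ • σ • x) := by
    rw [← natCast_zsmul]
    push_cast
    rfl
  have hc2 : ((q : ℤ) ^ 2) • x = q ^ 2 • x := by
    rw [← natCast_zsmul]
    push_cast
    rfl
  rw [h4, h2, hc1, hc2]

/-- The action of `frobRel σ q` through a representation. -/
theorem frobRel_sum_end {R M : Type*} [CommRing R] [AddCommGroup M] [Module R M]
    (ρ : Gal →* Module.End R M) (σ : Gal) (q : ℕ) :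
    ((frobRel σ q).sum fun g c => (c : R) • ρ g)
      = (ρ σ * ρ σ - 1) * (ρ σ * ρ σ - ((q : R) ^ 2) • (1 : Module.End R M)) := by
  have hz : ∀ g : Gal, ((0 : ℤ) : R) • ρ g = 0 := fun g => by rw [Int.cast_zero, zero_smul]
  have ha : ∀ (g : Gal) (c₁ c₂ : ℤ), ((c₁ + c₂ : ℤ) : R) • ρ g = (c₁ : R) • ρ g + (c₂ : R) • ρ g :=
    fun g c₁ c₂ => by rw [Int.cast_add, add_smul]
  unfold frobRel
  rw [Finsupp.sum_add_index' hz ha, Finsupp.sum_add_index' hz ha,
    Finsupp.sum_single_index (hz _), Finsupp.sum_single_index (hz _),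
    Finsupp.sum_single_index (hz _)]
  refine LinearMap.ext fun m => ?_
  have h4 : ρ (σ ^ 4) m = ρ σ (ρ σ (ρ σ (ρ σ m))) := by
    rw [show σ ^ 4 = σ * (σ * (σ * σ)) by rw [pow_succ', pow_succ', pow_succ', pow_one], map_mul, map_mul, map_mul]
    rfl
  have h2 : ρ (σ ^ 2) m = ρ σ (ρ σ m) := by
    rw [pow_two, map_mul]
    rfl
  simp only [LinearMap.add_apply, LinearMap.smul_apply, LinearMap.sub_apply,
    Module.End.mul_apply, Module.End.one_apply, map_sub, map_smul, map_one, h4, h2]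
  push_cast
  module

/-- `(rel)` of `JDatumQ` for `relQ p N`, from the pointwise statement. -/
theorem relQ_sum_smul_eq_zero {J : Type*} [AddCommGroup J] [DistribMulAction Gal J] {p N : ℕ}
    {P : J → Prop}
    (h : ∀ q : ℕ, q.Prime → q ≠ p → q ∣ N → ¬ q ^ 2 ∣ N →
      ∀ A : ValuationSubring (AlgebraicClosure ℚ), A.LiesOverPrime q →
        ∀ σ : Gal, A.IsFrobeniusAt σ q → ∀ x : J, P x →
          σ • σ • σ • σ • x - (q ^ 2 + 1) • (σ • σ • x) + q ^ 2 • x = 0) :
    ∀ r ∈ relQ p N, ∀ x : J, P x → (r.sum fun g c => c • (g • x)) = 0 := by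
  rintro r ⟨q, A, σ, hq, hqp, hqN, hq2, hA, hσ, rfl⟩ x hx
  rw [frobRel_sum_smul]
  exact h q hq hqp hqN hq2 A hA σ hσ x hx

/-- An eigen-datum with the relations `relQ p N` is an eigen-datum of S35 in the sense of
`helper1307.EigenDatumQ` (the input of the landed core `helper1307.result_of`). -/
theorem eigenDatumQ_of_rel {p N : ℕ} {S : Finset ℕ} {R : Type} [CommRing R] [IsLocalRing R]
    {a : ℕ → R} (h : EigenDatumRel p N S R a (relQ p N)) :
    Fermat.Agent.S35.helper1307.EigenDatumQ p N S R a := by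
  obtain ⟨M, i1, i2, i3, i4, ρ, h1, h2, h3, h4, h5⟩ := h
  refine ⟨M, i1, i2, i3, i4, ρ, h1, h2, h3, h4, ?_⟩
  intro q hq hqp hqN hq2 A hA σ hσ
  rw [← frobRel_sum_end ρ σ q]
  exact h5 _ ⟨q, A, σ, hq, hqp, hqN, hq2, hA, hσ, rfl⟩

/-- **E1Q for S35**: an abstract Jacobian datum with kernel operators on whose kernel the
relations `σ⁴ - (q² + 1) σ² + q² = 0` hold gives an eigen-datum of S35. -/
theorem stmt_E1Q_relQ (p : ℕ) [Fact p.Prime] (N : ℕ) (S : Finset ℕ)
    (𝒪' : Type) [CommRing 𝒪'] [IsDomain 𝒪'] [IsDiscreteValuationRing 𝒪']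
    [IsAdicComplete (IsLocalRing.maximalIdeal 𝒪') 𝒪'] [Finite (IsLocalRing.ResidueField 𝒪')]
    [CharZero 𝒪'] (hp𝒪' : (p : 𝒪') ∈ IsLocalRing.maximalIdeal 𝒪') (a : ℕ → 𝒪')
    (hJ : JDatumQ p N S 𝒪' a (relQ p N)) : Fermat.Agent.S35.helper1307.EigenDatumQ p N S 𝒪' a :=
  eigenDatumQ_of_rel (stmt_E1Q p N S 𝒪' hp𝒪' a (relQ p N) hJ)

end RelQ

/-! ### Part E: the frozen statement S35 from the machine statements -/

section Frozen

open ModularCurve Fermat.Agent.S30.helper1094 Fermat.Agent.S30.helper831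

/-- **Geometric side of S35, kernel-operator form**: the eigensystem of a newform has an abstract
Jacobian datum with kernel operators on whose kernel the relations `relQ` hold. -/
def Stmt_JQK : Prop :=
  ∀ {M : ℕ} [NeZero M] {g : CuspForm (CongruenceSubgroup.Gamma0 M) 2} (_hg : g.IsNewform)
    (lam : ℕ) [Fact lam.Prime] (S : Finset ℕ)
    (O' : Type) [CommRing O'] [IsDomain O'] [IsDiscreteValuationRing O']
    [IsAdicComplete (IsLocalRing.maximalIdeal O') O'] [Finite (IsLocalRing.ResidueField O')]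
    [CharZero O'] (_hlamO' : (lam : O') ∈ IsLocalRing.maximalIdeal O')
    (chig : CuspForm.heckeAlgebra M 2 (↑S : Set ℕ) →+* ℂ)
    (_hchig : ∀ (ℓ : ℕ) (hℓ : ℓ.Prime) (hℓM : ¬ ℓ ∣ M) (hℓS : ℓ ∉ (↑S : Set ℕ)),
      chig (CuspForm.heckeAlgebra.T hℓ hℓM hℓS) = ModularFormClass.qCoeff g ℓ)
    (iota : chig.range →+* O')
    (_hlamS : lam ∈ S) (_hMS : ∀ q : ℕ, q.Prime → q ∣ M → q ∈ S),
    JDatumQ lam M S O' (eigenvalue (iota.comp chig.rangeRestrict)) (relQ lam M)

/-- `helper1307.Stmt_EigenQ` from `Stmt_JQK`. -/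
theorem stmt_EigenQ_of_jqk (hJ : Stmt_JQK) : Fermat.Agent.S35.helper1307.Stmt_EigenQ := by
  intro M _ g hg lam _ S O' _ _ _ _ _ _ hlamO' chig hchig iota hlamS hMS
  exact stmt_E1Q_relQ lam M S O' hlamO' _ (hJ hg lam S O' hlamO' chig hchig iota hlamS hMS)

/-- **The S35-specific machine statement: kernel operators on `J₀(M)`.**

For every level `M`, prime `lam` and set `S` there are

* a finite family `B k` of additive operators on `J₀(M)` commuting with the Galois action
  (intended: `U_q + W_q` and `U_q W_q + 1` for the primes `q ∥ M`, `q ≠ lam`);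
* `(rel)`: for a Frobenius lift `σ` at a prime `q ≠ lam` dividing `M` exactly once and a point `x`
  of `lam`-power order killed by all `B k`: `σ⁴ x - (q² + 1) σ² x + q² x = 0`
  (from `(σ - U_q) x ∈ Tor` and `σ² = q²` on `Tor`);
* a lattice `Λ` with operators `t ℓ`, `b k` and level-wise injections `Λ / lam ^ n → J₀(M)[lam ^ n]`,
  compatible in `n`, intertwining `t ℓ` with the Hecke operator at the good primes `ℓ` and `b k`
  with `B k`;
* `(occ)`: for every newform `g` of level `M` and every ring homomorphism `iota` from its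
  coefficient ring to a complete DVR `O'` of residue characteristic `lam`, a nonzero element of
  `O' ⊗ Λ` on which `t ℓ` acts by `iota (a_ℓ(g))` and which is killed by the `b k`. -/
def Stmt_KerOps : Prop :=
  ∀ (M : ℕ) [NeZero M] (lam : ℕ) [Fact lam.Prime] (S : Finset ℕ)
    (_hlamS : lam ∈ S) (_hMS : ∀ q : ℕ, q.Prime → q ∣ M → q ∈ S),
    ∃ (κ : Type) (_ : Finite κ) (B : κ → JZero M →+ JZero M),
      (∀ (k : κ) (σ : Gal) (x : JZero M), σ • B k x = B k (σ • x)) ∧
      (∀ q : ℕ, q.Prime → q ≠ lam → q ∣ M → ¬ q ^ 2 ∣ M →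
        ∀ A : ValuationSubring (AlgebraicClosure ℚ), A.LiesOverPrime q →
          ∀ σ : Gal, A.IsFrobeniusAt σ q →
            ∀ x : JZero M, ((∃ n : ℕ, lam ^ n • x = 0) ∧ ∀ k, B k x = 0) →
              σ • σ • σ • σ • x - (q ^ 2 + 1) • (σ • σ • x) + q ^ 2 • x = 0) ∧
      ∃ (Λ : Type) (_ : AddCommGroup Λ) (_ : Module.Free ℤ Λ) (_ : Module.Finite ℤ Λ)
        (t : ℕ → Module.End ℤ Λ) (b : κ → Module.End ℤ Λ) (ι : ℕ → Λ →+ JZero M),
        (∀ (n : ℕ) (x : Λ), lam ^ n • ι n x = 0) ∧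
        (∀ (n : ℕ) (x : Λ), ι n x = 0 → ∃ y : Λ, x = lam ^ n • y) ∧
        (∀ (n : ℕ) (x : Λ), lam • ι (n + 1) x = ι n x) ∧
        (∀ (ℓ : ℕ) (hℓ : ℓ.Prime), ¬ ℓ ∣ M → ℓ ∉ S → ∀ (n : ℕ) (x : Λ),
          ι n (t ℓ x) = heckeOperatorBar M ⟨ℓ, hℓ⟩ (ι n x)) ∧
        (∀ (k : κ) (n : ℕ) (x : Λ), ι n (b k x) = B k (ι n x)) ∧
        ∀ {g : CuspForm (CongruenceSubgroup.Gamma0 M) 2} (_hg : g.IsNewform)
          (O' : Type) [CommRing O'] [IsDomain O'] [IsDiscreteValuationRing O']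
          [IsAdicComplete (IsLocalRing.maximalIdeal O') O'] [Finite (IsLocalRing.ResidueField O')]
          [CharZero O'] (_hlamO' : (lam : O') ∈ IsLocalRing.maximalIdeal O')
          (chig : CuspForm.heckeAlgebra M 2 (↑S : Set ℕ) →+* ℂ)
          (_hchig : ∀ (ℓ : ℕ) (hℓ : ℓ.Prime) (hℓM : ¬ ℓ ∣ M) (hℓS : ℓ ∉ (↑S : Set ℕ)),
            chig (CuspForm.heckeAlgebra.T hℓ hℓM hℓS) = ModularFormClass.qCoeff g ℓ)
          (iota : chig.range →+* O'),
          ∃ y : O' ⊗[ℤ] Λ, y ≠ 0 ∧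
            (∀ (ℓ : ℕ) (hℓ : ℓ.Prime) (hℓM : ¬ ℓ ∣ M) (hℓS : ℓ ∉ (↑S : Set ℕ)),
              (t ℓ).baseChange O' y
                = (iota.comp chig.rangeRestrict) (CuspForm.heckeAlgebra.T hℓ hℓM hℓS) • y) ∧
            (∀ k : κ, (b k).baseChange O' y = 0)

/-- **`Stmt_JQK` from the machine statements**: the operator-wise (U), (ES) on `lam`-power
torsion at the good primes (the S30 machine statements) and the kernel operators. -/
theorem stmt_JQK_of (hU : Stmt_UPow) (hES : Stmt_ESPow) (hK : Stmt_KerOps) : Stmt_JQK := by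
  intro M _ g hg lam _ S O' _ _ _ _ _ _ hlamO' chig hchig iota hlamS hMS
  have hp : lam.Prime := Fact.out
  have hNp : ∀ ℓ : ℕ, ℓ.Prime → ¬ ℓ ∣ M → ℓ ≠ lam → ¬ ℓ ∣ M * lam := by
    intro ℓ hℓ hℓN hℓp hdvd
    rcases (Nat.Prime.dvd_mul hℓ).mp hdvd with h | h
    · exact hℓN h
    · exact hℓp ((Nat.prime_dvd_prime_iff_eq hℓ hp).mp h)
  have hSp : ∀ ℓ : ℕ, ℓ ∉ S → ℓ ≠ lam := fun ℓ hℓS h => hℓS (h ▸ hlamS)
  obtain ⟨κ, iκ, B, hcommB, hrel, Λ, i1, i2, i3, t, b, ι, hι1, hι2, hι3, hι4, hι5, hocc⟩ :=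
    hK M lam S hlamS hMS
  obtain ⟨y, hy0, hyt, hyb⟩ := hocc hg O' hlamO' chig hchig iota
  refine ⟨JZero M, inferInstance, inferInstance, tauBar M, κ, iκ, B, stmt_TorsFin M lam,
    fun x _ => Fermat.Agent.S30.helper30.stmt_FinLevel M x, ?_, hcommB, ?_, ?_, ?_, Λ, i1, i2, i3,
    t, b, ι, hι1, hι2, hι3, ?_, hι5, y, hy0, ?_, hyb⟩
  · intro ℓ hℓ _ _ σ x
    rw [tauBar_apply M hℓ, tauBar_apply M hℓ]
    exact Fermat.Agent.S30.helper30.stmt_GalHecke M ⟨ℓ, hℓ⟩ σ x
  · intro q hq hqN hqp A hA σ hσ x hx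
    exact hU M lam hp q hq (hNp q hq hqN hqp) A hA σ hσ x hx
  · intro ℓ hℓ hℓN hℓS A hA σ hσ x hx
    rw [tauBar_apply M hℓ]
    exact hES M lam hp ℓ hℓ (hNp ℓ hℓ hℓN (hSp ℓ hℓS)) A hA σ hσ x hx
  · intro r hr x hx hxB
    exact relQ_sum_smul_eq_zero (P := fun x : JZero M => (∃ n : ℕ, lam ^ n • x = 0) ∧ ∀ k, B k x = 0)
      hrel r hr x ⟨hx, hxB⟩
  · intro ℓ hℓ hℓN hℓS n x
    rw [tauBar_apply M hℓ]
    exact hι4 ℓ hℓ hℓN hℓS n x
  · intro ℓ hℓ hℓN hℓS
    rw [eigenvalue_eq _ hℓ hℓN (by exact_mod_cast hℓS)]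
    exact hyt ℓ hℓ hℓN (by exact_mod_cast hℓS)

open Polynomial in
/-- **The frozen statement S35** from the machine statements: (U), (ES) on `lam`-power torsion
at the good primes (shared with S30) and the kernel operators `Stmt_KerOps`. -/
theorem result_of_kerOps (hU : Stmt_UPow) (hES : Stmt_ESPow) (hK : Stmt_KerOps)
    {M : ℕ} [NeZero M] {g : CuspForm (CongruenceSubgroup.Gamma0 M) 2} (hg : g.IsNewform)
    (lam : ℕ) [Fact lam.Prime]
    (S : Finset ℕ)
    (O' : Type) [CommRing O'] [IsDomain O'] [IsDiscreteValuationRing O']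
    [IsAdicComplete (IsLocalRing.maximalIdeal O') O'] [Finite (IsLocalRing.ResidueField O')]
    [CharZero O'] (hlamO' : (lam : O') ∈ IsLocalRing.maximalIdeal O')
    (chig : CuspForm.heckeAlgebra M 2 (↑S : Set ℕ) →+* ℂ)
    (hchig : ∀ (ℓ : ℕ) (hℓ : ℓ.Prime) (hℓM : ¬ ℓ ∣ M) (hℓS : ℓ ∉ (↑S : Set ℕ)),
      chig (CuspForm.heckeAlgebra.T hℓ hℓM hℓS) = ModularFormClass.qCoeff g ℓ)
    (iota : chig.range →+* O')
    (hlamS : lam ∈ S) (hMS : ∀ q : ℕ, q.Prime → q ∣ M → q ∈ S)
    :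
    ∃ (O'' : Type) (_ : CommRing O'') (_ : IsDomain O'') (_ : IsDiscreteValuationRing O'')
      (_ : IsAdicComplete (IsLocalRing.maximalIdeal O'') O'') (_ : Finite (IsLocalRing.ResidueField O''))
      (_ : CharZero O'') (_ : Algebra O' O'') (_ : Module.Finite O' O'') (_ : IsLocalHom (algebraMap O' O'')),
      Function.Injective (algebraMap O' O'') ∧
      ∃ ρ : GaloisRepAdic O'',
        (∀ (ℓ : ℕ) (hℓ : ℓ.Prime) (hℓM : ¬ ℓ ∣ M) (hℓS : ℓ ∉ (↑S : Set ℕ)),
          ∀ A : ValuationSubring (AlgebraicClosure ℚ), A.LiesOverPrime ℓ →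
            ∀ σ : AlgebraicClosure ℚ ≃ₐ[ℚ] AlgebraicClosure ℚ, A.IsFrobeniusAt σ ℓ →
              LinearMap.charpoly (ρ.ρ σ) =
                X ^ 2 - C (algebraMap O' O'' ((iota.comp chig.rangeRestrict) (CuspForm.heckeAlgebra.T hℓ hℓM hℓS))) * X
                  + C ((ℓ : O''))) ∧
        (∀ q : ℕ, q.Prime → q ≠ lam → q ∣ M → ¬ q ^ 2 ∣ M →
          ∀ A : ValuationSubring (AlgebraicClosure ℚ), A.LiesOverPrime q →
            ∀ σ : AlgebraicClosure ℚ ≃ₐ[ℚ] AlgebraicClosure ℚ, A.IsFrobeniusAt σ q →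
              LinearMap.charpoly (ρ.ρ σ) = X ^ 2 - C ((q : O'') + 1) * X + C ((q : O'')) ∨
              LinearMap.charpoly (ρ.ρ σ) = X ^ 2 + C ((q : O'') + 1) * X + C ((q : O''))) :=
  Fermat.Agent.S35.helper1307.result_of (stmt_EigenQ_of_jqk (stmt_JQK_of hU hES hK))
    Fermat.Agent.S30.helper54.stmt_GenCheb
    hg lam S O' hlamO' chig hchig iota hlamS hMS

/-- The primes `q ≠ lam` dividing `M` exactly once. -/
def BadPrime (lam M q : ℕ) : Prop := q.Prime ∧ q ≠ lam ∧ q ∣ M ∧ ¬ q ^ 2 ∣ M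

theorem finite_badPrime (lam M : ℕ) [NeZero M] : Finite {q : ℕ // BadPrime lam M q} := by
  have hfin : {q : ℕ | BadPrime lam M q}.Finite :=
    Set.Finite.subset (Set.finite_Iic M) fun q hq =>
      Nat.le_of_dvd (Nat.pos_of_ne_zero (NeZero.ne M)) hq.2.2.1
  exact hfin.to_subtype

/-- **`Stmt_KerOps` in Atkin–Lehner form**: the kernel operators are `U_q + W_q` and
`U_q W_q + 1` for families `U q`, `W q` of additive operators on `J₀(M)` (only the values at
the primes `q ≠ lam` dividing `M` exactly once matter); the relation at `q` is only required on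
the points killed by the two operators AT `q`. -/
def Stmt_UWOps : Prop :=
  ∀ (M : ℕ) [NeZero M] (lam : ℕ) [Fact lam.Prime] (S : Finset ℕ)
    (_hlamS : lam ∈ S) (_hMS : ∀ q : ℕ, q.Prime → q ∣ M → q ∈ S),
    ∃ (U W : ℕ → JZero M →+ JZero M),
      (∀ q : ℕ, BadPrime lam M q → ∀ (σ : Gal) (x : JZero M), σ • U q x = U q (σ • x)) ∧
      (∀ q : ℕ, BadPrime lam M q → ∀ (σ : Gal) (x : JZero M), σ • W q x = W q (σ • x)) ∧
      (∀ q : ℕ, BadPrime lam M q →
        ∀ A : ValuationSubring (AlgebraicClosure ℚ), A.LiesOverPrime q →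
          ∀ σ : Gal, A.IsFrobeniusAt σ q →
            ∀ x : JZero M, (∃ n : ℕ, lam ^ n • x = 0) → U q x + W q x = 0 → U q (W q x) + x = 0 →
              σ • σ • σ • σ • x - (q ^ 2 + 1) • (σ • σ • x) + q ^ 2 • x = 0) ∧
      ∃ (Λ : Type) (_ : AddCommGroup Λ) (_ : Module.Free ℤ Λ) (_ : Module.Finite ℤ Λ)
        (t u w : ℕ → Module.End ℤ Λ) (ι : ℕ → Λ →+ JZero M),
        (∀ (n : ℕ) (x : Λ), lam ^ n • ι n x = 0) ∧
        (∀ (n : ℕ) (x : Λ), ι n x = 0 → ∃ y : Λ, x = lam ^ n • y) ∧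
        (∀ (n : ℕ) (x : Λ), lam • ι (n + 1) x = ι n x) ∧
        (∀ (ℓ : ℕ) (hℓ : ℓ.Prime), ¬ ℓ ∣ M → ℓ ∉ S → ∀ (n : ℕ) (x : Λ),
          ι n (t ℓ x) = heckeOperatorBar M ⟨ℓ, hℓ⟩ (ι n x)) ∧
        (∀ q : ℕ, BadPrime lam M q → ∀ (n : ℕ) (x : Λ), ι n (u q x) = U q (ι n x)) ∧
        (∀ q : ℕ, BadPrime lam M q → ∀ (n : ℕ) (x : Λ), ι n (w q x) = W q (ι n x)) ∧
        ∀ {g : CuspForm (CongruenceSubgroup.Gamma0 M) 2} (_hg : g.IsNewform)
          (O' : Type) [CommRing O'] [IsDomain O'] [IsDiscreteValuationRing O']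
          [IsAdicComplete (IsLocalRing.maximalIdeal O') O'] [Finite (IsLocalRing.ResidueField O')]
          [CharZero O'] (_hlamO' : (lam : O') ∈ IsLocalRing.maximalIdeal O')
          (chig : CuspForm.heckeAlgebra M 2 (↑S : Set ℕ) →+* ℂ)
          (_hchig : ∀ (ℓ : ℕ) (hℓ : ℓ.Prime) (hℓM : ¬ ℓ ∣ M) (hℓS : ℓ ∉ (↑S : Set ℕ)),
            chig (CuspForm.heckeAlgebra.T hℓ hℓM hℓS) = ModularFormClass.qCoeff g ℓ)
          (iota : chig.range →+* O'),
          ∃ y : O' ⊗[ℤ] Λ, y ≠ 0 ∧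
            (∀ (ℓ : ℕ) (hℓ : ℓ.Prime) (hℓM : ¬ ℓ ∣ M) (hℓS : ℓ ∉ (↑S : Set ℕ)),
              (t ℓ).baseChange O' y
                = (iota.comp chig.rangeRestrict) (CuspForm.heckeAlgebra.T hℓ hℓM hℓS) • y) ∧
            (∀ q : ℕ, BadPrime lam M q →
              (u q).baseChange O' y + (w q).baseChange O' y = 0 ∧
              (u q).baseChange O' ((w q).baseChange O' y) + y = 0)

/-- `Stmt_KerOps` from its Atkin–Lehner form. -/
theorem stmt_KerOps_of_uw (h : Stmt_UWOps) : Stmt_KerOps := by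
  intro M _ lam _ S hlamS hMS
  obtain ⟨U, W, hgU, hgW, hrel, Λ, i1, i2, i3, t, u, w, ι, hι1, hι2, hι3, hι4, hιu, hιw, hocc⟩ :=
    h M lam S hlamS hMS
  haveI := finite_badPrime lam M
  -- the kernel operators
  let B : {q : ℕ // BadPrime lam M q} × Bool → JZero M →+ JZero M := fun k =>
    if k.2 then (U k.1.1).comp (W k.1.1) + AddMonoidHom.id (JZero M) else U k.1.1 + W k.1.1
  let b : {q : ℕ // BadPrime lam M q} × Bool → Module.End ℤ Λ := fun k =>
    if k.2 then u k.1.1 * w k.1.1 + 1 else u k.1.1 + w k.1.1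
  have hB0 : ∀ (q : {q : ℕ // BadPrime lam M q}) (x : JZero M),
      B (q, false) x = U q.1 x + W q.1 x := fun _ _ => rfl
  have hB1 : ∀ (q : {q : ℕ // BadPrime lam M q}) (x : JZero M),
      B (q, true) x = U q.1 (W q.1 x) + x := fun _ _ => rfl
  have hb0 : ∀ q : {q : ℕ // BadPrime lam M q}, b (q, false) = u q.1 + w q.1 := fun _ => rfl
  have hb1 : ∀ q : {q : ℕ // BadPrime lam M q}, b (q, true) = u q.1 * w q.1 + 1 := fun _ => rfl
  refine ⟨{q : ℕ // BadPrime lam M q} × Bool, inferInstance, B, ?_, ?_, Λ, i1, i2, i3, t, b, ι,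
    hι1, hι2, hι3, hι4, ?_, ?_⟩
  · rintro ⟨q, c⟩ σ x
    cases c
    · rw [hB0, hB0, smul_add, hgU q.1 q.2, hgW q.1 q.2]
    · rw [hB1, hB1, smul_add, hgU q.1 q.2, hgW q.1 q.2]
  · intro q hq hqp hqM hq2 A hA σ hσ x hx
    have hbad : BadPrime lam M q := ⟨hq, hqp, hqM, hq2⟩
    have h0 := hx.2 (⟨q, hbad⟩, false)
    have h1 := hx.2 (⟨q, hbad⟩, true)
    rw [hB0] at h0
    rw [hB1] at h1
    exact hrel q hbad A hA σ hσ x hx.1 h0 h1
  · rintro ⟨q, c⟩ n x
    cases c
    · rw [hb0, hB0, LinearMap.add_apply, map_add, hιu q.1 q.2, hιw q.1 q.2]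
    · rw [hb1, hB1, LinearMap.add_apply, Module.End.mul_apply, Module.End.one_apply, map_add,
        hιu q.1 q.2, hιw q.1 q.2]
  · intro g hg O' _ _ _ _ _ _ hlamO' chig hchig iota
    obtain ⟨y, hy0, hyt, hyq⟩ := hocc hg O' hlamO' chig hchig iota
    refine ⟨y, hy0, hyt, ?_⟩
    rintro ⟨q, c⟩
    cases c
    · rw [hb0, LinearMap.baseChange_add, LinearMap.add_apply]
      exact (hyq q.1 q.2).1
    · rw [hb1, LinearMap.baseChange_add, LinearMap.baseChange_mul, LinearMap.baseChange_one,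
        LinearMap.add_apply, Module.End.mul_apply, Module.End.one_apply]
      exact (hyq q.1 q.2).2

end Frozen

end Fermat.Agent.S35.helper1989
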