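/-
S35-SPEC (helper2039, captain S35): the frozen statement S35 from its leaves.

Frozen S35: for a newform `g` of level `M` and a complete DVR `O'` of residue characteristic `lam`
receiving the coefficient ring of `g`, there are a finite extension `O''` and a Galois
representation `ρ` over `O''` with
  (1) `charpoly ρ(Frob_ℓ) = X² - a_ℓ X + ℓ` for `ℓ ∤ M`, `ℓ ∉ S`;
  (2) `charpoly ρ(Frob_q) = X² ∓ (q + 1) X + q` for the primes `q ≠ lam` with `q ∥ M`.

CHAIN OF RECORD (everything not listed as a leaf is discharged from landed modules):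

  S35 ⟸ `helper1989.result_of_kerOps`           (on main: CoreQ of helper1307 + E1Q of helper1989)
      ⟸ (U)   `helper831.Stmt_UPow`             S30 machine: inertia at good primes acts trivially
                                                 on `J₀(M)[lam^∞]`                    [S30 leaf]
      ⟸ (ES)  `helper831.Stmt_ESPow`            S30 machine: Eichler–Shimura on `J₀(M)[lam^∞]`
                                                                                      [S30 leaf]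
      ⟸ `helper1989.Stmt_UWOps`  ⟸  (this file, `stmt_UWOps_of_leaves`)
          ⟸ (TORFROB) `Stmt_TorFrob`            the ONLY geometry leaf: `σ² = q²` on the toric
                                                 part `K^∞ ⊓ W K^∞` of `J₀(M)[lam^k]`, `q ∥ M`
          ⟸ (LATUW)   `Stmt_LatUW`              the lattice tower with twins of `T_ℓ`, `U_q`,
                                                 `W_q` and the occurrence of the eigensystem of
                                                 `g` in the `q`-new part `(u+w)y = 0, (uw+1)y = 0`.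

CANONICAL OPERATORS on `JZero M` (fixed here; every consumer uses these):
  `uJ M q` = `helper1687.uOp M q` = `helper2106.uPic M q` (transpose correspondence `β_* α^*`);
  `wJ M q` = the action of `helper1073.atkinLehnerSemi M q _ _ _` (Atkin–Lehner, `q ∥ M`).

What is PROVED here from landed modules:
  * `galois_smul_uJ`, `galois_smul_wJ` : both commute with the Galois action (helper1687,
    helper1073);
  * `frobQuad` : for `x ∈ J₀(M)[lam^n]` with `U x + W x = 0`, `U (W x) + x = 0` and a Frobenius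
    lift `σ` at `q`: `σ⁴x - (q²+1)σ²x + q²x = 0`, from (TORFROB) and the landed Frobenius
    congruence `helper1687.frobenius_sub_uOp_mem_of_dvd` (`σx - Ux ∈ K^∞`):
    `W(σx - Ux) = σ(Wx) - U(Wx) ∈ K^∞`, so `σx - Ux ∈ K^∞ ⊓ W K^∞`; then apply `σ + U`;
  * `stmt_UWOps_of_leaves`, `result_of_leaves` (the frozen statement, binders verbatim).

  * `result_of_kf0` : the same with (U), (ES) replaced by the S18 export `Stmt_KF0All`
    (`S29/helper405_ESFinal`): frozen S35 ⟸ (KF0) + (TORFROB) + (LATUW);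
  * `result_of_torFrob_latUW` : (KF0) is the landed S18 export `helper789.stmt_KF0_all`, so
    frozen S35 ⟸ (TORFROB) + (LATUW) ALONE;
  * `wJ_kummerClass`, `uJ_kummerClass`, `wJ_eq_algEquiv_smul` : the operators on Kummer classes.

Sub-leaves of (TORFROB) (level restriction + descent) and the S34 twin (TORFIX) are stated at
the end, with their assembly.
-/
import Fermat.Agent.S35.helper1989_E1Q
import Fermat.Agent.S35.helper1687_UqCong
import Fermat.Agent.S35.helper1073_AtkinLehnerSwap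
import Fermat.Agent.S29.helper405_ESFinal
import Fermat.Agent.S18.helper789_KF0All

set_option autoImplicit false

open scoped TensorProduct

namespace Fermat.Agent.S35.helper2039

open ModularCurve AlgebraicCurve
open Fermat.Agent.S35.helper1989 (BadPrime)
open Fermat.Agent.S29.helper8217

local notation "Kbar" => AlgebraicClosure ℚ
local notation "GQ" => (AlgebraicClosure ℚ ≃ₐ[ℚ] AlgebraicClosure ℚ)

noncomputable section

/-! ### The canonical operators -/

/-- **The canonical `U_q` on `J₀(M)`**: `helper1687.uOp M q` (`= helper2106.uPic M q`), the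
transpose Prelude correspondence `β_* ∘ α^*`; `0` for `q = 0`. -/
def uJ (M q : ℕ) [NeZero M] : JZero M →+ JZero M :=
  if h : q = 0 then 0 else
    haveI : NeZero q := ⟨h⟩
    Fermat.Agent.S35.helper1687.uOp M q

theorem uJ_eq (M q : ℕ) [NeZero M] [NeZero q] : uJ M q = Fermat.Agent.S35.helper1687.uOp M q := by
  unfold uJ
  rw [dif_neg (NeZero.ne q)]

/-- **The canonical `W_q` on `J₀(M)`**: the action of the Atkin–Lehner automorphism
`helper1073.atkinLehnerSemi M q` for a prime `q` exactly dividing `M`; `0` otherwise. -/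
def wJ (M q : ℕ) [NeZero M] : JZero M →+ JZero M :=
  if h : q.Prime ∧ q ∣ M ∧ ¬ q ^ 2 ∣ M then
    DistribSMul.toAddMonoidHom (JZero M)
      (Fermat.Agent.S35.helper1073.atkinLehnerSemi M q h.1 h.2.1 h.2.2)
  else 0

theorem wJ_apply (M q : ℕ) [NeZero M] (hq : q.Prime) (hqM : q ∣ M) (hq2 : ¬ q ^ 2 ∣ M)
    (x : JZero M) :
    wJ M q x = Fermat.Agent.S35.helper1073.atkinLehnerSemi M q hq hqM hq2 • x := by
  unfold wJ
  rw [dif_pos ⟨hq, hqM, hq2⟩]
  rfl

/-- `U_q` commutes with the Galois action on `J₀(M)`. -/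
theorem galois_smul_uJ (M q : ℕ) [NeZero M] (σ : GQ) (x : JZero M) :
    σ • uJ M q x = uJ M q (σ • x) := by
  by_cases h : q = 0
  · unfold uJ
    rw [dif_pos h]
    simp
  · haveI : NeZero q := ⟨h⟩
    rw [uJ_eq]
    exact Fermat.Agent.S35.helper1687.galois_smul_uOp σ x

/-- `W_q` commutes with the Galois action on `J₀(M)`. -/
theorem galois_smul_wJ (M q : ℕ) [NeZero M] (σ : GQ) (x : JZero M) :
    σ • wJ M q x = wJ M q (σ • x) := by
  by_cases h : q.Prime ∧ q ∣ M ∧ ¬ q ^ 2 ∣ M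
  · rw [wJ_apply M q h.1 h.2.1 h.2.2, wJ_apply M q h.1 h.2.1 h.2.2]
    exact (Fermat.Agent.S35.helper1073.atkinLehnerSemi_smul_galois M q h.1 h.2.1 h.2.2 σ x).symm
  · unfold wJ
    rw [dif_neg h]
    simp

/-- `W_q` is an involution of `J₀(M)` (`q ∥ M`). -/
theorem wJ_wJ (M q : ℕ) [NeZero M] (hq : q.Prime) (hqM : q ∣ M) (hq2 : ¬ q ^ 2 ∣ M)
    (x : JZero M) : wJ M q (wJ M q x) = x := by
  rw [wJ_apply M q hq hqM hq2, wJ_apply M q hq hqM hq2]
  exact Fermat.Agent.S35.helper1073.atkinLehnerSemi_smul_smul M q hq hqM hq2 x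

/-- On torsion classes the canonical `W_q` is the Prelude action of the `ℚ̄`-automorphism
`helper1073.atkinLehnerBar` (the action used by `helper1687.kZero`). -/
theorem wJ_eq_algEquiv_smul (M q : ℕ) [NeZero M] (hq : q.Prime) (hqM : q ∣ M) (hq2 : ¬ q ^ 2 ∣ M)
    {n : ℕ} (hn : n ≠ 0) {x : JZero M} (hx : (n : ℤ) • x = 0) :
    wJ M q x = Fermat.Agent.S35.helper1073.atkinLehnerBar M q hq hqM hq2 • x := by
  obtain ⟨u, -, rfl⟩ := exists_kummerClass_eq hn (Pic0.mem_torsion.mpr hx)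
  rw [wJ_apply M q hq hqM hq2, smul_kummerClass, algEquiv_smul_kummerClass]
  rfl

/-- `W_q` on Kummer classes: `W_q [u] = [W_q u]` (every `n`, every `u`). -/
theorem wJ_kummerClass (M q : ℕ) [NeZero M] (hq : q.Prime) (hqM : q ∣ M) (hq2 : ¬ q ^ 2 ∣ M)
    (n : ℕ) (u : modularFunctionFieldBar M) :
    wJ M q (kummerClass Kbar n u)
      = kummerClass Kbar n (Fermat.Agent.S35.helper1073.atkinLehnerBar M q hq hqM hq2 u) := by
  rw [wJ_apply M q hq hqM hq2, smul_kummerClass]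
  rfl

/-- `W_q` preserves `n`-Kummer functions. -/
theorem isKummer_atkinLehnerBar_iff (M q : ℕ) [NeZero M] (hq : q.Prime) (hqM : q ∣ M)
    (hq2 : ¬ q ^ 2 ∣ M) {n : ℕ} {u : modularFunctionFieldBar M} :
    IsKummer Kbar n (Fermat.Agent.S35.helper1073.atkinLehnerBar M q hq hqM hq2 u)
      ↔ IsKummer Kbar n u :=
  isKummer_smul_iff (Fermat.Agent.S35.helper1073.atkinLehnerSemi M q hq hqM hq2)

/-- `U_q` on Kummer classes: `U_q [u] = [uFun u]`, `uFun u = Norm_β (α u)`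
(`= helper2106.uNorm M q u`). -/
theorem uJ_kummerClass (M q : ℕ) [NeZero M] [NeZero q] {n : ℕ} (hn : n ≠ 0)
    {u : modularFunctionFieldBar M} (h : IsKummer Kbar n u) :
    IsKummer Kbar n (Fermat.Agent.S35.helper1687.uFun M q u) ∧
      uJ M q (kummerClass Kbar n u)
        = kummerClass Kbar n (Fermat.Agent.S35.helper1687.uFun M q u) := by
  rw [uJ_eq]
  exact Fermat.Agent.S35.helper1687.uOp_kummerClass hn h

/-! ### The leaves -/

/-- **(TORFROB)** — the only geometry leaf of S35.  For a prime `q` exactly dividing `M`, a prime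
`lam ≠ q`, a valuation subring `A` of `ℚ̄` over `q` and a Frobenius lift `σ` at `A`: on the toric
part `K^∞ ⊓ W_q K^∞` of `J₀(M)[lam^k]` (classes of `lam^k`-Kummer functions `≡ 1` at the Gauss
valuation `v_∞` of `A`, resp. at `v_0 = v_∞ ∘ W_q`), `σ² = q²`. -/
def Stmt_TorFrob : Prop :=
  ∀ (M : ℕ) [NeZero M] (q : ℕ) (hq : q.Prime) (hqM : q ∣ M) (hq2 : ¬ q ^ 2 ∣ M)
    (lam : ℕ) (_hlam : lam.Prime) (_hlamq : lam ≠ q) (k : ℕ)
    (A : ValuationSubring Kbar) (_hA : A.LiesOverPrime q) (σ : GQ) (_hσ : A.IsFrobeniusAt σ q)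
    (y : JZero M),
    y ∈ Fermat.Agent.S35.helper1687.kInfty A M (lam ^ k) →
    y ∈ Fermat.Agent.S35.helper1687.kZero A M (lam ^ k)
        (Fermat.Agent.S35.helper1073.atkinLehnerBar M q hq hqM hq2) →
    σ • σ • y = q ^ 2 • y

/-- **(LATUW)** — the lattice leaf of S35: the lattice clause of `helper1989.Stmt_UWOps` for the
canonical operators `uJ`, `wJ`.  A finite free `ℤ`-module `Λ` with endomorphisms `t ℓ`, `u q`,
`w q` and level-wise maps `ι n : Λ → J₀(M)` inducing injections `Λ / lam^n → J₀(M)[lam^n]`,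
compatible in `n`, intertwining `t ℓ` with the Hecke operators at the good primes and `u q`,
`w q` with `U_q`, `W_q` at the primes `q ≠ lam`, `q ∥ M`; and, for every newform `g` of level `M`
and every `iota` from its coefficient ring to a complete DVR `O'` of residue characteristic
`lam`, a nonzero `y ∈ O' ⊗ Λ` with `t ℓ y = iota (a_ℓ(g)) y` (good `ℓ`), `(u q + w q) y = 0` and
`(u q ∘ w q + 1) y = 0`. -/
def Stmt_LatUW : Prop :=
  ∀ (M : ℕ) [NeZero M] (lam : ℕ) [Fact lam.Prime] (S : Finset ℕ)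
    (_hlamS : lam ∈ S) (_hMS : ∀ q : ℕ, q.Prime → q ∣ M → q ∈ S),
    ∃ (Λ : Type) (_ : AddCommGroup Λ) (_ : Module.Free ℤ Λ) (_ : Module.Finite ℤ Λ)
      (t u w : ℕ → Module.End ℤ Λ) (ι : ℕ → Λ →+ JZero M),
      (∀ (n : ℕ) (x : Λ), lam ^ n • ι n x = 0) ∧
      (∀ (n : ℕ) (x : Λ), ι n x = 0 → ∃ y : Λ, x = lam ^ n • y) ∧
      (∀ (n : ℕ) (x : Λ), lam • ι (n + 1) x = ι n x) ∧
      (∀ (ℓ : ℕ) (hℓ : ℓ.Prime), ¬ ℓ ∣ M → ℓ ∉ S → ∀ (n : ℕ) (x : Λ),
        ι n (t ℓ x) = heckeOperatorBar M ⟨ℓ, hℓ⟩ (ι n x)) ∧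
      (∀ q : ℕ, BadPrime lam M q → ∀ (n : ℕ) (x : Λ), ι n (u q x) = uJ M q (ι n x)) ∧
      (∀ q : ℕ, BadPrime lam M q → ∀ (n : ℕ) (x : Λ), ι n (w q x) = wJ M q (ι n x)) ∧
      ∀ {g : CuspForm (CongruenceSubgroup.Gamma0 M) 2} (_hg : g.IsNewform)
        (O' : Type) [CommRing O'] [IsDomain O'] [IsDiscreteValuationRing O']
        [IsAdicComplete (IsLocalRing.maximalIdeal O') O'] [Finite (IsLocalRing.ResidueField O')]
        [CharZero O'] (_hlamO' : (lam : O') ∈ IsLocalRing.maximalIdeal O')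
        (chig : CuspForm.heckeAlgebra M 2 (↑S : Set ℕ) →+* ℂ)
        (_hchig : ∀ (ℓ : ℕ) (hℓ : ℓ.Prime) (hℓM : ¬ ℓ ∣ M) (hℓS : ℓ ∉ (↑S : Set ℕ)),
          chig (CuspForm.heckeAlgebra.T hℓ hℓM hℓS) = ModularFormClass.qCoeff g ℓ)
        (iota : chig.range →+* O'),
        ∃ y : O' ⊗[ℤ] Λ, y ≠ 0 ∧
          (∀ (ℓ : ℕ) (hℓ : ℓ.Prime) (hℓM : ¬ ℓ ∣ M) (hℓS : ℓ ∉ (↑S : Set ℕ)),
            (t ℓ).baseChange O' y
              = (iota.comp chig.rangeRestrict) (CuspForm.heckeAlgebra.T hℓ hℓM hℓS) • y) ∧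
          (∀ q : ℕ, BadPrime lam M q →
            (u q).baseChange O' y + (w q).baseChange O' y = 0 ∧
            (u q).baseChange O' ((w q).baseChange O' y) + y = 0)

/-! ### The quartic relation on the `q`-new part, from (TORFROB) -/

/-- For `x ∈ J₀(M)[N]` (`q ∥ M`, `N ≠ 0`) with `U x + W x = 0` and `U (W x) + x = 0` and a
Frobenius lift `σ` at `A ∣ q`: `σ x - U x` lies in `K^∞_N ⊓ W K^∞_N`. -/
theorem frobenius_sub_uJ_mem (M q : ℕ) [NeZero M] (hq : q.Prime) (hqM : q ∣ M)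
    (hq2 : ¬ q ^ 2 ∣ M) {A : ValuationSubring Kbar} (hA : A.LiesOverPrime q) {σ : GQ}
    (hσ : A.IsFrobeniusAt σ q) {N : ℕ} (hN : N ≠ 0) {x : JZero M} (hx : (N : ℤ) • x = 0)
    (h1 : uJ M q x + wJ M q x = 0) (h2 : uJ M q (wJ M q x) + x = 0) :
    σ • x - uJ M q x ∈ Fermat.Agent.S35.helper1687.kInfty A M N ∧
    σ • x - uJ M q x ∈ Fermat.Agent.S35.helper1687.kZero A M N
        (Fermat.Agent.S35.helper1073.atkinLehnerBar M q hq hqM hq2) := by
  haveI : NeZero q := ⟨hq.ne_zero⟩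
  have hU : ∀ z : JZero M, uJ M q z = Fermat.Agent.S35.helper1687.uOp M q z := fun z => by
    rw [uJ_eq]
  have hWx : (N : ℤ) • wJ M q x = 0 := by
    rw [← map_zsmul, hx, map_zero]
  have hm1 := Fermat.Agent.S35.helper1687.frobenius_sub_uOp_mem_of_dvd hq hqM hA hσ hN hx
  have hm2 := Fermat.Agent.S35.helper1687.frobenius_sub_uOp_mem_of_dvd hq hqM hA hσ hN hWx
  rw [← hU] at hm1 hm2
  refine ⟨hm1, _, hm2, ?_⟩
  -- `W (σ (W x) - U (W x)) = σ x - U x`
  have hy' : (N : ℤ) • (σ • wJ M q x - uJ M q (wJ M q x)) = 0 :=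
    Pic0.mem_torsion.mp (Fermat.Agent.S35.helper1687.kInfty_le_torsion hm2)
  show Fermat.Agent.S35.helper1073.atkinLehnerBar M q hq hqM hq2 •
      (σ • wJ M q x - uJ M q (wJ M q x)) = σ • x - uJ M q x
  rw [← wJ_eq_algEquiv_smul M q hq hqM hq2 hN hy', map_sub, ← galois_smul_wJ,
    wJ_wJ M q hq hqM hq2]
  have e2 : uJ M q (wJ M q x) = -x := eq_neg_of_add_eq_zero_left h2
  have e1 : uJ M q x = -wJ M q x := eq_neg_of_add_eq_zero_left h1
  rw [e2, map_neg, e1]

/-- **The quartic on the `q`-new part.**  From (TORFROB): for `x` of `lam`-power order with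
`U x + W x = 0` and `U (W x) + x = 0` and a Frobenius lift `σ` at `q`:
`σ⁴ x - (q² + 1) σ² x + q² x = 0`. -/
theorem frobQuad (hT : Stmt_TorFrob) (M q : ℕ) [NeZero M] (hq : q.Prime) (hqM : q ∣ M)
    (hq2 : ¬ q ^ 2 ∣ M) (lam : ℕ) (hlam : lam.Prime) (hlamq : lam ≠ q)
    {A : ValuationSubring Kbar} (hA : A.LiesOverPrime q) {σ : GQ}
    (hσ : A.IsFrobeniusAt σ q) (x : JZero M) (hx : ∃ n : ℕ, lam ^ n • x = 0)
    (h1 : uJ M q x + wJ M q x = 0) (h2 : uJ M q (wJ M q x) + x = 0) :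
    σ • σ • σ • σ • x - (q ^ 2 + 1) • (σ • σ • x) + q ^ 2 • x = 0 := by
  obtain ⟨n, hn⟩ := hx
  have hN : lam ^ n ≠ 0 := pow_ne_zero n hlam.ne_zero
  have hxz : ((lam ^ n : ℕ) : ℤ) • x = 0 := by
    rw [natCast_zsmul]
    exact hn
  obtain ⟨hm1, hm2⟩ := frobenius_sub_uJ_mem M q hq hqM hq2 hA hσ hN hxz h1 h2
  have key := hT M q hq hqM hq2 lam hlam hlamq n A hA σ hσ _ hm1 hm2
  -- `key : σ σ (σ x - U x) = q² (σ x - U x)`
  have hUU : uJ M q (uJ M q x) = x := by
    have e1 : uJ M q x = -wJ M q x := eq_neg_of_add_eq_zero_left h1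
    have e2 : uJ M q (wJ M q x) = -x := eq_neg_of_add_eq_zero_left h2
    rw [e1, map_neg, e2, neg_neg]
  have hσn : ∀ (m : ℕ) (z : JZero M), σ • (m • z) = m • (σ • z) := fun m z =>
    map_nsmul (DistribMulAction.toAddMonoidHom (JZero M) σ) m z
  -- apply `σ` to `key`
  have kA := congrArg (fun z => σ • z) key
  -- apply `U` to `key`
  have kB := congrArg (fun z => uJ M q z) key
  simp only [smul_sub, hσn, map_sub, map_nsmul, ← galois_smul_uJ, hUU] at kA kB
  -- kA : σσσσx - σσσUx = q²σσx - q²σUx ;  kB : σσσUx - σσx = q²σUx - q²x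
  have kA' : σ • σ • σ • σ • x - σ • σ • σ • uJ M q x
      = q ^ 2 • (σ • σ • x) - q ^ 2 • (σ • uJ M q x) := by
    rw [kA, nsmul_sub]
  have kB' : σ • σ • σ • uJ M q x - σ • σ • x = q ^ 2 • (σ • uJ M q x) - q ^ 2 • x := by
    rw [kB, nsmul_sub]
  calc σ • σ • σ • σ • x - (q ^ 2 + 1) • (σ • σ • x) + q ^ 2 • x
      = (σ • σ • σ • σ • x - σ • σ • σ • uJ M q x) + (σ • σ • σ • uJ M q x - σ • σ • x)
          - q ^ 2 • (σ • σ • x) + q ^ 2 • x := by
        rw [add_nsmul, one_nsmul]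
        abel
    _ = 0 := by
        rw [kA', kB']
        abel

/-! ### Assembly -/

/-- **`helper1989.Stmt_UWOps` from the two S35 leaves.** -/
theorem stmt_UWOps_of_leaves (hT : Stmt_TorFrob) (hL : Stmt_LatUW) :
    Fermat.Agent.S35.helper1989.Stmt_UWOps := by
  intro M _ lam _ S hlamS hMS
  refine ⟨fun q => uJ M q, fun q => wJ M q, fun q _ σ x => galois_smul_uJ M q σ x,
    fun q _ σ x => galois_smul_wJ M q σ x, ?_, hL M lam S hlamS hMS⟩
  intro q hbad A hA σ hσ x hx h1 h2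
  exact frobQuad hT M q hbad.1 hbad.2.2.1 hbad.2.2.2 lam Fact.out (Ne.symm hbad.2.1) hA hσ x hx
    h1 h2

open Polynomial in
/-- **The frozen statement S35 from its leaves**: the S30 machine statements (U), (ES) and the
two S35 leaves (TORFROB), (LATUW).  The binder list after the four leaf hypotheses and the
conclusion are the frozen statement's, verbatim. -/
theorem result_of_leaves
    (hU : Fermat.Agent.S30.helper831.Stmt_UPow) (hES : Fermat.Agent.S30.helper831.Stmt_ESPow)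
    (hT : Stmt_TorFrob) (hL : Stmt_LatUW)
    {M : ℕ} [NeZero M] {g : CuspForm (CongruenceSubgroup.Gamma0 M) 2} (hg : g.IsNewform)
    (lam : ℕ) [Fact lam.Prime]
    (S : Finset ℕ)
    (O' : Type) [CommRing O'] [IsDomain O'] [IsDiscreteValuationRing O']
    [IsAdicComplete (IsLocalRing.maximalIdeal O') O'] [Finite (IsLocalRing.ResidueField O')]
    [CharZero O'] (hlamO' : (lam : O') ∈ IsLocalRing.maximalIdeal O')
    (chig : CuspForm.heckeAlgebra M 2 (↑S : Set ℕ) →+* ℂ)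
    (hchig : ∀ (ℓ : ℕ) (hℓ : ℓ.Prime) (hℓM : ¬ ℓ ∣ M) (hℓS : ℓ ∉ (↑S : Set ℕ)),
      chig (CuspForm.heckeAlgebra.T hℓ hℓM hℓS) = ModularFormClass.qCoeff g ℓ)
    (iota : chig.range →+* O')
    (hlamS : lam ∈ S) (hMS : ∀ q : ℕ, q.Prime → q ∣ M → q ∈ S)
    :
    ∃ (O'' : Type) (_ : CommRing O'') (_ : IsDomain O'') (_ : IsDiscreteValuationRing O'')
      (_ : IsAdicComplete (IsLocalRing.maximalIdeal O'') O'') (_ : Finite (IsLocalRing.ResidueField O''))
      (_ : CharZero O'') (_ : Algebra O' O'') (_ : Module.Finite O' O'') (_ : IsLocalHom (algebraMap O' O'')),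
      Function.Injective (algebraMap O' O'') ∧
      ∃ ρ : GaloisRepAdic O'',
        (∀ (ℓ : ℕ) (hℓ : ℓ.Prime) (hℓM : ¬ ℓ ∣ M) (hℓS : ℓ ∉ (↑S : Set ℕ)),
          ∀ A : ValuationSubring (AlgebraicClosure ℚ), A.LiesOverPrime ℓ →
            ∀ σ : AlgebraicClosure ℚ ≃ₐ[ℚ] AlgebraicClosure ℚ, A.IsFrobeniusAt σ ℓ →
              LinearMap.charpoly (ρ.ρ σ) =
                X ^ 2 - C (algebraMap O' O'' ((iota.comp chig.rangeRestrict) (CuspForm.heckeAlgebra.T hℓ hℓM hℓS))) * X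
                  + C ((ℓ : O''))) ∧
        (∀ q : ℕ, q.Prime → q ≠ lam → q ∣ M → ¬ q ^ 2 ∣ M →
          ∀ A : ValuationSubring (AlgebraicClosure ℚ), A.LiesOverPrime q →
            ∀ σ : AlgebraicClosure ℚ ≃ₐ[ℚ] AlgebraicClosure ℚ, A.IsFrobeniusAt σ q →
              LinearMap.charpoly (ρ.ρ σ) = X ^ 2 - C ((q : O'') + 1) * X + C ((q : O'')) ∨
              LinearMap.charpoly (ρ.ρ σ) = X ^ 2 + C ((q : O'') + 1) * X + C ((q : O''))) :=
  Fermat.Agent.S35.helper1989.result_of_kerOps hU hES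
    (Fermat.Agent.S35.helper1989.stmt_KerOps_of_uw (stmt_UWOps_of_leaves hT hL))
    hg lam S O' hlamO' chig hchig iota hlamS hMS

open Polynomial in
/-- **The frozen statement S35 from (KF0), (TORFROB), (LATUW)**: the S30 machine statements (U),
(ES) follow from the S18 export `Stmt_KF0All` (`helper405_ESFinal`). -/
theorem result_of_kf0
    (hKF : Fermat.Agent.S29.helper405.Stmt_KF0All) (hT : Stmt_TorFrob) (hL : Stmt_LatUW)
    {M : ℕ} [NeZero M] {g : CuspForm (CongruenceSubgroup.Gamma0 M) 2} (hg : g.IsNewform)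
    (lam : ℕ) [Fact lam.Prime]
    (S : Finset ℕ)
    (O' : Type) [CommRing O'] [IsDomain O'] [IsDiscreteValuationRing O']
    [IsAdicComplete (IsLocalRing.maximalIdeal O') O'] [Finite (IsLocalRing.ResidueField O')]
    [CharZero O'] (hlamO' : (lam : O') ∈ IsLocalRing.maximalIdeal O')
    (chig : CuspForm.heckeAlgebra M 2 (↑S : Set ℕ) →+* ℂ)
    (hchig : ∀ (ℓ : ℕ) (hℓ : ℓ.Prime) (hℓM : ¬ ℓ ∣ M) (hℓS : ℓ ∉ (↑S : Set ℕ)),
      chig (CuspForm.heckeAlgebra.T hℓ hℓM hℓS) = ModularFormClass.qCoeff g ℓ)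
    (iota : chig.range →+* O')
    (hlamS : lam ∈ S) (hMS : ∀ q : ℕ, q.Prime → q ∣ M → q ∈ S)
    :
    ∃ (O'' : Type) (_ : CommRing O'') (_ : IsDomain O'') (_ : IsDiscreteValuationRing O'')
      (_ : IsAdicComplete (IsLocalRing.maximalIdeal O'') O'') (_ : Finite (IsLocalRing.ResidueField O''))
      (_ : CharZero O'') (_ : Algebra O' O'') (_ : Module.Finite O' O'') (_ : IsLocalHom (algebraMap O' O'')),
      Function.Injective (algebraMap O' O'') ∧
      ∃ ρ : GaloisRepAdic O'',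
        (∀ (ℓ : ℕ) (hℓ : ℓ.Prime) (hℓM : ¬ ℓ ∣ M) (hℓS : ℓ ∉ (↑S : Set ℕ)),
          ∀ A : ValuationSubring (AlgebraicClosure ℚ), A.LiesOverPrime ℓ →
            ∀ σ : AlgebraicClosure ℚ ≃ₐ[ℚ] AlgebraicClosure ℚ, A.IsFrobeniusAt σ ℓ →
              LinearMap.charpoly (ρ.ρ σ) =
                X ^ 2 - C (algebraMap O' O'' ((iota.comp chig.rangeRestrict) (CuspForm.heckeAlgebra.T hℓ hℓM hℓS))) * X
                  + C ((ℓ : O''))) ∧
        (∀ q : ℕ, q.Prime → q ≠ lam → q ∣ M → ¬ q ^ 2 ∣ M →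
          ∀ A : ValuationSubring (AlgebraicClosure ℚ), A.LiesOverPrime q →
            ∀ σ : AlgebraicClosure ℚ ≃ₐ[ℚ] AlgebraicClosure ℚ, A.IsFrobeniusAt σ q →
              LinearMap.charpoly (ρ.ρ σ) = X ^ 2 - C ((q : O'') + 1) * X + C ((q : O'')) ∨
              LinearMap.charpoly (ρ.ρ σ) = X ^ 2 + C ((q : O'') + 1) * X + C ((q : O''))) :=
  result_of_leaves
    (Fermat.Agent.S30.helper831.stmt_UPow_of_mod
      (Fermat.Agent.S29.helper405.stmt_UMod_of_kf0 hKF))
    (Fermat.Agent.S30.helper831.stmt_ESPow_of_mod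
      (Fermat.Agent.S29.helper405.stmt_ESMod_of_kf0 hKF))
    hT hL hg lam S O' hlamO' chig hchig iota hlamS hMS

open Polynomial in
/-- **The frozen statement S35 from its two S35 leaves (TORFROB), (LATUW) alone**: (KF0) is the
landed S18 export `Fermat.Agent.S18.helper789.stmt_KF0_all`. -/
theorem result_of_torFrob_latUW (hT : Stmt_TorFrob) (hL : Stmt_LatUW)
    {M : ℕ} [NeZero M] {g : CuspForm (CongruenceSubgroup.Gamma0 M) 2} (hg : g.IsNewform)
    (lam : ℕ) [Fact lam.Prime]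
    (S : Finset ℕ)
    (O' : Type) [CommRing O'] [IsDomain O'] [IsDiscreteValuationRing O']
    [IsAdicComplete (IsLocalRing.maximalIdeal O') O'] [Finite (IsLocalRing.ResidueField O')]
    [CharZero O'] (hlamO' : (lam : O') ∈ IsLocalRing.maximalIdeal O')
    (chig : CuspForm.heckeAlgebra M 2 (↑S : Set ℕ) →+* ℂ)
    (hchig : ∀ (ℓ : ℕ) (hℓ : ℓ.Prime) (hℓM : ¬ ℓ ∣ M) (hℓS : ℓ ∉ (↑S : Set ℕ)),
      chig (CuspForm.heckeAlgebra.T hℓ hℓM hℓS) = ModularFormClass.qCoeff g ℓ)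
    (iota : chig.range →+* O')
    (hlamS : lam ∈ S) (hMS : ∀ q : ℕ, q.Prime → q ∣ M → q ∈ S)
    :
    ∃ (O'' : Type) (_ : CommRing O'') (_ : IsDomain O'') (_ : IsDiscreteValuationRing O'')
      (_ : IsAdicComplete (IsLocalRing.maximalIdeal O'') O'') (_ : Finite (IsLocalRing.ResidueField O''))
      (_ : CharZero O'') (_ : Algebra O' O'') (_ : Module.Finite O' O'') (_ : IsLocalHom (algebraMap O' O'')),
      Function.Injective (algebraMap O' O'') ∧
      ∃ ρ : GaloisRepAdic O'',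
        (∀ (ℓ : ℕ) (hℓ : ℓ.Prime) (hℓM : ¬ ℓ ∣ M) (hℓS : ℓ ∉ (↑S : Set ℕ)),
          ∀ A : ValuationSubring (AlgebraicClosure ℚ), A.LiesOverPrime ℓ →
            ∀ σ : AlgebraicClosure ℚ ≃ₐ[ℚ] AlgebraicClosure ℚ, A.IsFrobeniusAt σ ℓ →
              LinearMap.charpoly (ρ.ρ σ) =
                X ^ 2 - C (algebraMap O' O'' ((iota.comp chig.rangeRestrict) (CuspForm.heckeAlgebra.T hℓ hℓM hℓS))) * X
                  + C ((ℓ : O''))) ∧
        (∀ q : ℕ, q.Prime → q ≠ lam → q ∣ M → ¬ q ^ 2 ∣ M →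
          ∀ A : ValuationSubring (AlgebraicClosure ℚ), A.LiesOverPrime q →
            ∀ σ : AlgebraicClosure ℚ ≃ₐ[ℚ] AlgebraicClosure ℚ, A.IsFrobeniusAt σ q →
              LinearMap.charpoly (ρ.ρ σ) = X ^ 2 - C ((q : O'') + 1) * X + C ((q : O'')) ∨
              LinearMap.charpoly (ρ.ρ σ) = X ^ 2 + C ((q : O'') + 1) * X + C ((q : O''))) :=
  result_of_kf0
    (fun N _ ℓ hℓ hℓN => Fermat.Agent.S18.helper789.stmt_KF0_all N ℓ hℓ hℓN)
    hT hL hg lam S O' hlamO' chig hchig iota hlamS hMS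

/-! ### Sub-leaves of (TORFROB): level restriction + descent -/

/-- **(TORFROB-AUX)**: (TORFROB) at the levels `M` divisible by an auxiliary prime `r ∈ {2, 3}`,
`r ≠ q` (the levels where the S18 special-fibre package on the Hauptmodul line `t_r` exists;
charts `t_r`, `1 / t_r`). -/
def Stmt_TorFrobAux : Prop :=
  ∀ (M : ℕ) [NeZero M] (q : ℕ) (hq : q.Prime) (hqM : q ∣ M) (hq2 : ¬ q ^ 2 ∣ M)
    (r : ℕ) (_hr : r = 2 ∨ r = 3) (_hrq : r ≠ q) (_hrM : r ∣ M)
    (lam : ℕ) (_hlam : lam.Prime) (_hlamq : lam ≠ q) (k : ℕ)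
    (A : ValuationSubring Kbar) (_hA : A.LiesOverPrime q) (σ : GQ) (_hσ : A.IsFrobeniusAt σ q)
    (y : JZero M),
    y ∈ Fermat.Agent.S35.helper1687.kInfty A M (lam ^ k) →
    y ∈ Fermat.Agent.S35.helper1687.kZero A M (lam ^ k)
        (Fermat.Agent.S35.helper1073.atkinLehnerBar M q hq hqM hq2) →
    σ • σ • y = q ^ 2 • y

/-- **(TORFROB-DESC)**: the level descent (pull back along `α : F_M → F_{M r}` with
`r ∈ {2, 3}`, `r ≠ q`, `lam ∤ deg α`; the pullback is injective on `lam^k`-torsion, commutes with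
`σ` and maps `K^∞ ⊓ W K^∞` into itself). -/
def Stmt_TorFrobDesc : Prop := Stmt_TorFrobAux → Stmt_TorFrob

theorem stmt_TorFrob_of_aux (h : Stmt_TorFrobAux) (hd : Stmt_TorFrobDesc) : Stmt_TorFrob := hd h

/-! ### The S34 twin (TORFIX), shared geometry -/

/-- **(TORFIX)**, the S34 twin of (TORFROB): the inertia group of `A ∣ q` acts trivially on the
toric part `K^∞ ⊓ W_q K^∞` of `J₀(M)[lam^k]`. -/
def Stmt_TorFix : Prop :=
  ∀ (M : ℕ) [NeZero M] (q : ℕ) (hq : q.Prime) (hqM : q ∣ M) (hq2 : ¬ q ^ 2 ∣ M)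
    (lam : ℕ) (_hlam : lam.Prime) (_hlamq : lam ≠ q) (k : ℕ)
    (A : ValuationSubring Kbar) (_hA : A.LiesOverPrime q) (τ : GQ)
    (_hτ : τ ∈ A.inertiaSubgroupIn ℚ) (y : JZero M),
    y ∈ Fermat.Agent.S35.helper1687.kInfty A M (lam ^ k) →
    y ∈ Fermat.Agent.S35.helper1687.kZero A M (lam ^ k)
        (Fermat.Agent.S35.helper1073.atkinLehnerBar M q hq hqM hq2) →
    τ • y = y

/-- (TORFIX) ⟹ `(τ - 1)² = 0` on `J₀(M)[lam^k]` for `τ` in the inertia group at `q ∥ M`
(class form of the S34 unipotence; uses the landed `helper1687.inertia_sub_mem_inf`). -/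
theorem inertia_sub_fixed (hF : Stmt_TorFix) (M q : ℕ) [NeZero M] (hq : q.Prime) (hqM : q ∣ M)
    (hq2 : ¬ q ^ 2 ∣ M) (lam : ℕ) (hlam : lam.Prime) (hlamq : lam ≠ q) (k : ℕ)
    {A : ValuationSubring Kbar} (hA : A.LiesOverPrime q) {τ : GQ}
    (hτ : τ ∈ A.inertiaSubgroupIn ℚ) {x : JZero M} (hx : ((lam ^ k : ℕ) : ℤ) • x = 0) :
    τ • (τ • x - x) = τ • x - x := by
  have hN : lam ^ k ≠ 0 := pow_ne_zero k hlam.ne_zero
  have hm := Fermat.Agent.S35.helper1687.inertia_sub_mem_inf (A := A) hτ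
    (Fermat.Agent.S35.helper1073.atkinLehnerBar M q hq hqM hq2)
    (fun σ z => Fermat.Agent.S35.helper1073.atkinLehnerBar_arithmeticGalois_smul M q hq hqM hq2
      σ z) hN hx
  exact hF M q hq hqM hq2 lam hlam hlamq k A hA τ hτ _ hm.1 hm.2

end

end Fermat.Agent.S35.helper2039
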