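import Fermat.Agent.S35.helper1687_CommonRep
import Fermat.Agent.S35.helper2039_Spec

/-!
# S35/S34-COMMONREP, Spec side (helper1687)

The geometry leaves of the S35 Spec (`helper2039.Stmt_TorFrob`, `Stmt_TorFrobAux`, and the S34
twin `Stmt_TorFix`) from their ELEMENT forms: one `lam ^ k`-Kummer function `h` with `h ≡ 1` and
`W_q h ≡ 1` at the Gauss ring of `A ∣ q` (the shape of the conclusions of the geometry module
E5: `helper2423.torFix_of_gen_of_kc`, `helper3729.torFrob_of_glued`, and of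
`S34.helper584.Stmt_TorFix`).

* `Stmt_TorFrobElt`, `Stmt_TorFrobAuxElt`, `Stmt_TorFixElt` : the element forms;
* `stmt_TorFrob_of_elt`, `stmt_TorFrobAux_of_elt`, `stmt_TorFix_of_elt` : element form ⟹ leaf.
-/

set_option autoImplicit false

open ModularCurve AlgebraicCurve HahnSeries

namespace Fermat.Agent.S35.helper1687

noncomputable section

local notation "Kbar" => AlgebraicClosure ℚ
local notation "GQ" => (AlgebraicClosure ℚ ≃ₐ[ℚ] AlgebraicClosure ℚ)

open Fermat.Agent.S29.helper8217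

/-- **(TORFROB), element form.**  For `q ∥ M`, a prime `lam ≠ q`, `A ∣ q` and a Frobenius lift
`σ` at `A`: for every `lam ^ k`-Kummer function `h` with `h ≡ 1` and `W_q h ≡ 1` at the Gauss
ring of `A`, `(σ σ) • h = h ^ (q ^ 2)` up to a divisor-free element times a `lam ^ k`-th power. -/
def Stmt_TorFrobElt : Prop :=
  ∀ (M : ℕ) [NeZero M] (q : ℕ) (hq : q.Prime) (hqM : q ∣ M) (hq2 : ¬ q ^ 2 ∣ M)
    (lam : ℕ) (_hlam : lam.Prime) (_hlamq : lam ≠ q) (k : ℕ)
    (A : ValuationSubring Kbar) (_hA : A.LiesOverPrime q) (σ : GQ) (_hσ : A.IsFrobeniusAt σ q)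
    (h : modularFunctionFieldBar M), IsKummer Kbar (lam ^ k) h →
    (Fermat.Agent.S18.helper8991.gaussF A (IsLocalRing.residue A) M).valuation (h - 1) < 1 →
    (Fermat.Agent.S18.helper8991.gaussF A (IsLocalRing.residue A) M).valuation
      (Fermat.Agent.S35.helper1073.atkinLehnerBar M q hq hqM hq2 h - 1) < 1 →
    ∃ w c : modularFunctionFieldBar M, w ≠ 0 ∧ c ≠ 0 ∧
      (∀ v : Place Kbar (modularFunctionFieldBar M), v.ord c = 0) ∧
      arithmeticGalois (modularFunctionFieldFull M) (σ * σ) • h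
        = h ^ (q ^ 2) * (c * w ^ (lam ^ k))

/-- (TORFROB), element form, at the auxiliary levels (`r ∣ M`, `r ∈ {2, 3}`, `r ≠ q`). -/
def Stmt_TorFrobAuxElt : Prop :=
  ∀ (M : ℕ) [NeZero M] (q : ℕ) (hq : q.Prime) (hqM : q ∣ M) (hq2 : ¬ q ^ 2 ∣ M)
    (r : ℕ) (_hr : r = 2 ∨ r = 3) (_hrq : r ≠ q) (_hrM : r ∣ M)
    (lam : ℕ) (_hlam : lam.Prime) (_hlamq : lam ≠ q) (k : ℕ)
    (A : ValuationSubring Kbar) (_hA : A.LiesOverPrime q) (σ : GQ) (_hσ : A.IsFrobeniusAt σ q)
    (h : modularFunctionFieldBar M), IsKummer Kbar (lam ^ k) h →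
    (Fermat.Agent.S18.helper8991.gaussF A (IsLocalRing.residue A) M).valuation (h - 1) < 1 →
    (Fermat.Agent.S18.helper8991.gaussF A (IsLocalRing.residue A) M).valuation
      (Fermat.Agent.S35.helper1073.atkinLehnerBar M q hq hqM hq2 h - 1) < 1 →
    ∃ w c : modularFunctionFieldBar M, w ≠ 0 ∧ c ≠ 0 ∧
      (∀ v : Place Kbar (modularFunctionFieldBar M), v.ord c = 0) ∧
      arithmeticGalois (modularFunctionFieldFull M) (σ * σ) • h
        = h ^ (q ^ 2) * (c * w ^ (lam ^ k))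

/-- **(TORFIX), element form** (`S34.helper584.Stmt_TorFix` at every inertia element). -/
def Stmt_TorFixElt : Prop :=
  ∀ (M : ℕ) [NeZero M] (q : ℕ) (hq : q.Prime) (hqM : q ∣ M) (hq2 : ¬ q ^ 2 ∣ M)
    (lam : ℕ) (_hlam : lam.Prime) (_hlamq : lam ≠ q) (k : ℕ)
    (A : ValuationSubring Kbar) (_hA : A.LiesOverPrime q) (τ : GQ)
    (_hτ : τ ∈ A.inertiaSubgroupIn ℚ),
    Fermat.Agent.S34.helper584.Stmt_TorFix M (lam ^ k) A
      (Fermat.Agent.S35.helper1073.atkinLehnerBar M q hq hqM hq2) τ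

/-- The leaf (TORFROB) of the S35 Spec from its element form. -/
theorem stmt_TorFrob_of_elt (H : Stmt_TorFrobElt) : Fermat.Agent.S35.helper2039.Stmt_TorFrob :=
  fun M _ q hq hqM hq2 lam hlam hlamq k A hA σ hσ y hy₁ hy₂ =>
    torFrob_atkinLehner_of_element M q hq hqM hq2 (pow_ne_zero k hlam.ne_zero) A hA σ
      (H M q hq hqM hq2 lam hlam hlamq k A hA σ hσ) y hy₁ hy₂

/-- The leaf (TORFROB-AUX) of the S35 Spec from its element form. -/
theorem stmt_TorFrobAux_of_elt (H : Stmt_TorFrobAuxElt) :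
    Fermat.Agent.S35.helper2039.Stmt_TorFrobAux :=
  fun M _ q hq hqM hq2 r hr hrq hrM lam hlam hlamq k A hA σ hσ y hy₁ hy₂ =>
    torFrob_atkinLehner_of_element M q hq hqM hq2 (pow_ne_zero k hlam.ne_zero) A hA σ
      (H M q hq hqM hq2 r hr hrq hrM lam hlam hlamq k A hA σ hσ) y hy₁ hy₂

/-- The S34 twin (TORFIX) of the Spec from its element form. -/
theorem stmt_TorFix_of_elt (H : Stmt_TorFixElt) : Fermat.Agent.S35.helper2039.Stmt_TorFix :=
  fun M _ q hq hqM hq2 lam hlam hlamq k A hA τ hτ y hy₁ hy₂ =>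
    torFix_atkinLehner_of_element M q hq hqM hq2 (pow_ne_zero k hlam.ne_zero) A hA τ
      (H M q hq hqM hq2 lam hlam hlamq k A hA τ hτ) y hy₁ hy₂

/-- The leaf (TORFROB-AUX) of the S35 Spec from the TWO-RING element form, in the exact shape of
the conclusion of `helper3729.torFrob_of_nodal` / `torFrob_of_glued` with `K := ℚ̄`,
`F := F_M`, `V₁ := gaussF A (residue A) M` (`= helper882.gpRing A M`), `V₂ := V₁.comap W_q`
(`= helper882.gpRingW A M W_q`), `τ := arithmeticGalois σ * arithmeticGalois σ`, `e := q ^ 2`,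
`n := lam ^ k`. -/
theorem stmt_TorFrobAux_of_comap
    (H : ∀ (M : ℕ) [NeZero M] (q : ℕ) (hq : q.Prime) (hqM : q ∣ M) (hq2 : ¬ q ^ 2 ∣ M)
      (r : ℕ) (_hr : r = 2 ∨ r = 3) (_hrq : r ≠ q) (_hrM : r ∣ M)
      (lam : ℕ) (_hlam : lam.Prime) (_hlamq : lam ≠ q) (k : ℕ)
      (A : ValuationSubring Kbar) (_hA : A.LiesOverPrime q) (σ : GQ)
      (_hσ : A.IsFrobeniusAt σ q)
      (h : modularFunctionFieldBar M), IsKummer Kbar (lam ^ k) h →
      (Fermat.Agent.S18.helper8991.gaussF A (IsLocalRing.residue A) M).valuation (h - 1) < 1 →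
      ((Fermat.Agent.S18.helper8991.gaussF A (IsLocalRing.residue A) M).comap
        ((Fermat.Agent.S35.helper1073.atkinLehnerBar M q hq hqM hq2 :
          modularFunctionFieldBar M ≃+* modularFunctionFieldBar M) :
          modularFunctionFieldBar M →+* modularFunctionFieldBar M)).valuation (h - 1) < 1 →
      ∃ w c : modularFunctionFieldBar M, w ≠ 0 ∧ c ≠ 0 ∧
        (∀ v : Place Kbar (modularFunctionFieldBar M), v.ord c = 0) ∧
        (arithmeticGalois (modularFunctionFieldFull M) σ *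
          arithmeticGalois (modularFunctionFieldFull M) σ) • h
          = h ^ (q ^ 2) * (c * w ^ (lam ^ k))) :
    Fermat.Agent.S35.helper2039.Stmt_TorFrobAux :=
  fun M _ q hq hqM hq2 r hr hrq hrM lam hlam hlamq k A hA σ hσ y hy₁ hy₂ =>
    torFrob_atkinLehner_of_comap_mul M q hq hqM hq2 (pow_ne_zero k hlam.ne_zero) A hA σ
      (H M q hq hqM hq2 r hr hrq hrM lam hlam hlamq k A hA σ hσ) y hy₁ hy₂

/-- The S34 twin (TORFIX) of the Spec at the auxiliary levels from the TWO-RING element form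
(conclusion of `helper2423.torFix_of_gen_of_kc` / `helper3729.torFix_of_glued` with
`g := arithmeticGalois τ`); combine with `helper1270.stmt_TorFix_of_aux` for all levels. -/
theorem torFix_of_comap_all
    (H : ∀ (M : ℕ) [NeZero M] (q : ℕ) (hq : q.Prime) (hqM : q ∣ M) (hq2 : ¬ q ^ 2 ∣ M)
      (lam : ℕ) (_hlam : lam.Prime) (_hlamq : lam ≠ q) (k : ℕ)
      (A : ValuationSubring Kbar) (_hA : A.LiesOverPrime q) (τ : GQ)
      (_hτ : τ ∈ A.inertiaSubgroupIn ℚ)
      (h : modularFunctionFieldBar M), IsKummer Kbar (lam ^ k) h →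
      (Fermat.Agent.S18.helper8991.gaussF A (IsLocalRing.residue A) M).valuation (h - 1) < 1 →
      ((Fermat.Agent.S18.helper8991.gaussF A (IsLocalRing.residue A) M).comap
        ((Fermat.Agent.S35.helper1073.atkinLehnerBar M q hq hqM hq2 :
          modularFunctionFieldBar M ≃+* modularFunctionFieldBar M) :
          modularFunctionFieldBar M →+* modularFunctionFieldBar M)).valuation (h - 1) < 1 →
      ∃ w c : modularFunctionFieldBar M, w ≠ 0 ∧ c ≠ 0 ∧
        (∀ v : Place Kbar (modularFunctionFieldBar M), v.ord c = 0) ∧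
        arithmeticGalois (modularFunctionFieldFull M) τ • h = h * (c * w ^ (lam ^ k))) :
    Fermat.Agent.S35.helper2039.Stmt_TorFix :=
  fun M _ q hq hqM hq2 lam hlam hlamq k A hA τ hτ y hy₁ hy₂ =>
    torFix_atkinLehner_of_comap M q hq hqM hq2 (pow_ne_zero k hlam.ne_zero) A hA τ
      (H M q hq hqM hq2 lam hlam hlamq k A hA τ hτ) y hy₁ hy₂

end

end Fermat.Agent.S35.helper1687
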