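/-
S35/S34-KRON, part (A): the Kronecker conductor, abstract form (Mathlib only).

Setting: `k` a field of characteristic `q`, `B` a `k`-algebra of finite type, `Φ : B →ₐ[k] B`
a `k`-algebra endomorphism all of whose values are `q`-th powers (the `k`-linear `q²`-Frobenius
of an affine curve with an `𝔽_q`-structure).  The fixed-point ideal
`J = span {u - Φ u}` is radical, of finite codimension, and is the common kernel of the finitely
many `Φ`-fixed `k`-points (`k` algebraically closed); a subalgebra of `B₁ × B₂` that projects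
onto both factors and contains the generators of `J₁ × 0` and `0 × J₂` contains `J₁ × J₂`.
-/
import Mathlib

set_option autoImplicit false

namespace Fermat.Agent.S35.helper2736

section PowerSurjective

variable (k : Type*) [Field k] (q : ℕ) [CharP k q]
variable (C : Type*) [CommRing C] [Algebra k C]

/-- In a `k`-algebra (`char k = q`) in which every element is a `q`-th power, the Kähler
differentials vanish. -/
theorem formallyUnramified_of_forall_exists_pow (h : ∀ x : C, ∃ y : C, x = y ^ q) :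
    Algebra.FormallyUnramified k C := by
  rw [Algebra.formallyUnramified_iff]
  suffices (⊤ : Submodule C Ω[C⁄k]) ≤ ⊥ from
    (subsingleton_iff_forall_eq 0).mpr fun y ↦ this trivial
  rw [← KaehlerDifferential.span_range_derivation, Submodule.span_le]
  rintro _ ⟨x, rfl⟩
  obtain ⟨y, rfl⟩ := h x
  have hq : (q : C) = 0 := by
    rw [← map_natCast (algebraMap k C), CharP.cast_eq_zero k q, map_zero]
  rw [Derivation.leibniz_pow, ← Nat.cast_smul_eq_nsmul C, hq, zero_smul]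
  exact Submodule.zero_mem _

variable [Algebra.EssFiniteType k C]

/-- A `k`-algebra essentially of finite type in which every element is a `q`-th power
(`q = char k`) is finite-dimensional. -/
theorem finite_of_forall_exists_pow (h : ∀ x : C, ∃ y : C, x = y ^ q) :
    Module.Finite k C := by
  have := formallyUnramified_of_forall_exists_pow k q C h
  exact Algebra.FormallyUnramified.finite_of_free (R := k) (S := C)

include k in
/-- A `k`-algebra essentially of finite type in which every element is a `q`-th power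
(`q = char k`) is reduced. -/
theorem isReduced_of_forall_exists_pow (h : ∀ x : C, ∃ y : C, x = y ^ q) :
    IsReduced C := by
  have := formallyUnramified_of_forall_exists_pow k q C h
  exact Algebra.FormallyUnramified.isReduced_of_field k C

end PowerSurjective

section Points

variable {k : Type*} [Field k] [IsAlgClosed k]
variable {C : Type*} [CommRing C] [Algebra k C] [Module.Finite k C]

/-- Over an algebraically closed field, every maximal ideal of a finite algebra is the kernel of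
a `k`-point. -/
theorem exists_algHom_ker_eq (m : Ideal C) [hm : m.IsMaximal] :
    ∃ P : C →ₐ[k] k, RingHom.ker (P : C →+* k) = m := by
  let _ := Ideal.Quotient.field m
  have hbij : Function.Bijective (algebraMap k (C ⧸ m)) :=
    IsAlgClosed.algebraMap_bijective_of_isIntegral
  let e : k ≃ₐ[k] (C ⧸ m) := AlgEquiv.ofBijective (Algebra.ofId k (C ⧸ m)) hbij
  refine ⟨(e.symm : (C ⧸ m) →ₐ[k] k).comp (Ideal.Quotient.mkₐ k m), ?_⟩
  ext x
  simp only [RingHom.mem_ker, AlgHom.coe_toRingHom, AlgHom.comp_apply, AlgEquiv.coe_toAlgHom,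
    Ideal.Quotient.mkₐ_eq_mk]
  rw [EmbeddingLike.map_eq_zero_iff, Ideal.Quotient.eq_zero_iff_mem]

/-- The `k`-points of a reduced finite algebra over an algebraically closed field are jointly
injective. -/
theorem eq_zero_of_forall_algHom_eq_zero [IsReduced C] (x : C)
    (h : ∀ P : C →ₐ[k] k, P x = 0) : x = 0 := by
  have : IsArtinianRing C := isArtinian_of_tower k inferInstance
  have hx : x ∈ Ideal.jacobson (⊥ : Ideal C) := by
    rw [Ideal.jacobson, Ideal.mem_sInf]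
    rintro m ⟨-, hm⟩
    obtain ⟨P, rfl⟩ := exists_algHom_ker_eq (k := k) m
    exact h P
  rw [IsArtinianRing.jacobson_eq_radical] at hx
  have h0 : (⊥ : Ideal C).radical = ⊥ := nilradical_eq_zero C
  rw [h0] at hx
  exact hx

end Points

section FixedIdeal

variable {k : Type*} [Field k]
variable {B : Type*} [CommRing B] [Algebra k B]

/-- The fixed-point ideal of an algebra endomorphism: the ideal generated by all `u - Φ u`. -/
def fixedIdeal (Φ : B →ₐ[k] B) : Ideal B := Ideal.span (Set.range fun u => u - Φ u)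

theorem sub_mem_fixedIdeal (Φ : B →ₐ[k] B) (u : B) : u - Φ u ∈ fixedIdeal Φ :=
  Ideal.subset_span ⟨u, rfl⟩

theorem mk_map_eq_mk (Φ : B →ₐ[k] B) (u : B) :
    Ideal.Quotient.mk (fixedIdeal Φ) (Φ u) = Ideal.Quotient.mk (fixedIdeal Φ) u :=
  (Ideal.Quotient.eq.mpr (sub_mem_fixedIdeal Φ u)).symm

/-- Every `Φ`-fixed `k`-point kills the fixed-point ideal. -/
theorem fixedIdeal_le_ker (Φ : B →ₐ[k] B) (P : B →ₐ[k] k) (hP : P.comp Φ = P) :
    fixedIdeal Φ ≤ RingHom.ker (P : B →+* k) := by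
  rw [fixedIdeal, Ideal.span_le]
  rintro _ ⟨u, rfl⟩
  have : P (Φ u) = P u := by rw [← AlgHom.comp_apply, hP]
  simp [this]

/-- A `k`-point killing the fixed-point ideal is `Φ`-fixed. -/
theorem comp_eq_of_fixedIdeal_le_ker (Φ : B →ₐ[k] B) (P : B →ₐ[k] k)
    (hP : fixedIdeal Φ ≤ RingHom.ker (P : B →+* k)) : P.comp Φ = P := by
  ext u
  have := hP (sub_mem_fixedIdeal Φ u)
  rw [RingHom.mem_ker, AlgHom.coe_toRingHom, map_sub, sub_eq_zero] at this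
  rw [AlgHom.comp_apply, ← this]

/-- In the quotient by the fixed-point ideal every element is a `q`-th power, as soon as all
values of `Φ` are. -/
theorem quotient_fixedIdeal_forall_exists_pow (q : ℕ) (Φ : B →ₐ[k] B)
    (hΦ : ∀ u, ∃ v, Φ u = v ^ q)
    (x : B ⧸ fixedIdeal Φ) : ∃ y : B ⧸ fixedIdeal Φ, x = y ^ q := by
  obtain ⟨u, rfl⟩ := Ideal.Quotient.mk_surjective x
  obtain ⟨v, hv⟩ := hΦ u
  exact ⟨Ideal.Quotient.mk _ v, by rw [← map_pow, ← hv, mk_map_eq_mk]⟩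

variable (q : ℕ) [CharP k q] (Φ : B →ₐ[k] B) [Algebra.EssFiniteType k (B ⧸ fixedIdeal Φ)]

/-- **Kronecker conductor, finiteness.**  The quotient by the fixed-point ideal of an
endomorphism with values in `q`-th powers is finite-dimensional, as soon as it is essentially of
finite type (e.g. if `B` is of finite type). -/
theorem finite_quotient_fixedIdeal (hΦ : ∀ u, ∃ v, Φ u = v ^ q) :
    Module.Finite k (B ⧸ fixedIdeal Φ) :=
  finite_of_forall_exists_pow k q _ (quotient_fixedIdeal_forall_exists_pow q Φ hΦ)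

include q in
/-- **Kronecker conductor, radicality.**  The fixed-point ideal of an endomorphism with values in
`q`-th powers is a radical ideal. -/
theorem fixedIdeal_isRadical (hΦ : ∀ u, ∃ v, Φ u = v ^ q) :
    (fixedIdeal Φ).IsRadical := by
  rw [Ideal.isRadical_iff_quotient_reduced]
  exact isReduced_of_forall_exists_pow k q _ (quotient_fixedIdeal_forall_exists_pow q Φ hΦ)

include q in
/-- **Kronecker conductor, points.**  Over an algebraically closed field the fixed-point ideal is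
the ideal of all functions vanishing at the `Φ`-fixed `k`-points. -/
theorem mem_fixedIdeal_iff [IsAlgClosed k] (hΦ : ∀ u, ∃ v, Φ u = v ^ q)
    (x : B) : x ∈ fixedIdeal Φ ↔ ∀ P : B →ₐ[k] k, P.comp Φ = P → P x = 0 := by
  constructor
  · intro hx P hP
    exact fixedIdeal_le_ker Φ P hP hx
  · intro h
    have := finite_quotient_fixedIdeal q Φ hΦ
    have := (Ideal.isRadical_iff_quotient_reduced _).mp (fixedIdeal_isRadical q Φ hΦ)
    rw [← Ideal.Quotient.eq_zero_iff_mem]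
    refine eq_zero_of_forall_algHom_eq_zero (k := k) _ fun P' => ?_
    have hfix : (P'.comp (Ideal.Quotient.mkₐ k (fixedIdeal Φ))).comp Φ =
        P'.comp (Ideal.Quotient.mkₐ k (fixedIdeal Φ)) := by
      ext u
      simp only [AlgHom.comp_apply, Ideal.Quotient.mkₐ_eq_mk, mk_map_eq_mk]
    exact h _ hfix

include q in
/-- **Kronecker conductor, finiteness of the fixed points.** -/
theorem finite_fixedPoints (hΦ : ∀ u, ∃ v, Φ u = v ^ q) :
    Finite {P : B →ₐ[k] k // P.comp Φ = P} := by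
  have := finite_quotient_fixedIdeal q Φ hΦ
  let f : {P : B →ₐ[k] k // P.comp Φ = P} → ((B ⧸ fixedIdeal Φ) →ₐ[k] k) := fun P =>
    Ideal.Quotient.liftₐ (fixedIdeal Φ) P.1 fun a ha => fixedIdeal_le_ker Φ P.1 P.2 ha
  refine Finite.of_injective f fun P Q hPQ => Subtype.ext (AlgHom.ext fun u => ?_)
  have := congrArg (fun g : (B ⧸ fixedIdeal Φ) →ₐ[k] k => g (Ideal.Quotient.mk _ u)) hPQ
  simpa [f] using this

end FixedIdeal

section Conductor

variable {k : Type*} [Field k]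
variable {B₁ B₂ : Type*} [CommRing B₁] [CommRing B₂] [Algebra k B₁] [Algebra k B₂]

/-- If a subalgebra `R ⊆ B₁ × B₂` projects onto `B₁`, then `{a | (a, 0) ∈ R}` is an ideal: it
contains the ideal generated by any of its subsets. -/
theorem left_mem_of_mem_span (R : Subalgebra k (B₁ × B₂)) (hp₁ : ∀ a, ∃ b, (a, b) ∈ R)
    (s : Set B₁) (hs : ∀ a ∈ s, (a, (0 : B₂)) ∈ R) :
    ∀ a ∈ Ideal.span s, (a, (0 : B₂)) ∈ R := by
  intro a ha
  induction ha using Submodule.span_induction with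
  | mem x hx => exact hs x hx
  | zero => exact R.zero_mem
  | add x y _ _ hx hy => simpa using R.add_mem hx hy
  | smul c x _ hx =>
    obtain ⟨b, hb⟩ := hp₁ c
    simpa using R.mul_mem hb hx

theorem right_mem_of_mem_span (R : Subalgebra k (B₁ × B₂)) (hp₂ : ∀ b, ∃ a, (a, b) ∈ R)
    (s : Set B₂) (hs : ∀ b ∈ s, ((0 : B₁), b) ∈ R) :
    ∀ b ∈ Ideal.span s, ((0 : B₁), b) ∈ R := by
  intro b hb
  induction hb using Submodule.span_induction with
  | mem x hx => exact hs x hx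
  | zero => exact R.zero_mem
  | add x y _ _ hx hy => simpa using R.add_mem hx hy
  | smul c x _ hx =>
    obtain ⟨a, ha⟩ := hp₂ c
    simpa using R.mul_mem ha hx

/-- **Kronecker conductor, abstract form.**  A subalgebra of `B₁ × B₂` that projects onto both
factors and contains `(u - Φ₁ u, 0)` and `(0, u - Φ₂ u)` for all `u` contains the product of the
two fixed-point ideals. -/
theorem prod_mem_of_fixedIdeal (R : Subalgebra k (B₁ × B₂))
    (hp₁ : ∀ a, ∃ b, (a, b) ∈ R) (hp₂ : ∀ b, ∃ a, (a, b) ∈ R)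
    (Φ₁ : B₁ →ₐ[k] B₁) (Φ₂ : B₂ →ₐ[k] B₂)
    (h₁ : ∀ u, (u - Φ₁ u, (0 : B₂)) ∈ R) (h₂ : ∀ u, ((0 : B₁), u - Φ₂ u) ∈ R) :
    (∀ a ∈ fixedIdeal Φ₁, (a, (0 : B₂)) ∈ R) ∧ (∀ b ∈ fixedIdeal Φ₂, ((0 : B₁), b) ∈ R) ∧
      ∀ a ∈ fixedIdeal Φ₁, ∀ b ∈ fixedIdeal Φ₂, (a, b) ∈ R := by
  have H₁ : ∀ a ∈ fixedIdeal Φ₁, (a, (0 : B₂)) ∈ R :=
    left_mem_of_mem_span R hp₁ _ (by rintro _ ⟨u, rfl⟩; exact h₁ u)
  have H₂ : ∀ b ∈ fixedIdeal Φ₂, ((0 : B₁), b) ∈ R :=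
    right_mem_of_mem_span R hp₂ _ (by rintro _ ⟨u, rfl⟩; exact h₂ u)
  refine ⟨H₁, H₂, fun a ha b hb => ?_⟩
  simpa using R.add_mem (H₁ a ha) (H₂ b hb)

end Conductor

section Graph

variable {k : Type*} [Field k] (q : ℕ) [CharP k q]
variable {B₁ B₂ : Type*} [CommRing B₁] [CommRing B₂] [Algebra k B₁] [Algebra k B₂]

/-- **Kronecker conductor (S35/S34-KRON, part A), endomorphism form.**
`Φᵢ` endomorphisms of `Bᵢ` with values in `q`-th powers; `R ⊆ B₁ × B₂` a subalgebra projecting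
onto both factors and containing all `(u - Φ₁ u, 0)` and `(0, u - Φ₂ u)`.  Then the fixed-point
ideals `Jᵢ` are radical of finite codimension and `J₁ × J₂ ⊆ R`. -/
theorem kron_conductor (Φ₁ : B₁ →ₐ[k] B₁) (Φ₂ : B₂ →ₐ[k] B₂)
    [Algebra.EssFiniteType k (B₁ ⧸ fixedIdeal Φ₁)] [Algebra.EssFiniteType k (B₂ ⧸ fixedIdeal Φ₂)]
    (hΦ₁ : ∀ u, ∃ v, Φ₁ u = v ^ q) (hΦ₂ : ∀ u, ∃ v, Φ₂ u = v ^ q)
    (R : Subalgebra k (B₁ × B₂))
    (hp₁ : ∀ a, ∃ b, (a, b) ∈ R) (hp₂ : ∀ b, ∃ a, (a, b) ∈ R)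
    (h₁ : ∀ u, (u - Φ₁ u, (0 : B₂)) ∈ R) (h₂ : ∀ u, ((0 : B₁), u - Φ₂ u) ∈ R) :
    (fixedIdeal Φ₁).IsRadical ∧ (fixedIdeal Φ₂).IsRadical ∧
      Module.Finite k (B₁ ⧸ fixedIdeal Φ₁) ∧ Module.Finite k (B₂ ⧸ fixedIdeal Φ₂) ∧
      (∀ a ∈ fixedIdeal Φ₁, (a, (0 : B₂)) ∈ R) ∧ (∀ b ∈ fixedIdeal Φ₂, ((0 : B₁), b) ∈ R) ∧
      (∀ a ∈ fixedIdeal Φ₁, ∀ b ∈ fixedIdeal Φ₂, (a, b) ∈ R) := by
  obtain ⟨H₁, H₂, H₁₂⟩ := prod_mem_of_fixedIdeal R hp₁ hp₂ Φ₁ Φ₂ h₁ h₂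
  exact ⟨fixedIdeal_isRadical q _ hΦ₁, fixedIdeal_isRadical q _ hΦ₂,
    finite_quotient_fixedIdeal q _ hΦ₁, finite_quotient_fixedIdeal q _ hΦ₂, H₁, H₂, H₁₂⟩

/-- **Node lemma, abstract form.**  If `R ⊆ B₁ × B₂` contains the graph of `F : B₁ → B₂` and the
transposed graph of `G : B₂ → B₁`, then every pair of `k`-points `(P, Q)` glued by `R`
satisfies `P = Q ∘ F` and `Q = P ∘ G`; in particular `P` is a fixed point of `G ∘ F`. -/
theorem glued_pair_of_graph (F : B₁ →ₐ[k] B₂) (G : B₂ →ₐ[k] B₁) (R : Subalgebra k (B₁ × B₂))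
    (hF : ∀ u, (u, F u) ∈ R) (hG : ∀ u, (G u, u) ∈ R)
    (P : B₁ →ₐ[k] k) (Q : B₂ →ₐ[k] k) (hPQ : ∀ a b, (a, b) ∈ R → P a = Q b) :
    P = Q.comp F ∧ Q = P.comp G ∧ P.comp (G.comp F) = P ∧ Q.comp (F.comp G) = Q := by
  have e₁ : P = Q.comp F := AlgHom.ext fun u => hPQ _ _ (hF u)
  have e₂ : Q = P.comp G := AlgHom.ext fun u => (hPQ _ _ (hG u)).symm
  refine ⟨e₁, e₂, ?_, ?_⟩
  · rw [← AlgHom.comp_assoc, ← e₂, ← e₁]
  · rw [← AlgHom.comp_assoc, ← e₁, ← e₂]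

/-- **Kronecker conductor, graph form.**  `F : B₁ → B₂` and `G : B₂ → B₁` algebra maps with
values in `q`-th powers (the two `k`-linear Frobenius maps `t ↦ t ^ q` between the two
components); `R ⊆ B₁ × B₂` a subalgebra containing the graph `{(u, F u)}` and the transposed
graph `{(G u, u)}`.  Then `R` projects onto both factors, the fixed-point ideals `J₁` of `G ∘ F`
and `J₂` of `F ∘ G` are radical of finite codimension, and `J₁ × J₂ ⊆ R`.  The two quotients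
are only assumed to be essentially of finite type (automatic if `B₁`, `B₂` are of finite type, or
if the quotients are known to be finite-dimensional). -/
theorem kron_conductor_graph (F : B₁ →ₐ[k] B₂) (G : B₂ →ₐ[k] B₁)
    [Algebra.EssFiniteType k (B₁ ⧸ fixedIdeal (G.comp F))]
    [Algebra.EssFiniteType k (B₂ ⧸ fixedIdeal (F.comp G))]
    (hF : ∀ u, ∃ v, F u = v ^ q) (hG : ∀ u, ∃ v, G u = v ^ q)
    (R : Subalgebra k (B₁ × B₂)) (h₁ : ∀ u, (u, F u) ∈ R) (h₂ : ∀ u, (G u, u) ∈ R) :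
    (∀ a, ∃ b, (a, b) ∈ R) ∧ (∀ b, ∃ a, (a, b) ∈ R) ∧
      (fixedIdeal (G.comp F)).IsRadical ∧ (fixedIdeal (F.comp G)).IsRadical ∧
      Module.Finite k (B₁ ⧸ fixedIdeal (G.comp F)) ∧
      Module.Finite k (B₂ ⧸ fixedIdeal (F.comp G)) ∧
      (∀ a ∈ fixedIdeal (G.comp F), (a, (0 : B₂)) ∈ R) ∧
      (∀ b ∈ fixedIdeal (F.comp G), ((0 : B₁), b) ∈ R) ∧
      (∀ a ∈ fixedIdeal (G.comp F), ∀ b ∈ fixedIdeal (F.comp G), (a, b) ∈ R) := by
  have hp₁ : ∀ a, ∃ b, (a, b) ∈ R := fun a => ⟨F a, h₁ a⟩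
  have hp₂ : ∀ b, ∃ a, (a, b) ∈ R := fun b => ⟨G b, h₂ b⟩
  refine ⟨hp₁, hp₂, kron_conductor q (G.comp F) (F.comp G) (fun u => hG (F u))
    (fun u => hF (G u)) R hp₁ hp₂ (fun u => ?_) (fun u => ?_)⟩
  · simpa using R.sub_mem (h₁ u) (h₂ (F u))
  · simpa using R.sub_mem (h₂ u) (h₁ (G u))

end Graph

section Semilinear

variable {k : Type*} [Field k] (q : ℕ) [hq : Fact q.Prime] [CharP k q]
variable {B : Type*} [CommRing B] [Algebra k B]

include k in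
omit hq in
theorem natCast_eq_zero_of_charP : (q : B) = 0 := by
  rw [← map_natCast (algebraMap k B), CharP.cast_eq_zero k q, map_zero]

include k in
theorem add_pow_char_pow_of_algebra (m : ℕ) (x y : B) :
    (x + y) ^ q ^ m = x ^ q ^ m + y ^ q ^ m := by
  obtain ⟨r, hr⟩ := exists_add_pow_prime_pow_eq hq.out x y m
  rw [hr, natCast_eq_zero_of_charP (k := k) q (B := B)]
  ring

/-- The `k`-linear Frobenius `u ↦ θ⁻¹ (u ^ q ^ m)` attached to a ring automorphism `θ` that is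
semilinear with respect to `c ↦ c ^ q ^ m`. -/
def frobTwist (θ : B ≃+* B) (m : ℕ) (hθ : ∀ (c : k) (u : B), θ (c • u) = c ^ q ^ m • θ u) :
    B →ₐ[k] B :=
  AlgHom.ofLinearMap
    { toFun := fun u => θ.symm (u ^ q ^ m)
      map_add' := fun x y => by
        rw [add_pow_char_pow_of_algebra (k := k) q m x y, map_add]
      map_smul' := fun c u => by
        apply θ.injective
        rw [RingHom.id_apply, hθ, RingEquiv.apply_symm_apply, RingEquiv.apply_symm_apply,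
          smul_pow] }
    (by simp) (fun x y => by simp [mul_pow])

variable (θ : B ≃+* B) (m : ℕ) (hθ : ∀ (c : k) (u : B), θ (c • u) = c ^ q ^ m • θ u)

@[simp]
theorem frobTwist_apply (u : B) : frobTwist q θ m hθ u = θ.symm (u ^ q ^ m) := rfl

theorem frobTwist_map (v : B) : frobTwist q θ m hθ (θ v) = v ^ q ^ m := by
  rw [frobTwist_apply, ← map_pow, RingEquiv.symm_apply_apply]

/-- The fixed-point ideal of the twisted Frobenius is generated by the `θ v - v ^ q ^ m`. -/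
theorem fixedIdeal_frobTwist :
    fixedIdeal (frobTwist q θ m hθ) = Ideal.span (Set.range fun v => θ v - v ^ q ^ m) := by
  unfold fixedIdeal
  congr 1
  ext x
  constructor
  · rintro ⟨u, rfl⟩
    refine ⟨θ.symm u, ?_⟩
    simp only [frobTwist_apply, RingEquiv.apply_symm_apply, map_pow]
  · rintro ⟨v, rfl⟩
    exact ⟨θ v, by simp only [frobTwist_map]⟩

/-- All values of the twisted Frobenius are `q`-th powers. -/
theorem frobTwist_exists_pow (hm : m ≠ 0) (u : B) : ∃ v, frobTwist q θ m hθ u = v ^ q := by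
  obtain ⟨n, rfl⟩ := Nat.exists_eq_succ_of_ne_zero hm
  exact ⟨θ.symm u ^ q ^ n, by rw [frobTwist_apply, map_pow, ← pow_mul, ← pow_succ]⟩

/-- The fixed `k`-points of the twisted Frobenius are the points `P` with
`P (θ v) = P v ^ q ^ m`. -/
theorem comp_frobTwist_eq_iff (P : B →ₐ[k] k) :
    P.comp (frobTwist q θ m hθ) = P ↔ ∀ v, P (θ v) = P v ^ q ^ m := by
  constructor
  · intro h v
    have := congrArg (fun g : B →ₐ[k] k => g (θ v)) h
    simp only [AlgHom.comp_apply, frobTwist_map, map_pow] at this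
    exact this.symm
  · intro h
    ext u
    rw [AlgHom.comp_apply, frobTwist_apply, map_pow θ.symm, map_pow P, ← h,
      RingEquiv.apply_symm_apply]

end Semilinear

section Main

variable {k : Type*} [Field k] [IsAlgClosed k] (q : ℕ) [hq : Fact q.Prime] [CharP k q]
variable {B₁ B₂ : Type*} [CommRing B₁] [CommRing B₂] [Algebra k B₁] [Algebra k B₂]

/-- **Kronecker conductor (S35/S34-KRON, part A), semilinear form.**
`θᵢ` ring automorphisms of `Bᵢ`, semilinear for `c ↦ c ^ q ^ m` (`m ≠ 0`); `R ⊆ B₁ × B₂` a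
subalgebra projecting onto both factors and containing all `(θ₁ v - v ^ q ^ m, 0)` and
`(0, θ₂ v - v ^ q ^ m)`.  Then the ideals `Jᵢ` generated by the `θᵢ v - v ^ q ^ m` are radical of
finite codimension, cut out by the `k`-points with `P (θᵢ v) = P v ^ q ^ m`, and
`J₁ × J₂ ⊆ R`. -/
theorem kron_conductor_semilinear (θ₁ : B₁ ≃+* B₁) (θ₂ : B₂ ≃+* B₂) (m : ℕ) (hm : m ≠ 0)
    (hθ₁ : ∀ (c : k) (u : B₁), θ₁ (c • u) = c ^ q ^ m • θ₁ u)
    (hθ₂ : ∀ (c : k) (u : B₂), θ₂ (c • u) = c ^ q ^ m • θ₂ u)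
    (R : Subalgebra k (B₁ × B₂))
    (hp₁ : ∀ a, ∃ b, (a, b) ∈ R) (hp₂ : ∀ b, ∃ a, (a, b) ∈ R)
    (h₁ : ∀ v, (θ₁ v - v ^ q ^ m, (0 : B₂)) ∈ R) (h₂ : ∀ v, ((0 : B₁), θ₂ v - v ^ q ^ m) ∈ R)
    (J₁ : Ideal B₁) (J₂ : Ideal B₂)
    [Algebra.EssFiniteType k (B₁ ⧸ J₁)] [Algebra.EssFiniteType k (B₂ ⧸ J₂)]
    (hJ₁ : J₁ = Ideal.span (Set.range fun v => θ₁ v - v ^ q ^ m))
    (hJ₂ : J₂ = Ideal.span (Set.range fun v => θ₂ v - v ^ q ^ m)) :
    J₁.IsRadical ∧ J₂.IsRadical ∧ Module.Finite k (B₁ ⧸ J₁) ∧ Module.Finite k (B₂ ⧸ J₂) ∧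
      (∀ a ∈ J₁, (a, (0 : B₂)) ∈ R) ∧ (∀ b ∈ J₂, ((0 : B₁), b) ∈ R) ∧
      (∀ a ∈ J₁, ∀ b ∈ J₂, (a, b) ∈ R) ∧
      (∀ x, x ∈ J₁ ↔ ∀ P : B₁ →ₐ[k] k, (∀ v, P (θ₁ v) = P v ^ q ^ m) → P x = 0) ∧
      (∀ x, x ∈ J₂ ↔ ∀ P : B₂ →ₐ[k] k, (∀ v, P (θ₂ v) = P v ^ q ^ m) → P x = 0) ∧
      Finite {P : B₁ →ₐ[k] k // ∀ v, P (θ₁ v) = P v ^ q ^ m} ∧
      Finite {P : B₂ →ₐ[k] k // ∀ v, P (θ₂ v) = P v ^ q ^ m} := by
  rw [← fixedIdeal_frobTwist q θ₁ m hθ₁] at hJ₁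
  rw [← fixedIdeal_frobTwist q θ₂ m hθ₂] at hJ₂
  subst hJ₁ hJ₂
  have e₁ := frobTwist_exists_pow q θ₁ m hθ₁ hm
  have e₂ := frobTwist_exists_pow q θ₂ m hθ₂ hm
  obtain ⟨H₁, H₂, H₁₂⟩ := prod_mem_of_fixedIdeal R hp₁ hp₂ (frobTwist q θ₁ m hθ₁)
    (frobTwist q θ₂ m hθ₂) (fun u => by
      have := h₁ (θ₁.symm u)
      simpa only [frobTwist_apply, RingEquiv.apply_symm_apply, map_pow] using this)
    (fun u => by
      have := h₂ (θ₂.symm u)
      simpa only [frobTwist_apply, RingEquiv.apply_symm_apply, map_pow] using this)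
  refine ⟨fixedIdeal_isRadical q _ e₁, fixedIdeal_isRadical q _ e₂,
    finite_quotient_fixedIdeal q _ e₁, finite_quotient_fixedIdeal q _ e₂, H₁, H₂, H₁₂,
    fun x => ?_, fun x => ?_, ?_, ?_⟩
  · rw [mem_fixedIdeal_iff q _ e₁]
    exact forall_congr' fun P => by rw [comp_frobTwist_eq_iff]
  · rw [mem_fixedIdeal_iff q _ e₂]
    exact forall_congr' fun P => by rw [comp_frobTwist_eq_iff]
  · have := finite_fixedPoints q _ e₁
    exact Finite.of_equiv _ (Equiv.subtypeEquivRight fun P => comp_frobTwist_eq_iff q θ₁ m hθ₁ P)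
  · have := finite_fixedPoints q _ e₂
    exact Finite.of_equiv _ (Equiv.subtypeEquivRight fun P => comp_frobTwist_eq_iff q θ₂ m hθ₂ P)

end Main

section FinsetForm

variable {k : Type*} [Field k] [IsAlgClosed k] (q : ℕ) [CharP k q]
variable {B B₁ B₂ : Type*} [CommRing B] [CommRing B₁] [CommRing B₂] [Algebra k B] [Algebra k B₁]
  [Algebra k B₂]

include q in
/-- The fixed points as a `Finset`, cutting out the fixed-point ideal. -/
theorem exists_finset_fixedPoints (Φ : B →ₐ[k] B) [Algebra.EssFiniteType k (B ⧸ fixedIdeal Φ)]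
    (hΦ : ∀ u, ∃ v, Φ u = v ^ q) :
    ∃ S : Finset (B →ₐ[k] k), (∀ P, P ∈ S ↔ P.comp Φ = P) ∧
      ∀ x, x ∈ fixedIdeal Φ ↔ ∀ P ∈ S, P x = 0 := by
  have hfin : {P : B →ₐ[k] k | P.comp Φ = P}.Finite :=
    Set.finite_coe_iff.mp (finite_fixedPoints q Φ hΦ)
  refine ⟨hfin.toFinset, fun P => by simp, fun x => ?_⟩
  rw [mem_fixedIdeal_iff q Φ hΦ]
  simp

include q in
/-- **Kronecker conductor, `Finset` form** (the hypotheses `hfst`, `hsnd`, `hJ` of
`helper541.mem_iff_forall_node` / `finrank_quotient_eq_card_nodeSet`, with `S₁`, `S₂` the sets of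
fixed points of `Φ₁`, `Φ₂`). -/
theorem kron_conductor_finset (Φ₁ : B₁ →ₐ[k] B₁) (Φ₂ : B₂ →ₐ[k] B₂)
    [Algebra.EssFiniteType k (B₁ ⧸ fixedIdeal Φ₁)] [Algebra.EssFiniteType k (B₂ ⧸ fixedIdeal Φ₂)]
    (hΦ₁ : ∀ u, ∃ v, Φ₁ u = v ^ q) (hΦ₂ : ∀ u, ∃ v, Φ₂ u = v ^ q)
    (R : Subalgebra k (B₁ × B₂))
    (hp₁ : ∀ a, ∃ b, (a, b) ∈ R) (hp₂ : ∀ b, ∃ a, (a, b) ∈ R)
    (h₁ : ∀ u, (u - Φ₁ u, (0 : B₂)) ∈ R) (h₂ : ∀ u, ((0 : B₁), u - Φ₂ u) ∈ R) :
    ∃ (S₁ : Finset (B₁ →ₐ[k] k)) (S₂ : Finset (B₂ →ₐ[k] k)),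
      (∀ P, P ∈ S₁ ↔ P.comp Φ₁ = P) ∧ (∀ Q, Q ∈ S₂ ↔ Q.comp Φ₂ = Q) ∧
      (∀ a : B₁, ∃ r ∈ R, r.1 = a) ∧ (∀ b : B₂, ∃ r ∈ R, r.2 = b) ∧
      ∀ x : B₁ × B₂, (∀ φ ∈ S₁, φ x.1 = 0) → (∀ ψ ∈ S₂, ψ x.2 = 0) → x ∈ R := by
  obtain ⟨S₁, hS₁, hJ₁⟩ := exists_finset_fixedPoints q Φ₁ hΦ₁
  obtain ⟨S₂, hS₂, hJ₂⟩ := exists_finset_fixedPoints q Φ₂ hΦ₂
  obtain ⟨-, -, H⟩ := prod_mem_of_fixedIdeal R hp₁ hp₂ Φ₁ Φ₂ h₁ h₂
  refine ⟨S₁, S₂, hS₁, hS₂, fun a => ?_, fun b => ?_, fun x hx₁ hx₂ => ?_⟩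
  · obtain ⟨b, hb⟩ := hp₁ a
    exact ⟨(a, b), hb, rfl⟩
  · obtain ⟨a, ha⟩ := hp₂ b
    exact ⟨(a, b), ha, rfl⟩
  · exact H x.1 ((hJ₁ x.1).mpr hx₁) x.2 ((hJ₂ x.2).mpr hx₂)

include q in
/-- **Kronecker conductor, graph + `Finset` form.**  If `R ⊆ B₁ × B₂` contains the graph of `F`
and the transposed graph of `G` (both with values in `q`-th powers), then with `S₁`, `S₂` the
finite sets of fixed points of `G ∘ F`, `F ∘ G`: the hypotheses `hfst`, `hsnd`, `hJ` of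
`helper541.mem_iff_forall_node` hold, and EVERY pair of points glued by `R` is a node
`(Q ∘ F, Q)` with `Q ∈ S₂`, `Q ∘ F ∈ S₁`, `Q = (Q ∘ F) ∘ G`. -/
theorem kron_conductor_graph_finset (F : B₁ →ₐ[k] B₂) (G : B₂ →ₐ[k] B₁)
    [Algebra.EssFiniteType k (B₁ ⧸ fixedIdeal (G.comp F))]
    [Algebra.EssFiniteType k (B₂ ⧸ fixedIdeal (F.comp G))]
    (hF : ∀ u, ∃ v, F u = v ^ q) (hG : ∀ u, ∃ v, G u = v ^ q)
    (R : Subalgebra k (B₁ × B₂)) (h₁ : ∀ u, (u, F u) ∈ R) (h₂ : ∀ u, (G u, u) ∈ R) :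
    ∃ (S₁ : Finset (B₁ →ₐ[k] k)) (S₂ : Finset (B₂ →ₐ[k] k)),
      (∀ P, P ∈ S₁ ↔ P.comp (G.comp F) = P) ∧ (∀ Q, Q ∈ S₂ ↔ Q.comp (F.comp G) = Q) ∧
      (∀ a : B₁, ∃ r ∈ R, r.1 = a) ∧ (∀ b : B₂, ∃ r ∈ R, r.2 = b) ∧
      (∀ x : B₁ × B₂, (∀ φ ∈ S₁, φ x.1 = 0) → (∀ ψ ∈ S₂, ψ x.2 = 0) → x ∈ R) ∧
      ∀ p : (B₁ →ₐ[k] k) × (B₂ →ₐ[k] k), (∀ r ∈ R, p.1 r.1 = p.2 r.2) →
        p.1 = p.2.comp F ∧ p.2 = p.1.comp G ∧ p.1 ∈ S₁ ∧ p.2 ∈ S₂ := by
  have hp₁ : ∀ a, ∃ b, (a, b) ∈ R := fun a => ⟨F a, h₁ a⟩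
  have hp₂ : ∀ b, ∃ a, (a, b) ∈ R := fun b => ⟨G b, h₂ b⟩
  obtain ⟨S₁, S₂, hS₁, hS₂, hfst, hsnd, hJ⟩ := kron_conductor_finset q (G.comp F) (F.comp G)
    (fun u => hG (F u)) (fun u => hF (G u)) R hp₁ hp₂
    (fun u => by simpa using R.sub_mem (h₁ u) (h₂ (F u)))
    (fun u => by simpa using R.sub_mem (h₂ u) (h₁ (G u)))
  refine ⟨S₁, S₂, hS₁, hS₂, hfst, hsnd, hJ, fun p hp => ?_⟩
  obtain ⟨e₁, e₂, e₃, e₄⟩ := glued_pair_of_graph F G R h₁ h₂ p.1 p.2 fun a b hab => hp (a, b) hab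
  exact ⟨e₁, e₂, (hS₁ _).mpr e₃, (hS₂ _).mpr e₄⟩

end FinsetForm

end Fermat.Agent.S35.helper2736
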