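/-
S35/S34-KRON, part (B): the Kronecker conductor, modular instance (expansion level).

`A` a valuation subring of `L`, `π : A → k` the reduction.  On top of the landed Gauss ring
`Fermat.Agent.S18.helper8991.gaussRing A π ⊆ L((t))` (fractions `X / Y` of integral series with
`red Y ≠ 0`), its reduction `gaussRho`, and `gaussF A π N`, `gaussFRed A π N` on the function
field `F̄_N`:

* the substitution `t ↦ t ^ n` (`qExpand`) preserves the Gauss ring and commutes with reduction;
* a coefficientwise ring endomorphism `σ` of `L` preserving `A` and inducing `ψ` on `k` preserves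
  the Gauss ring, and reduction turns `coeffMap σ` into `coeffMap ψ`;
* for `y ∈ F̄_N` Gauss-integral: `α y`, `β y ∈ F̄_{N q}` are Gauss-integral with reductions
  `ȳ` and `ȳ(t ^ q)`; with an Atkin–Lehner map `W` exchanging `α` and `β` this gives
  `ρ (α y) = (ȳ, ȳ(t ^ q))`, `ρ (β y) = (ȳ(t ^ q), ȳ)` for the double reduction
  `ρ = (red_∞, red_∞ ∘ W)`;
* hence (`kron_conductor_modular`) the image `R` of any chart ring contains the graph of the
  `k`-linear Frobenius `F : u(t) ↦ u(t ^ q)` of the reduced chart ring `B̄` and its transpose, and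
  `kron_conductor_graph` applies: `J × J ⊆ R`, `J` the (radical, finite-codimensional) fixed-point
  ideal of `F ∘ F`.
-/
import Fermat.Agent.S35.helper2736_KronConductor
import Fermat.Agent.S18.helper8991_GaussInst
import Fermat.Agent.Lib.helper7516_LaurentFrob
import Fermat.Prelude.Def_ModularCurve_HeckeOperator
import Fermat.Prelude.Thm_ModularCurve_coeffMap_qExpand

set_option autoImplicit false

open ModularCurve HahnSeries

namespace Fermat.Agent.S35.helper2736

open Fermat.Agent.S18.helper8991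

noncomputable section

section Expansion

theorem coeffMap_injective_of_injective {R S : Type*} [CommRing R] [CommRing S] (f : R →+* S)
    (hf : Function.Injective f) : Function.Injective (coeffMap f) := by
  intro x y h
  ext n
  apply hf
  have := congrArg (fun z : LaurentSeries S => z.coeff n) h
  simpa using this

variable {L : Type*} [Field L] (A : ValuationSubring L) {k : Type*} [Field k] (π : A →+* k)

/-- The substitution `t ↦ t ^ n` preserves the Gauss ring. -/
theorem qExpand_mem_gaussRing (n : ℕ) [NeZero n] {f : LaurentSeries L}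
    (hf : f ∈ gaussRing A π) : qExpand L n f ∈ gaussRing A π := by
  obtain ⟨X, Y, hY, h⟩ := hf
  refine ⟨qExpand A n X, qExpand A n Y, ?_, ?_⟩
  · rw [coeffMap_qExpand]
    exact fun h0 => hY (qExpand_injective n (by rw [h0, map_zero]))
  · rw [coeffMap_qExpand, coeffMap_qExpand, ← h, map_mul]

/-- Reduction commutes with the substitution `t ↦ t ^ n`. -/
theorem gaussRho_qExpand (n : ℕ) [NeZero n] {f : LaurentSeries L} (hf : f ∈ gaussRing A π) :
    gaussRho A π ⟨qExpand L n f, qExpand_mem_gaussRing A π n hf⟩ =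
      qExpand k n (gaussRho A π ⟨f, hf⟩) := by
  obtain ⟨X, Y, hY, h⟩ := id hf
  have hY' : red A π (qExpand A n Y) ≠ 0 := by
    rw [coeffMap_qExpand]
    exact fun h0 => hY (qExpand_injective n (by rw [h0, map_zero]))
  have h' : qExpand L n f * inc A (qExpand A n Y) = inc A (qExpand A n X) := by
    rw [coeffMap_qExpand, coeffMap_qExpand, ← h, map_mul]
  rw [gaussRho_eq A π ⟨f, hf⟩ hY h, gaussRho_eq A π ⟨qExpand L n f, _⟩ hY' h',
    coeffMap_qExpand, coeffMap_qExpand, map_div₀]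

variable (σ : L →+* L) (hσ : ∀ a : L, a ∈ A → σ a ∈ A) (ψ : k →+* k)
  (hψ : ∀ (a : L) (ha : a ∈ A), π ⟨σ a, hσ a ha⟩ = ψ (π ⟨a, ha⟩))

/-- The restriction to `A` of a ring endomorphism of `L` preserving `A`. -/
def resA : A →+* A :=
  (σ.comp A.subtype).codRestrict A.toSubring fun a => hσ a a.2

theorem inc_coeffMap_resA (X : LaurentSeries A) :
    inc A (coeffMap (resA A σ hσ) X) = coeffMap σ (inc A X) := by
  rw [coeffMap_coeffMap, coeffMap_coeffMap]
  exact coeffMap_congr (RingHom.ext fun _ => rfl) X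

include hψ in
theorem red_coeffMap_resA (X : LaurentSeries A) :
    red A π (coeffMap (resA A σ hσ) X) = coeffMap ψ (red A π X) := by
  rw [coeffMap_coeffMap, coeffMap_coeffMap]
  have e : π.comp (resA A σ hσ) = ψ.comp π := RingHom.ext fun a : A => hψ (a : L) a.2
  exact coeffMap_congr e X

include hψ in
/-- A coefficientwise endomorphism preserving `A` (and inducing `ψ` on `k`) preserves the Gauss
ring. -/
theorem coeffMap_mem_gaussRing {f : LaurentSeries L} (hf : f ∈ gaussRing A π) :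
    coeffMap σ f ∈ gaussRing A π := by
  obtain ⟨X, Y, hY, h⟩ := hf
  refine ⟨coeffMap (resA A σ hσ) X, coeffMap (resA A σ hσ) Y, ?_, ?_⟩
  · rw [red_coeffMap_resA A π σ hσ ψ hψ]
    exact fun h0 => hY (coeffMap_injective_of_injective ψ ψ.injective (by rw [h0, map_zero]))
  · rw [inc_coeffMap_resA, inc_coeffMap_resA, ← h, map_mul]

/-- Reduction turns `coeffMap σ` into `coeffMap ψ`. -/
theorem gaussRho_coeffMap {f : LaurentSeries L} (hf : f ∈ gaussRing A π) :
    gaussRho A π ⟨coeffMap σ f, coeffMap_mem_gaussRing A π σ hσ ψ hψ hf⟩ =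
      coeffMap ψ (gaussRho A π ⟨f, hf⟩) := by
  obtain ⟨X, Y, hY, h⟩ := id hf
  have hY' : red A π (coeffMap (resA A σ hσ) Y) ≠ 0 := by
    rw [red_coeffMap_resA A π σ hσ ψ hψ]
    exact fun h0 => hY (coeffMap_injective_of_injective ψ ψ.injective (by rw [h0, map_zero]))
  have h' : coeffMap σ f * inc A (coeffMap (resA A σ hσ) Y) =
      inc A (coeffMap (resA A σ hσ) X) := by
    rw [inc_coeffMap_resA, inc_coeffMap_resA, ← h, map_mul]
  rw [gaussRho_eq A π ⟨f, hf⟩ hY h, gaussRho_eq A π ⟨coeffMap σ f, _⟩ hY' h',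
    red_coeffMap_resA A π σ hσ ψ hψ, red_coeffMap_resA A π σ hσ ψ hψ, map_div₀]

end Expansion

section Level

variable {L : Type*} [Field L] [Algebra ℚ L] (A : ValuationSubring L) {k : Type*} [Field k]
  (π : A →+* k)
variable (N q : ℕ) [NeZero N] [NeZero q]

/-- `α y` is Gauss-integral at level `N q` if `y` is at level `N`. -/
theorem heckeAlphaBar_mem_gaussF {y : laurentBaseChange L (modularFunctionFieldFull N)}
    (hy : y ∈ gaussF A π N) : heckeAlphaBar L N q y ∈ gaussF A π (N * q) := by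
  show ((heckeAlphaBar L N q y : laurentBaseChange L (modularFunctionFieldFull (N * q))) :
    LaurentSeries L) ∈ gaussRing A π
  rw [coe_heckeAlphaBar]
  exact hy

/-- The reduction of `α y` is the reduction of `y`. -/
theorem gaussFRed_heckeAlphaBar {y : laurentBaseChange L (modularFunctionFieldFull N)}
    (hy : y ∈ gaussF A π N) :
    gaussFRed A π (N * q) ⟨heckeAlphaBar L N q y, heckeAlphaBar_mem_gaussF A π N q hy⟩ =
      gaussFRed A π N ⟨y, hy⟩ := by
  obtain ⟨X, Y, hY, h⟩ := id hy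
  have h' : ((heckeAlphaBar L N q y : laurentBaseChange L (modularFunctionFieldFull (N * q))) :
      LaurentSeries L) * inc A Y = inc A X := by
    rw [coe_heckeAlphaBar]
    exact h
  rw [gaussFRed_eq A π N ⟨y, hy⟩ hY h, gaussFRed_eq A π (N * q) ⟨_, _⟩ hY h']

omit [NeZero N] in
/-- `β y` is Gauss-integral at level `N q` if `y` is at level `N`. -/
theorem heckeBetaBar_mem_gaussF {y : laurentBaseChange L (modularFunctionFieldFull N)}
    (hy : y ∈ gaussF A π N) : heckeBetaBar L N q y ∈ gaussF A π (N * q) :=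
  qExpand_mem_gaussRing A π q hy

omit [NeZero N] in
/-- The reduction of `β y` is the reduction of `y` with `t ↦ t ^ q` substituted. -/
theorem gaussFRed_heckeBetaBar {y : laurentBaseChange L (modularFunctionFieldFull N)}
    (hy : y ∈ gaussF A π N) :
    gaussFRed A π (N * q) ⟨heckeBetaBar L N q y, heckeBetaBar_mem_gaussF A π N q hy⟩ =
      qExpand k q (gaussFRed A π N ⟨y, hy⟩) :=
  gaussRho_qExpand A π q hy

variable (W : laurentBaseChange L (modularFunctionFieldFull (N * q)) →+*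
  laurentBaseChange L (modularFunctionFieldFull (N * q)))

/-- The functions of level `N q` that are Gauss-integral at `v_∞` and at `v_0 = v_∞ ∘ W`. -/
def gaussTwo : Subring (laurentBaseChange L (modularFunctionFieldFull (N * q))) where
  carrier := {x | x ∈ gaussF A π (N * q) ∧ W x ∈ gaussF A π (N * q)}
  mul_mem' := fun {a b} ha hb => ⟨mul_mem ha.1 hb.1, by
    show W (a * b) ∈ gaussF A π (N * q)
    rw [map_mul]; exact mul_mem ha.2 hb.2⟩
  one_mem' := ⟨one_mem _, by
    show W 1 ∈ gaussF A π (N * q)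
    rw [map_one]; exact one_mem _⟩
  add_mem' := fun {a b} ha hb => ⟨add_mem ha.1 hb.1, by
    show W (a + b) ∈ gaussF A π (N * q)
    rw [map_add]; exact add_mem ha.2 hb.2⟩
  zero_mem' := ⟨zero_mem _, by
    show W 0 ∈ gaussF A π (N * q)
    rw [map_zero]; exact zero_mem _⟩
  neg_mem' := fun {a} ha => ⟨neg_mem ha.1, by
    show W (-a) ∈ gaussF A π (N * q)
    rw [map_neg]; exact neg_mem ha.2⟩

omit [NeZero N] [NeZero q] in
theorem mem_gaussTwo_iff {x : laurentBaseChange L (modularFunctionFieldFull (N * q))} :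
    x ∈ gaussTwo A π N q W ↔ x ∈ gaussF A π (N * q) ∧ W x ∈ gaussF A π (N * q) := Iff.rfl

/-- The first reduction `red_∞` on the two-valuation ring. -/
def gaussTwoFst : gaussTwo A π N q W →+* LaurentSeries k :=
  (gaussFRed A π (N * q)).comp
    { toFun := fun x => ⟨x.1, x.2.1⟩
      map_one' := rfl
      map_mul' := fun _ _ => rfl
      map_zero' := rfl
      map_add' := fun _ _ => rfl }

/-- The second reduction `red_0 = red_∞ ∘ W` on the two-valuation ring. -/
def gaussTwoSnd : gaussTwo A π N q W →+* LaurentSeries k :=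
  (gaussFRed A π (N * q)).comp
    { toFun := fun x => ⟨W x.1, x.2.2⟩
      map_one' := Subtype.ext (map_one W)
      map_mul' := fun _ _ => Subtype.ext (map_mul W _ _)
      map_zero' := Subtype.ext (map_zero W)
      map_add' := fun _ _ => Subtype.ext (map_add W _ _) }

/-- The double reduction `ρ = (red_∞, red_0)`. -/
def gaussTwoRed : gaussTwo A π N q W →+* LaurentSeries k × LaurentSeries k :=
  (gaussTwoFst A π N q W).prod (gaussTwoSnd A π N q W)

omit [NeZero N] [NeZero q] in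
theorem gaussTwoRed_apply (x : gaussTwo A π N q W) :
    gaussTwoRed A π N q W x =
      (gaussFRed A π (N * q) ⟨x.1, x.2.1⟩, gaussFRed A π (N * q) ⟨W x.1, x.2.2⟩) := rfl

variable (hWα : ∀ y, W (heckeAlphaBar L N q y) = heckeBetaBar L N q y)
  (hWβ : ∀ y, W (heckeBetaBar L N q y) = heckeAlphaBar L N q y)

include hWα in
theorem heckeAlphaBar_mem_gaussTwo {y : laurentBaseChange L (modularFunctionFieldFull N)}
    (hy : y ∈ gaussF A π N) : heckeAlphaBar L N q y ∈ gaussTwo A π N q W :=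
  ⟨heckeAlphaBar_mem_gaussF A π N q hy, by
    rw [hWα]; exact heckeBetaBar_mem_gaussF A π N q hy⟩

include hWβ in
theorem heckeBetaBar_mem_gaussTwo {y : laurentBaseChange L (modularFunctionFieldFull N)}
    (hy : y ∈ gaussF A π N) : heckeBetaBar L N q y ∈ gaussTwo A π N q W :=
  ⟨heckeBetaBar_mem_gaussF A π N q hy, by
    rw [hWβ]; exact heckeAlphaBar_mem_gaussF A π N q hy⟩

/-- `ρ (α y) = (ȳ, ȳ(t ^ q))`. -/
theorem gaussTwoRed_heckeAlphaBar {y : laurentBaseChange L (modularFunctionFieldFull N)}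
    (hy : y ∈ gaussF A π N) :
    gaussTwoRed A π N q W ⟨heckeAlphaBar L N q y, heckeAlphaBar_mem_gaussTwo A π N q W hWα hy⟩ =
      (gaussFRed A π N ⟨y, hy⟩, qExpand k q (gaussFRed A π N ⟨y, hy⟩)) := by
  rw [gaussTwoRed_apply]
  refine Prod.ext (gaussFRed_heckeAlphaBar A π N q hy) ?_
  have e : (⟨W (heckeAlphaBar L N q y),
      (heckeAlphaBar_mem_gaussTwo A π N q W hWα hy).2⟩ : ↥(gaussF A π (N * q))) =
      ⟨heckeBetaBar L N q y, heckeBetaBar_mem_gaussF A π N q hy⟩ := Subtype.ext (hWα y)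
  show gaussFRed A π (N * q) ⟨W (heckeAlphaBar L N q y), _⟩ = _
  rw [e, gaussFRed_heckeBetaBar]

/-- `ρ (β y) = (ȳ(t ^ q), ȳ)`. -/
theorem gaussTwoRed_heckeBetaBar {y : laurentBaseChange L (modularFunctionFieldFull N)}
    (hy : y ∈ gaussF A π N) :
    gaussTwoRed A π N q W ⟨heckeBetaBar L N q y, heckeBetaBar_mem_gaussTwo A π N q W hWβ hy⟩ =
      (qExpand k q (gaussFRed A π N ⟨y, hy⟩), gaussFRed A π N ⟨y, hy⟩) := by
  rw [gaussTwoRed_apply]
  refine Prod.ext (gaussFRed_heckeBetaBar A π N q hy) ?_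
  have e : (⟨W (heckeBetaBar L N q y),
      (heckeBetaBar_mem_gaussTwo A π N q W hWβ hy).2⟩ : ↥(gaussF A π (N * q))) =
      ⟨heckeAlphaBar L N q y, heckeAlphaBar_mem_gaussF A π N q hy⟩ := Subtype.ext (hWβ y)
  show gaussFRed A π (N * q) ⟨W (heckeBetaBar L N q y), _⟩ = _
  rw [e, gaussFRed_heckeAlphaBar]

end Level

section Main

variable {L : Type*} [Field L] [Algebra ℚ L] (A : ValuationSubring L) {k : Type*} [Field k]
  (π : A →+* k)
variable (N q : ℕ) [NeZero N] [NeZero q]

/-- **Kronecker conductor (S35/S34-KRON, part B), modular instance, chart-agnostic form.**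

* `W` a ring endomorphism of `F̄_{N q}` exchanging `α` and `β` (the Atkin–Lehner involution);
* `B'` any subring of the Gauss ring of level `N` (the chart ring at level `N`), `B` any subring
  of the two-valuation ring of level `N q` containing `α B'` and `β B'`;
* `B̄` a `k`-subalgebra of `k((t))` all of whose elements are reductions of elements of `B'`,
  stable under the coefficientwise inverse Frobenius `φ`; finiteness enters only through `hfin`:
  the quotient of `B̄` by the fixed-point ideal of `F ∘ F` is essentially of finite type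
  (automatic if `B̄` is of finite type, see `kron_conductor_modular_of_finiteType`; or supplied by
  a Riemann–Roch filtration of `B̄`);
* `R` any subalgebra of `B̄ × B̄` containing the double reductions of the elements of `B`.

Then `F : u(t) ↦ u(t ^ q)` is a `k`-algebra endomorphism of `B̄` with values in `q`-th powers, `R`
contains the graph of `F` and its transpose, `R` projects onto both factors, the fixed-point
ideal `J` of `F ∘ F` (the ideal of the `𝔽_{q²}`-points of the chart) is radical of finite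
codimension, and `J × J ⊆ R`. -/
theorem kron_conductor_modular (hq : q.Prime) [CharP k q]
    (W : laurentBaseChange L (modularFunctionFieldFull (N * q)) →+*
      laurentBaseChange L (modularFunctionFieldFull (N * q)))
    (hWα : ∀ y, W (heckeAlphaBar L N q y) = heckeBetaBar L N q y)
    (hWβ : ∀ y, W (heckeBetaBar L N q y) = heckeAlphaBar L N q y)
    (B' : Subring (laurentBaseChange L (modularFunctionFieldFull N)))
    (hB' : ∀ y ∈ B', y ∈ gaussF A π N)
    (B : Subring (laurentBaseChange L (modularFunctionFieldFull (N * q))))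
    (hB : ∀ x ∈ B, x ∈ gaussTwo A π N q W)
    (hα : ∀ y ∈ B', heckeAlphaBar L N q y ∈ B) (hβ : ∀ y ∈ B', heckeBetaBar L N q y ∈ B)
    (Bbar : Subalgebra k (LaurentSeries k))
    (hsurj : ∀ u ∈ Bbar, ∃ y, ∃ hy : y ∈ B', gaussFRed A π N ⟨y, hB' y hy⟩ = u)
    (φ : k →+* k) (hφ : ∀ c, φ c ^ q = c) (hfrob : ∀ u ∈ Bbar, coeffMap φ u ∈ Bbar)
    (hfin : ∀ F : Bbar →ₐ[k] Bbar,
      (∀ u : Bbar, ((F u : Bbar) : LaurentSeries k) = qExpand k q (u : LaurentSeries k)) →
      Algebra.EssFiniteType k (Bbar ⧸ fixedIdeal (F.comp F)))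
    (R : Subalgebra k (Bbar × Bbar))
    (hR : ∀ x (hx : x ∈ B), ∃ r ∈ R, ((r.1 : LaurentSeries k), (r.2 : LaurentSeries k)) =
      gaussTwoRed A π N q W ⟨x, hB x hx⟩) :
    ∃ F : Bbar →ₐ[k] Bbar,
      (∀ u : Bbar, ((F u : Bbar) : LaurentSeries k) = qExpand k q (u : LaurentSeries k)) ∧
      (∀ u, ∃ v, F u = v ^ q) ∧ (∀ u, (u, F u) ∈ R) ∧ (∀ u, (F u, u) ∈ R) ∧
      (∀ a, ∃ b, (a, b) ∈ R) ∧ (∀ b, ∃ a, (a, b) ∈ R) ∧
      (fixedIdeal (F.comp F)).IsRadical ∧ Module.Finite k (Bbar ⧸ fixedIdeal (F.comp F)) ∧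
      (∀ a ∈ fixedIdeal (F.comp F), (a, (0 : Bbar)) ∈ R) ∧
      (∀ b ∈ fixedIdeal (F.comp F), ((0 : Bbar), b) ∈ R) ∧
      (∀ a ∈ fixedIdeal (F.comp F), ∀ b ∈ fixedIdeal (F.comp F), (a, b) ∈ R) := by
  have : ExpChar k q := ExpChar.prime hq
  -- the two families of elements of `R`
  have key : ∀ u (hu : u ∈ Bbar), ∃ hV : qExpand k q u ∈ Bbar,
      ((⟨u, hu⟩ : Bbar), (⟨qExpand k q u, hV⟩ : Bbar)) ∈ R ∧
      ((⟨qExpand k q u, hV⟩ : Bbar), (⟨u, hu⟩ : Bbar)) ∈ R := by
    intro u hu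
    obtain ⟨y, hy, rfl⟩ := hsurj u hu
    obtain ⟨r, hr, e⟩ := hR _ (hα y hy)
    obtain ⟨r', hr', e'⟩ := hR _ (hβ y hy)
    rw [gaussTwoRed_heckeAlphaBar A π N q W hWα (hB' y hy)] at e
    rw [gaussTwoRed_heckeBetaBar A π N q W hWβ (hB' y hy)] at e'
    have e1 := congrArg Prod.fst e
    have e2 := congrArg Prod.snd e
    have e1' := congrArg Prod.fst e'
    have e2' := congrArg Prod.snd e'
    simp only at e1 e2 e1' e2'
    have hV : qExpand k q (gaussFRed A π N ⟨y, hB' y hy⟩) ∈ Bbar := by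
      rw [← e2]; exact r.2.2
    refine ⟨hV, ?_, ?_⟩
    · have : r = ((⟨_, hu⟩ : Bbar), (⟨_, hV⟩ : Bbar)) :=
        Prod.ext (Subtype.ext e1) (Subtype.ext e2)
      rw [← this]; exact hr
    · have : r' = ((⟨_, hV⟩ : Bbar), (⟨_, hu⟩ : Bbar)) :=
        Prod.ext (Subtype.ext e1') (Subtype.ext e2')
      rw [← this]; exact hr'
  let F : Bbar →ₐ[k] Bbar :=
    { toFun := fun u => ⟨qExpand k q (u : LaurentSeries k), (key u u.2).1⟩
      map_one' := Subtype.ext (map_one _)
      map_mul' := fun a b => Subtype.ext (map_mul _ _ _)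
      map_zero' := Subtype.ext (map_zero _)
      map_add' := fun a b => Subtype.ext (map_add _ _ _)
      commutes' := fun c => Subtype.ext (by
        show qExpand k q (algebraMap k (LaurentSeries k) c) = algebraMap k (LaurentSeries k) c
        rw [algebraMap_laurentSeries_eq_single, qExpand_single, mul_zero]) }
  have hFpow : ∀ u : Bbar, ∃ v : Bbar, F u = v ^ q := by
    intro u
    refine ⟨⟨coeffMap φ (u : LaurentSeries k), hfrob u u.2⟩, Subtype.ext ?_⟩
    show qExpand k q (u : LaurentSeries k) = (coeffMap φ (u : LaurentSeries k)) ^ q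
    rw [← Fermat.Agent.Lib.helper7516.qExpand_coeffMap_frobenius q, coeffMap_coeffMap]
    congr 1
    refine (coeffMap_id (u : LaurentSeries k)).symm.trans (coeffMap_congr ?_ _)
    ext c
    simp [frobenius_def, hφ]
  have h₁ : ∀ u : Bbar, (u, F u) ∈ R := fun u => (key u u.2).2.1
  have h₂ : ∀ u : Bbar, (F u, u) ∈ R := fun u => (key u u.2).2.2
  have := hfin F fun _ => rfl
  obtain ⟨p₁, p₂, r₁, -, f₁, -, c₁, c₂, c₁₂⟩ := kron_conductor_graph q F F hFpow hFpow R h₁ h₂
  exact ⟨F, fun _ => rfl, hFpow, h₁, h₂, p₁, p₂, r₁, f₁, c₁, c₂, c₁₂⟩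

/-- `kron_conductor_modular` for a reduced chart ring `B̄` of finite type over `k`. -/
theorem kron_conductor_modular_of_finiteType (hq : q.Prime) [CharP k q]
    (W : laurentBaseChange L (modularFunctionFieldFull (N * q)) →+*
      laurentBaseChange L (modularFunctionFieldFull (N * q)))
    (hWα : ∀ y, W (heckeAlphaBar L N q y) = heckeBetaBar L N q y)
    (hWβ : ∀ y, W (heckeBetaBar L N q y) = heckeAlphaBar L N q y)
    (B' : Subring (laurentBaseChange L (modularFunctionFieldFull N)))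
    (hB' : ∀ y ∈ B', y ∈ gaussF A π N)
    (B : Subring (laurentBaseChange L (modularFunctionFieldFull (N * q))))
    (hB : ∀ x ∈ B, x ∈ gaussTwo A π N q W)
    (hα : ∀ y ∈ B', heckeAlphaBar L N q y ∈ B) (hβ : ∀ y ∈ B', heckeBetaBar L N q y ∈ B)
    (Bbar : Subalgebra k (LaurentSeries k))
    (hsurj : ∀ u ∈ Bbar, ∃ y, ∃ hy : y ∈ B', gaussFRed A π N ⟨y, hB' y hy⟩ = u)
    (φ : k →+* k) (hφ : ∀ c, φ c ^ q = c) (hfrob : ∀ u ∈ Bbar, coeffMap φ u ∈ Bbar)
    [Algebra.FiniteType k Bbar]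
    (R : Subalgebra k (Bbar × Bbar))
    (hR : ∀ x (hx : x ∈ B), ∃ r ∈ R, ((r.1 : LaurentSeries k), (r.2 : LaurentSeries k)) =
      gaussTwoRed A π N q W ⟨x, hB x hx⟩) :
    ∃ F : Bbar →ₐ[k] Bbar,
      (∀ u : Bbar, ((F u : Bbar) : LaurentSeries k) = qExpand k q (u : LaurentSeries k)) ∧
      (∀ u, ∃ v, F u = v ^ q) ∧ (∀ u, (u, F u) ∈ R) ∧ (∀ u, (F u, u) ∈ R) ∧
      (∀ a, ∃ b, (a, b) ∈ R) ∧ (∀ b, ∃ a, (a, b) ∈ R) ∧
      (fixedIdeal (F.comp F)).IsRadical ∧ Module.Finite k (Bbar ⧸ fixedIdeal (F.comp F)) ∧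
      (∀ a ∈ fixedIdeal (F.comp F), (a, (0 : Bbar)) ∈ R) ∧
      (∀ b ∈ fixedIdeal (F.comp F), ((0 : Bbar), b) ∈ R) ∧
      (∀ a ∈ fixedIdeal (F.comp F), ∀ b ∈ fixedIdeal (F.comp F), (a, b) ∈ R) :=
  kron_conductor_modular A π N q hq W hWα hWβ B' hB' B hB hα hβ Bbar hsurj φ hφ hfrob
    (fun _ _ => inferInstance) R hR

/-- **`kron_conductor_modular`, `Finset` form** (`k` algebraically closed): with `S` the finite set
of `k`-points of `B̄` fixed by `F ∘ F` (the `𝔽_{q²}`-points of the chart), the hypotheses `hfst`,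
`hsnd`, `hJ` of `helper541.mem_iff_forall_node` / `finrank_quotient_eq_card_nodeSet` hold for
`S₁ = S₂ = S`, and every pair of points glued by `R` is a node `(Q ∘ F, Q)` with both points in
`S` (the node lemma). -/
theorem kron_conductor_modular_finset [IsAlgClosed k] (hq : q.Prime) [CharP k q]
    (W : laurentBaseChange L (modularFunctionFieldFull (N * q)) →+*
      laurentBaseChange L (modularFunctionFieldFull (N * q)))
    (hWα : ∀ y, W (heckeAlphaBar L N q y) = heckeBetaBar L N q y)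
    (hWβ : ∀ y, W (heckeBetaBar L N q y) = heckeAlphaBar L N q y)
    (B' : Subring (laurentBaseChange L (modularFunctionFieldFull N)))
    (hB' : ∀ y ∈ B', y ∈ gaussF A π N)
    (B : Subring (laurentBaseChange L (modularFunctionFieldFull (N * q))))
    (hB : ∀ x ∈ B, x ∈ gaussTwo A π N q W)
    (hα : ∀ y ∈ B', heckeAlphaBar L N q y ∈ B) (hβ : ∀ y ∈ B', heckeBetaBar L N q y ∈ B)
    (Bbar : Subalgebra k (LaurentSeries k))
    (hsurj : ∀ u ∈ Bbar, ∃ y, ∃ hy : y ∈ B', gaussFRed A π N ⟨y, hB' y hy⟩ = u)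
    (φ : k →+* k) (hφ : ∀ c, φ c ^ q = c) (hfrob : ∀ u ∈ Bbar, coeffMap φ u ∈ Bbar)
    (hfin : ∀ F : Bbar →ₐ[k] Bbar,
      (∀ u : Bbar, ((F u : Bbar) : LaurentSeries k) = qExpand k q (u : LaurentSeries k)) →
      Algebra.EssFiniteType k (Bbar ⧸ fixedIdeal (F.comp F)))
    (R : Subalgebra k (Bbar × Bbar))
    (hR : ∀ x (hx : x ∈ B), ∃ r ∈ R, ((r.1 : LaurentSeries k), (r.2 : LaurentSeries k)) =
      gaussTwoRed A π N q W ⟨x, hB x hx⟩) :
    ∃ (F : Bbar →ₐ[k] Bbar) (S : Finset (Bbar →ₐ[k] k)),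
      (∀ u : Bbar, ((F u : Bbar) : LaurentSeries k) = qExpand k q (u : LaurentSeries k)) ∧
      (∀ P, P ∈ S ↔ P.comp (F.comp F) = P) ∧
      (∀ a : Bbar, ∃ r ∈ R, r.1 = a) ∧ (∀ b : Bbar, ∃ r ∈ R, r.2 = b) ∧
      (∀ x : Bbar × Bbar, (∀ φ ∈ S, φ x.1 = 0) → (∀ ψ ∈ S, ψ x.2 = 0) → x ∈ R) ∧
      ∀ p : (Bbar →ₐ[k] k) × (Bbar →ₐ[k] k), (∀ r ∈ R, p.1 r.1 = p.2 r.2) →
        p.1 = p.2.comp F ∧ p.2 = p.1.comp F ∧ p.1 ∈ S ∧ p.2 ∈ S := by
  obtain ⟨F, hF, hFpow, h₁, h₂, -⟩ := kron_conductor_modular A π N q hq W hWα hWβ B' hB' B hB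
    hα hβ Bbar hsurj φ hφ hfrob hfin R hR
  have := hfin F hF
  obtain ⟨S₁, S₂, hS₁, hS₂, hfst, hsnd, hJ, hnode⟩ :=
    kron_conductor_graph_finset q F F hFpow hFpow R h₁ h₂
  have hS : S₂ = S₁ := Finset.ext fun P => by rw [hS₁, hS₂]
  subst hS
  exact ⟨F, S₂, hF, hS₁, hfst, hsnd, hJ, hnode⟩

end Main

section Stable

variable {L : Type*} [Field L] [Algebra ℚ L] (A : ValuationSubring L) {k : Type*} [Field k]
  (π : A →+* k) (N : ℕ)

/-- The reduction of a chart ring stable under a coefficientwise endomorphism `σ` of `L`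
(preserving `A`, inducing `φ` on `k`) is stable under `coeffMap φ`.  With `σ` an inverse Frobenius
lift this discharges the hypothesis `hfrob` of `kron_conductor_modular`. -/
theorem coeffMap_mem_of_stable (σ : L →+* L) (hσ : ∀ a : L, a ∈ A → σ a ∈ A) (φ : k →+* k)
    (hφ : ∀ (a : L) (ha : a ∈ A), π ⟨σ a, hσ a ha⟩ = φ (π ⟨a, ha⟩))
    (B' : Subring (laurentBaseChange L (modularFunctionFieldFull N)))
    (hB' : ∀ y ∈ B', y ∈ gaussF A π N)
    (hst : ∀ y ∈ B', ∃ z ∈ B', (z : LaurentSeries L) = coeffMap σ (y : LaurentSeries L))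
    (Bbar : Set (LaurentSeries k))
    (hred : ∀ y (hy : y ∈ B'), gaussFRed A π N ⟨y, hB' y hy⟩ ∈ Bbar)
    (hsurj : ∀ u ∈ Bbar, ∃ y, ∃ hy : y ∈ B', gaussFRed A π N ⟨y, hB' y hy⟩ = u) :
    ∀ u ∈ Bbar, coeffMap φ u ∈ Bbar := by
  intro u hu
  obtain ⟨y, hy, rfl⟩ := hsurj u hu
  obtain ⟨z, hz, hzy⟩ := hst y hy
  have h2 : gaussFRed A π N ⟨z, hB' z hz⟩ = coeffMap φ (gaussFRed A π N ⟨y, hB' y hy⟩) := by
    have h1 : gaussRho A π ⟨coeffMap σ (y : LaurentSeries L),
        coeffMap_mem_gaussRing A π σ hσ φ hφ (hB' y hy)⟩ =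
        coeffMap φ (gaussRho A π ⟨(y : LaurentSeries L), hB' y hy⟩) :=
      gaussRho_coeffMap A π σ hσ φ hφ (hB' y hy)
    have e : (⟨(z : LaurentSeries L), hB' z hz⟩ : gaussRing A π) =
        ⟨coeffMap σ (y : LaurentSeries L),
          coeffMap_mem_gaussRing A π σ hσ φ hφ (hB' y hy)⟩ := Subtype.ext hzy
    show gaussRho A π ⟨(z : LaurentSeries L), hB' z hz⟩ =
      coeffMap φ (gaussRho A π ⟨(y : LaurentSeries L), hB' y hy⟩)
    rw [e, h1]
  rw [← h2]
  exact hred z hz

end Stable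

end

end Fermat.Agent.S35.helper2736
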