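/-
S35 — (TORFROB), the `τ`-side at the Gauss rings (helper3729): a Frobenius lift acts on the Gauss
valuation ring `gaussF A π N` of the modular function field and on its reduction.

* `gaussF_coeffAut`   : a coefficientwise automorphism `σ` of `L` preserving `A` and inducing `ψ`
  on the residue field `k` preserves `gaussF A π N`, and
  `gaussFRed (σ • x) = coeffMap ψ (gaussFRed x)`.
* `gaussF_valuation_coeffAut_le / _lt` : hence `σ` preserves the unit ball and the maximal ideal
  of `V₁ = gaussF A π N` (the hypotheses `hτ₁`, `hτm₁` of `torFrob_of_nodal`), and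
  `comap_valuation_coeffAut_le / _lt` : the same for `V₂ = V₁.comap W`, `W` commuting with `σ`
  (`hτ₂`, `hτm₂`).
* `pairRed_coeffAut`  : for the pair reduction `red a = (ρ a, ρ (W a))`:
  `red (σ • a) = Prod.map (coeffMap ψ) (coeffMap ψ) (red a)`  (`hτred`).
* `gaussF_frobenius`, `frobSq_*` : the instances for a Frobenius lift `σ` at `A` (`ψ = frobenius`)
  and for `τ = σ * σ` (`θ = frobenius ∘ frobenius`, `θ c = c ^ (q ^ 2)`).
-/
import Fermat.Agent.S35.helper2736_KronModular
import Fermat.Agent.Lib.helper6879_ResidueQbar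

set_option autoImplicit false

namespace Fermat.Agent.S35.helper3729

open ModularCurve AlgebraicCurve HahnSeries
open Fermat.Agent.S18.helper8991

noncomputable section

/-! ### Coefficientwise automorphisms and the Gauss ring -/

section Coeff

variable {L : Type*} [Field L] [Algebra ℚ L] (A : ValuationSubring L) {k : Type*} [Field k]
  (π : A →+* k) (N : ℕ)

/-- A coefficientwise automorphism `σ` of `L` which preserves `A` and induces `ψ` on `k`
preserves the Gauss valuation ring of the modular function field and acts on reductions by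
`coeffMap ψ`. -/
theorem gaussF_coeffAut (σ : L ≃ₐ[ℚ] L) (hσ : ∀ a : L, a ∈ A → (σ : L →+* L) a ∈ A)
    (ψ : k →+* k)
    (hψ : ∀ (a : L) (ha : a ∈ A), π ⟨(σ : L →+* L) a, hσ a ha⟩ = ψ (π ⟨a, ha⟩))
    (x : laurentBaseChange L (modularFunctionFieldFull N)) (hx : x ∈ gaussF A π N) :
    ∃ hx' : arithmeticGalois (modularFunctionFieldFull N) σ • x ∈ gaussF A π N,
      gaussFRed A π N ⟨_, hx'⟩ = coeffMap ψ (gaussFRed A π N ⟨x, hx⟩) := by
  have hmem : coeffMap (σ : L →+* L) (x : LaurentSeries L) ∈ gaussRing A π :=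
    helper2736.coeffMap_mem_gaussRing A π (σ : L →+* L) hσ ψ hψ hx
  exact ⟨hmem, helper2736.gaussRho_coeffMap A π (σ : L →+* L) hσ ψ hψ hx⟩

/-- `σ` preserves the unit ball of the Gauss valuation. -/
theorem gaussF_valuation_coeffAut_le (σ : L ≃ₐ[ℚ] L)
    (hσ : ∀ a : L, a ∈ A → (σ : L →+* L) a ∈ A) (ψ : k →+* k)
    (hψ : ∀ (a : L) (ha : a ∈ A), π ⟨(σ : L →+* L) a, hσ a ha⟩ = ψ (π ⟨a, ha⟩))
    (x : laurentBaseChange L (modularFunctionFieldFull N))
    (hx : (gaussF A π N).valuation x ≤ 1) :
    (gaussF A π N).valuation (arithmeticGalois (modularFunctionFieldFull N) σ • x) ≤ 1 := by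
  have hx' := (ValuationSubring.valuation_le_one_iff _ _).mp hx
  obtain ⟨hgx, -⟩ := gaussF_coeffAut A π N σ hσ ψ hψ x hx'
  exact (ValuationSubring.valuation_le_one_iff _ _).mpr hgx

/-- `σ` preserves the maximal ideal of the Gauss valuation. -/
theorem gaussF_valuation_coeffAut_lt (σ : L ≃ₐ[ℚ] L)
    (hσ : ∀ a : L, a ∈ A → (σ : L →+* L) a ∈ A) (ψ : k →+* k)
    (hψ : ∀ (a : L) (ha : a ∈ A), π ⟨(σ : L →+* L) a, hσ a ha⟩ = ψ (π ⟨a, ha⟩))
    (x : laurentBaseChange L (modularFunctionFieldFull N))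
    (hx : (gaussF A π N).valuation x < 1) :
    (gaussF A π N).valuation (arithmeticGalois (modularFunctionFieldFull N) σ • x) < 1 := by
  have hx' : x ∈ gaussF A π N := (ValuationSubring.valuation_le_one_iff _ _).mp hx.le
  obtain ⟨hgx, hred⟩ := gaussF_coeffAut A π N σ hσ ψ hψ x hx'
  have h0 : gaussFRed A π N ⟨x, hx'⟩ = 0 :=
    (gaussFRed_eq_zero_iff A π N _).mpr
      ((ValuationSubring.valuation_lt_one_iff (gaussF A π N) ⟨x, hx'⟩).mpr hx)
  have h1 : gaussFRed A π N ⟨_, hgx⟩ = 0 := by rw [hred, h0, map_zero]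
  exact (ValuationSubring.valuation_lt_one_iff (gaussF A π N) ⟨_, hgx⟩).mp
    ((gaussFRed_eq_zero_iff A π N _).mp h1)

variable (W : laurentBaseChange L (modularFunctionFieldFull N) →+*
  laurentBaseChange L (modularFunctionFieldFull N))

/-- The same for the second Gauss ring `V₂ = V₁.comap W`, `W` commuting with `σ`. -/
theorem comap_valuation_coeffAut_le (σ : L ≃ₐ[ℚ] L)
    (hσ : ∀ a : L, a ∈ A → (σ : L →+* L) a ∈ A) (ψ : k →+* k)
    (hψ : ∀ (a : L) (ha : a ∈ A), π ⟨(σ : L →+* L) a, hσ a ha⟩ = ψ (π ⟨a, ha⟩))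
    (hW : ∀ z, W (arithmeticGalois (modularFunctionFieldFull N) σ • z) =
      arithmeticGalois (modularFunctionFieldFull N) σ • W z)
    (x : laurentBaseChange L (modularFunctionFieldFull N))
    (hx : ((gaussF A π N).comap W).valuation x ≤ 1) :
    ((gaussF A π N).comap W).valuation
      (arithmeticGalois (modularFunctionFieldFull N) σ • x) ≤ 1 := by
  rw [ValuationSubring.valuation_le_one_iff, ValuationSubring.mem_comap] at hx ⊢
  rw [hW]
  exact (gaussF_coeffAut A π N σ hσ ψ hψ (W x) hx).1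

theorem comap_valuation_coeffAut_lt (σ : L ≃ₐ[ℚ] L)
    (hσ : ∀ a : L, a ∈ A → (σ : L →+* L) a ∈ A) (ψ : k →+* k)
    (hψ : ∀ (a : L) (ha : a ∈ A), π ⟨(σ : L →+* L) a, hσ a ha⟩ = ψ (π ⟨a, ha⟩))
    (hW : ∀ z, W (arithmeticGalois (modularFunctionFieldFull N) σ • z) =
      arithmeticGalois (modularFunctionFieldFull N) σ • W z)
    (x : laurentBaseChange L (modularFunctionFieldFull N))
    (hx : ((gaussF A π N).comap W).valuation x < 1) :
    ((gaussF A π N).comap W).valuation
      (arithmeticGalois (modularFunctionFieldFull N) σ • x) < 1 := by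
  have key : ∀ y : laurentBaseChange L (modularFunctionFieldFull N),
      ((gaussF A π N).comap W).valuation y < 1 ↔ (gaussF A π N).valuation (W y) < 1 := by
    intro y
    rw [← ValuationSubring.mem_nonunits_iff, ← ValuationSubring.mem_nonunits_iff,
      ValuationSubring.mem_nonunits_iff_or, ValuationSubring.mem_nonunits_iff_or,
      ValuationSubring.mem_comap, map_inv₀, map_eq_zero]
  rw [key] at hx ⊢
  rw [hW]
  exact gaussF_valuation_coeffAut_lt A π N σ hσ ψ hψ (W x) hx

/-- **Pair reduction.**  For any `red` computing `(ρ a, ρ (W a))` on `V₁ ∩ V₂`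
(`ρ = gaussFRed`), the automorphism `σ` acts on reductions by `coeffMap ψ` on both components. -/
theorem pairRed_coeffAut (σ : L ≃ₐ[ℚ] L)
    (hσ : ∀ a : L, a ∈ A → (σ : L →+* L) a ∈ A) (ψ : k →+* k)
    (hψ : ∀ (a : L) (ha : a ∈ A), π ⟨(σ : L →+* L) a, hσ a ha⟩ = ψ (π ⟨a, ha⟩))
    (hW : ∀ z, W (arithmeticGalois (modularFunctionFieldFull N) σ • z) =
      arithmeticGalois (modularFunctionFieldFull N) σ • W z)
    (red : laurentBaseChange L (modularFunctionFieldFull N) → LaurentSeries k × LaurentSeries k)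
    (hred : ∀ (a : laurentBaseChange L (modularFunctionFieldFull N)) (h1 : a ∈ gaussF A π N)
      (h2 : W a ∈ gaussF A π N),
      red a = (gaussFRed A π N ⟨a, h1⟩, gaussFRed A π N ⟨W a, h2⟩))
    (a : laurentBaseChange L (modularFunctionFieldFull N)) (h1 : a ∈ gaussF A π N)
    (h2 : W a ∈ gaussF A π N) :
    red (arithmeticGalois (modularFunctionFieldFull N) σ • a) =
      Prod.map (coeffMap ψ) (coeffMap ψ) (red a) := by
  obtain ⟨h1', e1⟩ := gaussF_coeffAut A π N σ hσ ψ hψ a h1
  obtain ⟨h2', e2⟩ := gaussF_coeffAut A π N σ hσ ψ hψ (W a) h2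
  have h2'' : W (arithmeticGalois (modularFunctionFieldFull N) σ • a) ∈ gaussF A π N := by
    rw [hW]; exact h2'
  rw [hred _ h1' h2'', hred a h1 h2, Prod.map_apply, e1]
  congr 1
  rw [← e2]
  congr 1
  exact Subtype.ext (hW a)

end Coeff

/-! ### Frobenius lifts -/

section Frobenius

variable {L : Type*} [Field L] [Algebra ℚ L] {A : ValuationSubring L} {q : ℕ}
  [ExpChar (IsLocalRing.ResidueField A) q] (N : ℕ)

omit [ExpChar (IsLocalRing.ResidueField A) q] in
theorem frob_map_mem {σ : L ≃ₐ[ℚ] L} (hσ : A.IsFrobeniusAt σ q) :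
    ∀ a : L, a ∈ A → (σ : L →+* L) a ∈ A :=
  fun _ ha => Fermat.Agent.Lib.helper6879.IsFrobeniusAt_map_mem hσ ha

theorem frob_residue {σ : L ≃ₐ[ℚ] L} (hσ : A.IsFrobeniusAt σ q) (a : L) (ha : a ∈ A) :
    IsLocalRing.residue A ⟨(σ : L →+* L) a, frob_map_mem hσ a ha⟩ =
      frobenius (IsLocalRing.ResidueField A) q (IsLocalRing.residue A ⟨a, ha⟩) := by
  rw [frobenius_def]
  exact Fermat.Agent.Lib.helper6879.IsFrobeniusAt_residue hσ ⟨a, ha⟩

/-- **A Frobenius lift acts on the reduction of the Gauss ring by the coefficientwise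
Frobenius.** -/
theorem gaussF_frobenius {σ : L ≃ₐ[ℚ] L} (hσ : A.IsFrobeniusAt σ q)
    (x : laurentBaseChange L (modularFunctionFieldFull N))
    (hx : x ∈ gaussF A (IsLocalRing.residue A) N) :
    ∃ hx' : arithmeticGalois (modularFunctionFieldFull N) σ • x ∈
        gaussF A (IsLocalRing.residue A) N,
      gaussFRed A (IsLocalRing.residue A) N ⟨_, hx'⟩ =
        coeffMap (frobenius (IsLocalRing.ResidueField A) q)
          (gaussFRed A (IsLocalRing.residue A) N ⟨x, hx⟩) :=
  gaussF_coeffAut A (IsLocalRing.residue A) N σ (frob_map_mem hσ) _ (frob_residue hσ) x hx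

/-- The square of the Frobenius of the residue field. -/
def frobSq (k : Type*) [CommRing k] (q : ℕ) [ExpChar k q] : k →+* k :=
  (frobenius k q).comp (frobenius k q)

theorem frobSq_apply (k : Type*) [CommRing k] (q : ℕ) [ExpChar k q] (c : k) :
    frobSq k q c = c ^ (q ^ 2) := by
  rw [frobSq, RingHom.comp_apply, frobenius_def, frobenius_def, ← pow_mul, sq]

variable (W : laurentBaseChange L (modularFunctionFieldFull N) →+*
  laurentBaseChange L (modularFunctionFieldFull N))

/-- `τ = σ * σ` (as a semilinear automorphism of the function field). -/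
def frobTau (σ : L ≃ₐ[ℚ] L) : SemilinearAut L (laurentBaseChange L (modularFunctionFieldFull N)) :=
  arithmeticGalois (modularFunctionFieldFull N) σ * arithmeticGalois (modularFunctionFieldFull N) σ

theorem frobTau_smul (σ : L ≃ₐ[ℚ] L) (x : laurentBaseChange L (modularFunctionFieldFull N)) :
    frobTau N σ • x = arithmeticGalois (modularFunctionFieldFull N) σ •
      arithmeticGalois (modularFunctionFieldFull N) σ • x := by
  rw [frobTau, mul_smul]

theorem frobTau_valuation_le {σ : L ≃ₐ[ℚ] L} (hσ : A.IsFrobeniusAt σ q)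
    (x : laurentBaseChange L (modularFunctionFieldFull N))
    (hx : (gaussF A (IsLocalRing.residue A) N).valuation x ≤ 1) :
    (gaussF A (IsLocalRing.residue A) N).valuation (frobTau N σ • x) ≤ 1 := by
  rw [frobTau_smul]
  exact gaussF_valuation_coeffAut_le A _ N σ (frob_map_mem hσ) _ (frob_residue hσ) _
    (gaussF_valuation_coeffAut_le A _ N σ (frob_map_mem hσ) _ (frob_residue hσ) _ hx)

theorem frobTau_valuation_lt {σ : L ≃ₐ[ℚ] L} (hσ : A.IsFrobeniusAt σ q)
    (x : laurentBaseChange L (modularFunctionFieldFull N))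
    (hx : (gaussF A (IsLocalRing.residue A) N).valuation x < 1) :
    (gaussF A (IsLocalRing.residue A) N).valuation (frobTau N σ • x) < 1 := by
  rw [frobTau_smul]
  exact gaussF_valuation_coeffAut_lt A _ N σ (frob_map_mem hσ) _ (frob_residue hσ) _
    (gaussF_valuation_coeffAut_lt A _ N σ (frob_map_mem hσ) _ (frob_residue hσ) _ hx)

theorem frobTau_comap_valuation_le {σ : L ≃ₐ[ℚ] L} (hσ : A.IsFrobeniusAt σ q)
    (hW : ∀ z, W (arithmeticGalois (modularFunctionFieldFull N) σ • z) =
      arithmeticGalois (modularFunctionFieldFull N) σ • W z)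
    (x : laurentBaseChange L (modularFunctionFieldFull N))
    (hx : ((gaussF A (IsLocalRing.residue A) N).comap W).valuation x ≤ 1) :
    ((gaussF A (IsLocalRing.residue A) N).comap W).valuation (frobTau N σ • x) ≤ 1 := by
  rw [frobTau_smul]
  exact comap_valuation_coeffAut_le A _ N W σ (frob_map_mem hσ) _ (frob_residue hσ) hW _
    (comap_valuation_coeffAut_le A _ N W σ (frob_map_mem hσ) _ (frob_residue hσ) hW _ hx)

theorem frobTau_comap_valuation_lt {σ : L ≃ₐ[ℚ] L} (hσ : A.IsFrobeniusAt σ q)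
    (hW : ∀ z, W (arithmeticGalois (modularFunctionFieldFull N) σ • z) =
      arithmeticGalois (modularFunctionFieldFull N) σ • W z)
    (x : laurentBaseChange L (modularFunctionFieldFull N))
    (hx : ((gaussF A (IsLocalRing.residue A) N).comap W).valuation x < 1) :
    ((gaussF A (IsLocalRing.residue A) N).comap W).valuation (frobTau N σ • x) < 1 := by
  rw [frobTau_smul]
  exact comap_valuation_coeffAut_lt A _ N W σ (frob_map_mem hσ) _ (frob_residue hσ) hW _
    (comap_valuation_coeffAut_lt A _ N W σ (frob_map_mem hσ) _ (frob_residue hσ) hW _ hx)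

/-- **`τ = σ²` acts on the pair reduction by the coefficientwise `frobSq`** (`hτred` of
`torFrob_of_nodal` with `Θ = Prod.map (coeffMap θ) (coeffMap θ)`, `θ = frobSq`). -/
theorem frobTau_pairRed {σ : L ≃ₐ[ℚ] L} (hσ : A.IsFrobeniusAt σ q)
    (hW : ∀ z, W (arithmeticGalois (modularFunctionFieldFull N) σ • z) =
      arithmeticGalois (modularFunctionFieldFull N) σ • W z)
    (red : laurentBaseChange L (modularFunctionFieldFull N) →
      LaurentSeries (IsLocalRing.ResidueField A) × LaurentSeries (IsLocalRing.ResidueField A))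
    (hred : ∀ (a : laurentBaseChange L (modularFunctionFieldFull N))
      (h1 : a ∈ gaussF A (IsLocalRing.residue A) N)
      (h2 : W a ∈ gaussF A (IsLocalRing.residue A) N),
      red a = (gaussFRed A (IsLocalRing.residue A) N ⟨a, h1⟩,
        gaussFRed A (IsLocalRing.residue A) N ⟨W a, h2⟩))
    (a : laurentBaseChange L (modularFunctionFieldFull N))
    (h1 : a ∈ gaussF A (IsLocalRing.residue A) N)
    (h2 : W a ∈ gaussF A (IsLocalRing.residue A) N) :
    red (frobTau N σ • a) =
      Prod.map (coeffMap (frobSq (IsLocalRing.ResidueField A) q))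
        (coeffMap (frobSq (IsLocalRing.ResidueField A) q)) (red a) := by
  obtain ⟨h1', -⟩ := gaussF_frobenius N hσ a h1
  obtain ⟨h2', -⟩ := gaussF_frobenius N hσ (W a) h2
  have h2'' : W (arithmeticGalois (modularFunctionFieldFull N) σ • a) ∈
      gaussF A (IsLocalRing.residue A) N := by
    rw [hW]; exact h2'
  rw [frobTau_smul,
    pairRed_coeffAut A _ N W σ (frob_map_mem hσ) _ (frob_residue hσ) hW red hred _ h1' h2'',
    pairRed_coeffAut A _ N W σ (frob_map_mem hσ) _ (frob_residue hσ) hW red hred a h1 h2]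
  rw [frobSq]
  refine Prod.ext ?_ ?_
  · exact coeffMap_coeffMap _ _ _
  · exact coeffMap_coeffMap _ _ _

end Frobenius

end

end Fermat.Agent.S35.helper3729
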