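/-
S35 / S34 — item (E5) of the shared geometry module (helper3729): BASE VOCABULARY shared by
`helper3729_TorFixFF` (TORFIX, `B₁ × B₂` form) and `helper3729_TorFrob` (TORFROB, single-ring
form), in Prelude vocabulary (`Place`, `SemilinearAut`) on top of `S29/helper8217_KummerClass`.

* `val_eq_one_of_sub_one_lt`, `val_mul_sub_one_lt`, `val_inv_sub_one_lt` : elements `≡ 1`.
* `torSet K n V₁ V₂` : the `n`-Kummer elements `h ≡ 1` for both valuation rings, with its closure
  properties.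
* `intBall V₁ V₂`, `kLattice K n V₁ V₂ X h` : the common unit ball and the chart lattice
  `Λ_X(h) = {a ∈ V₁ ∩ V₂ | n ord_v a + ord_v h ≥ 0 for v ∉ X}`, with `one_mem_kLattice_one`,
  `mul_mem_kLattice`, `smul_mem_kLattice'`, `smul_mem_kLattice`.
-/
import Fermat.Agent.S29.helper8217_KummerClass

set_option autoImplicit false

namespace Fermat.Agent.S35.helper3729

open AlgebraicCurve
open Fermat.Agent.S29.helper8217

/-! ### Valuation-ring lemmas: elements `≡ 1` -/

section ValOne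

variable {F : Type*} [Field F] (V : ValuationSubring F)

theorem val_eq_one_of_sub_one_lt {a : F} (ha : V.valuation (a - 1) < 1) : V.valuation a = 1 := by
  have h := V.valuation.map_one_add_of_lt ha
  rwa [add_sub_cancel] at h

theorem val_mul_sub_one_lt {a b : F} (ha : V.valuation (a - 1) < 1)
    (hb : V.valuation (b - 1) < 1) : V.valuation (a * b - 1) < 1 := by
  have e : a * b - 1 = a * (b - 1) + (a - 1) := by ring
  rw [e]
  refine V.valuation.map_add_lt ?_ ha
  rw [map_mul, val_eq_one_of_sub_one_lt V ha, one_mul]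
  exact hb

theorem val_inv_sub_one_lt {a : F} (ha : V.valuation (a - 1) < 1) :
    V.valuation (a⁻¹ - 1) < 1 := by
  have h1 := val_eq_one_of_sub_one_lt V ha
  have ha0 : a ≠ 0 := by
    rintro rfl
    rw [map_zero] at h1
    exact zero_ne_one h1
  have e : a⁻¹ - 1 = -(a - 1) / a := by
    field_simp
    ring
  rw [e, map_div₀, Valuation.map_neg, h1, div_one]
  exact ha

end ValOne

/-! ### The set `T_n` -/

section TorSet

variable {K F : Type*} [Field K] [Field F] [Algebra K F]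

/-- `T_n`: the `n`-Kummer elements `h` of `F` with `h ≡ 1` modulo the maximal ideals of both
valuation rings `V₁`, `V₂` (the two Gauss valuations). -/
def torSet (K : Type*) {F : Type*} [Field K] [Field F] [Algebra K F] (n : ℕ)
    (V₁ V₂ : ValuationSubring F) : Set F :=
  {h | IsKummer K n h ∧ V₁.valuation (h - 1) < 1 ∧ V₂.valuation (h - 1) < 1}

variable {n : ℕ} {V₁ V₂ : ValuationSubring F}

theorem mem_torSet {h : F} : h ∈ torSet K n V₁ V₂ ↔
    IsKummer K n h ∧ V₁.valuation (h - 1) < 1 ∧ V₂.valuation (h - 1) < 1 := Iff.rfl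

theorem one_mem_torSet : (1 : F) ∈ torSet K n V₁ V₂ := by
  refine ⟨isKummer_one n, ?_, ?_⟩ <;> simp

theorem mul_mem_torSet {a b : F} (ha : a ∈ torSet K n V₁ V₂) (hb : b ∈ torSet K n V₁ V₂) :
    a * b ∈ torSet K n V₁ V₂ :=
  ⟨ha.1.mul hb.1, val_mul_sub_one_lt V₁ ha.2.1 hb.2.1, val_mul_sub_one_lt V₂ ha.2.2 hb.2.2⟩

theorem inv_mem_torSet {a : F} (ha : a ∈ torSet K n V₁ V₂) : a⁻¹ ∈ torSet K n V₁ V₂ :=
  ⟨ha.1.inv, val_inv_sub_one_lt V₁ ha.2.1, val_inv_sub_one_lt V₂ ha.2.2⟩

theorem ne_zero_of_mem_torSet {a : F} (ha : a ∈ torSet K n V₁ V₂) : a ≠ 0 := ha.1.ne_zero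

theorem val_smul_sub_one_lt (g : SemilinearAut K F) (V : ValuationSubring F)
    (hg : ∀ x : F, V.valuation x ≤ 1 → V.valuation (g • x - x) < 1) {a : F}
    (ha : V.valuation (a - 1) < 1) : V.valuation (g • a - 1) < 1 := by
  have e : g • a - 1 = (g • a - a) + (a - 1) := by ring
  rw [e]
  exact V.valuation.map_add_lt (hg a (val_eq_one_of_sub_one_lt V ha).le) ha

theorem smul_mem_torSet (g : SemilinearAut K F)
    (hg₁ : ∀ x : F, V₁.valuation x ≤ 1 → V₁.valuation (g • x - x) < 1)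
    (hg₂ : ∀ x : F, V₂.valuation x ≤ 1 → V₂.valuation (g • x - x) < 1) {a : F}
    (ha : a ∈ torSet K n V₁ V₂) : g • a ∈ torSet K n V₁ V₂ :=
  ⟨(isKummer_smul_iff g).mpr ha.1, val_smul_sub_one_lt g V₁ hg₁ ha.2.1,
    val_smul_sub_one_lt g V₂ hg₂ ha.2.2⟩

end TorSet

/-! ### The concrete lattices `Λ_X(h)` in Prelude vocabulary -/

section Lattice

variable {K F : Type*} [Field K] [Field F] [Algebra K F]

/-- The common unit ball of the two valuation rings. -/
def intBall (V₁ V₂ : ValuationSubring F) : Set F :=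
  {a | V₁.valuation a ≤ 1 ∧ V₂.valuation a ≤ 1}

/-- `Λ_X(h)`: the elements `a` integral for both valuation rings with
`n * ord_v a + ord_v h ≥ 0` at every place `v` outside the set `X` (the polar set of the chart):
the integral sections of `O(div h / n)` on the chart. -/
def kLattice (K : Type*) {F : Type*} [Field K] [Field F] [Algebra K F] (n : ℕ)
    (V₁ V₂ : ValuationSubring F) (X : Set (Place K F)) (h : F) : Set F :=
  {a | V₁.valuation a ≤ 1 ∧ V₂.valuation a ≤ 1 ∧
    ∀ v : Place K F, v ∉ X → a ≠ 0 → 0 ≤ (n : ℤ) * v.ord a + v.ord h}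

variable {n : ℕ} {V₁ V₂ : ValuationSubring F} {X : Set (Place K F)}

theorem kLattice_subset_intBall (h : F) : kLattice K n V₁ V₂ X h ⊆ intBall V₁ V₂ :=
  fun _ ha => ⟨ha.1, ha.2.1⟩

theorem one_mem_kLattice_one : (1 : F) ∈ kLattice K n V₁ V₂ X 1 := by
  refine ⟨by simp, by simp, fun v _ _ => ?_⟩
  simp

theorem mul_mem_kLattice {h h' a b : F} (hh : h ≠ 0) (hh' : h' ≠ 0)
    (ha : a ∈ kLattice K n V₁ V₂ X h) (hb : b ∈ kLattice K n V₁ V₂ X h') :
    a * b ∈ kLattice K n V₁ V₂ X (h * h') := by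
  refine ⟨?_, ?_, fun v hv hab => ?_⟩
  · rw [map_mul]
    exact mul_le_one' ha.1 hb.1
  · rw [map_mul]
    exact mul_le_one' ha.2.1 hb.2.1
  · have ha0 : a ≠ 0 := left_ne_zero_of_mul hab
    have hb0 : b ≠ 0 := right_ne_zero_of_mul hab
    have h1 := ha.2.2 v hv ha0
    have h2 := hb.2.2 v hv hb0
    rw [v.ord_mul ha0 hb0, v.ord_mul hh hh']
    linarith

theorem val_smul_le_one (g : SemilinearAut K F) (V : ValuationSubring F)
    (hg : ∀ x : F, V.valuation x ≤ 1 → V.valuation (g • x - x) < 1) {a : F}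
    (ha : V.valuation a ≤ 1) : V.valuation (g • a) ≤ 1 := by
  have e : g • a = (g • a - a) + a := by ring
  rw [e]
  exact V.valuation.map_add_le (hg a ha).le ha

/-- A semilinear automorphism which preserves both valuation rings and the polar set `X` of the
chart carries `Λ_X(h)` into `Λ_X(g h)`. -/
theorem smul_mem_kLattice' (g : SemilinearAut K F)
    (hg₁ : ∀ x : F, V₁.valuation x ≤ 1 → V₁.valuation (g • x) ≤ 1)
    (hg₂ : ∀ x : F, V₂.valuation x ≤ 1 → V₂.valuation (g • x) ≤ 1)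
    (hX : ∀ v ∈ X, g • v ∈ X) {h a : F} (ha : a ∈ kLattice K n V₁ V₂ X h) :
    g • a ∈ kLattice K n V₁ V₂ X (g • h) := by
  refine ⟨hg₁ a ha.1, hg₂ a ha.2.1, fun v hv hga => ?_⟩
  have hv' : g⁻¹ • v ∉ X := fun hmem => hv (by simpa using hX _ hmem)
  have ha0 : a ≠ 0 := by
    rintro rfl
    exact hga (by simp)
  have h1 := SemilinearAut.ord_smul g (g⁻¹ • v) a
  have h2 := SemilinearAut.ord_smul g (g⁻¹ • v) h
  rw [smul_inv_smul] at h1 h2
  rw [h1, h2]
  exact ha.2.2 _ hv' ha0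

/-- The same for an automorphism which is the identity modulo both maximal ideals. -/
theorem smul_mem_kLattice (g : SemilinearAut K F)
    (hg₁ : ∀ x : F, V₁.valuation x ≤ 1 → V₁.valuation (g • x - x) < 1)
    (hg₂ : ∀ x : F, V₂.valuation x ≤ 1 → V₂.valuation (g • x - x) < 1)
    (hX : ∀ v ∈ X, g • v ∈ X) {h a : F} (ha : a ∈ kLattice K n V₁ V₂ X h) :
    g • a ∈ kLattice K n V₁ V₂ X (g • h) :=
  smul_mem_kLattice' g (fun _ hx => val_smul_le_one g V₁ hg₁ hx)
    (fun _ hx => val_smul_le_one g V₂ hg₂ hx) hX ha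

end Lattice

end Fermat.Agent.S35.helper3729
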