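/-
S35 — (TORFROB) = (K8) "σ² = q² on Tor_n", INTEGRATION leaf, single-ring form (helper3729).
Twin of the S34 brick (TORFIX) of `helper2423_TorFix` / `helper3729_TorFixFF`.

Vocabulary (the one of the landed E3 layer `helper603_TwistedLattice` / `helper603_NodalRRInst`):
ONE commutative ring `Ω` (the special fibre: pairs of functions on the two components), node
evaluations `p i, q i : Ω → k` (the two branches of the `i`-th node; plain FUNCTIONS, e.g.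
`valueAt (P i) _ ∘ Prod.fst`, only required to be multiplicative on the chart ring), a chart ring
`C ⊆ Ω`, and

  `gset p q C c = {x ∈ C | q i x = c i * p i x for all i}`      (`= glued p q c` inside `C`).

* `GlueRing F T k Ω I` : a chart with reduction map `red : F → Ω`, lattices `Λ h` (`h ∈ T`) and
  the description `red '' Λ h = gset p q C c` of the reduced lattices.
* `GlueRing.gc` : the glueing constants; `gc_one`, `gc_mul`, `gc_pow`, `gc_map` (semilinear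
  transport), `gc_fix`.
* `twisted_charts`, `fixed_charts` : the abstract statements for a family of charts.
* `torFrob_of_glued` : **(TORFROB), element form**: for a semilinear automorphism `τ` of `F/K`
  preserving both valuation rings, inducing `Θ` on reductions, with `θ`-rational nodes
  (`p i (Θ x) = θ (p i x)`, `q i (Θ x) = θ (q i x)`, `θ c = c ^ e`):
  `τ • h = h ^ e * (c * w ^ n)` for every `n`-Kummer `h ≡ 1` at both valuations
  (application: `τ = σ * σ`, `σ` a Frobenius lift at `q`, `e = q ^ 2`).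
* `torFix_of_glued` : the untwisted statement (TORFIX) from the same inputs, in the shape of the
  hypothesis `hTor` of `Fermat.Agent.S34.helper584.uniFF_of_rep_of_torFix`.
-/
import Fermat.Agent.S35.helper3729_TorBase

set_option autoImplicit false

namespace Fermat.Agent.S35.helper3729

open AlgebraicCurve
open Fermat.Agent.S29.helper8217

/-! ### Glued sets in one ring -/

section GSet

variable {k Ω I : Type*} [CommRing k] [CommRing Ω]

/-- `gset p q C c = {x ∈ C | q i x = c i * p i x for all nodes i}`. -/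
def gset (p q : I → Ω → k) (C : Set Ω) (c : I → k) : Set Ω :=
  {x | x ∈ C ∧ ∀ i, q i x = c i * p i x}

theorem mem_gset {p q : I → Ω → k} {C : Set Ω} {c : I → k} {x : Ω} :
    x ∈ gset p q C c ↔ x ∈ C ∧ ∀ i, q i x = c i * p i x := Iff.rfl

theorem one_mem_gset_one {p q : I → Ω → k} {C : Set Ω} (h1 : (1 : Ω) ∈ C)
    (hp1 : ∀ i, p i 1 = 1) (hq1 : ∀ i, q i 1 = 1) :
    (1 : Ω) ∈ gset p q C (1 : I → k) :=
  ⟨h1, fun i => by rw [hp1, hq1, Pi.one_apply, mul_one]⟩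

theorem one_mem_gset_iff {p q : I → Ω → k} {C : Set Ω} (h1 : (1 : Ω) ∈ C)
    (hp1 : ∀ i, p i 1 = 1) (hq1 : ∀ i, q i 1 = 1) {c : I → k} :
    (1 : Ω) ∈ gset p q C c ↔ c = 1 := by
  constructor
  · rintro ⟨-, h⟩
    funext i
    have := h i
    rw [hp1, hq1, mul_one] at this
    rw [← this, Pi.one_apply]
  · rintro rfl
    exact one_mem_gset_one h1 hp1 hq1

end GSet

/-! ### Single-ring glue systems -/

/-- A *glue ring system* on a field `F` for a set `T` of "toric Kummer elements": node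
evaluations `p i`, `q i` on one ring `Ω`, a chart ring `C ⊆ Ω` in which the nodes can be
separated inside every glued set, a reduction map, and for every `h ∈ T` a lattice `Λ h` whose
reduction is a glued set. -/
structure GlueRing (F : Type*) [Field F] (T : Set F) (k Ω I : Type*)
    [CommRing k] [CommRing Ω] where
  /-- first branches of the nodes -/
  p : I → Ω → k
  /-- second branches of the nodes -/
  q : I → Ω → k
  /-- the chart ring (as a set) -/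
  C : Set Ω
  one_mem : (1 : Ω) ∈ C
  p_one : ∀ i, p i 1 = 1
  q_one : ∀ i, q i 1 = 1
  p_mul : ∀ i, ∀ x ∈ C, ∀ y ∈ C, p i (x * y) = p i x * p i y
  q_mul : ∀ i, ∀ x ∈ C, ∀ y ∈ C, q i (x * y) = q i x * q i y
  sep : ∀ (c : I → k) (i : I), ∃ x ∈ gset p q C c, p i x = 1
  /-- the integral elements -/
  O : Set F
  /-- the reduction map (only its values on `O` matter) -/
  red : F → Ω
  red_one : red 1 = 1
  red_mul : ∀ a ∈ O, ∀ b ∈ O, red (a * b) = red a * red b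
  /-- the lattice attached to an element of `T` -/
  Λ : F → Set F
  Λ_sub : ∀ h ∈ T, Λ h ⊆ O
  Λ_one : (1 : F) ∈ Λ 1
  Λ_mul : ∀ h ∈ T, ∀ h' ∈ T, ∀ a ∈ Λ h, ∀ b ∈ Λ h', a * b ∈ Λ (h * h')
  /-- the reduced lattice is a glued set -/
  glued : ∀ h ∈ T, ∃ c : I → k, red '' Λ h = gset p q C c

namespace GlueRing

variable {F : Type*} [Field F] {T : Set F} {k Ω I : Type*} [CommRing k] [CommRing Ω]
  (S : GlueRing F T k Ω I)

open Classical in
/-- The glueing constants of `h` (junk value `1` outside `T`). -/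
noncomputable def gc (h : F) : I → k :=
  if hh : h ∈ T then (S.glued h hh).choose else 1

theorem red_image_eq {h : F} (hh : h ∈ T) : S.red '' S.Λ h = gset S.p S.q S.C (S.gc h) := by
  rw [gc, dif_pos hh]
  exact (S.glued h hh).choose_spec

/-- The glueing constants are determined by any inclusion `gset c ⊆ red '' Λ h`. -/
theorem gc_eq_of_subset {h : F} (hh : h ∈ T) {c : I → k}
    (hc : gset S.p S.q S.C c ⊆ S.red '' S.Λ h) : S.gc h = c := by
  funext i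
  obtain ⟨x, hx, hx1⟩ := S.sep c i
  have hx' : x ∈ gset S.p S.q S.C (S.gc h) := by
    rw [← S.red_image_eq hh]
    exact hc hx
  have e1 := hx.2 i
  have e2 := hx'.2 i
  rw [hx1, mul_one] at e1 e2
  rw [← e2, e1]

theorem gc_one (h1 : (1 : F) ∈ T) : S.gc 1 = 1 := by
  have hmem : (1 : Ω) ∈ gset S.p S.q S.C (S.gc 1) := by
    rw [← S.red_image_eq h1]
    exact ⟨1, S.Λ_one, S.red_one⟩
  exact (one_mem_gset_iff S.one_mem S.p_one S.q_one).mp hmem

/-- Multiplicativity of the glueing constants. -/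
theorem gc_mul {h h' : F} (hh : h ∈ T) (hh' : h' ∈ T) (hmul : h * h' ∈ T) :
    S.gc (h * h') = S.gc h * S.gc h' := by
  funext i
  obtain ⟨x, hx, hx1⟩ := S.sep (S.gc h) i
  obtain ⟨y, hy, hy1⟩ := S.sep (S.gc h') i
  have hx2 := hx.2 i
  have hy2 := hy.2 i
  have hxC : x ∈ S.C := hx.1
  have hyC : y ∈ S.C := hy.1
  rw [← S.red_image_eq hh] at hx
  rw [← S.red_image_eq hh'] at hy
  obtain ⟨a, ha, rfl⟩ := hx
  obtain ⟨b, hb, rfl⟩ := hy
  have hab : S.red (a * b) ∈ gset S.p S.q S.C (S.gc (h * h')) := by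
    rw [← S.red_image_eq hmul]
    exact ⟨a * b, S.Λ_mul h hh h' hh' a ha b hb, rfl⟩
  rw [S.red_mul a (S.Λ_sub h hh ha) b (S.Λ_sub h' hh' hb)] at hab
  have := hab.2 i
  rw [S.q_mul i _ hxC _ hyC, S.p_mul i _ hxC _ hyC, hx1, hy1, hx2, hy2, hx1, hy1] at this
  simp only [mul_one] at this
  rw [Pi.mul_apply]
  exact this.symm

theorem gc_mul_inv {h : F} (hh : h ∈ T) (h0 : h ≠ 0) (hinv : h⁻¹ ∈ T) (h1 : (1 : F) ∈ T) :
    S.gc h * S.gc h⁻¹ = 1 := by
  have hmul : h * h⁻¹ ∈ T := by rw [mul_inv_cancel₀ h0]; exact h1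
  rw [← S.gc_mul hh hinv hmul, mul_inv_cancel₀ h0, S.gc_one h1]

theorem gc_pow {h : F} (hh : h ∈ T) (h1 : (1 : F) ∈ T) (hmulT : ∀ a ∈ T, ∀ b ∈ T, a * b ∈ T)
    (e : ℕ) : S.gc (h ^ e) = S.gc h ^ e := by
  have hpowT : ∀ e : ℕ, h ^ e ∈ T := by
    intro e
    induction e with
    | zero => simpa using h1
    | succ e ih => rw [pow_succ]; exact hmulT _ ih _ hh
  induction e with
  | zero => simpa using S.gc_one h1
  | succ e ih =>
    rw [pow_succ, pow_succ, S.gc_mul (hpowT e) hh (by rw [← pow_succ]; exact hpowT (e + 1)), ih]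

/-- Trivial glueing constants put `1` into the reduced lattice. -/
theorem one_mem_of_gc_eq_one {h : F} (hh : h ∈ T) (hc : S.gc h = 1) :
    (1 : Ω) ∈ S.red '' S.Λ h := by
  rw [S.red_image_eq hh, hc]
  exact one_mem_gset_one S.one_mem S.p_one S.q_one

/-- SEMILINEAR TRANSPORT.  Let `τ : F → F` preserve `T` and the lattices, and let its effect on
reductions be a map `Θ` of `Ω` which carries `gset c` into `gset (Φ c)` and does not create base
points.  Then the glueing constants of `τ h` are `Φ` of those of `h`. -/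
theorem gc_map [IsDomain k] (τ : F → F) (Θ : Ω → Ω) (Φ : (I → k) → (I → k))
    (hτT : ∀ h ∈ T, τ h ∈ T) (hτΛ : ∀ h ∈ T, ∀ a ∈ S.Λ h, τ a ∈ S.Λ (τ h))
    (hτred : ∀ a ∈ S.O, S.red (τ a) = Θ (S.red a))
    (hΘ : ∀ c, ∀ x ∈ gset S.p S.q S.C c, Θ x ∈ gset S.p S.q S.C (Φ c))
    (hΘ0 : ∀ i, ∃ j, ∀ x ∈ S.C, S.p j x = 1 → S.p i (Θ x) ≠ 0)
    {h : F} (hh : h ∈ T) : S.gc (τ h) = Φ (S.gc h) := by
  funext i
  obtain ⟨j, hj⟩ := hΘ0 i
  obtain ⟨x, hx, hx1⟩ := S.sep (S.gc h) j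
  have hxC : x ∈ S.C := hx.1
  have hΘx : Θ x ∈ gset S.p S.q S.C (Φ (S.gc h)) := hΘ _ x hx
  rw [← S.red_image_eq hh] at hx
  obtain ⟨a, ha, rfl⟩ := hx
  have hτa : Θ (S.red a) ∈ gset S.p S.q S.C (S.gc (τ h)) := by
    rw [← S.red_image_eq (hτT h hh), ← hτred a (S.Λ_sub h hh ha)]
    exact ⟨τ a, hτΛ h hh a ha, rfl⟩
  have e1 := hΘx.2 i
  have e2 := hτa.2 i
  rw [e1] at e2
  exact (mul_right_cancel₀ (hj _ hxC hx1) e2).symm

/-- An automorphism acting trivially on reductions fixes the glueing constants. -/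
theorem gc_fix (τ : F → F) (hτT : ∀ h ∈ T, τ h ∈ T) (hτΛ : ∀ h ∈ T, ∀ a ∈ S.Λ h, τ a ∈ S.Λ (τ h))
    (hτred : ∀ a ∈ S.O, S.red (τ a) = S.red a) {h : F} (hh : h ∈ T) : S.gc (τ h) = S.gc h := by
  refine S.gc_eq_of_subset (hτT h hh) ?_
  rw [← S.red_image_eq hh]
  rintro _ ⟨a, ha, rfl⟩
  exact ⟨τ a, hτΛ h hh a ha, hτred a (S.Λ_sub h hh ha)⟩

/-- The reduced lattice of `τ h * h⁻¹` contains `1` when `τ` acts trivially on reductions. -/
theorem one_mem_red_image_fix (h1 : (1 : F) ∈ T) (hmulT : ∀ a ∈ T, ∀ b ∈ T, a * b ∈ T)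
    (hinvT : ∀ a ∈ T, a⁻¹ ∈ T) (hT0 : ∀ a ∈ T, a ≠ 0)
    (τ : F → F) (hτT : ∀ h ∈ T, τ h ∈ T) (hτΛ : ∀ h ∈ T, ∀ a ∈ S.Λ h, τ a ∈ S.Λ (τ h))
    (hτred : ∀ a ∈ S.O, S.red (τ a) = S.red a) {h : F} (hh : h ∈ T) :
    (1 : Ω) ∈ S.red '' S.Λ (τ h * h⁻¹) := by
  have hmem : τ h * h⁻¹ ∈ T := hmulT _ (hτT h hh) _ (hinvT h hh)
  refine S.one_mem_of_gc_eq_one hmem ?_
  rw [S.gc_mul (hτT h hh) (hinvT h hh) hmem, S.gc_fix τ hτT hτΛ hτred hh]
  exact S.gc_mul_inv hh (hT0 h hh) (hinvT h hh) h1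

/-- The reduced lattice of `τ h * (h ^ e)⁻¹` contains `1` when the effect `Θ` of `τ` on
reductions raises glueing constants to the `e`-th power. -/
theorem one_mem_red_image_twisted [IsDomain k] (h1 : (1 : F) ∈ T)
    (hmulT : ∀ a ∈ T, ∀ b ∈ T, a * b ∈ T) (hinvT : ∀ a ∈ T, a⁻¹ ∈ T) (hT0 : ∀ a ∈ T, a ≠ 0)
    (τ : F → F) (Θ : Ω → Ω) (e : ℕ)
    (hτT : ∀ h ∈ T, τ h ∈ T) (hτΛ : ∀ h ∈ T, ∀ a ∈ S.Λ h, τ a ∈ S.Λ (τ h))
    (hτred : ∀ a ∈ S.O, S.red (τ a) = Θ (S.red a))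
    (hΘ : ∀ c, ∀ x ∈ gset S.p S.q S.C c, Θ x ∈ gset S.p S.q S.C (c ^ e))
    (hΘ0 : ∀ i, ∃ j, ∀ x ∈ S.C, S.p j x = 1 → S.p i (Θ x) ≠ 0)
    {h : F} (hh : h ∈ T) :
    (1 : Ω) ∈ S.red '' S.Λ (τ h * (h ^ e)⁻¹) := by
  have hpowT : ∀ e : ℕ, h ^ e ∈ T := by
    intro e
    induction e with
    | zero => simpa using h1
    | succ e ih => rw [pow_succ]; exact hmulT _ ih _ hh
  have hmem : τ h * (h ^ e)⁻¹ ∈ T := hmulT _ (hτT h hh) _ (hinvT _ (hpowT e))
  refine S.one_mem_of_gc_eq_one hmem ?_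
  rw [S.gc_mul (hτT h hh) (hinvT _ (hpowT e)) hmem,
    S.gc_map τ Θ (fun c => c ^ e) hτT hτΛ hτred hΘ hΘ0 hh, ← S.gc_pow hh h1 hmulT e]
  exact S.gc_mul_inv (hpowT e) (hT0 _ (hpowT e)) (hinvT _ (hpowT e)) h1

end GlueRing

/-! ### The abstract statements for a family of charts -/

section Charts

variable {F : Type*} [Field F] {T : Set F} {k Ω : Type*} [CommRing k] [CommRing Ω]

/-- Untwisted statement for a family of charts: `hcore` is the Kummer core in the form "if `1`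
lies in the reduced lattice of `h` in every chart then `h` is trivial". -/
theorem fixed_charts {ι : Type*} {I : ι → Type*} (S : ∀ j, GlueRing F T k Ω (I j))
    (Triv : F → Prop)
    (hcore : ∀ h ∈ T, (∀ j, (1 : Ω) ∈ (S j).red '' (S j).Λ h) → Triv h)
    (h1 : (1 : F) ∈ T) (hmulT : ∀ a ∈ T, ∀ b ∈ T, a * b ∈ T) (hinvT : ∀ a ∈ T, a⁻¹ ∈ T)
    (hT0 : ∀ a ∈ T, a ≠ 0)
    (τ : F → F) (hτT : ∀ h ∈ T, τ h ∈ T)
    (hτΛ : ∀ j, ∀ h ∈ T, ∀ a ∈ (S j).Λ h, τ a ∈ (S j).Λ (τ h))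
    (hτred : ∀ j, ∀ a ∈ (S j).O, (S j).red (τ a) = (S j).red a) :
    ∀ h ∈ T, Triv (τ h * h⁻¹) := fun h hh =>
  hcore _ (hmulT _ (hτT h hh) _ (hinvT h hh)) fun j =>
    (S j).one_mem_red_image_fix h1 hmulT hinvT hT0 τ hτT (hτΛ j) (hτred j) hh

/-- Twisted statement for a family of charts: if the effect `Θ` of `τ` on reductions raises all
glueing constants to the `e`-th power, then `τ h ≡ h ^ e` modulo trivial elements. -/
theorem twisted_charts [IsDomain k] {ι : Type*} {I : ι → Type*}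
    (S : ∀ j, GlueRing F T k Ω (I j)) (Triv : F → Prop)
    (hcore : ∀ h ∈ T, (∀ j, (1 : Ω) ∈ (S j).red '' (S j).Λ h) → Triv h)
    (h1 : (1 : F) ∈ T) (hmulT : ∀ a ∈ T, ∀ b ∈ T, a * b ∈ T) (hinvT : ∀ a ∈ T, a⁻¹ ∈ T)
    (hT0 : ∀ a ∈ T, a ≠ 0)
    (τ : F → F) (e : ℕ) (hτT : ∀ h ∈ T, τ h ∈ T) (Θ : Ω → Ω)
    (hτΛ : ∀ j, ∀ h ∈ T, ∀ a ∈ (S j).Λ h, τ a ∈ (S j).Λ (τ h))
    (hτred : ∀ j, ∀ a ∈ (S j).O, (S j).red (τ a) = Θ ((S j).red a))
    (hΘ : ∀ j c, ∀ x ∈ gset (S j).p (S j).q (S j).C c, Θ x ∈ gset (S j).p (S j).q (S j).C (c ^ e))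
    (hΘ0 : ∀ j i, ∃ i', ∀ x ∈ (S j).C, (S j).p i' x = 1 → (S j).p i (Θ x) ≠ 0) :
    ∀ h ∈ T, Triv (τ h * (h ^ e)⁻¹) := fun h hh => by
  have hpowT : ∀ e : ℕ, h ^ e ∈ T := by
    intro e
    induction e with
    | zero => simpa using h1
    | succ e ih => rw [pow_succ]; exact hmulT _ ih _ hh
  exact hcore _ (hmulT _ (hτT h hh) _ (hinvT _ (hpowT e))) fun j =>
    (S j).one_mem_red_image_twisted h1 hmulT hinvT hT0 τ Θ e hτT (hτΛ j) (hτred j) (hΘ j)
      (hΘ0 j) hh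

end Charts

/-! ### Function-field form -/

section FunctionField

variable {K F : Type*} [Field K] [Field F] [Algebra K F] {n : ℕ} {V₁ V₂ : ValuationSubring F}

/-- The glue ring system of one chart: polar set `X`, reduction `red : F → Fk`, chart ring
`C ⊆ Fk`, node evaluations `p i`, `q i`, lattices `Λ_X(h) = kLattice K n V₁ V₂ X h`. -/
def chartGlueRing (K : Type*) {F : Type*} [Field K] [Field F] [Algebra K F] (n : ℕ)
    (V₁ V₂ : ValuationSubring F) (X : Set (Place K F))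
    {k Fk I : Type*} [CommRing k] [CommRing Fk] (red : F → Fk) (hred_one : red 1 = 1)
    (hred_mul : ∀ a ∈ intBall V₁ V₂, ∀ b ∈ intBall V₁ V₂, red (a * b) = red a * red b)
    (C : Set Fk) (hC1 : (1 : Fk) ∈ C) (p q : I → Fk → k)
    (hp1 : ∀ i, p i 1 = 1) (hq1 : ∀ i, q i 1 = 1)
    (hpmul : ∀ i, ∀ x ∈ C, ∀ y ∈ C, p i (x * y) = p i x * p i y)
    (hqmul : ∀ i, ∀ x ∈ C, ∀ y ∈ C, q i (x * y) = q i x * q i y)
    (hsep : ∀ (c : I → k) (i : I), ∃ x ∈ C, (∀ i', q i' x = c i' * p i' x) ∧ p i x = 1)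
    (hglued : ∀ h ∈ torSet K n V₁ V₂, ∃ c : I → k, ∀ y : Fk,
      (∃ a ∈ kLattice K n V₁ V₂ X h, red a = y) ↔ (y ∈ C ∧ ∀ i, q i y = c i * p i y)) :
    GlueRing F (torSet K n V₁ V₂) k Fk I where
  p := p
  q := q
  C := C
  one_mem := hC1
  p_one := hp1
  q_one := hq1
  p_mul := hpmul
  q_mul := hqmul
  sep c i := by
    obtain ⟨x, hxC, hx, hx1⟩ := hsep c i
    exact ⟨x, ⟨hxC, hx⟩, hx1⟩
  O := intBall V₁ V₂
  red := red
  red_one := hred_one
  red_mul := hred_mul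
  Λ := kLattice K n V₁ V₂ X
  Λ_sub h _ := kLattice_subset_intBall h
  Λ_one := one_mem_kLattice_one
  Λ_mul _ hh _ hh' _ ha _ hb :=
    mul_mem_kLattice (ne_zero_of_mem_torSet hh) (ne_zero_of_mem_torSet hh') ha hb
  glued h hh := by
    obtain ⟨c, hc⟩ := hglued h hh
    refine ⟨c, ?_⟩
    ext y
    rw [mem_gset, ← hc y]
    exact ⟨fun ⟨a, ha, hay⟩ => ⟨a, ha, hay⟩, fun ⟨a, ha, hay⟩ => ⟨a, ha, hay⟩⟩

/-- **(TORFROB), element form** (= (K8) of the S35 route, "`σ² = q²` on `Tor_n`").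

`τ` a semilinear automorphism of the function field `F/K` (application: `τ = σ * σ` for a
Frobenius lift `σ` at `q`), `e` an exponent (`e = q ^ 2`), `V₁ V₂` the two valuation rings.

* `hτ₁ hτ₂ hτm₁ hτm₂` : `τ` preserves both valuation rings and both maximal ideals
  (`τ` lies in the decomposition group);
* `red : F → Fk`      : the simultaneous reduction, multiplicative on `V₁ ∩ V₂`, detecting `1`;
* `θ`, `Θ`            : `θ c = c ^ e` on `k`, and `red (τ a) = Θ (red a)` on `V₁ ∩ V₂`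
  (`Θ` = coefficientwise `θ`);
* for every chart `j`: a `τ`-stable polar set `X j`, a `Θ`-stable chart ring `C j ∋ 1`, node
  evaluations `p j i`, `q j i : Fk → k` (multiplicative on `C j`, e.g. `valueAt` at a degree-one
  place composed with a projection) which are `θ`-RATIONAL on `C j` (Kronecker conductor),
  separation of the nodes inside the glued sets, and the E3 description
  `red (Λ_{X j}(h)) = {y ∈ C j | q i y = c i * p i y}` for every `h ∈ T_n`;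
* `hKC`               : the multi-chart Kummer core with seeds `≡ 1` (E4).

Then `τ • h = h ^ e * (c * w ^ n)` with `c` divisor-free, for every `n`-Kummer `h ≡ 1` at both
valuations. -/
theorem torFrob_of_glued (τ : SemilinearAut K F) (e : ℕ)
    (hτ₁ : ∀ x : F, V₁.valuation x ≤ 1 → V₁.valuation (τ • x) ≤ 1)
    (hτ₂ : ∀ x : F, V₂.valuation x ≤ 1 → V₂.valuation (τ • x) ≤ 1)
    (hτm₁ : ∀ x : F, V₁.valuation x < 1 → V₁.valuation (τ • x) < 1)
    (hτm₂ : ∀ x : F, V₂.valuation x < 1 → V₂.valuation (τ • x) < 1)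
    {k Fk : Type*} [Field k] [CommRing Fk] (red : F → Fk) (hred_one : red 1 = 1)
    (hred_mul : ∀ a ∈ intBall V₁ V₂, ∀ b ∈ intBall V₁ V₂, red (a * b) = red a * red b)
    (hred_eq_one : ∀ a ∈ intBall V₁ V₂, red a = 1 →
      V₁.valuation (a - 1) < 1 ∧ V₂.valuation (a - 1) < 1)
    (θ : k →+* k) (hθ : ∀ c : k, θ c = c ^ e) (Θ : Fk → Fk)
    (hτred : ∀ a ∈ intBall V₁ V₂, red (τ • a) = Θ (red a))
    {ι : Type*} {I : ι → Type*} (X : ι → Set (Place K F)) (hX : ∀ j, ∀ v ∈ X j, τ • v ∈ X j)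
    (C : ι → Set Fk) (hC1 : ∀ j, (1 : Fk) ∈ C j) (hΘC : ∀ j, ∀ x ∈ C j, Θ x ∈ C j)
    (p q : ∀ j, I j → Fk → k)
    (hp1 : ∀ j i, p j i 1 = 1) (hq1 : ∀ j i, q j i 1 = 1)
    (hpmul : ∀ j i, ∀ x ∈ C j, ∀ y ∈ C j, p j i (x * y) = p j i x * p j i y)
    (hqmul : ∀ j i, ∀ x ∈ C j, ∀ y ∈ C j, q j i (x * y) = q j i x * q j i y)
    (hratp : ∀ j i, ∀ x ∈ C j, p j i (Θ x) = θ (p j i x))
    (hratq : ∀ j i, ∀ x ∈ C j, q j i (Θ x) = θ (q j i x))
    (hsep : ∀ j (c : I j → k) (i : I j),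
      ∃ x ∈ C j, (∀ i', q j i' x = c i' * p j i' x) ∧ p j i x = 1)
    (hglued : ∀ j, ∀ h ∈ torSet K n V₁ V₂, ∃ c : I j → k, ∀ y : Fk,
      (∃ a ∈ kLattice K n V₁ V₂ (X j) h, red a = y) ↔ (y ∈ C j ∧ ∀ i, q j i y = c i * p j i y))
    (hKC : ∀ h ∈ torSet K n V₁ V₂,
      (∀ j, ∃ a ∈ kLattice K n V₁ V₂ (X j) h,
        V₁.valuation (a - 1) < 1 ∧ V₂.valuation (a - 1) < 1) →
      ∃ w c : F, w ≠ 0 ∧ c ≠ 0 ∧ (∀ v : Place K F, v.ord c = 0) ∧ h = c * w ^ n) :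
    ∀ h : F, IsKummer K n h → V₁.valuation (h - 1) < 1 → V₂.valuation (h - 1) < 1 →
      ∃ w c : F, w ≠ 0 ∧ c ≠ 0 ∧ (∀ v : Place K F, v.ord c = 0) ∧
        τ • h = h ^ e * (c * w ^ n) := by
  intro h hK h1 h2
  have hh : h ∈ torSet K n V₁ V₂ := ⟨hK, h1, h2⟩
  have hτT : ∀ u ∈ torSet K n V₁ V₂, τ • u ∈ torSet K n V₁ V₂ := by
    rintro u ⟨huK, hu1, hu2⟩
    have e1 : τ • u - 1 = τ • (u - 1) := by rw [smul_sub, smul_one]
    exact ⟨(isKummer_smul_iff τ).mpr huK, by rw [e1]; exact hτm₁ _ hu1,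
      by rw [e1]; exact hτm₂ _ hu2⟩
  obtain ⟨w, c, hw, hc, hcv, hrel⟩ :=
    twisted_charts
      (fun j => chartGlueRing K n V₁ V₂ (X j) red hred_one hred_mul (C j) (hC1 j) (p j) (q j)
        (hp1 j) (hq1 j) (hpmul j) (hqmul j) (hsep j) (hglued j))
      (fun u => ∃ w c : F, w ≠ 0 ∧ c ≠ 0 ∧ (∀ v : Place K F, v.ord c = 0) ∧ u = c * w ^ n)
      (fun u hu hseed => hKC u hu fun j => by
        obtain ⟨a, ha, ha1⟩ := hseed j
        exact ⟨a, ha, hred_eq_one a (kLattice_subset_intBall u ha) ha1⟩)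
      one_mem_torSet (fun a ha b hb => mul_mem_torSet ha hb) (fun a ha => inv_mem_torSet ha)
      (fun a ha => ne_zero_of_mem_torSet ha) (fun x => τ • x) e hτT Θ
      (fun j u _ a ha => smul_mem_kLattice' τ hτ₁ hτ₂ (hX j) ha)
      (fun j a ha => hτred a ha)
      (fun j c x hx => ⟨hΘC j x hx.1, fun i => by
        have hx2 : q j i x = c i * p j i x := hx.2 i
        show q j i (Θ x) = (c ^ e) i * p j i (Θ x)
        rw [hratq j i x hx.1, hratp j i x hx.1, hx2, map_mul, hθ (c i), Pi.pow_apply]⟩)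
      (fun j i => ⟨i, fun x hxC hx => by
        have hx1 : p j i x = 1 := hx
        show p j i (Θ x) ≠ 0
        rw [hratp j i x hxC, hx1, map_one]
        exact one_ne_zero⟩)
      h hh
  refine ⟨w, c, hw, hc, hcv, ?_⟩
  have h0 : h ^ e ≠ 0 := pow_ne_zero e hK.ne_zero
  rw [← hrel]
  field_simp

/-- **(TORFIX) from the same inputs** (untwisted form; the conclusion is the hypothesis `hTor` of
`Fermat.Agent.S34.helper584.uniFF_of_rep_of_torFix`).  `g` is a semilinear automorphism which is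
the identity modulo both maximal ideals (inertia), `red` only depends on residues. -/
theorem torFix_of_glued (g : SemilinearAut K F)
    (hg₁ : ∀ x : F, V₁.valuation x ≤ 1 → V₁.valuation (g • x - x) < 1)
    (hg₂ : ∀ x : F, V₂.valuation x ≤ 1 → V₂.valuation (g • x - x) < 1)
    {k Fk : Type*} [CommRing k] [CommRing Fk] (red : F → Fk) (hred_one : red 1 = 1)
    (hred_mul : ∀ a ∈ intBall V₁ V₂, ∀ b ∈ intBall V₁ V₂, red (a * b) = red a * red b)
    (hred_eq_one : ∀ a ∈ intBall V₁ V₂, red a = 1 →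
      V₁.valuation (a - 1) < 1 ∧ V₂.valuation (a - 1) < 1)
    (hred_congr : ∀ a ∈ intBall V₁ V₂, ∀ b : F, V₁.valuation (b - a) < 1 →
      V₂.valuation (b - a) < 1 → red b = red a)
    {ι : Type*} {I : ι → Type*} (X : ι → Set (Place K F)) (hX : ∀ j, ∀ v ∈ X j, g • v ∈ X j)
    (C : ι → Set Fk) (hC1 : ∀ j, (1 : Fk) ∈ C j)
    (p q : ∀ j, I j → Fk → k)
    (hp1 : ∀ j i, p j i 1 = 1) (hq1 : ∀ j i, q j i 1 = 1)
    (hpmul : ∀ j i, ∀ x ∈ C j, ∀ y ∈ C j, p j i (x * y) = p j i x * p j i y)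
    (hqmul : ∀ j i, ∀ x ∈ C j, ∀ y ∈ C j, q j i (x * y) = q j i x * q j i y)
    (hsep : ∀ j (c : I j → k) (i : I j),
      ∃ x ∈ C j, (∀ i', q j i' x = c i' * p j i' x) ∧ p j i x = 1)
    (hglued : ∀ j, ∀ h ∈ torSet K n V₁ V₂, ∃ c : I j → k, ∀ y : Fk,
      (∃ a ∈ kLattice K n V₁ V₂ (X j) h, red a = y) ↔ (y ∈ C j ∧ ∀ i, q j i y = c i * p j i y))
    (hKC : ∀ h ∈ torSet K n V₁ V₂,
      (∀ j, ∃ a ∈ kLattice K n V₁ V₂ (X j) h,
        V₁.valuation (a - 1) < 1 ∧ V₂.valuation (a - 1) < 1) →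
      ∃ w c : F, w ≠ 0 ∧ c ≠ 0 ∧ (∀ v : Place K F, v.ord c = 0) ∧ h = c * w ^ n) :
    ∀ h : F, IsKummer K n h → V₁.valuation (h - 1) < 1 → V₂.valuation (h - 1) < 1 →
      ∃ w c : F, w ≠ 0 ∧ c ≠ 0 ∧ (∀ v : Place K F, v.ord c = 0) ∧ g • h = h * (c * w ^ n) := by
  intro h hK h1 h2
  have hh : h ∈ torSet K n V₁ V₂ := ⟨hK, h1, h2⟩
  obtain ⟨w, c, hw, hc, hcv, hrel⟩ :=
    fixed_charts
      (fun j => chartGlueRing K n V₁ V₂ (X j) red hred_one hred_mul (C j) (hC1 j) (p j) (q j)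
        (hp1 j) (hq1 j) (hpmul j) (hqmul j) (hsep j) (hglued j))
      (fun u => ∃ w c : F, w ≠ 0 ∧ c ≠ 0 ∧ (∀ v : Place K F, v.ord c = 0) ∧ u = c * w ^ n)
      (fun u hu hseed => hKC u hu fun j => by
        obtain ⟨a, ha, ha1⟩ := hseed j
        exact ⟨a, ha, hred_eq_one a (kLattice_subset_intBall u ha) ha1⟩)
      one_mem_torSet (fun a ha b hb => mul_mem_torSet ha hb) (fun a ha => inv_mem_torSet ha)
      (fun a ha => ne_zero_of_mem_torSet ha) (fun x => g • x)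
      (fun a ha => smul_mem_torSet g hg₁ hg₂ ha)
      (fun j u _ a ha => smul_mem_kLattice g hg₁ hg₂ (hX j) ha)
      (fun j a ha => hred_congr a ha (g • a) (hg₁ a ha.1) (hg₂ a ha.2))
      h hh
  refine ⟨w, c, hw, hc, hcv, ?_⟩
  have h0 : h ≠ 0 := hK.ne_zero
  rw [← hrel]
  field_simp

end FunctionField

end Fermat.Agent.S35.helper3729
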