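/-
S35 — (TORFROB) from the NODAL E3 export (helper3729): the Frobenius-twisted twin of
`Fermat.Agent.S35.helper2423.torFix_of_nodal`, with the SAME E3 hypothesis `hE3`
(`red (ball ∩ L(D_h + a E1 + b E2)) = ιV (glued p q c (T a b))` for `n₀ ≤ a + b`), so that ONE
export of the E3 layer (`helper603`) closes both (TORFIX) for S34 and (TORFROB) for S35.

* `mem_kLattice_iff_mem_chartLat` : the two chart-lattice vocabularies agree.
* `extEval`                       : extension by `0` of a node evaluation along `ιV : Vn → Fk`.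
* `kc_of_nodal`                   : the two-chart Kummer core with one seed, from the nodal export
                                    (the (KC) half of `helper2423.torFix_of_nodal`, for one `h`).
* `torFrob_of_nodal`              : **(TORFROB), element form**:
  `τ • h = h ^ e * (c * w ^ n)` for every `n`-Kummer `h ≡ 1` at both valuations, for a semilinear
  automorphism `τ` in the decomposition group (application `τ = σ * σ`, `e = q ^ 2`) whose effect
  `Θ` on reductions preserves the spaces `T a b` and is `θ`-rational at the nodes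
  (`p i (Θ y) = θ (p i y)`, `q i (Θ y) = θ (q i y)`, `θ c = c ^ e`: the nodes are
  `𝔽_{q²}`-rational = Kronecker conductor).
* `eval_frob_of_fixed`            : the `θ`-rationality of a node from the graph form of the
  Kronecker conductor (`P ∘ Φ = P` for `Φ = (t ↦ t^q)²` and `Φ (Θ u) = u ^ e`).
-/
import Fermat.Agent.S35.helper2423_TorFixSF
import Fermat.Agent.S35.helper3729_TorFrob

set_option autoImplicit false

namespace Fermat.Agent.S35.helper3729

open AlgebraicCurve Fermat.Agent.S29.helper8217 Fermat.Agent.S18.helper4226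

/-! ### The two chart-lattice vocabularies -/

section Vocab

variable {K F : Type*} [Field K] [Field F] [Algebra K F]

theorem mem_kLattice_iff_mem_chartLat {n : ℕ} {V₁ V₂ : ValuationSubring F}
    {X : Set (Place K F)} {h a : F} :
    a ∈ kLattice K n V₁ V₂ X h ↔ a ∈ helper2423.chartLat K V₁ V₂ X n h := by
  rw [helper2423.mem_chartLat]
  constructor
  · rintro ⟨h1, h2, h3⟩
    refine ⟨h1, h2, ?_⟩
    by_cases ha : a = 0
    · exact Or.inl ha
    · exact Or.inr fun v hv => h3 v hv ha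
  · rintro ⟨h1, h2, h3⟩
    refine ⟨h1, h2, fun v hv ha => ?_⟩
    rcases h3 with h0 | h3
    · exact absurd h0 ha
    · exact h3 v hv

end Vocab

/-! ### Extension of a node evaluation along an injection -/

section ExtEval

variable {Vn Fk k : Type*} [Zero k]

open Classical in
/-- Extension by `0` of `p : Vn → k` along `ιV : Vn → Fk`. -/
noncomputable def extEval (ιV : Vn → Fk) (p : Vn → k) (y : Fk) : k :=
  if h : ∃ x, ιV x = y then p h.choose else 0

theorem extEval_apply {ιV : Vn → Fk} (hι : Function.Injective ιV) (p : Vn → k) (x : Vn) :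
    extEval ιV p (ιV x) = p x := by
  have h : ∃ x', ιV x' = ιV x := ⟨x, rfl⟩
  rw [extEval, dif_pos h]
  exact congrArg p (hι h.choose_spec)

end ExtEval

/-! ### `θ`-rationality of the nodes from the Kronecker conductor -/

section Rational

variable {k B : Type*} [CommRing k] [CommRing B]

/-- If a point `P` of `B` is fixed by `Φ` (`P ∘ Φ = P`; in the application `Φ = F ∘ F` with
`F = (t ↦ t ^ q)` on `q`-expansions: the graph form of the Kronecker conductor) and `Θ` is a map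
with `Φ (Θ u) = u ^ e` (coefficientwise Frobenius squared, `e = q ^ 2`), then `P` is
`θ`-rational: `P (Θ u) = (P u) ^ e`. -/
theorem eval_frob_of_fixed (P : B →+* k) (Φ : B → B) (Θ : B → B) (e : ℕ)
    (hfix : ∀ u, P (Φ u) = P u) (hΦΘ : ∀ u, Φ (Θ u) = u ^ e) (u : B) :
    P (Θ u) = P u ^ e := by
  rw [← hfix (Θ u), hΦΘ u, map_pow]

end Rational

/-! ### The Kummer core from the nodal export -/

section Nodal

variable {K F : Type*} [Field K] [Field F] [Algebra K F] [HasPrincipalDivisors K F]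
variable {Γ₀ : Type*} [LinearOrderedCommGroupWithZero Γ₀] {ι : Type*}
variable {kk : Type*} [Field kk] {Fk : Type*} [CommRing Fk] [Algebra kk Fk]

/-- **(KC) from the nodal export, for one `h`.**  If the reductions of the unit balls of
`L(D_h + a E1 + b E2)` are the glued spaces `ιV (glued p q c (T a b))` for `n₀ ≤ a + b` and the
chart lattice of `h` off `E1` contains a seed `≡ 1`, then `h = c * w ^ n` with `c` divisor-free. -/
theorem kc_of_nodal (hdeg : ∀ v : Place K F, 0 < v.deg)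
    [Finite ι] [Nonempty ι] (v : ι → Valuation F Γ₀) (vL : Valuation K Γ₀)
    (harch : ∀ ε κ : Γ₀, ε < 1 → κ ≠ 0 → ∃ n : ℕ, ε ^ n < κ)
    {n : ℕ} (hn : 0 < n) (hm : ∀ i, v i (n : F) = 1)
    (V₁ V₂ : ValuationSubring F)
    (hball : ∀ x : F, (∀ i, v i x ≤ 1) ↔ x ∈ V₁ ∧ x ∈ V₂)
    (hopen : ∀ x : F, (∀ i, v i x < 1) ↔ V₁.valuation x < 1 ∧ V₂.valuation x < 1)
    (E1 E2 : Divisor K F) (hE1 : ∀ w : Place K F, 0 ≤ E1 w) (hE2 : ∀ w : Place K F, 0 ≤ E2 w)
    (hdisj : ∀ w : Place K F, E1 w = 0 ∨ E2 w = 0)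
    {red : F → Fk} (hred : helper2459.RedDataW v (fun _ => (1 : Γ₀)) vL kk red red)
    (hVG : ∀ (i : ι) (f : F), f ≠ 0 → ∃ c : K, vL c = v i f)
    {Vn : Type*} [CommRing Vn] [Algebra kk Vn] {I : Type*} [Fintype I]
    (ιV : Vn →ₐ[kk] Fk) (hιV : Function.Injective ιV)
    (T : ℕ → ℕ → Submodule kk Vn) (p q : I → Vn →ₐ[kk] kk) (e s t n₀ : ℕ)
    (hT : helper603.IsNodalRR T p q e s t n₀) (hT1 : (1 : Vn) ∈ T 0 0)
    {h : F} (hK : IsKummer K n h) (h1 : V₁.valuation (h - 1) < 1)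
    (h2 : V₂.valuation (h - 1) < 1)
    (hcart : ∀ k, n₀ ≤ k → helper2459.CartesianW v (fun _ => (1 : Γ₀)) vL
      (riemannRochSpace (kummerDivisor K n h + k • E1 + k • E2)))
    (c : I → kk)
    (hred_eq : ∀ a b, n₀ ≤ a + b →
      (∀ x ∈ riemannRochSpace (kummerDivisor K n h + a • E1 + b • E2), (∀ i, v i x ≤ 1) →
        ∃ y ∈ helper603.glued p q c (T a b), red x = ιV y) ∧
      (∀ y ∈ helper603.glued p q c (T a b),
        ∃ x ∈ riemannRochSpace (kummerDivisor K n h + a • E1 + b • E2),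
          (∀ i, v i x ≤ 1) ∧ red x = ιV y))
    (hseed : ∃ a ∈ helper2423.chartLat K V₁ V₂ {w : Place K F | 0 < E1 w} n h,
      V₁.valuation (a - 1) < 1 ∧ V₂.valuation (a - 1) < 1) :
    ∃ w c : F, w ≠ 0 ∧ c ≠ 0 ∧ (∀ v : Place K F, v.ord c = 0) ∧ h = c * w ^ n := by
  have e10 : ∀ a : ℕ, kummerDivisor K n h + a • E1 + 0 • E2 = kummerDivisor K n h + a • E1 :=
    fun a => by rw [zero_smul, add_zero]
  have e01 : ∀ b : ℕ, kummerDivisor K n h + 0 • E1 + b • E2 = kummerDivisor K n h + b • E2 :=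
    fun b => by rw [zero_smul, add_zero]
  have hT1' : ∀ a b, (1 : Vn) ∈ T a b := fun a b =>
    hT.mono 0 a 0 b (Nat.zero_le a) (Nat.zero_le b) hT1
  refine helper2423.kc_of_special_fibre hdeg v vL harch hn hm V₁ V₂ hball hopen E1 E2 hE1 hE2
    hdisj hred hVG hK h1 h2 n₀ hcart
    (fun k => (helper603.glued p q c (T k 0)).map ιV.toLinearMap)
    (fun k => (helper603.glued p q c (T 0 k)).map ιV.toLinearMap)
    (fun k => (helper603.glued p q c (T k k)).map ιV.toLinearMap) ?_ ?_ ?_ ?_ ?_ ?_ hseed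
  · -- hcont
    intro k hk a ha hab
    obtain ⟨y, hy, hay⟩ := (hred_eq k k (by omega)).1 a ha hab
    exact ⟨y, hy, hay.symm⟩
  · -- hsum
    intro k hk
    have := hT.glued_sum_formula c n₀ le_rfl k hk
    have h3 := Submodule.map_mono (f := ιV.toLinearMap) this
    rwa [Submodule.map_sup, Submodule.map_sup] at h3
  · -- hs12
    rintro _ ⟨y, hy, rfl⟩
    obtain ⟨x, hx, hxb, hxy⟩ := (hred_eq n₀ n₀ (by omega)).2 y hy
    exact ⟨x, hx, hxb, hxy⟩
  · -- hs1
    rintro k hk _ ⟨y, hy, rfl⟩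
    obtain ⟨x, hx, hxb, hxy⟩ := (hred_eq k 0 (by omega)).2 y hy
    rw [e10] at hx
    exact ⟨x, hx, hxb, hxy⟩
  · -- hs2
    rintro k hk _ ⟨y, hy, rfl⟩
    obtain ⟨x, hx, hxb, hxy⟩ := (hred_eq 0 k (by omega)).2 y hy
    rw [e01] at hx
    exact ⟨x, hx, hxb, hxy⟩
  · -- hone
    rintro ⟨k, -, y, hy, hy1⟩
    have hy1' : y = 1 := hιV (by rw [map_one]; exact hy1)
    rw [hy1'] at hy
    have hc1 : ∀ i, c i = 1 := (helper603.one_mem_glued_iff p q c (T k k) (hT1' k k)).mp hy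
    exact ⟨⟨1, (helper603.one_mem_glued_iff p q c (T n₀ 0) (hT1' n₀ 0)).mpr hc1, map_one ιV⟩,
      ⟨1, (helper603.one_mem_glued_iff p q c (T 0 n₀) (hT1' 0 n₀)).mpr hc1, map_one ιV⟩⟩

/-- The two families of pole-order spaces: `chartT T true k = T k 0` (poles along `Ē₁` only),
`chartT T false k = T 0 k`. -/
def chartT {Vn : Type*} [AddCommGroup Vn] [Module kk Vn] (T : ℕ → ℕ → Submodule kk Vn)
    (b : Bool) (k : ℕ) : Submodule kk Vn :=
  if b then T k 0 else T 0 k

/-- **(TORFROB) from the nodal description of the reduced twisted lattices** (the export of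
`Fermat.Agent.S35.helper603`, in the shape consumed by `helper2423.torFix_of_nodal`).

In addition to the inputs of `helper2423.torFix_of_nodal` (without `hTmul` and without
`c i ^ n = 1`):
* `τ` preserves both valuation rings and both maximal ideals (`hτ₁ hτ₂ hτm₁ hτm₂`) and the
  supports of `E1`, `E2`;
* `θ c = c ^ e` on the residue field, and `red (τ • a) = Θ (red a)` on the common unit ball;
* `hΘT` : `Θ` preserves the spaces `T a b` and the nodes are `θ`-rational:
  every `y ∈ T a b` has a `y' ∈ T a b` with `ιV y' = Θ (ιV y)`, `p i y' = θ (p i y)`,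
  `q i y' = θ (q i y)`.

Then `τ • h = h ^ e * (c * w ^ n)` with `c` divisor-free for every `n`-Kummer `h ≡ 1` at both
valuations (application: `τ = σ * σ` for a Frobenius lift `σ` at `q`, `e = q ^ 2`). -/
theorem torFrob_of_nodal (hdeg : ∀ v : Place K F, 0 < v.deg)
    [Finite ι] [Nonempty ι] (v : ι → Valuation F Γ₀) (vL : Valuation K Γ₀)
    (harch : ∀ ε κ : Γ₀, ε < 1 → κ ≠ 0 → ∃ n : ℕ, ε ^ n < κ)
    {n : ℕ} (hn : 0 < n) (hm : ∀ i, v i (n : F) = 1)
    (τ : SemilinearAut K F) (e : ℕ) (V₁ V₂ : ValuationSubring F)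
    (hτ₁ : ∀ x : F, V₁.valuation x ≤ 1 → V₁.valuation (τ • x) ≤ 1)
    (hτ₂ : ∀ x : F, V₂.valuation x ≤ 1 → V₂.valuation (τ • x) ≤ 1)
    (hτm₁ : ∀ x : F, V₁.valuation x < 1 → V₁.valuation (τ • x) < 1)
    (hτm₂ : ∀ x : F, V₂.valuation x < 1 → V₂.valuation (τ • x) < 1)
    (hball : ∀ x : F, (∀ i, v i x ≤ 1) ↔ x ∈ V₁ ∧ x ∈ V₂)
    (hopen : ∀ x : F, (∀ i, v i x < 1) ↔ V₁.valuation x < 1 ∧ V₂.valuation x < 1)
    (E1 E2 : Divisor K F) (hE1 : ∀ w : Place K F, 0 ≤ E1 w) (hE2 : ∀ w : Place K F, 0 ≤ E2 w)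
    (hdisj : ∀ w : Place K F, E1 w = 0 ∨ E2 w = 0)
    (hτE1 : ∀ w : Place K F, 0 < E1 w → 0 < E1 (τ • w))
    (hτE2 : ∀ w : Place K F, 0 < E2 w → 0 < E2 (τ • w))
    {red : F → Fk} (hred : helper2459.RedDataW v (fun _ => (1 : Γ₀)) vL kk red red)
    (hVG : ∀ (i : ι) (f : F), f ≠ 0 → ∃ c : K, vL c = v i f)
    (θ : kk →+* kk) (hθ : ∀ c : kk, θ c = c ^ e) (Θ : Fk → Fk)
    (hτred : ∀ a : F, (∀ i, v i a ≤ 1) → red (τ • a) = Θ (red a))
    {Vn : Type*} [CommRing Vn] [Algebra kk Vn] {I : Type*} [Fintype I]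
    (ιV : Vn →ₐ[kk] Fk) (hιV : Function.Injective ιV)
    (T : ℕ → ℕ → Submodule kk Vn) (p q : I → Vn →ₐ[kk] kk) (e' s t n₀ : ℕ)
    (hT : helper603.IsNodalRR T p q e' s t n₀) (hT1 : (1 : Vn) ∈ T 0 0)
    (hΘT : ∀ a b, ∀ y ∈ T a b, ∃ y' ∈ T a b, ιV y' = Θ (ιV y) ∧
      ∀ i, p i y' = θ (p i y) ∧ q i y' = θ (q i y))
    (hE3 : ∀ h : F, IsKummer K n h → V₁.valuation (h - 1) < 1 → V₂.valuation (h - 1) < 1 →
      (∀ k, n₀ ≤ k → helper2459.CartesianW v (fun _ => (1 : Γ₀)) vL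
        (riemannRochSpace (kummerDivisor K n h + k • E1 + k • E2))) ∧
      ∃ c : I → kk, (∀ i, c i ^ n = 1) ∧ ∀ a b, n₀ ≤ a + b →
        (∀ x ∈ riemannRochSpace (kummerDivisor K n h + a • E1 + b • E2), (∀ i, v i x ≤ 1) →
          ∃ y ∈ helper603.glued p q c (T a b), red x = ιV y) ∧
        (∀ y ∈ helper603.glued p q c (T a b),
          ∃ x ∈ riemannRochSpace (kummerDivisor K n h + a • E1 + b • E2),
            (∀ i, v i x ≤ 1) ∧ red x = ιV y)) :
    ∀ h : F, IsKummer K n h → V₁.valuation (h - 1) < 1 → V₂.valuation (h - 1) < 1 →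
      ∃ w c : F, w ≠ 0 ∧ c ≠ 0 ∧ (∀ v : Place K F, v.ord c = 0) ∧
        τ • h = h ^ e * (c * w ^ n) := by
  classical
  have hb : ∀ a : F, a ∈ intBall V₁ V₂ → ∀ i, v i a ≤ 1 := fun a ha =>
    (hball a).mpr ⟨(V₁.valuation_le_one_iff a).mp ha.1, (V₂.valuation_le_one_iff a).mp ha.2⟩
  have hT1' : ∀ a b, (1 : Vn) ∈ T a b := fun a b =>
    hT.mono 0 a 0 b (Nat.zero_le a) (Nat.zero_le b) hT1
  have e10 : ∀ (h : F) (a : ℕ),
      kummerDivisor K n h + a • E1 + 0 • E2 = kummerDivisor K n h + a • E1 :=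
    fun h a => by rw [zero_smul, add_zero]
  have e01 : ∀ (h : F) (b : ℕ),
      kummerDivisor K n h + 0 • E1 + b • E2 = kummerDivisor K n h + b • E2 :=
    fun h b => by rw [zero_smul, add_zero]
  -- the charts
  set X : Bool → Set (Place K F) := fun b =>
    if b then {w : Place K F | 0 < E1 w} else {w : Place K F | 0 < E2 w} with hXdef
  set C : Bool → Set Fk := fun b => {y | ∃ k, ∃ x ∈ chartT T b k, ιV x = y} with hCdef
  have hpe : ∀ i (x : Vn), extEval ιV (p i) (ιV x) = p i x := fun i x =>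
    extEval_apply hιV (p i) x
  have hqe : ∀ i (x : Vn), extEval ιV (q i) (ιV x) = q i x := fun i x =>
    extEval_apply hιV (q i) x
  have hchartT : ∀ (b : Bool) (k : ℕ), ∃ a' b', chartT T b k = T a' b' := by
    rintro (_ | _) k
    · exact ⟨0, k, rfl⟩
    · exact ⟨k, 0, rfl⟩
  refine torFrob_of_glued τ e hτ₁ hτ₂ hτm₁ hτm₂ red hred.map_one
    (fun a ha b hb' => hred.map_mul a b (hb a ha) (hb b hb')) ?_ θ hθ Θ
    (fun a ha => hτred a (hb a ha)) X ?_ C ?_ ?_
    (fun _ i => extEval ιV (p i)) (fun _ i => extEval ιV (q i)) ?_ ?_ ?_ ?_ ?_ ?_ ?_ ?_ ?_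
  · -- hred_eq_one
    intro a ha ha1
    have h1b : ∀ i, v i (1 : F) ≤ 1 := fun i => le_of_eq (v i).map_one
    have h0 : red (a - 1) = 0 := by
      rw [hred.map_sub a 1 (hb a ha) h1b, ha1, hred.map_one, sub_self]
    exact (hopen (a - 1)).mp ((hred.eq_zero_iff (a - 1)
      (fun i => ((v i).map_sub _ _).trans (max_le (hb a ha i) (h1b i)))).mp h0)
  · -- hX
    rintro (_ | _) w hw
    · exact hτE2 w hw
    · exact hτE1 w hw
  · -- hC1
    intro j
    obtain ⟨a', b', hab⟩ := hchartT j 0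
    exact ⟨0, 1, by rw [hab]; exact hT1' a' b', map_one ιV⟩
  · -- hΘC
    rintro j _ ⟨k, x, hx, rfl⟩
    obtain ⟨a', b', hab⟩ := hchartT j k
    rw [hab] at hx
    obtain ⟨y', hy', hy'Θ, -⟩ := hΘT a' b' x hx
    exact ⟨k, y', by rw [hab]; exact hy', hy'Θ⟩
  · -- hp1
    intro j i
    rw [← map_one ιV, hpe, map_one]
  · -- hq1
    intro j i
    rw [← map_one ιV, hqe, map_one]
  · -- hpmul
    rintro j i _ ⟨k, x, -, rfl⟩ _ ⟨k', y, -, rfl⟩
    rw [← map_mul, hpe, hpe, hpe, map_mul]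
  · -- hqmul
    rintro j i _ ⟨k, x, -, rfl⟩ _ ⟨k', y, -, rfl⟩
    rw [← map_mul, hqe, hqe, hqe, map_mul]
  · -- hratp
    rintro j i _ ⟨k, x, hx, rfl⟩
    obtain ⟨a', b', hab⟩ := hchartT j k
    rw [hab] at hx
    obtain ⟨y', -, hy'Θ, hy'⟩ := hΘT a' b' x hx
    rw [← hy'Θ, hpe, hpe]
    exact (hy' i).1
  · -- hratq
    rintro j i _ ⟨k, x, hx, rfl⟩
    obtain ⟨a', b', hab⟩ := hchartT j k
    rw [hab] at hx
    obtain ⟨y', -, hy'Θ, hy'⟩ := hΘT a' b' x hx
    rw [← hy'Θ, hqe, hqe]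
    exact (hy' i).2
  · -- hsep
    intro j c i
    have hex : ∃ x ∈ chartT T j n₀, ∀ i', p i' x = 1 ∧ q i' x = c i' := by
      rcases j with _ | _
      · exact hT.eval_surj 0 n₀ (by omega) (fun _ => 1) c
      · exact hT.eval_surj n₀ 0 (by omega) (fun _ => 1) c
    obtain ⟨x, hx, hxv⟩ := hex
    refine ⟨ιV x, ⟨n₀, x, hx, rfl⟩, fun i' => ?_, ?_⟩
    · rw [hqe, hpe, (hxv i').1, (hxv i').2, mul_one]
    · rw [hpe, (hxv i).1]
  · -- hglued
    intro j h hh
    obtain ⟨hK, h1, h2⟩ := hh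
    obtain ⟨-, c, -, hred_eq⟩ := hE3 h hK h1 h2
    refine ⟨c, fun y => ?_⟩
    constructor
    · rintro ⟨a, ha, rfl⟩
      have hab := hb a (kLattice_subset_intBall h ha)
      have ha' := mem_kLattice_iff_mem_chartLat.mp ha
      rcases j with _ | _
      · obtain ⟨k₁, hk₁⟩ := helper2423.exists_mem_rr_of_mem_chartLat hn hK E2 hE2
          {w : Place K F | 0 < E2 w} (fun w hw => hw) ha'
        have hmem := hk₁ (max k₁ n₀) (le_max_left _ _)
        rw [← e01] at hmem
        obtain ⟨y, hy, hay⟩ := (hred_eq 0 (max k₁ n₀) (by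
          have := le_max_right k₁ n₀
          omega)).1 a hmem hab
        refine ⟨⟨max k₁ n₀, y, hy.1, hay.symm⟩, fun i => ?_⟩
        rw [hay, hqe, hpe]
        exact hy.2 i
      · obtain ⟨k₁, hk₁⟩ := helper2423.exists_mem_rr_of_mem_chartLat hn hK E1 hE1
          {w : Place K F | 0 < E1 w} (fun w hw => hw) ha'
        have hmem := hk₁ (max k₁ n₀) (le_max_left _ _)
        rw [← e10] at hmem
        obtain ⟨y, hy, hay⟩ := (hred_eq (max k₁ n₀) 0 (by
          have := le_max_right k₁ n₀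
          omega)).1 a hmem hab
        refine ⟨⟨max k₁ n₀, y, hy.1, hay.symm⟩, fun i => ?_⟩
        rw [hay, hqe, hpe]
        exact hy.2 i
    · rintro ⟨⟨k, x, hx, rfl⟩, hglue⟩
      have hglue' : ∀ i, q i x = c i * p i x := fun i => by
        have := hglue i
        rwa [hqe, hpe] at this
      rcases j with _ | _
      · have hx' : x ∈ helper603.glued p q c (T 0 (max k n₀)) :=
          ⟨hT.mono 0 0 k (max k n₀) le_rfl (le_max_left _ _) hx, hglue'⟩
        obtain ⟨a, ha, hab, har⟩ := (hred_eq 0 (max k n₀) (by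
          have := le_max_right k n₀
          omega)).2 x hx'
        rw [e01] at ha
        have haV := (hball a).mp hab
        exact ⟨a, mem_kLattice_iff_mem_chartLat.mpr
          (helper2423.mem_chartLat_of_mem_rr hK E2 _
            (fun w hw => le_antisymm (not_lt.mp hw) (hE2 w)) _ ha haV.1 haV.2), har⟩
      · have hx' : x ∈ helper603.glued p q c (T (max k n₀) 0) :=
          ⟨hT.mono k (max k n₀) 0 0 (le_max_left _ _) le_rfl hx, hglue'⟩
        obtain ⟨a, ha, hab, har⟩ := (hred_eq (max k n₀) 0 (by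
          have := le_max_right k n₀
          omega)).2 x hx'
        rw [e10] at ha
        have haV := (hball a).mp hab
        exact ⟨a, mem_kLattice_iff_mem_chartLat.mpr
          (helper2423.mem_chartLat_of_mem_rr hK E1 _
            (fun w hw => le_antisymm (not_lt.mp hw) (hE1 w)) _ ha haV.1 haV.2), har⟩
  · -- hKC
    intro u hu hseeds
    obtain ⟨hK, h1, h2⟩ := hu
    obtain ⟨hcart, c, -, hred_eq⟩ := hE3 u hK h1 h2
    obtain ⟨a, ha, ha1, ha2⟩ := hseeds true
    exact kc_of_nodal hdeg v vL harch hn hm V₁ V₂ hball hopen E1 E2 hE1 hE2 hdisj hred hVG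
      ιV hιV T p q e' s t n₀ hT hT1 hK h1 h2 hcart c hred_eq
      ⟨a, mem_kLattice_iff_mem_chartLat.mp ha, ha1, ha2⟩

end Nodal

end Fermat.Agent.S35.helper3729
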