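/-
S35 Spec, geometry end (captain helper2039): the ONE package Prop of the shared geometry module
for BOTH S34 (TORFIX) and S35 (TORFROB), and the proof that it closes the last leaf
`helper2039.Stmt_TorFrobAux` of the S35 Spec.

* `NodalFrobPkg N q W A n` : the geometric package at the level `N`, for an automorphism `W` of
  `ℚ̄(X₀(N))`, a valuation subring `A` of `ℚ̄` and a modulus `n`.  It is the text of
  `Fermat.Agent.S34.helper2423.Stmt_NodalAt` (chart divisors `E1`, `E2`; a reduction datum for
  the two Gauss valuations; the nodal Riemann–Roch package `(Vn, ιV, T, p, q)` of the special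
  fibre; for every `n`-Kummer `h ≡ 1` the reduced twisted lattices are the glued spaces) with
  three more conjuncts inside the same existential package:
  (F1) `E1`, `E2` are stable under `arithmeticGalois g` for every `g ∈ Gal(ℚ̄/ℚ)`;
  (F2) `θ c = c ^ (q ^ 2)` on the residue field and a map `Θ` of the reduction carrier with
       `red ((σ σ) • a) = Θ (red a)` on the common unit ball, for every Frobenius lift `σ` at `A`;
  (F3) `Θ` preserves the spaces `T a b` and the nodes are `θ`-rational (`hΘT` of
       `helper3729.torFrob_of_nodal`).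
* `Stmt_NodalFrobAt q M h' A n` : the package at the literal level `q * M`,
  `W := helper1219.atkinLehnerBar q M h'` (the shape of every landed (E1) file).
* `torFrob_of_pkg` : the element form of (TORFROB) from the package (any level, any `W` commuting
  with the Galois action).
* `Stmt_NodalFrobGeom` : the package at all auxiliary levels, places and moduli `lam ^ k`: THE
  geometric leaf of S35 (and of S34).
* `stmt_TorFrobAux_of_nodalFrobAt` : `Stmt_NodalFrobGeom → helper2039.Stmt_TorFrobAux`.
-/
import Fermat.Agent.S34.helper2423_TorFixInst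
import Fermat.Agent.S35.helper1687_CommonRepSpec
import Fermat.Agent.S35.helper3729_TorFrobNodal
import Fermat.Agent.S35.helper3729_FrobGauss
import Fermat.Agent.S35.helper1073_AtkinLehnerBridge

set_option autoImplicit false

namespace Fermat.Agent.S35.helper2039

open AlgebraicCurve ModularCurve
open Fermat.Agent.S29.helper8217
open Fermat.Agent.S34.helper584
open Fermat.Agent.S34.helper2423

local notation "Qb" => AlgebraicClosure ℚ
local notation "GQ" => (AlgebraicClosure ℚ ≃ₐ[ℚ] AlgebraicClosure ℚ)

noncomputable section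

/-- **The package of the shared geometry module** at the level `N`, for an automorphism `W` of
the function field, a valuation subring `A` of `ℚ̄`, the residue characteristic `q` and the
modulus `n`: `Fermat.Agent.S34.helper2423.Stmt_NodalAt` plus the Frobenius data (F1)–(F3). -/
def NodalFrobPkg (N q : ℕ) [NeZero N]
    (W : modularFunctionFieldBar N ≃ₐ[Qb] modularFunctionFieldBar N)
    (A : ValuationSubring Qb) (n : ℕ) : Prop :=
  ∃ (E1 E2 : Divisor Qb (modularFunctionFieldBar N)),
    (∀ w : Place Qb (modularFunctionFieldBar N), 0 ≤ E1 w) ∧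
    (∀ w : Place Qb (modularFunctionFieldBar N), 0 ≤ E2 w) ∧
    (∀ w : Place Qb (modularFunctionFieldBar N), E1 w = 0 ∨ E2 w = 0) ∧
    -- (F1)
    (∀ (g : GQ) (w : Place Qb (modularFunctionFieldBar N)),
      0 < E1 w → 0 < E1 (arithmeticGalois (modularFunctionFieldFull N) g • w)) ∧
    (∀ (g : GQ) (w : Place Qb (modularFunctionFieldBar N)),
      0 < E2 w → 0 < E2 (arithmeticGalois (modularFunctionFieldFull N) g • w)) ∧
    ∃ (kk : Type) (_ : Field kk) (Fk : Type) (_ : CommRing Fk) (_ : Algebra kk Fk)
      (red : modularFunctionFieldBar N → Fk),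
      Fermat.Agent.S35.helper2459.RedDataW (gaussVals A N W)
        (fun _ => (1 : (gaussV A N).ValueGroup)) (gaussValL A N) kk red red ∧
      -- (F2)
      ∃ (θ : kk →+* kk) (Θ : Fk → Fk),
        (∀ c : kk, θ c = c ^ (q ^ 2)) ∧
        (∀ σ : GQ, A.IsFrobeniusAt σ q → ∀ a : modularFunctionFieldBar N,
          (∀ i, gaussVals A N W i a ≤ 1) →
          red ((arithmeticGalois (modularFunctionFieldFull N) σ *
            arithmeticGalois (modularFunctionFieldFull N) σ) • a) = Θ (red a)) ∧
      ∃ (Vn : Type) (_ : CommRing Vn) (_ : Algebra kk Vn) (I : Type) (_ : Fintype I)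
        (ιV : Vn →ₐ[kk] Fk) (T : ℕ → ℕ → Submodule kk Vn) (p' q' : I → Vn →ₐ[kk] kk)
        (e s t n₀ : ℕ),
        Function.Injective ιV ∧ Fermat.Agent.S35.helper603.IsNodalRR T p' q' e s t n₀ ∧
        (1 : Vn) ∈ T 0 0 ∧
        (∀ a b a' b', ∀ x ∈ T a b, ∀ y ∈ T a' b', x * y ∈ T (a + a') (b + b')) ∧
        -- (F3)
        (∀ a b, ∀ y ∈ T a b, ∃ y' ∈ T a b, ιV y' = Θ (ιV y) ∧
          ∀ i, p' i y' = θ (p' i y) ∧ q' i y' = θ (q' i y)) ∧
        ∀ h : modularFunctionFieldBar N, IsKummer Qb n h →
          (gaussV A N).valuation (h - 1) < 1 →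
          (gaussV A N).valuation (W h - 1) < 1 →
          (∀ k, n₀ ≤ k → Fermat.Agent.S35.helper2459.CartesianW
            (gaussVals A N W)
            (fun _ => (1 : (gaussV A N).ValueGroup)) (gaussValL A N)
            (riemannRochSpace (kummerDivisor Qb n h + k • E1 + k • E2))) ∧
          ∃ c : I → kk, (∀ i, c i ^ n = 1) ∧ ∀ a b, n₀ ≤ a + b →
            (∀ x ∈ riemannRochSpace (kummerDivisor Qb n h + a • E1 + b • E2),
              (∀ i, gaussVals A N W i x ≤ 1) →
              ∃ y ∈ Fermat.Agent.S35.helper603.glued p' q' c (T a b), red x = ιV y) ∧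
            (∀ y ∈ Fermat.Agent.S35.helper603.glued p' q' c (T a b),
              ∃ x ∈ riemannRochSpace (kummerDivisor Qb n h + a • E1 + b • E2),
                (∀ i, gaussVals A N W i x ≤ 1) ∧ red x = ιV y)

/-- **The geometric leaf of S35 (and of S34) at ONE level `q * M`, ONE place `A` over `q` and ONE
modulus `n`**: the package `NodalFrobPkg` at the literal level `q * M` for
`W := helper1219.atkinLehnerBar q M h'`. -/
def Stmt_NodalFrobAt (q M : ℕ) [NeZero q] [NeZero M] (h' : Nat.Coprime q M)
    (A : ValuationSubring Qb) (n : ℕ) : Prop :=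
  haveI : NeZero (q * M) := ⟨mul_ne_zero (NeZero.ne q) (NeZero.ne M)⟩
  NodalFrobPkg (q * M) q (Fermat.Agent.S35.helper1219.atkinLehnerBar q M h') A n

/-- **(TORFROB), element form, from the package**: any level `N`, any automorphism `W` commuting
with the Galois action. -/
theorem torFrob_of_pkg {N : ℕ} [NeZero N] {q : ℕ} (hq : q.Prime)
    (A : ValuationSubring Qb) (hA : A.LiesOverPrime q) {n : ℕ} (hn : 0 < n)
    (hnq : Nat.Coprime n q)
    (W : modularFunctionFieldBar N ≃ₐ[Qb] modularFunctionFieldBar N)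
    (hWg : ∀ (g : GQ) (x : modularFunctionFieldBar N),
      W (arithmeticGalois (modularFunctionFieldFull N) g • x) =
        arithmeticGalois (modularFunctionFieldFull N) g • W x)
    (hP : NodalFrobPkg N q W A n) (σ : GQ) (hσ : A.IsFrobeniusAt σ q)
    (h : modularFunctionFieldBar N) (hK : IsKummer Qb n h)
    (h1 : (gaussV A N).valuation (h - 1) < 1)
    (h2 : ((gaussV A N).comap (wHom W)).valuation (h - 1) < 1) :
    ∃ w c : modularFunctionFieldBar N, w ≠ 0 ∧ c ≠ 0 ∧
      (∀ v : Place Qb (modularFunctionFieldBar N), v.ord c = 0) ∧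
      (arithmeticGalois (modularFunctionFieldFull N) σ *
        arithmeticGalois (modularFunctionFieldFull N) σ) • h = h ^ (q ^ 2) * (c * w ^ n) := by
  obtain ⟨E1, E2, hE1, hE2, hdisj, hgE1, hgE2, kk, _, Fk, _, _, red, hred, θ, Θ, hθ, hτred,
    Vn, _, _, I, _, ιV, T, p', q', e, s, t, n₀, hιV, hT, hT1, -, hΘT, hE3⟩ := hP
  have hW1 : ∀ x : modularFunctionFieldBar N,
      ((gaussV A N).comap (wHom W)).valuation (x - 1) < 1 ↔
        (gaussV A N).valuation (W x - 1) < 1 := fun x => by
    rw [valuation_comap_lt_one_iff, map_sub, map_one]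
    rfl
  haveI := charP_residueField hq A hA
  haveI : ExpChar (IsLocalRing.ResidueField A) q := ExpChar.prime hq
  have hWσ : ∀ z : modularFunctionFieldBar N,
      (wHom W) (arithmeticGalois (modularFunctionFieldFull N) σ • z) =
        arithmeticGalois (modularFunctionFieldFull N) σ • (wHom W) z := fun z => hWg σ z
  exact Fermat.Agent.S35.helper3729.torFrob_of_nodal
    (fun v => by rw [Fermat.Agent.S37.helper5162.place_deg_eq_one N v]; exact Nat.one_pos)
    (gaussVals A N W) (gaussValL A N) (gaussVals_arch A N hq hA) hn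
    (gaussVals_natCast A N W hq hA hnq)
    (Fermat.Agent.S35.helper3729.frobTau N σ) (q ^ 2)
    (gaussV A N) ((gaussV A N).comap (wHom W))
    (Fermat.Agent.S35.helper3729.frobTau_valuation_le N hσ)
    (Fermat.Agent.S35.helper3729.frobTau_comap_valuation_le N (wHom W) hσ hWσ)
    (Fermat.Agent.S35.helper3729.frobTau_valuation_lt N hσ)
    (Fermat.Agent.S35.helper3729.frobTau_comap_valuation_lt N (wHom W) hσ hWσ)
    (gaussVals_ball A N W) (gaussVals_open A N W) E1 E2 hE1 hE2 hdisj
    (fun w hw => by
      show 0 < E1 ((arithmeticGalois (modularFunctionFieldFull N) σ *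
        arithmeticGalois (modularFunctionFieldFull N) σ) • w)
      rw [mul_smul]
      exact hgE1 σ _ (hgE1 σ w hw))
    (fun w hw => by
      show 0 < E2 ((arithmeticGalois (modularFunctionFieldFull N) σ *
        arithmeticGalois (modularFunctionFieldFull N) σ) • w)
      rw [mul_smul]
      exact hgE2 σ _ (hgE2 σ w hw))
    hred (gaussVals_VG A N W) θ hθ Θ (fun a ha => hτred σ hσ a ha)
    ιV hιV T p' q' e s t n₀ hT hT1 hΘT
    (fun h hK h1 h2 => hE3 h hK h1 ((hW1 h).mp h2))
    h hK h1 h2

/-- **THE geometric leaf of S35 and S34**: the package `Stmt_NodalFrobAt` at every auxiliary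
level `q * M` (`q` prime, `q ∤ M`, `r ∣ M` for an auxiliary prime `r ∈ {2, 3}`, `r ≠ q`), every
place `A` over `q` and every modulus `lam ^ k`, `lam ≠ q` prime. -/
def Stmt_NodalFrobGeom : Prop :=
  ∀ (q M r : ℕ) [NeZero q] [NeZero M] (h' : Nat.Coprime q M), q.Prime →
    (r = 2 ∨ r = 3) → r ≠ q → r ∣ M → ∀ lam : ℕ, lam.Prime → lam ≠ q → ∀ (k : ℕ)
    (A : ValuationSubring Qb), A.LiesOverPrime q → Stmt_NodalFrobAt q M h' A (lam ^ k)

/-- **The last leaf `Stmt_TorFrobAux` of the S35 Spec from the package at the auxiliary levels.**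
-/
theorem stmt_TorFrobAux_of_nodalFrobAt (hGeo : Stmt_NodalFrobGeom) :
    Stmt_TorFrobAux := by
  refine Fermat.Agent.S35.helper1687.stmt_TorFrobAux_of_comap ?_
  intro M _ q hq hqM hq2 r hr hrq hrM lam hlam hlamq k A hA σ hσ h hK h1 h2
  obtain ⟨M', rfl⟩ := hqM
  have hM'0 : M' ≠ 0 := by
    rintro rfl
    exact NeZero.ne (q * 0) (mul_zero q)
  haveI : NeZero M' := ⟨hM'0⟩
  haveI : NeZero q := ⟨hq.ne_zero⟩
  have hqM' : ¬ q ∣ M' := fun hd => hq2 (by rw [sq]; exact Nat.mul_dvd_mul_left q hd)
  have h' : Nat.Coprime q M' := (Nat.Prime.coprime_iff_not_dvd hq).mpr hqM'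
  have hr' : r.Prime := by
    rcases hr with rfl | rfl
    · exact Nat.prime_two
    · exact Nat.prime_three
  have hrM' : r ∣ M' := by
    rcases (Nat.Prime.dvd_mul hr').mp hrM with hd | hd
    · exact absurd ((Nat.prime_dvd_prime_iff_eq hr' hq).mp hd) hrq
    · exact hd
  have hpkg := hGeo q M' r h' hq hr hrq hrM' lam hlam hlamq k A hA
  have hW : Fermat.Agent.S35.helper1219.atkinLehnerBar q M' h' =
      Fermat.Agent.S35.helper1073.atkinLehnerBar (q * M') q hq (dvd_mul_right q M') hq2 :=
    AlgEquiv.ext fun z => Fermat.Agent.S35.helper1073.atkinLehnerBar_eq_helper1219 q M' hq h' z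
  rw [Stmt_NodalFrobAt, hW] at hpkg
  have hnq : Nat.Coprime (lam ^ k) q :=
    Nat.Coprime.pow_left k ((Nat.coprime_primes hlam hq).mpr hlamq)
  exact torFrob_of_pkg hq A hA (pow_pos hlam.pos k) hnq
    (Fermat.Agent.S35.helper1073.atkinLehnerBar (q * M') q hq (dvd_mul_right q M') hq2)
    (fun g x => Fermat.Agent.S35.helper1073.atkinLehnerBar_arithmeticGalois_smul (q * M') q hq
      (dvd_mul_right q M') hq2 g x)
    hpkg σ hσ h hK h1 h2

end

end Fermat.Agent.S35.helper2039
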