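/-
S35-TORFROB-LEVEL (helper1270): level descent of Kummer-class statements.

The special-fibre inputs of the chain E1-E5 exist only at levels divisible by an auxiliary prime
`r ∈ {2, 3}` (`r ≠ q`), while the frozen statement S35 speaks about every level `N = q * M₁` with
`q ∤ M₁`.  This file transports the statement (K8)/TORFROB ("`σ²` acts as `q²` on the toric part
of the `n`-torsion") from the auxiliary level `N' = q * lcm(M₁, r)` down to the level `N`.

* abstract part (`F ⊆ F'` function fields over `K`, `[F' : F]` prime to `n`, divisor-free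
  elements of `F'` are constants):
  `isKummerTrivial_descent`, `kummerRel_descent`, `torFrobElt_descent`, `torFrobClass_descent`;
* modular part: the inclusion `FN N → FN N'` (`N ∣ N'`) is compatible with the Gauss valuation
  rings, with the coefficientwise Galois action and with the Atkin-Lehner involution `W_q`;
  the auxiliary prime `auxPrime`; the descents at `N = q * M₁`, `N' = q * lcm(M₁, r)`.
-/
import Fermat.Agent.S18.helper2557_LevelDegree
import Fermat.Agent.S29.helper36_FunctionFieldL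
import Fermat.Agent.S34.helper584_UniInst
import Fermat.Agent.S35.helper1219_AtkinLehnerFF

set_option autoImplicit false
set_option linter.style.haveILetI false

noncomputable section

namespace Fermat.Agent.S35.helper1270

open AlgebraicCurve
open Fermat.Agent.S29.helper8217
open Fermat.Agent.S34.helper584

/-! ### Valuation subrings and `comap` -/

section Valuation

variable {F F' : Type*} [Field F] [Field F']

/-- `|x| < 1` for a valuation subring means: `x = 0` or `x⁻¹` is not integral. -/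
theorem valuation_lt_one_iff_inv_not_mem (V : ValuationSubring F) (x : F) :
    V.valuation x < 1 ↔ x = 0 ∨ x⁻¹ ∉ V := by
  rcases eq_or_ne x 0 with rfl | hx
  · simp
  · rw [← ValuationSubring.valuation_le_one_iff, map_inv₀, not_le]
    constructor
    · intro h
      exact Or.inr (one_lt_inv_iff₀.mpr ⟨(V.valuation.pos_iff).mpr hx, h⟩)
    · rintro (h | h)
      · exact absurd h hx
      · exact (one_lt_inv_iff₀.mp h).2

/-- The valuation of the restriction of a valuation subring along a field homomorphism. -/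
theorem valuation_comap_lt_one_iff (V' : ValuationSubring F') (ι : F →+* F') (x : F) :
    (V'.comap ι).valuation x < 1 ↔ V'.valuation (ι x) < 1 := by
  rw [valuation_lt_one_iff_inv_not_mem, valuation_lt_one_iff_inv_not_mem, ValuationSubring.mem_comap,
    map_inv₀, map_eq_zero]

theorem valuation_comap_le_one_iff (V' : ValuationSubring F') (ι : F →+* F') (x : F) :
    (V'.comap ι).valuation x ≤ 1 ↔ V'.valuation (ι x) ≤ 1 := by
  rw [ValuationSubring.valuation_le_one_iff, ValuationSubring.valuation_le_one_iff,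
    ValuationSubring.mem_comap]

theorem valuation_comap_eq_one_iff (V' : ValuationSubring F') (ι : F →+* F') (x : F) :
    (V'.comap ι).valuation x = 1 ↔ V'.valuation (ι x) = 1 := by
  constructor
  · intro h
    refine le_antisymm ((valuation_comap_le_one_iff V' ι x).mp h.le) (not_lt.mp fun h' => ?_)
    exact absurd ((valuation_comap_lt_one_iff V' ι x).mpr h') (by rw [h]; exact lt_irrefl 1)
  · intro h
    refine le_antisymm ((valuation_comap_le_one_iff V' ι x).mpr h.le) (not_lt.mp fun h' => ?_)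
    exact absurd ((valuation_comap_lt_one_iff V' ι x).mp h') (by rw [h]; exact lt_irrefl 1)

end Valuation

/-! ### Descent of Kummer triviality along a finite extension of degree prime to `n` -/

section Descent

variable {K F F' : Type*} [Field K] [Field F] [Field F'] [Algebra K F] [Algebra K F']
  [Algebra F F'] [IsScalarTower K F F']

/-- Divisor-free elements stay divisor-free in an algebraic extension. -/
theorem ord_algebraMap_eq_zero_of_forall [Algebra.IsIntegral F F'] {c : F}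
    (hc : ∀ v : Place K F, v.ord c = 0) (v' : Place K F') : v'.ord (algebraMap F F' c) = 0 := by
  rw [v'.ord_restrict c, hc, mul_zero]

/-- `x ~ y`: the quotient is a divisor-free element times an `n`-th power
(`helper8217.kummerClass_eq_iff`). -/
def KummerRel (K : Type*) {F : Type*} [Field K] [Field F] [Algebra K F] (n : ℕ) (x y : F) : Prop :=
  ∃ w c : F, w ≠ 0 ∧ c ≠ 0 ∧ (∀ v : Place K F, v.ord c = 0) ∧ x = y * (c * w ^ n)

theorem kummerRel_iff {n : ℕ} {x y : F} :
    KummerRel K n x y ↔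
      ∃ w c : F, w ≠ 0 ∧ c ≠ 0 ∧ (∀ v : Place K F, v.ord c = 0) ∧ x = y * (c * w ^ n) := Iff.rfl

theorem kummerRel_one_iff {n : ℕ} {x : F} : KummerRel K n x 1 ↔ IsKummerTrivial K n x := by
  unfold KummerRel IsKummerTrivial
  simp only [one_mul]

/-- Ascent of Kummer triviality. -/
theorem isKummerTrivial_algebraMap [Algebra.IsIntegral F F'] {n : ℕ} {x : F}
    (h : IsKummerTrivial K n x) : IsKummerTrivial K n (algebraMap F F' x) := by
  obtain ⟨w, c, hw, hc, hcv, rfl⟩ := h
  exact ⟨algebraMap F F' w, algebraMap F F' c, (map_ne_zero _).mpr hw, (map_ne_zero _).mpr hc,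
    ord_algebraMap_eq_zero_of_forall hcv, by rw [map_mul, map_pow]⟩

/-- Ascent of the relation `~`. -/
theorem kummerRel_algebraMap [Algebra.IsIntegral F F'] {n : ℕ} {x y : F}
    (h : KummerRel K n x y) : KummerRel K n (algebraMap F F' x) (algebraMap F F' y) := by
  obtain ⟨w, c, hw, hc, hcv, rfl⟩ := h
  exact ⟨algebraMap F F' w, algebraMap F F' c, (map_ne_zero _).mpr hw, (map_ne_zero _).mpr hc,
    ord_algebraMap_eq_zero_of_forall hcv, by rw [map_mul, map_mul, map_pow]⟩

variable [FiniteDimensional F F']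

/-- **Descent of Kummer triviality.**  `F'/F` finite of degree prime to `n`, divisor-free
elements of `F'` are constants.  An element of `F` which is a divisor-free element times an
`n`-th power in `F'` already is one in `F`. -/
theorem isKummerTrivial_descent {n : ℕ} (hn : n ≠ 0)
    (hcop : Nat.Coprime (Module.finrank F F') n)
    (hconst : ∀ f : F', f ≠ 0 → (∀ v : Place K F', v.ord f = 0) → ∃ a : K, f = algebraMap K F' a)
    {x : F} (h : IsKummerTrivial K n (algebraMap F F' x)) : IsKummerTrivial K n x := by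
  obtain ⟨w', c', hw', hc', hcv', hx⟩ := h
  obtain ⟨a, rfl⟩ := hconst c' hc' hcv'
  obtain ⟨a', W, hW⟩ := Fermat.Agent.S18.helper2557.norm_descent (K := K) hcop hx
  have hx0 : x ≠ 0 := by
    rintro rfl
    rw [map_zero] at hx
    exact mul_ne_zero hc' (pow_ne_zero n hw') hx.symm
  have ha' : a' ≠ 0 := by
    rintro rfl
    rw [map_zero, zero_mul] at hW
    exact hx0 hW
  have hW0 : W ≠ 0 := by
    rintro rfl
    rw [zero_pow hn, mul_zero] at hW
    exact hx0 hW
  exact ⟨W, algebraMap K F a', hW0, (map_ne_zero _).mpr ha', fun v => ord_algebraMap v a', hW⟩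

/-- **Descent of the relation `~`.** -/
theorem kummerRel_descent {n : ℕ} (hn : n ≠ 0)
    (hcop : Nat.Coprime (Module.finrank F F') n)
    (hconst : ∀ f : F', f ≠ 0 → (∀ v : Place K F', v.ord f = 0) → ∃ a : K, f = algebraMap K F' a)
    {x y : F} (h : KummerRel K n (algebraMap F F' x) (algebraMap F F' y)) : KummerRel K n x y := by
  rcases eq_or_ne y 0 with rfl | hy
  · obtain ⟨w', c', -, -, -, hx⟩ := h
    rw [map_zero, zero_mul] at hx
    have hx0 : x = 0 := (map_eq_zero _).mp hx
    exact ⟨1, 1, one_ne_zero, one_ne_zero, fun v => v.ord_one, by rw [hx0, zero_mul]⟩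
  · have hy' : algebraMap F F' y ≠ 0 := (map_ne_zero _).mpr hy
    have h1 : IsKummerTrivial K n (algebraMap F F' (x / y)) := by
      obtain ⟨w', c', hw', hc', hcv', hx⟩ := h
      refine ⟨w', c', hw', hc', hcv', ?_⟩
      rw [map_div₀, hx, mul_div_assoc, mul_comm, div_mul_cancel₀ _ hy']
    obtain ⟨w, c, hw, hc, hcv, hxy⟩ := isKummerTrivial_descent hn hcop hconst h1
    exact ⟨w, c, hw, hc, hcv, by rw [← hxy, mul_div_cancel₀ _ hy]⟩

/-- **Descent of an element-form statement**, predicate form.  `P₁`, `P₂` are arbitrary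
conditions on the representative (e.g. `h ≡ 1` for two valuations) which pass from `F` to `F'`;
`T`, `T'` are arbitrary maps compatible with the inclusion (e.g. `h ↦ σ • σ • h`). -/
theorem kummerElt_descent {n : ℕ} (hn : n ≠ 0)
    (hcop : Nat.Coprime (Module.finrank F F') n)
    (hconst : ∀ f : F', f ≠ 0 → (∀ v : Place K F', v.ord f = 0) → ∃ a : K, f = algebraMap K F' a)
    (P₁ P₂ : F → Prop) (P₁' P₂' : F' → Prop)
    (hP₁ : ∀ h : F, P₁ h → P₁' (algebraMap F F' h))
    (hP₂ : ∀ h : F, P₂ h → P₂' (algebraMap F F' h))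
    (T : F → F) (T' : F' → F') (hT : ∀ x : F, T' (algebraMap F F' x) = algebraMap F F' (T x))
    (e : ℕ)
    (H : ∀ h : F', IsKummer K n h → P₁' h → P₂' h →
      ∃ w c : F', w ≠ 0 ∧ c ≠ 0 ∧ (∀ v : Place K F', v.ord c = 0) ∧ T' h = h ^ e * (c * w ^ n)) :
    ∀ h : F, IsKummer K n h → P₁ h → P₂ h →
      ∃ w c : F, w ≠ 0 ∧ c ≠ 0 ∧ (∀ v : Place K F, v.ord c = 0) ∧ T h = h ^ e * (c * w ^ n) := by
  intro h hK h1 h2
  have key := H (algebraMap F F' h) hK.algebraMap (hP₁ h h1) (hP₂ h h2)
  rw [hT, ← map_pow] at key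
  exact kummerRel_descent hn hcop hconst key

/-- **Descent of a class-form statement**, predicate form: one representative for each
condition (`P₁ h₁`, `P₂ h₂`, `h₁ ~ h₂`). -/
theorem kummerClass_descent {n : ℕ} (hn : n ≠ 0)
    (hcop : Nat.Coprime (Module.finrank F F') n)
    (hconst : ∀ f : F', f ≠ 0 → (∀ v : Place K F', v.ord f = 0) → ∃ a : K, f = algebraMap K F' a)
    (P₁ P₂ : F → Prop) (P₁' P₂' : F' → Prop)
    (hP₁ : ∀ h : F, P₁ h → P₁' (algebraMap F F' h))
    (hP₂ : ∀ h : F, P₂ h → P₂' (algebraMap F F' h))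
    (T : F → F) (T' : F' → F') (hT : ∀ x : F, T' (algebraMap F F' x) = algebraMap F F' (T x))
    (e : ℕ)
    (H : ∀ h₁ h₂ : F', IsKummer K n h₁ → IsKummer K n h₂ → P₁' h₁ → P₂' h₂ →
      (∃ w c : F', w ≠ 0 ∧ c ≠ 0 ∧ (∀ v : Place K F', v.ord c = 0) ∧ h₁ = h₂ * (c * w ^ n)) →
      ∃ w c : F', w ≠ 0 ∧ c ≠ 0 ∧ (∀ v : Place K F', v.ord c = 0) ∧ T' h₁ = h₁ ^ e * (c * w ^ n)) :
    ∀ h₁ h₂ : F, IsKummer K n h₁ → IsKummer K n h₂ → P₁ h₁ → P₂ h₂ →
      (∃ w c : F, w ≠ 0 ∧ c ≠ 0 ∧ (∀ v : Place K F, v.ord c = 0) ∧ h₁ = h₂ * (c * w ^ n)) →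
      ∃ w c : F, w ≠ 0 ∧ c ≠ 0 ∧ (∀ v : Place K F, v.ord c = 0) ∧ T h₁ = h₁ ^ e * (c * w ^ n) := by
  intro h₁ h₂ hK₁ hK₂ hv₁ hv₂ hrel
  have key := H (algebraMap F F' h₁) (algebraMap F F' h₂) hK₁.algebraMap hK₂.algebraMap
    (hP₁ h₁ hv₁) (hP₂ h₂ hv₂) (kummerRel_algebraMap (K := K) (F' := F') hrel)
  rw [hT, ← map_pow] at key
  exact kummerRel_descent hn hcop hconst key

/-- **Descent of an element-form statement** (TORFIX / TORFROB, one representative `h ≡ 1` for
both valuations), valuation form: `V₁ V₂` are valuation subrings of `F` whose open unit balls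
map into those of `V₁' V₂'`. -/
theorem torFrobElt_descent {n : ℕ} (hn : n ≠ 0)
    (hcop : Nat.Coprime (Module.finrank F F') n)
    (hconst : ∀ f : F', f ≠ 0 → (∀ v : Place K F', v.ord f = 0) → ∃ a : K, f = algebraMap K F' a)
    (V₁ V₂ : ValuationSubring F) (V₁' V₂' : ValuationSubring F')
    (hV₁ : ∀ x : F, V₁.valuation x < 1 → V₁'.valuation (algebraMap F F' x) < 1)
    (hV₂ : ∀ x : F, V₂.valuation x < 1 → V₂'.valuation (algebraMap F F' x) < 1)
    (T : F → F) (T' : F' → F') (hT : ∀ x : F, T' (algebraMap F F' x) = algebraMap F F' (T x))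
    (e : ℕ)
    (H : ∀ h : F', IsKummer K n h → V₁'.valuation (h - 1) < 1 → V₂'.valuation (h - 1) < 1 →
      ∃ w c : F', w ≠ 0 ∧ c ≠ 0 ∧ (∀ v : Place K F', v.ord c = 0) ∧ T' h = h ^ e * (c * w ^ n)) :
    ∀ h : F, IsKummer K n h → V₁.valuation (h - 1) < 1 → V₂.valuation (h - 1) < 1 →
      ∃ w c : F, w ≠ 0 ∧ c ≠ 0 ∧ (∀ v : Place K F, v.ord c = 0) ∧ T h = h ^ e * (c * w ^ n) :=
  kummerElt_descent hn hcop hconst (fun h => V₁.valuation (h - 1) < 1)
    (fun h => V₂.valuation (h - 1) < 1) (fun h => V₁'.valuation (h - 1) < 1)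
    (fun h => V₂'.valuation (h - 1) < 1)
    (fun h h1 => by
      have e1 : algebraMap F F' h - 1 = algebraMap F F' (h - 1) := by rw [map_sub, map_one]
      rw [e1]; exact hV₁ _ h1)
    (fun h h2 => by
      have e1 : algebraMap F F' h - 1 = algebraMap F F' (h - 1) := by rw [map_sub, map_one]
      rw [e1]; exact hV₂ _ h2)
    T T' hT e H

/-- **Descent of a class-form statement** (TORFROB with one representative for each valuation:
`h₁ ≡ 1` at `V₁`, `h₂ ≡ 1` at `V₂`, `h₁ ~ h₂`), valuation form. -/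
theorem torFrobClass_descent {n : ℕ} (hn : n ≠ 0)
    (hcop : Nat.Coprime (Module.finrank F F') n)
    (hconst : ∀ f : F', f ≠ 0 → (∀ v : Place K F', v.ord f = 0) → ∃ a : K, f = algebraMap K F' a)
    (V₁ V₂ : ValuationSubring F) (V₁' V₂' : ValuationSubring F')
    (hV₁ : ∀ x : F, V₁.valuation x < 1 → V₁'.valuation (algebraMap F F' x) < 1)
    (hV₂ : ∀ x : F, V₂.valuation x < 1 → V₂'.valuation (algebraMap F F' x) < 1)
    (T : F → F) (T' : F' → F') (hT : ∀ x : F, T' (algebraMap F F' x) = algebraMap F F' (T x))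
    (e : ℕ)
    (H : ∀ h₁ h₂ : F', IsKummer K n h₁ → IsKummer K n h₂ → V₁'.valuation (h₁ - 1) < 1 →
      V₂'.valuation (h₂ - 1) < 1 →
      (∃ w c : F', w ≠ 0 ∧ c ≠ 0 ∧ (∀ v : Place K F', v.ord c = 0) ∧ h₁ = h₂ * (c * w ^ n)) →
      ∃ w c : F', w ≠ 0 ∧ c ≠ 0 ∧ (∀ v : Place K F', v.ord c = 0) ∧ T' h₁ = h₁ ^ e * (c * w ^ n)) :
    ∀ h₁ h₂ : F, IsKummer K n h₁ → IsKummer K n h₂ → V₁.valuation (h₁ - 1) < 1 →
      V₂.valuation (h₂ - 1) < 1 →
      (∃ w c : F, w ≠ 0 ∧ c ≠ 0 ∧ (∀ v : Place K F, v.ord c = 0) ∧ h₁ = h₂ * (c * w ^ n)) →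
      ∃ w c : F, w ≠ 0 ∧ c ≠ 0 ∧ (∀ v : Place K F, v.ord c = 0) ∧ T h₁ = h₁ ^ e * (c * w ^ n) :=
  kummerClass_descent hn hcop hconst (fun h => V₁.valuation (h - 1) < 1)
    (fun h => V₂.valuation (h - 1) < 1) (fun h => V₁'.valuation (h - 1) < 1)
    (fun h => V₂'.valuation (h - 1) < 1)
    (fun h h1 => by
      have e1 : algebraMap F F' h - 1 = algebraMap F F' (h - 1) := by rw [map_sub, map_one]
      rw [e1]; exact hV₁ _ h1)
    (fun h h2 => by
      have e1 : algebraMap F F' h - 1 = algebraMap F F' (h - 1) := by rw [map_sub, map_one]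
      rw [e1]; exact hV₂ _ h2)
    T T' hT e H

end Descent

/-! ### The same descents along a `K`-algebra homomorphism -/

section Along

variable {K F F' : Type*} [Field K] [Field F] [Field F'] [Algebra K F] [Algebra K F']

/-- `kummerElt_descent` along a `K`-algebra homomorphism `ι : F → F'`. -/
theorem kummerElt_descentAlong (ι : F →ₐ[K] F') (hfin : FiniteAlong K ι) {n : ℕ} (hn : n ≠ 0)
    (hcop : Nat.Coprime (finrankAlong K ι) n)
    (hconst : ∀ f : F', f ≠ 0 → (∀ v : Place K F', v.ord f = 0) → ∃ a : K, f = algebraMap K F' a)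
    (P₁ P₂ : F → Prop) (P₁' P₂' : F' → Prop)
    (hP₁ : ∀ h : F, P₁ h → P₁' (ι h)) (hP₂ : ∀ h : F, P₂ h → P₂' (ι h))
    (T : F → F) (T' : F' → F') (hT : ∀ x : F, T' (ι x) = ι (T x)) (e : ℕ)
    (H : ∀ h : F', IsKummer K n h → P₁' h → P₂' h →
      ∃ w c : F', w ≠ 0 ∧ c ≠ 0 ∧ (∀ v : Place K F', v.ord c = 0) ∧ T' h = h ^ e * (c * w ^ n)) :
    ∀ h : F, IsKummer K n h → P₁ h → P₂ h →
      ∃ w c : F, w ≠ 0 ∧ c ≠ 0 ∧ (∀ v : Place K F, v.ord c = 0) ∧ T h = h ^ e * (c * w ^ n) := by
  letI := algebraAlong ι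
  haveI := isScalarTower_along ι
  haveI : FiniteDimensional F F' := hfin
  exact kummerElt_descent hn hcop hconst P₁ P₂ P₁' P₂' hP₁ hP₂ T T' hT e H

/-- `kummerClass_descent` along a `K`-algebra homomorphism `ι : F → F'`. -/
theorem kummerClass_descentAlong (ι : F →ₐ[K] F') (hfin : FiniteAlong K ι) {n : ℕ} (hn : n ≠ 0)
    (hcop : Nat.Coprime (finrankAlong K ι) n)
    (hconst : ∀ f : F', f ≠ 0 → (∀ v : Place K F', v.ord f = 0) → ∃ a : K, f = algebraMap K F' a)
    (P₁ P₂ : F → Prop) (P₁' P₂' : F' → Prop)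
    (hP₁ : ∀ h : F, P₁ h → P₁' (ι h)) (hP₂ : ∀ h : F, P₂ h → P₂' (ι h))
    (T : F → F) (T' : F' → F') (hT : ∀ x : F, T' (ι x) = ι (T x)) (e : ℕ)
    (H : ∀ h₁ h₂ : F', IsKummer K n h₁ → IsKummer K n h₂ → P₁' h₁ → P₂' h₂ →
      (∃ w c : F', w ≠ 0 ∧ c ≠ 0 ∧ (∀ v : Place K F', v.ord c = 0) ∧ h₁ = h₂ * (c * w ^ n)) →
      ∃ w c : F', w ≠ 0 ∧ c ≠ 0 ∧ (∀ v : Place K F', v.ord c = 0) ∧ T' h₁ = h₁ ^ e * (c * w ^ n)) :
    ∀ h₁ h₂ : F, IsKummer K n h₁ → IsKummer K n h₂ → P₁ h₁ → P₂ h₂ →
      (∃ w c : F, w ≠ 0 ∧ c ≠ 0 ∧ (∀ v : Place K F, v.ord c = 0) ∧ h₁ = h₂ * (c * w ^ n)) →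
      ∃ w c : F, w ≠ 0 ∧ c ≠ 0 ∧ (∀ v : Place K F, v.ord c = 0) ∧ T h₁ = h₁ ^ e * (c * w ^ n) := by
  letI := algebraAlong ι
  haveI := isScalarTower_along ι
  haveI : FiniteDimensional F F' := hfin
  exact kummerClass_descent hn hcop hconst P₁ P₂ P₁' P₂' hP₁ hP₂ T T' hT e H

/-- Descent of the relation `~` along a `K`-algebra homomorphism. -/
theorem kummerRel_descentAlong (ι : F →ₐ[K] F') (hfin : FiniteAlong K ι) {n : ℕ} (hn : n ≠ 0)
    (hcop : Nat.Coprime (finrankAlong K ι) n)
    (hconst : ∀ f : F', f ≠ 0 → (∀ v : Place K F', v.ord f = 0) → ∃ a : K, f = algebraMap K F' a)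
    {x y : F} (h : KummerRel K n (ι x) (ι y)) : KummerRel K n x y := by
  letI := algebraAlong ι
  haveI := isScalarTower_along ι
  haveI : FiniteDimensional F F' := hfin
  exact kummerRel_descent hn hcop hconst h

/-- Ascent of the relation `~` along a `K`-algebra homomorphism. -/
theorem kummerRel_mapAlong (ι : F →ₐ[K] F') (hfin : FiniteAlong K ι) {n : ℕ} {x y : F}
    (h : KummerRel K n x y) : KummerRel K n (ι x) (ι y) := by
  letI := algebraAlong ι
  haveI := isScalarTower_along ι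
  haveI : FiniteDimensional F F' := hfin
  exact kummerRel_algebraMap (K := K) (F' := F') h

end Along

/-! ### The modular instance: the inclusion of function fields `FN N → FN N'`, `N ∣ N'` -/

section Modular

open ModularCurve
open Fermat.Agent.S24.helper24
open Fermat.Agent.S18.helper2557

local notation "Qb" => AlgebraicClosure ℚ

/-- The inclusion `ℚ̄(X₀(N)) → ℚ̄(X₀(N'))` for `N ∣ N'` (same `q`-expansion). -/
def levelIncl {N N' : ℕ} (h : N ∣ N') :
    modularFunctionFieldBar N →ₐ[Qb] modularFunctionFieldBar N' :=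
  IntermediateField.inclusion (bar_mono h)

theorem coe_levelIncl {N N' : ℕ} (h : N ∣ N') (x : modularFunctionFieldBar N) :
    ((levelIncl h x : modularFunctionFieldBar N') : LaurentSeries Qb) = (x : LaurentSeries Qb) :=
  IntermediateField.coe_inclusion (bar_mono h) x

/-- The degree of the inclusion is the relative degree of the function fields. -/
theorem finrankAlong_levelIncl {N N' : ℕ} (h : N ∣ N') :
    finrankAlong Qb (levelIncl h)
      = (modularFunctionFieldBar N).relfinrank (modularFunctionFieldBar N') :=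
  finrank_inclAlgebra (bar_mono h)

theorem levelIncl_injective {N N' : ℕ} (h : N ∣ N') : Function.Injective (levelIncl h) :=
  (levelIncl h).toRingHom.injective

theorem levelIncl_jBarD {N N' : ℕ} (h : N ∣ N') (d : ℕ) [NeZero d] (hd : d ∣ N) :
    levelIncl h (jBarD N d hd) = jBarD N' d (hd.trans h) :=
  Subtype.ext (by
    rw [coe_levelIncl, Fermat.Agent.S24.helper3176.coe_jBarD,
      Fermat.Agent.S24.helper3176.coe_jBarD])

/-- The inclusion commutes with the coefficientwise Galois action. -/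
theorem levelIncl_arithmeticGalois {N N' : ℕ} (h : N ∣ N') (σ : Qb ≃ₐ[ℚ] Qb)
    (x : modularFunctionFieldBar N) :
    arithmeticGalois (modularFunctionFieldFull N') σ • levelIncl h x =
      levelIncl h (arithmeticGalois (modularFunctionFieldFull N) σ • x) :=
  Subtype.ext (by
    rw [coe_arithmeticGalois_smul, coe_levelIncl, coe_levelIncl, coe_arithmeticGalois_smul])

/-- The Gauss valuation ring at level `N` is the restriction of the one at level `N'`. -/
theorem gaussV_comap_levelIncl {N N' : ℕ} (h : N ∣ N') (A : ValuationSubring Qb) :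
    (gaussV A N').comap
        (levelIncl h : modularFunctionFieldBar N →+* modularFunctionFieldBar N') = gaussV A N :=
  SetLike.ext fun x => by
    rw [ValuationSubring.mem_comap, Fermat.Agent.S18.helper8991.mem_gaussF_iff,
      Fermat.Agent.S18.helper8991.mem_gaussF_iff]
    show (∃ X Y : LaurentSeries A, _ ∧
      ((levelIncl h x : modularFunctionFieldBar N') : LaurentSeries Qb) * _ = _) ↔ _
    rw [coe_levelIncl]

theorem gaussV_valuation_levelIncl_lt_one_iff {N N' : ℕ} (h : N ∣ N') (A : ValuationSubring Qb)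
    (x : modularFunctionFieldBar N) :
    (gaussV A N').valuation (levelIncl h x) < 1 ↔ (gaussV A N).valuation x < 1 := by
  rw [← gaussV_comap_levelIncl h A, Fermat.Agent.S35.helper1270.valuation_comap_lt_one_iff]
  exact Iff.rfl

theorem gaussV_valuation_levelIncl_le_one_iff {N N' : ℕ} (h : N ∣ N') (A : ValuationSubring Qb)
    (x : modularFunctionFieldBar N) :
    (gaussV A N').valuation (levelIncl h x) ≤ 1 ↔ (gaussV A N).valuation x ≤ 1 := by
  rw [← gaussV_comap_levelIncl h A, Fermat.Agent.S35.helper1270.valuation_comap_le_one_iff]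
  exact Iff.rfl

theorem gaussV_valuation_levelIncl_eq_one_iff {N N' : ℕ} (h : N ∣ N') (A : ValuationSubring Qb)
    (x : modularFunctionFieldBar N) :
    (gaussV A N').valuation (levelIncl h x) = 1 ↔ (gaussV A N).valuation x = 1 := by
  rw [← gaussV_comap_levelIncl h A, Fermat.Agent.S35.helper1270.valuation_comap_eq_one_iff]
  exact Iff.rfl

/-! ### The statements (TORFROB) at a level, in the two forms -/

/-- **(TORFROB), element form** at level `N`, modulus `n`, exponent `e`, for the Gauss ring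
`gaussV A N` and its twin under `W`: for every `n`-Kummer `h` which is `≡ 1` for both valuations,
`σ² h / h ^ e` is a divisor-free element times an `n`-th power.
(`e = q ^ 2`, `σ` a Frobenius lift at `A ∣ q`, `W = W_q`: statement (K8).) -/
def Stmt_TorFrobElt (N n e : ℕ) (A : ValuationSubring Qb)
    (W : modularFunctionFieldBar N ≃ₐ[Qb] modularFunctionFieldBar N) (σ : Qb ≃ₐ[ℚ] Qb) : Prop :=
  ∀ h : modularFunctionFieldBar N, IsKummer Qb n h →
    (gaussV A N).valuation (h - 1) < 1 → (gaussV A N).valuation (W h - 1) < 1 →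
    ∃ w c : modularFunctionFieldBar N, w ≠ 0 ∧ c ≠ 0 ∧
      (∀ v : Place Qb (modularFunctionFieldBar N), v.ord c = 0) ∧
      arithmeticGalois (modularFunctionFieldFull N) σ •
        arithmeticGalois (modularFunctionFieldFull N) σ • h = h ^ e * (c * w ^ n)

/-- **(TORFROB), class form** at level `N`: one representative for each valuation
(`h₁ ≡ 1` at the Gauss valuation, `h₂ ≡ 1` at its `W`-twin, `h₁ ~ h₂`). -/
def Stmt_TorFrobClass (N n e : ℕ) (A : ValuationSubring Qb)
    (W : modularFunctionFieldBar N ≃ₐ[Qb] modularFunctionFieldBar N) (σ : Qb ≃ₐ[ℚ] Qb) : Prop :=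
  ∀ h₁ h₂ : modularFunctionFieldBar N, IsKummer Qb n h₁ → IsKummer Qb n h₂ →
    (gaussV A N).valuation (h₁ - 1) < 1 → (gaussV A N).valuation (W h₂ - 1) < 1 →
    (∃ w c : modularFunctionFieldBar N, w ≠ 0 ∧ c ≠ 0 ∧
      (∀ v : Place Qb (modularFunctionFieldBar N), v.ord c = 0) ∧ h₁ = h₂ * (c * w ^ n)) →
    ∃ w c : modularFunctionFieldBar N, w ≠ 0 ∧ c ≠ 0 ∧
      (∀ v : Place Qb (modularFunctionFieldBar N), v.ord c = 0) ∧
      arithmeticGalois (modularFunctionFieldFull N) σ •
        arithmeticGalois (modularFunctionFieldFull N) σ • h₁ = h₁ ^ e * (c * w ^ n)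

/-- The class form contains the element form. -/
theorem Stmt_TorFrobClass.elt {N n e : ℕ} {A : ValuationSubring Qb}
    {W : modularFunctionFieldBar N ≃ₐ[Qb] modularFunctionFieldBar N} {σ : Qb ≃ₐ[ℚ] Qb}
    (H : Stmt_TorFrobClass N n e A W σ) : Stmt_TorFrobElt N n e A W σ := fun h hK h1 h2 =>
  H h h hK hK h1 h2 ⟨1, 1, one_ne_zero, one_ne_zero, fun v => v.ord_one, by
    rw [one_pow, mul_one, mul_one]⟩

/-! ### Descent along `N ∣ N'` -/

/-- The relative degree `[FN N' : FN N]` is positive. -/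
theorem relfinrank_bar_pos {N N' : ℕ} [NeZero N] [NeZero N'] (h : N ∣ N') :
    0 < (modularFunctionFieldBar N).relfinrank (modularFunctionFieldBar N') := by
  have h1 := relfinrank_bar_mul h
  have h2 := dedekindPsi_pos' N'
  rcases Nat.eq_zero_or_pos
    ((modularFunctionFieldBar N).relfinrank (modularFunctionFieldBar N')) with h0 | h0
  · rw [h0, zero_mul] at h1
    omega
  · exact h0

/-- The inclusion `FN N → FN N'` is finite. -/
theorem finiteAlong_levelIncl {N N' : ℕ} [NeZero N] [NeZero N'] (h : N ∣ N') :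
    FiniteAlong Qb (levelIncl h) := by
  have hpos : 0 < finrankAlong Qb (levelIncl h) := by
    rw [finrankAlong_levelIncl]
    exact relfinrank_bar_pos h
  letI := algebraAlong (levelIncl h)
  exact Module.finite_of_finrank_pos hpos

/-- Divisor-free functions of `FN N` are constants (landed `helper36`). -/
theorem const_of_ord_eq_zero (N : ℕ) [NeZero N] (f : modularFunctionFieldBar N) (_hf : f ≠ 0)
    (h : ∀ v : Place Qb (modularFunctionFieldBar N), v.ord f = 0) :
    ∃ a : Qb, f = algebraMap Qb (modularFunctionFieldBar N) a :=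
  Fermat.Agent.S29.helper36.exists_algebraMap_eq_of_ord_eq_zero Qb N h

/-- **Descent of (TORFROB), class form, along `N ∣ N'`**: `[FN N' : FN N]` prime to `n`, and the
automorphisms `W`, `W'` compatible with the inclusion. -/
theorem stmt_TorFrobClass_descent {N N' : ℕ} [NeZero N] [NeZero N'] (hdvd : N ∣ N') {n : ℕ}
    (hn : n ≠ 0)
    (hcop : Nat.Coprime
      ((modularFunctionFieldBar N).relfinrank (modularFunctionFieldBar N')) n)
    (A : ValuationSubring Qb)
    (W : modularFunctionFieldBar N ≃ₐ[Qb] modularFunctionFieldBar N)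
    (W' : modularFunctionFieldBar N' ≃ₐ[Qb] modularFunctionFieldBar N')
    (hW : ∀ x : modularFunctionFieldBar N, W' (levelIncl hdvd x) = levelIncl hdvd (W x))
    (σ : Qb ≃ₐ[ℚ] Qb) (e : ℕ) (H : Stmt_TorFrobClass N' n e A W' σ) :
    Stmt_TorFrobClass N n e A W σ :=
  kummerClass_descentAlong (K := Qb) (levelIncl hdvd) (finiteAlong_levelIncl hdvd) hn
    (by rw [finrankAlong_levelIncl]; exact hcop) (const_of_ord_eq_zero N')
    (fun h => (gaussV A N).valuation (h - 1) < 1)
    (fun h => (gaussV A N).valuation (W h - 1) < 1)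
    (fun h => (gaussV A N').valuation (h - 1) < 1)
    (fun h => (gaussV A N').valuation (W' h - 1) < 1)
    (fun h h1 => by
      rw [← map_one (levelIncl hdvd), ← map_sub]
      exact (gaussV_valuation_levelIncl_lt_one_iff hdvd A _).mpr h1)
    (fun h h2 => by
      rw [hW, ← map_one (levelIncl hdvd), ← map_sub]
      exact (gaussV_valuation_levelIncl_lt_one_iff hdvd A _).mpr h2)
    (fun h => arithmeticGalois (modularFunctionFieldFull N) σ •
      arithmeticGalois (modularFunctionFieldFull N) σ • h)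
    (fun h => arithmeticGalois (modularFunctionFieldFull N') σ •
      arithmeticGalois (modularFunctionFieldFull N') σ • h)
    (fun x => by rw [levelIncl_arithmeticGalois, levelIncl_arithmeticGalois])
    e H

/-- **Descent of (TORFROB), element form, along `N ∣ N'`.** -/
theorem stmt_TorFrobElt_descent {N N' : ℕ} [NeZero N] [NeZero N'] (hdvd : N ∣ N') {n : ℕ}
    (hn : n ≠ 0)
    (hcop : Nat.Coprime
      ((modularFunctionFieldBar N).relfinrank (modularFunctionFieldBar N')) n)
    (A : ValuationSubring Qb)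
    (W : modularFunctionFieldBar N ≃ₐ[Qb] modularFunctionFieldBar N)
    (W' : modularFunctionFieldBar N' ≃ₐ[Qb] modularFunctionFieldBar N')
    (hW : ∀ x : modularFunctionFieldBar N, W' (levelIncl hdvd x) = levelIncl hdvd (W x))
    (σ : Qb ≃ₐ[ℚ] Qb) (e : ℕ) (H : Stmt_TorFrobElt N' n e A W' σ) :
    Stmt_TorFrobElt N n e A W σ :=
  kummerElt_descentAlong (K := Qb) (levelIncl hdvd) (finiteAlong_levelIncl hdvd) hn
    (by rw [finrankAlong_levelIncl]; exact hcop) (const_of_ord_eq_zero N')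
    (fun h => (gaussV A N).valuation (h - 1) < 1)
    (fun h => (gaussV A N).valuation (W h - 1) < 1)
    (fun h => (gaussV A N').valuation (h - 1) < 1)
    (fun h => (gaussV A N').valuation (W' h - 1) < 1)
    (fun h h1 => by
      rw [← map_one (levelIncl hdvd), ← map_sub]
      exact (gaussV_valuation_levelIncl_lt_one_iff hdvd A _).mpr h1)
    (fun h h2 => by
      rw [hW, ← map_one (levelIncl hdvd), ← map_sub]
      exact (gaussV_valuation_levelIncl_lt_one_iff hdvd A _).mpr h2)
    (fun h => arithmeticGalois (modularFunctionFieldFull N) σ •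
      arithmeticGalois (modularFunctionFieldFull N) σ • h)
    (fun h => arithmeticGalois (modularFunctionFieldFull N') σ •
      arithmeticGalois (modularFunctionFieldFull N') σ • h)
    (fun x => by rw [levelIncl_arithmeticGalois, levelIncl_arithmeticGalois])
    e H

/-! ### The Atkin-Lehner involution `W_q` at two levels -/

open Fermat.Agent.S35.helper1219 in
/-- **`W_q` is compatible with the level**: for `M₁ ∣ M₁'` (both prime to `q`) the Atkin-Lehner
involutions of `FN (q * M₁)` and `FN (q * M₁')` agree on the smaller field. -/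
theorem atkinLehnerBar_levelIncl (q M₁ M₁' : ℕ) [NeZero q] [NeZero M₁] [NeZero M₁']
    (hc : Nat.Coprime q M₁) (hc' : Nat.Coprime q M₁') (hdvd : M₁ ∣ M₁') (x : FN (q * M₁)) :
    atkinLehnerBar q M₁' hc' (levelIncl (Nat.mul_dvd_mul_left q hdvd) x)
      = levelIncl (Nat.mul_dvd_mul_left q hdvd) (atkinLehnerBar q M₁ hc x) := by
  have hN : q * M₁ ∣ q * M₁' := Nat.mul_dvd_mul_left q hdvd
  have hh : ((atkinLehnerBar q M₁' hc' : FN (q * M₁') ≃+* FN (q * M₁')) :
        FN (q * M₁') →+* FN (q * M₁')).comp (levelIncl hN : FN (q * M₁) →+* FN (q * M₁'))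
      = (levelIncl hN : FN (q * M₁) →+* FN (q * M₁')).comp
        ((atkinLehnerBar q M₁ hc : FN (q * M₁) ≃+* FN (q * M₁)) :
          FN (q * M₁) →+* FN (q * M₁)) := by
    refine Fermat.Agent.S24.helper3176.ringHom_ext_of_gen (q * M₁) ?_ ?_
    · intro c
      show atkinLehnerBar q M₁' hc' (levelIncl hN (algebraMap Kbar (FN (q * M₁)) c))
        = levelIncl hN (atkinLehnerBar q M₁ hc (algebraMap Kbar (FN (q * M₁)) c))
      rw [AlgHom.commutes, AlgEquiv.commutes, AlgEquiv.commutes, AlgHom.commutes]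
    · intro D _ hD
      show atkinLehnerBar q M₁' hc' (levelIncl hN (jBarD (q * M₁) D hD))
        = levelIncl hN (atkinLehnerBar q M₁ hc (jBarD (q * M₁) D hD))
      obtain ⟨e, f, d, m, rfl, hq, hM⟩ := exists_factor hc hD
      obtain ⟨m', hm'⟩ := hdvd
      have hM' : M₁' = d * (m * m') := by rw [hm', hM, mul_assoc]
      have : NeZero (f * d) := (neZero_mul_of_eq hq hM).2
      rw [levelIncl_jBarD, atkinLehnerBar_jBarD q M₁' hc' hq hM' _ (dvd_of_eq hq hM').2,
        atkinLehnerBar_jBarD q M₁ hc hq hM hD (dvd_of_eq hq hM).2, levelIncl_jBarD]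
  exact congrArg (fun f : FN (q * M₁) →+* FN (q * M₁') => f x) hh

/-! ### The auxiliary prime and the degree of the auxiliary level -/

/-- `q * lcm(M₁, r) = lcm(q * M₁, r)` for a prime `r ∤ q`. -/
theorem mul_lcm_prime_eq (q M₁ : ℕ) {r : ℕ} (hr : r.Prime) (hrq : ¬ r ∣ q) :
    q * M₁.lcm r = (q * M₁).lcm r := by
  by_cases h : r ∣ M₁
  · rw [Nat.lcm_eq_left h, Nat.lcm_eq_left (h.mul_left q)]
  · have h1 : Nat.Coprime M₁ r := Nat.coprime_comm.mp ((Nat.Prime.coprime_iff_not_dvd hr).mpr h)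
    have h2 : ¬ r ∣ q * M₁ := fun hd => (hr.dvd_mul.mp hd).elim hrq h
    have h3 : Nat.Coprime (q * M₁) r :=
      Nat.coprime_comm.mp ((Nat.Prime.coprime_iff_not_dvd hr).mpr h2)
    rw [h1.lcm_eq_mul, h3.lcm_eq_mul, mul_assoc]

/-- `[FN (q * lcm(M₁, r)) : FN (q * M₁)]` is `1` if `r ∣ M₁` and `r + 1` otherwise
(`r` a prime, `r ∤ q`). -/
theorem relfinrank_mul_lcm_prime (q M₁ : ℕ) [NeZero q] [NeZero M₁] {r : ℕ} (hr : r.Prime)
    (hrq : ¬ r ∣ q) :
    (modularFunctionFieldBar (q * M₁)).relfinrank (modularFunctionFieldBar (q * M₁.lcm r))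
      = if r ∣ M₁ then 1 else r + 1 := by
  rw [mul_lcm_prime_eq q M₁ hr hrq, relfinrank_bar_lcm_prime (q * M₁) hr]
  by_cases h : r ∣ M₁
  · rw [if_pos h, if_pos (h.mul_left q)]
  · rw [if_neg h, if_neg fun hd => (hr.dvd_mul.mp hd).elim hrq h]

/-- `q` stays prime to the auxiliary cofactor. -/
theorem coprime_lcm_prime {q M₁ r : ℕ} (hc : Nat.Coprime q M₁) (hr : r.Prime) (hrq : ¬ r ∣ q) :
    Nat.Coprime q (M₁.lcm r) :=
  Nat.Coprime.coprime_dvd_right (Nat.lcm_dvd_mul M₁ r)
    (Nat.Coprime.mul_right hc (Nat.coprime_comm.mp ((Nat.Prime.coprime_iff_not_dvd hr).mpr hrq)))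

/-- **The auxiliary prime** for the residue characteristic `q` and the torsion prime `lam`:
`r ∈ {2, 3}`, `r ≠ q`, `r + 1` prime to `lam`. -/
def auxPrime (lam q : ℕ) : ℕ := if q = 2 ∨ lam = 3 then 3 else 2

theorem auxPrime_prime (lam q : ℕ) : (auxPrime lam q).Prime := by
  unfold auxPrime
  split_ifs
  · exact Nat.prime_three
  · exact Nat.prime_two

theorem auxPrime_eq_two_or_three (lam q : ℕ) : auxPrime lam q = 2 ∨ auxPrime lam q = 3 := by
  unfold auxPrime
  split_ifs
  · exact Or.inr rfl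
  · exact Or.inl rfl

theorem auxPrime_not_dvd {lam q : ℕ} (hq : q.Prime) (hql : q ≠ lam) : ¬ auxPrime lam q ∣ q := by
  unfold auxPrime
  split_ifs with h
  · intro hd
    have h3 : 3 = q := (Nat.prime_dvd_prime_iff_eq Nat.prime_three hq).mp hd
    rcases h with h | h
    · omega
    · exact hql (h3.symm.trans h.symm)
  · intro hd
    have h2 : 2 = q := (Nat.prime_dvd_prime_iff_eq Nat.prime_two hq).mp hd
    exact h (Or.inl h2.symm)

theorem auxPrime_ne {lam q : ℕ} (hq : q.Prime) (hql : q ≠ lam) : auxPrime lam q ≠ q :=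
  fun h => auxPrime_not_dvd hq hql (dvd_of_eq h)

theorem coprime_auxPrime_succ {lam q : ℕ} (hlam : lam.Prime) (hql : q ≠ lam) :
    Nat.Coprime (auxPrime lam q + 1) lam := by
  unfold auxPrime
  split_ifs with h
  · -- `gcd(4, lam) = 1`: `lam` is odd
    have hl2 : lam ≠ 2 := by
      rcases h with h | h
      · exact fun h' => hql (h.trans h'.symm)
      · omega
    have h4 : (3 + 1 : ℕ) = 2 ^ 2 := by norm_num
    rw [h4]
    refine Nat.Coprime.pow_left 2 ((Nat.coprime_primes Nat.prime_two hlam).mpr fun h' => hl2 h'.symm)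
  · -- `gcd(3, lam) = 1`
    have hl3 : lam ≠ 3 := fun h' => h (Or.inr h')
    exact (Nat.coprime_primes Nat.prime_three hlam).mpr fun h' => hl3 h'.symm

/-- The degree of the auxiliary level over the level `q * M₁` is prime to every power of `lam`. -/
theorem coprime_relfinrank_aux (q M₁ : ℕ) [NeZero q] [NeZero M₁] {lam : ℕ} (hq : q.Prime)
    (hlam : lam.Prime) (hql : q ≠ lam) (m : ℕ) :
    Nat.Coprime
      ((modularFunctionFieldBar (q * M₁)).relfinrank
        (modularFunctionFieldBar (q * M₁.lcm (auxPrime lam q)))) (lam ^ m) := by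
  rw [relfinrank_mul_lcm_prime q M₁ (auxPrime_prime lam q) (auxPrime_not_dvd hq hql)]
  split_ifs
  · exact Nat.coprime_one_left _
  · exact Nat.Coprime.pow_right m (coprime_auxPrime_succ hlam hql)

/-! ### (TORFROB) at level `q * M₁` from the auxiliary level `q * lcm(M₁, r)` -/

open Fermat.Agent.S35.helper1219 in
/-- **S35-TORFROB-LEVEL, class form.**  `q` a prime, `q ∤ M₁`, `lam ≠ q` a prime,
`r = auxPrime lam q`.  (TORFROB) for `W_q` at the auxiliary level `q * lcm(M₁, r)` and modulus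
`lam ^ m` gives (TORFROB) for `W_q` at the level `q * M₁`. -/
theorem stmt_TorFrobClass_of_aux (q M₁ : ℕ) [NeZero q] [NeZero M₁] (hq : q.Prime)
    (hc : Nat.Coprime q M₁) {lam : ℕ} (hlam : lam.Prime) (hql : q ≠ lam) (m : ℕ)
    [NeZero (M₁.lcm (auxPrime lam q))]
    (hc' : Nat.Coprime q (M₁.lcm (auxPrime lam q)))
    (A : ValuationSubring Qb) (σ : Qb ≃ₐ[ℚ] Qb) (e : ℕ)
    (H : Stmt_TorFrobClass (q * M₁.lcm (auxPrime lam q)) (lam ^ m) e A
      (atkinLehnerBar q (M₁.lcm (auxPrime lam q)) hc') σ) :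
    Stmt_TorFrobClass (q * M₁) (lam ^ m) e A (atkinLehnerBar q M₁ hc) σ :=
  stmt_TorFrobClass_descent (Nat.mul_dvd_mul_left q (Nat.dvd_lcm_left M₁ (auxPrime lam q)))
    (pow_ne_zero m hlam.ne_zero) (coprime_relfinrank_aux q M₁ hq hlam hql m) A _ _
    (atkinLehnerBar_levelIncl q M₁ _ hc hc' (Nat.dvd_lcm_left M₁ (auxPrime lam q))) σ e H

open Fermat.Agent.S35.helper1219 in
/-- **S35-TORFROB-LEVEL, element form.** -/
theorem stmt_TorFrobElt_of_aux (q M₁ : ℕ) [NeZero q] [NeZero M₁] (hq : q.Prime)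
    (hc : Nat.Coprime q M₁) {lam : ℕ} (hlam : lam.Prime) (hql : q ≠ lam) (m : ℕ)
    [NeZero (M₁.lcm (auxPrime lam q))]
    (hc' : Nat.Coprime q (M₁.lcm (auxPrime lam q)))
    (A : ValuationSubring Qb) (σ : Qb ≃ₐ[ℚ] Qb) (e : ℕ)
    (H : Stmt_TorFrobElt (q * M₁.lcm (auxPrime lam q)) (lam ^ m) e A
      (atkinLehnerBar q (M₁.lcm (auxPrime lam q)) hc') σ) :
    Stmt_TorFrobElt (q * M₁) (lam ^ m) e A (atkinLehnerBar q M₁ hc) σ :=
  stmt_TorFrobElt_descent (Nat.mul_dvd_mul_left q (Nat.dvd_lcm_left M₁ (auxPrime lam q)))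
    (pow_ne_zero m hlam.ne_zero) (coprime_relfinrank_aux q M₁ hq hlam hql m) A _ _
    (atkinLehnerBar_levelIncl q M₁ _ hc hc' (Nat.dvd_lcm_left M₁ (auxPrime lam q))) σ e H

end Modular

end Fermat.Agent.S35.helper1270
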