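/-
S35 — (TORFROB), the E5 EXPORT at the Gauss pair (helper3729).

`N` a level, `A ⊆ ℚ̄` over the prime `q`, `σ` a Frobenius lift at `A`, `W` a `ℚ̄`-automorphism of
`F = modularFunctionFieldBar N` commuting with `σ` (Atkin–Lehner),
`V₁ = helper882.gpRing A N` (the Gauss ring at `∞`), `V₂ = helper882.gpRingW A N W`,
`red = helper882.gpRed A N W : F → k((t)) × k((t))`.

* `torFrobElt_of_nodal_gp` : the element form of (TORFROB)
  (`h ≡ 1` at `V₁`, `W h ≡ 1` at `V₁` ⟹ `σ • σ • h = h ^ (q ^ 2) * (c * w ^ n)`) from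
  - the nodal E3 export `hE3` at the Gauss pair (the hypothesis of
    `helper2423.torFix_of_nodal`, verbatim, for `v = helper882.gpVal`, `vL = helper882.gpBase`,
    `red = helper882.gpRed`),
  - `σ`-stability of the supports of `E1`, `E2`,
  - `hΘT` : the coefficientwise Frobenius squared `Θ = (coeffMap θ, coeffMap θ)`,
    `θ c = c ^ (q ^ 2)`, preserves the spaces `T a b` and the nodes are `θ`-rational.
  Everything else (`τ = σ²` preserves both Gauss rings and acts on reductions by `Θ`; the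
  valuation-family package) is discharged from landed files (`helper3729_FrobGauss`,
  `helper882_GaussPair`, `helper36`).
* `stmt_TorFrobElt_of_nodal` : the same as `helper1270.Stmt_TorFrobElt (q * M1) n (q ^ 2) A
  (helper1219.atkinLehnerBar q M1 hc) σ` (the E5 export of the S35 Spec chain).
-/
import Fermat.Agent.S35.helper3729_TorFrobNodal
import Fermat.Agent.S35.helper3729_FrobGauss
import Fermat.Agent.S35.helper882_GaussPair
import Fermat.Agent.S35.helper1270_TorFrobLevel

set_option autoImplicit false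

namespace Fermat.Agent.S35.helper3729

open ModularCurve AlgebraicCurve HahnSeries
open Fermat.Agent.S29.helper8217 Fermat.Agent.S35.helper882

local notation "Kbar" => AlgebraicClosure ℚ
local notation "GQ" => (AlgebraicClosure ℚ ≃ₐ[ℚ] AlgebraicClosure ℚ)

section GaussPair

variable (N : ℕ) (A : ValuationSubring Kbar)
  (W : modularFunctionFieldBar N ≃ₐ[Kbar] modularFunctionFieldBar N)

/-- `W` as a ring endomorphism (the map defining `gpRingW`). -/
noncomputable abbrev gpW : modularFunctionFieldBar N →+* modularFunctionFieldBar N :=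
  ((W : modularFunctionFieldBar N ≃+* modularFunctionFieldBar N) :
    modularFunctionFieldBar N →+* modularFunctionFieldBar N)

theorem gpRed_eq (a : modularFunctionFieldBar N) (h1 : a ∈ gpRing A N)
    (h2 : gpW N W a ∈ gpRing A N) :
    gpRed A N W a = (Fermat.Agent.S18.helper8991.gaussFRed A (IsLocalRing.residue A) N ⟨a, h1⟩,
      Fermat.Agent.S18.helper8991.gaussFRed A (IsLocalRing.residue A) N ⟨gpW N W a, h2⟩) :=
  Prod.ext (gpRho_of_mem A N h1) (gpRho_of_mem A N h2)

variable {q : ℕ} [ExpChar (IsLocalRing.ResidueField A) q] {σ : GQ}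

/-- `hτred` at the Gauss pair: `σ²` acts on `gpRed` by the coefficientwise `frobSq`. -/
theorem gpRed_frobTau (hσ : A.IsFrobeniusAt σ q)
    (hW : ∀ z, gpW N W (arithmeticGalois (modularFunctionFieldFull N) σ • z) =
      arithmeticGalois (modularFunctionFieldFull N) σ • gpW N W z)
    (a : modularFunctionFieldBar N) (ha : ∀ i, gpVal A N W i a ≤ 1) :
    gpRed A N W (frobTau N σ • a) =
      Prod.map (coeffMap (frobSq (IsLocalRing.ResidueField A) q))
        (coeffMap (frobSq (IsLocalRing.ResidueField A) q)) (gpRed A N W a) := by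
  obtain ⟨ha1, ha2⟩ := gpVal_le_one_mem A N W ha
  exact frobTau_pairRed N (gpW N W) hσ hW (gpRed A N W) (gpRed_eq N A W) a ha1 ha2

theorem gpRing_frobTau_le (hσ : A.IsFrobeniusAt σ q) (x : modularFunctionFieldBar N)
    (hx : (gpRing A N).valuation x ≤ 1) : (gpRing A N).valuation (frobTau N σ • x) ≤ 1 :=
  frobTau_valuation_le N hσ x hx

theorem gpRing_frobTau_lt (hσ : A.IsFrobeniusAt σ q) (x : modularFunctionFieldBar N)
    (hx : (gpRing A N).valuation x < 1) : (gpRing A N).valuation (frobTau N σ • x) < 1 :=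
  frobTau_valuation_lt N hσ x hx

theorem gpRingW_frobTau_le (hσ : A.IsFrobeniusAt σ q)
    (hW : ∀ z, gpW N W (arithmeticGalois (modularFunctionFieldFull N) σ • z) =
      arithmeticGalois (modularFunctionFieldFull N) σ • gpW N W z)
    (x : modularFunctionFieldBar N) (hx : (gpRingW A N W).valuation x ≤ 1) :
    (gpRingW A N W).valuation (frobTau N σ • x) ≤ 1 :=
  frobTau_comap_valuation_le N (gpW N W) hσ hW x hx

theorem gpRingW_frobTau_lt (hσ : A.IsFrobeniusAt σ q)
    (hW : ∀ z, gpW N W (arithmeticGalois (modularFunctionFieldFull N) σ • z) =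
      arithmeticGalois (modularFunctionFieldFull N) σ • gpW N W z)
    (x : modularFunctionFieldBar N) (hx : (gpRingW A N W).valuation x < 1) :
    (gpRingW A N W).valuation (frobTau N σ • x) < 1 :=
  frobTau_comap_valuation_lt N (gpW N W) hσ hW x hx

omit [ExpChar (IsLocalRing.ResidueField A) q] in
theorem divisor_frobTau (E : Divisor Kbar (modularFunctionFieldBar N))
    (hE : ∀ w, 0 < E w → 0 < E (arithmeticGalois (modularFunctionFieldFull N) σ • w))
    (w : Place Kbar (modularFunctionFieldBar N)) (hw : 0 < E w) : 0 < E (frobTau N σ • w) := by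
  rw [frobTau, mul_smul]
  exact hE _ (hE w hw)

omit [ExpChar (IsLocalRing.ResidueField A) q] in
theorem place_deg_pos [NeZero N] (v : Place Kbar (modularFunctionFieldBar N)) : 0 < v.deg := by
  rw [Fermat.Agent.S29.helper36.place_deg_eq_one_L Kbar N v]
  exact one_pos

end GaussPair

/-- **(TORFROB), element form, at the Gauss pair of level `N`**, from the nodal E3 export. -/
theorem torFrobElt_of_nodal_gp (N : ℕ) [NeZero N] {q : ℕ} (hq : q.Prime)
    {n : ℕ} (hn : 0 < n) (hqn : ¬ q ∣ n)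
    (A : ValuationSubring Kbar) (hA : A.LiesOverPrime q) (σ : GQ) (hσ : A.IsFrobeniusAt σ q)
    (W : modularFunctionFieldBar N ≃ₐ[Kbar] modularFunctionFieldBar N)
    (hW : ∀ z, W (arithmeticGalois (modularFunctionFieldFull N) σ • z) =
      arithmeticGalois (modularFunctionFieldFull N) σ • W z)
    (E1 E2 : Divisor Kbar (modularFunctionFieldBar N))
    (hE1 : ∀ w, 0 ≤ E1 w) (hE2 : ∀ w, 0 ≤ E2 w) (hdisj : ∀ w, E1 w = 0 ∨ E2 w = 0)
    (hσE1 : ∀ w, 0 < E1 w → 0 < E1 (arithmeticGalois (modularFunctionFieldFull N) σ • w))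
    (hσE2 : ∀ w, 0 < E2 w → 0 < E2 (arithmeticGalois (modularFunctionFieldFull N) σ • w))
    (θ : IsLocalRing.ResidueField A →+* IsLocalRing.ResidueField A)
    (hθ : ∀ c, θ c = c ^ (q ^ 2))
    {Vn : Type*} [CommRing Vn] [Algebra (IsLocalRing.ResidueField A) Vn] {I : Type*} [Fintype I]
    (ιV : Vn →ₐ[IsLocalRing.ResidueField A]
      LaurentSeries (IsLocalRing.ResidueField A) × LaurentSeries (IsLocalRing.ResidueField A))
    (hιV : Function.Injective ιV)
    (T : ℕ → ℕ → Submodule (IsLocalRing.ResidueField A) Vn)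
    (p p' : I → Vn →ₐ[IsLocalRing.ResidueField A] IsLocalRing.ResidueField A) (e s t n₀ : ℕ)
    (hT : helper603.IsNodalRR T p p' e s t n₀) (hT1 : (1 : Vn) ∈ T 0 0)
    (hΘT : ∀ a b, ∀ y ∈ T a b, ∃ y' ∈ T a b,
      ιV y' = Prod.map (coeffMap θ) (coeffMap θ) (ιV y) ∧
      ∀ i, p i y' = θ (p i y) ∧ p' i y' = θ (p' i y))
    (hE3 : ∀ h : modularFunctionFieldBar N, IsKummer Kbar n h →
      (gpRing A N).valuation (h - 1) < 1 → (gpRingW A N W).valuation (h - 1) < 1 →
      (∀ k, n₀ ≤ k → helper2459.CartesianW (gpVal A N W)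
        (fun _ => (1 : (gpRing A N).ValueGroup)) (gpBase A N)
        (riemannRochSpace (kummerDivisor Kbar n h + k • E1 + k • E2))) ∧
      ∃ c : I → IsLocalRing.ResidueField A, (∀ i, c i ^ n = 1) ∧ ∀ a b, n₀ ≤ a + b →
        (∀ x ∈ riemannRochSpace (kummerDivisor Kbar n h + a • E1 + b • E2),
          (∀ i, gpVal A N W i x ≤ 1) →
          ∃ y ∈ helper603.glued p p' c (T a b), gpRed A N W x = ιV y) ∧
        (∀ y ∈ helper603.glued p p' c (T a b),
          ∃ x ∈ riemannRochSpace (kummerDivisor Kbar n h + a • E1 + b • E2),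
            (∀ i, gpVal A N W i x ≤ 1) ∧ gpRed A N W x = ιV y)) :
    ∀ h : modularFunctionFieldBar N, IsKummer Kbar n h →
      (gpRing A N).valuation (h - 1) < 1 → (gpRing A N).valuation (W h - 1) < 1 →
      ∃ w c : modularFunctionFieldBar N, w ≠ 0 ∧ c ≠ 0 ∧
        (∀ v : Place Kbar (modularFunctionFieldBar N), v.ord c = 0) ∧
        arithmeticGalois (modularFunctionFieldFull N) σ •
          arithmeticGalois (modularFunctionFieldFull N) σ • h = h ^ (q ^ 2) * (c * w ^ n) := by
  intro h hK h1 h2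
  haveI : CharP (IsLocalRing.ResidueField A) q :=
    Fermat.Agent.Lib.helper6879.charP_residueField hq A hA
  haveI : ExpChar (IsLocalRing.ResidueField A) q := ExpChar.prime hq
  have hθ' : θ = frobSq (IsLocalRing.ResidueField A) q :=
    RingHom.ext fun c => by rw [hθ, frobSq_apply]
  subst hθ'
  have hA' : (q : Kbar) ∈ A.nonunits := hA
  have hW' : ∀ z, gpW N W (arithmeticGalois (modularFunctionFieldFull N) σ • z) =
      arithmeticGalois (modularFunctionFieldFull N) σ • gpW N W z := hW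
  have h2' : (gpRingW A N W).valuation (h - 1) < 1 := by
    rw [gpRingW_valuation_lt_one_iff, map_sub, map_one]
    exact h2
  obtain ⟨w, c, hw, hc0, hcv, hrel⟩ :=
    torFrob_of_nodal (K := Kbar) (F := modularFunctionFieldBar N) (place_deg_pos N)
      (gpVal A N W) (gpBase A N) (gp_arch A N hq hA') hn
      (fun i => gpVal_natCast A N W hq hA' hqn i)
      (frobTau N σ) (q ^ 2) (gpRing A N) (gpRingW A N W)
      (gpRing_frobTau_le N A hσ) (gpRingW_frobTau_le N A W hσ hW')
      (gpRing_frobTau_lt N A hσ) (gpRingW_frobTau_lt N A W hσ hW')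
      (gpVal_le_one_iff A N W) (gpVal_lt_one_iff A N W)
      E1 E2 hE1 hE2 hdisj (divisor_frobTau N E1 hσE1) (divisor_frobTau N E2 hσE2)
      (gpRedData A N W) (exists_gpBase_eq A N W)
      (frobSq (IsLocalRing.ResidueField A) q) hθ
      (Prod.map (coeffMap (frobSq (IsLocalRing.ResidueField A) q))
        (coeffMap (frobSq (IsLocalRing.ResidueField A) q)))
      (gpRed_frobTau N A W hσ hW')
      ιV hιV T p p' e s t n₀ hT hT1 hΘT hE3 h hK h1 h2'
  refine ⟨w, c, hw, hc0, hcv, ?_⟩
  rw [← hrel, frobTau_smul]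

/-- **The E5 export (TORFROB, element form) at level `q * M1`** in the vocabulary of the S35 Spec
chain (`helper1270.Stmt_TorFrobElt`, `W = helper1219.atkinLehnerBar q M1 hc`). -/
theorem stmt_TorFrobElt_of_nodal (q M1 : ℕ) [NeZero q] [NeZero M1] (hq : q.Prime)
    (hc : q.Coprime M1) {n : ℕ} (hn : 0 < n) (hqn : ¬ q ∣ n)
    (A : ValuationSubring Kbar) (hA : A.LiesOverPrime q) (σ : GQ) (hσ : A.IsFrobeniusAt σ q)
    (E1 E2 : Divisor Kbar (modularFunctionFieldBar (q * M1)))
    (hE1 : ∀ w, 0 ≤ E1 w) (hE2 : ∀ w, 0 ≤ E2 w) (hdisj : ∀ w, E1 w = 0 ∨ E2 w = 0)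
    (hσE1 : ∀ w, 0 < E1 w → 0 < E1 (arithmeticGalois (modularFunctionFieldFull (q * M1)) σ • w))
    (hσE2 : ∀ w, 0 < E2 w → 0 < E2 (arithmeticGalois (modularFunctionFieldFull (q * M1)) σ • w))
    (θ : IsLocalRing.ResidueField A →+* IsLocalRing.ResidueField A)
    (hθ : ∀ c, θ c = c ^ (q ^ 2))
    {Vn : Type*} [CommRing Vn] [Algebra (IsLocalRing.ResidueField A) Vn] {I : Type*} [Fintype I]
    (ιV : Vn →ₐ[IsLocalRing.ResidueField A]
      LaurentSeries (IsLocalRing.ResidueField A) × LaurentSeries (IsLocalRing.ResidueField A))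
    (hιV : Function.Injective ιV)
    (T : ℕ → ℕ → Submodule (IsLocalRing.ResidueField A) Vn)
    (p p' : I → Vn →ₐ[IsLocalRing.ResidueField A] IsLocalRing.ResidueField A) (e s t n₀ : ℕ)
    (hT : helper603.IsNodalRR T p p' e s t n₀) (hT1 : (1 : Vn) ∈ T 0 0)
    (hΘT : ∀ a b, ∀ y ∈ T a b, ∃ y' ∈ T a b,
      ιV y' = Prod.map (coeffMap θ) (coeffMap θ) (ιV y) ∧
      ∀ i, p i y' = θ (p i y) ∧ p' i y' = θ (p' i y))
    (hE3 : ∀ h : modularFunctionFieldBar (q * M1), IsKummer Kbar n h →
      (gpRing A (q * M1)).valuation (h - 1) < 1 →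
      (gpRingW A (q * M1) (helper1219.atkinLehnerBar q M1 hc)).valuation (h - 1) < 1 →
      (∀ k, n₀ ≤ k → helper2459.CartesianW
        (gpVal A (q * M1) (helper1219.atkinLehnerBar q M1 hc))
        (fun _ => (1 : (gpRing A (q * M1)).ValueGroup)) (gpBase A (q * M1))
        (riemannRochSpace (kummerDivisor Kbar n h + k • E1 + k • E2))) ∧
      ∃ c : I → IsLocalRing.ResidueField A, (∀ i, c i ^ n = 1) ∧ ∀ a b, n₀ ≤ a + b →
        (∀ x ∈ riemannRochSpace (kummerDivisor Kbar n h + a • E1 + b • E2),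
          (∀ i, gpVal A (q * M1) (helper1219.atkinLehnerBar q M1 hc) i x ≤ 1) →
          ∃ y ∈ helper603.glued p p' c (T a b),
            gpRed A (q * M1) (helper1219.atkinLehnerBar q M1 hc) x = ιV y) ∧
        (∀ y ∈ helper603.glued p p' c (T a b),
          ∃ x ∈ riemannRochSpace (kummerDivisor Kbar n h + a • E1 + b • E2),
            (∀ i, gpVal A (q * M1) (helper1219.atkinLehnerBar q M1 hc) i x ≤ 1) ∧
            gpRed A (q * M1) (helper1219.atkinLehnerBar q M1 hc) x = ιV y)) :
    helper1270.Stmt_TorFrobElt (q * M1) n (q ^ 2) A (helper1219.atkinLehnerBar q M1 hc) σ :=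
  torFrobElt_of_nodal_gp (q * M1) hq hn hqn A hA σ hσ (helper1219.atkinLehnerBar q M1 hc)
    (fun z => helper1219.atkinLehnerBar_arithmeticGalois_smul q M1 hc σ z)
    E1 E2 hE1 hE2 hdisj hσE1 hσE2 θ hθ ιV hιV T p p' e s t n₀ hT hT1 hΘT hE3

end Fermat.Agent.S35.helper3729
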