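/-
S35 Spec, geometry end (captain helper2039): the MODULAR INSTANCE of the package
`helper2039.Stmt_NodalFrobAt` — the S35 twin of `Fermat.Agent.S34.helper2423_NodalInst`.

* `stmt_NodalFrobAt_of_components` : the package at the level `q * M` from the function-field
  theorem (E3) `helper603.twisted_lattice_of_components` with every hypothesis which is on main
  discharged at the concrete objects (binder list of `helper2423.stmt_NodalAt_of_components`,
  with `E1`, `E2` stable under the whole Galois group), plus the Frobenius input `hΘT` in its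
  concrete form (the conclusion of `helper2195.hThetaT_of_frob`).
* `Stmt_ChartNodesFrob q M h' A` : **the chart / node package of S35** = the text of
  `helper2423.Stmt_ChartNodes` with four more clauses inside the same existential package:
  (a) the chart function `x` is fixed by `arithmeticGalois g` for EVERY `g ∈ Gal(ℚ̄/ℚ)`;
  (b) `x₂ = x₁ ^ q`;
  (c) `x₁` has `𝔽_q`-coefficients;
  (d) the graph property (FROB) at the nodes: for `u` regular on the chart of `x₁` and
      `u' = u(T^q)`:  `u'(P i) = u(Q i)` and `u'(Q i) = u(P i)`.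
* `stmt_NodalFrobAt_of_chartNodesFrob`, `stmt_NodalFrobGeom_of_chartNodesFrob` : the chart / node
  package gives the package `Stmt_NodalFrobAt` for every modulus `n ≠ 0`, hence the geometric
  leaf `Stmt_NodalFrobGeom` of S35.
* `stmt_ChartNodes_of_chartNodesFrob` : the S35 chart / node package contains the S34 one.
-/
import Fermat.Agent.S34.helper2423_NodalInst
import Fermat.Agent.S35.helper2039_NodalFrob
import Fermat.Agent.S35.helper3729_TorFrobInst
import Fermat.Agent.S35.helper2195_FrobRR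

set_option autoImplicit false

namespace Fermat.Agent.S35.helper2039

open AlgebraicCurve ModularCurve HahnSeries
open Fermat.Agent.S29.helper8217
open Fermat.Agent.S34.helper584
open Fermat.Agent.S34.helper2423
open Fermat.Agent.S35.helper1219
open Fermat.Agent.S35.helper603 (valueAt nodeRing evalAt pairRR glued nodeInclAlg)
open Fermat.Agent.S35.helper882 (gpVal gpBase gpRed gpRing)
open Fermat.Agent.S35.helper1928 (fibreIncl)

local notation "Qb" => AlgebraicClosure ℚ
local notation "GQ" => (AlgebraicClosure ℚ ≃ₐ[ℚ] AlgebraicClosure ℚ)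

noncomputable section

/-- **The package `Stmt_NodalFrobAt` at the level `q * M` from the chart / node data.**
The binder list is that of `helper2423.stmt_NodalAt_of_components` (with `E1`, `E2` stable under
the whole Galois group) plus `θ`, `hθ`, `hΘT`. -/
theorem stmt_NodalFrobAt_of_components {q M : ℕ} [NeZero q] [NeZero M] (h' : Nat.Coprime q M)
    (hq : q.Prime) (A : ValuationSubring Qb) (hA : A.LiesOverPrime q)
    {I : Type} [Fintype I]
    (hdegk : ∀ w : Place (IsLocalRing.ResidueField A)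
      ↥(modularFunctionFieldFullC (IsLocalRing.ResidueField A) M), w.deg = 1)
    (P Q : I → Place (IsLocalRing.ResidueField A)
      ↥(modularFunctionFieldFullC (IsLocalRing.ResidueField A) M))
    (hP : Function.Injective P) (hQ : Function.Injective Q)
    (Yinf₁ Y0₁ Yinf₂ Y0₂ : Divisor (IsLocalRing.ResidueField A)
      ↥(modularFunctionFieldFullC (IsLocalRing.ResidueField A) M))
    (hYinf₁ : 0 ≤ Yinf₁) (hY0₁ : 0 ≤ Y0₁) (hYinf₂ : 0 ≤ Yinf₂) (hY0₂ : 0 ≤ Y0₂)
    (hdisj₁ : ∀ w, Yinf₁ w = 0 ∨ Y0₁ w = 0) (hdisj₂ : ∀ w, Yinf₂ w = 0 ∨ Y0₂ w = 0)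
    (d₁ d₂ : ℕ) (hd₁ : 0 < d₁) (hd₂ : 0 < d₂)
    (hdY₁ : Divisor.degree Yinf₁ = d₁) (hdY0₁ : Divisor.degree Y0₁ = d₁)
    (hdY₂ : Divisor.degree Yinf₂ = d₂) (hdY0₂ : Divisor.degree Y0₂ = d₂)
    (hPY : ∀ i, Yinf₁ (P i) = 0 ∧ Y0₁ (P i) = 0) (hQY : ∀ i, Yinf₂ (Q i) = 0 ∧ Y0₂ (Q i) = 0)
    (E1 E2 : Divisor Qb (modularFunctionFieldBar (q * M))) (hE1 : 0 ≤ E1) (hE2 : 0 ≤ E2)
    (hdE1 : 0 < Divisor.degree E1)
    (hdisj : ∀ w : Place Qb (modularFunctionFieldBar (q * M)), E1 w = 0 ∨ E2 w = 0)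
    (hgE1 : ∀ (g : GQ) (w : Place Qb (modularFunctionFieldBar (q * M))),
      0 < E1 w → 0 < E1 (arithmeticGalois (modularFunctionFieldFull (q * M)) g • w))
    (hgE2 : ∀ (g : GQ) (w : Place Qb (modularFunctionFieldBar (q * M))),
      0 < E2 w → 0 < E2 (arithmeticGalois (modularFunctionFieldFull (q * M)) g • w))
    (x : modularFunctionFieldBar (q * M)) (hx0 : x ≠ 0)
    (hxord : ∀ w : Place Qb (modularFunctionFieldBar (q * M)), w.ord x = E2 w - E1 w)
    (hxv : ∀ i, gpVal A (q * M) (atkinLehnerBar q M h') i x = 1)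
    (x₁ x₂ : ↥(modularFunctionFieldFullC (IsLocalRing.ResidueField A) M))
    (hredx : gpRed A (q * M) (atkinLehnerBar q M h') x =
      fibreIncl (IsLocalRing.ResidueField A) M (x₁, x₂))
    (hx₁ : ∀ w, w.ord x₁ = Y0₁ w - Yinf₁ w) (hx₂ : ∀ w, w.ord x₂ = Y0₂ w - Yinf₂ w)
    (hcont : ∀ a b : ℕ, ∀ f ∈ riemannRochSpace (a • E1 + b • E2),
      (∀ i, gpVal A (q * M) (atkinLehnerBar q M h') i f ≤ 1) →
      ∃ y₁ ∈ riemannRochSpace (a • Yinf₁ + b • Y0₁),
        ∃ y₂ ∈ riemannRochSpace (a • Yinf₂ + b • Y0₂),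
          gpRed A (q * M) (atkinLehnerBar q M h') f =
            fibreIncl (IsLocalRing.ResidueField A) M (y₁, y₂) ∧
          ∀ i, valueAt (Q i) (hdegk (Q i)) y₂ = valueAt (P i) (hdegk (P i)) y₁)
    (hK1 : ∀ a : ℕ, ∀ y₁ ∈ riemannRochSpace (a • Yinf₁), ∀ y₂ ∈ riemannRochSpace (a • Yinf₂),
      (∀ i, valueAt (Q i) (hdegk (Q i)) y₂ = valueAt (P i) (hdegk (P i)) y₁) →
      ∃ a' : ℕ, ∃ f ∈ riemannRochSpace (a' • E1),
        (∀ i, gpVal A (q * M) (atkinLehnerBar q M h') i f ≤ 1) ∧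
          gpRed A (q * M) (atkinLehnerBar q M h') f =
            fibreIncl (IsLocalRing.ResidueField A) M (y₁, y₂))
    (hK2 : ∀ b : ℕ, ∀ y₁ ∈ riemannRochSpace (b • Y0₁), ∀ y₂ ∈ riemannRochSpace (b • Y0₂),
      (∀ i, valueAt (Q i) (hdegk (Q i)) y₂ = valueAt (P i) (hdegk (P i)) y₁) →
      ∃ b' : ℕ, ∃ f ∈ riemannRochSpace (b' • E2),
        (∀ i, gpVal A (q * M) (atkinLehnerBar q M h') i f ≤ 1) ∧
          gpRed A (q * M) (atkinLehnerBar q M h') f =
            fibreIncl (IsLocalRing.ResidueField A) M (y₁, y₂))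
    (θ : IsLocalRing.ResidueField A →+* IsLocalRing.ResidueField A)
    (hθ : ∀ c, θ c = c ^ (q ^ 2))
    (hΘT : ∀ a b : ℕ, ∀ y ∈ pairRR P Q (a • Yinf₁ + b • Y0₁) (a • Yinf₂ + b • Y0₂),
      ∃ y' ∈ pairRR P Q (a • Yinf₁ + b • Y0₁) (a • Yinf₂ + b • Y0₂),
        ((fibreIncl (IsLocalRing.ResidueField A) M).comp (nodeInclAlg P Q)) y' =
          Prod.map (coeffMap θ) (coeffMap θ)
            (((fibreIncl (IsLocalRing.ResidueField A) M).comp (nodeInclAlg P Q)) y) ∧
        ∀ i, ((evalAt P (fun i => hdegk (P i)) i).comp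
              (AlgHom.fst (IsLocalRing.ResidueField A) (nodeRing P) (nodeRing Q))) y' =
            θ (((evalAt P (fun i => hdegk (P i)) i).comp
              (AlgHom.fst (IsLocalRing.ResidueField A) (nodeRing P) (nodeRing Q))) y) ∧
          ((evalAt Q (fun i => hdegk (Q i)) i).comp
              (AlgHom.snd (IsLocalRing.ResidueField A) (nodeRing P) (nodeRing Q))) y' =
            θ (((evalAt Q (fun i => hdegk (Q i)) i).comp
              (AlgHom.snd (IsLocalRing.ResidueField A) (nodeRing P) (nodeRing Q))) y))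
    (n : ℕ) (hn : n ≠ 0) : Stmt_NodalFrobAt q M h' A n := by
  classical
  haveI : Fact q.Prime := ⟨hq⟩
  have hqM : ¬ q ∣ M := (Nat.Prime.coprime_iff_not_dvd hq).mp h'
  haveI : NeZero (q * M) := ⟨mul_ne_zero hq.ne_zero (NeZero.ne M)⟩
  haveI := Fermat.Agent.S37.helper5162.hasPrincipalDivisors_FN (q * M)
  haveI := Fermat.Agent.Lib.helper6879.isAlgClosed_residueField A
  haveI : CharP (IsLocalRing.ResidueField A) q :=
    Fermat.Agent.Lib.helper6879.charP_residueField hq A hA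
  haveI : ExpChar (IsLocalRing.ResidueField A) q := ExpChar.prime hq
  have hNk := Fermat.Agent.S18.helper4307.natCast_ne_zero_residue M hq hqM A hA
  haveI := Fermat.Agent.S18.helper4307.hasPrincipalDivisors_fullC (IsLocalRing.ResidueField A) M hNk
  obtain ⟨P₁⟩ := Fermat.Agent.S37.helper265.nonempty_place_fullC (IsLocalRing.ResidueField A) M hNk
  have hRBk := Fermat.Agent.S37.helper265.hasRiemannBound_fullC (IsLocalRing.ResidueField A) M hNk
  let P₀ : Place Qb (modularFunctionFieldBar (q * M)) := Fermat.Agent.S29.helper36.qPlaceL Qb (q * M)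
  have hcart : ∀ D : Divisor Qb (modularFunctionFieldBar (q * M)),
      Fermat.Agent.S35.helper2459.CartesianW (gpVal A (q * M) (atkinLehnerBar q M h'))
        (fun _ => (1 : (gpRing A (q * M)).ValueGroup)) (gpBase A (q * M))
        (riemannRochSpace D) := by
    intro D
    haveI : FiniteDimensional Qb (riemannRochSpace D) :=
      Fermat.Agent.S18.helper981.finite_riemannRochSpace
        (Fermat.Agent.S37.helper5162.place_deg_eq_one (q * M)) P₀ D
    exact Fermat.Agent.S35.helper882.gp_cartesianW q M hqM A hA (riemannRochSpace D)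
  obtain ⟨n₀, hT, -, -, hE3⟩ :=
    Fermat.Agent.S35.helper603.twisted_lattice_of_components
      (Fermat.Agent.S37.helper5162.place_deg_eq_one (q * M))
      (Fermat.Agent.S37.helper6267.hasRiemannBound_FN (q * M))
      P₀
      (gpVal A (q * M) (atkinLehnerBar q M h')) (gpBase A (q * M))
      (Fermat.Agent.S35.helper882.gpRedData A (q * M) (atkinLehnerBar q M h'))
      (gpRed_const A (q * M) (atkinLehnerBar q M h')) hcart
      (fibreIncl (IsLocalRing.ResidueField A) M)
      (Fermat.Agent.S35.helper1928.fibreIncl_injective (IsLocalRing.ResidueField A) M)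
      (fun f _ => by
        obtain ⟨y, hy⟩ := Fermat.Agent.S35.helper1928.gpRed_mem_range q M hqM A hA
          (atkinLehnerBar q M h') f
        exact ⟨y, hy.symm⟩)
      hdegk hdegk hRBk hRBk P₁ P₁ P Q hP hQ Yinf₁ Y0₁ Yinf₂ Y0₂ hYinf₁ hY0₁ hYinf₂ hY0₂
      hdisj₁ hdisj₂ d₁ d₂ hd₁ hd₂ hdY₁ hdY0₁ hdY₂ hdY0₂ hPY hQY E1 E2 hE1 hE2 hdE1 x hx0 hxord
      hxv x₁ x₂ hredx hx₁ hx₂ hcont hK1 hK2
  have hθ' : θ = Fermat.Agent.S35.helper3729.frobSq (IsLocalRing.ResidueField A) q :=
    RingHom.ext fun c => by rw [hθ, Fermat.Agent.S35.helper3729.frobSq_apply]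
  refine ⟨E1, E2, fun w => by simpa using Finsupp.le_def.mp hE1 w,
    fun w => by simpa using Finsupp.le_def.mp hE2 w, hdisj, hgE1, hgE2,
    IsLocalRing.ResidueField A, inferInstance,
    LaurentSeries (IsLocalRing.ResidueField A) × LaurentSeries (IsLocalRing.ResidueField A),
    inferInstance, inferInstance, gpRed A (q * M) (atkinLehnerBar q M h'),
    Fermat.Agent.S35.helper882.gpRedData A (q * M) (atkinLehnerBar q M h'),
    θ, Prod.map (coeffMap θ) (coeffMap θ), hθ, ?_,
    nodeRing P × nodeRing Q, inferInstance, inferInstance, I, inferInstance,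
    (fibreIncl (IsLocalRing.ResidueField A) M).comp (nodeInclAlg P Q),
    fun a b => pairRR P Q (a • Yinf₁ + b • Y0₁) (a • Yinf₂ + b • Y0₂),
    fun i => (evalAt P (fun i => hdegk (P i)) i).comp
      (AlgHom.fst (IsLocalRing.ResidueField A) (nodeRing P) (nodeRing Q)),
    fun i => (evalAt Q (fun i => hdegk (Q i)) i).comp
      (AlgHom.snd (IsLocalRing.ResidueField A) (nodeRing P) (nodeRing Q)),
    d₁ + d₂, _, 2, n₀,
    (Fermat.Agent.S35.helper1928.fibreIncl_injective (IsLocalRing.ResidueField A) M).comp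
      (Fermat.Agent.S35.helper603.nodeInclAlg_injective P Q),
    hT, Fermat.Agent.S35.helper603.one_mem_pairRR_zero P Q Yinf₁ Y0₁ Yinf₂ Y0₂,
    fun a b a' b' y hy z hz =>
      Fermat.Agent.S35.helper603.mul_mem_pairRR P Q Yinf₁ Y0₁ Yinf₂ Y0₂ a b a' b' y hy z hz,
    hΘT, ?_⟩
  · -- (F2): `σ²` acts on the pair reduction by the coefficientwise Frobenius squared
    intro σ hσ a ha
    rw [hθ']
    exact Fermat.Agent.S35.helper3729.gpRed_frobTau (q * M) A (atkinLehnerBar q M h') hσ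
      (fun z => atkinLehnerBar_arithmeticGalois_smul q M h' σ z) a ha
  · intro h hK h1 h2
    refine ⟨fun k _ => hcart _, ?_⟩
    refine hE3 n hn (kummerDivisor Qb n h) (degree_kummerDivisor hK) h hK.ne_zero (fun w => ?_)
      (fun i => ?_)
    · rw [kummerDivisor_apply]
      exact le_of_eq (hK.mul_ediv_cancel w)
    · fin_cases i
      · exact h1
      · show (gaussV A (q * M)).valuation (atkinLehnerBar q M h' (h - 1)) < 1
        rw [map_sub, map_one]
        exact h2

/-! ### The chart / node package of S35 as ONE Prop -/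

/-- **The chart / node package of S35 at the level `q * M`** (`q ∤ M`, `A` over `q`,
`k = ResidueField A`, both components of the special fibre `= F_k(M)`): the text of
`Fermat.Agent.S34.helper2423.Stmt_ChartNodes` with, inside the same existential package,
(a) the chart function `x` fixed by the whole Galois group (instead of the inertia group of `A`),
(b) `x₂ = x₁ ^ q`, (c) `x₁` with `𝔽_q`-coefficients, and (d) the graph property (FROB) of the
nodes: for `u` regular on the chart of `x₁` and `u' = u(T^q)`, `u'(P i) = u(Q i)` and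
`u'(Q i) = u(P i)`. -/
def Stmt_ChartNodesFrob (q M : ℕ) [NeZero q] [NeZero M] (h' : Nat.Coprime q M)
    (A : ValuationSubring Qb) : Prop :=
  ∀ hdegk : (∀ w : Place (IsLocalRing.ResidueField A)
      ↥(modularFunctionFieldFullC (IsLocalRing.ResidueField A) M), w.deg = 1),
  ∃ (x : modularFunctionFieldBar (q * M))
    (x₁ x₂ : ↥(modularFunctionFieldFullC (IsLocalRing.ResidueField A) M))
    (I : Type) (_ : Fintype I)
    (P Q : I → Place (IsLocalRing.ResidueField A)
      ↥(modularFunctionFieldFullC (IsLocalRing.ResidueField A) M)),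
    Transcendental Qb x ∧
    FiniteDimensional (IntermediateField.adjoin Qb {x}) (modularFunctionFieldBar (q * M)) ∧
    -- (a)
    (∀ g : GQ, arithmeticGalois (modularFunctionFieldFull (q * M)) g • x = x) ∧
    (∀ i, gpVal A (q * M) (atkinLehnerBar q M h') i x = 1) ∧
    Transcendental (IsLocalRing.ResidueField A) x₁ ∧
    FiniteDimensional (IntermediateField.adjoin (IsLocalRing.ResidueField A) {x₁})
      ↥(modularFunctionFieldFullC (IsLocalRing.ResidueField A) M) ∧
    Transcendental (IsLocalRing.ResidueField A) x₂ ∧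
    FiniteDimensional (IntermediateField.adjoin (IsLocalRing.ResidueField A) {x₂})
      ↥(modularFunctionFieldFullC (IsLocalRing.ResidueField A) M) ∧
    gpRed A (q * M) (atkinLehnerBar q M h') x =
      fibreIncl (IsLocalRing.ResidueField A) M (x₁, x₂) ∧
    Function.Injective P ∧ Function.Injective Q ∧
    (∀ i, (P i).ord x₁ = 0) ∧ (∀ i, (Q i).ord x₂ = 0) ∧
    -- (b)
    x₂ = x₁ ^ q ∧
    -- (c)
    (∀ m : ℤ, ((x₁ : LaurentSeries (IsLocalRing.ResidueField A)).coeff m) ^ q =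
      (x₁ : LaurentSeries (IsLocalRing.ResidueField A)).coeff m) ∧
    -- (d)
    (∀ i, ∀ u u' : ↥(modularFunctionFieldFullC (IsLocalRing.ResidueField A) M),
      u ∈ Fermat.Agent.S35.helper825.chartAlg (IsLocalRing.ResidueField A) x₁ →
      (u' : LaurentSeries (IsLocalRing.ResidueField A)) =
        qExpand (IsLocalRing.ResidueField A) q
          (u : LaurentSeries (IsLocalRing.ResidueField A)) →
      valueAt (P i) (hdegk (P i)) u' = valueAt (Q i) (hdegk (Q i)) u ∧
        valueAt (Q i) (hdegk (Q i)) u' = valueAt (P i) (hdegk (P i)) u) ∧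
    ∀ (E1 E2 : Divisor Qb (modularFunctionFieldBar (q * M)))
      (Yinf₁ Y0₁ Yinf₂ Y0₂ : Divisor (IsLocalRing.ResidueField A)
        ↥(modularFunctionFieldFullC (IsLocalRing.ResidueField A) M)),
      (∀ w, E1 w = max 0 (-(w.ord x))) → (∀ w, E2 w = max 0 (w.ord x)) →
      (∀ w, Yinf₁ w = max 0 (-(w.ord x₁))) → (∀ w, Y0₁ w = max 0 (w.ord x₁)) →
      (∀ w, Yinf₂ w = max 0 (-(w.ord x₂))) → (∀ w, Y0₂ w = max 0 (w.ord x₂)) →
      (∀ a b : ℕ, ∀ f ∈ riemannRochSpace (a • E1 + b • E2),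
        (∀ i, gpVal A (q * M) (atkinLehnerBar q M h') i f ≤ 1) →
        ∃ y₁ ∈ riemannRochSpace (a • Yinf₁ + b • Y0₁),
          ∃ y₂ ∈ riemannRochSpace (a • Yinf₂ + b • Y0₂),
            gpRed A (q * M) (atkinLehnerBar q M h') f =
              fibreIncl (IsLocalRing.ResidueField A) M (y₁, y₂)) ∧
      (∀ a : ℕ, ∀ f ∈ riemannRochSpace (a • E1),
        (∀ i, gpVal A (q * M) (atkinLehnerBar q M h') i f ≤ 1) →
        ∀ y₁ ∈ riemannRochSpace (a • Yinf₁), ∀ y₂ ∈ riemannRochSpace (a • Yinf₂),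
          gpRed A (q * M) (atkinLehnerBar q M h') f =
            fibreIncl (IsLocalRing.ResidueField A) M (y₁, y₂) →
          ∀ i, valueAt (Q i) (hdegk (Q i)) y₂ = valueAt (P i) (hdegk (P i)) y₁) ∧
      (∀ a : ℕ, ∀ y₁ ∈ riemannRochSpace (a • Yinf₁), ∀ y₂ ∈ riemannRochSpace (a • Yinf₂),
        (∀ i, valueAt (Q i) (hdegk (Q i)) y₂ = valueAt (P i) (hdegk (P i)) y₁) →
        ∃ a' : ℕ, ∃ f ∈ riemannRochSpace (a' • E1),
          (∀ i, gpVal A (q * M) (atkinLehnerBar q M h') i f ≤ 1) ∧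
            gpRed A (q * M) (atkinLehnerBar q M h') f =
              fibreIncl (IsLocalRing.ResidueField A) M (y₁, y₂)) ∧
      (∀ b : ℕ, ∀ y₁ ∈ riemannRochSpace (b • Y0₁), ∀ y₂ ∈ riemannRochSpace (b • Y0₂),
        (∀ i, valueAt (Q i) (hdegk (Q i)) y₂ = valueAt (P i) (hdegk (P i)) y₁) →
        ∃ b' : ℕ, ∃ f ∈ riemannRochSpace (b' • E2),
          (∀ i, gpVal A (q * M) (atkinLehnerBar q M h') i f ≤ 1) ∧
            gpRed A (q * M) (atkinLehnerBar q M h') f =
              fibreIncl (IsLocalRing.ResidueField A) M (y₁, y₂))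

/-- The S35 chart / node package contains the S34 one. -/
theorem stmt_ChartNodes_of_chartNodesFrob {q M : ℕ} [NeZero q] [NeZero M]
    (h' : Nat.Coprime q M) (A : ValuationSubring Qb) (hC : Stmt_ChartNodesFrob q M h' A) :
    Stmt_ChartNodes q M h' A := by
  intro hdegk
  obtain ⟨x, x₁, x₂, I, iI, P, Q, hxtr, hxfin, hxgal, hxv, hx₁tr, hx₁fin, hx₂tr, hx₂fin, hredx,
    hP, hQ, hPx, hQx, -, -, -, hpack⟩ := hC hdegk
  exact ⟨x, x₁, x₂, I, iI, P, Q, hxtr, hxfin, fun τ _ => hxgal τ, hxv, hx₁tr, hx₁fin, hx₂tr,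
    hx₂fin, hredx, hP, hQ, hPx, hQx, hpack⟩

/-- **The package `Stmt_NodalFrobAt` at the level `q * M` from the chart / node package of S35**,
for every modulus `n ≠ 0`. -/
theorem stmt_NodalFrobAt_of_chartNodesFrob {q M : ℕ} [NeZero q] [NeZero M]
    (h' : Nat.Coprime q M) (hq : q.Prime) (A : ValuationSubring Qb) (hA : A.LiesOverPrime q)
    (hC : Stmt_ChartNodesFrob q M h' A) (n : ℕ) (hn : n ≠ 0) : Stmt_NodalFrobAt q M h' A n := by
  classical
  have hqM : ¬ q ∣ M := (Nat.Prime.coprime_iff_not_dvd hq).mp h'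
  haveI : NeZero (q * M) := ⟨mul_ne_zero hq.ne_zero (NeZero.ne M)⟩
  haveI := Fermat.Agent.Lib.helper6879.isAlgClosed_residueField A
  haveI : CharP (IsLocalRing.ResidueField A) q :=
    Fermat.Agent.Lib.helper6879.charP_residueField hq A hA
  haveI : ExpChar (IsLocalRing.ResidueField A) q := ExpChar.prime hq
  have hNk := Fermat.Agent.S18.helper4307.natCast_ne_zero_residue M hq hqM A hA
  have hdegk := Fermat.Agent.S18.helper4307.place_deg_eq_one_fullC (IsLocalRing.ResidueField A) M hNk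
  obtain ⟨x, x₁, x₂, I, _, P, Q, hxtr, hxfin, hxgal, hxv, hx₁tr, hx₁fin, hx₂tr, hx₂fin, hredx,
    hP, hQ, hPx, hQx, hx₂pow, hx₁Fq, hFROB, hpack⟩ := hC hdegk
  obtain ⟨E2, E1, hE2f, hE1f, hE2nn, hE1nn, hdisj, hxord, -, hdegE1⟩ :=
    Fermat.Agent.S18.helper4307.exists_zero_pole_divisors x hxtr
  obtain ⟨Y0₁, Yinf₁, hY0₁f, hYinf₁f, hY0₁nn, hYinf₁nn, hdisj₁, hx₁ord, hdY0₁, hdYinf₁⟩ :=
    Fermat.Agent.S18.helper4307.exists_zero_pole_divisors x₁ hx₁tr
  obtain ⟨Y0₂, Yinf₂, hY0₂f, hYinf₂f, hY0₂nn, hYinf₂nn, hdisj₂, hx₂ord, hdY0₂, hdYinf₂⟩ :=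
    Fermat.Agent.S18.helper4307.exists_zero_pole_divisors x₂ hx₂tr
  obtain ⟨hRR, hnode, hK1, hK2⟩ := hpack E1 E2 Yinf₁ Y0₁ Yinf₂ Y0₂ hE1f hE2f hYinf₁f hY0₁f
    hYinf₂f hY0₂f
  have hx0 : x ≠ 0 := fun h0 => hxtr (h0 ▸ isAlgebraic_zero)
  have hx₁0 : x₁ ≠ 0 := fun h0 => hx₁tr (h0 ▸ isAlgebraic_zero)
  have hx₂0 : x₂ ≠ 0 := fun h0 => hx₂tr (h0 ▸ isAlgebraic_zero)
  have hPY : ∀ i, Yinf₁ (P i) = 0 ∧ Y0₁ (P i) = 0 := fun i => by
    rw [hYinf₁f, hY0₁f, hPx i]; simp
  have hQY : ∀ i, Yinf₂ (Q i) = 0 ∧ Y0₂ (Q i) = 0 := fun i => by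
    rw [hYinf₂f, hY0₂f, hQx i]; simp
  have hstab : ∀ (g : GQ) (w : Place Qb (modularFunctionFieldBar (q * M))),
      (arithmeticGalois (modularFunctionFieldFull (q * M)) g • w).ord x = w.ord x := by
    intro g w
    have h := SemilinearAut.ord_smul (arithmeticGalois (modularFunctionFieldFull (q * M)) g) w x
    rwa [hxgal g] at h
  have hcont := Fermat.Agent.S35.helper603.hcont_of_chart
    (gpVal A (q * M) (atkinLehnerBar q M h')) (gpBase A (q * M))
    (Fermat.Agent.S35.helper882.gpRedData A (q * M) (atkinLehnerBar q M h'))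
    (fibreIncl (IsLocalRing.ResidueField A) M) P Q (fun i => hdegk (P i)) (fun i => hdegk (Q i))
    Yinf₁ Y0₁ Yinf₂ Y0₂ hY0₁nn hY0₂nn hPY hQY E1 E2 hE2nn x hx0 hxord hxv x₁ x₂ hx₁0 hx₂0 hredx
    hx₁ord hx₂ord hRR hnode
  have hd₁ : 0 < Module.finrank (IntermediateField.adjoin (IsLocalRing.ResidueField A) {x₁})
      ↥(modularFunctionFieldFullC (IsLocalRing.ResidueField A) M) := Module.finrank_pos
  have hd₂ : 0 < Module.finrank (IntermediateField.adjoin (IsLocalRing.ResidueField A) {x₂})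
      ↥(modularFunctionFieldFullC (IsLocalRing.ResidueField A) M) := Module.finrank_pos
  have hdE1 : 0 < Divisor.degree E1 := by
    rw [hdegE1]
    exact_mod_cast (Module.finrank_pos :
      0 < Module.finrank (IntermediateField.adjoin Qb {x}) (modularFunctionFieldBar (q * M)))
  -- the Frobenius input `hΘT`
  have hfrob₁ : coeffMap (frobenius (IsLocalRing.ResidueField A) q)
      (x₁ : LaurentSeries (IsLocalRing.ResidueField A)) =
      (x₁ : LaurentSeries (IsLocalRing.ResidueField A)) := by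
    ext m
    rw [coeffMap_coeff, frobenius_def]
    exact hx₁Fq m
  have hsq₁ : coeffMap ((frobenius (IsLocalRing.ResidueField A) q).comp
      (frobenius (IsLocalRing.ResidueField A) q))
      (x₁ : LaurentSeries (IsLocalRing.ResidueField A)) =
      (x₁ : LaurentSeries (IsLocalRing.ResidueField A)) := by
    rw [← coeffMap_coeffMap, hfrob₁, hfrob₁]
  have hsq₂ : coeffMap ((frobenius (IsLocalRing.ResidueField A) q).comp
      (frobenius (IsLocalRing.ResidueField A) q))
      (x₂ : LaurentSeries (IsLocalRing.ResidueField A)) =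
      (x₂ : LaurentSeries (IsLocalRing.ResidueField A)) := by
    rw [hx₂pow]
    show coeffMap _ ((x₁ : LaurentSeries (IsLocalRing.ResidueField A)) ^ q) = _
    rw [map_pow, hsq₁]
    rfl
  have hPx' : ∀ i, (P i).adicValuation x₁ ≤ 1 := fun i => by
    rw [Place.adicValuation_le_one_iff]
    exact Or.inr (hPx i).ge
  have hQx' : ∀ i, (Q i).adicValuation x₁ ≤ 1 := fun i => by
    rw [Place.adicValuation_le_one_iff]
    right
    have h := hQx i
    rw [hx₂pow, ← zpow_natCast, Place.ord_zpow] at h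
    have hq0 : (q : ℤ) ≠ 0 := by exact_mod_cast hq.ne_zero
    rcases mul_eq_zero.mp h with h | h
    · exact absurd h hq0
    · exact h.ge
  have hΘT := Fermat.Agent.S35.helper2195.hThetaT_of_frob M q x₁ hx₁tr hfrob₁ P Q
    (fun i => hdegk (P i)) (fun i => hdegk (Q i)) hPx' hQx' hFROB hsq₁ hsq₂
    hYinf₁nn hY0₁nn hYinf₂nn hY0₂nn hdisj₁ hdisj₂ hx₁ord hx₂ord
  exact stmt_NodalFrobAt_of_components h' hq A hA hdegk P Q hP hQ Yinf₁ Y0₁ Yinf₂ Y0₂ hYinf₁nn
    hY0₁nn hYinf₂nn hY0₂nn hdisj₁ hdisj₂ _ _ hd₁ hd₂ hdYinf₁ hdY0₁ hdYinf₂ hdY0₂ hPY hQY E1 E2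
    hE1nn hE2nn hdE1 hdisj
    (fun g w hw => by rw [hE1f, hstab g w, ← hE1f]; exact hw)
    (fun g w hw => by rw [hE2f, hstab g w, ← hE2f]; exact hw)
    x hx0 hxord hxv x₁ x₂ hredx hx₁ord hx₂ord hcont hK1 hK2
    ((frobenius (IsLocalRing.ResidueField A) q).comp (frobenius (IsLocalRing.ResidueField A) q))
    (fun c => Fermat.Agent.S35.helper2195.frobSq_apply' q c) hΘT n hn

/-- The chart / node package of S35 at all auxiliary levels. -/
def Stmt_ChartNodesFrobGeom : Prop :=
  ∀ (q M r : ℕ) [NeZero q] [NeZero M] (h' : Nat.Coprime q M), q.Prime →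
    (r = 2 ∨ r = 3) → r ≠ q → r ∣ M →
    ∀ A : ValuationSubring Qb, A.LiesOverPrime q → Stmt_ChartNodesFrob q M h' A

/-- **The geometric leaf `Stmt_NodalFrobGeom` of S35 from the chart / node package** at the
levels `q * M` with `r ∣ M`, `r ∈ {2, 3}`, `r ≠ q`. -/
theorem stmt_NodalFrobGeom_of_chartNodesFrob (hC : Stmt_ChartNodesFrobGeom) :
    Stmt_NodalFrobGeom :=
  fun q M r _ _ h' hq hr hrq hrM lam hlam _ k A hA =>
    stmt_NodalFrobAt_of_chartNodesFrob h' hq A hA (hC q M r h' hq hr hrq hrM A hA) (lam ^ k)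
      (pow_ne_zero k hlam.ne_zero)

end

end Fermat.Agent.S35.helper2039
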