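/-
S35 / S34 geometry module (route #2739, step (2)(b)): the Frobenius fixed-point ideal.
Leaf S35-NODES (N4) (helper1549).  Mathlib only.

`k` a field of characteristic `p`, `B` a commutative `k`-algebra, `J` an ideal of `B` such that
every element of `B` is a `p`-th power modulo `J` (e.g. `J` generated by all `u - Φ u`, `Φ` a
Frobenius-type endomorphism whose values are `p`-th powers; or by all `θ u - u ^ N`, `θ`
surjective, `p ∣ N`).  Then `Ω_{(B/J)/k} = 0`, so as soon as `B ⧸ J` is (essentially) of finite
type over `k` -- in particular if `B` is of finite type, or if `B ⧸ J` is finite-dimensional --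
`J` is the radical ideal of finitely many `k`-points (`k` separably closed).

The finiteness of `B ⧸ J` does NOT need finite generation of `B`:
`finite_quotient_of_filtration` derives it from an exhaustive filtration of `B` by
finite-dimensional subspaces with linear growth (Riemann–Roch spaces `L(n E)`).
-/
import Mathlib

set_option autoImplicit false

namespace Fermat.Agent.S35.helper1549

open Module

section FixedPoints

universe u v

variable (p : ℕ) {k : Type*} [Field k] [CharP k p]
  {B : Type u} [CommRing B] [Algebra k B]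

/-- If every element of `B` is a `p`-th power modulo `J` (characteristic `p`), then `B ⧸ J`
is formally unramified over `k`: its module of differentials vanishes. -/
theorem formallyUnramified_quotient_of_pow (J : Ideal B)
    (hJ : ∀ b : B, ∃ w : B, b - w ^ p ∈ J) : Algebra.FormallyUnramified k (B ⧸ J) := by
  rw [Algebra.formallyUnramified_iff]
  have hp0 : (p : B ⧸ J) = 0 := by
    rw [← map_natCast (algebraMap k (B ⧸ J)) p, CharP.cast_eq_zero k p, map_zero]
  have hD : ∀ c : B ⧸ J, KaehlerDifferential.D k (B ⧸ J) c = 0 := by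
    intro c
    obtain ⟨b, rfl⟩ := Ideal.Quotient.mk_surjective c
    obtain ⟨w, hw⟩ := hJ b
    have e : (Ideal.Quotient.mk J b) = (Ideal.Quotient.mk J w) ^ p := by
      rw [← map_pow, Ideal.Quotient.eq]
      exact hw
    rw [e, Derivation.leibniz_pow, ← Nat.cast_smul_eq_nsmul (B ⧸ J), hp0, zero_smul]
  have htop : (⊤ : Submodule (B ⧸ J) (Ω[(B ⧸ J)⁄k])) = ⊥ := by
    rw [← KaehlerDifferential.span_range_derivation, Submodule.span_eq_bot]
    rintro _ ⟨c, rfl⟩
    exact hD c
  exact (Submodule.subsingleton_iff (B ⧸ J)).mp (subsingleton_of_bot_eq_top htop.symm)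

/-- **(N4) Fixed-point ideal, finiteness.**  Let `k` be a field of characteristic `p` and `J`
an ideal of the `k`-algebra `B` with `B ⧸ J` essentially of finite type (automatic if `B` is
of finite type, or if `B ⧸ J` is finite-dimensional).  If every element of `B` is a `p`-th
power modulo `J` (e.g. `J` is generated by all `u - Φ u` for a Frobenius-type endomorphism `Φ`
whose values are `p`-th powers), then the set of `k`-points killing `J` is finite. -/
theorem finite_points_of_pow (J : Ideal B) [Algebra.EssFiniteType k (B ⧸ J)]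
    (hJ : ∀ b : B, ∃ w : B, b - w ^ p ∈ J) :
    Set.Finite {P : B →ₐ[k] k | ∀ b ∈ J, P b = 0} := by
  have hU : Algebra.FormallyUnramified k (B ⧸ J) := formallyUnramified_quotient_of_pow p J hJ
  have hfin : Module.Finite k (B ⧸ J) := Algebra.FormallyUnramified.finite_of_free k (B ⧸ J)
  have hF : Finite ((B ⧸ J) →ₐ[k] k) := Finite.algHom k (B ⧸ J) k
  rw [← Set.finite_coe_iff]
  refine Finite.of_injective
    (fun P : {P : B →ₐ[k] k | ∀ b ∈ J, P b = 0} => Ideal.Quotient.liftₐ J P.1 P.2) ?_
  intro P P' h
  refine Subtype.ext (AlgHom.ext fun b => ?_)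
  exact DFunLike.congr_fun h (Ideal.Quotient.mk J b)

/-- **(N4) Fixed-point ideal, radicality.**  In the situation of `finite_points_of_pow`, with
`k` separably closed: `J` is the common kernel of the `k`-points killing it. -/
theorem mem_of_forall_point_eq_zero [IsSepClosed k] (J : Ideal B)
    [Algebra.EssFiniteType k (B ⧸ J)] (hJ : ∀ b : B, ∃ w : B, b - w ^ p ∈ J)
    {b : B} (hb : ∀ P : B →ₐ[k] k, (∀ b' ∈ J, P b' = 0) → P b = 0) : b ∈ J := by
  have hU : Algebra.FormallyUnramified k (B ⧸ J) := formallyUnramified_quotient_of_pow p J hJ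
  have hE : Algebra.FormallyEtale k (B ⧸ J) :=
    Algebra.FormallyEtale.of_formallyUnramified_of_field k (B ⧸ J)
  let e := Algebra.FormallyEtale.equivPiOfIsSepClosed k (B ⧸ J)
  have h0 : e (Ideal.Quotient.mk J b) = 0 := by
    funext i
    let P : B →ₐ[k] k :=
      ((Pi.evalAlgHom k (fun _ : PrimeSpectrum (B ⧸ J) => k) i).comp e.toAlgHom).comp
        (Ideal.Quotient.mkₐ k J)
    have hP : ∀ b' ∈ J, P b' = 0 := by
      intro b' hb'
      have h1 : Ideal.Quotient.mk J b' = 0 := Ideal.Quotient.eq_zero_iff_mem.mpr hb'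
      simp [P, h1]
    have := hb P hP
    simpa [P] using this
  have h1 : Ideal.Quotient.mk J b = 0 := by
    have := e.injective (h0.trans (map_zero e).symm)
    exact this
  exact Ideal.Quotient.eq_zero_iff_mem.mp h1

/-- In the situation of (N4), `B ⧸ J` is a finite-dimensional `k`-vector space. -/
theorem finite_quotient_of_pow (J : Ideal B) [Algebra.EssFiniteType k (B ⧸ J)]
    (hJ : ∀ b : B, ∃ w : B, b - w ^ p ∈ J) : Module.Finite k (B ⧸ J) :=
  have : Algebra.FormallyUnramified k (B ⧸ J) := formallyUnramified_quotient_of_pow p J hJ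
  Algebra.FormallyUnramified.finite_of_free k (B ⧸ J)

/-- In the situation of (N4), `J` is a radical ideal. -/
theorem isRadical_of_pow (J : Ideal B) [Algebra.EssFiniteType k (B ⧸ J)]
    (hJ : ∀ b : B, ∃ w : B, b - w ^ p ∈ J) : J.IsRadical := by
  have hU : Algebra.FormallyUnramified k (B ⧸ J) := formallyUnramified_quotient_of_pow p J hJ
  have hred : IsReduced (B ⧸ J) := Algebra.FormallyUnramified.isReduced_of_field k (B ⧸ J)
  exact (Ideal.isRadical_iff_quotient_reduced J).mpr hred

/-- The fixed-point ideal of an endomorphism `Φ` whose values are `p`-th powers satisfies the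
hypothesis of (N4). -/
theorem exists_sub_pow_mem_span_sub (Φ : B → B) (hΦ : ∀ u : B, ∃ v : B, Φ u = v ^ p) (b : B) :
    ∃ w : B, b - w ^ p ∈ Ideal.span (Set.range fun u : B => u - Φ u) := by
  obtain ⟨v, hv⟩ := hΦ b
  exact ⟨v, hv ▸ Ideal.subset_span ⟨b, rfl⟩⟩

/-- The Frobenius ideal of a ring endomorphism `θ` (in the application: the coefficientwise
action of `σ²`) and an exponent `N` (`= q²`): generated by all `θ u - u ^ N`. -/
def frobIdeal (θ : B →+* B) (N : ℕ) : Ideal B :=
  Ideal.span (Set.range fun u : B => θ u - u ^ N)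

/-- The `θ`-rational points: `k`-points `P` with `P (θ u) = P u ^ N`. -/
def frobPoints (k : Type*) [Field k] [Algebra k B] (θ : B →+* B) (N : ℕ) : Set (B →ₐ[k] k) :=
  {P | ∀ u : B, P (θ u) = P u ^ N}

omit [CharP k p] in
theorem mem_frobPoints {θ : B →+* B} {N : ℕ} {P : B →ₐ[k] k} :
    P ∈ frobPoints k θ N ↔ ∀ u : B, P (θ u) = P u ^ N := Iff.rfl

theorem sub_pow_mem_frobIdeal (θ : B →+* B) (N : ℕ) (u : B) : θ u - u ^ N ∈ frobIdeal θ N :=
  Ideal.subset_span ⟨u, rfl⟩

omit [CharP k p] in
/-- A `k`-point kills the Frobenius ideal iff it is `θ`-rational. -/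
theorem forall_mem_frobIdeal_iff (θ : B →+* B) (N : ℕ) (P : B →ₐ[k] k) :
    (∀ b ∈ frobIdeal θ N, P b = 0) ↔ P ∈ frobPoints k θ N := by
  constructor
  · intro h u
    have h1 := h _ (sub_pow_mem_frobIdeal θ N u)
    rw [map_sub, map_pow, sub_eq_zero] at h1
    exact h1
  · intro h b hb
    have hle : frobIdeal θ N ≤ RingHom.ker (P : B →+* k) := by
      rw [frobIdeal, Ideal.span_le]
      rintro _ ⟨u, rfl⟩
      rw [SetLike.mem_coe, RingHom.mem_ker]
      change P (θ u - u ^ N) = 0
      rw [map_sub, map_pow, h u, sub_self]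
    exact hle hb

/-- Modulo the Frobenius ideal of a surjective `θ`, every element is a `p`-th power
(`p ∣ N`). -/
theorem exists_sub_pow_mem_frobIdeal {θ : B →+* B} (hθ : Function.Surjective θ) {N : ℕ}
    (hN : p ∣ N) (b : B) : ∃ w : B, b - w ^ p ∈ frobIdeal θ N := by
  obtain ⟨u, rfl⟩ := hθ b
  obtain ⟨m, rfl⟩ := hN
  refine ⟨u ^ m, ?_⟩
  rw [← pow_mul, mul_comm m p]
  exact sub_pow_mem_frobIdeal θ (p * m) u

/-- **(N4), Frobenius form: finiteness.**  There are finitely many `θ`-rational points. -/
theorem finite_frobPoints {θ : B →+* B} (hθ : Function.Surjective θ) {N : ℕ} (hN : p ∣ N)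
    [Algebra.EssFiniteType k (B ⧸ frobIdeal θ N)] : (frobPoints k θ N).Finite := by
  have h := finite_points_of_pow (k := k) p (frobIdeal θ N)
    (exists_sub_pow_mem_frobIdeal p hθ hN)
  refine h.subset fun P hP => ?_
  exact (forall_mem_frobIdeal_iff θ N P).mpr hP

/-- **(N4), Frobenius form: radicality.**  An element vanishing at all `θ`-rational points lies
in the Frobenius ideal (`k` separably closed of characteristic `p ∣ N`, `θ` surjective). -/
theorem mem_frobIdeal_of_forall [IsSepClosed k] {θ : B →+* B} (hθ : Function.Surjective θ)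
    {N : ℕ} (hN : p ∣ N) [Algebra.EssFiniteType k (B ⧸ frobIdeal θ N)] {b : B}
    (hb : ∀ P ∈ frobPoints k θ N, P b = 0) : b ∈ frobIdeal θ N :=
  mem_of_forall_point_eq_zero p (frobIdeal θ N) (exists_sub_pow_mem_frobIdeal p hθ hN)
    fun P hP => hb P ((forall_mem_frobIdeal_iff θ N P).mp hP)

end FixedPoints

section Filtration

variable {k : Type*} [Field k] {B : Type*} [CommRing B] [Algebra k B]

/-- **Finiteness criterion** (replaces "`B` is of finite type" in (N4)).  Let `B` be a
`k`-algebra with an exhaustive increasing filtration by finite-dimensional subspaces `L n`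
(Riemann–Roch spaces `L(n E)` of an affine curve), and `J` an ideal containing a
non-zero-divisor `g` with `g · L n ⊆ L (n + e)`.  If `dim L (n + e) ≤ dim L n + D` for all
`n ≥ n₁` then `B ⧸ J` is finite-dimensional, of dimension at most `D`. -/
theorem finite_quotient_of_filtration (J : Ideal B) (L : ℕ → Submodule k B)
    (hmono : Monotone L) (hex : ∀ b : B, ∃ n, b ∈ L n) [∀ n, Module.Finite k (L n)]
    (g : B) (hgJ : g ∈ J) (hg : ∀ b : B, g * b = 0 → b = 0) (e D n₁ : ℕ)
    (hgL : ∀ n, ∀ b ∈ L n, g * b ∈ L (n + e))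
    (hdim : ∀ n, n₁ ≤ n → Module.finrank k (L (n + e)) ≤ Module.finrank k (L n) + D) :
    Module.Finite k (B ⧸ J) ∧ Module.finrank k (B ⧸ J) ≤ D := by
  classical
  let q : B →ₗ[k] (B ⧸ J) := (Ideal.Quotient.mkₐ k J).toLinearMap
  have hq : ∀ b, q b = Ideal.Quotient.mk J b := fun b => rfl
  let C : ℕ → Submodule k (B ⧸ J) := fun n => (L n).map q
  have hCfin : ∀ n, Module.Finite k (C n) := fun n => by
    rw [Module.Finite.iff_fg]
    exact ((Module.Finite.iff_fg).mp inferInstance).map q
  have hCmono : Monotone C := fun m n h => Submodule.map_mono (hmono h)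
  -- the bound
  have hCle : ∀ n, n₁ ≤ n → Module.finrank k (C (n + e)) ≤ D := by
    intro n hn
    let f : L (n + e) →ₗ[k] (B ⧸ J) := q ∘ₗ (L (n + e)).subtype
    have hrange : LinearMap.range f = C (n + e) := by
      simp only [f, C, LinearMap.range_comp, Submodule.range_subtype]
    let ι : L n →ₗ[k] LinearMap.ker f :=
      { toFun := fun b => ⟨⟨g * b.1, hgL n b.1 b.2⟩, by
          rw [LinearMap.mem_ker]
          change q (g * b.1) = 0
          rw [hq]
          exact Ideal.Quotient.eq_zero_iff_mem.mpr (J.mul_mem_right _ hgJ)⟩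
        map_add' := fun a b => by
          apply Subtype.ext; apply Subtype.ext
          simp [mul_add]
        map_smul' := fun c b => by
          apply Subtype.ext; apply Subtype.ext
          simp }
    have hι : Function.Injective ι := by
      intro a b hab
      have h1 : g * a.1 = g * b.1 := congrArg (fun z : LinearMap.ker f => (z.1.1 : B)) hab
      have h2 : g * (a.1 - b.1) = 0 := by rw [mul_sub, h1, sub_self]
      exact Subtype.ext (sub_eq_zero.mp (hg _ h2))
    have h1 : Module.finrank k (L n) ≤ Module.finrank k (LinearMap.ker f) :=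
      LinearMap.finrank_le_finrank_of_injective hι
    have h2 := LinearMap.finrank_range_add_finrank_ker f
    have h3 := hdim n hn
    rw [hrange] at h2
    omega
  -- a step where the dimension is maximal
  let φ : ℕ → ℕ := fun m => Module.finrank k (C (m + n₁ + e))
  have hbdd : BddAbove (Set.range φ) :=
    ⟨D, by rintro _ ⟨m, rfl⟩; exact hCle (m + n₁) (Nat.le_add_left _ _)⟩
  obtain ⟨m₀, hm₀⟩ : ∃ m₀, φ m₀ = sSup (Set.range φ) :=
    Nat.sSup_mem (Set.range_nonempty φ) hbdd
  have hmax : ∀ m, φ m ≤ φ m₀ := fun m => by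
    rw [hm₀]
    exact le_csSup hbdd ⟨m, rfl⟩
  have htop : C (m₀ + n₁ + e) = ⊤ := by
    rw [eq_top_iff]
    rintro y -
    obtain ⟨b, rfl⟩ := Ideal.Quotient.mk_surjective y
    obtain ⟨n, hn⟩ := hex b
    have hle : C (m₀ + n₁ + e) ≤ C (max n m₀ + n₁ + e) := hCmono (by omega)
    have heq : C (m₀ + n₁ + e) = C (max n m₀ + n₁ + e) :=
      Submodule.eq_of_le_of_finrank_le hle (hmax (max n m₀))
    rw [heq]
    exact ⟨b, hmono (by omega : n ≤ max n m₀ + n₁ + e) hn, rfl⟩
  have hfin : Module.Finite k (B ⧸ J) := by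
    rw [Module.finite_def, ← htop]
    exact (Module.Finite.iff_fg).mp (hCfin _)
  refine ⟨hfin, ?_⟩
  have h1 := hCle (m₀ + n₁) (Nat.le_add_left _ _)
  rw [htop, finrank_top] at h1
  exact h1

/-- The same criterion for a subalgebra `B` of an ambient `k`-algebra `A` (the residue function
field) which is the union of an increasing chain of finite-dimensional subspaces `L n ⊆ A`
(the Riemann–Roch spaces). -/
theorem finite_quotient_of_filtration_subalgebra {A : Type*} [CommRing A] [Algebra k A]
    (B : Subalgebra k A) (J : Ideal B) (L : ℕ → Submodule k A) (hmono : Monotone L)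
    (hLB : ∀ n, L n ≤ Subalgebra.toSubmodule B) (hex : ∀ b ∈ B, ∃ n, b ∈ L n)
    [∀ n, Module.Finite k (L n)]
    (g : B) (hgJ : g ∈ J) (hg : ∀ a ∈ B, (g : A) * a = 0 → a = 0) (e D n₁ : ℕ)
    (hgL : ∀ n, ∀ b ∈ L n, (g : A) * b ∈ L (n + e))
    (hdim : ∀ n, n₁ ≤ n → Module.finrank k (L (n + e)) ≤ Module.finrank k (L n) + D) :
    Module.Finite k (B ⧸ J) ∧ Module.finrank k (B ⧸ J) ≤ D := by
  let L' : ℕ → Submodule k B := fun n => (L n).comap B.val.toLinearMap
  have hmem : ∀ n (x : B), x ∈ L' n ↔ (x : A) ∈ L n := fun n x => Iff.rfl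
  let E : ∀ n, L' n ≃ₗ[k] L n := fun n =>
    { toFun := fun x => ⟨(x.1 : A), x.2⟩
      invFun := fun y => ⟨⟨y.1, hLB n y.2⟩, y.2⟩
      left_inv := fun x => rfl
      right_inv := fun y => rfl
      map_add' := fun x y => rfl
      map_smul' := fun c x => rfl }
  have hfin : ∀ n, Module.Finite k (L' n) := fun n => Module.Finite.equiv (E n).symm
  have hrank : ∀ n, Module.finrank k (L' n) = Module.finrank k (L n) := fun n =>
    LinearEquiv.finrank_eq (E n)
  refine finite_quotient_of_filtration J L' (fun m n h x hx => hmono h hx)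
    (fun b => hex b.1 b.2) g hgJ (fun b hb => ?_) e D n₁ (fun n b hb => hgL n b.1 hb)
    (fun n hn => ?_)
  · exact Subtype.ext (hg b.1 b.2 (congrArg Subtype.val hb))
  · rw [hrank, hrank]
    exact hdim n hn

end Filtration

section LinearBound

variable {k : Type*} [Field k] {B : Type*} [CommRing B] [Algebra k B]

/-- **Finiteness criterion, cofinal form.**  As `finite_quotient_of_filtration`, but the growth
bound `dim L (n + e) ≤ dim L n + D` is only required for arbitrarily large `n`. -/
theorem finite_quotient_of_filtration_cofinal (J : Ideal B) (L : ℕ → Submodule k B)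
    (hmono : Monotone L) (hex : ∀ b : B, ∃ n, b ∈ L n) [∀ n, Module.Finite k (L n)]
    (g : B) (hgJ : g ∈ J) (hg : ∀ b : B, g * b = 0 → b = 0) (e D : ℕ)
    (hgL : ∀ n, ∀ b ∈ L n, g * b ∈ L (n + e))
    (hdim : ∀ n₀, ∃ n, n₀ ≤ n ∧
      Module.finrank k (L (n + e)) ≤ Module.finrank k (L n) + D) :
    Module.Finite k (B ⧸ J) ∧ Module.finrank k (B ⧸ J) ≤ D := by
  classical
  let q : B →ₗ[k] (B ⧸ J) := (Ideal.Quotient.mkₐ k J).toLinearMap
  have hq : ∀ b, q b = Ideal.Quotient.mk J b := fun b => rfl
  let C : ℕ → Submodule k (B ⧸ J) := fun n => (L n).map q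
  have hCfin : ∀ n, Module.Finite k (C n) := fun n => by
    rw [Module.Finite.iff_fg]
    exact ((Module.Finite.iff_fg).mp inferInstance).map q
  have hCmono : Monotone C := fun m n h => Submodule.map_mono (hmono h)
  -- the bound at a good step
  have hCle : ∀ n, Module.finrank k (L (n + e)) ≤ Module.finrank k (L n) + D →
      Module.finrank k (C (n + e)) ≤ D := by
    intro n h3
    let f : L (n + e) →ₗ[k] (B ⧸ J) := q ∘ₗ (L (n + e)).subtype
    have hrange : LinearMap.range f = C (n + e) := by
      simp only [f, C, LinearMap.range_comp, Submodule.range_subtype]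
    let ι : L n →ₗ[k] LinearMap.ker f :=
      { toFun := fun b => ⟨⟨g * b.1, hgL n b.1 b.2⟩, by
          rw [LinearMap.mem_ker]
          change q (g * b.1) = 0
          rw [hq]
          exact Ideal.Quotient.eq_zero_iff_mem.mpr (J.mul_mem_right _ hgJ)⟩
        map_add' := fun a b => by
          apply Subtype.ext; apply Subtype.ext
          simp [mul_add]
        map_smul' := fun c b => by
          apply Subtype.ext; apply Subtype.ext
          simp }
    have hι : Function.Injective ι := by
      intro a b hab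
      have h1 : g * a.1 = g * b.1 := congrArg (fun z : LinearMap.ker f => (z.1.1 : B)) hab
      have h2 : g * (a.1 - b.1) = 0 := by rw [mul_sub, h1, sub_self]
      exact Subtype.ext (sub_eq_zero.mp (hg _ h2))
    have h1 : Module.finrank k (L n) ≤ Module.finrank k (LinearMap.ker f) :=
      LinearMap.finrank_le_finrank_of_injective hι
    have h2 := LinearMap.finrank_range_add_finrank_ker f
    rw [hrange] at h2
    omega
  -- hence at every step
  have hCle' : ∀ m, Module.finrank k (C m) ≤ D := by
    intro m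
    obtain ⟨n, hn, h3⟩ := hdim m
    have := hCfin (n + e)
    exact (Submodule.finrank_mono (hCmono (by omega : m ≤ n + e))).trans (hCle n h3)
  -- a step where the dimension is maximal
  let φ : ℕ → ℕ := fun m => Module.finrank k (C m)
  have hbdd : BddAbove (Set.range φ) := ⟨D, by rintro _ ⟨m, rfl⟩; exact hCle' m⟩
  obtain ⟨m₀, hm₀⟩ : ∃ m₀, φ m₀ = sSup (Set.range φ) :=
    Nat.sSup_mem (Set.range_nonempty φ) hbdd
  have hmax : ∀ m, φ m ≤ φ m₀ := fun m => by
    rw [hm₀]
    exact le_csSup hbdd ⟨m, rfl⟩
  have htop : C m₀ = ⊤ := by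
    rw [eq_top_iff]
    rintro y -
    obtain ⟨b, rfl⟩ := Ideal.Quotient.mk_surjective y
    obtain ⟨n, hn⟩ := hex b
    have hle : C m₀ ≤ C (max n m₀) := hCmono (le_max_right _ _)
    have := hCfin (max n m₀)
    have heq : C m₀ = C (max n m₀) :=
      Submodule.eq_of_le_of_finrank_le hle (hmax (max n m₀))
    rw [heq]
    exact ⟨b, hmono (le_max_left _ _) hn, rfl⟩
  have hfin : Module.Finite k (B ⧸ J) := by
    rw [Module.finite_def, ← htop]
    exact (Module.Finite.iff_fg).mp (hCfin _)
  refine ⟨hfin, ?_⟩
  have h1 := hCle' m₀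
  rw [htop, finrank_top] at h1
  exact h1

/-- **Finiteness from a linear upper bound alone.**  Let `B` be a `k`-algebra with an
exhaustive increasing filtration by finite-dimensional subspaces `L n` with
`dim L n ≤ d * n + c` for large `n` (no lower bound, no Riemann theorem, no genus), and `J` an
ideal containing a non-zero-divisor `g` with `g · L n ⊆ L (n + e)`.  Then `B ⧸ J` is
finite-dimensional, of dimension at most `d * e`. -/
theorem finite_quotient_of_linear_bound (J : Ideal B) (L : ℕ → Submodule k B)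
    (hmono : Monotone L) (hex : ∀ b : B, ∃ n, b ∈ L n) [∀ n, Module.Finite k (L n)]
    (g : B) (hgJ : g ∈ J) (hg : ∀ b : B, g * b = 0 → b = 0) (e : ℕ)
    (hgL : ∀ n, ∀ b ∈ L n, g * b ∈ L (n + e))
    (d c n₁ : ℕ) (hdim : ∀ n, n₁ ≤ n → Module.finrank k (L n) ≤ d * n + c) :
    Module.Finite k (B ⧸ J) ∧ Module.finrank k (B ⧸ J) ≤ d * e := by
  refine finite_quotient_of_filtration_cofinal J L hmono hex g hgJ hg e (d * e) hgL ?_
  intro n₀
  by_contra hcon
  push Not at hcon
  -- `finrank (L (n + e)) ≥ finrank (L n) + d * e + 1` for all `n ≥ n₀`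
  set N := max n₀ n₁ with hN
  have hstep : ∀ m : ℕ, m * (d * e + 1) ≤ Module.finrank k (L (N + m * e)) := by
    intro m
    induction m with
    | zero => simp
    | succ m ih =>
      have h1 := hcon (N + m * e) (by rw [hN]; exact (le_max_left _ _).trans (Nat.le_add_right _ _))
      have h2 : N + (m + 1) * e = N + m * e + e := by ring
      rw [h2]
      have h3 : (m + 1) * (d * e + 1) = m * (d * e + 1) + (d * e + 1) := by ring
      omega
  have h1 := hstep (d * N + c + 1)
  have h2 := hdim (N + (d * N + c + 1) * e)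
    (by rw [hN]; exact (le_max_right _ _).trans (Nat.le_add_right _ _))
  have h3 : d * (N + (d * N + c + 1) * e) + c < (d * N + c + 1) * (d * e + 1) := by
    have : (d * N + c + 1) * (d * e + 1) =
        d * (N + (d * N + c + 1) * e) + c + 1 := by ring
    omega
  omega

/-- The linear-bound criterion for a subalgebra `B` of an ambient `k`-algebra `A` (the residue
function field, or `k((q))`) contained in the union of a multiplicative increasing chain of
finite-dimensional subspaces `L n ⊆ A` with `dim L n ≤ d * n + c`.  Nothing is assumed about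
`L n ∩ B`. -/
theorem finite_quotient_of_linear_bound_subalgebra {A : Type*} [CommRing A] [Algebra k A]
    (B : Subalgebra k A) (L : ℕ → Submodule k A) (hmono : Monotone L)
    (hmul : ∀ m n, ∀ a ∈ L m, ∀ b ∈ L n, a * b ∈ L (m + n))
    (hex : ∀ b ∈ B, ∃ n, b ∈ L n) [∀ n, Module.Finite k (L n)]
    (d c n₁ : ℕ) (hdim : ∀ n, n₁ ≤ n → Module.finrank k (L n) ≤ d * n + c)
    (J : Ideal B) (g : B) (hgJ : g ∈ J) (hg : ∀ a ∈ B, (g : A) * a = 0 → a = 0) :
    Module.Finite k (B ⧸ J) ∧
      ∀ e, (g : A) ∈ L e → Module.finrank k (B ⧸ J) ≤ d * e := by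
  let L' : ℕ → Submodule k B := fun n => (L n).comap B.val.toLinearMap
  have hmem : ∀ n (x : B), x ∈ L' n ↔ (x : A) ∈ L n := fun n x => Iff.rfl
  let E : ∀ n, L' n →ₗ[k] L n := fun n =>
    { toFun := fun x => ⟨(x.1 : A), x.2⟩
      map_add' := fun x y => rfl
      map_smul' := fun c x => rfl }
  have hE : ∀ n, Function.Injective (E n) := fun n x y h =>
    Subtype.ext (Subtype.ext (congrArg (fun z : L n => (z : A)) h))
  have hfin : ∀ n, Module.Finite k (L' n) := fun n => Module.Finite.of_injective (E n) (hE n)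
  have hrank : ∀ n, Module.finrank k (L' n) ≤ Module.finrank k (L n) := fun n =>
    LinearMap.finrank_le_finrank_of_injective (hE n)
  have key : ∀ e, (g : A) ∈ L e →
      Module.Finite k (B ⧸ J) ∧ Module.finrank k (B ⧸ J) ≤ d * e := by
    intro e he
    refine finite_quotient_of_linear_bound J L' (fun m n h x hx => hmono h hx)
      (fun b => hex b.1 b.2) g hgJ (fun b hb => ?_) e (fun n b hb => ?_) d c n₁
      (fun n hn => (hrank n).trans (hdim n hn))
    · exact Subtype.ext (hg b.1 b.2 (congrArg Subtype.val hb))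
    · rw [hmem, Nat.add_comm]
      exact hmul e n _ he _ hb
  obtain ⟨e, he⟩ := hex g.1 g.2
  exact ⟨(key e he).1, fun e he => (key e he).2⟩

/-- Domain form: in a subalgebra of a domain every non-zero ideal has finite-dimensional
quotient, as soon as the subalgebra is exhausted by a multiplicative filtration of linear
growth. -/
theorem finite_quotient_of_linear_bound_domain {A : Type*} [CommRing A] [IsDomain A]
    [Algebra k A]
    (B : Subalgebra k A) (L : ℕ → Submodule k A) (hmono : Monotone L)
    (hmul : ∀ m n, ∀ a ∈ L m, ∀ b ∈ L n, a * b ∈ L (m + n))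
    (hex : ∀ b ∈ B, ∃ n, b ∈ L n) [∀ n, Module.Finite k (L n)]
    (d c n₁ : ℕ) (hdim : ∀ n, n₁ ≤ n → Module.finrank k (L n) ≤ d * n + c)
    (J : Ideal B) (hJ : J ≠ ⊥) : Module.Finite k (B ⧸ J) := by
  obtain ⟨g, hgJ, hg0⟩ := Submodule.exists_mem_ne_zero_of_ne_bot hJ
  have hg0' : (g : A) ≠ 0 := fun h => hg0 (Subtype.ext h)
  exact (finite_quotient_of_linear_bound_subalgebra B L hmono hmul hex d c n₁ hdim J g hgJ
    (fun a _ h => (mul_eq_zero.mp h).resolve_left hg0')).1

end LinearBound

end Fermat.Agent.S35.helper1549
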