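/-
S35/S34-KRON, finiteness supply (helper1549): the hypothesis `hfin` of
`helper2736.kron_conductor_modular` on the special fibre, with NO finite-type statement about
the reduced chart ring, no separability, no Riemann theorem and no genus.

* Place vocabulary (`Fermat.Prelude` + landed `helper981_Riemann`): for a function field `F / K`
  with principal divisors and degree-one places, an effective divisor `Y`, and a subalgebra `B`
  of a domain `A ⊇ φ(F)` all of whose elements are images of functions regular off the support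
  of `Y`, every non-zero ideal of `B` has finite-dimensional quotient
  (`finite_quotient_of_regular_map`).  The filtration is `L(n • Y)`; only the elementary bound
  `l(n • Y) ≤ n deg Y + 1` is used (`helper1549.finite_quotient_of_linear_bound_domain`).
* Integral form: the same for a subalgebra all of whose elements are (images of) functions
  integral over `K[x]`, `x ≠ 0` (`finite_quotient_of_isIntegral_map`) — this is what integrality
  transfer gives for the reduction of a chart ring.
* Modular special fibre: `finite_quotient_fullC` for `modularFunctionFieldFullC k N ⊆ k((q))`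
  (landed place package `helper4307` / `helper265`), and the hypothesis `hfin` verbatim:
  `essFiniteType_fixedIdeal_fullC`.
-/
import Fermat.Agent.S35.helper1549_FixPoints
import Fermat.Agent.S35.helper2736_KronConductor
import Fermat.Agent.S18.helper6292_RedContain
import Fermat.Agent.S37.helper265_FkPlaces

set_option autoImplicit false

namespace Fermat.Agent.S35.helper1549

open AlgebraicCurve WithZero Module ModularCurve
open Fermat.Agent.S18

section Places

variable {K F : Type*} [Field K] [Field F] [Algebra K F]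

/-- The spaces `L(n • Y)` increase with `n` for an effective divisor `Y`. -/
theorem riemannRochSpace_nsmul_mono {Y : Divisor K F} (hY : 0 ≤ Y) :
    Monotone fun n : ℕ => riemannRochSpace (n • Y) := fun _ _ hmn =>
  helper981.riemannRochSpace_mono (nsmul_le_nsmul_left hY hmn)

/-- `L(D) · L(E) ⊆ L(D + E)`. -/
theorem mul_mem_riemannRochSpace_add {D E : Divisor K F} {f g : F}
    (hf : f ∈ riemannRochSpace D) (hg : g ∈ riemannRochSpace E) :
    f * g ∈ riemannRochSpace (D + E) := by
  intro v
  rw [map_mul, Finsupp.add_apply, exp_add]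
  exact mul_le_mul' (hf v) (hg v)

/-- A function regular off the support of an effective divisor `Y` lies in some `L(n • Y)`. -/
theorem exists_mem_riemannRochSpace_nsmul [HasPrincipalDivisors K F] {Y : Divisor K F}
    (hY : 0 ≤ Y) {f : F} (hf : ∀ v : Place K F, Y v = 0 → v.adicValuation f ≤ 1) :
    ∃ n : ℕ, f ∈ riemannRochSpace (n • Y) := by
  classical
  have hfin := helper981.finite_poles_of_ne_zero (K := K) (f := f)
  obtain ⟨n, hn⟩ : ∃ n : ℕ, ∀ v : Place K F, ¬ v.adicValuation f ≤ 1 → (-(v.ord f)).toNat ≤ n :=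
    ⟨hfin.toFinset.sup (fun v => (-(v.ord f)).toNat), fun v hv =>
      Finset.le_sup (f := fun v : Place K F => (-(v.ord f)).toNat)
        ((Set.Finite.mem_toFinset hfin).mpr hv)⟩
  refine ⟨n, fun v => ?_⟩
  have hY0 : 0 ≤ Y v := Finsupp.le_def.mp hY v
  have hn0 : (0 : ℤ) ≤ (n : ℤ) := Int.natCast_nonneg n
  by_cases hv : v.adicValuation f ≤ 1
  · refine hv.trans ?_
    rw [← exp_zero, exp_le_exp, Finsupp.smul_apply, nsmul_eq_mul]
    positivity
  · have h1 := hn v hv
    have hY1 : 1 ≤ Y v := by
      have hne : Y v ≠ 0 := fun h => hv (hf v h)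
      omega
    rw [v.adicValuation_le_exp_iff]
    right
    rw [Finsupp.smul_apply, nsmul_eq_mul]
    have h2 : -(v.ord f) ≤ (n : ℤ) := by
      have h3 : -(v.ord f) ≤ ((-(v.ord f)).toNat : ℤ) := Int.self_le_toNat _
      exact h3.trans (by exact_mod_cast h1)
    nlinarith

/-- The elementary linear bound `l(n • Y) ≤ n deg Y + 1`. -/
theorem finrank_riemannRochSpace_nsmul_le [HasPrincipalDivisors K F]
    (hdeg : ∀ v : Place K F, v.deg = 1) (P₀ : Place K F) {Y : Divisor K F} (hY : 0 ≤ Y)
    (n : ℕ) :
    finrank K (riemannRochSpace (n • Y)) ≤ (Divisor.degree Y).toNat * n + 1 := by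
  have h0 : 0 ≤ Divisor.degree Y := helper981.degree_nonneg hdeg hY
  have h1 : Divisor.degree (n • Y) = (n : ℤ) * Divisor.degree Y := by
    rw [map_nsmul, nsmul_eq_mul]
  have h2 : 0 ≤ Divisor.degree (n • Y) := by
    rw [h1]; positivity
  have h3 := helper981.finrank_le_degree_add_one hdeg P₀ h2
  rw [h1] at h3
  have h4 : ((Divisor.degree Y).toNat : ℤ) = Divisor.degree Y := Int.toNat_of_nonneg h0
  have h5 : ((finrank K (riemannRochSpace (n • Y)) : ℕ) : ℤ) ≤
      (((Divisor.degree Y).toNat * n + 1 : ℕ) : ℤ) := by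
    push_cast
    rw [h4]
    linarith
  exact_mod_cast h5

variable {A : Type*} [CommRing A] [IsDomain A] [Algebra K A]

/-- **Finiteness of quotients of an affine chart ring (place vocabulary).**  Let `F / K` be a
function field with principal divisors and degree-one places, `Y` an effective divisor,
`φ : F → A` a `K`-algebra map into a domain and `B` a subalgebra of `A` all of whose elements
are images of functions regular off the support of `Y`.  Then every non-zero ideal of `B` has
finite-dimensional quotient. -/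
theorem finite_quotient_of_regular_map [HasPrincipalDivisors K F]
    (hdeg : ∀ v : Place K F, v.deg = 1) (P₀ : Place K F) {Y : Divisor K F} (hY : 0 ≤ Y)
    (φ : F →ₐ[K] A) (B : Subalgebra K A)
    (hB : ∀ b ∈ B, ∃ f : F, φ f = b ∧ ∀ v : Place K F, Y v = 0 → v.adicValuation f ≤ 1)
    (J : Ideal B) (hJ : J ≠ ⊥) : Module.Finite K (B ⧸ J) := by
  have : ∀ n : ℕ, Module.Finite K (riemannRochSpace (n • Y)) := fun n =>
    helper981.finite_riemannRochSpace hdeg P₀ _
  let L : ℕ → Submodule K A := fun n => (riemannRochSpace (n • Y)).map φ.toLinearMap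
  have : ∀ n, Module.Finite K (L n) := fun n => by
    show Module.Finite K ((riemannRochSpace (n • Y)).map φ.toLinearMap)
    infer_instance
  refine finite_quotient_of_linear_bound_domain B L
    (fun m n h => Submodule.map_mono (riemannRochSpace_nsmul_mono hY h)) ?_ ?_
    (Divisor.degree Y).toNat 1 0 ?_ J hJ
  · rintro m n _ ⟨f, hf, rfl⟩ _ ⟨g, hg, rfl⟩
    refine ⟨f * g, ?_, map_mul φ f g⟩
    have := mul_mem_riemannRochSpace_add hf hg
    rwa [← add_nsmul] at this
  · intro b hb
    obtain ⟨f, rfl, hf⟩ := hB b hb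
    obtain ⟨n, hn⟩ := exists_mem_riemannRochSpace_nsmul hY hf
    exact ⟨n, f, hn, rfl⟩
  · intro n _
    exact (Submodule.finrank_map_le φ.toLinearMap _).trans
      (finrank_riemannRochSpace_nsmul_le hdeg P₀ hY n)

/-- The same for a subalgebra of the function field itself. -/
theorem finite_quotient_of_regular [HasPrincipalDivisors K F]
    (hdeg : ∀ v : Place K F, v.deg = 1) (P₀ : Place K F) {Y : Divisor K F} (hY : 0 ≤ Y)
    (B : Subalgebra K F)
    (hB : ∀ f ∈ B, ∀ v : Place K F, Y v = 0 → v.adicValuation f ≤ 1)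
    (J : Ideal B) (hJ : J ≠ ⊥) : Module.Finite K (B ⧸ J) :=
  finite_quotient_of_regular_map hdeg P₀ hY (AlgHom.id K F) B
    (fun b hb => ⟨b, rfl, hB b hb⟩) J hJ

/-- **Integral form.**  Let `x ≠ 0` be a function and `B` a subalgebra of a domain `A ⊇ φ(F)`
all of whose elements are images of functions integral over `K[x]` (e.g. the reduction of a
chart ring, by integrality transfer).  Then every non-zero ideal of `B` has finite-dimensional
quotient. -/
theorem finite_quotient_of_isIntegral_map [HasPrincipalDivisors K F]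
    (hdeg : ∀ v : Place K F, v.deg = 1) (P₀ : Place K F) {x : F} (hx : x ≠ 0)
    (φ : F →ₐ[K] A) (B : Subalgebra K A)
    (hB : ∀ b ∈ B, ∃ f : F, φ f = b ∧ IsIntegral (Algebra.adjoin K {x}) f)
    (J : Ideal B) (hJ : J ≠ ⊥) : Module.Finite K (B ⧸ J) := by
  obtain ⟨E, hE, -⟩ := HasPrincipalDivisors.exists_divisor (K := K) x hx
  let Y : Divisor K F := E.mapRange (fun n : ℤ => max 0 (-n)) (by simp)
  have hYv : ∀ v : Place K F, Y v = max 0 (-(v.ord x)) := fun v => by
    show (E.mapRange (fun n : ℤ => max 0 (-n)) (by simp)) v = _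
    rw [Finsupp.mapRange_apply, hE v]
  have hY : 0 ≤ Y := Finsupp.le_def.mpr fun v => by
    rw [hYv v]
    exact le_max_left _ _
  refine finite_quotient_of_regular_map hdeg P₀ hY φ B (fun b hb => ?_) J hJ
  obtain ⟨f, hf, hint⟩ := hB b hb
  refine ⟨f, hf, fun v hv => ?_⟩
  rw [hYv v] at hv
  have hxv : 0 ≤ v.ord x := by
    have := le_max_right 0 (-(v.ord x))
    omega
  rw [v.adicValuation_le_one_iff]
  exact Or.inr (helper6292.ord_nonneg_of_isIntegral_adjoin v hxv hint)

end Places

section FullC

variable (k : Type) [Field k] [IsAlgClosed k] (N : ℕ) [NeZero N]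

/-- **Special fibre of the modular curve.**  Every non-zero ideal of a `k`-subalgebra `B̄` of
`k((q))` consisting of elements of `F_{k,N}` integral over `k[x]` (`x ≠ 0` any function of the
special fibre, e.g. the reduction of the chart function) has finite-dimensional quotient.
Unconditional: any characteristic prime to `N`. -/
theorem finite_quotient_fullC (hNk : ∀ p : ℕ, p.Prime → p ∣ N → (p : k) ≠ 0)
    {x : modularFunctionFieldFullC k N} (hx : x ≠ 0) (Bbar : Subalgebra k (LaurentSeries k))
    (hB : ∀ u ∈ Bbar, ∃ f : modularFunctionFieldFullC k N,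
      (f : LaurentSeries k) = u ∧ IsIntegral (Algebra.adjoin k {x}) f)
    (J : Ideal Bbar) (hJ : J ≠ ⊥) : Module.Finite k (Bbar ⧸ J) := by
  have := helper4307.hasPrincipalDivisors_fullC k N hNk
  obtain ⟨P₀⟩ := Fermat.Agent.S37.helper265.nonempty_place_fullC k N hNk
  exact finite_quotient_of_isIntegral_map (helper4307.place_deg_eq_one_fullC k N hNk) P₀ hx
    (modularFunctionFieldFullC k N).val Bbar hB J hJ

end FullC

section QExpand

variable {R : Type*} [CommRing R]

/-- A Laurent series with a non-zero coefficient in degree `m ≠ 0` is not fixed by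
`t ↦ t ^ n`, `n ≥ 2`. -/
theorem qExpand_ne_self (n : ℕ) [NeZero n] (hn : 2 ≤ n) (u : LaurentSeries R) {m : ℤ}
    (hm : m ≠ 0) (hu : u.coeff m ≠ 0) : qExpand R n u ≠ u := by
  intro h
  have hn2 : (2 : ℤ) ≤ (n : ℤ) := by exact_mod_cast hn
  -- every exponent of `u` is divisible by `n`, with quotient again an exponent
  have key : ∀ a : ℤ, u.coeff a ≠ 0 → ∃ b : ℤ, a = n * b ∧ u.coeff b ≠ 0 := by
    intro a ha
    by_cases hd : (n : ℤ) ∣ a
    · obtain ⟨b, rfl⟩ := hd
      refine ⟨b, rfl, ?_⟩
      rw [← qExpand_coeff_mul n u b, h]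
      exact ha
    · exact absurd (by rw [← h]; exact qExpand_coeff_of_not_dvd n u hd) ha
  -- descent on `|a|`
  have hdesc : ∀ N : ℕ, ∀ a : ℤ, a ≠ 0 → a.natAbs ≤ N → u.coeff a = 0 := by
    intro N
    induction N with
    | zero =>
      intro a ha hN
      exact absurd (Int.natAbs_eq_zero.mp (Nat.le_zero.mp hN)) ha
    | succ N ih =>
      intro a ha hN
      by_contra hne
      obtain ⟨b, rfl, hb⟩ := key a hne
      have hb0 : b ≠ 0 := by
        rintro rfl
        simp at ha
      have hlt : b.natAbs < ((n : ℤ) * b).natAbs := by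
        rw [Int.natAbs_mul, Int.natAbs_natCast]
        have : 0 < b.natAbs := Int.natAbs_pos.mpr hb0
        nlinarith
      exact hb (ih b hb0 (by omega))
  exact hu (hdesc m.natAbs m hm le_rfl)

/-- A Laurent series which is not a constant has a non-zero coefficient in some degree
`m ≠ 0`. -/
theorem exists_coeff_ne_zero_of_ne_C (u : LaurentSeries R) (h : ∀ c : R, u ≠ HahnSeries.C c) :
    ∃ m : ℤ, m ≠ 0 ∧ u.coeff m ≠ 0 := by
  by_contra hcon
  push Not at hcon
  refine h (u.coeff 0) ?_
  ext n
  by_cases hn : n = 0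
  · subst hn
    simp
  · rw [hcon n hn, HahnSeries.C_apply, HahnSeries.coeff_single_of_ne hn]

end QExpand

section Kron

variable (k : Type) [Field k] [IsAlgClosed k] (N : ℕ) [NeZero N] (q : ℕ) [NeZero q]

/-- **The hypothesis `hfin` of `helper2736.kron_conductor_modular`, verbatim.**  For a reduced
chart ring `B̄ ⊆ k((q))` consisting of elements of the special fibre `F_{k,N}` integral over
`k[x]`, containing one non-constant series `u₀`, the quotient of `B̄` by the fixed-point ideal
of `F ∘ F` (`F : u(t) ↦ u(t ^ q)`, `q ≥ 2`) is finite-dimensional, in particular essentially of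
finite type. -/
theorem finite_fixedIdeal_fullC (hq : 2 ≤ q) (hNk : ∀ p : ℕ, p.Prime → p ∣ N → (p : k) ≠ 0)
    {x : modularFunctionFieldFullC k N} (hx : x ≠ 0) (Bbar : Subalgebra k (LaurentSeries k))
    (hB : ∀ u ∈ Bbar, ∃ f : modularFunctionFieldFullC k N,
      (f : LaurentSeries k) = u ∧ IsIntegral (Algebra.adjoin k {x}) f)
    {u₀ : LaurentSeries k} (hu₀ : u₀ ∈ Bbar) {m : ℤ} (hm : m ≠ 0) (hcoeff : u₀.coeff m ≠ 0)
    (F : Bbar →ₐ[k] Bbar)
    (hF : ∀ u : Bbar, ((F u : Bbar) : LaurentSeries k) = qExpand k q (u : LaurentSeries k)) :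
    Module.Finite k (Bbar ⧸ helper2736.fixedIdeal (F.comp F)) := by
  refine finite_quotient_fullC k N hNk hx Bbar hB _ fun hbot => ?_
  have h1 := helper2736.sub_mem_fixedIdeal (F.comp F) (⟨u₀, hu₀⟩ : Bbar)
  rw [hbot, Ideal.mem_bot, sub_eq_zero] at h1
  have h2 := congrArg (fun z : Bbar => (z : LaurentSeries k)) h1
  simp only [AlgHom.comp_apply] at h2
  rw [hF, hF] at h2
  have h3 : qExpand k q (qExpand k q u₀) = qExpand k (q * q) u₀ := by
    rw [qExpand_qExpand]
  have : NeZero (q * q) := ⟨Nat.mul_ne_zero (NeZero.ne q) (NeZero.ne q)⟩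
  rw [h3] at h2
  exact qExpand_ne_self (q * q) (by nlinarith) u₀ hm hcoeff h2.symm

theorem essFiniteType_fixedIdeal_fullC (hq : 2 ≤ q)
    (hNk : ∀ p : ℕ, p.Prime → p ∣ N → (p : k) ≠ 0)
    {x : modularFunctionFieldFullC k N} (hx : x ≠ 0) (Bbar : Subalgebra k (LaurentSeries k))
    (hB : ∀ u ∈ Bbar, ∃ f : modularFunctionFieldFullC k N,
      (f : LaurentSeries k) = u ∧ IsIntegral (Algebra.adjoin k {x}) f)
    {u₀ : LaurentSeries k} (hu₀ : u₀ ∈ Bbar) {m : ℤ} (hm : m ≠ 0) (hcoeff : u₀.coeff m ≠ 0) :
    ∀ F : Bbar →ₐ[k] Bbar,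
      (∀ u : Bbar, ((F u : Bbar) : LaurentSeries k) = qExpand k q (u : LaurentSeries k)) →
      Algebra.EssFiniteType k (Bbar ⧸ helper2736.fixedIdeal (F.comp F)) := by
  intro F hF
  have h1 : Module.Finite k (Bbar ⧸ helper2736.fixedIdeal (F.comp F)) :=
    finite_fixedIdeal_fullC k N q hq hNk hx Bbar hB hu₀ hm hcoeff F hF
  have h2 : Algebra.FiniteType k (Bbar ⧸ helper2736.fixedIdeal (F.comp F)) :=
    Module.Finite.finiteType _
  exact Algebra.EssFiniteType.of_finiteType _ _

end Kron

section Residue

local notation "Qb" => AlgebraicClosure ℚ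

set_option synthInstance.maxHeartbeats 400000 in
/-- **`hfin` of `helper2736.kron_conductor_modular` for the residue field of a place of `ℚ̄`
over `q ∤ N`** (`k = IsLocalRing.ResidueField A`, the special fibre at level `N`). -/
theorem essFiniteType_fixedIdeal_residue (N : ℕ) [NeZero N] {q : ℕ} [NeZero q] (hq : q.Prime)
    (hqN : ¬ q ∣ N) (A : ValuationSubring Qb) (hA : A.LiesOverPrime q)
    {x : modularFunctionFieldFullC (IsLocalRing.ResidueField A) N} (hx : x ≠ 0)
    (Bbar : Subalgebra (IsLocalRing.ResidueField A) (LaurentSeries (IsLocalRing.ResidueField A)))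
    (hB : ∀ u ∈ Bbar, ∃ f : modularFunctionFieldFullC (IsLocalRing.ResidueField A) N,
      (f : LaurentSeries (IsLocalRing.ResidueField A)) = u ∧
        IsIntegral (Algebra.adjoin (IsLocalRing.ResidueField A) {x}) f)
    {u₀ : LaurentSeries (IsLocalRing.ResidueField A)} (hu₀ : u₀ ∈ Bbar) {m : ℤ} (hm : m ≠ 0)
    (hcoeff : u₀.coeff m ≠ 0) :
    ∀ F : Bbar →ₐ[IsLocalRing.ResidueField A] Bbar,
      (∀ u : Bbar, ((F u : Bbar) : LaurentSeries (IsLocalRing.ResidueField A)) =
        qExpand (IsLocalRing.ResidueField A) q (u : LaurentSeries (IsLocalRing.ResidueField A))) →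
      Algebra.EssFiniteType (IsLocalRing.ResidueField A)
        (Bbar ⧸ helper2736.fixedIdeal (F.comp F)) := by
  have := Fermat.Agent.Lib.helper6879.isAlgClosed_residueField A
  exact essFiniteType_fixedIdeal_fullC (IsLocalRing.ResidueField A) N q hq.two_le
    (helper4307.natCast_ne_zero_residue N hq hqN A hA) hx Bbar hB hu₀ hm hcoeff

end Residue

end Fermat.Agent.S35.helper1549
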