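/-
S35/S34 geometry module, brick TWOVAL (helper1024): two valuation rings of a finite field
extension lying over the same valuation ring, with residue degrees adding up to the degree.

No rank-one, discreteness or completeness hypothesis.  `import Mathlib` only.
-/
import Mathlib

set_option autoImplicit false

namespace Fermat.Agent.S35.helper1024

open Polynomial

/-! ## Part 1: approximation for two incomparable valuation rings -/

section Approx

variable {F : Type*} [Field F] (V₁ V₂ : ValuationSubring F)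

/-- If `V₁ ⊄ V₂` there is a unit of `V₁` lying in the maximal ideal of `V₂`. -/
theorem exists_unit_nonunit (h : ¬ V₁ ≤ V₂) :
    ∃ x : F, V₁.valuation x = 1 ∧ V₂.valuation x < 1 := by
  obtain ⟨a, ha₁, ha₂⟩ : ∃ a, a ∈ V₁ ∧ a ∉ V₂ := by
    by_contra hcon
    exact h fun a ha => by_contra fun ha' => hcon ⟨a, ha, ha'⟩
  have h1 : V₁.valuation a ≤ 1 := (V₁.valuation_le_one_iff a).mpr ha₁
  have h2 : 1 < V₂.valuation a := by
    rw [← not_le, V₂.valuation_le_one_iff]; exact ha₂
  rcases h1.lt_or_eq with h1 | h1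
  · refine ⟨(1 + a)⁻¹, ?_, ?_⟩
    · rw [map_inv₀, V₁.valuation.map_one_add_of_lt h1, inv_one]
    · rw [map_inv₀]
      have : V₂.valuation (1 + a) = V₂.valuation a := by
        apply V₂.valuation.map_add_eq_of_lt_right
        rw [map_one]; exact h2
      rw [this]
      exact inv_lt_one_of_one_lt₀ h2
  · refine ⟨a⁻¹, ?_, ?_⟩
    · rw [map_inv₀, h1, inv_one]
    · rw [map_inv₀]; exact inv_lt_one_of_one_lt₀ h2

/-- **Idempotent-like element**: `e ≡ 1` at `V₁`, `e ≡ 0` at `V₂`. -/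
theorem exists_idem (h12 : ¬ V₁ ≤ V₂) (h21 : ¬ V₂ ≤ V₁) :
    ∃ e : F, V₁.valuation (e - 1) < 1 ∧ V₂.valuation e < 1 := by
  obtain ⟨x, hx₁, hx₂⟩ := exists_unit_nonunit V₁ V₂ h12
  obtain ⟨y, hy₂, hy₁⟩ := exists_unit_nonunit V₂ V₁ h21
  have hs₁ : V₁.valuation (x + y) = 1 := by
    rw [V₁.valuation.map_add_eq_of_lt_left (by rw [hx₁]; exact hy₁), hx₁]
  have hs₂ : V₂.valuation (x + y) = 1 := by
    rw [V₂.valuation.map_add_eq_of_lt_right (by rw [hy₂]; exact hx₂), hy₂]
  have hne : x + y ≠ 0 := by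
    intro h0
    rw [h0, map_zero] at hs₁
    exact zero_ne_one hs₁
  refine ⟨x / (x + y), ?_, ?_⟩
  · have : x / (x + y) - 1 = -(y / (x + y)) := by field_simp; ring
    rw [this, Valuation.map_neg, map_div₀, hs₁, div_one]
    exact hy₁
  · rw [map_div₀, hs₂, div_one]
    exact hx₂

/-- **Lifting**: an element of `V₁` is congruent modulo the maximal ideal of `V₁` to an element
of `V₁ ∩ V₂`. -/
theorem exists_lift (h21 : ¬ V₂ ≤ V₁) (u : F) (hu : u ∈ V₁) :
    ∃ w : F, w ∈ V₂ ∧ V₁.valuation (w - u) < 1 := by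
  by_cases hu2 : u ∈ V₂
  · exact ⟨u, hu2, by rw [sub_self, map_zero]; exact zero_lt_one⟩
  obtain ⟨y, hy₂, hy₁⟩ := exists_unit_nonunit V₂ V₁ h21
  have hu1 : V₁.valuation u ≤ 1 := (V₁.valuation_le_one_iff u).mpr hu
  have hu2' : 1 < V₂.valuation u := by
    rw [← not_le, V₂.valuation_le_one_iff]; exact hu2
  have huy₁ : V₁.valuation (u * y) < 1 := by
    rw [map_mul]
    calc V₁.valuation u * V₁.valuation y ≤ 1 * V₁.valuation y := mul_le_mul' hu1 le_rfl
      _ = V₁.valuation y := one_mul _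
      _ < 1 := hy₁
  have hd₁ : V₁.valuation (1 + u * y) = 1 := V₁.valuation.map_one_add_of_lt huy₁
  have hd₂ : V₂.valuation (1 + u * y) = V₂.valuation u := by
    rw [V₂.valuation.map_add_eq_of_lt_right, map_mul, hy₂, mul_one]
    rw [map_one, map_mul, hy₂, mul_one]; exact hu2'
  have hne : 1 + u * y ≠ 0 := by
    intro h0
    rw [h0, map_zero] at hd₁
    exact zero_ne_one hd₁
  have hu0 : V₂.valuation u ≠ 0 := by
    intro h0; rw [h0] at hu2'; exact not_lt_bot hu2'
  refine ⟨u / (1 + u * y), ?_, ?_⟩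
  · rw [← V₂.valuation_le_one_iff, map_div₀, hd₂, div_self hu0]
  · have : u / (1 + u * y) - u = -(u * (u * y) / (1 + u * y)) := by field_simp; ring
    rw [this, Valuation.map_neg, map_div₀, hd₁, div_one, map_mul]
    calc V₁.valuation u * V₁.valuation (u * y) ≤ 1 * V₁.valuation (u * y) :=
          mul_le_mul' hu1 le_rfl
      _ = V₁.valuation (u * y) := one_mul _
      _ < 1 := huy₁

/-- **Approximation (T1)**: `V₁ ∩ V₂ → κ₁ × κ₂` is surjective. -/
theorem exists_approx (h12 : ¬ V₁ ≤ V₂) (h21 : ¬ V₂ ≤ V₁) (r₁ r₂ : F) (hr₁ : r₁ ∈ V₁)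
    (hr₂ : r₂ ∈ V₂) :
    ∃ z : F, z ∈ V₁ ∧ z ∈ V₂ ∧ z - r₁ ∈ V₁.nonunits ∧ z - r₂ ∈ V₂.nonunits := by
  obtain ⟨e, he₁, he₂⟩ := exists_idem V₁ V₂ h12 h21
  obtain ⟨w₁, hw₁₂, hw₁⟩ := exists_lift V₁ V₂ h21 r₁ hr₁
  obtain ⟨w₂, hw₂₁, hw₂⟩ := exists_lift V₂ V₁ h12 r₂ hr₂
  have hr₁' : V₁.valuation r₁ ≤ 1 := (V₁.valuation_le_one_iff _).mpr hr₁
  have hr₂' : V₂.valuation r₂ ≤ 1 := (V₂.valuation_le_one_iff _).mpr hr₂
  have hw₁₂' : V₂.valuation w₁ ≤ 1 := (V₂.valuation_le_one_iff _).mpr hw₁₂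
  have hw₂₁' : V₁.valuation w₂ ≤ 1 := (V₁.valuation_le_one_iff _).mpr hw₂₁
  have hw₁₁ : V₁.valuation w₁ ≤ 1 := by
    have : w₁ = (w₁ - r₁) + r₁ := by ring
    rw [this]
    exact V₁.valuation.map_add_le hw₁.le hr₁'
  have hw₂₂ : V₂.valuation w₂ ≤ 1 := by
    have : w₂ = (w₂ - r₂) + r₂ := by ring
    rw [this]
    exact V₂.valuation.map_add_le hw₂.le hr₂'
  have hA : V₁.valuation (e * w₁ + (1 - e) * w₂ - r₁) < 1 := by
    have : e * w₁ + (1 - e) * w₂ - r₁ = (w₁ - r₁) + (e - 1) * (w₁ - w₂) := by ring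
    rw [this]
    refine V₁.valuation.map_add_lt hw₁ ?_
    rw [map_mul]
    calc V₁.valuation (e - 1) * V₁.valuation (w₁ - w₂)
        ≤ V₁.valuation (e - 1) * 1 := mul_le_mul' le_rfl (V₁.valuation.map_sub_le hw₁₁ hw₂₁')
      _ = V₁.valuation (e - 1) := mul_one _
      _ < 1 := he₁
  have hB : V₂.valuation (e * w₁ + (1 - e) * w₂ - r₂) < 1 := by
    have : e * w₁ + (1 - e) * w₂ - r₂ = (w₂ - r₂) + e * (w₁ - w₂) := by ring
    rw [this]
    refine V₂.valuation.map_add_lt hw₂ ?_
    rw [map_mul]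
    calc V₂.valuation e * V₂.valuation (w₁ - w₂)
        ≤ V₂.valuation e * 1 := mul_le_mul' le_rfl (V₂.valuation.map_sub_le hw₁₂' hw₂₂)
      _ = V₂.valuation e := mul_one _
      _ < 1 := he₂
  refine ⟨e * w₁ + (1 - e) * w₂, ?_, ?_, ?_, ?_⟩
  · rw [← V₁.valuation_le_one_iff]
    have : e * w₁ + (1 - e) * w₂ = (e * w₁ + (1 - e) * w₂ - r₁) + r₁ := by ring
    rw [this]
    exact V₁.valuation.map_add_le hA.le hr₁'
  · rw [← V₂.valuation_le_one_iff]
    have : e * w₁ + (1 - e) * w₂ = (e * w₁ + (1 - e) * w₂ - r₂) + r₂ := by ring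
    rw [this]
    exact V₂.valuation.map_add_le hB.le hr₂'
  · exact (ValuationSubring.mem_nonunits_iff _).mpr hA
  · exact (ValuationSubring.mem_nonunits_iff _).mpr hB

end Approx

/-! ## Part 2: lying over, incomparability -/

section LyingOver

variable {E F : Type*} [Field E] [Field F] [Algebra E F]
variable {V₀ : ValuationSubring E} {V : ValuationSubring F}

theorem mem_iff_of_comap (h : V.comap (algebraMap E F) = V₀) (a : E) :
    algebraMap E F a ∈ V ↔ a ∈ V₀ := by
  rw [← h, ValuationSubring.mem_comap]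

theorem mem_nonunits_iff_of_comap (h : V.comap (algebraMap E F) = V₀) (a : E) :
    algebraMap E F a ∈ V.nonunits ↔ a ∈ V₀.nonunits := by
  rw [ValuationSubring.mem_nonunits_iff_or, ValuationSubring.mem_nonunits_iff_or, map_eq_zero,
    ← map_inv₀, mem_iff_of_comap h]

theorem val_le_one_iff_of_comap (h : V.comap (algebraMap E F) = V₀) (a : E) :
    V.valuation (algebraMap E F a) ≤ 1 ↔ V₀.valuation a ≤ 1 := by
  rw [ValuationSubring.valuation_le_one_iff, ValuationSubring.valuation_le_one_iff,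
    mem_iff_of_comap h]

theorem val_lt_one_iff_of_comap (h : V.comap (algebraMap E F) = V₀) (a : E) :
    V.valuation (algebraMap E F a) < 1 ↔ V₀.valuation a < 1 := by
  rw [← ValuationSubring.mem_nonunits_iff, ← ValuationSubring.mem_nonunits_iff,
    mem_nonunits_iff_of_comap h]

theorem val_eq_one_iff_of_comap (h : V.comap (algebraMap E F) = V₀) (a : E) :
    V.valuation (algebraMap E F a) = 1 ↔ V₀.valuation a = 1 := by
  constructor
  · intro h1
    exact le_antisymm ((val_le_one_iff_of_comap h a).mp h1.le)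
      (not_lt.mp fun hlt => ((val_lt_one_iff_of_comap h a).mpr hlt).ne h1)
  · intro h1
    exact le_antisymm ((val_le_one_iff_of_comap h a).mpr h1.le)
      (not_lt.mp fun hlt => ((val_lt_one_iff_of_comap h a).mp hlt).ne h1)

/-- **Incomparability**: in an algebraic extension, two valuation rings lying over the same
valuation ring and contained in one another are equal. -/
theorem eq_of_le_of_comap_eq [Algebra.IsAlgebraic E F] {V₁ V₂ : ValuationSubring F}
    (h₁ : V₁.comap (algebraMap E F) = V₀) (h₂ : V₂.comap (algebraMap E F) = V₀)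
    (hle : V₁ ≤ V₂) : V₁ = V₂ := by
  classical
  by_contra hne
  have hnle : ¬ V₂ ≤ V₁ := fun h => hne (le_antisymm hle h)
  obtain ⟨y, hy₂, hy₁⟩ := exists_unit_nonunit V₂ V₁ hnle
  have hy0 : y ≠ 0 := by
    rintro rfl
    rw [map_zero] at hy₂
    exact zero_ne_one hy₂
  have hy1pos : 0 < V₁.valuation y := by
    rw [pos_iff_ne_zero, ne_eq, map_eq_zero]
    exact hy0
  obtain ⟨p, hp0, hp⟩ := Algebra.IsAlgebraic.isAlgebraic (R := E) y
  obtain ⟨m, hm, hmax⟩ := Finset.exists_max_image p.support (fun i => V₀.valuation (p.coeff i))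
    (Polynomial.support_nonempty.mpr hp0)
  have hd0 : p.coeff m ≠ 0 := Polynomial.mem_support_iff.mp hm
  have hdpos : 0 < V₀.valuation (p.coeff m) := by
    rw [pos_iff_ne_zero, ne_eq, map_eq_zero]
    exact hd0
  have hc1 : ∀ i, V₀.valuation (p.coeff i / p.coeff m) ≤ 1 := by
    intro i
    by_cases hi : i ∈ p.support
    · rw [map_div₀]
      exact (div_le_one₀ hdpos).mpr (hmax i hi)
    · rw [Polynomial.notMem_support_iff] at hi
      rw [hi, zero_div, map_zero]
      exact zero_le_one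
  have hcm : p.coeff m / p.coeff m = 1 := div_self hd0
  have hex : ∃ i, V₀.valuation (p.coeff i / p.coeff m) = 1 := ⟨m, by rw [hcm, map_one]⟩
  have hi₀1 : V₀.valuation (p.coeff (Nat.find hex) / p.coeff m) = 1 := Nat.find_spec hex
  have hlt : ∀ i, i < Nat.find hex → V₀.valuation (p.coeff i / p.coeff m) < 1 :=
    fun i hi => lt_of_le_of_ne (hc1 i) (Nat.find_min hex hi)
  have hsum : ∑ i ∈ Finset.range (p.natDegree + 1),
      algebraMap E F (p.coeff i / p.coeff m) * y ^ i = 0 := by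
    have h1 := hp
    rw [Polynomial.aeval_eq_sum_range] at h1
    have h2 : ∑ i ∈ Finset.range (p.natDegree + 1),
        algebraMap E F (p.coeff i / p.coeff m) * y ^ i =
        algebraMap E F (p.coeff m)⁻¹ * ∑ i ∈ Finset.range (p.natDegree + 1), p.coeff i • y ^ i := by
      rw [Finset.mul_sum]
      refine Finset.sum_congr rfl fun i _ => ?_
      rw [Algebra.smul_def, div_eq_mul_inv, map_mul]
      ring
    rw [h2, h1, mul_zero]
  have hi₀N : Nat.find hex ∈ Finset.range (p.natDegree + 1) := by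
    rw [Finset.mem_range]
    have h1 : Nat.find hex ≤ m := Nat.find_min' hex (by rw [hcm, map_one])
    have h2 : m ≤ p.natDegree := Polynomial.le_natDegree_of_mem_supp m hm
    omega
  rw [← Finset.add_sum_erase _ _ hi₀N] at hsum
  have hT : V₁.valuation (algebraMap E F (p.coeff (Nat.find hex) / p.coeff m) * y ^ Nat.find hex) =
      V₁.valuation y ^ Nat.find hex := by
    rw [map_mul, map_pow, (val_eq_one_iff_of_comap h₁ _).mpr hi₀1, one_mul]
  have hrest : V₁.valuation (∑ i ∈ (Finset.range (p.natDegree + 1)).erase (Nat.find hex),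
      algebraMap E F (p.coeff i / p.coeff m) * y ^ i) < V₁.valuation y ^ Nat.find hex := by
    refine V₁.valuation.map_sum_lt (pow_ne_zero _ hy1pos.ne') fun i hi => ?_
    have hine : i ≠ Nat.find hex := Finset.ne_of_mem_erase hi
    rw [map_mul, map_pow]
    rcases lt_or_gt_of_ne hine with hlt' | hgt
    · have hz2 : V₂.valuation (algebraMap E F (p.coeff i / p.coeff m) / y ^ (Nat.find hex - i)) < 1 := by
        rw [map_div₀, map_pow, hy₂, one_pow, div_one]
        exact (val_lt_one_iff_of_comap h₂ _).mpr (hlt i hlt')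
      have hz1 : V₁.valuation (algebraMap E F (p.coeff i / p.coeff m) / y ^ (Nat.find hex - i)) < 1 := by
        have := ValuationSubring.nonunits_le_nonunits.mpr hle
          ((ValuationSubring.mem_nonunits_iff _).mpr hz2)
        exact (ValuationSubring.mem_nonunits_iff _).mp this
      rw [map_div₀, map_pow, div_lt_one₀ (pow_pos hy1pos _)] at hz1
      calc V₁.valuation (algebraMap E F (p.coeff i / p.coeff m)) * V₁.valuation y ^ i
          < V₁.valuation y ^ (Nat.find hex - i) * V₁.valuation y ^ i :=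
            mul_lt_mul_of_pos_right hz1 (pow_pos hy1pos _)
        _ = V₁.valuation y ^ Nat.find hex := by
            rw [← pow_add]
            congr 1
            omega
    · calc V₁.valuation (algebraMap E F (p.coeff i / p.coeff m)) * V₁.valuation y ^ i
          ≤ 1 * V₁.valuation y ^ i :=
            mul_le_mul' ((val_le_one_iff_of_comap h₁ _).mpr (hc1 i)) le_rfl
        _ = V₁.valuation y ^ i := one_mul _
        _ < V₁.valuation y ^ Nat.find hex := pow_lt_pow_right_of_lt_one₀ hy1pos hy₁ hgt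
  have hneg : algebraMap E F (p.coeff (Nat.find hex) / p.coeff m) * y ^ Nat.find hex =
      -(∑ i ∈ (Finset.range (p.natDegree + 1)).erase (Nat.find hex),
        algebraMap E F (p.coeff i / p.coeff m) * y ^ i) := eq_neg_of_add_eq_zero_left hsum
  rw [hneg, Valuation.map_neg] at hT
  exact hrest.ne hT

/-- Two distinct valuation rings of an algebraic extension lying over the same valuation ring
are incomparable. -/
theorem not_le_of_comap_eq [Algebra.IsAlgebraic E F] {V₁ V₂ : ValuationSubring F}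
    (h₁ : V₁.comap (algebraMap E F) = V₀) (h₂ : V₂.comap (algebraMap E F) = V₀)
    (hne : V₁ ≠ V₂) : ¬ V₁ ≤ V₂ := fun hle => hne (eq_of_le_of_comap_eq h₁ h₂ hle)

end LyingOver

/-! ## Part 3: the cartesian core -/

section Cartesian

variable {E F : Type*} [Field E] [Field F] [Algebra E F]

/-- The twisted closed unit ball `{a : |a|₁ ≤ 1, |a / f|₂ ≤ 1}` (`f = 1`: `V₁ ∩ V₂`). -/
def twBall (V₁ V₂ : ValuationSubring F) (f : F) : Set F := {a | a ∈ V₁ ∧ a / f ∈ V₂}

/-- The twisted open unit ball `{a : |a|₁ < 1, |a / f|₂ < 1}` (`f = 1`: `m₁ ∩ m₂`). -/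
def twOpenBall (V₁ V₂ : ValuationSubring F) (f : F) : Set F :=
  {a | a ∈ V₁.nonunits ∧ a / f ∈ V₂.nonunits}

theorem mem_twBall_iff {V₁ V₂ : ValuationSubring F} {f a : F} :
    a ∈ twBall V₁ V₂ f ↔ a ∈ V₁ ∧ a / f ∈ V₂ := Iff.rfl

theorem mem_twOpenBall_iff {V₁ V₂ : ValuationSubring F} {f a : F} :
    a ∈ twOpenBall V₁ V₂ f ↔ a ∈ V₁.nonunits ∧ a / f ∈ V₂.nonunits := Iff.rfl

theorem twOpenBall_subset_twBall (V₁ V₂ : ValuationSubring F) (f : F) :
    twOpenBall V₁ V₂ f ⊆ twBall V₁ V₂ f :=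
  fun _ ha => ⟨V₁.nonunits_subset ha.1, V₂.nonunits_subset ha.2⟩

/-- A finite family of elements of `V` whose residues are linearly independent over the residue
field of `V₀` (element-wise form, no residue field types). -/
def ResIndep (V₀ : ValuationSubring E) (V : ValuationSubring F) {ι : Type*} [Fintype ι]
    (b : ι → F) : Prop :=
  (∀ i, b i ∈ V) ∧
    ∀ a : ι → E, (∀ i, a i ∈ V₀) → ∑ i, a i • b i ∈ V.nonunits → ∀ i, a i ∈ V₀.nonunits

variable {V₀ : ValuationSubring E} {V : ValuationSubring F}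

theorem smul_mem_of_comap (h : V.comap (algebraMap E F) = V₀) {a : E} {b : F} (ha : a ∈ V₀)
    (hb : b ∈ V) : a • b ∈ V := by
  rw [Algebra.smul_def]
  exact V.mul_mem _ _ ((mem_iff_of_comap h a).mpr ha) hb

theorem smul_mem_nonunits_left (h : V.comap (algebraMap E F) = V₀) {a : E} {b : F}
    (ha : a ∈ V₀.nonunits) (hb : b ∈ V) : a • b ∈ V.nonunits := by
  rw [Algebra.smul_def, ValuationSubring.mem_nonunits_iff, map_mul]
  have h1 : V.valuation (algebraMap E F a) < 1 :=
    (val_lt_one_iff_of_comap h a).mpr ((ValuationSubring.mem_nonunits_iff _).mp ha)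
  have h2 : V.valuation b ≤ 1 := (V.valuation_le_one_iff b).mpr hb
  calc V.valuation (algebraMap E F a) * V.valuation b ≤ V.valuation (algebraMap E F a) * 1 :=
        mul_le_mul' le_rfl h2
    _ = V.valuation (algebraMap E F a) := mul_one _
    _ < 1 := h1

theorem smul_mem_nonunits_right (h : V.comap (algebraMap E F) = V₀) {a : E} {b : F}
    (ha : a ∈ V₀) (hb : b ∈ V.nonunits) : a • b ∈ V.nonunits := by
  rw [Algebra.smul_def, ValuationSubring.mem_nonunits_iff, map_mul]
  have h1 : V.valuation (algebraMap E F a) ≤ 1 :=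
    (val_le_one_iff_of_comap h a).mpr ((V₀.valuation_le_one_iff a).mpr ha)
  have h2 : V.valuation b < 1 := (ValuationSubring.mem_nonunits_iff _).mp hb
  calc V.valuation (algebraMap E F a) * V.valuation b ≤ 1 * V.valuation b :=
        mul_le_mul' h1 le_rfl
    _ = V.valuation b := one_mul _
    _ < 1 := h2

theorem sum_smul_mem (h : V.comap (algebraMap E F) = V₀) {ι : Type*} (s : Finset ι)
    {a : ι → E} {b : ι → F} (ha : ∀ i ∈ s, a i ∈ V₀) (hb : ∀ i ∈ s, b i ∈ V) :
    ∑ i ∈ s, a i • b i ∈ V :=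
  sum_mem fun i hi => smul_mem_of_comap h (ha i hi) (hb i hi)

theorem sum_smul_mem_nonunits_left (h : V.comap (algebraMap E F) = V₀) {ι : Type*}
    (s : Finset ι) {a : ι → E} {b : ι → F} (ha : ∀ i ∈ s, a i ∈ V₀.nonunits)
    (hb : ∀ i ∈ s, b i ∈ V) : ∑ i ∈ s, a i • b i ∈ V.nonunits :=
  sum_mem fun i hi => smul_mem_nonunits_left h (ha i hi) (hb i hi)

theorem sum_smul_mem_nonunits_right (h : V.comap (algebraMap E F) = V₀) {ι : Type*}
    (s : Finset ι) {a : ι → E} {b : ι → F} (ha : ∀ i ∈ s, a i ∈ V₀)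
    (hb : ∀ i ∈ s, b i ∈ V.nonunits) : ∑ i ∈ s, a i • b i ∈ V.nonunits :=
  sum_mem fun i hi => smul_mem_nonunits_right h (ha i hi) (hb i hi)

/-- Residual independence only depends on the residues. -/
theorem ResIndep.congr (h : V.comap (algebraMap E F) = V₀) {ι : Type*} [Fintype ι]
    {b b' : ι → F} (hb : ResIndep V₀ V b) (hbb' : ∀ i, b' i - b i ∈ V.nonunits) :
    ResIndep V₀ V b' := by
  refine ⟨fun i => ?_, fun a ha hsum => hb.2 a ha ?_⟩
  · have : b' i = (b' i - b i) + b i := by ring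
    rw [this]
    exact V.add_mem _ _ (V.nonunits_subset (hbb' i)) (hb.1 i)
  · have : ∑ i, a i • b i = ∑ i, a i • b' i - ∑ i, a i • (b' i - b i) := by
      rw [← Finset.sum_sub_distrib]
      refine Finset.sum_congr rfl fun i _ => ?_
      rw [smul_sub]
      ring
    rw [this]
    exact sub_mem hsum (sum_smul_mem_nonunits_right h _ (fun i _ => ha i) (fun i _ => hbb' i))

variable {V₁ V₂ : ValuationSubring F}

/-- **Cartesian core (T2).**  `b` lifts residually independent elements at `V₁` and vanishes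
residually at `V₂` (after the twist), `c` the other way round.  Then the closed (open) twisted
unit ball consists exactly of the combinations with coefficients in `V₀` (in `m₀`). -/
theorem cart_core (h₁ : V₁.comap (algebraMap E F) = V₀) (h₂ : V₂.comap (algebraMap E F) = V₀)
    {f : F} {ι₁ ι₂ : Type*} [Fintype ι₁] [Fintype ι₂] {b : ι₁ → F} {c : ι₂ → F}
    (hb₁ : ResIndep V₀ V₁ b) (hb₂ : ∀ i, b i / f ∈ V₂.nonunits)
    (hc₁ : ∀ j, c j ∈ V₁.nonunits) (hc₂ : ResIndep V₀ V₂ (fun j => c j / f))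
    (a : ι₁ → E) (a' : ι₂ → E) :
    (∑ i, a i • b i + ∑ j, a' j • c j ∈ twBall V₁ V₂ f ↔
        (∀ i, a i ∈ V₀) ∧ ∀ j, a' j ∈ V₀) ∧
      (∑ i, a i • b i + ∑ j, a' j • c j ∈ twOpenBall V₁ V₂ f ↔
        (∀ i, a i ∈ V₀.nonunits) ∧ ∀ j, a' j ∈ V₀.nonunits) := by
  classical
  have hdiv : ∀ (a : ι₁ → E) (a' : ι₂ → E),
      (∑ i, a i • b i + ∑ j, a' j • c j) / f =
        ∑ i, a i • (b i / f) + ∑ j, a' j • (c j / f) := by
    intro a a'
    rw [add_div, Finset.sum_div, Finset.sum_div]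
    congr 1 <;> exact Finset.sum_congr rfl fun i _ => (smul_div_assoc _ _ _)
  -- open ball, integral coefficients
  have hopen : ∀ (a : ι₁ → E) (a' : ι₂ → E), (∀ i, a i ∈ V₀) → (∀ j, a' j ∈ V₀) →
      ∑ i, a i • b i + ∑ j, a' j • c j ∈ twOpenBall V₁ V₂ f →
      (∀ i, a i ∈ V₀.nonunits) ∧ ∀ j, a' j ∈ V₀.nonunits := by
    intro a a' ha ha' hs
    obtain ⟨hs1, hs2⟩ := hs
    rw [hdiv] at hs2
    constructor
    · refine hb₁.2 a ha ?_
      have : ∑ i, a i • b i = (∑ i, a i • b i + ∑ j, a' j • c j) - ∑ j, a' j • c j := by ring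
      rw [this]
      exact sub_mem hs1 (sum_smul_mem_nonunits_right h₁ _ (fun j _ => ha' j) (fun j _ => hc₁ j))
    · refine hc₂.2 a' ha' ?_
      have : ∑ j, a' j • (c j / f) =
          (∑ i, a i • (b i / f) + ∑ j, a' j • (c j / f)) - ∑ i, a i • (b i / f) := by ring
      rw [this]
      exact sub_mem hs2 (sum_smul_mem_nonunits_right h₂ _ (fun i _ => ha i) (fun i _ => hb₂ i))
  -- closed ball forces integral coefficients
  have hclosed : ∀ (a : ι₁ → E) (a' : ι₂ → E),
      ∑ i, a i • b i + ∑ j, a' j • c j ∈ twBall V₁ V₂ f →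
      (∀ i, a i ∈ V₀) ∧ ∀ j, a' j ∈ V₀ := by
    intro a a' hs
    by_contra hcon
    -- the coefficient of maximal valuation
    have hne : (Finset.univ : Finset (ι₁ ⊕ ι₂)).Nonempty := by
      by_contra hemp
      rw [Finset.not_nonempty_iff_eq_empty, Finset.univ_eq_empty_iff] at hemp
      exact hcon ⟨fun i => (hemp.false (Sum.inl i)).elim, fun j => (hemp.false (Sum.inr j)).elim⟩
    obtain ⟨k₀, -, hk₀⟩ := Finset.exists_max_image Finset.univ
      (fun k : ι₁ ⊕ ι₂ => V₀.valuation (Sum.elim a a' k)) hne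
    set d : E := Sum.elim a a' k₀ with hd
    have hd1 : 1 < V₀.valuation d := by
      by_contra hle
      rw [not_lt] at hle
      refine hcon ⟨fun i => ?_, fun j => ?_⟩
      · exact (V₀.valuation_le_one_iff _).mp ((hk₀ (Sum.inl i) (Finset.mem_univ _)).trans hle)
      · exact (V₀.valuation_le_one_iff _).mp ((hk₀ (Sum.inr j) (Finset.mem_univ _)).trans hle)
    have hdpos : 0 < V₀.valuation d := zero_lt_one.trans hd1
    have hd0 : d ≠ 0 := by
      intro h0
      rw [h0, map_zero] at hdpos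
      exact lt_irrefl _ hdpos
    have hdinv : d⁻¹ ∈ V₀.nonunits := by
      rw [ValuationSubring.mem_nonunits_iff, map_inv₀]
      exact inv_lt_one_of_one_lt₀ hd1
    have hscale : ∀ x : E, V₀.valuation x ≤ V₀.valuation d → d⁻¹ * x ∈ V₀ := by
      intro x hx
      rw [← V₀.valuation_le_one_iff, map_mul, map_inv₀, inv_mul_le_iff₀ hdpos, mul_one]
      exact hx
    have hsm : ∑ i, (d⁻¹ * a i) • b i + ∑ j, (d⁻¹ * a' j) • c j =
        d⁻¹ • (∑ i, a i • b i + ∑ j, a' j • c j) := by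
      rw [smul_add, Finset.smul_sum, Finset.smul_sum]
      congr 1 <;> exact Finset.sum_congr rfl fun i _ => (mul_smul _ _ _)
    have hmem : ∑ i, (d⁻¹ * a i) • b i + ∑ j, (d⁻¹ * a' j) • c j ∈ twOpenBall V₁ V₂ f := by
      rw [hsm]
      refine ⟨smul_mem_nonunits_left h₁ hdinv hs.1, ?_⟩
      rw [smul_div_assoc]
      exact smul_mem_nonunits_left h₂ hdinv hs.2
    have hres := hopen (fun i => d⁻¹ * a i) (fun j => d⁻¹ * a' j)
      (fun i => hscale _ (hk₀ (Sum.inl i) (Finset.mem_univ _)))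
      (fun j => hscale _ (hk₀ (Sum.inr j) (Finset.mem_univ _))) hmem
    have hone : (1 : E) ∉ V₀.nonunits := by
      rw [ValuationSubring.mem_nonunits_iff, map_one]
      exact lt_irrefl _
    rcases k₀ with i | j
    · have := hres.1 i
      rw [show a i = d from rfl, inv_mul_cancel₀ hd0] at this
      exact hone this
    · have := hres.2 j
      rw [show a' j = d from rfl, inv_mul_cancel₀ hd0] at this
      exact hone this
  refine ⟨⟨hclosed a a', fun ⟨ha, ha'⟩ => ⟨?_, ?_⟩⟩, ⟨fun hs => ?_, fun ⟨ha, ha'⟩ => ⟨?_, ?_⟩⟩⟩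
  · exact V₁.add_mem _ _ (sum_smul_mem h₁ _ (fun i _ => ha i) (fun i _ => hb₁.1 i))
      (sum_smul_mem h₁ _ (fun j _ => ha' j) (fun j _ => V₁.nonunits_subset (hc₁ j)))
  · rw [hdiv]
    exact V₂.add_mem _ _
      (sum_smul_mem h₂ _ (fun i _ => ha i) (fun i _ => V₂.nonunits_subset (hb₂ i)))
      (sum_smul_mem h₂ _ (fun j _ => ha' j) (fun j _ => hc₂.1 j))
  · obtain ⟨ha, ha'⟩ := hclosed a a' (twOpenBall_subset_twBall _ _ _ hs)
    exact hopen a a' ha ha' hs
  · exact add_mem (sum_smul_mem_nonunits_left h₁ _ (fun i _ => ha i) (fun i _ => hb₁.1 i))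
      (sum_smul_mem_nonunits_left h₁ _ (fun j _ => ha' j)
        (fun j _ => V₁.nonunits_subset (hc₁ j)))
  · rw [hdiv]
    exact add_mem
      (sum_smul_mem_nonunits_left h₂ _ (fun i _ => ha i) (fun i _ => V₂.nonunits_subset (hb₂ i)))
      (sum_smul_mem_nonunits_left h₂ _ (fun j _ => ha' j) (fun j _ => hc₂.1 j))

/-- **Cartesian family** for the twisted balls: coefficients of a combination are in `V₀`
(resp. in its maximal ideal) exactly when the combination is in the closed (resp. open) ball. -/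
structure IsCartesian (V₀ : ValuationSubring E) (V₁ V₂ : ValuationSubring F) (f : F)
    {ι : Type*} [Fintype ι] (e : ι → F) : Prop where
  closed_iff : ∀ a : ι → E, ∑ k, a k • e k ∈ twBall V₁ V₂ f ↔ ∀ k, a k ∈ V₀
  open_iff : ∀ a : ι → E, ∑ k, a k • e k ∈ twOpenBall V₁ V₂ f ↔ ∀ k, a k ∈ V₀.nonunits

/-- The cartesian core in family form. -/
theorem isCartesian_sumElim (h₁ : V₁.comap (algebraMap E F) = V₀)
    (h₂ : V₂.comap (algebraMap E F) = V₀)
    {f : F} {ι₁ ι₂ : Type*} [Fintype ι₁] [Fintype ι₂] {b : ι₁ → F} {c : ι₂ → F}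
    (hb₁ : ResIndep V₀ V₁ b) (hb₂ : ∀ i, b i / f ∈ V₂.nonunits)
    (hc₁ : ∀ j, c j ∈ V₁.nonunits) (hc₂ : ResIndep V₀ V₂ (fun j => c j / f)) :
    IsCartesian V₀ V₁ V₂ f (Sum.elim b c) := by
  constructor
  · intro a
    rw [Fintype.sum_sum_type]
    simp only [Sum.elim_inl, Sum.elim_inr]
    rw [(cart_core h₁ h₂ hb₁ hb₂ hc₁ hc₂ (fun i => a (Sum.inl i)) (fun j => a (Sum.inr j))).1,
      Sum.forall]
  · intro a
    rw [Fintype.sum_sum_type]
    simp only [Sum.elim_inl, Sum.elim_inr]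
    rw [(cart_core h₁ h₂ hb₁ hb₂ hc₁ hc₂ (fun i => a (Sum.inl i)) (fun j => a (Sum.inr j))).2,
      Sum.forall]

section IsCartesianAPI

variable {f : F} {ι : Type*} [Fintype ι] {e : ι → F}

theorem one_notMem_nonunits (V : ValuationSubring E) : (1 : E) ∉ V.nonunits := by
  rw [ValuationSubring.mem_nonunits_iff, map_one]
  exact lt_irrefl _

theorem IsCartesian.mem (he : IsCartesian V₀ V₁ V₂ f e) (k : ι) : e k ∈ twBall V₁ V₂ f := by
  classical
  have h := (he.closed_iff (Pi.single k 1)).mpr (fun j => by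
    by_cases hj : j = k
    · subst hj; rw [Pi.single_eq_same]; exact V₀.one_mem
    · rw [Pi.single_eq_of_ne hj]; exact V₀.zero_mem)
  rw [Finset.sum_eq_single k] at h
  · rwa [Pi.single_eq_same, one_smul] at h
  · intro j _ hj
    rw [Pi.single_eq_of_ne hj, zero_smul]
  · intro h; exact absurd (Finset.mem_univ _) h

/-- A cartesian family is linearly independent. -/
theorem IsCartesian.linearIndependent (he : IsCartesian V₀ V₁ V₂ f e) :
    LinearIndependent E e := by
  rw [Fintype.linearIndependent_iff]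
  intro g hg k
  by_contra hk
  have h0 : ∑ i, ((g k)⁻¹ * g i) • e i = 0 := by
    have : ∑ i, ((g k)⁻¹ * g i) • e i = (g k)⁻¹ • ∑ i, g i • e i := by
      rw [Finset.smul_sum]
      exact Finset.sum_congr rfl fun i _ => (mul_smul _ _ _)
    rw [this, hg, smul_zero]
  have hmem : ∑ i, ((g k)⁻¹ * g i) • e i ∈ twOpenBall V₁ V₂ f := by
    rw [h0]
    refine ⟨zero_mem _, ?_⟩
    rw [zero_div]
    exact zero_mem _
  have h1 := (he.open_iff _).mp hmem k
  rw [inv_mul_cancel₀ hk] at h1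
  exact one_notMem_nonunits V₀ h1

/-- Coordinates of an element of the span: closed ball. -/
theorem IsCartesian.exists_coeff (he : IsCartesian V₀ V₁ V₂ f e)
    (hspan : Submodule.span E (Set.range e) = ⊤) {z : F} (hz : z ∈ twBall V₁ V₂ f) :
    ∃ a : ι → E, (∀ k, a k ∈ V₀) ∧ z = ∑ k, a k • e k := by
  have hz' : z ∈ Submodule.span E (Set.range e) := by rw [hspan]; exact Submodule.mem_top
  obtain ⟨a, rfl⟩ := (Submodule.mem_span_range_iff_exists_fun E).mp hz'
  exact ⟨a, (he.closed_iff a).mp hz, rfl⟩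

/-- Coordinates of an element of the span: open ball. -/
theorem IsCartesian.exists_coeff_open (he : IsCartesian V₀ V₁ V₂ f e)
    (hspan : Submodule.span E (Set.range e) = ⊤) {z : F} (hz : z ∈ twOpenBall V₁ V₂ f) :
    ∃ a : ι → E, (∀ k, a k ∈ V₀.nonunits) ∧ z = ∑ k, a k • e k := by
  have hz' : z ∈ Submodule.span E (Set.range e) := by rw [hspan]; exact Submodule.mem_top
  obtain ⟨a, rfl⟩ := (Submodule.mem_span_range_iff_exists_fun E).mp hz'
  exact ⟨a, (he.open_iff a).mp hz, rfl⟩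

/-- A cartesian family of the right cardinality spans. -/
theorem IsCartesian.span_eq_top [FiniteDimensional E F] (he : IsCartesian V₀ V₁ V₂ f e)
    (hcard : Fintype.card ι = Module.finrank E F) : Submodule.span E (Set.range e) = ⊤ :=
  he.linearIndependent.span_eq_top_of_card_eq_finrank' hcard

/-- `Finsupp` form of the closed-ball criterion (the shape consumed by
`Fermat.Agent.S18.helper9056.exists_orthonormal_basis_closed_open`). -/
theorem IsCartesian.linearCombination_mem_iff (he : IsCartesian V₀ V₁ V₂ f e) (c : ι →₀ E) :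
    Finsupp.linearCombination E e c ∈ twBall V₁ V₂ f ↔ ∀ k, c k ∈ V₀ := by
  rw [Finsupp.linearCombination_apply,
    Finsupp.sum_fintype c (fun i a => a • e i) (fun i => zero_smul _ _)]
  exact he.closed_iff c

/-- `Finsupp` form of the open-ball criterion. -/
theorem IsCartesian.linearCombination_mem_open_iff (he : IsCartesian V₀ V₁ V₂ f e)
    (c : ι →₀ E) :
    Finsupp.linearCombination E e c ∈ twOpenBall V₁ V₂ f ↔ ∀ k, V₀.valuation (c k) < 1 := by
  rw [Finsupp.linearCombination_apply,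
    Finsupp.sum_fintype c (fun i a => a • e i) (fun i => zero_smul _ _)]
  rw [he.open_iff c]
  exact forall_congr' fun k => ValuationSubring.mem_nonunits_iff _

end IsCartesianAPI

/-! ### Twisted approximation and existence of cartesian families -/

/-- Admissible twists: there are elements of the two "mixed" sizes.  For `f = 1` this holds for
any two incomparable valuation rings (`twistAdmissible_one`); for general `f` it is an
independence (or rank one) condition, see `twistAdmissible_of_archimedean`. -/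
structure TwistAdmissible (V₁ V₂ : ValuationSubring F) (f : F) : Prop where
  ne_zero : f ≠ 0
  exists_left : ∃ x : F, V₁.valuation x = 1 ∧ V₂.valuation (x / f) < 1
  exists_right : ∃ y : F, V₁.valuation y < 1 ∧ V₂.valuation (y / f) = 1

theorem twistAdmissible_one (h12 : ¬ V₁ ≤ V₂) (h21 : ¬ V₂ ≤ V₁) : TwistAdmissible V₁ V₂ 1 := by
  refine ⟨one_ne_zero, ?_, ?_⟩
  · obtain ⟨x, hx₁, hx₂⟩ := exists_unit_nonunit V₁ V₂ h12
    exact ⟨x, hx₁, by rwa [div_one]⟩
  · obtain ⟨y, hy₂, hy₁⟩ := exists_unit_nonunit V₂ V₁ h21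
    exact ⟨y, hy₁, by rwa [div_one]⟩

/-- **Twisted approximation.** -/
theorem exists_approx_twisted (h12 : ¬ V₁ ≤ V₂) (h21 : ¬ V₂ ≤ V₁) {f : F}
    (hf : TwistAdmissible V₁ V₂ f) (r₁ r₂ : F) (hr₁ : r₁ ∈ V₁) (hr₂ : r₂ ∈ V₂) :
    ∃ z : F, z - r₁ ∈ V₁.nonunits ∧ z / f - r₂ ∈ V₂.nonunits := by
  obtain ⟨x, hx₁, hx₂⟩ := hf.exists_left
  obtain ⟨y, hy₁, hy₂⟩ := hf.exists_right
  have hf0 := hf.ne_zero
  have hx0 : x ≠ 0 := by
    rintro rfl
    rw [map_zero] at hx₁
    exact zero_ne_one hx₁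
  have hyf0 : y / f ≠ 0 := by
    intro h0
    rw [h0, map_zero] at hy₂
    exact zero_ne_one hy₂
  -- `ε₁ ≡ 1` at `V₁`, small at `V₂`
  obtain ⟨w, hw₂, hw₁⟩ := exists_lift V₁ V₂ h21 x⁻¹
    ((V₁.valuation_le_one_iff _).mp (by rw [map_inv₀, hx₁, inv_one]))
  have hε₁ : V₁.valuation (x * w - 1) < 1 := by
    have : x * w - 1 = x * (w - x⁻¹) := by field_simp
    rw [this, map_mul, hx₁, one_mul]
    exact hw₁
  have hε₁' : V₂.valuation (x * w / f) < 1 := by
    have : x * w / f = x / f * w := by ring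
    rw [this, map_mul]
    calc V₂.valuation (x / f) * V₂.valuation w ≤ V₂.valuation (x / f) * 1 :=
          mul_le_mul' le_rfl ((V₂.valuation_le_one_iff _).mpr hw₂)
      _ = V₂.valuation (x / f) := mul_one _
      _ < 1 := hx₂
  -- `ε₂` small at `V₁`, `ε₂ / f ≡ 1` at `V₂`
  obtain ⟨w', hw'₁, hw'₂⟩ := exists_lift V₂ V₁ h12 (y / f)⁻¹
    ((V₂.valuation_le_one_iff _).mp (by rw [map_inv₀, hy₂, inv_one]))
  have hε₂ : V₁.valuation (y * w') < 1 := by
    rw [map_mul]
    calc V₁.valuation y * V₁.valuation w' ≤ V₁.valuation y * 1 :=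
          mul_le_mul' le_rfl ((V₁.valuation_le_one_iff _).mpr hw'₁)
      _ = V₁.valuation y := mul_one _
      _ < 1 := hy₁
  have hε₂' : V₂.valuation (y * w' / f - 1) < 1 := by
    have : y * w' / f - 1 = y / f * (w' - (y / f)⁻¹) := by
      rw [mul_sub, mul_inv_cancel₀ hyf0]
      ring
    rw [this, map_mul, hy₂, one_mul]
    exact hw'₂
  -- lifts of the two residues
  obtain ⟨z₁, hz₁₂, hz₁⟩ := exists_lift V₁ V₂ h21 r₁ hr₁
  obtain ⟨z₂, hz₂₁, hz₂⟩ := exists_lift V₂ V₁ h12 r₂ hr₂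
  have hz₁₁ : V₁.valuation z₁ ≤ 1 := by
    have : z₁ = (z₁ - r₁) + r₁ := by ring
    rw [this]
    exact V₁.valuation.map_add_le hz₁.le ((V₁.valuation_le_one_iff _).mpr hr₁)
  have hz₂₂ : V₂.valuation z₂ ≤ 1 := by
    have : z₂ = (z₂ - r₂) + r₂ := by ring
    rw [this]
    exact V₂.valuation.map_add_le hz₂.le ((V₂.valuation_le_one_iff _).mpr hr₂)
  have hz₁₂' : V₂.valuation z₁ ≤ 1 := (V₂.valuation_le_one_iff _).mpr hz₁₂
  have hz₂₁' : V₁.valuation z₂ ≤ 1 := (V₁.valuation_le_one_iff _).mpr hz₂₁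
  refine ⟨x * w * z₁ + y * w' * z₂, ?_, ?_⟩
  · rw [ValuationSubring.mem_nonunits_iff]
    have : x * w * z₁ + y * w' * z₂ - r₁ = (x * w - 1) * z₁ + (z₁ - r₁) + y * w' * z₂ := by ring
    rw [this]
    refine V₁.valuation.map_add_lt (V₁.valuation.map_add_lt ?_ hz₁) ?_
    · rw [map_mul]
      calc V₁.valuation (x * w - 1) * V₁.valuation z₁ ≤ V₁.valuation (x * w - 1) * 1 :=
            mul_le_mul' le_rfl hz₁₁
        _ = V₁.valuation (x * w - 1) := mul_one _
        _ < 1 := hε₁
    · rw [map_mul]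
      calc V₁.valuation (y * w') * V₁.valuation z₂ ≤ V₁.valuation (y * w') * 1 :=
            mul_le_mul' le_rfl hz₂₁'
        _ = V₁.valuation (y * w') := mul_one _
        _ < 1 := hε₂
  · rw [ValuationSubring.mem_nonunits_iff]
    have : (x * w * z₁ + y * w' * z₂) / f - r₂ =
        (x * w / f) * z₁ + (y * w' / f - 1) * z₂ + (z₂ - r₂) := by ring
    rw [this]
    refine V₂.valuation.map_add_lt (V₂.valuation.map_add_lt ?_ ?_) hz₂
    · rw [map_mul]
      calc V₂.valuation (x * w / f) * V₂.valuation z₁ ≤ V₂.valuation (x * w / f) * 1 :=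
            mul_le_mul' le_rfl hz₁₂'
        _ = V₂.valuation (x * w / f) := mul_one _
        _ < 1 := hε₁'
    · rw [map_mul]
      calc V₂.valuation (y * w' / f - 1) * V₂.valuation z₂ ≤ V₂.valuation (y * w' / f - 1) * 1 :=
            mul_le_mul' le_rfl hz₂₂
        _ = V₂.valuation (y * w' / f - 1) := mul_one _
        _ < 1 := hε₂'

/-- **Existence of cartesian families (T2).**  From residually independent families `β` at `V₁`
and `γ` at `V₂` one gets a cartesian family for the twisted balls, indexed by the disjoint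
union, whose first part lifts `β` (and is small at `V₂`) and whose second part lifts `γ`
(and is small at `V₁`). -/
theorem exists_isCartesian (h₁ : V₁.comap (algebraMap E F) = V₀)
    (h₂ : V₂.comap (algebraMap E F) = V₀) (h12 : ¬ V₁ ≤ V₂) (h21 : ¬ V₂ ≤ V₁)
    {f : F} (hf : TwistAdmissible V₁ V₂ f)
    {ι₁ ι₂ : Type*} [Fintype ι₁] [Fintype ι₂] {β : ι₁ → F} {γ : ι₂ → F}
    (hβ : ResIndep V₀ V₁ β) (hγ : ResIndep V₀ V₂ γ) :
    ∃ e : ι₁ ⊕ ι₂ → F, IsCartesian V₀ V₁ V₂ f e ∧
      (∀ i, e (Sum.inl i) - β i ∈ V₁.nonunits) ∧ (∀ i, e (Sum.inl i) / f ∈ V₂.nonunits) ∧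
      (∀ j, e (Sum.inr j) ∈ V₁.nonunits) ∧ (∀ j, e (Sum.inr j) / f - γ j ∈ V₂.nonunits) := by
  have hb : ∀ i, ∃ z : F, z - β i ∈ V₁.nonunits ∧ z / f - 0 ∈ V₂.nonunits :=
    fun i => exists_approx_twisted h12 h21 hf (β i) 0 (hβ.1 i) V₂.zero_mem
  have hc : ∀ j, ∃ z : F, z - 0 ∈ V₁.nonunits ∧ z / f - γ j ∈ V₂.nonunits :=
    fun j => exists_approx_twisted h12 h21 hf 0 (γ j) V₁.zero_mem (hγ.1 j)
  choose b hb₁ hb₂ using hb
  choose c hc₁ hc₂ using hc
  simp only [sub_zero] at hb₂ hc₁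
  refine ⟨Sum.elim b c, isCartesian_sumElim h₁ h₂ (hβ.congr h₁ hb₁) hb₂ hc₁ (hγ.congr h₂ hc₂),
    ?_, ?_, ?_, ?_⟩
  · intro i; exact hb₁ i
  · intro i; exact hb₂ i
  · intro j; exact hc₁ j
  · intro j; exact hc₂ j

end Cartesian

/-! ## Part 4: consequences of a cartesian basis for the untwisted balls (T3) -/

section Consequences

variable {E F : Type*} [Field E] [Field F] [Algebra E F]
variable {V₀ : ValuationSubring E} {V₁ V₂ : ValuationSubring F}

theorem mem_twBall_one {a : F} : a ∈ twBall V₁ V₂ 1 ↔ a ∈ V₁ ∧ a ∈ V₂ := by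
  rw [mem_twBall_iff, div_one]

theorem mem_twOpenBall_one {a : F} :
    a ∈ twOpenBall V₁ V₂ 1 ↔ a ∈ V₁.nonunits ∧ a ∈ V₂.nonunits := by
  rw [mem_twOpenBall_iff, div_one]

section Scale

variable {ι : Type*} [Fintype ι] {e : ι → F}

/-- Every nonzero element is, up to a scalar of `E`, an element of `V₁ ∩ V₂` which is a unit at
`V₁` or at `V₂`. -/
theorem IsCartesian.exists_scale (he : IsCartesian V₀ V₁ V₂ 1 e)
    (hspan : Submodule.span E (Set.range e) = ⊤) (z : F) (hz : z ≠ 0) :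
    ∃ d : E, d ≠ 0 ∧ V₁.valuation (z / algebraMap E F d) ≤ 1 ∧
      V₂.valuation (z / algebraMap E F d) ≤ 1 ∧
      (V₁.valuation (z / algebraMap E F d) = 1 ∨ V₂.valuation (z / algebraMap E F d) = 1) := by
  classical
  have hz' : z ∈ Submodule.span E (Set.range e) := by rw [hspan]; exact Submodule.mem_top
  obtain ⟨a, rfl⟩ := (Submodule.mem_span_range_iff_exists_fun E).mp hz'
  obtain ⟨k₁, hk₁⟩ : ∃ k, a k ≠ 0 := by
    by_contra hcon
    push Not at hcon
    exact hz (Finset.sum_eq_zero fun k _ => by rw [hcon k, zero_smul])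
  obtain ⟨k₀, -, hk₀⟩ := Finset.exists_max_image Finset.univ (fun k => V₀.valuation (a k))
    ⟨k₁, Finset.mem_univ _⟩
  have hdpos : 0 < V₀.valuation (a k₀) := by
    have h1 : 0 < V₀.valuation (a k₁) := by
      rw [pos_iff_ne_zero, ne_eq, map_eq_zero]
      exact hk₁
    exact h1.trans_le (hk₀ k₁ (Finset.mem_univ _))
  have hd0 : a k₀ ≠ 0 := by
    intro h0
    rw [h0, map_zero] at hdpos
    exact lt_irrefl _ hdpos
  have hsm : (∑ k, a k • e k) / algebraMap E F (a k₀) = ∑ k, ((a k₀)⁻¹ * a k) • e k := by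
    rw [div_eq_inv_mul, ← map_inv₀, ← Algebra.smul_def, Finset.smul_sum]
    exact Finset.sum_congr rfl fun i _ => (mul_smul _ _ _).symm
  have hcl : ∑ k, ((a k₀)⁻¹ * a k) • e k ∈ twBall V₁ V₂ 1 := (he.closed_iff _).mpr fun k => by
    rw [← V₀.valuation_le_one_iff, map_mul, map_inv₀, inv_mul_le_iff₀ hdpos, mul_one]
    exact hk₀ k (Finset.mem_univ _)
  have hop : ∑ k, ((a k₀)⁻¹ * a k) • e k ∉ twOpenBall V₁ V₂ 1 := fun h => by
    have := (he.open_iff _).mp h k₀
    rw [inv_mul_cancel₀ hd0] at this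
    exact one_notMem_nonunits V₀ this
  rw [mem_twBall_one] at hcl
  rw [mem_twOpenBall_one] at hop
  have hc1 := (V₁.valuation_le_one_iff _).mpr hcl.1
  have hc2 := (V₂.valuation_le_one_iff _).mpr hcl.2
  refine ⟨a k₀, hd0, ?_, ?_, ?_⟩
  · rw [hsm]; exact hc1
  · rw [hsm]; exact hc2
  · rw [hsm]
    by_contra hcon
    push Not at hcon
    exact hop ⟨(ValuationSubring.mem_nonunits_iff _).mpr (lt_of_le_of_ne hc1 hcon.1),
      (ValuationSubring.mem_nonunits_iff _).mpr (lt_of_le_of_ne hc2 hcon.2)⟩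

end Scale

/-- Auxiliary: the value group of `V₂` is that of `V₀` as soon as scaling as in
`IsCartesian.exists_scale` is possible. -/
theorem exists_val_eq_aux (h₁ : V₁.comap (algebraMap E F) = V₀)
    (h₂ : V₂.comap (algebraMap E F) = V₀)
    (hA : ∀ z : F, z ≠ 0 → ∃ d : E, d ≠ 0 ∧ V₁.valuation (z / algebraMap E F d) ≤ 1 ∧
      V₂.valuation (z / algebraMap E F d) ≤ 1 ∧
      (V₁.valuation (z / algebraMap E F d) = 1 ∨ V₂.valuation (z / algebraMap E F d) = 1))
    (x : F) (hx : x ≠ 0) : ∃ a : E, a ≠ 0 ∧ V₂.valuation (x / algebraMap E F a) = 1 := by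
  obtain ⟨d, hd0, hd₁, hd₂, hd⟩ := hA x hx
  obtain ⟨d', hd'0, hd'₁, hd'₂, hd'⟩ := hA x⁻¹ (inv_ne_zero hx)
  have hdF : algebraMap E F d ≠ 0 := (_root_.map_ne_zero _).mpr hd0
  have hd'F : algebraMap E F d' ≠ 0 := (_root_.map_ne_zero _).mpr hd'0
  by_cases hc : V₂.valuation (x / algebraMap E F d) = 1
  · exact ⟨d, hd0, hc⟩
  by_cases hc' : V₂.valuation (x⁻¹ / algebraMap E F d') = 1
  · refine ⟨d'⁻¹, inv_ne_zero hd'0, ?_⟩
    have : x / algebraMap E F d'⁻¹ = (x⁻¹ / algebraMap E F d')⁻¹ := by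
      rw [map_inv₀]
      field_simp
    rw [this, map_inv₀, hc', inv_one]
  exfalso
  have e1 : V₁.valuation (x / algebraMap E F d) = 1 := hd.resolve_right hc
  have e1' : V₁.valuation (x⁻¹ / algebraMap E F d') = 1 := hd'.resolve_right hc'
  have l2 : V₂.valuation (x / algebraMap E F d) < 1 := lt_of_le_of_ne hd₂ hc
  have hprod : x / algebraMap E F d * (x⁻¹ / algebraMap E F d') = (algebraMap E F (d * d'))⁻¹ := by
    rw [map_mul]
    field_simp
  have p1 : V₁.valuation (algebraMap E F (d * d'))⁻¹ = 1 := by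
    rw [← hprod, map_mul, e1, e1', one_mul]
  have p2 : V₂.valuation (algebraMap E F (d * d'))⁻¹ < 1 := by
    rw [← hprod, map_mul]
    calc V₂.valuation (x / algebraMap E F d) * V₂.valuation (x⁻¹ / algebraMap E F d')
        ≤ V₂.valuation (x / algebraMap E F d) * 1 := mul_le_mul' le_rfl hd'₂
      _ = V₂.valuation (x / algebraMap E F d) := mul_one _
      _ < 1 := l2
  rw [map_inv₀, inv_eq_one] at p1
  rw [map_inv₀] at p2
  have q1 : V₀.valuation (d * d') = 1 := (val_eq_one_iff_of_comap h₁ _).mp p1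
  have q2 : V₂.valuation (algebraMap E F (d * d')) = 1 := (val_eq_one_iff_of_comap h₂ _).mpr q1
  rw [q2, inv_one] at p2
  exact lt_irrefl _ p2

section ValueGroup

variable {ι : Type*} [Fintype ι] {e : ι → F}

/-- **(T3, `e = 1` at `V₂`)**: the value group of `V₂` is the value group of `V₀`. -/
theorem IsCartesian.exists_val_eq_right (he : IsCartesian V₀ V₁ V₂ 1 e)
    (hspan : Submodule.span E (Set.range e) = ⊤) (h₁ : V₁.comap (algebraMap E F) = V₀)
    (h₂ : V₂.comap (algebraMap E F) = V₀) (x : F) (hx : x ≠ 0) :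
    ∃ a : E, a ≠ 0 ∧ V₂.valuation (x / algebraMap E F a) = 1 :=
  exists_val_eq_aux h₁ h₂ (he.exists_scale hspan) x hx

/-- **(T3, `e = 1` at `V₁`)**: the value group of `V₁` is the value group of `V₀`. -/
theorem IsCartesian.exists_val_eq_left (he : IsCartesian V₀ V₁ V₂ 1 e)
    (hspan : Submodule.span E (Set.range e) = ⊤) (h₁ : V₁.comap (algebraMap E F) = V₀)
    (h₂ : V₂.comap (algebraMap E F) = V₀) (x : F) (hx : x ≠ 0) :
    ∃ a : E, a ≠ 0 ∧ V₁.valuation (x / algebraMap E F a) = 1 :=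
  exists_val_eq_aux h₂ h₁ (fun z hz => by
    obtain ⟨d, h0, hv1, hv2, hv3⟩ := he.exists_scale hspan z hz
    exact ⟨d, h0, hv2, hv1, hv3.symm⟩) x hx

end ValueGroup

/-- A root of a monic polynomial with coefficients in `V₀` lies in every valuation ring lying
over `V₀`. -/
theorem mem_of_monic_root {V : ValuationSubring F} (hV : V.comap (algebraMap E F) = V₀)
    {p : E[X]} (hp : p.Monic) (hc : ∀ i, p.coeff i ∈ V₀) {z : F} (hz : aeval z p = 0) :
    z ∈ V := by
  by_contra hzV
  have h1 : 1 < V.valuation z := by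
    rw [← not_le, V.valuation_le_one_iff]; exact hzV
  have hpos : 0 < V.valuation z := zero_lt_one.trans h1
  rw [Polynomial.aeval_eq_sum_range, Finset.sum_range_succ, hp.coeff_natDegree, one_smul] at hz
  have hlt : V.valuation (∑ i ∈ Finset.range p.natDegree, p.coeff i • z ^ i) <
      V.valuation z ^ p.natDegree := by
    refine V.valuation.map_sum_lt (pow_ne_zero _ hpos.ne') fun i hi => ?_
    rw [Algebra.smul_def, map_mul, map_pow]
    calc V.valuation (algebraMap E F (p.coeff i)) * V.valuation z ^ i ≤ 1 * V.valuation z ^ i :=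
          mul_le_mul' ((val_le_one_iff_of_comap hV _).mpr
            ((V₀.valuation_le_one_iff _).mpr (hc i))) le_rfl
      _ = V.valuation z ^ i := one_mul _
      _ < V.valuation z ^ p.natDegree := pow_lt_pow_right₀ h1 (Finset.mem_range.mp hi)
  have hneg : z ^ p.natDegree = -∑ i ∈ Finset.range p.natDegree, p.coeff i • z ^ i :=
    eq_neg_of_add_eq_zero_right hz
  have h2 : V.valuation (z ^ p.natDegree) = V.valuation z ^ p.natDegree := map_pow _ _ _
  rw [hneg, Valuation.map_neg] at h2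
  exact hlt.ne h2

section Basis

variable {ι : Type*} [Fintype ι] [DecidableEq ι]

/-- **(T4, integrality of the multiplication matrix)** For `z ∈ V₁ ∩ V₂` the matrix of
multiplication by `z` in a cartesian basis has entries in `V₀`. -/
theorem IsCartesian.leftMulMatrix_mem (𝔟 : Module.Basis ι E F)
    (he : IsCartesian V₀ V₁ V₂ 1 𝔟) {z : F} (hz₁ : z ∈ V₁) (hz₂ : z ∈ V₂) (l k : ι) :
    Algebra.leftMulMatrix 𝔟 z l k ∈ V₀ := by
  rw [Algebra.leftMulMatrix_eq_repr_mul]
  have hmem : z * 𝔟 k ∈ twBall V₁ V₂ 1 := by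
    have := he.mem k
    rw [mem_twBall_one] at this ⊢
    exact ⟨V₁.mul_mem _ _ hz₁ this.1, V₂.mul_mem _ _ hz₂ this.2⟩
  have := (he.closed_iff (fun l => 𝔟.repr (z * 𝔟 k) l)).mp (by rw [𝔟.sum_repr]; exact hmem)
  exact this l

/-- **(T4)** For `z ∈ V₁ ∩ V₂` the characteristic polynomial of multiplication by `z` has
coefficients in `V₀`. -/
theorem IsCartesian.charpoly_coeff_mem (𝔟 : Module.Basis ι E F)
    (he : IsCartesian V₀ V₁ V₂ 1 𝔟) {z : F} (hz₁ : z ∈ V₁) (hz₂ : z ∈ V₂) (i : ℕ) :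
    (Algebra.leftMulMatrix 𝔟 z).charpoly.coeff i ∈ V₀ := by
  let M₀ : Matrix ι ι V₀ :=
    fun l k => ⟨Algebra.leftMulMatrix 𝔟 z l k, he.leftMulMatrix_mem 𝔟 hz₁ hz₂ l k⟩
  have hM : Algebra.leftMulMatrix 𝔟 z = M₀.map V₀.subtype := by
    ext l k
    rfl
  rw [hM, Matrix.charpoly_map, Polynomial.coeff_map]
  exact (M₀.charpoly.coeff i).2

/-- `V₁ ∩ V₂` is contained in every valuation ring lying over `V₀` (it is integral over `V₀`). -/
theorem IsCartesian.mem_of_comap (𝔟 : Module.Basis ι E F) (he : IsCartesian V₀ V₁ V₂ 1 𝔟)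
    {V : ValuationSubring F} (hV : V.comap (algebraMap E F) = V₀) {z : F} (hz₁ : z ∈ V₁)
    (hz₂ : z ∈ V₂) : z ∈ V := by
  refine mem_of_monic_root hV (Matrix.charpoly_monic (Algebra.leftMulMatrix 𝔟 z))
    (he.charpoly_coeff_mem 𝔟 hz₁ hz₂) ?_
  apply Algebra.leftMulMatrix_injective 𝔟
  rw [map_zero, ← Polynomial.aeval_algHom_apply, Matrix.aeval_self_charpoly]

end Basis

/-- If `V` contains `V₁ ∩ V₂`, its maximal ideal contains `m₁ ∩ m₂`, and some `t ≡ 1` at `V₁`,
`t ≡ 0` at `V₂` is `≡ 1` at `V`, then `V₁ ≤ V`. -/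
theorem le_of_idem {V : ValuationSubring F} (h21 : ¬ V₂ ≤ V₁)
    (hB : ∀ s, s ∈ V₁ → s ∈ V₂ → s ∈ V)
    (hm : ∀ s, s ∈ V₁.nonunits → s ∈ V₂.nonunits → s ∈ V.nonunits)
    {t : F} (ht₁ : V₁.valuation (t - 1) < 1) (ht₂ : V₂.valuation t < 1)
    (ht : V.valuation (t - 1) < 1) : V₁ ≤ V := by
  intro u hu
  by_cases hu2 : u ∈ V₂
  · exact hB u hu hu2
  obtain ⟨y, hy₂, hy₁⟩ := exists_unit_nonunit V₂ V₁ h21
  have hu1 : V₁.valuation u ≤ 1 := (V₁.valuation_le_one_iff u).mpr hu
  have hu2' : 1 < V₂.valuation u := by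
    rw [← not_le, V₂.valuation_le_one_iff]; exact hu2
  have huy₁ : V₁.valuation (u * y) < 1 := by
    rw [map_mul]
    calc V₁.valuation u * V₁.valuation y ≤ 1 * V₁.valuation y := mul_le_mul' hu1 le_rfl
      _ = V₁.valuation y := one_mul _
      _ < 1 := hy₁
  have hd₁ : V₁.valuation (1 + u * y) = 1 := V₁.valuation.map_one_add_of_lt huy₁
  have hd₂ : V₂.valuation (1 + u * y) = V₂.valuation u := by
    rw [V₂.valuation.map_add_eq_of_lt_right, map_mul, hy₂, mul_one]
    rw [map_one, map_mul, hy₂, mul_one]; exact hu2'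
  have hne : 1 + u * y ≠ 0 := by
    intro h0
    rw [h0, map_zero] at hd₁
    exact zero_ne_one hd₁
  have hu0 : V₂.valuation u ≠ 0 := by
    intro h0; rw [h0] at hu2'; exact not_lt_bot hu2'
  -- `t' = 1 / (1 + u y)` and `w = u t'`
  have ht'₁ : V₁.valuation (1 + u * y)⁻¹ = 1 := by rw [map_inv₀, hd₁, inv_one]
  have ht'₁' : V₁.valuation (1 - (1 + u * y)⁻¹) < 1 := by
    have : 1 - (1 + u * y)⁻¹ = u * y / (1 + u * y) := by field_simp; ring
    rw [this, map_div₀, hd₁, div_one]
    exact huy₁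
  have ht'₂ : V₂.valuation (1 + u * y)⁻¹ < 1 := by
    rw [map_inv₀, hd₂]
    exact inv_lt_one_of_one_lt₀ hu2'
  have hw₁ : u * (1 + u * y)⁻¹ ∈ V₁ := by
    rw [← V₁.valuation_le_one_iff, map_mul, ht'₁, mul_one]
    exact hu1
  have hw₂ : u * (1 + u * y)⁻¹ ∈ V₂ := by
    rw [← V₂.valuation_le_one_iff, map_mul, map_inv₀, hd₂, mul_inv_cancel₀ hu0]
  have hwV : u * (1 + u * y)⁻¹ ∈ V := hB _ hw₁ hw₂
  have ht₁' : V₁.valuation t ≤ 1 := by
    have : t = (t - 1) + 1 := by ring
    rw [this]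
    exact V₁.valuation.map_add_le ht₁.le (le_of_eq (map_one _))
  have htV : V.valuation t = 1 := by
    have : t = 1 + (t - 1) := by ring
    rw [this]
    exact V.valuation.map_one_add_of_lt ht
  have hs : (1 - (1 + u * y)⁻¹) * t ∈ V.nonunits := by
    refine hm _ ?_ ?_
    · rw [ValuationSubring.mem_nonunits_iff, map_mul]
      calc V₁.valuation (1 - (1 + u * y)⁻¹) * V₁.valuation t
          ≤ V₁.valuation (1 - (1 + u * y)⁻¹) * 1 := mul_le_mul' le_rfl ht₁'
        _ = V₁.valuation (1 - (1 + u * y)⁻¹) := mul_one _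
        _ < 1 := ht'₁'
    · rw [ValuationSubring.mem_nonunits_iff, map_mul]
      have h1 : V₂.valuation (1 - (1 + u * y)⁻¹) ≤ 1 :=
        V₂.valuation.map_sub_le (le_of_eq (map_one _)) ht'₂.le
      calc V₂.valuation (1 - (1 + u * y)⁻¹) * V₂.valuation t ≤ 1 * V₂.valuation t :=
            mul_le_mul' h1 le_rfl
        _ = V₂.valuation t := one_mul _
        _ < 1 := ht₂
  rw [ValuationSubring.mem_nonunits_iff, map_mul, htV, mul_one] at hs
  have ht'V : V.valuation (1 + u * y)⁻¹ = 1 := by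
    have : (1 + u * y)⁻¹ = 1 - (1 - (1 + u * y)⁻¹) := by ring
    rw [this]
    exact V.valuation.map_one_sub_of_lt hs
  rw [← V.valuation_le_one_iff]
  have hu_eq : u = u * (1 + u * y)⁻¹ / (1 + u * y)⁻¹ := by
    field_simp
  rw [hu_eq, map_div₀, ht'V, div_one]
  exact (V.valuation_le_one_iff _).mpr hwV

/-- **(T3, no third extension)**: if `V₁ ≠ V₂` lie over `V₀` and admit a cartesian basis for
the untwisted balls, they are the only valuation rings of `F` lying over `V₀`. -/
theorem IsCartesian.eq_or_eq_of_comap [Algebra.IsAlgebraic E F] {ι : Type*} [Fintype ι]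
    (𝔟 : Module.Basis ι E F) (he : IsCartesian V₀ V₁ V₂ 1 𝔟)
    (h₁ : V₁.comap (algebraMap E F) = V₀) (h₂ : V₂.comap (algebraMap E F) = V₀)
    (hne : V₁ ≠ V₂) {V : ValuationSubring F} (hV : V.comap (algebraMap E F) = V₀) :
    V = V₁ ∨ V = V₂ := by
  classical
  have h12 := not_le_of_comap_eq h₁ h₂ hne
  have h21 := not_le_of_comap_eq h₂ h₁ hne.symm
  have hB : ∀ s, s ∈ V₁ → s ∈ V₂ → s ∈ V := fun s hs₁ hs₂ => he.mem_of_comap 𝔟 hV hs₁ hs₂
  have hm : ∀ s, s ∈ V₁.nonunits → s ∈ V₂.nonunits → s ∈ V.nonunits := by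
    intro s hs₁ hs₂
    obtain ⟨a, ha, rfl⟩ := he.exists_coeff_open 𝔟.span_eq (mem_twOpenBall_one.mpr ⟨hs₁, hs₂⟩)
    exact sum_smul_mem_nonunits_left hV _ (fun k _ => ha k) (fun k _ => by
      have := mem_twBall_one.mp (he.mem k)
      exact hB _ this.1 this.2)
  obtain ⟨e₀, he₁, he₂⟩ := exists_idem V₁ V₂ h12 h21
  have h1 : V₁.valuation e₀ ≤ 1 := by
    have : e₀ = (e₀ - 1) + 1 := by ring
    rw [this]
    exact V₁.valuation.map_add_le he₁.le (le_of_eq (map_one _))
  have h2 : V₂.valuation (e₀ - 1) ≤ 1 := V₂.valuation.map_sub_le he₂.le (le_of_eq (map_one _))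
  have hs : e₀ * (e₀ - 1) ∈ V.nonunits := by
    refine hm _ ?_ ?_
    · rw [ValuationSubring.mem_nonunits_iff, map_mul]
      calc V₁.valuation e₀ * V₁.valuation (e₀ - 1) ≤ 1 * V₁.valuation (e₀ - 1) :=
            mul_le_mul' h1 le_rfl
        _ = V₁.valuation (e₀ - 1) := one_mul _
        _ < 1 := he₁
    · rw [ValuationSubring.mem_nonunits_iff, map_mul]
      calc V₂.valuation e₀ * V₂.valuation (e₀ - 1) ≤ V₂.valuation e₀ * 1 :=
            mul_le_mul' le_rfl h2
        _ = V₂.valuation e₀ := mul_one _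
        _ < 1 := he₂
  rw [ValuationSubring.mem_nonunits_iff, map_mul] at hs
  have hVe' : V.valuation (e₀ - 1) ≤ 1 := by
    rw [V.valuation_le_one_iff]
    exact hB _ ((V₁.valuation_le_one_iff _).mp he₁.le) ((V₂.valuation_le_one_iff _).mp h2)
  by_cases hlt : V.valuation (e₀ - 1) < 1
  · left
    exact (eq_of_le_of_comap_eq h₁ hV (le_of_idem h21 hB hm he₁ he₂ hlt)).symm
  · right
    have hVe1 : V.valuation (e₀ - 1) = 1 := le_antisymm hVe' (not_lt.mp hlt)
    rw [hVe1, mul_one] at hs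
    have hle : V₂ ≤ V := by
      refine le_of_idem (V₁ := V₂) (V₂ := V₁) (t := 1 - e₀) h12 (fun s a b => hB s b a)
        (fun s a b => hm s b a) ?_ ?_ ?_
      · rw [show 1 - e₀ - 1 = -e₀ by ring, Valuation.map_neg]; exact he₂
      · rw [← Valuation.map_neg, neg_sub]; exact he₁
      · rw [show 1 - e₀ - 1 = -e₀ by ring, Valuation.map_neg]; exact hs
    exact (eq_of_le_of_comap_eq h₂ hV hle).symm

end Consequences

/-! ## Part 5: the packaged theorems -/

section Main

variable {E F : Type*} [Field E] [Field F] [Algebra E F] [FiniteDimensional E F]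
variable {V₀ : ValuationSubring E} {V₁ V₂ : ValuationSubring F}
variable {ι₁ ι₂ : Type*} [Fintype ι₁] [Fintype ι₂] {β : ι₁ → F} {γ : ι₂ → F}

/-- **Cartesian basis (T2), twisted form.**  `V₁ ≠ V₂` lying over `V₀`, residually independent
families `β` (at `V₁`) and `γ` (at `V₂`) with `#β + #γ = [F : E]`, `f` an admissible twist.
Then `F` has an `E`-basis `𝔟` indexed by the disjoint union which is cartesian for the twisted
balls `{a ∈ V₁, a / f ∈ V₂}` and `{a ∈ m₁, a / f ∈ m₂}`; its first part lifts `β` and is small at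
`V₂`, its second part is small at `V₁` and lifts `γ` (after division by `f`). -/
theorem exists_cartesian_basis (h₁ : V₁.comap (algebraMap E F) = V₀)
    (h₂ : V₂.comap (algebraMap E F) = V₀) (hne : V₁ ≠ V₂)
    (hβ : ResIndep V₀ V₁ β) (hγ : ResIndep V₀ V₂ γ)
    (hcard : Fintype.card ι₁ + Fintype.card ι₂ = Module.finrank E F)
    {f : F} (hf : TwistAdmissible V₁ V₂ f) :
    ∃ 𝔟 : Module.Basis (ι₁ ⊕ ι₂) E F, IsCartesian V₀ V₁ V₂ f 𝔟 ∧
      (∀ i, 𝔟 (Sum.inl i) - β i ∈ V₁.nonunits) ∧ (∀ i, 𝔟 (Sum.inl i) / f ∈ V₂.nonunits) ∧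
      (∀ j, 𝔟 (Sum.inr j) ∈ V₁.nonunits) ∧ (∀ j, 𝔟 (Sum.inr j) / f - γ j ∈ V₂.nonunits) := by
  obtain ⟨e, he, p1, p2, p3, p4⟩ := exists_isCartesian h₁ h₂ (not_le_of_comap_eq h₁ h₂ hne)
    (not_le_of_comap_eq h₂ h₁ hne.symm) hf hβ hγ
  have hsp := he.span_eq_top (by rw [Fintype.card_sum, hcard])
  refine ⟨Module.Basis.mk he.linearIndependent hsp.ge, ?_, ?_, ?_, ?_, ?_⟩
  · rw [Module.Basis.coe_mk]; exact he
  · intro i; rw [Module.Basis.coe_mk]; exact p1 i
  · intro i; rw [Module.Basis.coe_mk]; exact p2 i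
  · intro j; rw [Module.Basis.coe_mk]; exact p3 j
  · intro j; rw [Module.Basis.coe_mk]; exact p4 j

/-- **Two-valuation package (T3).**  Under the hypotheses of `exists_cartesian_basis`:
`V₁`, `V₂` are the only valuation rings of `F` over `V₀`, and both have the value group of `V₀`
(`e = 1`). -/
theorem twoVal_package (h₁ : V₁.comap (algebraMap E F) = V₀)
    (h₂ : V₂.comap (algebraMap E F) = V₀) (hne : V₁ ≠ V₂)
    (hβ : ResIndep V₀ V₁ β) (hγ : ResIndep V₀ V₂ γ)
    (hcard : Fintype.card ι₁ + Fintype.card ι₂ = Module.finrank E F) :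
    (∀ V : ValuationSubring F, V.comap (algebraMap E F) = V₀ → V = V₁ ∨ V = V₂) ∧
      (∀ x : F, x ≠ 0 → ∃ a : E, a ≠ 0 ∧ V₁.valuation (x / algebraMap E F a) = 1) ∧
      (∀ x : F, x ≠ 0 → ∃ a : E, a ≠ 0 ∧ V₂.valuation (x / algebraMap E F a) = 1) := by
  obtain ⟨𝔟, he, -⟩ := exists_cartesian_basis h₁ h₂ hne hβ hγ hcard
    (twistAdmissible_one (not_le_of_comap_eq h₁ h₂ hne) (not_le_of_comap_eq h₂ h₁ hne.symm))
  exact ⟨fun V hV => he.eq_or_eq_of_comap 𝔟 h₁ h₂ hne hV,
    he.exists_val_eq_left 𝔟.span_eq h₁ h₂, he.exists_val_eq_right 𝔟.span_eq h₁ h₂⟩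

end Main

/-! ## Part 6: admissible twists from the archimedean property -/

section Arch

variable {E F : Type*} [Field E] [Field F] [Algebra E F]
variable {V₀ : ValuationSubring E} {V₁ V₂ : ValuationSubring F}

/-- Archimedean property ("rank at most one") of a valuation ring, in elementary form. -/
def IsArch (V₀ : ValuationSubring E) : Prop :=
  ∀ a : E, a ∈ V₀.nonunits → a ≠ 0 → ∀ d : E, d ≠ 0 → ∃ k : ℕ, a ^ k / d ∈ V₀

/-- If `V₀` is archimedean and both `V₁`, `V₂` have the value group of `V₀`, every nonzero `f`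
is an admissible twist. -/
theorem twistAdmissible_of_isArch (harch : IsArch V₀) (h₁ : V₁.comap (algebraMap E F) = V₀)
    (h₂ : V₂.comap (algebraMap E F) = V₀) (h12 : ¬ V₁ ≤ V₂) (h21 : ¬ V₂ ≤ V₁)
    (hval₁ : ∀ x : F, x ≠ 0 → ∃ a : E, a ≠ 0 ∧ V₁.valuation (x / algebraMap E F a) = 1)
    (hval₂ : ∀ x : F, x ≠ 0 → ∃ a : E, a ≠ 0 ∧ V₂.valuation (x / algebraMap E F a) = 1)
    {f : F} (hf : f ≠ 0) : TwistAdmissible V₁ V₂ f := by
  obtain ⟨c, hc0, hc⟩ := hval₂ f hf
  have hcF : algebraMap E F c ≠ 0 := (_root_.map_ne_zero _).mpr hc0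
  have hvc : V₂.valuation (algebraMap E F c) ≠ 0 := by
    rw [ne_eq, map_eq_zero]; exact hcF
  have hfc : V₂.valuation f = V₂.valuation (algebraMap E F c) := by
    rw [map_div₀, div_eq_one_iff_eq hvc] at hc
    exact hc
  refine ⟨hf, ?_, ?_⟩
  · obtain ⟨x₀, hx₁, hx₂⟩ := exists_unit_nonunit V₁ V₂ h12
    have hx0 : x₀ ≠ 0 := by
      rintro rfl
      rw [map_zero] at hx₁
      exact zero_ne_one hx₁
    obtain ⟨a, ha0, ha⟩ := hval₂ x₀ hx0
    have haF : V₂.valuation (algebraMap E F a) ≠ 0 := by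
      rw [ne_eq, map_eq_zero]; exact (_root_.map_ne_zero _).mpr ha0
    have hxa : V₂.valuation x₀ = V₂.valuation (algebraMap E F a) := by
      rw [map_div₀, div_eq_one_iff_eq haF] at ha
      exact ha
    have ham : a ∈ V₀.nonunits := by
      rw [← mem_nonunits_iff_of_comap h₂, ValuationSubring.mem_nonunits_iff, ← hxa]
      exact hx₂
    obtain ⟨k, hk⟩ := harch a ham ha0 (c * a) (mul_ne_zero hc0 ha0)
    refine ⟨x₀ ^ k, by rw [map_pow, hx₁, one_pow], ?_⟩
    have hmem : V₀.valuation (a ^ k / c) < 1 := by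
      have : a ^ k / c = a ^ k / (c * a) * a := by field_simp
      rw [this, map_mul]
      calc V₀.valuation (a ^ k / (c * a)) * V₀.valuation a ≤ 1 * V₀.valuation a :=
            mul_le_mul' ((V₀.valuation_le_one_iff _).mpr hk) le_rfl
        _ = V₀.valuation a := one_mul _
        _ < 1 := (ValuationSubring.mem_nonunits_iff _).mp ham
    have h3 : V₂.valuation (x₀ ^ k / f) = V₂.valuation (algebraMap E F (a ^ k / c)) := by
      rw [map_div₀, map_pow, hxa, hfc, map_div₀, map_pow, map_div₀, map_pow]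
    rw [h3]
    exact (val_lt_one_iff_of_comap h₂ _).mpr hmem
  · obtain ⟨y₀, hy₂, hy₁⟩ := exists_unit_nonunit V₂ V₁ h21
    have hy0 : y₀ ≠ 0 := by
      rintro rfl
      rw [map_zero] at hy₂
      exact zero_ne_one hy₂
    obtain ⟨a, ha0, ha⟩ := hval₁ y₀ hy0
    have haF : V₁.valuation (algebraMap E F a) ≠ 0 := by
      rw [ne_eq, map_eq_zero]; exact (_root_.map_ne_zero _).mpr ha0
    have hya : V₁.valuation y₀ = V₁.valuation (algebraMap E F a) := by
      rw [map_div₀, div_eq_one_iff_eq haF] at ha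
      exact ha
    have ham : a ∈ V₀.nonunits := by
      rw [← mem_nonunits_iff_of_comap h₁, ValuationSubring.mem_nonunits_iff, ← hya]
      exact hy₁
    obtain ⟨k, hk⟩ := harch a ham ha0 (a / c) (div_ne_zero ha0 hc0)
    refine ⟨algebraMap E F c * y₀ ^ k, ?_, ?_⟩
    · have hmem : V₀.valuation (c * a ^ k) < 1 := by
        have : c * a ^ k = a ^ k / (a / c) * a := by field_simp
        rw [this, map_mul]
        calc V₀.valuation (a ^ k / (a / c)) * V₀.valuation a ≤ 1 * V₀.valuation a :=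
              mul_le_mul' ((V₀.valuation_le_one_iff _).mpr hk) le_rfl
          _ = V₀.valuation a := one_mul _
          _ < 1 := (ValuationSubring.mem_nonunits_iff _).mp ham
      have h3 : V₁.valuation (algebraMap E F c * y₀ ^ k) =
          V₁.valuation (algebraMap E F (c * a ^ k)) := by
        rw [map_mul, map_pow, hya, map_mul, map_pow, map_mul, map_pow]
      rw [h3]
      exact (val_lt_one_iff_of_comap h₁ _).mpr hmem
    · rw [map_div₀, map_mul, map_pow, hy₂, one_pow, mul_one, hfc, div_self hvc]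

/-- **Cartesian basis for every twist, archimedean case.**  As `exists_cartesian_basis`, for an
arbitrary `f ≠ 0`, when `V₀` is archimedean. -/
theorem exists_cartesian_basis_of_isArch [FiniteDimensional E F] (harch : IsArch V₀)
    (h₁ : V₁.comap (algebraMap E F) = V₀) (h₂ : V₂.comap (algebraMap E F) = V₀) (hne : V₁ ≠ V₂)
    {ι₁ ι₂ : Type*} [Fintype ι₁] [Fintype ι₂] {β : ι₁ → F} {γ : ι₂ → F}
    (hβ : ResIndep V₀ V₁ β) (hγ : ResIndep V₀ V₂ γ)
    (hcard : Fintype.card ι₁ + Fintype.card ι₂ = Module.finrank E F) {f : F} (hf : f ≠ 0) :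
    ∃ 𝔟 : Module.Basis (ι₁ ⊕ ι₂) E F, IsCartesian V₀ V₁ V₂ f 𝔟 ∧
      (∀ i, 𝔟 (Sum.inl i) - β i ∈ V₁.nonunits) ∧ (∀ i, 𝔟 (Sum.inl i) / f ∈ V₂.nonunits) ∧
      (∀ j, 𝔟 (Sum.inr j) ∈ V₁.nonunits) ∧ (∀ j, 𝔟 (Sum.inr j) / f - γ j ∈ V₂.nonunits) := by
  obtain ⟨-, hv₁, hv₂⟩ := twoVal_package h₁ h₂ hne hβ hγ hcard
  exact exists_cartesian_basis h₁ h₂ hne hβ hγ hcard
    (twistAdmissible_of_isArch harch h₁ h₂ (not_le_of_comap_eq h₁ h₂ hne)
      (not_le_of_comap_eq h₂ h₁ hne.symm) hv₁ hv₂ hf)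

end Arch

/-! ## Part 7: constants — the tower `L ⊂ E ⊂ F` with a residually transcendental generator -/

section Gauss

variable {L E : Type*} [Field L] [Field E] [Algebra L E]
variable {A : ValuationSubring L} {V₀ : ValuationSubring E} {x : E}

/-- `x ∈ E` is a *Gauss element* for `(L, A) ⊂ (E, V₀)`: `x ∈ V₀` and its residue is
transcendental over the residue field of `A` (element-wise form). -/
def GaussElt (A : ValuationSubring L) (V₀ : ValuationSubring E) (x : E) : Prop :=
  x ∈ V₀ ∧ ∀ p : L[X], (∀ i, p.coeff i ∈ A) → aeval x p ∈ V₀.nonunits →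
    ∀ i, p.coeff i ∈ A.nonunits

theorem GaussElt.aeval_mem (hx : GaussElt A V₀ x) (hA : V₀.comap (algebraMap L E) = A)
    {p : L[X]} (hp : ∀ i, p.coeff i ∈ A) : aeval x p ∈ V₀ := by
  rw [Polynomial.aeval_eq_sum_range]
  exact sum_mem fun i _ => smul_mem_of_comap hA (hp i) (pow_mem hx.1 i)

theorem GaussElt.aeval_mem_nonunits (hx : GaussElt A V₀ x)
    (hA : V₀.comap (algebraMap L E) = A) {p : L[X]} (hp : ∀ i, p.coeff i ∈ A.nonunits) :
    aeval x p ∈ V₀.nonunits := by
  rw [Polynomial.aeval_eq_sum_range]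
  exact sum_mem fun i _ => smul_mem_nonunits_left hA (hp i) (pow_mem hx.1 i)

/-- Scaling a nonzero polynomial by its coefficient of maximal valuation. -/
theorem exists_max_coeff (A : ValuationSubring L) {p : L[X]} (hp0 : p ≠ 0) :
    ∃ m, p.coeff m ≠ 0 ∧ (∀ i, A.valuation (p.coeff i) ≤ A.valuation (p.coeff m)) ∧
      (∀ i, (C (p.coeff m)⁻¹ * p).coeff i ∈ A) ∧ (C (p.coeff m)⁻¹ * p).coeff m = 1 := by
  obtain ⟨m, hm, hmax⟩ := Finset.exists_max_image p.support (fun i => A.valuation (p.coeff i))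
    (Polynomial.support_nonempty.mpr hp0)
  have hd0 : p.coeff m ≠ 0 := Polynomial.mem_support_iff.mp hm
  have hdpos : 0 < A.valuation (p.coeff m) := by
    rw [pos_iff_ne_zero, ne_eq, map_eq_zero]
    exact hd0
  have hall : ∀ i, A.valuation (p.coeff i) ≤ A.valuation (p.coeff m) := by
    intro i
    by_cases hi : i ∈ p.support
    · exact hmax i hi
    · rw [Polynomial.notMem_support_iff.mp hi, map_zero]
      exact zero_le
  refine ⟨m, hd0, hall, fun i => ?_, ?_⟩
  · rw [Polynomial.coeff_C_mul, ← A.valuation_le_one_iff, map_mul, map_inv₀,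
      inv_mul_le_iff₀ hdpos, mul_one]
    exact hall i
  · rw [Polynomial.coeff_C_mul, inv_mul_cancel₀ hd0]

/-- **Gauss lemma, closed form**: `p(x) ∈ V₀` iff all coefficients are in `A`. -/
theorem GaussElt.aeval_mem_iff (hx : GaussElt A V₀ x) (hA : V₀.comap (algebraMap L E) = A)
    (p : L[X]) : aeval x p ∈ V₀ ↔ ∀ i, p.coeff i ∈ A := by
  refine ⟨fun h => ?_, hx.aeval_mem hA⟩
  by_contra hcon
  have hp0 : p ≠ 0 := by
    rintro rfl
    exact hcon fun i => by rw [Polynomial.coeff_zero]; exact A.zero_mem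
  obtain ⟨m, hd0, hall, hq, hqm⟩ := exists_max_coeff A hp0
  have hd1 : 1 < A.valuation (p.coeff m) := by
    by_contra hle
    rw [not_lt] at hle
    exact hcon fun i => (A.valuation_le_one_iff _).mp ((hall i).trans hle)
  have hmem : aeval x (C (p.coeff m)⁻¹ * p) ∈ V₀.nonunits := by
    rw [map_mul, Polynomial.aeval_C, ← Algebra.smul_def]
    refine smul_mem_nonunits_left hA ?_ h
    rw [ValuationSubring.mem_nonunits_iff, map_inv₀]
    exact inv_lt_one_of_one_lt₀ hd1
  have h1 := hx.2 _ hq hmem m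
  rw [hqm] at h1
  exact one_notMem_nonunits A h1

/-- **Gauss lemma, open form**: `p(x) ∈ m₀` iff all coefficients are in `m_A`. -/
theorem GaussElt.aeval_mem_nonunits_iff (hx : GaussElt A V₀ x)
    (hA : V₀.comap (algebraMap L E) = A) (p : L[X]) :
    aeval x p ∈ V₀.nonunits ↔ ∀ i, p.coeff i ∈ A.nonunits :=
  ⟨fun h => hx.2 p ((hx.aeval_mem_iff hA p).mp (V₀.nonunits_subset h)) h,
    hx.aeval_mem_nonunits hA⟩

/-- A nonzero polynomial value is a constant times a unit of `V₀`. -/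
theorem GaussElt.exists_unit_scale (hx : GaussElt A V₀ x) (hA : V₀.comap (algebraMap L E) = A)
    {q : L[X]} (hq : q ≠ 0) :
    ∃ d : L, d ≠ 0 ∧ V₀.valuation (aeval x (C d⁻¹ * q)) = 1 := by
  obtain ⟨m, hd0, -, hq', hqm⟩ := exists_max_coeff A hq
  refine ⟨q.coeff m, hd0, le_antisymm ?_ (not_lt.mp fun hlt => ?_)⟩
  · exact (V₀.valuation_le_one_iff _).mpr (hx.aeval_mem hA hq')
  · have h1 := (hx.aeval_mem_nonunits_iff hA _).mp
      ((ValuationSubring.mem_nonunits_iff _).mpr hlt) m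
    rw [hqm] at h1
    exact one_notMem_nonunits A h1

/-- If `E = L(x)` for a Gauss element `x`, the value group of `V₀` is that of `A`. -/
theorem GaussElt.exists_val_eq (hx : GaussElt A V₀ x) (hA : V₀.comap (algebraMap L E) = A)
    (hgen : ∀ a : E, ∃ p q : L[X], aeval x q ≠ 0 ∧ a * aeval x q = aeval x p)
    (a : E) (ha : a ≠ 0) : ∃ l : L, l ≠ 0 ∧ V₀.valuation (a / algebraMap L E l) = 1 := by
  obtain ⟨p, q, hq, hpq⟩ := hgen a
  have hp : aeval x p ≠ 0 := by rw [← hpq]; exact mul_ne_zero ha hq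
  have hp0 : p ≠ 0 := by rintro rfl; exact hp (map_zero _)
  have hq0 : q ≠ 0 := by rintro rfl; exact hq (map_zero _)
  obtain ⟨d, hd0, hd⟩ := hx.exists_unit_scale hA hp0
  obtain ⟨d', hd'0, hd'⟩ := hx.exists_unit_scale hA hq0
  rw [map_mul, Polynomial.aeval_C, map_mul] at hd hd'
  have hdF : algebraMap L E d ≠ 0 := (_root_.map_ne_zero _).mpr hd0
  have hd'F : algebraMap L E d' ≠ 0 := (_root_.map_ne_zero _).mpr hd'0
  refine ⟨d / d', div_ne_zero hd0 hd'0, ?_⟩
  have hval : V₀.valuation (aeval x q) ≠ 0 := by rw [ne_eq, map_eq_zero]; exact hq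
  have h1 : V₀.valuation a * V₀.valuation (aeval x q) = V₀.valuation (aeval x p) := by
    rw [← map_mul, hpq]
  have h2 : V₀.valuation (aeval x p) = V₀.valuation (algebraMap L E d) := by
    rw [map_inv₀, map_inv₀] at hd
    have hne : V₀.valuation (algebraMap L E d) ≠ 0 := by rw [ne_eq, map_eq_zero]; exact hdF
    rw [inv_mul_eq_one₀ hne] at hd
    exact hd.symm
  have h3 : V₀.valuation (aeval x q) = V₀.valuation (algebraMap L E d') := by
    rw [map_inv₀, map_inv₀] at hd'
    have hne : V₀.valuation (algebraMap L E d') ≠ 0 := by rw [ne_eq, map_eq_zero]; exact hd'F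
    rw [inv_mul_eq_one₀ hne] at hd'
    exact hd'.symm
  have hva : V₀.valuation a ≠ 0 := by rw [ne_eq, map_eq_zero]; exact ha
  rw [map_div₀, map_div₀, map_div₀, ← h2, ← h3, ← h1, mul_div_assoc, div_self hval, mul_one,
    div_self hva]

/-- The archimedean property passes from `A` to the Gauss ring of `L(x)`. -/
theorem GaussElt.isArch (hx : GaussElt A V₀ x) (hA : V₀.comap (algebraMap L E) = A)
    (hgen : ∀ a : E, ∃ p q : L[X], aeval x q ≠ 0 ∧ a * aeval x q = aeval x p)
    (harch : IsArch A) : IsArch V₀ := by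
  intro a ham ha0 d hd0
  obtain ⟨l, hl0, hl⟩ := hx.exists_val_eq hA hgen a ha0
  obtain ⟨l', hl'0, hl'⟩ := hx.exists_val_eq hA hgen d hd0
  have hlF : V₀.valuation (algebraMap L E l) ≠ 0 := by
    rw [ne_eq, map_eq_zero]; exact (_root_.map_ne_zero _).mpr hl0
  have hl'F : V₀.valuation (algebraMap L E l') ≠ 0 := by
    rw [ne_eq, map_eq_zero]; exact (_root_.map_ne_zero _).mpr hl'0
  rw [map_div₀, div_eq_one_iff_eq hlF] at hl
  rw [map_div₀, div_eq_one_iff_eq hl'F] at hl'
  have hlm : l ∈ A.nonunits := by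
    rw [← mem_nonunits_iff_of_comap hA, ValuationSubring.mem_nonunits_iff, ← hl]
    exact (ValuationSubring.mem_nonunits_iff _).mp ham
  obtain ⟨k, hk⟩ := harch l hlm hl0 l' hl'0
  refine ⟨k, ?_⟩
  rw [← V₀.valuation_le_one_iff, map_div₀, map_pow, hl, hl', ← map_pow, ← map_div₀, ← map_pow,
    ← map_div₀]
  exact (val_le_one_iff_of_comap hA _).mpr ((A.valuation_le_one_iff _).mpr hk)

end Gauss

section Tower

variable {L E F : Type*} [Field L] [Field E] [Field F] [Algebra L E] [Algebra E F] [Algebra L F]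
  [IsScalarTower L E F]
variable {A : ValuationSubring L} {V₀ : ValuationSubring E} {V₁ V₂ : ValuationSubring F}
variable {ι : Type*}

/-- The double family `x ^ n • e k`. -/
def towerFamily (x : E) (e : ι → F) : ℕ × ι → F := fun p => x ^ p.1 • e p.2

/-- The polynomial of the `k`-th column of a finitely supported coefficient family. -/
noncomputable def towerPoly (c : (ℕ × ι) →₀ L) (k : ι) : L[X] :=
  ∑ n ∈ c.support.image Prod.fst, monomial n (c (n, k))

theorem coeff_towerPoly (c : (ℕ × ι) →₀ L) (k : ι) (n : ℕ) :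
    (towerPoly c k).coeff n = c (n, k) := by
  classical
  rw [towerPoly, Polynomial.finsetSum_coeff]
  simp only [Polynomial.coeff_monomial]
  rw [Finset.sum_ite_eq']
  split_ifs with h
  · rfl
  · symm
    by_contra hne
    exact h (Finset.mem_image.mpr ⟨(n, k), Finsupp.mem_support_iff.mpr hne, rfl⟩)

theorem linearCombination_towerFamily [Fintype ι] (x : E) (e : ι → F) (c : (ℕ × ι) →₀ L) :
    Finsupp.linearCombination L (towerFamily x e) c = ∑ k, aeval x (towerPoly c k) • e k := by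
  classical
  rw [Finsupp.linearCombination_apply, Finsupp.sum]
  have hsub : c.support ⊆ (c.support.image Prod.fst) ×ˢ (Finset.univ : Finset ι) := by
    intro p hp
    rw [Finset.mem_product]
    exact ⟨Finset.mem_image_of_mem _ hp, Finset.mem_univ _⟩
  rw [Finset.sum_subset hsub (fun p _ hp => by
    rw [Finsupp.notMem_support_iff.mp hp, zero_smul]), Finset.sum_product, Finset.sum_comm]
  refine Finset.sum_congr rfl fun k _ => ?_
  rw [towerPoly, map_sum, Finset.sum_smul]
  refine Finset.sum_congr rfl fun n _ => ?_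
  rw [Polynomial.aeval_monomial, ← Algebra.smul_def, smul_assoc]
  rfl

section Ortho

variable [Fintype ι] {f : F} {e : ι → F} {x : E}

/-- **(T5) closed ball, constants**: the double family `x ^ n • e k` is orthonormal over
`(L, A)` for the twisted closed ball (the `horth` of `S18/helper9056_Cartesian`). -/
theorem IsCartesian.tower_mem_iff (he : IsCartesian V₀ V₁ V₂ f e)
    (hA : V₀.comap (algebraMap L E) = A) (hx : GaussElt A V₀ x) (c : (ℕ × ι) →₀ L) :
    Finsupp.linearCombination L (towerFamily x e) c ∈ twBall V₁ V₂ f ↔ ∀ p, c p ∈ A := by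
  rw [linearCombination_towerFamily, he.closed_iff]
  constructor
  · intro h p
    have := (hx.aeval_mem_iff hA _).mp (h p.2) p.1
    rwa [coeff_towerPoly] at this
  · intro h k
    exact (hx.aeval_mem_iff hA _).mpr fun n => by rw [coeff_towerPoly]; exact h (n, k)

/-- **(T5) open ball, constants** (the `horth₀` of `S18/helper9056_Cartesian`). -/
theorem IsCartesian.tower_mem_open_iff (he : IsCartesian V₀ V₁ V₂ f e)
    (hA : V₀.comap (algebraMap L E) = A) (hx : GaussElt A V₀ x) (c : (ℕ × ι) →₀ L) :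
    Finsupp.linearCombination L (towerFamily x e) c ∈ twOpenBall V₁ V₂ f ↔
      ∀ p, A.valuation (c p) < 1 := by
  rw [linearCombination_towerFamily, he.open_iff]
  constructor
  · intro h p
    have := (hx.aeval_mem_nonunits_iff hA _).mp (h p.2) p.1
    rw [coeff_towerPoly] at this
    exact (ValuationSubring.mem_nonunits_iff _).mp this
  · intro h k
    exact (hx.aeval_mem_nonunits_iff hA _).mpr fun n => by
      rw [coeff_towerPoly]
      exact (ValuationSubring.mem_nonunits_iff _).mpr (h (n, k))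

end Ortho

/-- A family which is orthonormal for an "open ball" containing `0` is linearly independent. -/
theorem linearIndependent_of_open_iff {κ M : Type*} [AddCommGroup M] [Module L M]
    (A : ValuationSubring L) (Λ₀ : Set M) (u : κ → M)
    (horth₀ : ∀ c : κ →₀ L, Finsupp.linearCombination L u c ∈ Λ₀ ↔ ∀ p, A.valuation (c p) < 1) :
    LinearIndependent L u := by
  rw [linearIndependent_iff]
  intro c hc
  by_contra hne
  obtain ⟨p₀, hp₀⟩ : ∃ p, c p ≠ 0 := by
    by_contra h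
    push Not at h
    exact hne (Finsupp.ext h)
  have h00 : (0 : M) ∈ Λ₀ := by
    have := (horth₀ 0).mpr (fun p => by rw [Finsupp.zero_apply, map_zero]; exact zero_lt_one)
    rwa [map_zero] at this
  have h0 : Finsupp.linearCombination L u ((c p₀)⁻¹ • c) ∈ Λ₀ := by
    rw [map_smul, hc, smul_zero]
    exact h00
  have h1 := (horth₀ _).mp h0 p₀
  rw [Finsupp.smul_apply, smul_eq_mul, inv_mul_cancel₀ hp₀, map_one] at h1
  exact lt_irrefl _ h1

theorem IsCartesian.tower_linearIndependent [Fintype ι] {f : F} {e : ι → F} {x : E}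
    (he : IsCartesian V₀ V₁ V₂ f e) (hA : V₀.comap (algebraMap L E) = A)
    (hx : GaussElt A V₀ x) : LinearIndependent L (towerFamily x e) :=
  linearIndependent_of_open_iff A _ _ (he.tower_mem_open_iff hA hx)

/-! ### Denominators -/

theorem smul_mem_span_towerFamily (x : E) (e : ι → F) {z : F}
    (hz : z ∈ Submodule.span L (Set.range (towerFamily x e))) :
    x • z ∈ Submodule.span L (Set.range (towerFamily x e)) := by
  induction hz using Submodule.span_induction with
  | mem z hz =>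
    obtain ⟨p, rfl⟩ := hz
    refine Submodule.subset_span ⟨(p.1 + 1, p.2), ?_⟩
    simp only [towerFamily]
    rw [smul_smul, pow_succ']
  | zero => rw [smul_zero]; exact Submodule.zero_mem _
  | add a b _ _ ha hb => rw [smul_add]; exact Submodule.add_mem _ ha hb
  | smul l a _ ha =>
    rw [smul_comm]
    exact Submodule.smul_mem _ _ ha

theorem pow_smul_mem_span_towerFamily (x : E) (e : ι → F) (n : ℕ) {z : F}
    (hz : z ∈ Submodule.span L (Set.range (towerFamily x e))) :
    x ^ n • z ∈ Submodule.span L (Set.range (towerFamily x e)) := by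
  induction n with
  | zero => rwa [pow_zero, one_smul]
  | succ n ih =>
    rw [pow_succ', mul_smul]
    exact smul_mem_span_towerFamily x e ih

theorem aeval_smul_mem_span_towerFamily (x : E) (e : ι → F) (r : L[X]) {z : F}
    (hz : z ∈ Submodule.span L (Set.range (towerFamily x e))) :
    aeval x r • z ∈ Submodule.span L (Set.range (towerFamily x e)) := by
  rw [Polynomial.aeval_eq_sum_range, Finset.sum_smul]
  refine Submodule.sum_mem _ fun n _ => ?_
  rw [smul_assoc]
  exact Submodule.smul_mem _ _ (pow_smul_mem_span_towerFamily x e n hz)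

omit [Algebra L E] [IsScalarTower L E F] in
theorem mem_span_towerFamily (x : E) (e : ι → F) (k : ι) :
    e k ∈ Submodule.span L (Set.range (towerFamily x e)) := by
  refine Submodule.subset_span ⟨(0, k), ?_⟩
  simp only [towerFamily]
  rw [pow_zero, one_smul]

/-- **Denominators**: if `E = L(x)` and `e` spans `F` over `E`, every element of `F` is moved
into the `L`-span of the double family by a nonzero polynomial in `x`. -/
theorem exists_denominator [Fintype ι] {x : E} {e : ι → F}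
    (hgen : ∀ a : E, ∃ p q : L[X], aeval x q ≠ 0 ∧ a * aeval x q = aeval x p)
    (hspan : Submodule.span E (Set.range e) = ⊤) (z : F) :
    ∃ q : L[X], aeval x q ≠ 0 ∧
      aeval x q • z ∈ Submodule.span L (Set.range (towerFamily x e)) := by
  classical
  have hz : z ∈ Submodule.span E (Set.range e) := by rw [hspan]; exact Submodule.mem_top
  obtain ⟨a, rfl⟩ := (Submodule.mem_span_range_iff_exists_fun E).mp hz
  choose P Q hQ hPQ using fun k => hgen (a k)
  refine ⟨∏ k, Q k, ?_, ?_⟩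
  · rw [map_prod]
    exact Finset.prod_ne_zero_iff.mpr fun k _ => hQ k
  · rw [Finset.smul_sum]
    refine Submodule.sum_mem _ fun k _ => ?_
    have h1 : aeval x (∏ k, Q k) • a k • e k =
        aeval x (P k * ∏ k' ∈ Finset.univ.erase k, Q k') • e k := by
      rw [smul_smul, map_mul, ← hPQ k, ← Finset.mul_prod_erase Finset.univ Q (Finset.mem_univ k),
        map_mul]
      congr 1
      ring
    rw [h1]
    exact aeval_smul_mem_span_towerFamily x e _ (mem_span_towerFamily x e k)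

/-- Common denominator for a finite-dimensional `L`-subspace. -/
theorem exists_denominator_submodule [Fintype ι] {x : E} {e : ι → F}
    (hgen : ∀ a : E, ∃ p q : L[X], aeval x q ≠ 0 ∧ a * aeval x q = aeval x p)
    (hspan : Submodule.span E (Set.range e) = ⊤) (W : Submodule L F) [FiniteDimensional L W] :
    ∃ q : L[X], aeval x q ≠ 0 ∧
      ∀ z ∈ W, aeval x q • z ∈ Submodule.span L (Set.range (towerFamily x e)) := by
  classical
  obtain ⟨t, ht⟩ : W.FG := (Submodule.fg_iff_finiteDimensional W).mpr inferInstance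
  choose q hq0 hq using exists_denominator (L := L) hgen hspan
  refine ⟨∏ w ∈ t, q w, ?_, ?_⟩
  · rw [map_prod]
    exact Finset.prod_ne_zero_iff.mpr fun w _ => hq0 w
  · intro z hz
    rw [← ht] at hz
    induction hz using Submodule.span_induction with
    | mem z hz =>
      have hz' : z ∈ t := hz
      rw [← Finset.mul_prod_erase t q hz', mul_comm, map_mul, mul_smul]
      exact aeval_smul_mem_span_towerFamily x e _ (hq z)
    | zero => rw [smul_zero]; exact Submodule.zero_mem _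
    | add a b _ _ ha hb => rw [smul_add]; exact Submodule.add_mem _ ha hb
    | smul l a _ ha =>
      rw [smul_comm]
      exact Submodule.smul_mem _ _ ha

/-- Scaling by a unit of `V₀` preserves the twisted closed ball. -/
theorem smul_mem_twBall_iff (h₁ : V₁.comap (algebraMap E F) = V₀)
    (h₂ : V₂.comap (algebraMap E F) = V₀) {f : F} {u : E} (hu : V₀.valuation u = 1) (z : F) :
    u • z ∈ twBall V₁ V₂ f ↔ z ∈ twBall V₁ V₂ f := by
  rw [mem_twBall_iff, mem_twBall_iff, smul_div_assoc, Algebra.smul_def, Algebra.smul_def,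
    ← V₁.valuation_le_one_iff, ← V₂.valuation_le_one_iff, map_mul, map_mul,
    (val_eq_one_iff_of_comap h₁ u).mpr hu, (val_eq_one_iff_of_comap h₂ u).mpr hu, one_mul,
    one_mul, V₁.valuation_le_one_iff, V₂.valuation_le_one_iff]

/-- Scaling by a unit of `V₀` preserves the twisted open ball. -/
theorem smul_mem_twOpenBall_iff (h₁ : V₁.comap (algebraMap E F) = V₀)
    (h₂ : V₂.comap (algebraMap E F) = V₀) {f : F} {u : E} (hu : V₀.valuation u = 1) (z : F) :
    u • z ∈ twOpenBall V₁ V₂ f ↔ z ∈ twOpenBall V₁ V₂ f := by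
  rw [mem_twOpenBall_iff, mem_twOpenBall_iff, smul_div_assoc, Algebra.smul_def,
    Algebra.smul_def, ValuationSubring.mem_nonunits_iff, ValuationSubring.mem_nonunits_iff,
    ValuationSubring.mem_nonunits_iff, ValuationSubring.mem_nonunits_iff, map_mul, map_mul,
    (val_eq_one_iff_of_comap h₁ u).mpr hu, (val_eq_one_iff_of_comap h₂ u).mpr hu, one_mul,
    one_mul]

/-- **(T5) consumer form.**  Tower `L ⊂ E = L(x) ⊂ F`, `x` a Gauss element for `(L, A)`,
`e` a cartesian `E`-basis of `F` for the twisted balls.  For every finite-dimensional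
`L`-subspace `W` of `F` there is an `L`-linearly independent family `ê` whose span contains `W`
and which is orthonormal over `(L, A)` for the twisted closed and open balls: exactly the input
of `Fermat.Agent.S18.helper9056.exists_orthonormal_basis_closed_open`. -/
theorem exists_tower_family [Fintype ι] {f : F} {e : ι → F} {x : E}
    (he : IsCartesian V₀ V₁ V₂ f e) (hspan : Submodule.span E (Set.range e) = ⊤)
    (h₁ : V₁.comap (algebraMap E F) = V₀) (h₂ : V₂.comap (algebraMap E F) = V₀)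
    (hA : V₀.comap (algebraMap L E) = A) (hx : GaussElt A V₀ x)
    (hgen : ∀ a : E, ∃ p q : L[X], aeval x q ≠ 0 ∧ a * aeval x q = aeval x p)
    (W : Submodule L F) [FiniteDimensional L W] :
    ∃ ê : ℕ × ι → F, LinearIndependent L ê ∧ W ≤ Submodule.span L (Set.range ê) ∧
      (∀ c : (ℕ × ι) →₀ L, Finsupp.linearCombination L ê c ∈ twBall V₁ V₂ f ↔ ∀ p, c p ∈ A) ∧
      (∀ c : (ℕ × ι) →₀ L, Finsupp.linearCombination L ê c ∈ twOpenBall V₁ V₂ f ↔
        ∀ p, A.valuation (c p) < 1) := by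
  obtain ⟨q, hq, hqW⟩ := exists_denominator_submodule (L := L) hgen hspan W
  have hq0 : q ≠ 0 := by rintro rfl; exact hq (map_zero _)
  obtain ⟨d, hd0, hd⟩ := hx.exists_unit_scale hA hq0
  set u : E := aeval x (C d⁻¹ * q) with hu
  have hu0 : u ≠ 0 := by
    intro h0
    rw [h0, map_zero] at hd
    exact zero_ne_one hd
  have huinv : V₀.valuation u⁻¹ = 1 := by rw [map_inv₀, hd, inv_one]
  have hlc : ∀ c : (ℕ × ι) →₀ L,
      Finsupp.linearCombination L (fun p => u⁻¹ • towerFamily x e p) c =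
        u⁻¹ • Finsupp.linearCombination L (towerFamily x e) c := by
    intro c
    rw [Finsupp.linearCombination_apply, Finsupp.linearCombination_apply, Finsupp.sum,
      Finsupp.sum, Finset.smul_sum]
    exact Finset.sum_congr rfl fun p _ => smul_comm _ _ _
  have horth : ∀ c : (ℕ × ι) →₀ L,
      Finsupp.linearCombination L (fun p => u⁻¹ • towerFamily x e p) c ∈ twBall V₁ V₂ f ↔
        ∀ p, c p ∈ A := by
    intro c
    rw [hlc, smul_mem_twBall_iff h₁ h₂ huinv]
    exact he.tower_mem_iff hA hx c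
  have horth₀ : ∀ c : (ℕ × ι) →₀ L,
      Finsupp.linearCombination L (fun p => u⁻¹ • towerFamily x e p) c ∈ twOpenBall V₁ V₂ f ↔
        ∀ p, A.valuation (c p) < 1 := by
    intro c
    rw [hlc, smul_mem_twOpenBall_iff h₁ h₂ huinv]
    exact he.tower_mem_open_iff hA hx c
  refine ⟨fun p => u⁻¹ • towerFamily x e p, linearIndependent_of_open_iff A _ _ horth₀, ?_,
    horth, horth₀⟩
  intro z hz
  have h1 : u • z ∈ Submodule.span L (Set.range (towerFamily x e)) := by
    have : u • z = d⁻¹ • (aeval x q • z) := by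
      rw [hu, map_mul, Polynomial.aeval_C, mul_smul, algebraMap_smul]
    rw [this]
    exact Submodule.smul_mem _ _ (hqW z hz)
  have h2 : ∀ y ∈ Submodule.span L (Set.range (towerFamily x e)),
      u⁻¹ • y ∈ Submodule.span L (Set.range fun p => u⁻¹ • towerFamily x e p) := by
    intro y hy
    induction hy using Submodule.span_induction with
    | mem y hy =>
      obtain ⟨p, rfl⟩ := hy
      exact Submodule.subset_span ⟨p, rfl⟩
    | zero => rw [smul_zero]; exact Submodule.zero_mem _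
    | add a b _ _ ha hb => rw [smul_add]; exact Submodule.add_mem _ ha hb
    | smul l a _ ha =>
      rw [smul_comm]
      exact Submodule.smul_mem _ _ ha
  have h3 := h2 _ h1
  rwa [smul_smul, inv_mul_cancel₀ hu0, one_smul] at h3

end Tower

/-! ## Part 8: valuation rings of algebraic extensions of `ℚ` are archimedean -/

section ArchRat

variable {L : Type*} [Field L] [CharZero L] [Algebra.IsAlgebraic ℚ L] (A : ValuationSubring L)

omit [CharZero L] [Algebra.IsAlgebraic ℚ L] in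
theorem val_natCast_le_one (n : ℕ) : A.valuation (n : L) ≤ 1 :=
  (A.valuation_le_one_iff _).mpr (natCast_mem A n)

omit [CharZero L] [Algebra.IsAlgebraic ℚ L] in
theorem val_intCast_le_one (n : ℤ) : A.valuation (n : L) ≤ 1 :=
  (A.valuation_le_one_iff _).mpr (intCast_mem A n)

omit [CharZero L] [Algebra.IsAlgebraic ℚ L] in
theorem val_intCast_eq_natAbs (n : ℤ) :
    A.valuation (n : L) = A.valuation ((n.natAbs : ℕ) : L) := by
  rcases Int.natAbs_eq n with h | h
  · conv_lhs => rw [h, Int.cast_natCast]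
  · conv_lhs => rw [h, Int.cast_neg, Valuation.map_neg, Int.cast_natCast]

theorem exists_int_poly (a : L) : ∃ P : ℤ[X], P ≠ 0 ∧ aeval a P = 0 :=
  (IsFractionRing.isAlgebraic_iff ℤ ℚ L).mpr (Algebra.IsAlgebraic.isAlgebraic a)

/-- A nonzero element of `A` is bounded below by a nonzero integer. -/
theorem exists_int_val_le {d : L} (hd0 : d ≠ 0) (hd : d ∈ A) :
    ∃ N : ℤ, N ≠ 0 ∧ A.valuation (N : L) ≤ A.valuation d := by
  obtain ⟨P, hP0, hP⟩ := exists_int_poly d
  have hN : P.coeff P.natTrailingDegree ≠ 0 := Polynomial.trailingCoeff_nonzero_iff_nonzero.mpr hP0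
  refine ⟨P.coeff P.natTrailingDegree, hN, ?_⟩
  have hi₁ : P.natTrailingDegree ∈ Finset.range (P.natDegree + 1) :=
    Finset.mem_range.mpr (Nat.lt_succ_of_le (Polynomial.natTrailingDegree_le_natDegree P))
  rw [Polynomial.aeval_eq_sum_range, ← Finset.add_sum_erase _ _ hi₁] at hP
  have hvd : A.valuation d ≤ 1 := (A.valuation_le_one_iff _).mpr hd
  have hdpos : 0 < A.valuation d := by
    rw [pos_iff_ne_zero, ne_eq, map_eq_zero]
    exact hd0
  have hrest : A.valuation (∑ i ∈ (Finset.range (P.natDegree + 1)).erase P.natTrailingDegree,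
      P.coeff i • d ^ i) ≤ A.valuation d ^ (P.natTrailingDegree + 1) := by
    refine A.valuation.map_sum_le fun i hi => ?_
    have hne := Finset.ne_of_mem_erase hi
    rcases lt_or_gt_of_ne hne with hlt | hgt
    · rw [Polynomial.coeff_eq_zero_of_lt_natTrailingDegree hlt, zero_smul, map_zero]
      exact zero_le
    · rw [zsmul_eq_mul, map_mul, map_pow]
      calc A.valuation ((P.coeff i : ℤ) : L) * A.valuation d ^ i ≤ 1 * A.valuation d ^ i :=
            mul_le_mul' (val_intCast_le_one A _) le_rfl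
        _ = A.valuation d ^ i := one_mul _
        _ ≤ A.valuation d ^ (P.natTrailingDegree + 1) := pow_le_pow_right_of_le_one' hvd hgt
  have heq : P.coeff P.natTrailingDegree • d ^ P.natTrailingDegree =
      -∑ i ∈ (Finset.range (P.natDegree + 1)).erase P.natTrailingDegree, P.coeff i • d ^ i :=
    eq_neg_of_add_eq_zero_left hP
  have h1 : A.valuation ((P.coeff P.natTrailingDegree : ℤ) : L) *
      A.valuation d ^ P.natTrailingDegree ≤ A.valuation d ^ (P.natTrailingDegree + 1) := by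
    rw [← map_pow, ← map_mul, ← zsmul_eq_mul, heq, Valuation.map_neg]
    exact hrest
  rw [pow_succ, mul_comm (A.valuation d ^ P.natTrailingDegree)] at h1
  exact le_of_mul_le_mul_right h1 (pow_pos hdpos _)

/-- If the maximal ideal of `A` is nonzero it contains a prime number. -/
theorem exists_prime_val_lt_one {a : L} (ha0 : a ≠ 0) (ha : a ∈ A.nonunits) :
    ∃ p : ℕ, p.Prime ∧ A.valuation (p : L) < 1 := by
  obtain ⟨N, hN0, hN⟩ := exists_int_val_le A ha0 (A.nonunits_subset ha)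
  have hNlt : A.valuation ((N.natAbs : ℕ) : L) < 1 := by
    rw [← val_intCast_eq_natAbs]
    exact hN.trans_lt ((ValuationSubring.mem_nonunits_iff _).mp ha)
  by_contra hcon
  push Not at hcon
  have hall : ∀ n : ℕ, n ≠ 0 → A.valuation (n : L) = 1 := by
    intro n
    induction n using induction_on_primes with
    | zero => intro h; exact absurd rfl h
    | one => intro _; rw [Nat.cast_one, map_one]
    | prime_mul p a hp ih =>
      intro hpa
      have ha0 : a ≠ 0 := fun h => hpa (by rw [h, mul_zero])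
      rw [Nat.cast_mul, map_mul, ih ha0, mul_one]
      exact le_antisymm (val_natCast_le_one A p) (hcon p hp)
  have := hall N.natAbs (Int.natAbs_ne_zero.mpr hN0)
  rw [this] at hNlt
  exact lt_irrefl _ hNlt

omit [Algebra.IsAlgebraic ℚ L] [CharZero L] in
/-- The valuation of a nonzero natural number is a power of the valuation of `p`. -/
theorem exists_val_natCast_eq_pow {p : ℕ} (hp : p.Prime) (hpv : A.valuation (p : L) < 1)
    {n : ℕ} (hn : n ≠ 0) : ∃ s : ℕ, A.valuation (n : L) = A.valuation (p : L) ^ s := by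
  obtain ⟨s, n', hn', rfl⟩ := Nat.exists_eq_pow_mul_and_not_dvd hn p hp.ne_one
  refine ⟨s, ?_⟩
  have hcop : Nat.Coprime p n' := (Nat.Prime.coprime_iff_not_dvd hp).mpr hn'
  have hbez : ((Nat.gcd p n' : ℕ) : ℤ) = p * Nat.gcdA p n' + n' * Nat.gcdB p n' :=
    Nat.gcd_eq_gcd_ab p n'
  rw [hcop] at hbez
  have hbezL : (1 : L) = (p : L) * ((Nat.gcdA p n' : ℤ) : L) + (n' : L) * ((Nat.gcdB p n' : ℤ) : L) := by
    have := congrArg (Int.cast : ℤ → L) hbez
    push_cast at this
    exact this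
  have h1 : A.valuation ((p : L) * ((Nat.gcdA p n' : ℤ) : L)) < 1 := by
    rw [map_mul]
    calc A.valuation (p : L) * A.valuation ((Nat.gcdA p n' : ℤ) : L)
        ≤ A.valuation (p : L) * 1 := mul_le_mul' le_rfl (val_intCast_le_one A _)
      _ = A.valuation (p : L) := mul_one _
      _ < 1 := hpv
  have h2 : A.valuation ((n' : L) * ((Nat.gcdB p n' : ℤ) : L)) = 1 := by
    have : (n' : L) * ((Nat.gcdB p n' : ℤ) : L) = 1 - (p : L) * ((Nat.gcdA p n' : ℤ) : L) := by
      rw [hbezL]; ring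
    rw [this]
    exact A.valuation.map_one_sub_of_lt h1
  have h3 : A.valuation (n' : L) = 1 := by
    refine le_antisymm (val_natCast_le_one A n') (not_lt.mp fun hlt => ?_)
    rw [map_mul] at h2
    have : A.valuation (n' : L) * A.valuation ((Nat.gcdB p n' : ℤ) : L) < 1 := by
      calc A.valuation (n' : L) * A.valuation ((Nat.gcdB p n' : ℤ) : L)
          ≤ A.valuation (n' : L) * 1 := mul_le_mul' le_rfl (val_intCast_le_one A _)
        _ = A.valuation (n' : L) := mul_one _
        _ < 1 := hlt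
    rw [h2] at this
    exact lt_irrefl _ this
  rw [Nat.cast_mul, Nat.cast_pow, map_mul, map_pow, h3, mul_one]

omit [Algebra.IsAlgebraic ℚ L] [CharZero L] in
theorem exists_val_intCast_eq_pow {p : ℕ} (hp : p.Prime) (hpv : A.valuation (p : L) < 1)
    {n : ℤ} (hn : n ≠ 0) : ∃ s : ℕ, A.valuation (n : L) = A.valuation (p : L) ^ s := by
  rw [val_intCast_eq_natAbs]
  exact exists_val_natCast_eq_pow A hp hpv (Int.natAbs_ne_zero.mpr hn)

/-- An element of the maximal ideal has a power of valuation at most that of `p`. -/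
theorem exists_pow_le_prime {p : ℕ} (hp : p.Prime) (hpv : A.valuation (p : L) < 1) {a : L}
    (ha0 : a ≠ 0) (ha : a ∈ A.nonunits) : ∃ m : ℕ, A.valuation a ^ m ≤ A.valuation (p : L) := by
  classical
  obtain ⟨P, hP0, hP⟩ := exists_int_poly a
  have hva : A.valuation a < 1 := (ValuationSubring.mem_nonunits_iff _).mp ha
  have hapos : 0 < A.valuation a := by
    rw [pos_iff_ne_zero, ne_eq, map_eq_zero]
    exact ha0
  have hppos : 0 < A.valuation (p : L) := by
    rw [pos_iff_ne_zero, ne_eq, map_eq_zero, Nat.cast_eq_zero]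
    exact hp.ne_zero
  obtain ⟨m₀, hm₀, hmax⟩ := Finset.exists_max_image P.support
    (fun i => A.valuation ((P.coeff i : ℤ) : L)) (Polynomial.support_nonempty.mpr hP0)
  have hall : ∀ i, A.valuation ((P.coeff i : ℤ) : L) ≤ A.valuation ((P.coeff m₀ : ℤ) : L) := by
    intro i
    by_cases hi : i ∈ P.support
    · exact hmax i hi
    · rw [Polynomial.notMem_support_iff.mp hi, Int.cast_zero, map_zero]
      exact zero_le
  have hex : ∃ i, A.valuation ((P.coeff i : ℤ) : L) = A.valuation ((P.coeff m₀ : ℤ) : L) :=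
    ⟨m₀, rfl⟩
  obtain ⟨i₀, hi₀eq, hlt, hi₀m⟩ : ∃ i₀ : ℕ,
      A.valuation ((P.coeff i₀ : ℤ) : L) = A.valuation ((P.coeff m₀ : ℤ) : L) ∧
      (∀ i, i < i₀ →
        A.valuation ((P.coeff i : ℤ) : L) < A.valuation ((P.coeff m₀ : ℤ) : L)) ∧ i₀ ≤ m₀ :=
    ⟨Nat.find hex, Nat.find_spec hex,
      fun i hi => lt_of_le_of_ne (hall i) (Nat.find_min hex hi), Nat.find_min' hex rfl⟩
  have hm₀0 : P.coeff m₀ ≠ 0 := Polynomial.mem_support_iff.mp hm₀
  have hvmax_pos : 0 < A.valuation ((P.coeff m₀ : ℤ) : L) := by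
    rw [pos_iff_ne_zero, ne_eq, map_eq_zero, Int.cast_eq_zero]
    exact hm₀0
  refine ⟨i₀, ?_⟩
  by_contra hcon
  rw [not_le] at hcon
  have hi₀N : i₀ ∈ Finset.range (P.natDegree + 1) := by
    rw [Finset.mem_range]
    have h1 : i₀ ≤ m₀ := hi₀m
    have h2 : m₀ ≤ P.natDegree := Polynomial.le_natDegree_of_mem_supp m₀ hm₀
    omega
  rw [Polynomial.aeval_eq_sum_range, ← Finset.add_sum_erase _ _ hi₀N] at hP
  have hrest : A.valuation (∑ i ∈ (Finset.range (P.natDegree + 1)).erase (i₀),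
      P.coeff i • a ^ i) < A.valuation ((P.coeff m₀ : ℤ) : L) * A.valuation a ^ i₀ := by
    refine A.valuation.map_sum_lt (mul_pos hvmax_pos (pow_pos hapos _)).ne' fun i hi => ?_
    have hne := Finset.ne_of_mem_erase hi
    rw [zsmul_eq_mul, map_mul, map_pow]
    rcases lt_or_gt_of_ne hne with hlt' | hgt
    · by_cases hPi : P.coeff i = 0
      · rw [hPi, Int.cast_zero, map_zero, zero_mul]
        exact mul_pos hvmax_pos (pow_pos hapos _)
      obtain ⟨s, hs⟩ := exists_val_intCast_eq_pow A hp hpv hPi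
      obtain ⟨s₀, hs₀⟩ := exists_val_intCast_eq_pow A hp hpv hm₀0
      have h1 := hlt i hlt'
      rw [hs, hs₀] at h1 ⊢
      have hss : s₀ < s := by
        by_contra hle
        rw [not_lt] at hle
        exact absurd h1 (not_lt.mpr (pow_le_pow_right_of_le_one' hpv.le hle))
      calc A.valuation (p : L) ^ s * A.valuation a ^ i
          ≤ A.valuation (p : L) ^ (s₀ + 1) * 1 :=
            mul_le_mul' (pow_le_pow_right_of_le_one' hpv.le hss) (pow_le_one' hva.le i)
        _ = A.valuation (p : L) ^ s₀ * A.valuation (p : L) := by rw [mul_one, pow_succ]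
        _ < A.valuation (p : L) ^ s₀ * A.valuation a ^ i₀ :=
            mul_lt_mul_of_pos_left hcon (pow_pos hppos _)
    · calc A.valuation ((P.coeff i : ℤ) : L) * A.valuation a ^ i
          ≤ A.valuation ((P.coeff m₀ : ℤ) : L) * A.valuation a ^ i := mul_le_mul' (hall i) le_rfl
        _ < A.valuation ((P.coeff m₀ : ℤ) : L) * A.valuation a ^ i₀ :=
            mul_lt_mul_of_pos_left (pow_lt_pow_right_of_lt_one₀ hapos hva hgt) hvmax_pos
  have heq : P.coeff (i₀) • a ^ i₀ =
      -∑ i ∈ (Finset.range (P.natDegree + 1)).erase (i₀), P.coeff i • a ^ i :=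
    eq_neg_of_add_eq_zero_left hP
  have h1 : A.valuation (P.coeff (i₀) • a ^ i₀) =
      A.valuation ((P.coeff m₀ : ℤ) : L) * A.valuation a ^ i₀ := by
    rw [zsmul_eq_mul, map_mul, map_pow, hi₀eq]
  rw [heq, Valuation.map_neg] at h1
  exact hrest.ne h1

/-- **(T6) Valuation rings of algebraic extensions of `ℚ` are archimedean.** -/
theorem isArch_of_isAlgebraic_rat : IsArch A := by
  intro a ham ha0 d hd0
  by_cases hd : d ∈ A
  swap
  · refine ⟨0, ?_⟩
    rw [pow_zero, one_div]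
    exact (A.mem_or_inv_mem d).resolve_left hd
  obtain ⟨p, hp, hpv⟩ := exists_prime_val_lt_one A ha0 ham
  obtain ⟨m, hm⟩ := exists_pow_le_prime A hp hpv ha0 ham
  obtain ⟨N, hN0, hN⟩ := exists_int_val_le A hd0 hd
  obtain ⟨s, hs⟩ := exists_val_intCast_eq_pow A hp hpv hN0
  have hdpos : 0 < A.valuation d := by
    rw [pos_iff_ne_zero, ne_eq, map_eq_zero]
    exact hd0
  refine ⟨m * s, ?_⟩
  rw [← A.valuation_le_one_iff, map_div₀, map_pow, div_le_one₀ hdpos]
  calc A.valuation a ^ (m * s) = (A.valuation a ^ m) ^ s := pow_mul _ _ _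
    _ ≤ A.valuation (p : L) ^ s := pow_le_pow_left' hm s
    _ = A.valuation (N : L) := hs.symm
    _ ≤ A.valuation d := hN

end ArchRat

/-! ## Part 9: the twisted ball is a multiple of the untwisted one; residue bridges -/

section Addenda

variable {E F : Type*} [Field E] [Field F] [Algebra E F]
variable {V₀ : ValuationSubring E} {V₁ V₂ : ValuationSubring F}

/-- For an admissible twist `f` there is `g` with `|g|₁ = 1` and `|g|₂ = |f|₂`. -/
theorem TwistAdmissible.exists_gen (h12 : ¬ V₁ ≤ V₂) (h21 : ¬ V₂ ≤ V₁) {f : F}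
    (hf : TwistAdmissible V₁ V₂ f) :
    ∃ g : F, V₁.valuation g = 1 ∧ V₂.valuation (g / f) = 1 := by
  obtain ⟨z, hz₁, hz₂⟩ := exists_approx_twisted h12 h21 hf 1 1 V₁.one_mem V₂.one_mem
  refine ⟨z, ?_, ?_⟩
  · have : z = 1 + (z - 1) := by ring
    rw [this]
    exact V₁.valuation.map_one_add_of_lt ((ValuationSubring.mem_nonunits_iff _).mp hz₁)
  · have : z / f = 1 + (z / f - 1) := by ring
    rw [this]
    exact V₂.valuation.map_one_add_of_lt ((ValuationSubring.mem_nonunits_iff _).mp hz₂)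

/-- The twisted closed ball is `g` times the untwisted one. -/
theorem mul_mem_twBall_iff {f g : F} (hg₁ : V₁.valuation g = 1)
    (hg₂ : V₂.valuation (g / f) = 1) (a : F) :
    g * a ∈ twBall V₁ V₂ f ↔ a ∈ twBall V₁ V₂ 1 := by
  rw [mem_twBall_iff, mem_twBall_one, ← V₁.valuation_le_one_iff, ← V₂.valuation_le_one_iff,
    ← V₁.valuation_le_one_iff, ← V₂.valuation_le_one_iff, map_mul, hg₁, one_mul,
    show g * a / f = g / f * a by ring, map_mul, hg₂, one_mul]

/-- The twisted open ball is `g` times the untwisted one. -/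
theorem mul_mem_twOpenBall_iff {f g : F} (hg₁ : V₁.valuation g = 1)
    (hg₂ : V₂.valuation (g / f) = 1) (a : F) :
    g * a ∈ twOpenBall V₁ V₂ f ↔ a ∈ twOpenBall V₁ V₂ 1 := by
  rw [mem_twOpenBall_iff, mem_twOpenBall_one, ValuationSubring.mem_nonunits_iff,
    ValuationSubring.mem_nonunits_iff, ValuationSubring.mem_nonunits_iff,
    ValuationSubring.mem_nonunits_iff, map_mul, hg₁, one_mul,
    show g * a / f = g / f * a by ring, map_mul, hg₂, one_mul]

/-- A cartesian family for the untwisted balls gives one for the twisted balls. -/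
theorem IsCartesian.twist {ι : Type*} [Fintype ι] {e : ι → F} (he : IsCartesian V₀ V₁ V₂ 1 e)
    {f g : F} (hg₁ : V₁.valuation g = 1) (hg₂ : V₂.valuation (g / f) = 1) :
    IsCartesian V₀ V₁ V₂ f (fun k => g * e k) := by
  have hsum : ∀ a : ι → E, ∑ k, a k • (g * e k) = g * ∑ k, a k • e k := by
    intro a
    rw [Finset.mul_sum]
    exact Finset.sum_congr rfl fun k _ => (mul_smul_comm _ _ _).symm
  constructor
  · intro a
    rw [hsum, mul_mem_twBall_iff hg₁ hg₂]
    exact he.closed_iff a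
  · intro a
    rw [hsum, mul_mem_twOpenBall_iff hg₁ hg₂]
    exact he.open_iff a

/-- **(T7)** Residual independence from linear independence of the residues in ANY model of
the residue fields: `ρ₀ : V₀ → k₀` with kernel inside the maximal ideal, `ρ : V → k` killing
the maximal ideal, compatible with `E → F`. -/
theorem resIndep_of_linearIndependent {V : ValuationSubring F}
    (h : V.comap (algebraMap E F) = V₀) {k₀ k : Type*} [Field k₀] [Field k] [Algebra k₀ k]
    (ρ₀ : V₀ →+* k₀) (ρ : V →+* k)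
    (hρ₀ : ∀ a : V₀, ρ₀ a = 0 → (a : E) ∈ V₀.nonunits)
    (hρ : ∀ z : V, (z : F) ∈ V.nonunits → ρ z = 0)
    (hcompat : ∀ (a : V₀) (ha : algebraMap E F a ∈ V),
      ρ ⟨algebraMap E F a, ha⟩ = algebraMap k₀ k (ρ₀ a))
    {ι : Type*} [Fintype ι] (b : ι → F) (hb : ∀ i, b i ∈ V)
    (hli : LinearIndependent k₀ (fun i => ρ ⟨b i, hb i⟩)) : ResIndep V₀ V b := by
  refine ⟨hb, fun a ha hsum => ?_⟩
  have hmem : ∀ i, algebraMap E F (a i) ∈ V := fun i => (mem_iff_of_comap h _).mpr (ha i)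
  have hcoe : V.subtype (∑ i, (⟨algebraMap E F (a i), hmem i⟩ : V) * ⟨b i, hb i⟩) =
      ∑ i, a i • b i := by
    rw [map_sum]
    refine Finset.sum_congr rfl fun i _ => ?_
    rw [map_mul, Algebra.smul_def]
    rfl
  have h0 : ρ (∑ i, (⟨algebraMap E F (a i), hmem i⟩ : V) * ⟨b i, hb i⟩) = 0 := by
    refine hρ _ ?_
    have : ((∑ i, (⟨algebraMap E F (a i), hmem i⟩ : V) * ⟨b i, hb i⟩ : V) : F) =
        ∑ i, a i • b i := hcoe
    rw [this]
    exact hsum
  have h1 : ∑ i, ρ₀ ⟨a i, ha i⟩ • ρ ⟨b i, hb i⟩ = 0 := by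
    rw [← h0, map_sum]
    refine Finset.sum_congr rfl fun i _ => ?_
    rw [map_mul, Algebra.smul_def, ← hcompat ⟨a i, ha i⟩ (hmem i)]
  have h2 := Fintype.linearIndependent_iff.mp hli _ h1
  intro i
  exact hρ₀ _ (h2 i)

/-- **Residue degrees are exact (left).**  In the situation of `exists_cartesian_basis`, the
residues of `β` SPAN the residue field of `V₁` over that of `V₀`. -/
theorem exists_residue_coeff_left [FiniteDimensional E F]
    (h₁ : V₁.comap (algebraMap E F) = V₀) (h₂ : V₂.comap (algebraMap E F) = V₀) (hne : V₁ ≠ V₂)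
    {ι₁ ι₂ : Type*} [Fintype ι₁] [Fintype ι₂] {β : ι₁ → F} {γ : ι₂ → F}
    (hβ : ResIndep V₀ V₁ β) (hγ : ResIndep V₀ V₂ γ)
    (hcard : Fintype.card ι₁ + Fintype.card ι₂ = Module.finrank E F) (r : F) (hr : r ∈ V₁) :
    ∃ a : ι₁ → E, (∀ i, a i ∈ V₀) ∧ r - ∑ i, a i • β i ∈ V₁.nonunits := by
  have h12 := not_le_of_comap_eq h₁ h₂ hne
  have h21 := not_le_of_comap_eq h₂ h₁ hne.symm
  obtain ⟨𝔟, he, p1, -, p3, -⟩ := exists_cartesian_basis h₁ h₂ hne hβ hγ hcard
    (twistAdmissible_one h12 h21)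
  obtain ⟨z, hz₁, hz₂, hzr, -⟩ := exists_approx V₁ V₂ h12 h21 r 0 hr V₂.zero_mem
  obtain ⟨a, ha, hza⟩ := he.exists_coeff 𝔟.span_eq (mem_twBall_one.mpr ⟨hz₁, hz₂⟩)
  refine ⟨fun i => a (Sum.inl i), fun i => ha _, ?_⟩
  rw [Fintype.sum_sum_type] at hza
  have : r - ∑ i, a (Sum.inl i) • β i =
      -(z - r) + ∑ i, a (Sum.inl i) • (𝔟 (Sum.inl i) - β i) +
        ∑ j, a (Sum.inr j) • 𝔟 (Sum.inr j) := by
    rw [hza]
    simp only [smul_sub, Finset.sum_sub_distrib]
    ring
  rw [this]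
  exact add_mem (add_mem (neg_mem hzr)
    (sum_smul_mem_nonunits_right h₁ _ (fun i _ => ha _) (fun i _ => p1 i)))
    (sum_smul_mem_nonunits_right h₁ _ (fun j _ => ha _) (fun j _ => p3 j))

/-- **Residue degrees are exact (right).** -/
theorem exists_residue_coeff_right [FiniteDimensional E F]
    (h₁ : V₁.comap (algebraMap E F) = V₀) (h₂ : V₂.comap (algebraMap E F) = V₀) (hne : V₁ ≠ V₂)
    {ι₁ ι₂ : Type*} [Fintype ι₁] [Fintype ι₂] {β : ι₁ → F} {γ : ι₂ → F}
    (hβ : ResIndep V₀ V₁ β) (hγ : ResIndep V₀ V₂ γ)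
    (hcard : Fintype.card ι₁ + Fintype.card ι₂ = Module.finrank E F) (r : F) (hr : r ∈ V₂) :
    ∃ a : ι₂ → E, (∀ j, a j ∈ V₀) ∧ r - ∑ j, a j • γ j ∈ V₂.nonunits :=
  exists_residue_coeff_left h₂ h₁ hne.symm hγ hβ (by rw [add_comm]; exact hcard) r hr

end Addenda

end Fermat.Agent.S35.helper1024
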