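/-
S35 / S34 geometry module, brick CHARTINT (helper2459, board #2018).

Chart integrality over a valuation ring of the constants.

Setting: `L` a field with a valuation subring `A`, `F / L` a field, `t : F` a chart coordinate,
`V` a valuation subring of `F` lying over `A` for which `t` is a *Gauss element*
(`helper1024.GaussElt A V t`: `t ∈ V`, and a polynomial over `A` in `t` is small only if all its
coefficients are small).

* `GaussElt.transcendental'` : a Gauss element is transcendental over `L`.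
* `coeff_minpoly_mem_of_monic` : the minimal polynomial over an intermediate field `E` of an
  element killed by a monic polynomial with coefficients in `V ∩ E` has coefficients in `V`.
* `coeff_minpoly_mem_range_aeval` : the minimal polynomial over `L(t)` of an element integral
  over `L[t]` has coefficients in `L[t]`.
* `exists_monic_of_gauss` : **chart integrality, abstract core**.  If `f` is integral over
  `L[t]` and is killed by a monic polynomial with coefficients in `L(t) ∩ V`, then `f` is killed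
  by a monic polynomial with coefficients `p_i(t)`, `p_i ∈ A[X]`.
* `isIntegral_adjoin_of_gauss` : the same in the vocabulary
  `IsIntegral (Algebra.adjoin A0 {t}) f` for any ring `A0` mapping onto `A`.
-/
import Mathlib
import Fermat.Agent.S35.helper1024_TwoVal
import Fermat.Agent.S35.helper2423_TorFix
import Fermat.Agent.S24.helper204_Places

set_option autoImplicit false

namespace Fermat.Agent.S35.helper2459

open Polynomial IntermediateField
open Fermat.Agent.S35.helper1024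

section Core

variable {L F : Type*} [Field L] [Field F] [Algebra L F]

/-- A Gauss element is transcendental over the constants. -/
theorem transcendental_of_gaussElt {A : ValuationSubring L} {V : ValuationSubring F} {t : F}
    (ht : GaussElt A V t) : Transcendental L t := by
  intro halg
  obtain ⟨p, hp0, hp⟩ := halg
  obtain ⟨m, hd0, -, hq, hqm⟩ := exists_max_coeff A hp0
  have hmem : aeval t (C (p.coeff m)⁻¹ * p) ∈ V.nonunits := by
    rw [map_mul, hp, mul_zero, ValuationSubring.mem_nonunits_iff, map_zero]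
    exact zero_lt_one
  have h1 := ht.2 _ hq hmem m
  rw [hqm, ValuationSubring.mem_nonunits_iff, map_one] at h1
  exact lt_irrefl _ h1

/-- The minimal polynomial over an intermediate field `E` of an element killed by a monic
polynomial with coefficients in `V ∩ E` has coefficients in `V`. -/
theorem coeff_minpoly_mem_of_monic (E : IntermediateField L F) (V : ValuationSubring F) (f : F)
    (p : F[X]) (hp : p.Monic) (hpV : ∀ i, p.coeff i ∈ V) (hpE : ∀ i, p.coeff i ∈ E)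
    (hpf : aeval f p = 0) (i : ℕ) : ((minpoly E f).coeff i : F) ∈ V := by
  let VE : ValuationSubring E := V.comap (algebraMap E F)
  have h1 : p ∈ lifts (algebraMap E F) :=
    (lifts_iff_coeff_lifts p).2 fun n => ⟨⟨p.coeff n, hpE n⟩, rfl⟩
  obtain ⟨q, hq, -, hqm⟩ := lifts_and_degree_eq_and_monic h1 hp
  have hqV : ∀ n, q.coeff n ∈ VE := by
    intro n
    show algebraMap E F (q.coeff n) ∈ V
    rw [← coeff_map, hq]
    exact hpV n
  have h2 : q ∈ lifts (algebraMap VE E) :=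
    (lifts_iff_coeff_lifts q).2 fun n => ⟨⟨q.coeff n, hqV n⟩, rfl⟩
  obtain ⟨r, hr, -, hrm⟩ := lifts_and_degree_eq_and_monic h2 hqm
  have hqf : aeval f q = 0 := by
    rw [← aeval_map_algebraMap F, hq]
    exact hpf
  have hdvd : minpoly E f ∣ r.map (algebraMap VE E) := by
    rw [hr]
    exact minpoly.dvd E f hqf
  have hint : IsIntegral E f := ⟨q, hqm, by rw [← aeval_def]; exact hqf⟩
  have hmem := integralClosure.mem_lifts_of_monic_of_dvd_map E hrm (minpoly.monic hint) hdvd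
  rw [lifts_iff_coeff_lifts] at hmem
  obtain ⟨c, hc⟩ := hmem i
  have hcint : IsIntegral VE (c : E) := c.2
  obtain ⟨z, hz⟩ := IsIntegrallyClosed.isIntegral_iff.1 hcint
  have hz' : (z : E) = (minpoly E f).coeff i := by
    rw [← hc]
    exact hz
  rw [← hz']
  exact z.2

open scoped IntermediateField.algebraAdjoinAdjoin in
/-- The minimal polynomial over `L(t)` of an element integral over `L[t]` (`t` transcendental)
has coefficients in `L[t]`. -/
theorem coeff_minpoly_mem_range_aeval (t : F) (ht : Transcendental L t) (f : F)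
    (hf : IsIntegral (Algebra.adjoin L ({t} : Set F)) f) (i : ℕ) :
    ∃ q : L[X], ((minpoly L⟮t⟯ f).coeff i : F) = aeval t q := by
  obtain ⟨p', hp'm, hp'f⟩ := hf
  have hev : aeval f (p'.map (algebraMap (Algebra.adjoin L ({t} : Set F)) L⟮t⟯)) = 0 := by
    rw [aeval_def, eval₂_map, ← IsScalarTower.algebraMap_eq]
    exact hp'f
  have hdvd : minpoly L⟮t⟯ f ∣ p'.map (algebraMap (Algebra.adjoin L ({t} : Set F)) L⟮t⟯) :=
    minpoly.dvd _ _ hev
  have hint : IsIntegral L⟮t⟯ f :=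
    ⟨p'.map (algebraMap (Algebra.adjoin L ({t} : Set F)) L⟮t⟯), hp'm.map _, by
      rw [← aeval_def]; exact hev⟩
  have hmem := integralClosure.mem_lifts_of_monic_of_dvd_map L⟮t⟯ hp'm (minpoly.monic hint) hdvd
  rw [lifts_iff_coeff_lifts] at hmem
  obtain ⟨c, hc⟩ := hmem i
  have hic : IsIntegrallyClosed (Algebra.adjoin L ({t} : Set F)) := by
    have e : L[X] ≃+* Algebra.adjoin L ({t} : Set F) :=
      ((AlgEquiv.ofInjective (aeval t) (transcendental_iff_injective.1 ht)).trans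
        (Subalgebra.equivOfEq _ _ (Algebra.adjoin_singleton_eq_range_aeval L t).symm)).toRingEquiv
    exact IsIntegrallyClosed.of_equiv e
  have hcint : IsIntegral (Algebra.adjoin L ({t} : Set F)) (c : L⟮t⟯) := c.2
  obtain ⟨z, hz⟩ := IsIntegrallyClosed.isIntegral_iff.1 hcint
  have hzmem : (z : F) ∈ (aeval t : L[X] →ₐ[L] F).range := by
    rw [← Algebra.adjoin_singleton_eq_range_aeval]
    exact z.2
  obtain ⟨q, hq⟩ := hzmem
  refine ⟨q, ?_⟩
  have hq' : aeval t q = (z : F) := hq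
  have hcz : (algebraMap (integralClosure (Algebra.adjoin L ({t} : Set F)) L⟮t⟯) L⟮t⟯) c =
      algebraMap (Algebra.adjoin L ({t} : Set F)) L⟮t⟯ z := hz.symm
  rw [hq', ← hc, hcz]
  rfl

/-- **Chart integrality, abstract core.**  `t` a Gauss element for `(L, A) ⊂ (F, V)`.  If `f` is
integral over `L[t]` and is killed by a monic polynomial with coefficients in `L(t) ∩ V`, then
`f` is killed by a monic polynomial whose coefficients are `p_i(t)` with `p_i ∈ A[X]`. -/
theorem exists_monic_of_gauss (A : ValuationSubring L) (V : ValuationSubring F) (t : F)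
    (hA : V.comap (algebraMap L F) = A) (ht : GaussElt A V t) (f : F)
    (hf1 : IsIntegral (Algebra.adjoin L ({t} : Set F)) f)
    (hf2 : ∃ p : F[X], p.Monic ∧ (∀ i, p.coeff i ∈ V) ∧ (∀ i, p.coeff i ∈ L⟮t⟯) ∧
      aeval f p = 0) :
    ∃ m : F[X], m.Monic ∧ (∀ i, ∃ q : L[X], (∀ j, q.coeff j ∈ A) ∧ m.coeff i = aeval t q) ∧
      aeval f m = 0 := by
  obtain ⟨p, hpm, hpV, hpE, hpf⟩ := hf2
  have htr := transcendental_of_gaussElt ht
  have hint : IsIntegral L⟮t⟯ f := by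
    have h1 : p ∈ lifts (algebraMap L⟮t⟯ F) :=
      (lifts_iff_coeff_lifts p).2 fun n => ⟨⟨p.coeff n, hpE n⟩, rfl⟩
    obtain ⟨q, hq, -, hqm⟩ := lifts_and_degree_eq_and_monic h1 hpm
    refine ⟨q, hqm, ?_⟩
    rw [← aeval_def, ← aeval_map_algebraMap F, hq]
    exact hpf
  refine ⟨(minpoly L⟮t⟯ f).map (algebraMap L⟮t⟯ F), (minpoly.monic hint).map _, fun i => ?_, ?_⟩
  · obtain ⟨q, hq⟩ := coeff_minpoly_mem_range_aeval t htr f hf1 i
    have hV := coeff_minpoly_mem_of_monic L⟮t⟯ V f p hpm hpV hpE hpf i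
    refine ⟨q, ?_, ?_⟩
    · rw [hq] at hV
      exact (ht.aeval_mem_iff hA q).1 hV
    · rw [coeff_map, ← hq]
      rfl
  · rw [aeval_map_algebraMap]
    exact minpoly.aeval _ _

/-- **Chart integrality** in the vocabulary `IsIntegral (Algebra.adjoin A0 {t}) f`, for any
commutative ring `A0` whose image in `L` contains the valuation ring `A`. -/
theorem isIntegral_adjoin_of_gauss {A0 : Type*} [CommRing A0] [Algebra A0 L] [Algebra A0 F]
    [IsScalarTower A0 L F] (A : ValuationSubring L)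
    (hA0 : ∀ a : L, a ∈ A → a ∈ (algebraMap A0 L).range)
    (V : ValuationSubring F) (t : F)
    (hA : V.comap (algebraMap L F) = A) (ht : GaussElt A V t) (f : F)
    (hf1 : IsIntegral (Algebra.adjoin L ({t} : Set F)) f)
    (hf2 : ∃ p : F[X], p.Monic ∧ (∀ i, p.coeff i ∈ V) ∧ (∀ i, p.coeff i ∈ L⟮t⟯) ∧
      aeval f p = 0) :
    IsIntegral (Algebra.adjoin A0 ({t} : Set F)) f := by
  obtain ⟨m, hm, hcoeff, hmf⟩ := exists_monic_of_gauss A V t hA ht f hf1 hf2
  have hmem : ∀ i, m.coeff i ∈ Algebra.adjoin A0 ({t} : Set F) := by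
    intro i
    obtain ⟨q, hq, hqi⟩ := hcoeff i
    rw [hqi, aeval_eq_sum_range]
    refine Subalgebra.sum_mem _ fun j _ => ?_
    obtain ⟨a, ha⟩ := hA0 _ (hq j)
    rw [← ha, Algebra.smul_def, ← IsScalarTower.algebraMap_apply]
    exact Subalgebra.mul_mem _ (Subalgebra.algebraMap_mem _ a)
      (Subalgebra.pow_mem _ (Algebra.self_mem_adjoin_singleton A0 t) j)
  have h1 : m ∈ lifts (algebraMap (Algebra.adjoin A0 ({t} : Set F)) F) :=
    (lifts_iff_coeff_lifts m).2 fun n => ⟨⟨m.coeff n, hmem n⟩, rfl⟩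
  obtain ⟨m', hm', -, hm'm⟩ := lifts_and_degree_eq_and_monic h1 hm
  refine ⟨m', hm'm, ?_⟩
  rw [← eval_map, hm']
  rw [← coe_aeval_eq_eval]
  exact hmf

end Core

/-! ### The seed adapter: from chart lattices to integral closures -/

section Seeds

open AlgebraicCurve Fermat.Agent.S29.helper8217 Fermat.Agent.S35.helper2423

variable {K F : Type*} [Field K] [Field F] [Algebra K F]
variable {A0 : Type*} [CommRing A0] [Algebra A0 F]

theorem valuation_eq_one_of_sub_one_lt (V : ValuationSubring F) {a : F}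
    (h : V.valuation (a - 1) < 1) : V.valuation a = 1 := by
  have := Valuation.map_one_add_of_lt (v := V.valuation) h
  rwa [add_sub_cancel] at this

theorem valuation_pow_sub_one_lt (V : ValuationSubring F) {a : F}
    (h : V.valuation (a - 1) < 1) (n : ℕ) : V.valuation (a ^ n - 1) < 1 := by
  have ha : V.valuation a = 1 := valuation_eq_one_of_sub_one_lt V h
  induction n with
  | zero => simp
  | succ k ih =>
    have e : a ^ (k + 1) - 1 = a ^ k * (a - 1) + (a ^ k - 1) := by ring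
    rw [e]
    refine lt_of_le_of_lt (V.valuation.map_add _ _) (max_lt ?_ ih)
    rw [map_mul, map_pow, ha, one_pow, one_mul]
    exact h

theorem valuation_pow_mul_sub_one_lt (V : ValuationSubring F) {a h : F}
    (ha : V.valuation (a - 1) < 1) (hh : V.valuation (h - 1) < 1) (n : ℕ) :
    V.valuation (a ^ n * h - 1) < 1 := by
  have hh1 : V.valuation h = 1 := valuation_eq_one_of_sub_one_lt V hh
  have e : a ^ n * h - 1 = (a ^ n - 1) * h + (h - 1) := by ring
  rw [e]
  refine lt_of_le_of_lt (V.valuation.map_add _ _) (max_lt ?_ hh)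
  rw [map_mul, hh1, mul_one]
  exact valuation_pow_sub_one_lt V ha n

theorem valuation_algebraMap_le_of_dvd (V : ValuationSubring F)
    (hA0V : ∀ a : A0, algebraMap A0 F a ∈ V) {c c' : A0} (h : c' ∣ c) :
    V.valuation (algebraMap A0 F c) ≤ V.valuation (algebraMap A0 F c') := by
  obtain ⟨u, rfl⟩ := h
  rw [map_mul, map_mul]
  exact mul_le_of_le_one_right' ((V.valuation_le_one_iff _).2 (hA0V u))

theorem mem_of_valuation_le (V : ValuationSubring F) {f c : F} (hc : c ≠ 0)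
    (h : V.valuation f ≤ V.valuation c) : f * c⁻¹ ∈ V := by
  rw [← V.valuation_le_one_iff, map_mul, map_inv₀]
  have hc0 : V.valuation c ≠ 0 := (Valuation.ne_zero_iff _).2 hc
  calc V.valuation f * (V.valuation c)⁻¹ ≤ V.valuation c * (V.valuation c)⁻¹ :=
        mul_le_mul_left h _
    _ = 1 := mul_inv_cancel₀ hc0

/-- **Seed adapter.**  Seeds `a₁ ≡ 1`, `a₂ ≡ 1` of the chart lattices of `h ≡ 1`
(`helper2423.chartLat`, charts `X₁`, `X₂`) give the three integral-closure hypotheses of the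
Čech-idempotent Kummer core for the chart rings `icl A0[x]`, `icl A0[x⁻¹]`, `icl A0[x, x⁻¹]`. -/
theorem seeds_of_chartLat (V₁ V₂ : ValuationSubring F) (x : F) (X₁ X₂ : Set (Place K F)) (n : ℕ)
    (hA0V : ∀ a : A0, algebraMap A0 F a ∈ V₁ ∧ algebraMap A0 F a ∈ V₂)
    (hord0 : ∀ (a : A0) (v : Place K F), v.ord (algebraMap A0 F a) = 0)
    (hdir : ∀ c c' : A0, ¬ IsUnit c → ¬ IsUnit c' → ∃ c'' : A0, ¬ IsUnit c'' ∧ c'' ∣ c ∧ c'' ∣ c')
    (hsmall : ∀ f : F, V₁.valuation f < 1 → V₂.valuation f < 1 →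
      ∃ c : A0, ¬ IsUnit c ∧ algebraMap A0 F c ≠ 0 ∧
        V₁.valuation f ≤ V₁.valuation (algebraMap A0 F c) ∧
        V₂.valuation f ≤ V₂.valuation (algebraMap A0 F c))
    (hc1 : ∀ f : F, f ∈ V₁ → f ∈ V₂ → (∀ v : Place K F, v ∉ X₁ → 0 ≤ v.ord f) →
      IsIntegral (Algebra.adjoin A0 ({x} : Set F)) f)
    (hc2 : ∀ f : F, f ∈ V₁ → f ∈ V₂ → (∀ v : Place K F, v ∉ X₂ → 0 ≤ v.ord f) →
      IsIntegral (Algebra.adjoin A0 ({x⁻¹} : Set F)) f)
    (hc12 : ∀ f : F, f ∈ V₁ → f ∈ V₂ → (∀ v : Place K F, v ∉ X₁ → v ∉ X₂ → 0 ≤ v.ord f) →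
      IsIntegral (Algebra.adjoin A0 ({x, x⁻¹} : Set F)) f)
    {h a₁ a₂ : F} (hh0 : h ≠ 0) (hh1 : V₁.valuation (h - 1) < 1) (hh2 : V₂.valuation (h - 1) < 1)
    (ha₁ : a₁ ∈ chartLat K V₁ V₂ X₁ n h) (ha₁1 : V₁.valuation (a₁ - 1) < 1)
    (ha₁2 : V₂.valuation (a₁ - 1) < 1)
    (ha₂ : a₂ ∈ chartLat K V₁ V₂ X₂ n h) (ha₂1 : V₁.valuation (a₂ - 1) < 1)
    (ha₂2 : V₂.valuation (a₂ - 1) < 1) :
    ∃ c : A0, ¬ IsUnit c ∧ algebraMap A0 F c ≠ 0 ∧
      (∃ y, IsIntegral (Algebra.adjoin A0 ({x} : Set F)) y ∧ a₁ ^ n * h - 1 = c • y) ∧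
      (∃ y, IsIntegral (Algebra.adjoin A0 ({x⁻¹} : Set F)) y ∧ a₂ ^ n * h - 1 = c • y) ∧
      (∃ y, IsIntegral (Algebra.adjoin A0 ({x, x⁻¹} : Set F)) y ∧
        (a₁ - a₂) ^ n * h = c ^ n • y) := by
  have ha₁0 : a₁ ≠ 0 := by
    rintro rfl
    have := valuation_eq_one_of_sub_one_lt V₁ ha₁1
    simp at this
  have ha₂0 : a₂ ≠ 0 := by
    rintro rfl
    have := valuation_eq_one_of_sub_one_lt V₁ ha₂1
    simp at this
  have hV₁h : V₁.valuation h = 1 := valuation_eq_one_of_sub_one_lt V₁ hh1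
  have hV₂h : V₂.valuation h = 1 := valuation_eq_one_of_sub_one_lt V₂ hh2
  -- orders of the seeds
  have ho₁ : ∀ v : Place K F, v ∉ X₁ → 0 ≤ (n : ℤ) * v.ord a₁ + v.ord h := by
    rcases (mem_chartLat.1 ha₁).2.2 with h0 | h0
    · exact absurd h0 ha₁0
    · exact h0
  have ho₂ : ∀ v : Place K F, v ∉ X₂ → 0 ≤ (n : ℤ) * v.ord a₂ + v.ord h := by
    rcases (mem_chartLat.1 ha₂).2.2 with h0 | h0
    · exact absurd h0 ha₂0
    · exact h0
  have hordpow : ∀ (v : Place K F) (a : F), a ≠ 0 →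
      v.ord (a ^ n * h) = (n : ℤ) * v.ord a + v.ord h := by
    intro v a ha
    rw [v.ord_mul (pow_ne_zero n ha) hh0, Fermat.Agent.S37.helper8523.ord_pow]
  -- the three small elements
  set f₁ : F := a₁ ^ n * h - 1 with hf₁
  set f₂ : F := a₂ ^ n * h - 1 with hf₂
  set d : F := a₁ - a₂ with hd
  have hf₁1 : V₁.valuation f₁ < 1 := valuation_pow_mul_sub_one_lt V₁ ha₁1 hh1 n
  have hf₁2 : V₂.valuation f₁ < 1 := valuation_pow_mul_sub_one_lt V₂ ha₁2 hh2 n
  have hf₂1 : V₁.valuation f₂ < 1 := valuation_pow_mul_sub_one_lt V₁ ha₂1 hh1 n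
  have hf₂2 : V₂.valuation f₂ < 1 := valuation_pow_mul_sub_one_lt V₂ ha₂2 hh2 n
  have hdV : ∀ V : ValuationSubring F, V.valuation (a₁ - 1) < 1 → V.valuation (a₂ - 1) < 1 →
      V.valuation d < 1 := by
    intro V h1 h2
    have e : d = (a₁ - 1) - (a₂ - 1) := by rw [hd]; ring
    rw [e]
    exact lt_of_le_of_lt (V.valuation.map_sub _ _) (max_lt h1 h2)
  have hd1 : V₁.valuation d < 1 := hdV V₁ ha₁1 ha₂1
  have hd2 : V₂.valuation d < 1 := hdV V₂ ha₁2 ha₂2
  obtain ⟨c₁, hc₁u, hc₁0, hc₁1, hc₁2⟩ := hsmall f₁ hf₁1 hf₁2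
  obtain ⟨c₂, hc₂u, -, hc₂1, hc₂2⟩ := hsmall f₂ hf₂1 hf₂2
  obtain ⟨c₃, hc₃u, -, hc₃1, hc₃2⟩ := hsmall d hd1 hd2
  obtain ⟨c', hc'u, hc'1, hc'2⟩ := hdir c₁ c₂ hc₁u hc₂u
  obtain ⟨c, hcu, hcc', hcc₃⟩ := hdir c' c₃ hc'u hc₃u
  have hcc₁ : c ∣ c₁ := hcc'.trans hc'1
  have hcc₂ : c ∣ c₂ := hcc'.trans hc'2
  have hc0 : algebraMap A0 F c ≠ 0 := by
    intro h0
    obtain ⟨u, rfl⟩ := hcc₁
    rw [map_mul, h0, zero_mul] at hc₁0
    exact hc₁0 rfl
  have hle : ∀ (V : ValuationSubring F), (∀ a : A0, algebraMap A0 F a ∈ V) →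
      ∀ (f : F) (c₀ : A0), c ∣ c₀ → V.valuation f ≤ V.valuation (algebraMap A0 F c₀) →
      V.valuation f ≤ V.valuation (algebraMap A0 F c) := fun V hV f c₀ hdvd hf =>
    hf.trans (valuation_algebraMap_le_of_dvd V hV hdvd)
  have hordc : ∀ v : Place K F, v.ord (algebraMap A0 F c)⁻¹ = 0 := by
    intro v
    rw [v.ord_inv, hord0, neg_zero]
  -- regularity of `f_j`
  have hreg : ∀ (a : F), a ≠ 0 → ∀ v : Place K F, 0 ≤ (n : ℤ) * v.ord a + v.ord h →
      0 ≤ v.ord ((a ^ n * h - 1) * (algebraMap A0 F c)⁻¹) := by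
    intro a ha v hv
    by_cases hz : a ^ n * h - 1 = 0
    · rw [hz, zero_mul, Place.ord_zero]
    · rw [v.ord_mul hz (inv_ne_zero hc0), hordc, add_zero]
      have e : a ^ n * h - 1 = a ^ n * h + (-1) := by ring
      rw [e] at hz ⊢
      refine Fermat.Agent.S37.helper8523.le_ord_add v hz (Or.inr ?_) (Or.inr ?_)
      · rw [hordpow v a ha]
        exact hv
      · rw [Fermat.Agent.S37.helper8523.ord_neg, Place.ord_one]
  refine ⟨c, hcu, hc0, ?_, ?_, ?_⟩
  · refine ⟨f₁ * (algebraMap A0 F c)⁻¹, hc1 _ ?_ ?_ ?_, ?_⟩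
    · exact mem_of_valuation_le V₁ hc0 (hle V₁ (fun a => (hA0V a).1) f₁ c₁ hcc₁ hc₁1)
    · exact mem_of_valuation_le V₂ hc0 (hle V₂ (fun a => (hA0V a).2) f₁ c₁ hcc₁ hc₁2)
    · intro v hv
      exact hreg a₁ ha₁0 v (ho₁ v hv)
    · rw [Algebra.smul_def, mul_comm f₁, ← mul_assoc, mul_inv_cancel₀ hc0, one_mul]
  · refine ⟨f₂ * (algebraMap A0 F c)⁻¹, hc2 _ ?_ ?_ ?_, ?_⟩
    · exact mem_of_valuation_le V₁ hc0 (hle V₁ (fun a => (hA0V a).1) f₂ c₂ hcc₂ hc₂1)
    · exact mem_of_valuation_le V₂ hc0 (hle V₂ (fun a => (hA0V a).2) f₂ c₂ hcc₂ hc₂2)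
    · intro v hv
      exact hreg a₂ ha₂0 v (ho₂ v hv)
    · rw [Algebra.smul_def, mul_comm f₂, ← mul_assoc, mul_inv_cancel₀ hc0, one_mul]
  · have hmemV : ∀ (V : ValuationSubring F), V.valuation h = 1 →
        V.valuation d ≤ V.valuation (algebraMap A0 F c) →
        d ^ n * h * ((algebraMap A0 F c) ^ n)⁻¹ ∈ V := by
      intro V hVh hle'
      have h1 : d * (algebraMap A0 F c)⁻¹ ∈ V := mem_of_valuation_le V hc0 hle'
      have e : d ^ n * h * ((algebraMap A0 F c) ^ n)⁻¹ = (d * (algebraMap A0 F c)⁻¹) ^ n * h := by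
        rw [mul_pow, inv_pow]; ring
      rw [e]
      refine V.mul_mem _ _ (pow_mem h1 n) ?_
      rw [← V.valuation_le_one_iff, hVh]
    refine ⟨d ^ n * h * ((algebraMap A0 F c) ^ n)⁻¹, hc12 _ ?_ ?_ ?_, ?_⟩
    · exact hmemV V₁ hV₁h (hle V₁ (fun a => (hA0V a).1) d c₃ hcc₃ hc₃1)
    · exact hmemV V₂ hV₂h (hle V₂ (fun a => (hA0V a).2) d c₃ hcc₃ hc₃2)
    · intro v hv1 hv2
      by_cases hd0 : d = 0
      · rcases Nat.eq_zero_or_pos n with rfl | hn
        · simp only [pow_zero, one_mul, inv_one, mul_one]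
          have := ho₁ v hv1
          simpa using this
        · rw [hd0, zero_pow hn.ne', zero_mul, zero_mul, Place.ord_zero]
      · have hcn : ((algebraMap A0 F c) ^ n)⁻¹ ≠ 0 := inv_ne_zero (pow_ne_zero n hc0)
        have hcn0 : v.ord ((algebraMap A0 F c) ^ n)⁻¹ = 0 := by
          rw [v.ord_inv, Fermat.Agent.S37.helper8523.ord_pow, hord0, mul_zero, neg_zero]
        rw [v.ord_mul (mul_ne_zero (pow_ne_zero n hd0) hh0) hcn, hcn0, add_zero, hordpow v d hd0]
        have hn0 : (0 : ℤ) ≤ n := Int.natCast_nonneg n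
        have e : d = a₁ + (-a₂) := by rw [hd]; ring
        have hd0' : a₁ + (-a₂) ≠ 0 := by rw [← e]; exact hd0
        rcases le_total (v.ord a₁) (v.ord a₂) with hle' | hle'
        · have h3 : v.ord a₁ ≤ v.ord d := by
            rw [e]
            refine Fermat.Agent.S37.helper8523.le_ord_add v hd0' (Or.inr le_rfl) (Or.inr ?_)
            rw [Fermat.Agent.S37.helper8523.ord_neg]
            exact hle'
          have h4 := ho₁ v hv1
          have h5 : (n : ℤ) * v.ord a₁ ≤ (n : ℤ) * v.ord d := mul_le_mul_of_nonneg_left h3 hn0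
          linarith
        · have h3 : v.ord a₂ ≤ v.ord d := by
            rw [e]
            refine Fermat.Agent.S37.helper8523.le_ord_add v hd0' (Or.inr hle') (Or.inr ?_)
            rw [Fermat.Agent.S37.helper8523.ord_neg]
          have h4 := ho₂ v hv2
          have h5 : (n : ℤ) * v.ord a₂ ≤ (n : ℤ) * v.ord d := mul_le_mul_of_nonneg_left h3 hn0
          linarith
    · rw [Algebra.smul_def, map_pow]
      have hcn : (algebraMap A0 F c) ^ n ≠ 0 := pow_ne_zero n hc0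
      field_simp

/-- **(KC) in the shape consumed by `helper2423.torFix_of_gen_of_kc`**, from any Kummer core in
integral-closure form (`hK`: seeds on the charts `icl A0[x]`, `icl A0[x⁻¹]` that are `n`-th
roots of `g⁻¹` modulo a non-unit `c` and agree modulo `c` on the overlap force `g` to be an
`n`-th power), e.g. the Čech-idempotent Kummer core. -/
theorem hKC_of_seeds (V₁ V₂ : ValuationSubring F) (x : F) {ι : Type*} (X : ι → Set (Place K F))
    (j₁ j₂ : ι) (n : ℕ)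
    (hA0V : ∀ a : A0, algebraMap A0 F a ∈ V₁ ∧ algebraMap A0 F a ∈ V₂)
    (hord0 : ∀ (a : A0) (v : Place K F), v.ord (algebraMap A0 F a) = 0)
    (hdir : ∀ c c' : A0, ¬ IsUnit c → ¬ IsUnit c' → ∃ c'' : A0, ¬ IsUnit c'' ∧ c'' ∣ c ∧ c'' ∣ c')
    (hsmall : ∀ f : F, V₁.valuation f < 1 → V₂.valuation f < 1 →
      ∃ c : A0, ¬ IsUnit c ∧ algebraMap A0 F c ≠ 0 ∧
        V₁.valuation f ≤ V₁.valuation (algebraMap A0 F c) ∧
        V₂.valuation f ≤ V₂.valuation (algebraMap A0 F c))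
    (hc1 : ∀ f : F, f ∈ V₁ → f ∈ V₂ → (∀ v : Place K F, v ∉ X j₁ → 0 ≤ v.ord f) →
      IsIntegral (Algebra.adjoin A0 ({x} : Set F)) f)
    (hc2 : ∀ f : F, f ∈ V₁ → f ∈ V₂ → (∀ v : Place K F, v ∉ X j₂ → 0 ≤ v.ord f) →
      IsIntegral (Algebra.adjoin A0 ({x⁻¹} : Set F)) f)
    (hc12 : ∀ f : F, f ∈ V₁ → f ∈ V₂ →
      (∀ v : Place K F, v ∉ X j₁ → v ∉ X j₂ → 0 ≤ v.ord f) →
      IsIntegral (Algebra.adjoin A0 ({x, x⁻¹} : Set F)) f)
    (hK : ∀ (g a b : F) (c : A0), g ≠ 0 → ¬ IsUnit c → algebraMap A0 F c ≠ 0 →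
      (∃ y, IsIntegral (Algebra.adjoin A0 ({x} : Set F)) y ∧ a ^ n * g - 1 = c • y) →
      (∃ y, IsIntegral (Algebra.adjoin A0 ({x⁻¹} : Set F)) y ∧ b ^ n * g - 1 = c • y) →
      (∃ y, IsIntegral (Algebra.adjoin A0 ({x, x⁻¹} : Set F)) y ∧ (a - b) ^ n * g = c ^ n • y) →
      ∃ w : F, w ^ n = g) :
    ∀ h : F, IsKummer K n h → V₁.valuation (h - 1) < 1 → V₂.valuation (h - 1) < 1 →
      (∀ j, ∃ a ∈ chartLat K V₁ V₂ (X j) n h,
        V₁.valuation (a - 1) < 1 ∧ V₂.valuation (a - 1) < 1) →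
      ∃ w c : F, w ≠ 0 ∧ c ≠ 0 ∧ (∀ v : Place K F, v.ord c = 0) ∧ h = c * w ^ n := by
  intro h hKum hh1 hh2 hseed
  obtain ⟨a₁, ha₁, ha₁1, ha₁2⟩ := hseed j₁
  obtain ⟨a₂, ha₂, ha₂1, ha₂2⟩ := hseed j₂
  obtain ⟨c, hcu, hc0, hs1, hs2, hs3⟩ := seeds_of_chartLat V₁ V₂ x (X j₁) (X j₂) n hA0V hord0
    hdir hsmall hc1 hc2 hc12 hKum.ne_zero hh1 hh2 ha₁ ha₁1 ha₁2 ha₂ ha₂1 ha₂2
  obtain ⟨w, hw⟩ := hK h a₁ a₂ c hKum.ne_zero hcu hc0 hs1 hs2 hs3
  by_cases hw0 : w = 0
  · rcases Nat.eq_zero_or_pos n with rfl | hn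
    · refine ⟨1, 1, one_ne_zero, one_ne_zero, fun v => Place.ord_one v, ?_⟩
      rw [← hw]
      simp
    · exfalso
      rw [hw0, zero_pow hn.ne'] at hw
      exact hKum.ne_zero hw.symm
  · exact ⟨w, 1, hw0, one_ne_zero, fun v => Place.ord_one v, by rw [one_mul, hw]⟩

end Seeds

/-! ### Suppliers of the chart hypotheses -/

section Suppliers

open AlgebraicCurve IsDedekindDomain Fermat.Agent.S29.helper8217

variable {K F : Type*} [Field K] [Field F] [Algebra K F]

open scoped IntermediateField.algebraAdjoinAdjoin in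
/-- If `f` has no pole at any place where `x` has no pole, then `f` is integral over `K[x]`
(same statement and proof as the landed `S18.helper4387.isIntegral_of_forall_ord_nonneg`,
repeated here to keep the import closure small). -/
theorem isIntegral_adjoin_of_regular [CharZero K] (x : F) [FiniteDimensional K⟮x⟯ F] (f : F)
    (h : ∀ v : Place K F, 0 ≤ v.ord x → 0 ≤ v.ord f) :
    IsIntegral (Algebra.adjoin K ({x} : Set F)) f := by
  have hmem : f ∈ (algebraMap (integralClosure (Algebra.adjoin K {x}) F) F).range := by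
    refine HeightOneSpectrum.mem_integers_of_valuation_le_one F f (fun w => ?_)
    have hxB : x ∈ integralClosure (Algebra.adjoin K {x}) F :=
      (integralClosure (Algebra.adjoin K {x}) F).algebraMap_mem
        ⟨x, Algebra.self_mem_adjoin_singleton K x⟩
    have hx : 0 ≤ (Place.ofHeightOneSpectrum (K := K) (F := F) w).ord x := by
      apply Fermat.Agent.S24.helper204.ord_nonneg_of_mem
      rw [Place.ofHeightOneSpectrum_toValuationSubring, Valuation.mem_valuationSubring_iff]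
      exact w.valuation_le_one (K := F) ⟨x, hxB⟩
    have hf := h _ hx
    rw [Fermat.Agent.S24.helper204.ord_ofHeightOneSpectrum] at hf
    rcases eq_or_ne f 0 with rfl | hf0
    · simp
    have hne : w.valuation F f ≠ 0 := (Valuation.ne_zero_iff _).mpr hf0
    have h1 : WithZero.log (w.valuation F f) ≤ 0 := by omega
    rwa [WithZero.log_le_iff_le_exp hne, WithZero.exp_zero] at h1
  obtain ⟨b, rfl⟩ := hmem
  exact b.2

/-- A Gauss element is a unit of the valuation ring. -/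
theorem valuation_eq_one_of_gaussElt {A : ValuationSubring K} {V : ValuationSubring F} {t : F}
    (ht : GaussElt A V t) : V.valuation t = 1 := by
  refine le_antisymm ((V.valuation_le_one_iff _).2 ht.1) (not_lt.1 fun hlt => ?_)
  have h1 := ht.2 (X : K[X]) (fun i => by
    rw [coeff_X]
    split_ifs
    · exact A.one_mem
    · exact A.zero_mem) (by
    rw [aeval_X, ValuationSubring.mem_nonunits_iff]
    exact hlt) 1
  rw [coeff_X_one, ValuationSubring.mem_nonunits_iff, map_one] at h1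
  exact lt_irrefl _ h1

/-- The inverse of a Gauss element is a Gauss element. -/
theorem gaussElt_inv {A : ValuationSubring K} {V : ValuationSubring F} {t : F}
    (ht : GaussElt A V t) : GaussElt A V t⁻¹ := by
  have hv : V.valuation t = 1 := valuation_eq_one_of_gaussElt ht
  have ht0 : t ≠ 0 := by
    rintro rfl
    simp at hv
  refine ⟨by rw [← V.valuation_le_one_iff, map_inv₀, hv, inv_one], fun p hp hmem i => ?_⟩
  haveI : Invertible t⁻¹ := invertibleOfNonzero (inv_ne_zero ht0)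
  have hinv : ⅟(t⁻¹) = t := by
    rw [invOf_eq_inv, inv_inv]
  have h1 := eval₂_reverse_mul_pow (algebraMap K F) t⁻¹ p
  rw [hinv] at h1
  have h2 : aeval t p.reverse = aeval t⁻¹ p * t ^ p.natDegree := by
    rw [aeval_def, aeval_def, ← h1, mul_assoc, ← mul_pow, inv_mul_cancel₀ ht0, one_pow, mul_one]
  have h3 : aeval t p.reverse ∈ V.nonunits := by
    rw [h2, ValuationSubring.mem_nonunits_iff, map_mul, map_pow, hv, one_pow, mul_one]
    exact (ValuationSubring.mem_nonunits_iff V).1 hmem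
  have h4 := ht.2 p.reverse (fun j => by rw [coeff_reverse]; exact hp _) h3
    (revAt p.natDegree i)
  rwa [coeff_reverse, revAt_invol] at h4

/-- **(T4) as a supplier**: in a cartesian basis over a subfield `E`, every element of
`V₁ ∩ V₂` is killed by a monic polynomial with coefficients in `E ∩ V₁`. -/
theorem exists_monic_of_isCartesian {E : Type*} [Field E] [Algebra E F] {ι : Type*} [Fintype ι]
    [DecidableEq ι] (𝔟 : Module.Basis ι E F) {V₀ : ValuationSubring E}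
    {V₁ V₂ : ValuationSubring F} (he : IsCartesian V₀ V₁ V₂ 1 𝔟)
    (h₁ : V₁.comap (algebraMap E F) = V₀) {z : F} (hz₁ : z ∈ V₁) (hz₂ : z ∈ V₂) :
    ∃ p : F[X], p.Monic ∧ (∀ i, p.coeff i ∈ V₁) ∧ (∀ i, p.coeff i ∈ (algebraMap E F).range) ∧
      aeval z p = 0 := by
  refine ⟨(Algebra.leftMulMatrix 𝔟 z).charpoly.map (algebraMap E F),
    (Matrix.charpoly_monic _).map _, fun i => ?_, fun i => ⟨_, (coeff_map _ _).symm⟩, ?_⟩
  · rw [coeff_map]
    exact (mem_iff_of_comap h₁ _).2 (he.charpoly_coeff_mem 𝔟 hz₁ hz₂ i)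
  · rw [aeval_map_algebraMap]
    apply Algebra.leftMulMatrix_injective 𝔟
    rw [map_zero, ← Polynomial.aeval_algHom_apply, Matrix.aeval_self_charpoly]

variable {A0 : Type*} [CommRing A0] [Algebra A0 K] [Algebra A0 F] [IsScalarTower A0 K F]

/-- **(i) Chart integrality**, chart `x`: an element of `V₁ ∩ V₂` that is regular wherever `x`
is regular is integral over `A0[x]`. -/
theorem chart_isIntegral [CharZero K] (A : ValuationSubring K)
    (hA0 : ∀ a : K, a ∈ A → a ∈ (algebraMap A0 K).range) (V₁ V₂ : ValuationSubring F) (x : F)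
    [FiniteDimensional K⟮x⟯ F] (hA : V₁.comap (algebraMap K F) = A) (hx : GaussElt A V₁ x)
    (hT4 : ∀ z : F, z ∈ V₁ → z ∈ V₂ → ∃ p : F[X], p.Monic ∧ (∀ i, p.coeff i ∈ V₁) ∧
      (∀ i, p.coeff i ∈ K⟮x⟯) ∧ aeval z p = 0)
    (f : F) (hf₁ : f ∈ V₁) (hf₂ : f ∈ V₂) (hreg : ∀ v : Place K F, 0 ≤ v.ord x → 0 ≤ v.ord f) :
    IsIntegral (Algebra.adjoin A0 ({x} : Set F)) f :=
  isIntegral_adjoin_of_gauss A hA0 V₁ x hA hx f (isIntegral_adjoin_of_regular x f hreg)
    (hT4 f hf₁ hf₂)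

/-- **(i) Chart integrality**, chart `x⁻¹`. -/
theorem chart_isIntegral_inv [CharZero K] (A : ValuationSubring K)
    (hA0 : ∀ a : K, a ∈ A → a ∈ (algebraMap A0 K).range) (V₁ V₂ : ValuationSubring F) (x : F)
    [FiniteDimensional K⟮x⟯ F] (hA : V₁.comap (algebraMap K F) = A) (hx : GaussElt A V₁ x)
    (hT4 : ∀ z : F, z ∈ V₁ → z ∈ V₂ → ∃ p : F[X], p.Monic ∧ (∀ i, p.coeff i ∈ V₁) ∧
      (∀ i, p.coeff i ∈ K⟮x⟯) ∧ aeval z p = 0)
    (f : F) (hf₁ : f ∈ V₁) (hf₂ : f ∈ V₂) (hreg : ∀ v : Place K F, v.ord x ≤ 0 → 0 ≤ v.ord f) :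
    IsIntegral (Algebra.adjoin A0 ({x⁻¹} : Set F)) f := by
  have : FiniteDimensional K⟮x⁻¹⟯ F := Fermat.Agent.S24.helper204.finiteDimensional_adjoin_inv
  refine chart_isIntegral A hA0 V₁ V₂ x⁻¹ hA (gaussElt_inv hx) ?_ f hf₁ hf₂ ?_
  · intro z hz₁ hz₂
    obtain ⟨p, hp, hpV, hpE, hpz⟩ := hT4 z hz₁ hz₂
    refine ⟨p, hp, hpV, fun i => ?_, hpz⟩
    rw [Fermat.Agent.S24.helper204.adjoin_inv_eq]
    exact hpE i
  · intro v hv
    rw [v.ord_inv] at hv
    exact hreg v (by omega)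

/-- **(i) Chart integrality**, overlap chart: an element of `V₁ ∩ V₂` that is regular wherever
`x` is a unit is integral over `A0[x, x⁻¹]`. -/
theorem chart_isIntegral_both [CharZero K] [HasPrincipalDivisors K F] (A : ValuationSubring K)
    (hA0 : ∀ a : K, a ∈ A → a ∈ (algebraMap A0 K).range) (V₁ V₂ : ValuationSubring F) (x : F)
    [FiniteDimensional K⟮x⟯ F] (hA : V₁.comap (algebraMap K F) = A) (hx : GaussElt A V₁ x)
    (hx₂ : x ∈ V₂)
    (hT4 : ∀ z : F, z ∈ V₁ → z ∈ V₂ → ∃ p : F[X], p.Monic ∧ (∀ i, p.coeff i ∈ V₁) ∧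
      (∀ i, p.coeff i ∈ K⟮x⟯) ∧ aeval z p = 0)
    (f : F) (hf₁ : f ∈ V₁) (hf₂ : f ∈ V₂) (hreg : ∀ v : Place K F, v.ord x = 0 → 0 ≤ v.ord f) :
    IsIntegral (Algebra.adjoin A0 ({x, x⁻¹} : Set F)) f := by
  classical
  have hx0 : x ≠ 0 := by
    rintro rfl
    have := valuation_eq_one_of_gaussElt hx
    simp at this
  have hmono : ∀ y : F, IsIntegral (Algebra.adjoin A0 ({x} : Set F)) y →
      IsIntegral (Algebra.adjoin A0 ({x, x⁻¹} : Set F)) y := by
    intro y hy
    obtain ⟨p, hp, hpy⟩ := hy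
    have hle : Algebra.adjoin A0 ({x} : Set F) ≤ Algebra.adjoin A0 ({x, x⁻¹} : Set F) :=
      Algebra.adjoin_mono (by intro z hz; exact Or.inl hz)
    refine ⟨p.map (Subalgebra.inclusion hle).toRingHom, hp.map _, ?_⟩
    rw [eval₂_map]
    exact hpy
  rcases eq_or_ne f 0 with rfl | hf0
  · exact isIntegral_zero
  -- a bound for the pole orders of `f`
  have hfin := finite_support_ord (K := K) f
  set m : ℕ := ∑ v ∈ hfin.toFinset, (v.ord f).natAbs with hm
  have hbound : ∀ v : Place K F, -(m : ℤ) ≤ v.ord f := by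
    intro v
    by_cases hv : v.ord f = 0
    · rw [hv]; omega
    · have hmem : v ∈ hfin.toFinset := by
        rw [Set.Finite.mem_toFinset]
        exact hv
      have h1 : (v.ord f).natAbs ≤ m := by
        rw [hm]
        exact Finset.single_le_sum (f := fun w : Place K F => (w.ord f).natAbs)
          (fun _ _ => Nat.zero_le _) hmem
      omega
  have hint : IsIntegral (Algebra.adjoin A0 ({x} : Set F)) (x ^ m * f) := by
    refine chart_isIntegral A hA0 V₁ V₂ x hA hx hT4 _ (V₁.mul_mem _ _ (pow_mem hx.1 m) hf₁)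
      (V₂.mul_mem _ _ (pow_mem hx₂ m) hf₂) ?_
    intro v hv
    rw [v.ord_mul (pow_ne_zero m hx0) hf0, Fermat.Agent.S37.helper8523.ord_pow]
    rcases hv.lt_or_eq with hpos | hzero
    · have h1 := hbound v
      have h2 : (m : ℤ) * 1 ≤ (m : ℤ) * v.ord x :=
        mul_le_mul_of_nonneg_left (by omega) (Int.natCast_nonneg m)
      omega
    · rw [← hzero, mul_zero, zero_add]
      exact hreg v hzero.symm
  have hxinv : IsIntegral (Algebra.adjoin A0 ({x, x⁻¹} : Set F)) (x⁻¹ ^ m) :=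
    (isIntegral_algebraMap (R := Algebra.adjoin A0 ({x, x⁻¹} : Set F))
      (x := ⟨x⁻¹, Algebra.subset_adjoin (Or.inr rfl)⟩)).pow m
  have e : f = x⁻¹ ^ m * (x ^ m * f) := by
    rw [← mul_assoc, ← mul_pow, inv_mul_cancel₀ hx0, one_pow, one_mul]
  rw [e]
  exact hxinv.mul (hmono _ hint)

/-- Comparison of constants: the order of the values of two constants is read off in `A`. -/
theorem valuation_algebraMap_le_of_comap {A : ValuationSubring K} {V : ValuationSubring F}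
    (hA : V.comap (algebraMap K F) = A) {a b : K} (hb : b ≠ 0)
    (h : A.valuation a ≤ A.valuation b) :
    V.valuation (algebraMap K F a) ≤ V.valuation (algebraMap K F b) := by
  have hb0 : V.valuation (algebraMap K F b) ≠ 0 :=
    (Valuation.ne_zero_iff _).2 ((_root_.map_ne_zero _).2 hb)
  have h1 : A.valuation (a / b) ≤ 1 := by
    rw [map_div₀]
    exact div_le_one_of_le₀ h zero_le
  have h2 := (val_le_one_iff_of_comap hA (a / b)).2 h1
  rw [map_div₀, map_div₀] at h2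
  calc V.valuation (algebraMap K F a)
      = V.valuation (algebraMap K F a) / V.valuation (algebraMap K F b) *
          V.valuation (algebraMap K F b) := (div_mul_cancel₀ _ hb0).symm
    _ ≤ 1 * V.valuation (algebraMap K F b) := mul_le_mul_left h2 _
    _ = V.valuation (algebraMap K F b) := one_mul _

/-- **(ii) Small ⟹ divisible by a non-unit constant.**  If the value groups of `V₁`, `V₂` are
those of the constants (`e = 1`) and `A` is not a field, an element which is small for both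
valuations is bounded, for both valuations, by one non-unit constant. -/
theorem exists_nonunit_of_small (A : ValuationSubring K)
    (hA0 : ∀ a : K, a ∈ A ↔ a ∈ (algebraMap A0 K).range) (V₁ V₂ : ValuationSubring F)
    (hA₁ : V₁.comap (algebraMap K F) = A) (hA₂ : V₂.comap (algebraMap K F) = A)
    (hVG₁ : ∀ f : F, f ≠ 0 → ∃ c : K, V₁.valuation f = V₁.valuation (algebraMap K F c))
    (hVG₂ : ∀ f : F, f ≠ 0 → ∃ c : K, V₂.valuation f = V₂.valuation (algebraMap K F c))
    (hπ : ∃ π : K, π ≠ 0 ∧ π ∈ A.nonunits) (f : F) (hf₁ : V₁.valuation f < 1)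
    (hf₂ : V₂.valuation f < 1) :
    ∃ c : A0, ¬ IsUnit c ∧ algebraMap A0 F c ≠ 0 ∧
      V₁.valuation f ≤ V₁.valuation (algebraMap A0 F c) ∧
      V₂.valuation f ≤ V₂.valuation (algebraMap A0 F c) := by
  -- a non-unit nonzero constant of `A` lifts to a non-unit of `A0`
  have hlift : ∀ c : K, c ≠ 0 → c ∈ A.nonunits →
      ∃ c0 : A0, ¬ IsUnit c0 ∧ algebraMap A0 K c0 = c := by
    intro c hc0 hc
    obtain ⟨c0, hc0'⟩ := (hA0 c).1 (A.nonunits_subset hc)
    refine ⟨c0, fun hu => ?_, hc0'⟩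
    obtain ⟨d, hd⟩ := hu.exists_right_inv
    have h1 : algebraMap A0 K c0 * algebraMap A0 K d = 1 := by rw [← map_mul, hd, map_one]
    have h2 : algebraMap A0 K d ∈ A := (hA0 _).2 ⟨d, rfl⟩
    rw [hc0'] at h1
    have h3 : A.valuation c * A.valuation (algebraMap A0 K d) = 1 := by
      rw [← map_mul, h1, map_one]
    have h4 : A.valuation c < 1 := (A.mem_nonunits_iff).1 hc
    have h5 : A.valuation (algebraMap A0 K d) ≤ 1 := (A.valuation_le_one_iff _).2 h2
    have h6 : A.valuation c * A.valuation (algebraMap A0 K d) < 1 :=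
      lt_of_le_of_lt (mul_le_of_le_one_right' h5) h4
    exact h6.ne h3
  have hmapF : ∀ c0 : A0, algebraMap A0 F c0 = algebraMap K F (algebraMap A0 K c0) := fun c0 =>
    IsScalarTower.algebraMap_apply A0 K F c0
  rcases eq_or_ne f 0 with rfl | hf0
  · obtain ⟨π, hπ0, hπ⟩ := hπ
    obtain ⟨c0, hc0u, hc0⟩ := hlift π hπ0 hπ
    refine ⟨c0, hc0u, ?_, ?_, ?_⟩
    · rw [hmapF, hc0]
      exact (_root_.map_ne_zero _).2 hπ0
    · rw [map_zero]; exact zero_le
    · rw [map_zero]; exact zero_le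
  · obtain ⟨c₁, hc₁⟩ := hVG₁ f hf0
    obtain ⟨c₂, hc₂⟩ := hVG₂ f hf0
    have hc₁0 : c₁ ≠ 0 := by
      rintro rfl
      rw [map_zero, map_zero] at hc₁
      exact hf0 ((map_eq_zero _).1 hc₁)
    have hc₂0 : c₂ ≠ 0 := by
      rintro rfl
      rw [map_zero, map_zero] at hc₂
      exact hf0 ((map_eq_zero _).1 hc₂)
    have hc₁m : c₁ ∈ A.nonunits := by
      rw [A.mem_nonunits_iff, ← val_lt_one_iff_of_comap hA₁, ← hc₁]
      exact hf₁
    have hc₂m : c₂ ∈ A.nonunits := by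
      rw [A.mem_nonunits_iff, ← val_lt_one_iff_of_comap hA₂, ← hc₂]
      exact hf₂
    rcases le_total (A.valuation c₁) (A.valuation c₂) with hle | hle
    · obtain ⟨c0, hc0u, hc0⟩ := hlift c₂ hc₂0 hc₂m
      refine ⟨c0, hc0u, ?_, ?_, ?_⟩
      · rw [hmapF, hc0]
        exact (_root_.map_ne_zero _).2 hc₂0
      · rw [hmapF, hc0, hc₁]
        exact valuation_algebraMap_le_of_comap hA₁ hc₂0 hle
      · rw [hmapF, hc0, hc₂]
    · obtain ⟨c0, hc0u, hc0⟩ := hlift c₁ hc₁0 hc₁m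
      refine ⟨c0, hc0u, ?_, ?_, ?_⟩
      · rw [hmapF, hc0]
        exact (_root_.map_ne_zero _).2 hc₁0
      · rw [hmapF, hc0, hc₁]
      · rw [hmapF, hc0, hc₂]
        exact valuation_algebraMap_le_of_comap hA₂ hc₁0 hle

/-- **(KC) for two Gauss valuations from any Kummer core in integral-closure form.**
All chart hypotheses of `hKC_of_seeds` are discharged from: the Gauss property of the chart
coordinate `x` at `V₁`, (T4) (`hT4`, e.g. `exists_monic_of_isCartesian`), `e = 1` at both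
valuations (`hVG₁`, `hVG₂`) and `A` not a field.  Charts: `X j₁` inside the poles of `x`,
`X j₂` inside the zeros of `x`. -/
theorem hKC_of_gauss [CharZero K] [HasPrincipalDivisors K F] [IsDomain A0] [ValuationRing A0]
    (A : ValuationSubring K) (hA0 : ∀ a : K, a ∈ A ↔ a ∈ (algebraMap A0 K).range)
    (V₁ V₂ : ValuationSubring F) (x : F) [FiniteDimensional K⟮x⟯ F]
    (hA₁ : V₁.comap (algebraMap K F) = A) (hA₂ : V₂.comap (algebraMap K F) = A)
    (hx₁ : GaussElt A V₁ x) (hx₂ : x ∈ V₂)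
    (hT4 : ∀ z : F, z ∈ V₁ → z ∈ V₂ → ∃ p : F[X], p.Monic ∧ (∀ i, p.coeff i ∈ V₁) ∧
      (∀ i, p.coeff i ∈ K⟮x⟯) ∧ aeval z p = 0)
    (hVG₁ : ∀ f : F, f ≠ 0 → ∃ c : K, V₁.valuation f = V₁.valuation (algebraMap K F c))
    (hVG₂ : ∀ f : F, f ≠ 0 → ∃ c : K, V₂.valuation f = V₂.valuation (algebraMap K F c))
    (hπ : ∃ π : K, π ≠ 0 ∧ π ∈ A.nonunits)
    {ι : Type*} (X : ι → Set (Place K F)) (j₁ j₂ : ι)
    (hX₁ : ∀ v ∈ X j₁, v.ord x < 0) (hX₂ : ∀ v ∈ X j₂, 0 < v.ord x) (n : ℕ)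
    (hK : ∀ (g a b : F) (c : A0), g ≠ 0 → ¬ IsUnit c → algebraMap A0 F c ≠ 0 →
      (∃ y, IsIntegral (Algebra.adjoin A0 ({x} : Set F)) y ∧ a ^ n * g - 1 = c • y) →
      (∃ y, IsIntegral (Algebra.adjoin A0 ({x⁻¹} : Set F)) y ∧ b ^ n * g - 1 = c • y) →
      (∃ y, IsIntegral (Algebra.adjoin A0 ({x, x⁻¹} : Set F)) y ∧ (a - b) ^ n * g = c ^ n • y) →
      ∃ w : F, w ^ n = g) :
    ∀ h : F, IsKummer K n h → V₁.valuation (h - 1) < 1 → V₂.valuation (h - 1) < 1 →
      (∀ j, ∃ a ∈ Fermat.Agent.S35.helper2423.chartLat K V₁ V₂ (X j) n h,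
        V₁.valuation (a - 1) < 1 ∧ V₂.valuation (a - 1) < 1) →
      ∃ w c : F, w ≠ 0 ∧ c ≠ 0 ∧ (∀ v : Place K F, v.ord c = 0) ∧ h = c * w ^ n := by
  have hmapF : ∀ c0 : A0, algebraMap A0 F c0 = algebraMap K F (algebraMap A0 K c0) := fun c0 =>
    IsScalarTower.algebraMap_apply A0 K F c0
  have hA0r : ∀ a : K, a ∈ A → a ∈ (algebraMap A0 K).range := fun a ha => (hA0 a).1 ha
  refine hKC_of_seeds V₁ V₂ x X j₁ j₂ n ?_ ?_ ?_ ?_ ?_ ?_ ?_ hK
  · intro a
    rw [hmapF]
    exact ⟨(mem_iff_of_comap hA₁ _).2 ((hA0 _).2 ⟨a, rfl⟩),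
      (mem_iff_of_comap hA₂ _).2 ((hA0 _).2 ⟨a, rfl⟩)⟩
  · intro a v
    rw [hmapF]
    exact Fermat.Agent.S24.helper204.ord_algebraMap_eq_zero v _
  · intro c c' hc hc'
    rcases ValuationRing.dvd_total c c' with h | h
    · exact ⟨c, hc, dvd_rfl, h⟩
    · exact ⟨c', hc', h, dvd_rfl⟩
  · exact exists_nonunit_of_small A hA0 V₁ V₂ hA₁ hA₂ hVG₁ hVG₂ hπ
  · intro f hf₁ hf₂ hreg
    refine chart_isIntegral A hA0r V₁ V₂ x hA₁ hx₁ hT4 f hf₁ hf₂ fun v hv => hreg v fun hmem => ?_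
    have := hX₁ v hmem
    omega
  · intro f hf₁ hf₂ hreg
    refine chart_isIntegral_inv A hA0r V₁ V₂ x hA₁ hx₁ hT4 f hf₁ hf₂ fun v hv =>
      hreg v fun hmem => ?_
    have := hX₂ v hmem
    omega
  · intro f hf₁ hf₂ hreg
    refine chart_isIntegral_both A hA0r V₁ V₂ x hA₁ hx₁ hx₂ hT4 f hf₁ hf₂ fun v hv =>
      hreg v (fun hmem => ?_) (fun hmem => ?_)
    · have := hX₁ v hmem
      omega
    · have := hX₂ v hmem
      omega

end Suppliers

end Fermat.Agent.S35.helper2459
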