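import Mathlib
import Fermat.Agent.S18.helper5377_CechIdempotent
import Fermat.Agent.S18.helper8351_NFDescent

/-!
# S35/S34-CONNVAL: connectedness by hand over a valuation ring of an algebraic extension of `ℚ`

Input `hZ` / `hY` ("`H⁰` of the special fibre is `k`") of the two-chart Kummer core in the
geometry module (2)(d) of route #2739 (shared by S34 and S35), WITHOUT genus numerics.

The landed lemma `Fermat.Agent.S18.helper5377.chart_idempotent_dvr` says: for a discrete valuation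
ring `A0` of a number field `K0` and a function field `L` over `K0` (`K0` algebraically closed in
`L`, `L` finite over `K0(t)`), idempotents modulo the uniformiser of the two charts
`icl A0[t]`, `icl A0[t⁻¹]` which agree on the overlap are `0` or `1`.  Here the same statement is
proved for a valuation ring `A` of a field `K` algebraic over `ℚ` (for instance a valuation
subring of `ℚ̄` over a prime) by descent to a number field: only finitely many elements are
involved, `A ∩ K0` is a discrete valuation ring, and the constant field of the descended function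
field is a number field by linear disjointness from `ℚ(t)`.

Main statements:

* `IntOn ρ s z` : explicit form of "`z` is integral over `ρ[s]`" (a monic bivariate polynomial),
  with `isIntegral_adjoin_singleton_iff`, `intOn_map_iff`, `IntOn.exists_finset`;
* `conn_core` : the statement inside `F`, for a subring `ρ` and a subfield `𝕜`;
* `two_chart_idempotent_val` : the statement for `[Algebra A K] [Algebra K F]`;
* `exists_const_of_two_valuations` : the `hZ`-form for two valuations;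
* `two_chart_idempotent_valuationSubring`, `two_chart_idempotent_ratBar` : the statement for a
  `ValuationSubring`, resp. for a valuation subring of `AlgebraicClosure ℚ` over a prime and ANY
  field `F` over `AlgebraicClosure ℚ` with a transcendental `t`.
-/

set_option autoImplicit false

namespace Fermat.Agent.S35.helper1251

open Polynomial

/-! ## Part 1: integrality over `ρ[s]` in explicit bivariate form -/

section IntOn

variable {B : Type*} [CommRing B]

/-- `z` is a root of a monic polynomial `P(s, Z)` whose coefficients are polynomials in `s` with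
coefficients in the subring `ρ`: the explicit form of "`z` is integral over `ρ[s]`". -/
def IntOn (ρ : Subring B) (s z : B) : Prop :=
  ∃ P : Polynomial (Polynomial B), P.Monic ∧ (∀ i j, (P.coeff i).coeff j ∈ ρ) ∧
    (P.map (Polynomial.evalRingHom s)).eval z = 0

theorem IntOn.mono {ρ ρ' : Subring B} (h : ρ ≤ ρ') {s z : B} (hz : IntOn ρ s z) : IntOn ρ' s z := by
  obtain ⟨P, hP, hc, he⟩ := hz
  exact ⟨P, hP, fun i j => h (hc i j), he⟩

/-- Only finitely many elements of `ρ` are involved. -/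
theorem IntOn.exists_finset {ρ : Subring B} {s z : B} (hz : IntOn ρ s z) :
    ∃ S : Finset B, (↑S : Set B) ⊆ ρ ∧ ∀ ρ' : Subring B, (↑S : Set B) ⊆ ρ' → IntOn ρ' s z := by
  classical
  obtain ⟨P, hP, hc, he⟩ := hz
  refine ⟨P.support.biUnion fun i => (P.coeff i).support.image fun j => (P.coeff i).coeff j,
    ?_, fun ρ' hρ' => ⟨P, hP, fun i j => ?_, he⟩⟩
  · intro x hx
    simp only [Finset.coe_biUnion, Finset.coe_image, Set.mem_iUnion, Set.mem_image] at hx
    obtain ⟨i, -, j, -, rfl⟩ := hx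
    exact hc i j
  · by_cases h0 : (P.coeff i).coeff j = 0
    · rw [h0]; exact ρ'.zero_mem
    · apply hρ'
      have hi : i ∈ P.support := by
        rw [Polynomial.mem_support_iff]
        intro h
        apply h0
        rw [h, Polynomial.coeff_zero]
      have hj : j ∈ (P.coeff i).support := Polynomial.mem_support_iff.mpr h0
      simp only [Finset.coe_biUnion, Finset.coe_image, Set.mem_iUnion, Set.mem_image]
      exact ⟨i, hi, j, hj, rfl⟩

/-- A monic bivariate polynomial with coefficients in the range of a ring hom lifts to a monic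
bivariate polynomial. -/
theorem exists_monic_lift {R : Type*} [CommRing R] [Nontrivial B] (f : R →+* B)
    (P : Polynomial (Polynomial B)) (hP : P.Monic)
    (hc : ∀ i j, (P.coeff i).coeff j ∈ f.range) :
    ∃ Q : Polynomial (Polynomial R), Q.Monic ∧ Q.map (Polynomial.mapRingHom f) = P := by
  have h1 : P ∈ Polynomial.lifts (Polynomial.mapRingHom f) := by
    rw [Polynomial.lifts_iff_coeff_lifts]
    intro i
    have h2 : P.coeff i ∈ Polynomial.lifts f := by
      rw [Polynomial.lifts_iff_coeff_lifts]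
      intro j
      exact hc i j
    obtain ⟨q, hq⟩ := (Polynomial.mem_lifts _).mp h2
    exact ⟨q, hq⟩
  obtain ⟨Q, hQ, -, hQm⟩ := Polynomial.lifts_and_degree_eq_and_monic h1 hP
  exact ⟨Q, hQm, hQ⟩

/-- Transport along an injective ring hom. -/
theorem intOn_map_iff {B' : Type*} [CommRing B'] [Nontrivial B'] (ι : B →+* B')
    (hι : Function.Injective ι) (ρ : Subring B) (s z : B) :
    IntOn (ρ.map ι) (ι s) (ι z) ↔ IntOn ρ s z := by
  have hcomp : ∀ Q : Polynomial (Polynomial B),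
      ((Q.map (Polynomial.mapRingHom ι)).map (Polynomial.evalRingHom (ι s))).eval (ι z)
        = ι ((Q.map (Polynomial.evalRingHom s)).eval z) := by
    intro Q
    rw [Polynomial.map_map, Polynomial.eval_map, Polynomial.eval_map, Polynomial.hom_eval₂]
    congr 1
    refine RingHom.ext fun p => ?_
    simp only [RingHom.comp_apply, Polynomial.coe_evalRingHom, Polynomial.coe_mapRingHom,
      Polynomial.eval_map, Polynomial.eval₂_at_apply]
  constructor
  · rintro ⟨P, hP, hc, he⟩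
    have : Nontrivial B := ι.domain_nontrivial
    -- lift through `ρ → B'`
    let ιρ : ρ →+* B' := ι.comp ρ.subtype
    have hc' : ∀ i j, (P.coeff i).coeff j ∈ ιρ.range := by
      intro i j
      obtain ⟨x, hx, hxe⟩ := Subring.mem_map.mp (hc i j)
      exact ⟨⟨x, hx⟩, hxe⟩
    obtain ⟨Q, hQ, hQP⟩ := exists_monic_lift ιρ P hP hc'
    refine ⟨Q.map (Polynomial.mapRingHom ρ.subtype), hQ.map _, fun i j => ?_, ?_⟩
    · rw [Polynomial.coeff_map, Polynomial.coe_mapRingHom, Polynomial.coeff_map]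
      exact ((Q.coeff i).coeff j).2
    · apply hι
      have hcm : (Polynomial.mapRingHom ι).comp (Polynomial.mapRingHom ρ.subtype)
          = Polynomial.mapRingHom ιρ := by
        ext p : 2 <;> simp [ιρ]
      have hQP' : (Q.map (Polynomial.mapRingHom ρ.subtype)).map (Polynomial.mapRingHom ι) = P := by
        rw [Polynomial.map_map, hcm, hQP]
      rw [map_zero, ← hcomp, hQP']
      exact he
  · rintro ⟨P, hP, hc, he⟩
    refine ⟨P.map (Polynomial.mapRingHom ι), hP.map _, fun i j => ?_, ?_⟩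
    · rw [Polynomial.coeff_map, Polynomial.coe_mapRingHom, Polynomial.coeff_map]
      exact Subring.mem_map.mpr ⟨_, hc i j, rfl⟩
    · rw [hcomp, he, map_zero]

/-- Link with Mathlib's integrality over `A[s] = Algebra.adjoin A {s}`. -/
theorem isIntegral_adjoin_singleton_iff {A : Type*} [CommRing A] [Nontrivial B] [Algebra A B]
    (s z : B) :
    IsIntegral (Algebra.adjoin A ({s} : Set B)) z ↔ IntOn (algebraMap A B).range s z := by
  have hmem : ∀ P : Polynomial A, Polynomial.aeval s P ∈ Algebra.adjoin A ({s} : Set B) := by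
    intro P
    rw [Algebra.adjoin_singleton_eq_range_aeval]
    exact ⟨P, rfl⟩
  let σ : Polynomial A →+* Algebra.adjoin A ({s} : Set B) :=
    ((Polynomial.aeval s : Polynomial A →ₐ[A] B).codRestrict (Algebra.adjoin A ({s} : Set B))
      hmem : Polynomial A →+* Algebra.adjoin A ({s} : Set B))
  have hσ : Function.Surjective σ := by
    rintro ⟨x, hx⟩
    have hx' := hx
    rw [Algebra.adjoin_singleton_eq_range_aeval] at hx'
    obtain ⟨P, hP⟩ := hx'
    exact ⟨P, Subtype.ext hP⟩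
  have hhom : (Polynomial.evalRingHom s).comp (Polynomial.mapRingHom (algebraMap A B))
      = (algebraMap (Algebra.adjoin A ({s} : Set B)) B).comp σ := by
    refine RingHom.ext fun P => ?_
    simp only [RingHom.comp_apply, Polynomial.coe_evalRingHom, Polynomial.coe_mapRingHom,
      Polynomial.eval_map]
    rfl
  constructor
  · rintro ⟨p, hp, hpz⟩
    have h1 : p ∈ Polynomial.lifts σ := by
      rw [Polynomial.lifts_iff_coeff_lifts]
      intro n
      exact hσ _
    obtain ⟨q, hq, -, hqm⟩ := Polynomial.lifts_and_degree_eq_and_monic h1 hp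
    refine ⟨q.map (Polynomial.mapRingHom (algebraMap A B)), hqm.map _, fun i j => ?_, ?_⟩
    · rw [Polynomial.coeff_map, Polynomial.coe_mapRingHom, Polynomial.coeff_map]
      exact ⟨_, rfl⟩
    · rw [Polynomial.map_map, Polynomial.eval_map, hhom, ← Polynomial.eval₂_map, hq]
      exact hpz
  · rintro ⟨P, hP, hc, he⟩
    obtain ⟨Q, hQ, hQP⟩ := exists_monic_lift (algebraMap A B) P hP hc
    refine ⟨Q.map σ, hQ.map _, ?_⟩
    rw [Polynomial.eval₂_map, ← hhom, ← Polynomial.eval_map, ← Polynomial.map_map, hQP]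
    exact he

end IntOn


/-! ## Part 2: field-theoretic lemmas -/

section Field

variable {F : Type*} [Field F]

/-- Explicit integrality gives integrality over any field `M` mapping to `F` whose range contains
the coefficients and `s`. -/
theorem IntOn.isIntegral_of_range {M : Type*} [Field M] [Algebra M F] {ρ : Subring F} {s z : F}
    (hz : IntOn ρ s z) (hρ : ∀ x ∈ ρ, x ∈ (algebraMap M F).range)
    (hs : s ∈ (algebraMap M F).range) : IsIntegral M z := by
  obtain ⟨P, hP, hc, he⟩ := hz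
  have h1 : P.map (Polynomial.evalRingHom s) ∈ Polynomial.lifts (algebraMap M F) := by
    rw [Polynomial.lifts_iff_coeff_lifts]
    intro i
    rw [Polynomial.coeff_map, Polynomial.coe_evalRingHom, Polynomial.eval_eq_sum_range]
    exact Subring.sum_mem _ fun j _ => Subring.mul_mem _ (hρ _ (hc i j)) (Subring.pow_mem _ hs j)
  obtain ⟨q, hq, -, hqm⟩ := Polynomial.lifts_and_degree_eq_and_monic h1 (hP.map _)
  refine ⟨q, hqm, ?_⟩
  rw [← Polynomial.eval_map, hq]
  exact he

/-- Finite-dimensionality over `K0(t)` from generation by `t` and finitely many integral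
elements. -/
theorem finiteDimensional_of_adjoin_eq_top {K0 L : Type*} [Field K0] [Field L] [Algebra K0 L]
    (tL : L) (T : Set L) (hT : T.Finite)
    (hint : ∀ x ∈ T, IsIntegral (IntermediateField.adjoin K0 ({tL} : Set L)) x)
    (htop : IntermediateField.adjoin K0 ({tL} ∪ T) = ⊤) :
    FiniteDimensional (IntermediateField.adjoin K0 ({tL} : Set L)) L := by
  have : Finite T := hT
  have hfd : FiniteDimensional (IntermediateField.adjoin K0 ({tL} : Set L))
      (IntermediateField.adjoin (IntermediateField.adjoin K0 ({tL} : Set L)) T) :=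
    IntermediateField.finiteDimensional_adjoin hint
  have h2 : IntermediateField.adjoin (IntermediateField.adjoin K0 ({tL} : Set L)) T = ⊤ := by
    rw [eq_top_iff]
    intro x _
    have h3 : x ∈ IntermediateField.restrictScalars K0
        (IntermediateField.adjoin (IntermediateField.adjoin K0 ({tL} : Set L)) T) := by
      rw [IntermediateField.adjoin_adjoin_left, htop]
      exact IntermediateField.mem_top
    exact h3
  rw [h2] at hfd
  exact (IntermediateField.topEquiv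
    (F := IntermediateField.adjoin K0 ({tL} : Set L)) (E := L)).toLinearEquiv.finiteDimensional

variable [CharZero F]

open scoped IntermediateField.algebraAdjoinAdjoin in
/-- **Linear disjointness.** If `t` is transcendental over the subfield `𝕜`, a `ℚ`-linearly
independent family of elements of `𝕜` is linearly independent over `ℚ(t)`. -/
theorem linearIndependent_adjoin_of_transcendental (𝕜 : Subfield F) (t : F)
    (ht : ∀ Q : Polynomial F, (∀ d, Q.coeff d ∈ 𝕜) → Q.eval t = 0 → Q = 0)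
    {ι : Type*} (c : ι → F) (hc : ∀ i, c i ∈ 𝕜) (hli : LinearIndependent ℚ c) :
    LinearIndependent (IntermediateField.adjoin ℚ ({t} : Set F)) c := by
  classical
  rw [← LinearIndependent.iff_fractionRing (Algebra.adjoin ℚ ({t} : Set F))
    (IntermediateField.adjoin ℚ ({t} : Set F))]
  rw [linearIndependent_iff']
  intro s g hg i hi
  have hex : ∀ j, ∃ P : Polynomial ℚ, Polynomial.aeval t P = (g j : F) := by
    intro j
    have h : (g j : F) ∈ (Polynomial.aeval t : Polynomial ℚ →ₐ[ℚ] F).range := by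
      rw [← Algebra.adjoin_singleton_eq_range_aeval]
      exact (g j).2
    exact h
  choose P hP using hex
  set Q : Polynomial F := ∑ j ∈ s, Polynomial.C (c j) * (P j).map (algebraMap ℚ F) with hQ
  have hQc : ∀ d, Q.coeff d = ∑ j ∈ s, c j * algebraMap ℚ F ((P j).coeff d) := by
    intro d
    rw [hQ, Polynomial.finsetSum_coeff]
    refine Finset.sum_congr rfl fun j _ => ?_
    rw [Polynomial.coeff_C_mul, Polynomial.coeff_map]
  have hQ0 : Q = 0 := by
    apply ht
    · intro d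
      rw [hQc]
      refine Subfield.sum_mem _ fun j _ => Subfield.mul_mem _ (hc j) ?_
      rw [eq_ratCast]
      exact SubfieldClass.ratCast_mem 𝕜 _
    · rw [hQ, Polynomial.eval_finsetSum]
      have hg' : ∑ j ∈ s, (g j : F) * c j = 0 := by
        have := hg
        simpa [Subalgebra.smul_def] using this
      rw [← hg']
      refine Finset.sum_congr rfl fun j _ => ?_
      rw [Polynomial.eval_mul, Polynomial.eval_C, Polynomial.eval_map, ← Polynomial.aeval_def, hP j,
        mul_comm]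
  have hcoef : ∀ d, (P i).coeff d = 0 := by
    intro d
    have h1 : ∑ j ∈ s, ((P j).coeff d) • c j = 0 := by
      have h2 := hQc d
      rw [hQ0, Polynomial.coeff_zero] at h2
      rw [h2]
      refine Finset.sum_congr rfl fun j _ => ?_
      rw [Algebra.smul_def, mul_comm]
    exact linearIndependent_iff'.mp hli s (fun j => (P j).coeff d) h1 i hi
  have hPi : P i = 0 := Polynomial.ext fun d => by rw [hcoef d, Polynomial.coeff_zero]
  apply Subtype.ext
  rw [← hP i, hPi, map_zero]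
  rfl

end Field


/-! ## Part 3: descent to a number field -/

section Consts

variable {F : Type*} [Field F] [CharZero F]

/-- **Finiteness of the field of constants.** `t` transcendental over the subfield `𝕜`,
`L0` a finite extension of `ℚ(t)`: the field `L0 ∩ 𝕜` is finite over `ℚ`. -/
theorem finiteDimensional_constants (𝕜 : IntermediateField ℚ F) (t : F)
    (ht : ∀ Q : Polynomial F, (∀ d, Q.coeff d ∈ 𝕜) → Q.eval t = 0 → Q = 0)
    (L0 : IntermediateField (IntermediateField.adjoin ℚ ({t} : Set F)) F)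
    [FiniteDimensional (IntermediateField.adjoin ℚ ({t} : Set F)) L0]
    (K1 : IntermediateField ℚ F) (hK1𝕜 : K1 ≤ 𝕜) (hK1L : ∀ x ∈ K1, x ∈ L0) :
    FiniteDimensional ℚ K1 := by
  classical
  have hbound : ∀ s : Finset K1, LinearIndependent ℚ (fun i : s => (i : K1)) →
      s.card ≤ Module.finrank (IntermediateField.adjoin ℚ ({t} : Set F)) L0 := by
    intro s hs
    have h1 : LinearIndependent ℚ (fun i : s => ((i : K1) : F)) :=
      hs.map' K1.val.toLinearMap (LinearMap.ker_eq_bot.mpr K1.val.injective)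
    have h2 : LinearIndependent (IntermediateField.adjoin ℚ ({t} : Set F))
        (fun i : s => ((i : K1) : F)) :=
      linearIndependent_adjoin_of_transcendental 𝕜.toSubfield t ht _
        (fun i => hK1𝕜 (i : K1).2) h1
    have h3 : LinearIndependent (IntermediateField.adjoin ℚ ({t} : Set F))
        (fun i : s => (⟨((i : K1) : F), hK1L _ (i : K1).2⟩ : L0)) := by
      refine LinearIndependent.of_comp L0.val.toLinearMap ?_
      exact h2
    have h4 := h3.fintype_card_le_finrank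
    rwa [Fintype.card_coe] at h4
  have hrank : Module.rank ℚ K1 ≤ (Module.finrank (IntermediateField.adjoin ℚ ({t} : Set F)) L0 : ℕ) :=
    rank_le hbound
  exact Module.rank_lt_aleph0_iff.mp (lt_of_le_of_lt hrank Cardinal.natCast_lt_aleph0)


/-- **Descent data.** -/
theorem exists_descent_fields (𝕜 : IntermediateField ℚ F) (t : F)
    (ht : ∀ Q : Polynomial F, (∀ d, Q.coeff d ∈ 𝕜) → Q.eval t = 0 → Q = 0)
    (S G : Finset F) (hS𝕜 : ∀ x ∈ S, x ∈ 𝕜)
    (hSint : ∀ x ∈ S, IsIntegral ℚ x)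
    (hGint : ∀ x ∈ G, IsIntegral (IntermediateField.adjoin ℚ ({t} : Set F)) x) :
    ∃ (K1 : IntermediateField ℚ F) (L1 : IntermediateField K1 F) (htL : t ∈ L1),
      FiniteDimensional ℚ K1 ∧ K1 ≤ 𝕜 ∧ (∀ x ∈ S, x ∈ K1) ∧ (∀ x ∈ G, x ∈ L1) ∧
      (∀ x ∈ L1, x ∈ 𝕜 → x ∈ K1) ∧
      FiniteDimensional (IntermediateField.adjoin K1 ({(⟨t, htL⟩ : L1)} : Set L1)) L1 := by
  classical
  set E : IntermediateField ℚ F := IntermediateField.adjoin ℚ ({t} : Set F) with hE
  have htE : t ∈ E := IntermediateField.subset_adjoin ℚ _ (Set.mem_singleton t)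
  have hgen : ∀ x ∈ (↑S ∪ ↑G : Set F), IsIntegral E x := by
    rintro x (hx | hx)
    · exact (hSint x hx).tower_top
    · exact hGint x hx
  set L0 : IntermediateField E F := IntermediateField.adjoin E (↑S ∪ ↑G : Set F) with hL0
  have hfin : (↑S ∪ ↑G : Set F).Finite := (Finset.finite_toSet S).union (Finset.finite_toSet G)
  have : Finite (↑S ∪ ↑G : Set F) := hfin
  have hFD : FiniteDimensional E L0 := IntermediateField.finiteDimensional_adjoin hgen
  set K1 : IntermediateField ℚ F := L0.restrictScalars ℚ ⊓ 𝕜 with hK1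
  have hK1L : K1 ≤ L0.restrictScalars ℚ := inf_le_left
  have hK1𝕜 : K1 ≤ 𝕜 := inf_le_right
  have hK1fd : FiniteDimensional ℚ K1 :=
    finiteDimensional_constants 𝕜 t ht L0 K1 hK1𝕜 (fun x hx => hK1L hx)
  set L1 : IntermediateField K1 F := IntermediateField.extendScalars hK1L with hL1
  have hmemL1 : ∀ x : F, x ∈ L1 ↔ x ∈ L0 := fun x => Iff.rfl
  have htL : t ∈ L1 := (hmemL1 t).mpr (L0.algebraMap_mem ⟨t, htE⟩)
  have hSL0 : ∀ x ∈ S, x ∈ L0 := fun x hx =>
    IntermediateField.subset_adjoin E _ (Or.inl hx)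
  have hGL0 : ∀ x ∈ G, x ∈ L0 := fun x hx =>
    IntermediateField.subset_adjoin E _ (Or.inr hx)
  refine ⟨K1, L1, htL, hK1fd, hK1𝕜, fun x hx => ⟨hSL0 x hx, hS𝕜 x hx⟩,
    fun x hx => (hmemL1 x).mpr (hGL0 x hx), fun x hx hx𝕜 => ⟨(hmemL1 x).mp hx, hx𝕜⟩, ?_⟩
  -- finite-dimensionality over `K1(t)`
  set tL : L1 := ⟨t, htL⟩ with htLdef
  set T : Set L1 := {x : L1 | (x : F) ∈ (↑S ∪ ↑G : Set F)} with hT
  have hTfin : T.Finite := hfin.preimage (Subtype.val_injective.injOn)
  set M : IntermediateField K1 L1 := IntermediateField.adjoin K1 ({tL} : Set L1) with hM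
  -- the embedding of `M` into `F`
  let j : M →+* F := (algebraMap L1 F).comp (algebraMap M L1)
  have hjinj : Function.Injective j := j.injective
  -- `E` is contained in the range of `j`
  have hEj : ∀ e ∈ E, e ∈ j.range := by
    let R : IntermediateField ℚ F := Subfield.toIntermediateField j.fieldRange (fun q => by
      rw [eq_ratCast]
      exact SubfieldClass.ratCast_mem _ q)
    have hle : E ≤ R := by
      rw [hE, IntermediateField.adjoin_le_iff]
      rintro x rfl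
      exact ⟨⟨tL, IntermediateField.subset_adjoin K1 _ (Set.mem_singleton tL)⟩, rfl⟩
    intro e he
    exact hle he
  refine finiteDimensional_of_adjoin_eq_top tL T hTfin ?_ ?_
  · intro x hx
    obtain ⟨p, hp, hpx⟩ := hgen (x : F) hx
    have h1 : p.map (algebraMap E F) ∈ Polynomial.lifts j := by
      rw [Polynomial.lifts_iff_coeff_lifts]
      intro i
      rw [Polynomial.coeff_map]
      exact hEj _ (p.coeff i).2
    obtain ⟨q, hq, -, hqm⟩ := Polynomial.lifts_and_degree_eq_and_monic h1 (hp.map _)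
    refine ⟨q, hqm, ?_⟩
    apply (algebraMap L1 F).injective
    rw [map_zero, Polynomial.hom_eval₂]
    have : (algebraMap L1 F).comp (algebraMap M L1) = j := rfl
    rw [this, ← Polynomial.eval_map, hq, Polynomial.eval_map]
    exact hpx
  · rw [eq_top_iff]
    intro y _
    rw [← IntermediateField.mem_lift, IntermediateField.lift_adjoin]
    set M2 : IntermediateField K1 F :=
      IntermediateField.adjoin K1 (Subtype.val '' ({tL} ∪ T : Set L1)) with hM2
    have hEM2 : E ≤ M2.restrictScalars ℚ := by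
      rw [hE, IntermediateField.adjoin_le_iff]
      rintro x rfl
      exact IntermediateField.subset_adjoin K1 _ ⟨tL, Or.inl rfl, rfl⟩
    have hL0M2 : L0 ≤ IntermediateField.extendScalars hEM2 := by
      rw [hL0, IntermediateField.adjoin_le_iff]
      intro x hx
      have hxL1 : x ∈ L1 := (hmemL1 x).mpr (IntermediateField.subset_adjoin E _ hx)
      exact IntermediateField.subset_adjoin K1 _ ⟨⟨x, hxL1⟩, Or.inr hx, rfl⟩
    exact hL0M2 ((hmemL1 _).mp y.2)


/-! ## Part 4: the core statement -/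

open Fermat.Agent.S18 in
/-- **Connectedness by hand over a valuation ring of an algebraic extension of `ℚ`** (core form,
everything inside `F`). -/
theorem conn_core (ρ : Subring F) (𝕜 : IntermediateField ℚ F) (t : F)
    (hρ𝕜 : ∀ x ∈ ρ, x ∈ 𝕜)
    (hval : ∀ x ∈ 𝕜, x ∈ ρ ∨ x⁻¹ ∈ ρ)
    (halg : ∀ x ∈ 𝕜, IsIntegral ℚ x)
    {ℓ : ℕ} (hℓ : ℓ.Prime) (hℓρ : ((ℓ : F))⁻¹ ∉ ρ)
    (ht : ∀ Q : Polynomial F, (∀ d, Q.coeff d ∈ 𝕜) → Q.eval t = 0 → Q = 0)
    (hconst : ∀ z : F, (∃ Q : Polynomial F, Q ≠ 0 ∧ (∀ d, Q.coeff d ∈ 𝕜) ∧ Q.eval z = 0) → z ∈ 𝕜)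
    {a b : F} (ha : IntOn ρ t a) (hb : IntOn ρ t⁻¹ b)
    (ha2 : ∃ π ∈ ρ, π⁻¹ ∉ ρ ∧ ∃ y, IntOn ρ t y ∧ a * a - a = π * y)
    (hb2 : ∃ π ∈ ρ, π⁻¹ ∉ ρ ∧ ∃ y, IntOn ρ t⁻¹ y ∧ b * b - b = π * y)
    (hab : ∃ π ∈ ρ, π⁻¹ ∉ ρ ∧ ∃ y, ∃ n : ℕ, IntOn ρ t (t ^ n * y) ∧ a - b = π * y) :
    ∃ π ∈ ρ, π⁻¹ ∉ ρ ∧
      (((∃ y, IntOn ρ t y ∧ a = π * y) ∧ ∃ y, IntOn ρ t⁻¹ y ∧ b = π * y) ∨
        ((∃ y, IntOn ρ t y ∧ a - 1 = π * y) ∧ ∃ y, IntOn ρ t⁻¹ y ∧ b - 1 = π * y)) := by
  classical
  obtain ⟨π₁, hπ₁, hπ₁', y₁, hy₁, e₁⟩ := ha2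
  obtain ⟨π₂, hπ₂, hπ₂', y₂, hy₂, e₂⟩ := hb2
  obtain ⟨π₃, hπ₃, hπ₃', y₃, n₃, hy₃, e₃⟩ := hab
  obtain ⟨Sa, hSa, hSa'⟩ := ha.exists_finset
  obtain ⟨Sb, hSb, hSb'⟩ := hb.exists_finset
  obtain ⟨S1, hS1, hS1'⟩ := hy₁.exists_finset
  obtain ⟨S2, hS2, hS2'⟩ := hy₂.exists_finset
  obtain ⟨S3, hS3, hS3'⟩ := hy₃.exists_finset
  set S : Finset F := Sa ∪ Sb ∪ S1 ∪ S2 ∪ S3 ∪ {π₁, π₂, π₃} with hS
  have hSρ : ∀ x ∈ S, x ∈ ρ := by
    intro x hx
    simp only [hS, Finset.mem_union, Finset.mem_insert, Finset.mem_singleton] at hx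
    rcases hx with ((((hx | hx) | hx) | hx) | hx) | (rfl | rfl | rfl)
    exacts [hSa hx, hSb hx, hS1 hx, hS2 hx, hS3 hx, hπ₁, hπ₂, hπ₃]
  have hSaS : (↑Sa : Set F) ⊆ ↑S := by
    intro x hx; simp only [hS, Finset.coe_union, Set.mem_union]; tauto
  have hSbS : (↑Sb : Set F) ⊆ ↑S := by
    intro x hx; simp only [hS, Finset.coe_union, Set.mem_union]; tauto
  have hS1S : (↑S1 : Set F) ⊆ ↑S := by
    intro x hx; simp only [hS, Finset.coe_union, Set.mem_union]; tauto
  have hS2S : (↑S2 : Set F) ⊆ ↑S := by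
    intro x hx; simp only [hS, Finset.coe_union, Set.mem_union]; tauto
  have hS3S : (↑S3 : Set F) ⊆ ↑S := by
    intro x hx; simp only [hS, Finset.coe_union, Set.mem_union]; tauto
  have hπ₁S : π₁ ∈ S := by simp [hS]
  have hπ₂S : π₂ ∈ S := by simp [hS]
  have hπ₃S : π₃ ∈ S := by simp [hS]
  have ht0 : t ≠ 0 := by
    intro h0
    have h1 := ht Polynomial.X (fun d => by
      rw [Polynomial.coeff_X]
      split_ifs
      · exact 𝕜.one_mem
      · exact 𝕜.zero_mem) (by simp [h0])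
    exact Polynomial.X_ne_zero h1
  set E : IntermediateField ℚ F := IntermediateField.adjoin ℚ ({t} : Set F) with hE
  have htE : t ∈ E := IntermediateField.subset_adjoin ℚ _ (Set.mem_singleton t)
  -- integrality over `E = ℚ(t)`
  have key : ∀ (s z : F), s ∈ E →
      (∀ ρ' : Subring F, (↑S : Set F) ⊆ ρ' → IntOn ρ' s z) → IsIntegral E z := by
    intro s z hs hz
    let E' : IntermediateField E F := IntermediateField.adjoin E (S : Set F)
    have hSE : ∀ x ∈ (S : Set F), IsIntegral E x := fun x hx =>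
      (halg x (hρ𝕜 x (hSρ x hx))).tower_top
    have : Finite (S : Set F) := Finset.finite_toSet S
    have hfd : FiniteDimensional E E' := IntermediateField.finiteDimensional_adjoin hSE
    have h1 : IsIntegral E' z := by
      refine (hz (Subring.closure S) Subring.subset_closure).isIntegral_of_range ?_ ?_
      · intro x hx
        have hle : Subring.closure (S : Set F) ≤ E'.toSubring :=
          Subring.closure_le.mpr (fun x hx => IntermediateField.subset_adjoin E _ hx)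
        exact ⟨⟨x, hle hx⟩, rfl⟩
      · exact ⟨⟨s, E'.algebraMap_mem ⟨s, hs⟩⟩, rfl⟩
    exact isIntegral_trans z h1
  set G : Finset F := {a, b, y₁, y₂, y₃} with hG
  have hGint : ∀ x ∈ G, IsIntegral E x := by
    intro x hx
    simp only [hG, Finset.mem_insert, Finset.mem_singleton] at hx
    rcases hx with rfl | rfl | rfl | rfl | rfl
    · exact key t _ htE (fun ρ' h => hSa' ρ' (hSaS.trans h))
    · exact key t⁻¹ _ (E.inv_mem htE) (fun ρ' h => hSb' ρ' (hSbS.trans h))
    · exact key t _ htE (fun ρ' h => hS1' ρ' (hS1S.trans h))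
    · exact key t⁻¹ _ (E.inv_mem htE) (fun ρ' h => hS2' ρ' (hS2S.trans h))
    · have h1 : IsIntegral E (t ^ n₃ * x) := key t _ htE (fun ρ' h => hS3' ρ' (hS3S.trans h))
      have h2 : IsIntegral E ((t ^ n₃)⁻¹ : F) :=
        isIntegral_algebraMap (x := (⟨(t ^ n₃)⁻¹, E.inv_mem (pow_mem htE n₃)⟩ : E))
      have h3 := h2.mul h1
      rwa [inv_mul_cancel_left₀ (pow_ne_zero n₃ ht0)] at h3
  obtain ⟨K1, L1, htL, hK1fd, hK1𝕜, hSK1, hGL1, hconstL, hFD⟩ :=
    exists_descent_fields 𝕜 t ht S G (fun x hx => hρ𝕜 x (hSρ x hx))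
      (fun x hx => halg x (hρ𝕜 x (hSρ x hx))) hGint
  -- the valuation ring of `K1`
  let V1 : ValuationSubring K1 :=
    { ρ.comap (algebraMap K1 F) with
      mem_or_inv_mem' := by
        intro x
        rcases hval (x : F) (hK1𝕜 x.2) with h | h
        · exact Or.inl h
        · right
          show algebraMap K1 F x⁻¹ ∈ ρ
          rw [map_inv₀]
          exact h }
  have hmemV1 : ∀ x : K1, x ∈ V1 ↔ (x : F) ∈ ρ := fun x => Iff.rfl
  have hℓV1 : ((ℓ : ℕ) : K1) ∈ V1.nonunits := by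
    rw [ValuationSubring.mem_nonunits_iff_or]
    right
    intro h
    apply hℓρ
    have h1 := (hmemV1 _).mp h
    simpa using h1
  have hDVR : IsDiscreteValuationRing V1 :=
    helper8351.isDiscreteValuationRing_of_finiteDimensional V1 hℓ hℓV1
  have hchar : CharZero K1 := charZero_of_injective_algebraMap (algebraMap ℚ K1).injective
  let algVL : Algebra V1 L1 := ((algebraMap K1 L1).comp (algebraMap V1 K1)).toAlgebra
  have htower : IsScalarTower V1 K1 L1 := IsScalarTower.of_algebraMap_eq (fun _ => rfl)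
  obtain ⟨ϖ, hϖ⟩ := IsDiscreteValuationRing.exists_irreducible V1
  set tL : L1 := ⟨t, htL⟩ with htLdef
  have htr : Transcendental K1 tL := by
    rw [transcendental_iff]
    intro p hp
    have hev : (p.map (algebraMap K1 F)).eval t = 0 := by
      have h1 : algebraMap L1 F (Polynomial.aeval tL p) = 0 := by rw [hp, map_zero]
      rw [Polynomial.aeval_def, Polynomial.hom_eval₂, ← IsScalarTower.algebraMap_eq] at h1
      rw [Polynomial.eval_map]
      exact h1
    have hQ := ht (p.map (algebraMap K1 F)) (fun d => by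
      rw [Polynomial.coeff_map]
      exact hK1𝕜 (p.coeff d).2) hev
    exact Polynomial.map_injective _ (algebraMap K1 F).injective (by rw [hQ, Polynomial.map_zero])
  have hK0 : ∀ x : L1, IsAlgebraic K1 x → x ∈ (algebraMap K1 L1).range := by
    intro x hx
    obtain ⟨p, hp0, hpx⟩ := hx
    have hev : (p.map (algebraMap K1 F)).eval (x : F) = 0 := by
      have h1 : algebraMap L1 F (Polynomial.aeval x p) = 0 := by rw [hpx, map_zero]
      rw [Polynomial.aeval_def, Polynomial.hom_eval₂, ← IsScalarTower.algebraMap_eq] at h1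
      rw [Polynomial.eval_map]
      exact h1
    have hx𝕜 : (x : F) ∈ 𝕜 := hconst x ⟨p.map (algebraMap K1 F),
      (Polynomial.map_ne_zero_iff (algebraMap K1 F).injective).mpr hp0,
      fun d => by rw [Polynomial.coeff_map]; exact hK1𝕜 (p.coeff d).2, hev⟩
    exact ⟨⟨x, hconstL x x.2 hx𝕜⟩, Subtype.ext rfl⟩
  -- the image of `V1` in `F`
  set ρ1 : Subring F := (algebraMap V1 L1).range.map (algebraMap L1 F) with hρ1
  have hSρ1 : (↑S : Set F) ⊆ ρ1 := by
    intro x hx
    exact Subring.mem_map.mpr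
      ⟨algebraMap V1 L1 ⟨⟨x, hSK1 x hx⟩, hSρ x hx⟩, ⟨_, rfl⟩, rfl⟩
  have hρ1ρ : ρ1 ≤ ρ := by
    intro x hx
    obtain ⟨_, ⟨v, rfl⟩, rfl⟩ := Subring.mem_map.mp hx
    exact v.2
  have toL : ∀ (sL zL : L1), IntOn ρ1 (sL : F) (zL : F) →
      IsIntegral (Algebra.adjoin V1 ({sL} : Set L1)) zL := fun sL zL h =>
    (isIntegral_adjoin_singleton_iff sL zL).mpr
      ((intOn_map_iff (algebraMap L1 F) (algebraMap L1 F).injective _ sL zL).mp h)
  have fromL : ∀ (sL zL : L1), IsIntegral (Algebra.adjoin V1 ({sL} : Set L1)) zL →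
      IntOn ρ (sL : F) (zL : F) := fun sL zL h =>
    ((intOn_map_iff (algebraMap L1 F) (algebraMap L1 F).injective _ sL zL).mpr
      ((isIntegral_adjoin_singleton_iff sL zL).mp h)).mono hρ1ρ
  have haG : a ∈ G := by simp [hG]
  have hbG : b ∈ G := by simp [hG]
  have hy₁G : y₁ ∈ G := by simp [hG]
  have hy₂G : y₂ ∈ G := by simp [hG]
  have hy₃G : y₃ ∈ G := by simp [hG]
  set aL : L1 := ⟨a, hGL1 a haG⟩ with haLdef
  set bL : L1 := ⟨b, hGL1 b hbG⟩ with hbLdef
  set y₁L : L1 := ⟨y₁, hGL1 y₁ hy₁G⟩ with hy₁Ldef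
  set y₂L : L1 := ⟨y₂, hGL1 y₂ hy₂G⟩ with hy₂Ldef
  set y₃L : L1 := ⟨y₃, hGL1 y₃ hy₃G⟩ with hy₃Ldef
  have haL : IsIntegral (Algebra.adjoin V1 ({tL} : Set L1)) aL :=
    toL tL aL (hSa' ρ1 (hSaS.trans hSρ1))
  have hbL : IsIntegral (Algebra.adjoin V1 ({tL⁻¹} : Set L1)) bL :=
    toL tL⁻¹ bL (hSb' ρ1 (hSbS.trans hSρ1))
  have hy₁L : IsIntegral (Algebra.adjoin V1 ({tL} : Set L1)) y₁L :=
    toL tL y₁L (hS1' ρ1 (hS1S.trans hSρ1))
  have hy₂L : IsIntegral (Algebra.adjoin V1 ({tL⁻¹} : Set L1)) y₂L :=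
    toL tL⁻¹ y₂L (hS2' ρ1 (hS2S.trans hSρ1))
  have htL0 : tL ≠ 0 := fun h => ht0 (congrArg Subtype.val h)
  have hy₃L : IsIntegral (Algebra.adjoin V1 ({tL, tL⁻¹} : Set L1)) y₃L := by
    have h1 : IsIntegral (Algebra.adjoin V1 ({tL} : Set L1)) (tL ^ n₃ * y₃L) :=
      toL tL _ (hS3' ρ1 (hS3S.trans hSρ1))
    have h2 : IsIntegral (Algebra.adjoin V1 ({tL, tL⁻¹} : Set L1)) (tL ^ n₃ * y₃L) :=
      helper5377.isIntegral_adjoin_mono (fun x hx => Or.inl hx) h1
    have h3 : IsIntegral (Algebra.adjoin V1 ({tL, tL⁻¹} : Set L1)) (tL⁻¹ ^ n₃) :=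
      (isIntegral_algebraMap (x := (⟨tL⁻¹, Algebra.subset_adjoin (Or.inr rfl)⟩ :
        Algebra.adjoin V1 ({tL, tL⁻¹} : Set L1)))).pow n₃
    have h4 := h3.mul h2
    have h5 : tL⁻¹ ^ n₃ * (tL ^ n₃ * y₃L) = y₃L := by
      rw [← mul_assoc, ← mul_pow, inv_mul_cancel₀ htL0, one_pow, one_mul]
    rwa [h5] at h4
  -- non-units of `ρ` in `S` are divisible by `ϖ`
  have hdvd : ∀ v : V1, (((v : K1) : F))⁻¹ ∉ ρ → ϖ ∣ v := by
    intro v hv
    have hnu : ¬ IsUnit v := by
      intro hu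
      obtain ⟨w, hw⟩ := hu.exists_right_inv
      apply hv
      have h1 : ((v : K1) : F) * ((w : K1) : F) = 1 := by
        have := congrArg (fun z : V1 => ((z : K1) : F)) hw
        simpa using this
      rw [inv_eq_of_mul_eq_one_right h1]
      exact w.2
    have hmem : v ∈ IsLocalRing.maximalIdeal V1 := (IsLocalRing.mem_maximalIdeal v).mpr hnu
    rw [hϖ.maximalIdeal_eq, Ideal.mem_span_singleton] at hmem
    exact hmem
  have hmul : ∀ (𝒜 : Subalgebra V1 L1) (π : F) (hπS : π ∈ S) (_ : π⁻¹ ∉ ρ) (zL cL : L1)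
      (_ : IsIntegral 𝒜 zL) (_ : (cL : F) = π * (zL : F)),
      ∃ y', IsIntegral 𝒜 y' ∧ cL = ϖ • y' := by
    intro 𝒜 π hπS hπ' zL cL hz e
    obtain ⟨u, hu⟩ := hdvd ⟨⟨π, hSK1 π hπS⟩, hSρ π hπS⟩ hπ'
    refine ⟨algebraMap V1 L1 u * zL, ?_, ?_⟩
    · exact IsIntegral.mul
        (isIntegral_algebraMap (x := (⟨algebraMap V1 L1 u, 𝒜.algebraMap_mem u⟩ : 𝒜))) hz
    · apply Subtype.ext
      rw [Algebra.smul_def]
      have h1 : (((algebraMap V1 L1 ϖ * (algebraMap V1 L1 u * zL) : L1)) : F)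
          = ((ϖ : K1) : F) * (((u : K1) : F) * (zL : F)) := rfl
      rw [h1, e, ← mul_assoc]
      congr 1
      have := congrArg (fun z : V1 => ((z : K1) : F)) hu
      simpa using this
  have ha2L : ∃ y, IsIntegral (Algebra.adjoin V1 ({tL} : Set L1)) y ∧ aL * aL - aL = ϖ • y :=
    hmul _ π₁ hπ₁S hπ₁' y₁L (aL * aL - aL) hy₁L e₁
  have hb2L : ∃ y, IsIntegral (Algebra.adjoin V1 ({tL⁻¹} : Set L1)) y ∧ bL * bL - bL = ϖ • y :=
    hmul _ π₂ hπ₂S hπ₂' y₂L (bL * bL - bL) hy₂L e₂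
  have habL : ∃ y, IsIntegral (Algebra.adjoin V1 ({tL, tL⁻¹} : Set L1)) y ∧ aL - bL = ϖ • y :=
    hmul _ π₃ hπ₃S hπ₃' y₃L (aL - bL) hy₃L e₃
  have hFD' : FiniteDimensional (IntermediateField.adjoin K1 ({tL} : Set L1)) L1 := hFD
  have key2 := helper5377.chart_idempotent_dvr (A0 := V1) (K0 := K1) (L := L1) tL htr hK0 ϖ hϖ
    haL hbL ha2L hb2L habL
  have hϖinv : (((ϖ : K1) : F))⁻¹ ∉ ρ := by
    intro h
    apply hϖ.not_isUnit
    have hϖ0 : (ϖ : K1) ≠ 0 := fun h0 => hϖ.ne_zero (Subtype.ext h0)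
    refine IsUnit.of_mul_eq_one (⟨(ϖ : K1)⁻¹, ?_⟩ : V1) ?_
    · show algebraMap K1 F (ϖ : K1)⁻¹ ∈ ρ
      rw [map_inv₀]
      exact h
    · apply Subtype.ext
      exact mul_inv_cancel₀ hϖ0
  have back : ∀ (cL yL : L1), cL = ϖ • yL → (cL : F) = ((ϖ : K1) : F) * (yL : F) := by
    intro cL yL h
    rw [h, Algebra.smul_def]
    rfl
  refine ⟨((ϖ : K1) : F), ϖ.2, hϖinv, ?_⟩
  rcases key2 with ⟨⟨y, hy, e⟩, ⟨y', hy', e'⟩⟩ | ⟨⟨y, hy, e⟩, ⟨y', hy', e'⟩⟩
  · exact Or.inl ⟨⟨(y : F), fromL tL y hy, back aL y e⟩,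
      ⟨(y' : F), fromL tL⁻¹ y' hy', back bL y' e'⟩⟩
  · exact Or.inr ⟨⟨(y : F), fromL tL y hy, back (aL - 1) y e⟩,
      ⟨(y' : F), fromL tL⁻¹ y' hy', back (bL - 1) y' e'⟩⟩


end Consts

/-! ## Part 5: the statement for `A → K → F` -/

section Wrapper

variable {A K F : Type*} [CommRing A] [Field K] [CharZero K] [Algebra A K] [Field F] [Algebra K F]
  [Algebra A F] [IsScalarTower A K F]

open Fermat.Agent.S18 in
/-- **Connectedness by hand over a valuation ring of an algebraic extension of `ℚ`.**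

`A → K` is injective with valuation-ring image, `K` is algebraic over `ℚ`, some prime `ℓ` is a
non-unit of `A`; `F` is a field over `K`, `t ∈ F` is transcendental over `K` and `K` is
algebraically closed in `F`.  If `a` is integral over `A[t]`, `b` is integral over `A[t⁻¹]`, both
are idempotent modulo non-units of `A` (in their charts) and `a ≡ b` modulo a non-unit of `A` in
the overlap chart (integral closure of `A[t, t⁻¹]`), then `a ≡ b ≡ 0` or `a ≡ b ≡ 1` modulo a
non-unit of `A`. -/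
theorem two_chart_idempotent_val
    (hinj : Function.Injective (algebraMap A K))
    (hval : ∀ x : K, x ∈ (algebraMap A K).range ∨ x⁻¹ ∈ (algebraMap A K).range)
    (halg : ∀ x : K, IsAlgebraic ℚ x)
    {ℓ : ℕ} (hℓ : ℓ.Prime) (hℓA : ¬ IsUnit ((ℓ : ℕ) : A))
    (t : F) (ht : Transcendental K t)
    (hK : ∀ z : F, IsAlgebraic K z → z ∈ (algebraMap K F).range)
    {a b : F} (ha : IsIntegral (Algebra.adjoin A ({t} : Set F)) a)
    (hb : IsIntegral (Algebra.adjoin A ({t⁻¹} : Set F)) b)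
    (ha2 : ∃ π : A, ¬ IsUnit π ∧
      ∃ y, IsIntegral (Algebra.adjoin A ({t} : Set F)) y ∧ a * a - a = π • y)
    (hb2 : ∃ π : A, ¬ IsUnit π ∧
      ∃ y, IsIntegral (Algebra.adjoin A ({t⁻¹} : Set F)) y ∧ b * b - b = π • y)
    (hab : ∃ π : A, ¬ IsUnit π ∧
      ∃ y, IsIntegral (Algebra.adjoin A ({t, t⁻¹} : Set F)) y ∧ a - b = π • y) :
    ∃ π : A, ¬ IsUnit π ∧
      (((∃ y, IsIntegral (Algebra.adjoin A ({t} : Set F)) y ∧ a = π • y) ∧
          ∃ y, IsIntegral (Algebra.adjoin A ({t⁻¹} : Set F)) y ∧ b = π • y) ∨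
        ((∃ y, IsIntegral (Algebra.adjoin A ({t} : Set F)) y ∧ a - 1 = π • y) ∧
          ∃ y, IsIntegral (Algebra.adjoin A ({t⁻¹} : Set F)) y ∧ b - 1 = π • y)) := by
  have hcharF : CharZero F := charZero_of_injective_algebraMap (algebraMap K F).injective
  have hinjF : Function.Injective (algebraMap A F) := by
    rw [IsScalarTower.algebraMap_eq A K F]
    exact (algebraMap K F).injective.comp hinj
  have ht0 : t ≠ 0 := by
    rintro rfl
    exact ht ⟨Polynomial.X, Polynomial.X_ne_zero, by simp⟩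
  set ρ : Subring F := (algebraMap A F).range with hρ
  let 𝕜 : IntermediateField ℚ F := Subfield.toIntermediateField (algebraMap K F).fieldRange
    (fun q => ⟨(q : K), by rw [eq_ratCast, map_ratCast]⟩)
  have hmem𝕜 : ∀ x : F, x ∈ 𝕜 ↔ ∃ k : K, algebraMap K F k = x := fun x => Iff.rfl
  have hnu : ∀ π : A, ¬ IsUnit π → π ≠ 0 → (algebraMap A F π)⁻¹ ∉ ρ := by
    rintro π hπ hπ0 ⟨x, hx⟩
    apply hπ
    have h0 : algebraMap A F π ≠ 0 := fun h => hπ0 (hinjF (by rw [h, map_zero]))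
    have h1 : algebraMap A F (π * x) = 1 := by
      rw [map_mul, hx, mul_inv_cancel₀ h0]
    exact IsUnit.of_mul_eq_one x (hinjF (by rw [h1, map_one]))
  have hnu' : ∀ π : A, (algebraMap A F π)⁻¹ ∉ ρ → ¬ IsUnit π := by
    intro π h hu
    obtain ⟨x, hx⟩ := hu.exists_right_inv
    apply h
    have h1 : algebraMap A F π * algebraMap A F x = 1 := by rw [← map_mul, hx, map_one]
    exact ⟨x, (inv_eq_of_mul_eq_one_right h1).symm⟩
  have hℓ0 : ((ℓ : ℕ) : A) ≠ 0 := by
    intro h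
    have h1 : algebraMap A F ((ℓ : ℕ) : A) = 0 := by rw [h, map_zero]
    rw [map_natCast] at h1
    exact hℓ.ne_zero (by exact_mod_cast h1)
  have hℓρ : ((ℓ : F))⁻¹ ∉ ρ := by
    have h1 := hnu _ hℓA hℓ0
    rwa [map_natCast] at h1
  have cv : ∀ (s z : F), IsIntegral (Algebra.adjoin A ({s} : Set F)) z ↔ IntOn ρ s z :=
    fun s z => isIntegral_adjoin_singleton_iff s z
  have fix : ∀ (c s : F), (∃ π : A, ¬ IsUnit π ∧
      ∃ y, IsIntegral (Algebra.adjoin A ({s} : Set F)) y ∧ c = π • y) →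
      ∃ π ∈ ρ, π⁻¹ ∉ ρ ∧ ∃ y, IntOn ρ s y ∧ c = π * y := by
    rintro c s ⟨π, hπ, y, hy, e⟩
    by_cases hπ0 : π = 0
    · refine ⟨(ℓ : F), ⟨((ℓ : ℕ) : A), map_natCast _ _⟩, hℓρ, 0, (cv s 0).mp isIntegral_zero, ?_⟩
      rw [e, hπ0, zero_smul, mul_zero]
    · exact ⟨algebraMap A F π, ⟨π, rfl⟩, hnu π hπ hπ0, y, (cv s y).mp hy, by
        rw [e, Algebra.smul_def]⟩
  have hab' : ∃ π ∈ ρ, π⁻¹ ∉ ρ ∧ ∃ y, ∃ n : ℕ, IntOn ρ t (t ^ n * y) ∧ a - b = π * y := by
    obtain ⟨π, hπ, y, hy, e⟩ := hab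
    obtain ⟨n, hn⟩ := helper5377.exists_pow_mul_isIntegral t ht0 hy
    by_cases hπ0 : π = 0
    · refine ⟨(ℓ : F), ⟨((ℓ : ℕ) : A), map_natCast _ _⟩, hℓρ, 0, 0, ?_, ?_⟩
      · rw [mul_zero]
        exact (cv t 0).mp isIntegral_zero
      · rw [e, hπ0, zero_smul, mul_zero]
    · exact ⟨algebraMap A F π, ⟨π, rfl⟩, hnu π hπ hπ0, y, n, (cv t _).mp (hn n le_rfl), by
        rw [e, Algebra.smul_def]⟩
  have hlift : ∀ Q : Polynomial F, (∀ d, Q.coeff d ∈ 𝕜) →
      ∃ q : Polynomial K, q.map (algebraMap K F) = Q := by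
    intro Q hQ
    have h1 : Q ∈ Polynomial.lifts (algebraMap K F) :=
      (Polynomial.lifts_iff_coeff_lifts Q).mpr (fun d => (hmem𝕜 _).mp (hQ d))
    exact (Polynomial.mem_lifts Q).mp h1
  have ht' : ∀ Q : Polynomial F, (∀ d, Q.coeff d ∈ 𝕜) → Q.eval t = 0 → Q = 0 := by
    intro Q hQ he
    obtain ⟨q, rfl⟩ := hlift Q hQ
    have h1 : Polynomial.aeval t q = 0 := by
      rw [Polynomial.aeval_def, ← Polynomial.eval_map]
      exact he
    rw [transcendental_iff.mp ht q h1, Polynomial.map_zero]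
  have hconst' : ∀ z : F,
      (∃ Q : Polynomial F, Q ≠ 0 ∧ (∀ d, Q.coeff d ∈ 𝕜) ∧ Q.eval z = 0) → z ∈ 𝕜 := by
    rintro z ⟨Q, hQ0, hQ, he⟩
    obtain ⟨q, rfl⟩ := hlift Q hQ
    have hq0 : q ≠ 0 := fun h => hQ0 (by rw [h, Polynomial.map_zero])
    have h1 : IsAlgebraic K z := ⟨q, hq0, by
      rw [Polynomial.aeval_def, ← Polynomial.eval_map]
      exact he⟩
    obtain ⟨k, hk⟩ := hK z h1
    exact (hmem𝕜 z).mpr ⟨k, hk⟩
  have hρ𝕜 : ∀ x ∈ ρ, x ∈ 𝕜 := by
    rintro x ⟨y, rfl⟩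
    exact (hmem𝕜 _).mpr ⟨algebraMap A K y, (IsScalarTower.algebraMap_apply A K F y).symm⟩
  have hval' : ∀ x ∈ 𝕜, x ∈ ρ ∨ x⁻¹ ∈ ρ := by
    intro x hx
    obtain ⟨k, rfl⟩ := (hmem𝕜 x).mp hx
    rcases hval k with ⟨y, hy⟩ | ⟨y, hy⟩
    · exact Or.inl ⟨y, by rw [IsScalarTower.algebraMap_apply A K F, hy]⟩
    · exact Or.inr ⟨y, by rw [IsScalarTower.algebraMap_apply A K F, hy, map_inv₀]⟩
  have halg' : ∀ x ∈ 𝕜, IsIntegral ℚ x := by
    intro x hx
    obtain ⟨k, rfl⟩ := (hmem𝕜 x).mp hx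
    obtain ⟨p, hp, hpk⟩ := (halg k).isIntegral
    refine ⟨p, hp, ?_⟩
    have h1 : algebraMap ℚ F = (algebraMap K F).comp (algebraMap ℚ K) := Subsingleton.elim _ _
    rw [h1, ← Polynomial.hom_eval₂, hpk, map_zero]
  obtain ⟨π, ⟨π₀, rfl⟩, hπinv, hcases⟩ := conn_core ρ 𝕜 t hρ𝕜 hval' halg' hℓ hℓρ ht' hconst'
    ((cv t a).mp ha) ((cv t⁻¹ b).mp hb) (fix _ t ha2) (fix _ t⁻¹ hb2) hab'
  refine ⟨π₀, hnu' π₀ hπinv, ?_⟩
  rcases hcases with ⟨⟨y, hy, e⟩, ⟨y', hy', e'⟩⟩ | ⟨⟨y, hy, e⟩, ⟨y', hy', e'⟩⟩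
  · exact Or.inl ⟨⟨y, (cv t y).mpr hy, by rw [e, Algebra.smul_def]⟩,
      ⟨y', (cv t⁻¹ y').mpr hy', by rw [e', Algebra.smul_def]⟩⟩
  · exact Or.inr ⟨⟨y, (cv t y).mpr hy, by rw [e, Algebra.smul_def]⟩,
      ⟨y', (cv t⁻¹ y').mpr hy', by rw [e', Algebra.smul_def]⟩⟩

end Wrapper

/-! ## Part 6: the `hZ` form for two valuations -/

section HZ

variable {A F : Type*} [CommRing A] [Field F] [Algebra A F]
  {Γ₀ : Type*} [LinearOrderedCommGroupWithZero Γ₀]

/-- A valuation bounded by `1` on `A` and on `s` is bounded by `1` on `A[s]`. -/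
theorem valuation_le_one_of_mem_adjoin (v : Valuation F Γ₀)
    (hA : ∀ x : A, v (algebraMap A F x) ≤ 1) (s : Set F) (hs : ∀ x ∈ s, v x ≤ 1)
    {x : F} (hx : x ∈ Algebra.adjoin A s) : v x ≤ 1 := by
  induction hx using Algebra.adjoin_induction with
  | mem z hz => exact hs z hz
  | algebraMap r => exact hA r
  | add x y _ _ hx hy => exact (v.map_add x y).trans (max_le hx hy)
  | mul x y _ _ hx hy =>
    rw [map_mul]
    exact mul_le_one' hx hy

/-- ... and on the integral closure of `A[s]`. -/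
theorem valuation_le_one_of_isIntegral (v : Valuation F Γ₀)
    (hA : ∀ x : A, v (algebraMap A F x) ≤ 1) (s : Set F) (hs : ∀ x ∈ s, v x ≤ 1)
    {y : F} (hy : IsIntegral (Algebra.adjoin A s) y) : v y ≤ 1 := by
  obtain ⟨p, hp, hpy⟩ := hy
  let φ : Algebra.adjoin A s →+* v.integer :=
    { toFun := fun x => ⟨x.1, valuation_le_one_of_mem_adjoin v hA s hs x.2⟩
      map_one' := rfl
      map_mul' := fun _ _ => rfl
      map_zero' := rfl
      map_add' := fun _ _ => rfl }
  have h1 : IsIntegral v.integer y := by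
    refine ⟨p.map φ, hp.map φ, ?_⟩
    rw [Polynomial.eval₂_map]
    exact hpy
  exact Valuation.Integers.mem_of_integral (Valuation.integer.integers v) h1

end HZ

section HZ2

variable {A K F : Type*} [CommRing A] [Field K] [CharZero K] [Algebra A K] [Field F] [Algebra K F]
  [Algebra A F] [IsScalarTower A K F]
  {Γ₀ : Type*} [LinearOrderedCommGroupWithZero Γ₀]

open Fermat.Agent.S18 in
/-- **`H⁰` of the two-component special fibre is the residue field** (the hypothesis `hZ` of the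
two-chart Kummer cores, for two valuations).

Setting of `two_chart_idempotent_val`; `v₁`, `v₂` are valuations of `F`, bounded by `1` on `A`,
`< 1` on the non-units of `A`, with `t` a unit for both.  Assume that an element of one of the
three charts (integral closures of `A[t]`, `A[t⁻¹]`, `A[t, t⁻¹]`) which is `< 1` for both
valuations is divisible in its chart by a non-unit of `A`, and that each component has only
constant global functions (`hc₁`, `hc₂`).  Then a pair `a`, `b` of chart functions which agree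
modulo both valuations is congruent to ONE constant `c ∈ A` modulo both valuations. -/
theorem exists_const_of_two_valuations
    (hinj : Function.Injective (algebraMap A K))
    (hval : ∀ x : K, x ∈ (algebraMap A K).range ∨ x⁻¹ ∈ (algebraMap A K).range)
    (halg : ∀ x : K, IsAlgebraic ℚ x)
    {ℓ : ℕ} (hℓ : ℓ.Prime) (hℓA : ¬ IsUnit ((ℓ : ℕ) : A))
    (t : F) (ht : Transcendental K t)
    (hK : ∀ z : F, IsAlgebraic K z → z ∈ (algebraMap K F).range)
    (v₁ v₂ : Valuation F Γ₀)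
    (hA₁ : ∀ x : A, v₁ (algebraMap A F x) ≤ 1) (hA₂ : ∀ x : A, v₂ (algebraMap A F x) ≤ 1)
    (hπ₁ : ∀ x : A, ¬ IsUnit x → v₁ (algebraMap A F x) < 1)
    (hπ₂ : ∀ x : A, ¬ IsUnit x → v₂ (algebraMap A F x) < 1)
    (ht₁ : v₁ t = 1) (ht₂ : v₂ t = 1)
    (hdiv : ∀ z, IsIntegral (Algebra.adjoin A ({t} : Set F)) z → v₁ z < 1 → v₂ z < 1 →
      ∃ π : A, ¬ IsUnit π ∧ ∃ y, IsIntegral (Algebra.adjoin A ({t} : Set F)) y ∧ z = π • y)
    (hdiv' : ∀ z, IsIntegral (Algebra.adjoin A ({t⁻¹} : Set F)) z → v₁ z < 1 → v₂ z < 1 →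
      ∃ π : A, ¬ IsUnit π ∧ ∃ y, IsIntegral (Algebra.adjoin A ({t⁻¹} : Set F)) y ∧ z = π • y)
    (hdiv'' : ∀ z, IsIntegral (Algebra.adjoin A ({t, t⁻¹} : Set F)) z → v₁ z < 1 → v₂ z < 1 →
      ∃ π : A, ¬ IsUnit π ∧ ∃ y, IsIntegral (Algebra.adjoin A ({t, t⁻¹} : Set F)) y ∧ z = π • y)
    (hc₁ : ∀ a b, IsIntegral (Algebra.adjoin A ({t} : Set F)) a →
      IsIntegral (Algebra.adjoin A ({t⁻¹} : Set F)) b → v₁ (a - b) < 1 →
      ∃ c : A, v₁ (a - algebraMap A F c) < 1)
    (hc₂ : ∀ a b, IsIntegral (Algebra.adjoin A ({t} : Set F)) a →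
      IsIntegral (Algebra.adjoin A ({t⁻¹} : Set F)) b → v₂ (a - b) < 1 →
      ∃ c : A, v₂ (a - algebraMap A F c) < 1)
    {a b : F} (ha : IsIntegral (Algebra.adjoin A ({t} : Set F)) a)
    (hb : IsIntegral (Algebra.adjoin A ({t⁻¹} : Set F)) b)
    (hab₁ : v₁ (a - b) < 1) (hab₂ : v₂ (a - b) < 1) :
    ∃ c : A, v₁ (a - algebraMap A F c) < 1 ∧ v₂ (a - algebraMap A F c) < 1 := by
  obtain ⟨c₁, h1⟩ := hc₁ a b ha hb hab₁
  obtain ⟨c₂, h2⟩ := hc₂ a b ha hb hab₂
  -- ultrametric helpers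
  have hadd : ∀ (v : Valuation F Γ₀) (x y : F), v x < 1 → v y < 1 → v (x + y) < 1 :=
    fun v x y hx hy => lt_of_le_of_lt (v.map_add x y) (max_lt hx hy)
  have hmul : ∀ (v : Valuation F Γ₀) (x y : F), v x ≤ 1 → v y < 1 → v (x * y) < 1 := by
    intro v x y hx hy
    rw [map_mul, mul_comm]
    exact mul_lt_one_of_nonneg_of_lt_one_left zero_le hy hx
  by_cases hu : IsUnit (c₁ - c₂)
  · exfalso
    obtain ⟨w, hw⟩ := hu.exists_left_inv
    set κ : A →+* F := algebraMap A F with hκ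
    have hw' : κ w * (κ c₁ - κ c₂) = 1 := by
      rw [← map_sub, ← map_mul, hw, map_one]
    set e₁ : F := κ w * (a - κ c₂) with he₁
    set e₂ : F := κ w * (b - κ c₂) with he₂
    have hmemA : ∀ (s : Set F) (x : A), IsIntegral (Algebra.adjoin A s) (κ x) := fun s x =>
      isIntegral_algebraMap (x := (⟨κ x, Subalgebra.algebraMap_mem _ x⟩ : Algebra.adjoin A s))
    have hint₁ : IsIntegral (Algebra.adjoin A ({t} : Set F)) e₁ :=
      (hmemA _ w).mul (ha.sub (hmemA _ c₂))
    have hint₂ : IsIntegral (Algebra.adjoin A ({t⁻¹} : Set F)) e₂ :=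
      (hmemA _ w).mul (hb.sub (hmemA _ c₂))
    have hid₁ : e₁ - 1 = κ w * (a - κ c₁) := by
      rw [he₁, ← hw']
      ring
    have hdiff : e₁ - e₂ = κ w * (a - b) := by
      rw [he₁, he₂]
      ring
    -- sizes
    have s1 : v₁ (e₁ - 1) < 1 := by
      rw [hid₁]
      exact hmul v₁ _ _ (hA₁ w) h1
    have s2 : v₂ e₁ < 1 := hmul v₂ _ _ (hA₂ w) h2
    have d1 : v₁ (e₁ - e₂) < 1 := by
      rw [hdiff]
      exact hmul v₁ _ _ (hA₁ w) hab₁
    have d2 : v₂ (e₁ - e₂) < 1 := by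
      rw [hdiff]
      exact hmul v₂ _ _ (hA₂ w) hab₂
    have d1' : v₁ (e₂ - e₁) < 1 := by rwa [← neg_sub, Valuation.map_neg]
    have d2' : v₂ (e₂ - e₁) < 1 := by rwa [← neg_sub, Valuation.map_neg]
    have s1' : v₁ (e₂ - 1) < 1 := by
      have := hadd v₁ _ _ d1' s1
      rwa [sub_add_sub_cancel] at this
    have s2' : v₂ e₂ < 1 := by
      have := hadd v₂ _ _ d2' s2
      rwa [sub_add_cancel] at this
    have b1 : v₁ e₁ ≤ 1 := by
      have := (v₁.map_add (e₁ - 1) 1).trans (max_le s1.le (le_of_eq v₁.map_one))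
      rwa [sub_add_cancel] at this
    have b2 : v₂ (e₁ - 1) ≤ 1 := (v₂.map_sub e₁ 1).trans (max_le s2.le (le_of_eq v₂.map_one))
    have b1' : v₁ e₂ ≤ 1 := by
      have := (v₁.map_add (e₂ - 1) 1).trans (max_le s1'.le (le_of_eq v₁.map_one))
      rwa [sub_add_cancel] at this
    have b2' : v₂ (e₂ - 1) ≤ 1 := (v₂.map_sub e₂ 1).trans (max_le s2'.le (le_of_eq v₂.map_one))
    have q1 : e₁ * e₁ - e₁ = e₁ * (e₁ - 1) := by ring
    have q2 : e₂ * e₂ - e₂ = e₂ * (e₂ - 1) := by ring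
    have ha2 := hdiv (e₁ * e₁ - e₁) ((hint₁.mul hint₁).sub hint₁)
      (by rw [q1]; exact hmul v₁ _ _ b1 s1)
      (by rw [q1, mul_comm]; exact hmul v₂ _ _ b2 s2)
    have hb2 := hdiv' (e₂ * e₂ - e₂) ((hint₂.mul hint₂).sub hint₂)
      (by rw [q2]; exact hmul v₁ _ _ b1' s1')
      (by rw [q2, mul_comm]; exact hmul v₂ _ _ b2' s2')
    have hint₁' : IsIntegral (Algebra.adjoin A ({t, t⁻¹} : Set F)) e₁ :=
      helper5377.isIntegral_adjoin_mono (fun x hx => Or.inl hx) hint₁
    have hint₂' : IsIntegral (Algebra.adjoin A ({t, t⁻¹} : Set F)) e₂ :=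
      helper5377.isIntegral_adjoin_mono (fun x hx => Or.inr hx) hint₂
    have hab := hdiv'' (e₁ - e₂) (hint₁'.sub hint₂') d1 d2
    obtain ⟨π, hπ, hcases⟩ := two_chart_idempotent_val hinj hval halg hℓ hℓA t ht hK
      hint₁ hint₂ ha2 hb2 hab
    have hone₁ : ¬ (v₁ (1 : F) < 1) := by rw [v₁.map_one]; exact lt_irrefl _
    have hone₂ : ¬ (v₂ (1 : F) < 1) := by rw [v₂.map_one]; exact lt_irrefl _
    rcases hcases with ⟨⟨y, hy, e⟩, -⟩ | ⟨⟨y, hy, e⟩, -⟩
    · have hy1 : v₁ y ≤ 1 := valuation_le_one_of_isIntegral v₁ hA₁ _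
        (fun x hx => by rw [Set.mem_singleton_iff.mp hx, ht₁]) hy
      have h3 : v₁ e₁ < 1 := by
        rw [e, Algebra.smul_def, mul_comm]
        exact hmul v₁ _ _ hy1 (hπ₁ π hπ)
      apply hone₁
      have h4 : v₁ (e₁ - (e₁ - 1)) < 1 :=
        lt_of_le_of_lt (v₁.map_sub _ _) (max_lt h3 s1)
      rwa [sub_sub_cancel] at h4
    · have hy2 : v₂ y ≤ 1 := valuation_le_one_of_isIntegral v₂ hA₂ _
        (fun x hx => by rw [Set.mem_singleton_iff.mp hx, ht₂]) hy
      have h3 : v₂ (e₁ - 1) < 1 := by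
        rw [e, Algebra.smul_def, mul_comm]
        exact hmul v₂ _ _ hy2 (hπ₂ π hπ)
      apply hone₂
      have h4 : v₂ (e₁ - (e₁ - 1)) < 1 :=
        lt_of_le_of_lt (v₂.map_sub _ _) (max_lt s2 h3)
      rwa [sub_sub_cancel] at h4
  · refine ⟨c₁, h1, ?_⟩
    have h3 : v₂ (algebraMap A F (c₁ - c₂)) < 1 := hπ₂ _ hu
    have h4 : a - algebraMap A F c₁ = (a - algebraMap A F c₂) - algebraMap A F (c₁ - c₂) := by
      rw [map_sub]
      ring
    rw [h4]
    exact lt_of_le_of_lt (v₂.map_sub _ _) (max_lt h2 h3)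

end HZ2

/-! ## Part 7: `ValuationSubring` forms -/

section VS

variable {K F : Type*} [Field K] [Field F] [Algebra K F]

/-- Over an algebraically closed field every algebraic element of an extension is a constant. -/
theorem mem_range_of_isAlgebraic_of_isAlgClosed [IsAlgClosed K] (z : F) (hz : IsAlgebraic K z) :
    z ∈ (algebraMap K F).range := by
  have h1 : (minpoly K z).degree = 1 :=
    IsAlgClosed.degree_eq_one_of_irreducible K (minpoly.irreducible hz.isIntegral)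
  exact minpoly.mem_range_of_degree_eq_one K z h1

theorem not_isUnit_natCast_of_mem_nonunits (A : ValuationSubring K) {ℓ : ℕ}
    (hℓA : (ℓ : K) ∈ A.nonunits) : ¬ IsUnit ((ℓ : ℕ) : A) := by
  have h1 : (((ℓ : ℕ) : A) : K) ∈ A.nonunits := by
    have : (((ℓ : ℕ) : A) : K) = (ℓ : K) := by push_cast; rfl
    rw [this]
    exact hℓA
  rw [ValuationSubring.coe_mem_nonunits_iff] at h1
  exact (IsLocalRing.mem_maximalIdeal _).mp h1

variable [CharZero K]

/-- `two_chart_idempotent_val` for a valuation subring `A` of `K` (for instance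
`K = AlgebraicClosure ℚ` and `hℓA : A.LiesOverPrime ℓ`). -/
theorem two_chart_idempotent_valuationSubring (A : ValuationSubring K)
    (halg : ∀ x : K, IsAlgebraic ℚ x)
    {ℓ : ℕ} (hℓ : ℓ.Prime) (hℓA : (ℓ : K) ∈ A.nonunits)
    (t : F) (ht : Transcendental K t)
    (hK : ∀ z : F, IsAlgebraic K z → z ∈ (algebraMap K F).range)
    {a b : F} (ha : IsIntegral (Algebra.adjoin A ({t} : Set F)) a)
    (hb : IsIntegral (Algebra.adjoin A ({t⁻¹} : Set F)) b)
    (ha2 : ∃ π : A, ¬ IsUnit π ∧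
      ∃ y, IsIntegral (Algebra.adjoin A ({t} : Set F)) y ∧ a * a - a = π • y)
    (hb2 : ∃ π : A, ¬ IsUnit π ∧
      ∃ y, IsIntegral (Algebra.adjoin A ({t⁻¹} : Set F)) y ∧ b * b - b = π • y)
    (hab : ∃ π : A, ¬ IsUnit π ∧
      ∃ y, IsIntegral (Algebra.adjoin A ({t, t⁻¹} : Set F)) y ∧ a - b = π • y) :
    ∃ π : A, ¬ IsUnit π ∧
      (((∃ y, IsIntegral (Algebra.adjoin A ({t} : Set F)) y ∧ a = π • y) ∧
          ∃ y, IsIntegral (Algebra.adjoin A ({t⁻¹} : Set F)) y ∧ b = π • y) ∨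
        ((∃ y, IsIntegral (Algebra.adjoin A ({t} : Set F)) y ∧ a - 1 = π • y) ∧
          ∃ y, IsIntegral (Algebra.adjoin A ({t⁻¹} : Set F)) y ∧ b - 1 = π • y)) :=
  two_chart_idempotent_val (A := A) (K := K) (F := F) Subtype.val_injective
    (fun x => (A.mem_or_inv_mem x).imp (fun h => ⟨⟨x, h⟩, rfl⟩) (fun h => ⟨⟨x⁻¹, h⟩, rfl⟩))
    halg hℓ (not_isUnit_natCast_of_mem_nonunits A hℓA) t ht hK ha hb ha2 hb2 hab

/-- The same over an algebraically closed `K` algebraic over `ℚ`: no hypothesis on the field `F`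
besides `t` being transcendental. -/
theorem two_chart_idempotent_valuationSubring_of_isAlgClosed [IsAlgClosed K]
    (A : ValuationSubring K) (halg : ∀ x : K, IsAlgebraic ℚ x)
    {ℓ : ℕ} (hℓ : ℓ.Prime) (hℓA : (ℓ : K) ∈ A.nonunits)
    (t : F) (ht : Transcendental K t)
    {a b : F} (ha : IsIntegral (Algebra.adjoin A ({t} : Set F)) a)
    (hb : IsIntegral (Algebra.adjoin A ({t⁻¹} : Set F)) b)
    (ha2 : ∃ π : A, ¬ IsUnit π ∧
      ∃ y, IsIntegral (Algebra.adjoin A ({t} : Set F)) y ∧ a * a - a = π • y)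
    (hb2 : ∃ π : A, ¬ IsUnit π ∧
      ∃ y, IsIntegral (Algebra.adjoin A ({t⁻¹} : Set F)) y ∧ b * b - b = π • y)
    (hab : ∃ π : A, ¬ IsUnit π ∧
      ∃ y, IsIntegral (Algebra.adjoin A ({t, t⁻¹} : Set F)) y ∧ a - b = π • y) :
    ∃ π : A, ¬ IsUnit π ∧
      (((∃ y, IsIntegral (Algebra.adjoin A ({t} : Set F)) y ∧ a = π • y) ∧
          ∃ y, IsIntegral (Algebra.adjoin A ({t⁻¹} : Set F)) y ∧ b = π • y) ∨
        ((∃ y, IsIntegral (Algebra.adjoin A ({t} : Set F)) y ∧ a - 1 = π • y) ∧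
          ∃ y, IsIntegral (Algebra.adjoin A ({t⁻¹} : Set F)) y ∧ b - 1 = π • y)) :=
  two_chart_idempotent_valuationSubring A halg hℓ hℓA t ht
    mem_range_of_isAlgebraic_of_isAlgClosed ha hb ha2 hb2 hab

end VS

section RatBar

/-- Every element of `AlgebraicClosure ℚ` is algebraic over `ℚ` (for the `ℚ`-algebra structure of a
characteristic zero field). -/
theorem isAlgebraic_rat_algebraicClosure (x : AlgebraicClosure ℚ) : IsAlgebraic ℚ x := by
  obtain ⟨p, hp0, hp⟩ := (AlgebraicClosure.isAlgebraic ℚ).isAlgebraic x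
  refine ⟨p, hp0, ?_⟩
  rw [Polynomial.aeval_def] at hp ⊢
  rw [Subsingleton.elim (algebraMap ℚ (AlgebraicClosure ℚ)) _]
  exact hp

/-- **CONNVAL at `ℚ̄`**: `A` a valuation subring of `AlgebraicClosure ℚ` over a prime `ℓ`, `F` ANY
field over `AlgebraicClosure ℚ`, `t ∈ F` transcendental.  Idempotents modulo non-units of `A` of the
two charts `icl A[t]`, `icl A[t⁻¹]` which agree modulo a non-unit on the overlap chart
`icl A[t, t⁻¹]` are both `≡ 0` or both `≡ 1` modulo a non-unit of `A`. -/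
theorem two_chart_idempotent_ratBar {F : Type*} [Field F] [Algebra (AlgebraicClosure ℚ) F]
    (A : ValuationSubring (AlgebraicClosure ℚ)) {ℓ : ℕ} (hℓ : ℓ.Prime) (hℓA : A.LiesOverPrime ℓ)
    (t : F) (ht : Transcendental (AlgebraicClosure ℚ) t)
    {a b : F} (ha : IsIntegral (Algebra.adjoin A ({t} : Set F)) a)
    (hb : IsIntegral (Algebra.adjoin A ({t⁻¹} : Set F)) b)
    (ha2 : ∃ π : A, ¬ IsUnit π ∧
      ∃ y, IsIntegral (Algebra.adjoin A ({t} : Set F)) y ∧ a * a - a = π • y)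
    (hb2 : ∃ π : A, ¬ IsUnit π ∧
      ∃ y, IsIntegral (Algebra.adjoin A ({t⁻¹} : Set F)) y ∧ b * b - b = π • y)
    (hab : ∃ π : A, ¬ IsUnit π ∧
      ∃ y, IsIntegral (Algebra.adjoin A ({t, t⁻¹} : Set F)) y ∧ a - b = π • y) :
    ∃ π : A, ¬ IsUnit π ∧
      (((∃ y, IsIntegral (Algebra.adjoin A ({t} : Set F)) y ∧ a = π • y) ∧
          ∃ y, IsIntegral (Algebra.adjoin A ({t⁻¹} : Set F)) y ∧ b = π • y) ∨
        ((∃ y, IsIntegral (Algebra.adjoin A ({t} : Set F)) y ∧ a - 1 = π • y) ∧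
          ∃ y, IsIntegral (Algebra.adjoin A ({t⁻¹} : Set F)) y ∧ b - 1 = π • y)) :=
  two_chart_idempotent_valuationSubring A isAlgebraic_rat_algebraicClosure hℓ hℓA t ht
    mem_range_of_isAlgebraic_of_isAlgClosed ha hb ha2 hb2 hab

end RatBar

end Fermat.Agent.S35.helper1251
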