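import Mathlib
import Fermat.Agent.S18.helper5377_CechIdempotent

/-!
# The two-chart Kummer core from seeds, by the Čech idempotent lemma (S35/S34-KC-IDEM)

Design (bulletin #13.1, board #1971): the Kummer core "seeds in both charts ⟹ the Kummer element
is an `n`-th power" is obtained by applying the two-chart connectedness lemma
(`Fermat.Agent.S18.helper5377.chart_idempotent_dvr`, resp. its valuation-ring form) to the
*Kummer extension* `L = F(Y)`, `Y ^ n = g`, instead of to `F`.  No information on the special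
fibre (reduction maps, cartesian bases, Riemann counts, node counts) is needed.

Vocabulary (that of `helper5377`): the chart attached to a set `s` of coordinates is the integral
closure of `A[s]`; `IsIntegral (Algebra.adjoin A s) w` says that `w` lies in it.

* `SmallIn A s w` : `w = c • y` with `c` a non-unit of `A` and `y` in the chart of `s`.
* `CechConn A t` : the conclusion of the two-chart Čech idempotent lemma for the charts
  `{t}`, `{t⁻¹}`, `{t, t⁻¹}` of a field `L`.
* `exists_root_of_prod_small` : Lagrange induction. If `∏_{ζ ∈ S} (z - ζ)` is small in both charts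
  (`z = z₁` on the first chart, `z = z₂` on the second, `z₁ - z₂` small on the overlap) and the
  differences of the `ζ ∈ S` are units of `A`, then `z₁ - ζ` and `z₂ - ζ` are small for one `ζ`.
* `kummer_of_seeds` : the Kummer core.
-/

set_option autoImplicit false

namespace Fermat.Agent.S35.helper4121

open Polynomial

universe u

section Defs

variable (A : Type*) [CommRing A] {L : Type*} [Field L] [Algebra A L]

/-- `w` is divisible, inside the chart ring `icl A[s]`, by a non-unit of `A`. -/
def SmallIn (s : Set L) (w : L) : Prop :=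
  ∃ (c : A) (y : L), ¬ IsUnit c ∧ IsIntegral (Algebra.adjoin A s) y ∧ w = c • y

/-- The conclusion of the two-chart Čech idempotent lemma for the field `L` with coordinate `t`:
a pair of chart elements which are idempotent modulo non-units of `A` and agree modulo a non-unit
on the overlap is `(0, 0)` or `(1, 1)` modulo a non-unit. -/
def CechConn (t : L) : Prop :=
  ∀ a b : L, IsIntegral (Algebra.adjoin A ({t} : Set L)) a →
    IsIntegral (Algebra.adjoin A ({t⁻¹} : Set L)) b →
    SmallIn A {t} (a * a - a) → SmallIn A {t⁻¹} (b * b - b) → SmallIn A {t, t⁻¹} (a - b) →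
    (SmallIn A {t} a ∧ SmallIn A {t⁻¹} b) ∨ (SmallIn A {t} (a - 1) ∧ SmallIn A {t⁻¹} (b - 1))

end Defs

section Small

variable {A : Type*} [CommRing A] {L : Type*} [Field L] [Algebra A L]

theorem isIntegral_algebraMap_chart (s : Set L) (c : A) :
    IsIntegral (Algebra.adjoin A s) (algebraMap A L c) := by
  have h : algebraMap A L c ∈ Algebra.adjoin A s := Subalgebra.algebraMap_mem _ c
  exact Fermat.Agent.S18.helper5377.isIntegral_adjoin_of_mem h

theorem isIntegral_smul_chart {s : Set L} (c : A) {y : L}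
    (hy : IsIntegral (Algebra.adjoin A s) y) : IsIntegral (Algebra.adjoin A s) (c • y) := by
  rw [Algebra.smul_def]
  exact (isIntegral_algebraMap_chart s c).mul hy

theorem SmallIn.mono {s s' : Set L} (h : s ⊆ s') {w : L} (hw : SmallIn A s w) :
    SmallIn A s' w := by
  obtain ⟨c, y, hc, hy, rfl⟩ := hw
  exact ⟨c, y, hc, Fermat.Agent.S18.helper5377.isIntegral_adjoin_mono h hy, rfl⟩

theorem SmallIn.mul_right {s : Set L} {w v : L} (hw : SmallIn A s w)
    (hv : IsIntegral (Algebra.adjoin A s) v) : SmallIn A s (w * v) := by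
  obtain ⟨c, y, hc, hy, rfl⟩ := hw
  exact ⟨c, y * v, hc, hy.mul hv, by rw [smul_mul_assoc]⟩

theorem SmallIn.mul_left {s : Set L} {w v : L} (hw : SmallIn A s w)
    (hv : IsIntegral (Algebra.adjoin A s) v) : SmallIn A s (v * w) := by
  rw [mul_comm]
  exact hw.mul_right hv

theorem SmallIn.smul {s : Set L} {w : L} (hw : SmallIn A s w) (d : A) :
    SmallIn A s (d • w) := by
  obtain ⟨c, y, hc, hy, rfl⟩ := hw
  exact ⟨c, d • y, hc, isIntegral_smul_chart d hy, by rw [smul_comm]⟩

theorem SmallIn.neg {s : Set L} {w : L} (hw : SmallIn A s w) : SmallIn A s (-w) := by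
  obtain ⟨c, y, hc, hy, rfl⟩ := hw
  exact ⟨c, -y, hc, hy.neg, by rw [smul_neg]⟩

theorem SmallIn.add [IsDomain A] [ValuationRing A] {s : Set L} {w w' : L}
    (hw : SmallIn A s w) (hw' : SmallIn A s w') : SmallIn A s (w + w') := by
  obtain ⟨c, y, hc, hy, rfl⟩ := hw
  obtain ⟨c', y', hc', hy', rfl⟩ := hw'
  obtain ⟨d, hd | hd⟩ := ValuationRing.cond c c'
  · -- c * d = c'
    refine ⟨c, y + d • y', hc, hy.add (isIntegral_smul_chart d hy'), ?_⟩
    rw [smul_add, smul_smul, hd]
  · -- c' * d = c
    refine ⟨c', d • y + y', hc', (isIntegral_smul_chart d hy).add hy', ?_⟩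
    rw [smul_add, smul_smul, hd]

theorem SmallIn.sub [IsDomain A] [ValuationRing A] {s : Set L} {w w' : L}
    (hw : SmallIn A s w) (hw' : SmallIn A s w') : SmallIn A s (w - w') := by
  rw [sub_eq_add_neg]
  exact hw.add hw'.neg

/-- A unit of `A` is not small in the overlap chart (`t` transcendental over `A`). -/
theorem not_smallIn_algebraMap_of_isUnit (t : L) (ht : Transcendental A t) {u : A}
    (hu : IsUnit u) : ¬ SmallIn A ({t, t⁻¹} : Set L) (algebraMap A L u) := by
  rintro ⟨c, y, hc, hy, e⟩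
  obtain ⟨v, hv⟩ := hu.exists_left_inv
  refine Fermat.Agent.S18.helper5377.smul_ne_one_of_transcendental t ht c hc (v • y)
    (isIntegral_smul_chart v hy) ?_
  rw [smul_comm, ← e, Algebra.smul_def, ← map_mul, hv, map_one]

end Small

section Lagrange

variable {A : Type*} [CommRing A] {L : Type*} [Field L] [Algebra A L]

theorem isIntegral_aeval_chart {s : Set L} {z : L} (hz : IsIntegral (Algebra.adjoin A s) z)
    (p : A[X]) : IsIntegral (Algebra.adjoin A s) (aeval z p) := by
  induction p using Polynomial.induction_on' with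
  | add p q hp hq =>
    rw [map_add]
    exact hp.add hq
  | monomial n a =>
    rw [aeval_monomial]
    exact (isIntegral_algebraMap_chart s a).mul (hz.pow n)

theorem aeval_prod_X_sub_C (S : Finset A) (z : L) :
    aeval z (∏ ζ ∈ S, (X - C ζ)) = ∏ ζ ∈ S, (z - algebraMap A L ζ) := by
  rw [map_prod]
  refine Finset.prod_congr rfl fun ζ _ => ?_
  rw [map_sub, aeval_X, aeval_C]

/-- Difference quotient on a chart: `p(z₁) - p(z₂) = (z₁ - z₂) * r` with `r` in the chart. -/
theorem exists_aeval_sub_eq {s : Set L} {z₁ z₂ : L}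
    (hz₁ : IsIntegral (Algebra.adjoin A s) z₁) (hz₂ : IsIntegral (Algebra.adjoin A s) z₂)
    (p : A[X]) :
    ∃ r : L, IsIntegral (Algebra.adjoin A s) r ∧ aeval z₁ p - aeval z₂ p = (z₁ - z₂) * r := by
  induction p using Polynomial.induction_on' with
  | add p q hp hq =>
    obtain ⟨r, hr, e⟩ := hp
    obtain ⟨r', hr', e'⟩ := hq
    refine ⟨r + r', hr.add hr', ?_⟩
    rw [map_add, map_add, mul_add, ← e, ← e']
    ring
  | monomial n a =>
    obtain ⟨d, hd⟩ := sub_dvd_pow_sub_pow
      (⟨z₁, hz₁⟩ : integralClosure (Algebra.adjoin A s) L)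
      (⟨z₂, hz₂⟩ : integralClosure (Algebra.adjoin A s) L) n
    have hd' : z₁ ^ n - z₂ ^ n = (z₁ - z₂) * (d : L) := by
      have := congrArg (fun w : integralClosure (Algebra.adjoin A s) L => (w : L)) hd
      simpa using this
    refine ⟨algebraMap A L a * (d : L), (isIntegral_algebraMap_chart s a).mul d.2, ?_⟩
    rw [aeval_monomial, aeval_monomial, ← mul_sub, hd']
    ring

variable [IsDomain A] [ValuationRing A]

/-- **Lagrange induction.** `z₁` in the first chart, `z₂` in the second, congruent on the overlap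
modulo a non-unit of `A`; `S` a finite set of constants whose pairwise differences are units.
If `∏_{ζ ∈ S} (z - ζ)` is small on both charts, then `z - ζ` is small on both charts for one
`ζ ∈ S`. -/
theorem exists_root_of_prod_small (t : L) (ht : Transcendental A t) (hconn : CechConn A t)
    {z₁ z₂ : L} (hz₁ : IsIntegral (Algebra.adjoin A ({t} : Set L)) z₁)
    (hz₂ : IsIntegral (Algebra.adjoin A ({t⁻¹} : Set L)) z₂)
    (h12 : SmallIn A ({t, t⁻¹} : Set L) (z₁ - z₂))
    (S : Finset A) (hS : ∀ ζ ∈ S, ∀ ζ' ∈ S, ζ ≠ ζ' → IsUnit (ζ - ζ'))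
    (h1 : SmallIn A ({t} : Set L) (∏ ζ ∈ S, (z₁ - algebraMap A L ζ)))
    (h2 : SmallIn A ({t⁻¹} : Set L) (∏ ζ ∈ S, (z₂ - algebraMap A L ζ))) :
    ∃ ζ ∈ S, SmallIn A ({t} : Set L) (z₁ - algebraMap A L ζ) ∧
      SmallIn A ({t⁻¹} : Set L) (z₂ - algebraMap A L ζ) := by
  classical
  induction S using Finset.induction_on with
  | empty =>
    exfalso
    rw [Finset.prod_empty] at h1
    have h1' : SmallIn A ({t, t⁻¹} : Set L) (algebraMap A L 1) := by
      rw [map_one]
      exact h1.mono (fun w hw => Or.inl hw)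
    exact not_smallIn_algebraMap_of_isUnit t ht isUnit_one h1'
  | insert ζ₁ S' hζ₁ ih =>
    rw [Finset.prod_insert hζ₁] at h1 h2
    -- the polynomial of the remaining roots
    set p : A[X] := ∏ ζ ∈ S', (X - C ζ) with hp
    set u : A := p.eval ζ₁ with hu
    have hu_unit : IsUnit u := by
      rw [hu, hp, eval_prod]
      refine Finset.prod_induction _ IsUnit (fun a b ha hb => ha.mul hb) isUnit_one ?_
      intro ζ hζ
      rw [eval_sub, eval_X, eval_C]
      refine hS ζ₁ (Finset.mem_insert_self _ _) ζ (Finset.mem_insert_of_mem hζ) ?_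
      rintro rfl
      exact hζ₁ hζ
    obtain ⟨v, hv⟩ := hu_unit.exists_left_inv
    obtain ⟨q, hq⟩ : (X - C ζ₁) ∣ p - C u := X_sub_C_dvd_sub_C_eval
    have hP : ∀ z : L, aeval z p - algebraMap A L u =
        (z - algebraMap A L ζ₁) * aeval z q := by
      intro z
      have := congrArg (aeval z) hq
      simpa using this
    have hPprod : ∀ z : L, aeval z p = ∏ ζ ∈ S', (z - algebraMap A L ζ) := fun z =>
      aeval_prod_X_sub_C S' z
    rw [← hPprod z₁] at h1
    rw [← hPprod z₂] at h2
    have hvu : algebraMap A L v * algebraMap A L u = 1 := by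
      rw [← map_mul, hv, map_one]
    -- integrality
    have hP1 : IsIntegral (Algebra.adjoin A ({t} : Set L)) (aeval z₁ p) :=
      isIntegral_aeval_chart hz₁ p
    have hP2 : IsIntegral (Algebra.adjoin A ({t⁻¹} : Set L)) (aeval z₂ p) :=
      isIntegral_aeval_chart hz₂ p
    have hQ1 : IsIntegral (Algebra.adjoin A ({t} : Set L)) (aeval z₁ q) :=
      isIntegral_aeval_chart hz₁ q
    have hQ2 : IsIntegral (Algebra.adjoin A ({t⁻¹} : Set L)) (aeval z₂ q) :=
      isIntegral_aeval_chart hz₂ q
    -- the idempotents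
    have key : ∀ z : L, (v • aeval z p) * (v • aeval z p) - v • aeval z p =
        (v * v) • (((z - algebraMap A L ζ₁) * aeval z p) * aeval z q) := by
      intro z
      have h := hP z
      simp only [Algebra.smul_def, map_mul]
      have e : aeval z p = algebraMap A L u + (z - algebraMap A L ζ₁) * aeval z q := by
        rw [← h]; ring
      have e1 : algebraMap A L v * aeval z p * (algebraMap A L v * aeval z p) -
          algebraMap A L v * aeval z p =
          algebraMap A L v * algebraMap A L v * (aeval z p * (aeval z p - algebraMap A L u)) +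
            (algebraMap A L v * algebraMap A L u - 1) * (algebraMap A L v * aeval z p) := by
        ring
      rw [e1, hvu, sub_self, zero_mul, add_zero, h]
      ring
    have he1 : SmallIn A ({t} : Set L) ((v • aeval z₁ p) * (v • aeval z₁ p) - v • aeval z₁ p) := by
      rw [key z₁]
      exact (h1.mul_right hQ1).smul (v * v)
    have he2 : SmallIn A ({t⁻¹} : Set L)
        ((v • aeval z₂ p) * (v • aeval z₂ p) - v • aeval z₂ p) := by
      rw [key z₂]
      exact (h2.mul_right hQ2).smul (v * v)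
    have he12 : SmallIn A ({t, t⁻¹} : Set L) (v • aeval z₁ p - v • aeval z₂ p) := by
      obtain ⟨r, hr, e⟩ := exists_aeval_sub_eq
        (Fermat.Agent.S18.helper5377.isIntegral_adjoin_mono
          (show ({t} : Set L) ⊆ {t, t⁻¹} from fun w hw => Or.inl hw) hz₁)
        (Fermat.Agent.S18.helper5377.isIntegral_adjoin_mono
          (show ({t⁻¹} : Set L) ⊆ {t, t⁻¹} from fun w hw => Or.inr hw) hz₂) p
      rw [← smul_sub, e]
      exact (h12.mul_right hr).smul v
    have hzu : ∀ z : L, v • ((z - algebraMap A L ζ₁) * algebraMap A L u) =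
        z - algebraMap A L ζ₁ := by
      intro z
      rw [Algebra.smul_def]
      calc algebraMap A L v * ((z - algebraMap A L ζ₁) * algebraMap A L u)
          = (algebraMap A L v * algebraMap A L u) * (z - algebraMap A L ζ₁) := by ring
        _ = z - algebraMap A L ζ₁ := by rw [hvu, one_mul]
    rcases hconn _ _ (isIntegral_smul_chart v hP1) (isIntegral_smul_chart v hP2) he1 he2 he12 with
      ⟨hs1, hs2⟩ | ⟨hs1, hs2⟩
    · -- both idempotents vanish: descend to `S'`
      have hback : ∀ z : L, u • (v • aeval z p) = aeval z p := by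
        intro z
        rw [smul_smul, mul_comm, hv, one_smul]
      have h1' : SmallIn A ({t} : Set L) (∏ ζ ∈ S', (z₁ - algebraMap A L ζ)) := by
        rw [← hPprod z₁, ← hback z₁]
        exact hs1.smul u
      have h2' : SmallIn A ({t⁻¹} : Set L) (∏ ζ ∈ S', (z₂ - algebraMap A L ζ)) := by
        rw [← hPprod z₂, ← hback z₂]
        exact hs2.smul u
      obtain ⟨ζ, hζ, hζ1, hζ2⟩ := ih
        (fun ζ hζ ζ' hζ' hne =>
          hS ζ (Finset.mem_insert_of_mem hζ) ζ' (Finset.mem_insert_of_mem hζ') hne) h1' h2'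
      exact ⟨ζ, Finset.mem_insert_of_mem hζ, hζ1, hζ2⟩
    · -- both idempotents are `1`: `ζ₁` is the root
      have hback : ∀ z : L, u • (v • aeval z p - 1) = aeval z p - algebraMap A L u := by
        intro z
        rw [smul_sub, smul_smul, mul_comm, hv, one_smul, Algebra.smul_def, mul_one]
      refine ⟨ζ₁, Finset.mem_insert_self _ _, ?_, ?_⟩
      · have hsm : SmallIn A ({t} : Set L) (aeval z₁ p - algebraMap A L u) := by
          rw [← hback z₁]
          exact hs1.smul u
        have hsm2 : SmallIn A ({t} : Set L) ((z₁ - algebraMap A L ζ₁) * algebraMap A L u) := by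
          have e : (z₁ - algebraMap A L ζ₁) * algebraMap A L u =
              (z₁ - algebraMap A L ζ₁) * aeval z₁ p -
                (z₁ - algebraMap A L ζ₁) * (aeval z₁ p - algebraMap A L u) := by ring
          rw [e]
          exact h1.sub (hsm.mul_left (hz₁.sub (isIntegral_algebraMap_chart _ ζ₁)))
        rw [← hzu z₁]
        exact hsm2.smul v
      · have hsm : SmallIn A ({t⁻¹} : Set L) (aeval z₂ p - algebraMap A L u) := by
          rw [← hback z₂]
          exact hs2.smul u
        have hsm2 : SmallIn A ({t⁻¹} : Set L) ((z₂ - algebraMap A L ζ₁) * algebraMap A L u) := by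
          have e : (z₂ - algebraMap A L ζ₁) * algebraMap A L u =
              (z₂ - algebraMap A L ζ₁) * aeval z₂ p -
                (z₂ - algebraMap A L ζ₁) * (aeval z₂ p - algebraMap A L u) := by ring
          rw [e]
          exact h2.sub (hsm.mul_left (hz₂.sub (isIntegral_algebraMap_chart _ ζ₁)))
        rw [← hzu z₂]
        exact hsm2.smul v

end Lagrange

section Transfer

variable {A : Type*} [CommRing A] {F L : Type*} [Field F] [Field L] [Algebra A F] [Algebra A L]

/-- Chart membership is transported by `A`-algebra homomorphisms. -/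
theorem isIntegral_map_chart (f : F →ₐ[A] L) (s : Set F) {w : F}
    (hw : IsIntegral (Algebra.adjoin A s) w) : IsIntegral (Algebra.adjoin A (f '' s)) (f w) := by
  have hmem : ∀ r : Algebra.adjoin A s, f (r : F) ∈ Algebra.adjoin A (f '' s) := by
    intro r
    rw [← AlgHom.map_adjoin]
    exact ⟨r, r.2, rfl⟩
  let φ : Algebra.adjoin A s →ₐ[A] Algebra.adjoin A (f '' s) :=
    (f.comp (Algebra.adjoin A s).val).codRestrict (Algebra.adjoin A (f '' s)) hmem
  exact IsIntegral.map_of_comp_eq (φ : Algebra.adjoin A s →+* Algebra.adjoin A (f '' s))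
    (f : F →+* L) (by ext r; rfl) hw

/-- Variant of `isIntegral_map_chart` with the image set given up to equality. -/
theorem isIntegral_map_chart' (f : F →ₐ[A] L) (s : Set F) (s' : Set L) (h : f '' s = s') {w : F}
    (hw : IsIntegral (Algebra.adjoin A s) w) : IsIntegral (Algebra.adjoin A s') (f w) := by
  subst h
  exact isIntegral_map_chart f s hw

theorem SmallIn.map (f : F →ₐ[A] L) {s : Set F} {w : F} (hw : SmallIn A s w) :
    SmallIn A (f '' s) (f w) := by
  obtain ⟨c, y, hc, hy, rfl⟩ := hw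
  exact ⟨c, f y, hc, isIntegral_map_chart f s hy, map_smul f c y⟩

end Transfer

section RootsOfUnity

variable {A : Type*} [CommRing A] [IsDomain A]

/-- Distinct `n`-th roots of unity differ by a unit when `n` is a unit. -/
theorem isUnit_sub_of_pow_eq_one {n : ℕ} (hn : IsUnit (n : A)) {ζ ζ' : A} (hζ : ζ ^ n = 1)
    (hζ' : ζ' ^ n = 1) (hne : ζ ≠ ζ') : IsUnit (ζ - ζ') := by
  have hn0 : n ≠ 0 := by
    rintro rfl
    rw [Nat.cast_zero] at hn
    exact not_isUnit_zero hn
  obtain ⟨k, rfl⟩ : ∃ k, n = k + 1 := Nat.exists_eq_succ_of_ne_zero hn0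
  -- `η = ζ' / ζ`
  have hζu : ζ * ζ ^ k = 1 := by rw [← pow_succ']; exact hζ
  set η : A := ζ' * ζ ^ k with hη
  have hηn : η ^ (k + 1) = 1 := by
    rw [hη, mul_pow, hζ', one_mul, ← pow_mul, mul_comm, pow_mul, hζ, one_pow]
  have hη1 : η ≠ 1 := by
    intro h
    apply hne
    have : ζ * η = ζ' := by rw [hη, mul_comm ζ' _, ← mul_assoc, hζu, one_mul]
    rw [← this, h, mul_one]
  have hdvd : η - 1 ∣ ((k + 1 : ℕ) : A) := sub_one_dvd_natCast_of_pow_eq_one hηn hη1
  have hu : IsUnit (η - 1) := isUnit_of_dvd_unit hdvd hn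
  have hζunit : IsUnit ζ := IsUnit.of_mul_eq_one _ hζu
  have e : ζ - ζ' = -(ζ * (η - 1)) := by
    have : ζ * η = ζ' := by rw [hη, mul_comm ζ' _, ← mul_assoc, hζu, one_mul]
    rw [mul_sub, this, mul_one]; ring
  rw [e]
  exact (hζunit.mul hu).neg

end RootsOfUnity

section Core

variable {A : Type*} [CommRing A] [IsDomain A] [ValuationRing A]
  {F : Type*} [Field F] [Algebra A F]
  {L : Type*} [Field L] [Algebra F L] [Algebra A L] [IsScalarTower A F L]

/-- **Core of the Kummer argument.**  `L ⊇ F` contains `Y` with `Y ^ n = g` and an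
`F`-automorphism-like map `γ` with `γ Y = ξ • Y`, `ξ ≠ 1` an `n`-th root of unity of `A`.
With the Čech connectedness of the two charts of `L` and seeds on the two charts of `F`,
this is contradictory. -/
theorem false_of_conj (x : F) (hx : Transcendental A x)
    (n : ℕ) (hn : IsUnit (n : A)) (ω : A) (hω : IsPrimitiveRoot ω n)
    (hconn : CechConn A (algebraMap F L x))
    (g a₀ b₀ : F)
    (hs1 : SmallIn A ({x} : Set F) (a₀ ^ n * g - 1))
    (hs2 : SmallIn A ({x⁻¹} : Set F) (b₀ ^ n * g - 1))
    (hs3 : ∃ (c : A) (s₀ : F), ¬ IsUnit c ∧ a₀ - b₀ = c • s₀ ∧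
      IsIntegral (Algebra.adjoin A ({x, x⁻¹} : Set F)) (s₀ ^ n * g))
    (Y : L) (hY : Y ^ n = algebraMap F L g)
    (ξ : A) (hξ1 : ξ ≠ 1) (hξn : ξ ^ n = 1)
    (γ : L →ₐ[F] L) (hγ : γ Y = ξ • Y) : False := by
  classical
  have hn0 : n ≠ 0 := by
    rintro rfl
    rw [Nat.cast_zero] at hn
    exact not_isUnit_zero hn
  have hnpos : 0 < n := Nat.pos_of_ne_zero hn0
  let f : F →ₐ[A] L := IsScalarTower.toAlgHom A F L
  have hf : ∀ w : F, f w = algebraMap F L w := fun w => rfl
  set t : L := algebraMap F L x with ht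
  have htr : Transcendental A t :=
    (transcendental_algebraMap_iff (algebraMap F L).injective).mpr hx
  have himg1 : f '' ({x} : Set F) = {t} := by rw [Set.image_singleton, hf]
  have himg2 : f '' ({x⁻¹} : Set F) = {t⁻¹} := by
    rw [Set.image_singleton, hf, map_inv₀]
  have himg3 : f '' ({x, x⁻¹} : Set F) = {t, t⁻¹} := by
    rw [Set.image_pair, hf, hf, map_inv₀]
  -- the two integral roots of unity modulo `m`
  set z₁ : L := f a₀ * Y with hz₁def
  set z₂ : L := f b₀ * Y with hz₂def
  have hpow : ∀ a : F, (f a * Y) ^ n = f (a ^ n * g) := by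
    intro a
    rw [mul_pow, hY, map_mul, map_pow, hf g]
  have hint_of_small : ∀ {s : Set F} {w : F}, SmallIn A s (w - 1) →
      IsIntegral (Algebra.adjoin A s) w := by
    intro s w hw
    obtain ⟨c, y, -, hy, e⟩ := hw
    have : w = c • y + 1 := by rw [← e]; ring
    rw [this]
    exact (isIntegral_smul_chart c hy).add isIntegral_one
  have hz₁ : IsIntegral (Algebra.adjoin A ({t} : Set L)) z₁ := by
    refine IsIntegral.of_pow hnpos ?_
    rw [hpow]
    exact isIntegral_map_chart' f _ _ himg1 (hint_of_small hs1)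
  have hz₂ : IsIntegral (Algebra.adjoin A ({t⁻¹} : Set L)) z₂ := by
    refine IsIntegral.of_pow hnpos ?_
    rw [hpow]
    exact isIntegral_map_chart' f _ _ himg2 (hint_of_small hs2)
  have hz₁n : SmallIn A ({t} : Set L) (z₁ ^ n - 1) := by
    have := hs1.map f
    rw [himg1, map_sub, map_one] at this
    rw [hpow]
    exact this
  have hz₂n : SmallIn A ({t⁻¹} : Set L) (z₂ ^ n - 1) := by
    have := hs2.map f
    rw [himg2, map_sub, map_one] at this
    rw [hpow]
    exact this
  have h12 : SmallIn A ({t, t⁻¹} : Set L) (z₁ - z₂) := by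
    obtain ⟨c, s₀, hc, e, hs₀⟩ := hs3
    refine ⟨c, f s₀ * Y, hc, ?_, ?_⟩
    · refine IsIntegral.of_pow hnpos ?_
      rw [hpow]
      exact isIntegral_map_chart' f _ _ himg3 hs₀
    · rw [hz₁def, hz₂def, ← sub_mul, ← map_sub, e, map_smul, smul_mul_assoc]
  -- the roots of unity
  set S : Finset A := nthRootsFinset n (1 : A) with hSdef
  have hSmem : ∀ ζ : A, ζ ∈ S ↔ ζ ^ n = 1 := fun ζ => mem_nthRootsFinset hnpos 1
  have hS : ∀ ζ ∈ S, ∀ ζ' ∈ S, ζ ≠ ζ' → IsUnit (ζ - ζ') := fun ζ hζ ζ' hζ' hne =>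
    isUnit_sub_of_pow_eq_one hn ((hSmem ζ).mp hζ) ((hSmem ζ').mp hζ') hne
  have hprod : ∀ z : L, ∏ ζ ∈ S, (z - algebraMap A L ζ) = z ^ n - 1 := by
    intro z
    rw [← aeval_prod_X_sub_C, ← X_pow_sub_one_eq_prod hnpos hω, map_sub, map_pow, aeval_X,
      map_one]
  obtain ⟨ζ₀, hζ₀, hsm1, -⟩ := exists_root_of_prod_small t htr hconn hz₁ hz₂ h12 S hS
    (by rw [hprod]; exact hz₁n) (by rw [hprod]; exact hz₂n)
  -- conjugate
  let γA : L →ₐ[A] L := γ.restrictScalars A
  have hγA : ∀ w : L, γA w = γ w := fun w => rfl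
  have hsm1' : SmallIn A ({t} : Set L) (γA (z₁ - algebraMap A L ζ₀)) := by
    have := hsm1.map γA
    rwa [Set.image_singleton, hγA t, ht, AlgHom.commutes] at this
  have hγz : γA (z₁ - algebraMap A L ζ₀) = ξ • z₁ - algebraMap A L ζ₀ := by
    rw [map_sub, AlgHom.commutes, hγA, hz₁def, map_mul, hγ, hf, AlgHom.commutes, mul_smul_comm]
  rw [hγz] at hsm1'
  have hdiff : SmallIn A ({t} : Set L) (algebraMap A L ((ξ - 1) * ζ₀)) := by
    have e : algebraMap A L ((ξ - 1) * ζ₀) =
        (ξ • z₁ - algebraMap A L ζ₀) - ξ • (z₁ - algebraMap A L ζ₀) := by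
      rw [smul_sub, map_mul, map_sub, map_one, Algebra.smul_def, Algebra.smul_def]
      ring
    rw [e]
    exact hsm1'.sub (hsm1.smul ξ)
  have hunit : IsUnit ((ξ - 1) * ζ₀) :=
    (isUnit_sub_of_pow_eq_one hn hξn (one_pow n) hξ1).mul
      (IsUnit.of_pow_eq_one ((hSmem ζ₀).mp hζ₀) hn0)
  exact not_smallIn_algebraMap_of_isUnit t htr hunit (hdiff.mono (fun w hw => Or.inl hw))

end Core

section Main

variable {A : Type*} [CommRing A] [IsDomain A] [ValuationRing A]
  {F : Type u} [Field F] [Algebra A F]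

omit [ValuationRing A] in
/-- In `AdjoinRoot μ`, for `μ` an irreducible factor of `X ^ n - C g` of degree `≥ 2`, the root
has a conjugate `ξ • root` with `ξ ≠ 1` an `n`-th root of unity of `A`. -/
theorem exists_conj (hinj : Function.Injective (algebraMap A F))
    (n : ℕ) (hn : IsUnit (n : A)) (ω : A) (hω : IsPrimitiveRoot ω n)
    (g : F) (hg : g ≠ 0) (μ : F[X]) [Fact (Irreducible μ)] (hμ : μ ∣ X ^ n - C g)
    (hdeg : 2 ≤ μ.natDegree) :
    ∃ (ξ : A), ξ ≠ 1 ∧ ξ ^ n = 1 ∧ ∃ γ : AdjoinRoot μ →ₐ[F] AdjoinRoot μ,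
      γ (AdjoinRoot.root μ) = ξ • AdjoinRoot.root μ := by
  classical
  have hn0 : n ≠ 0 := by
    rintro rfl
    rw [Nat.cast_zero] at hn
    exact not_isUnit_zero hn
  have hnpos : 0 < n := Nat.pos_of_ne_zero hn0
  have : NeZero n := ⟨hn0⟩
  set Y : AdjoinRoot μ := AdjoinRoot.root μ with hYdef
  have hFL : Function.Injective (algebraMap F (AdjoinRoot μ)) :=
    (algebraMap F (AdjoinRoot μ)).injective
  have hAL : Function.Injective (algebraMap A (AdjoinRoot μ)) := by
    rw [IsScalarTower.algebraMap_eq A F (AdjoinRoot μ)]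
    exact hFL.comp hinj
  set gL : AdjoinRoot μ := algebraMap F (AdjoinRoot μ) g with hgL
  have hgL0 : gL ≠ 0 := fun h => hg (hFL (h.trans (map_zero _).symm))
  have hY : Y ^ n = gL := by
    have h0 : AdjoinRoot.mk μ (X ^ n - C g) = 0 := AdjoinRoot.mk_eq_zero.mpr hμ
    rw [map_sub, map_pow, AdjoinRoot.mk_X, AdjoinRoot.mk_C, sub_eq_zero] at h0
    exact h0
  have hY0 : Y ≠ 0 := by
    intro h
    rw [h, zero_pow hn0] at hY
    exact hgL0 hY.symm
  set ωL : AdjoinRoot μ := algebraMap A (AdjoinRoot μ) ω with hωL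
  have hωLprim : IsPrimitiveRoot ωL n := hω.map_of_injective hAL
  have hnL : ((n : ℕ) : AdjoinRoot μ) ≠ 0 := by
    have : IsUnit (algebraMap A (AdjoinRoot μ) (n : A)) := hn.map _
    rw [map_natCast] at this
    exact this.ne_zero
  -- roots of `μ` over `L`
  set μL : (AdjoinRoot μ)[X] := μ.map (algebraMap F (AdjoinRoot μ)) with hμL
  have hμL0 : μL ≠ 0 := (Polynomial.map_ne_zero_iff hFL).mpr (Fact.out : Irreducible μ).ne_zero
  have hG0 : (X ^ n - C gL : (AdjoinRoot μ)[X]) ≠ 0 := X_pow_sub_C_ne_zero hnpos gL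
  have hμLdvd : μL ∣ X ^ n - C gL := by
    have := Polynomial.map_dvd (algebraMap F (AdjoinRoot μ)) hμ
    simpa [hμL, hgL] using this
  obtain ⟨k, hk⟩ := hμLdvd
  have hk0 : k ≠ 0 := by
    rintro rfl
    rw [mul_zero] at hk
    exact hG0 hk
  have hcardG : Multiset.card (X ^ n - C gL : (AdjoinRoot μ)[X]).roots = n := by
    have := hωLprim.card_nthRoots gL
    rw [if_pos ⟨Y, hY⟩] at this
    exact this
  have hrootsG : (X ^ n - C gL : (AdjoinRoot μ)[X]).roots = μL.roots + k.roots := by
    rw [hk]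
    exact roots_mul (by rw [← hk]; exact hG0)
  have hdegG : n = μL.natDegree + k.natDegree := by
    have := congrArg natDegree hk
    rw [natDegree_X_pow_sub_C, natDegree_mul hμL0 hk0] at this
    exact this
  have hcardμ : Multiset.card μL.roots = μL.natDegree := by
    have h1 := card_roots' μL
    have h2 := card_roots' k
    have h3 : Multiset.card μL.roots + Multiset.card k.roots = n := by
      rw [← Multiset.card_add, ← hrootsG, hcardG]
    omega
  have hnodup : μL.roots.Nodup := by
    have hsep : (X ^ n - C gL : (AdjoinRoot μ)[X]).Separable :=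
      separable_X_pow_sub_C gL hnL hgL0
    have hle : μL.roots ≤ (X ^ n - C gL : (AdjoinRoot μ)[X]).roots := by
      rw [hrootsG]
      exact Multiset.le_add_right _ _
    exact Multiset.nodup_of_le hle (nodup_roots hsep)
  have hμLdeg : μL.natDegree = μ.natDegree := natDegree_map _
  have hcard2 : 1 < μL.roots.toFinset.card := by
    rw [Multiset.toFinset_card_of_nodup hnodup, hcardμ, hμLdeg]
    omega
  obtain ⟨r, hr, hrY⟩ := Finset.exists_mem_ne hcard2 Y
  rw [Multiset.mem_toFinset] at hr
  have hrroot : μL.IsRoot r := (mem_roots hμL0).mp hr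
  have hrn : r ^ n = gL := by
    have : (X ^ n - C gL : (AdjoinRoot μ)[X]).IsRoot r := by
      rw [hk]
      exact IsRoot.dvd hrroot (dvd_mul_right _ _)
    simpa [sub_eq_zero] using this
  -- `r = ωL ^ i * Y`
  have hquot : (r * Y⁻¹) ^ n = 1 := by
    rw [mul_pow, inv_pow, hrn, hY, mul_inv_cancel₀ hgL0]
  obtain ⟨i, -, hi⟩ := hωLprim.eq_pow_of_pow_eq_one hquot
  have hri : r = ωL ^ i * Y := by
    rw [hi, mul_assoc, inv_mul_cancel₀ hY0, mul_one]
  refine ⟨ω ^ i, ?_, ?_, ?_⟩
  · intro h1
    apply hrY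
    rw [hri, hωL, ← map_pow, h1, map_one, one_mul]
  · rw [← pow_mul, mul_comm, pow_mul, hω.pow_eq_one, one_pow]
  · have hrsmul : (ω ^ i) • Y = r := by
      rw [hri, Algebra.smul_def, map_pow]
    have h0 : μ.eval₂ (Algebra.ofId F (AdjoinRoot μ) : F →+* AdjoinRoot μ) ((ω ^ i) • Y) = 0 := by
      rw [hrsmul]
      have := hrroot
      rw [IsRoot.def, hμL, eval_map] at this
      exact this
    exact ⟨AdjoinRoot.liftAlgHom μ (Algebra.ofId F (AdjoinRoot μ)) ((ω ^ i) • Y) h0,
      AdjoinRoot.liftAlgHom_root _ _ _ _⟩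

/-- **The two-chart Kummer core from seeds (KC-IDEM).**

`A` a valuation ring (domain), `F` a field over `A`, `x ∈ F` transcendental over `A`; the charts
are `icl A[x]`, `icl A[x⁻¹]`, `icl A[x, x⁻¹]`.  `n` is a unit of `A` and `A` contains a primitive
`n`-th root of unity.  `hconn` is the two-chart Čech connectedness for every finite extension
field `L` of `F` (coordinate: the image of `x`).

Seeds: `a₀ ^ n * g ≡ 1` on the first chart, `b₀ ^ n * g ≡ 1` on the second chart, modulo
non-units of `A`, and `a₀ - b₀ = c • s₀` with `c` a non-unit and `s₀ ^ n * g` in the overlap chart.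
Then `g` is an `n`-th power in `F`. -/
theorem kummer_of_seeds
    (x : F) (hx : Transcendental A x)
    (n : ℕ) (hn : IsUnit (n : A)) (ω : A) (hω : IsPrimitiveRoot ω n)
    (hconn : ∀ (L : Type u) [Field L] [Algebra F L] [Algebra A L] [IsScalarTower A F L]
      [FiniteDimensional F L], CechConn A (algebraMap F L x))
    (g a₀ b₀ : F)
    (hs1 : SmallIn A ({x} : Set F) (a₀ ^ n * g - 1))
    (hs2 : SmallIn A ({x⁻¹} : Set F) (b₀ ^ n * g - 1))
    (hs3 : ∃ (c : A) (s₀ : F), ¬ IsUnit c ∧ a₀ - b₀ = c • s₀ ∧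
      IsIntegral (Algebra.adjoin A ({x, x⁻¹} : Set F)) (s₀ ^ n * g)) :
    ∃ V : F, V ^ n = g := by
  classical
  have hn0 : n ≠ 0 := by
    rintro rfl
    rw [Nat.cast_zero] at hn
    exact not_isUnit_zero hn
  have hnpos : 0 < n := Nat.pos_of_ne_zero hn0
  have hinj : Function.Injective (algebraMap A F) := by
    have h := transcendental_iff_injective.mp hx
    intro a b hab
    have : aeval x (C a : A[X]) = aeval x (C b : A[X]) := by rw [aeval_C, aeval_C, hab]
    exact C_injective (h this)
  by_cases hg : g = 0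
  · exact ⟨0, by rw [hg, zero_pow hn0]⟩
  have hdegpos : 0 < (X ^ n - C g : F[X]).natDegree := by
    rw [natDegree_X_pow_sub_C]; exact hnpos
  obtain ⟨μ, hμirr, hμdvd⟩ := exists_irreducible_of_natDegree_pos hdegpos
  by_cases hd1 : μ.natDegree = 1
  · have hdeg1 : μ.degree = 1 := by
      rw [degree_eq_natDegree hμirr.ne_zero, hd1]; rfl
    obtain ⟨V, hV⟩ := exists_root_of_degree_eq_one hdeg1
    refine ⟨V, ?_⟩
    have : (X ^ n - C g : F[X]).IsRoot V := IsRoot.dvd hV hμdvd
    simpa [sub_eq_zero] using this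
  · exfalso
    have hd2 : 2 ≤ μ.natDegree := by
      have := hμirr.natDegree_pos
      omega
    have : Fact (Irreducible μ) := ⟨hμirr⟩
    have : FiniteDimensional F (AdjoinRoot μ) := (AdjoinRoot.powerBasis hμirr.ne_zero).finite
    obtain ⟨ξ, hξ1, hξn, γ, hγ⟩ := exists_conj hinj n hn ω hω g hg μ hμdvd hd2
    have hY : (AdjoinRoot.root μ) ^ n = algebraMap F (AdjoinRoot μ) g := by
      have h0 : AdjoinRoot.mk μ (X ^ n - C g) = 0 := AdjoinRoot.mk_eq_zero.mpr hμdvd
      rw [map_sub, map_pow, AdjoinRoot.mk_X, AdjoinRoot.mk_C, sub_eq_zero] at h0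
      exact h0
    exact false_of_conj (L := AdjoinRoot μ) x hx n hn ω hω (hconn (AdjoinRoot μ)) g a₀ b₀
      hs1 hs2 hs3 (AdjoinRoot.root μ) hY ξ hξ1 hξn γ hγ

end Main

end Fermat.Agent.S35.helper4121
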