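import Mathlib
import Fermat.Agent.S35.helper4121_KummerIdem
import Fermat.Agent.S35.helper1251_ConnVal

/-!
# S35/S34-KC-IDEM, instance: the two-chart Kummer core from seeds over a valuation ring of `ℚ̄`

`Fermat.Agent.S35.helper4121.kummer_of_seeds` (abstract, file `helper4121_KummerIdem`) takes the
two-chart Čech connectedness `CechConn A (algebraMap F L x)` of every finite extension `L` of `F`
as a hypothesis.  The landed `Fermat.Agent.S35.helper1251.two_chart_idempotent_val` (CONNVAL)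
proves exactly this for a valuation ring `A` of a field `K` algebraic over `ℚ` and every field
`L` over `K` in which `K` is algebraically closed.  Combining the two gives the Kummer core with
NO hypothesis besides the seeds:

* `cechConn_of_val` : `CechConn A t` from CONNVAL;
* `kummer_of_seeds_val` : `A → K` a valuation ring of an algebraically closed field `K` algebraic
  over `ℚ`, some prime a non-unit of `A`, `n` a unit of `A`, `F` ANY field over `K`, `x ∈ F`
  transcendental over `K`; seeds on the charts `icl A[x]`, `icl A[x⁻¹]` ⟹ `g` is an `n`-th power;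
* `kummer_of_seeds_valuationSubring`, `kummer_of_seeds_ratBar` : the same for a
  `ValuationSubring K`, resp. a valuation subring of `AlgebraicClosure ℚ` over a prime `ℓ ∤ n`.
-/

set_option autoImplicit false

namespace Fermat.Agent.S35.helper4121

open Polynomial

universe u

section Conn

variable {A K L : Type*} [CommRing A] [Field K] [CharZero K] [Algebra A K] [Field L] [Algebra K L]
  [Algebra A L] [IsScalarTower A K L]

/-- The two-chart Čech connectedness `CechConn A t` from CONNVAL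
(`helper1251.two_chart_idempotent_val`). -/
theorem cechConn_of_val
    (hinj : Function.Injective (algebraMap A K))
    (hval : ∀ x : K, x ∈ (algebraMap A K).range ∨ x⁻¹ ∈ (algebraMap A K).range)
    (halg : ∀ x : K, IsAlgebraic ℚ x)
    {ℓ : ℕ} (hℓ : ℓ.Prime) (hℓA : ¬ IsUnit ((ℓ : ℕ) : A))
    (t : L) (ht : Transcendental K t)
    (hK : ∀ z : L, IsAlgebraic K z → z ∈ (algebraMap K L).range) :
    CechConn A t := by
  intro a b ha hb h1 h2 h3
  obtain ⟨c1, y1, hc1, hy1, e1⟩ := h1
  obtain ⟨c2, y2, hc2, hy2, e2⟩ := h2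
  obtain ⟨c3, y3, hc3, hy3, e3⟩ := h3
  obtain ⟨π, hπ, h⟩ := Fermat.Agent.S35.helper1251.two_chart_idempotent_val (A := A) (K := K)
    (F := L) hinj hval halg hℓ hℓA t ht hK ha hb ⟨c1, hc1, y1, hy1, e1⟩ ⟨c2, hc2, y2, hy2, e2⟩
    ⟨c3, hc3, y3, hy3, e3⟩
  rcases h with ⟨⟨y, hy, e⟩, ⟨y', hy', e'⟩⟩ | ⟨⟨y, hy, e⟩, ⟨y', hy', e'⟩⟩
  · exact Or.inl ⟨⟨π, y, hπ, hy, e⟩, ⟨π, y', hπ, hy', e'⟩⟩
  · exact Or.inr ⟨⟨π, y, hπ, hy, e⟩, ⟨π, y', hπ, hy', e'⟩⟩

end Conn

section Main

variable {A K : Type*} {F : Type u} [CommRing A] [Field K] [CharZero K] [IsAlgClosed K]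
  [Algebra A K] [Field F] [Algebra K F] [Algebra A F] [IsScalarTower A K F]

/-- A ring which injects into a field with valuation-ring image is a valuation ring. -/
theorem valuationRing_of_range {A K : Type*} [CommRing A] [IsDomain A] [Field K] [Algebra A K]
    (hinj : Function.Injective (algebraMap A K))
    (hval : ∀ x : K, x ∈ (algebraMap A K).range ∨ x⁻¹ ∈ (algebraMap A K).range) :
    ValuationRing A := by
  have key : ∀ a b : A, ∃ c : A, a * c = b ∨ b * c = a := by
    intro a b
    by_cases hb : b = 0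
    · exact ⟨0, Or.inl (by rw [hb, mul_zero])⟩
    by_cases ha : a = 0
    · exact ⟨0, Or.inr (by rw [ha, mul_zero])⟩
    have hb' : algebraMap A K b ≠ 0 := fun h => hb (hinj (h.trans (map_zero _).symm))
    have ha' : algebraMap A K a ≠ 0 := fun h => ha (hinj (h.trans (map_zero _).symm))
    rcases hval (algebraMap A K a / algebraMap A K b) with ⟨c, hc⟩ | ⟨c, hc⟩
    · refine ⟨c, Or.inr (hinj ?_)⟩
      rw [map_mul, hc, mul_div_cancel₀ _ hb']
    · refine ⟨c, Or.inl (hinj ?_)⟩
      rw [map_mul, hc, inv_div, mul_div_cancel₀ _ ha']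
  exact { toPreValuationRing := ⟨key⟩ }

/-- A primitive `n`-th root of unity of an algebraically closed field lies in every valuation
ring of the field. -/
theorem exists_primitiveRoot_of_range {A K : Type*} [CommRing A] [Field K] [IsAlgClosed K]
    [Algebra A K] (hinj : Function.Injective (algebraMap A K))
    (hval : ∀ x : K, x ∈ (algebraMap A K).range ∨ x⁻¹ ∈ (algebraMap A K).range)
    (n : ℕ) (hn : (n : K) ≠ 0) : ∃ ω : A, IsPrimitiveRoot ω n := by
  have hn0 : n ≠ 0 := by
    rintro rfl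
    exact hn Nat.cast_zero
  haveI : NeZero (n : K) := ⟨hn⟩
  obtain ⟨ζ, hζ⟩ := HasEnoughRootsOfUnity.exists_primitiveRoot K n
  have hmem : ζ ∈ (algebraMap A K).range := by
    rcases hval ζ with h | ⟨c, hc⟩
    · exact h
    · refine ⟨c ^ (n - 1), ?_⟩
      rw [map_pow, hc]
      have h1 : ζ * ζ ^ (n - 1) = 1 := by
        rw [← pow_succ', Nat.sub_add_cancel (Nat.one_le_iff_ne_zero.mpr hn0)]
        exact hζ.pow_eq_one
      rw [inv_pow]
      exact inv_eq_of_mul_eq_one_left h1
  obtain ⟨ω, hω⟩ := hmem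
  refine ⟨ω, ?_⟩
  have h := hζ
  rw [← hω] at h
  exact IsPrimitiveRoot.of_map_of_injective h hinj

/-- **The two-chart Kummer core from seeds over a valuation ring of an algebraically closed field
algebraic over `ℚ` (KC-IDEM + CONNVAL).**

`A → K` injective with valuation-ring image, `K` algebraically closed and algebraic over `ℚ`,
some prime `ℓ` a non-unit of `A`, `n` a unit of `A`.  `F` is any field over `K` and `x ∈ F` is
transcendental over `K`; the charts are `icl A[x]`, `icl A[x⁻¹]`, `icl A[x, x⁻¹]`.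
Seeds: `a₀ ^ n * g ≡ 1` on the first chart, `b₀ ^ n * g ≡ 1` on the second chart (modulo
non-units of `A`), and `a₀ - b₀ = c • s₀` with `c` a non-unit of `A` and `s₀ ^ n * g` in the
overlap chart.  Then `g` is an `n`-th power in `F`. -/
theorem kummer_of_seeds_val
    (hinj : Function.Injective (algebraMap A K))
    (hval : ∀ x : K, x ∈ (algebraMap A K).range ∨ x⁻¹ ∈ (algebraMap A K).range)
    (halg : ∀ x : K, IsAlgebraic ℚ x)
    {ℓ : ℕ} (hℓ : ℓ.Prime) (hℓA : ¬ IsUnit ((ℓ : ℕ) : A))
    (x : F) (hx : Transcendental K x)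
    (n : ℕ) (hn : IsUnit (n : A))
    (g a₀ b₀ : F)
    (hs1 : SmallIn A ({x} : Set F) (a₀ ^ n * g - 1))
    (hs2 : SmallIn A ({x⁻¹} : Set F) (b₀ ^ n * g - 1))
    (hs3 : ∃ (c : A) (s₀ : F), ¬ IsUnit c ∧ a₀ - b₀ = c • s₀ ∧
      IsIntegral (Algebra.adjoin A ({x, x⁻¹} : Set F)) (s₀ ^ n * g)) :
    ∃ V : F, V ^ n = g := by
  have : IsDomain A := hinj.isDomain _
  have : ValuationRing A := valuationRing_of_range hinj hval
  have hnK : (n : K) ≠ 0 := by
    have h := hn.map (algebraMap A K)
    rw [map_natCast] at h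
    exact h.ne_zero
  obtain ⟨ω, hω⟩ := exists_primitiveRoot_of_range hinj hval n hnK
  have hxA : Transcendental A x := hx.restrictScalars hinj
  refine kummer_of_seeds x hxA n hn ω hω ?_ g a₀ b₀ hs1 hs2 hs3
  intro L _ _ _ _ _
  let _ : Algebra K L := ((algebraMap F L).comp (algebraMap K F)).toAlgebra
  have : IsScalarTower K F L := IsScalarTower.of_algebraMap_eq (fun _ => rfl)
  have : IsScalarTower A K L := IsScalarTower.of_algebraMap_eq (fun c => by
    rw [IsScalarTower.algebraMap_apply A F L, IsScalarTower.algebraMap_apply A K F,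
      IsScalarTower.algebraMap_apply K F L])
  have ht : Transcendental K (algebraMap F L x) :=
    (transcendental_algebraMap_iff (algebraMap F L).injective).mpr hx
  exact cechConn_of_val hinj hval halg hℓ hℓA (algebraMap F L x) ht
    Fermat.Agent.S35.helper1251.mem_range_of_isAlgebraic_of_isAlgClosed

end Main

section VS

variable {K : Type*} {F : Type u} [Field K] [CharZero K] [IsAlgClosed K] [Field F] [Algebra K F]

/-- `kummer_of_seeds_val` for a valuation subring `A` of `K` (with the `A`-algebra structure of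
`F` any structure compatible with `K`). -/
theorem kummer_of_seeds_valuationSubring (A : ValuationSubring K) [Algebra A F]
    [IsScalarTower A K F]
    (halg : ∀ x : K, IsAlgebraic ℚ x)
    {ℓ : ℕ} (hℓ : ℓ.Prime) (hℓA : (ℓ : K) ∈ A.nonunits)
    (x : F) (hx : Transcendental K x)
    (n : ℕ) (hn : IsUnit (n : A))
    (g a₀ b₀ : F)
    (hs1 : SmallIn A ({x} : Set F) (a₀ ^ n * g - 1))
    (hs2 : SmallIn A ({x⁻¹} : Set F) (b₀ ^ n * g - 1))
    (hs3 : ∃ (c : A) (s₀ : F), ¬ IsUnit c ∧ a₀ - b₀ = c • s₀ ∧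
      IsIntegral (Algebra.adjoin A ({x, x⁻¹} : Set F)) (s₀ ^ n * g)) :
    ∃ V : F, V ^ n = g :=
  kummer_of_seeds_val (A := A) (K := K) Subtype.val_injective
    (fun y => (A.mem_or_inv_mem y).imp (fun h => ⟨⟨y, h⟩, rfl⟩) (fun h => ⟨⟨y⁻¹, h⟩, rfl⟩))
    halg hℓ (Fermat.Agent.S35.helper1251.not_isUnit_natCast_of_mem_nonunits A hℓA) x hx n hn
    g a₀ b₀ hs1 hs2 hs3

end VS

section RatBar

/-- **KC-IDEM at `ℚ̄`**: `A` a valuation subring of `AlgebraicClosure ℚ` over a prime `ℓ`, `n` a
unit of `A` (e.g. `n` prime to `ℓ`), `F` ANY field over `AlgebraicClosure ℚ`, `x ∈ F`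
transcendental.  Seeds on the two charts `icl A[x]`, `icl A[x⁻¹]` ⟹ `g` is an `n`-th power. -/
theorem kummer_of_seeds_ratBar {F : Type u} [Field F] [Algebra (AlgebraicClosure ℚ) F]
    (A : ValuationSubring (AlgebraicClosure ℚ)) [Algebra A F]
    [IsScalarTower A (AlgebraicClosure ℚ) F]
    {ℓ : ℕ} (hℓ : ℓ.Prime) (hℓA : A.LiesOverPrime ℓ)
    (x : F) (hx : Transcendental (AlgebraicClosure ℚ) x)
    (n : ℕ) (hn : IsUnit (n : A))
    (g a₀ b₀ : F)
    (hs1 : SmallIn A ({x} : Set F) (a₀ ^ n * g - 1))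
    (hs2 : SmallIn A ({x⁻¹} : Set F) (b₀ ^ n * g - 1))
    (hs3 : ∃ (c : A) (s₀ : F), ¬ IsUnit c ∧ a₀ - b₀ = c • s₀ ∧
      IsIntegral (Algebra.adjoin A ({x, x⁻¹} : Set F)) (s₀ ^ n * g)) :
    ∃ V : F, V ^ n = g :=
  kummer_of_seeds_valuationSubring A Fermat.Agent.S35.helper1251.isAlgebraic_rat_algebraicClosure
    hℓ hℓA x hx n hn g a₀ b₀ hs1 hs2 hs3

end RatBar

end Fermat.Agent.S35.helper4121
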