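/-
S35 / S34 geometry module, (KC) for two Gauss valuations over a valuation ring of `Qbar`
(helper2459, board #2018, part (iii)).

`hKC_ratBar` is the hypothesis `hKC` of `helper2423.torFix_of_gen_of_kc`, VERBATIM, with NO
special-fibre input: it is the composition of

* `helper2459.hKC_of_gauss` (CHARTINT: chart integrality + seed adapter),
* `helper4121.kummer_of_seeds` (KC-IDEM: the Kummer core from seeds by Čech idempotents on the
  Kummer extension), in the form `helper4121.kummer_of_seeds_ratBar` where the connectedness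
  hypothesis is discharged by CONNVAL (`helper1251.two_chart_idempotent_val`).

What is left as hypotheses are facts about the two valuation rings only: the chart coordinate `x`
is a Gauss element at `V₁` and lies in `V₂`, (T4) (`exists_monic_of_isCartesian`), and `e = 1`.

`hKC_gp` is the CONCRETE INSTANCE at the Gauss pair of level `ℓ * M` (`ℓ ∤ M`):
`V₁ = helper882.gpRing A (ℓ * M)`, `V₂ = helper882.gpRingW A (ℓ * M) (helper1928.wAL ℓ M hℓM)`.
There (T4) comes from the two-chart basis of `helper1928` (`gp_exists_isCartesian`, `gp_hT4`),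
`e = 1` from `helper882.exists_gpBase_eq_valuation`, and the only hypotheses left are:
`x` is a Gauss element at `V₁`, `x ∈ V₂`, and `j ∈ Qb(x)`.
-/
import Fermat.Agent.S35.helper2459_ChartInt
import Fermat.Agent.S35.helper4121_KummerConn
import Fermat.Agent.S35.helper882_GaussPairCart

set_option autoImplicit false

namespace Fermat.Agent.S35.helper2459

open AlgebraicCurve Polynomial IntermediateField ModularCurve
open Fermat.Agent.S35.helper1024 Fermat.Agent.S29.helper8217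
open Fermat.Agent.S24.helper24 Fermat.Agent.S35.helper882

universe u

local notation "Qb" => AlgebraicClosure ℚ

/-- Integers prime to `ℓ` are units of a valuation subring of `Qbar` over `ℓ`. -/
theorem isUnit_natCast_of_liesOver (A : ValuationSubring Qb) {ℓ : ℕ} (hℓ : ℓ.Prime)
    (hℓA : A.LiesOverPrime ℓ) {n : ℕ} (hn : ¬ ℓ ∣ n) : IsUnit ((n : ℕ) : A) := by
  by_contra hu
  have h1 : ((n : ℕ) : A) ∈ IsLocalRing.maximalIdeal A := (IsLocalRing.mem_maximalIdeal _).mpr hu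
  have h2 : ((ℓ : ℕ) : A) ∈ IsLocalRing.maximalIdeal A :=
    (IsLocalRing.mem_maximalIdeal _).mpr
      (Fermat.Agent.S35.helper1251.not_isUnit_natCast_of_mem_nonunits A hℓA)
  have hcop : IsCoprime (n : ℤ) (ℓ : ℤ) :=
    Nat.isCoprime_iff_coprime.mpr ((Nat.Prime.coprime_iff_not_dvd hℓ).mpr hn).symm
  obtain ⟨a, b, hab⟩ := hcop
  have h3 : (1 : A) ∈ IsLocalRing.maximalIdeal A := by
    have : (1 : A) = (a : A) * ((n : ℕ) : A) + (b : A) * ((ℓ : ℕ) : A) := by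
      have := congrArg (Int.cast : ℤ → A) hab
      push_cast at this
      exact this.symm
    rw [this]
    exact Ideal.add_mem _ (Ideal.mul_mem_left _ _ h1) (Ideal.mul_mem_left _ _ h2)
  exact (IsLocalRing.maximalIdeal.isMaximal A).ne_top ((Ideal.eq_top_iff_one _).mpr h3)

/-- **(KC) for two Gauss valuations over a valuation ring of `Qbar`, from seeds, with no
special-fibre input.**  `A` a valuation subring of `Qbar` over the prime `ℓ`, `ℓ ∤ n`; `V₁`, `V₂`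
valuation subrings of the function field `F` over `A`; `x` a chart coordinate which is a Gauss
element at `V₁` and lies in `V₂`; (T4) and `e = 1`.  Charts: `X j₁` inside the poles of `x`,
`X j₂` inside the zeros of `x`.  An `n`-Kummer element `h ≡ 1` (both valuations) whose chart
lattices contain seeds `≡ 1` is an `n`-th power. -/
theorem hKC_ratBar {F : Type u} [Field F] [Algebra Qb F] [HasPrincipalDivisors Qb F]
    (A : ValuationSubring Qb) {ℓ : ℕ} (hℓ : ℓ.Prime) (hℓA : A.LiesOverPrime ℓ)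
    (V₁ V₂ : ValuationSubring F) (x : F) [FiniteDimensional Qb⟮x⟯ F]
    (hA₁ : V₁.comap (algebraMap Qb F) = A) (hA₂ : V₂.comap (algebraMap Qb F) = A)
    (hx₁ : GaussElt A V₁ x) (hx₂ : x ∈ V₂)
    (hT4 : ∀ z : F, z ∈ V₁ → z ∈ V₂ → ∃ p : F[X], p.Monic ∧ (∀ i, p.coeff i ∈ V₁) ∧
      (∀ i, p.coeff i ∈ Qb⟮x⟯) ∧ aeval z p = 0)
    (hVG₁ : ∀ f : F, f ≠ 0 → ∃ c : Qb, V₁.valuation f = V₁.valuation (algebraMap Qb F c))
    (hVG₂ : ∀ f : F, f ≠ 0 → ∃ c : Qb, V₂.valuation f = V₂.valuation (algebraMap Qb F c))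
    {ι : Type*} (X : ι → Set (Place Qb F)) (j₁ j₂ : ι)
    (hX₁ : ∀ v ∈ X j₁, v.ord x < 0) (hX₂ : ∀ v ∈ X j₂, 0 < v.ord x) (n : ℕ) (hn : ¬ ℓ ∣ n) :
    ∀ h : F, IsKummer Qb n h → V₁.valuation (h - 1) < 1 → V₂.valuation (h - 1) < 1 →
      (∀ j, ∃ a ∈ Fermat.Agent.S35.helper2423.chartLat Qb V₁ V₂ (X j) n h,
        V₁.valuation (a - 1) < 1 ∧ V₂.valuation (a - 1) < 1) →
      ∃ w c : F, w ≠ 0 ∧ c ≠ 0 ∧ (∀ v : Place Qb F, v.ord c = 0) ∧ h = c * w ^ n := by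
  have hxtr : Transcendental Qb x := transcendental_of_gaussElt hx₁
  have hℓ0 : ((ℓ : ℕ) : Qb) ≠ 0 := Nat.cast_ne_zero.2 hℓ.ne_zero
  refine hKC_of_gauss (A0 := A) A (fun a => ⟨fun ha => ⟨⟨a, ha⟩, rfl⟩, ?_⟩) V₁ V₂ x hA₁ hA₂ hx₁
    hx₂ hT4 hVG₁ hVG₂ ⟨(ℓ : Qb), hℓ0, hℓA⟩ X j₁ j₂ hX₁ hX₂ n ?_
  · rintro ⟨b, rfl⟩
    exact b.2
  · intro g a b c _ hcu hc0 hs1 hs2 hs3
    obtain ⟨y₁, hy₁, e₁⟩ := hs1
    obtain ⟨y₂, hy₂, e₂⟩ := hs2
    obtain ⟨y₃, hy₃, e₃⟩ := hs3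
    refine Fermat.Agent.S35.helper4121.kummer_of_seeds_ratBar A hℓ hℓA x hxtr n
      (isUnit_natCast_of_liesOver A hℓ hℓA hn) g a b
      ⟨c, y₁, hcu, hy₁, e₁⟩ ⟨c, y₂, hcu, hy₂, e₂⟩
      ⟨c, (a - b) * (algebraMap A F c)⁻¹, hcu, ?_, ?_⟩
    · rw [Algebra.smul_def, mul_comm (a - b), ← mul_assoc, mul_inv_cancel₀ hc0, one_mul]
    · have e : ((a - b) * (algebraMap A F c)⁻¹) ^ n * g = y₃ := by
        have hcn : (algebraMap A F c) ^ n ≠ 0 := pow_ne_zero n hc0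
        rw [Algebra.smul_def, map_pow] at e₃
        rw [mul_pow, inv_pow, mul_right_comm, e₃, mul_comm ((algebraMap A F c) ^ n),
          mul_assoc, mul_inv_cancel₀ hcn, mul_one]
      rw [e]
      exact hy₃

/-! ### The concrete instance at the Gauss pair of level `ℓ * M` -/

section GaussPairInst

variable (A : ValuationSubring Qb)

/-- The Gauss ring restricts to `A` on the constants. -/
theorem gpRing_comap (N : ℕ) : (gpRing A N).comap (algebraMap Qb (FN N)) = A := by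
  ext c
  rw [ValuationSubring.mem_comap, ← ValuationSubring.valuation_le_one_iff]
  exact gpBase_le_one_iff A N c

/-- The second Gauss ring restricts to `A` on the constants. -/
theorem gpRingW_comap (N : ℕ) (W : FN N ≃ₐ[Qb] FN N) :
    (gpRingW A N W).comap (algebraMap Qb (FN N)) = A := by
  ext c
  rw [ValuationSubring.mem_comap]
  show W (algebraMap Qb (FN N) c) ∈ gpRing A N ↔ _
  rw [AlgEquiv.commutes, ← ValuationSubring.valuation_le_one_iff]
  exact gpBase_le_one_iff A N c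

/-- Comparison of values for a valuation ring transported by a ring automorphism. -/
theorem valuation_comap_le_iff {F : Type*} [Field F] (V : ValuationSubring F) (φ : F ≃+* F)
    (a b : F) (hb : b ≠ 0) :
    (V.comap (φ : F →+* F)).valuation a ≤ (V.comap (φ : F →+* F)).valuation b ↔
      V.valuation (φ a) ≤ V.valuation (φ b) := by
  have h1 : ∀ (U : ValuationSubring F) (x y : F), y ≠ 0 →
      (U.valuation x ≤ U.valuation y ↔ x / y ∈ U) := by
    intro U x y hy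
    rw [← ValuationSubring.valuation_le_one_iff, map_div₀,
      div_le_one₀ (zero_lt_iff.2 ((Valuation.ne_zero_iff _).2 hy))]
  rw [h1 _ _ _ hb, h1 _ _ _ ((map_ne_zero_iff φ φ.injective).2 hb), ValuationSubring.mem_comap]
  simp [map_div₀]

/-- `e = 1` at the first Gauss ring. -/
theorem gpRing_exists_const (N : ℕ) (f : FN N) (hf : f ≠ 0) :
    ∃ c : Qb, (gpRing A N).valuation f = (gpRing A N).valuation (algebraMap Qb (FN N) c) := by
  obtain ⟨c, -, hc⟩ := exists_gpBase_eq_valuation A N hf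
  exact ⟨c, hc.symm⟩

/-- `e = 1` at the second Gauss ring. -/
theorem gpRingW_exists_const (N : ℕ) (W : FN N ≃ₐ[Qb] FN N) (f : FN N) (hf : f ≠ 0) :
    ∃ c : Qb, (gpRingW A N W).valuation f
      = (gpRingW A N W).valuation (algebraMap Qb (FN N) c) := by
  obtain ⟨c, hc0, hc⟩ := exists_gpBase_eq_valuation A N (f := W f)
    ((map_ne_zero_iff W W.injective).mpr hf)
  have hc' : (gpRing A N).valuation (algebraMap Qb (FN N) c) = (gpRing A N).valuation (W f) := hc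
  have hc0' : algebraMap Qb (FN N) c ≠ 0 := (map_ne_zero_iff _ (algebraMap Qb (FN N)).injective).2 hc0
  refine ⟨c, le_antisymm ?_ ?_⟩
  · refine (valuation_comap_le_iff (gpRing A N) (W : FN N ≃+* FN N) f _ hc0').2 ?_
    show (gpRing A N).valuation (W f) ≤ (gpRing A N).valuation (W (algebraMap Qb (FN N) c))
    rw [AlgEquiv.commutes, hc']
  · refine (valuation_comap_le_iff (gpRing A N) (W : FN N ≃+* FN N) _ f hf).2 ?_
    show (gpRing A N).valuation (W (algebraMap Qb (FN N) c)) ≤ (gpRing A N).valuation (W f)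
    rw [AlgEquiv.commutes, hc']

end GaussPairInst

section Cart

variable (ℓ M : ℕ) [Fact ℓ.Prime] [NeZero M] (hℓM : ¬ ℓ ∣ M) (A : ValuationSubring Qb)
  (hA : (ℓ : Qb) ∈ A.nonunits)

include hA in
/-- **(E1) in `helper1024.IsCartesian` form at the Gauss pair of level `ℓ * M`**: the two-chart
basis `helper1928.twoBasis` is a `Qb(j)`-basis of `F_{ℓ M}` which is cartesian for the two Gauss
rings `V_∞`, `V_0 = V_∞.comap W_ℓ` (weights `1`). -/
theorem gp_exists_isCartesian :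
    ∃ 𝔟 : Module.Basis (Fermat.Agent.S35.helper1928.TwoIdx ℓ (dedekindPsi M))
        Qb⟮jBar (ℓ * M)⟯ (FN (ℓ * M)),
      (∀ e, 𝔟 e = Fermat.Agent.S35.helper1928.twoBasis ℓ M hℓM e) ∧
      IsCartesian ((gpRing A (ℓ * M)).comap (algebraMap Qb⟮jBar (ℓ * M)⟯ (FN (ℓ * M))))
        (gpRing A (ℓ * M)) (gpRingW A (ℓ * M) (Fermat.Agent.S35.helper1928.wAL ℓ M hℓM)) 1 𝔟 := by
  classical
  have hN := isNormOver_maxNorm (gpVal_adjoin ℓ M hℓM A)
  have hli := (twoBasis_isOrthoN ℓ M hℓM A hA).linearIndependent hN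
  have hsp := twoBasis_span ℓ M hℓM A hA
  have hb : ∀ e, Module.Basis.mk hli hsp.ge e = Fermat.Agent.S35.helper1928.twoBasis ℓ M hℓM e :=
    fun e => by rw [Module.Basis.coe_mk]
  have hsum : ∀ a : Fermat.Agent.S35.helper1928.TwoIdx ℓ (dedekindPsi M) → Qb⟮jBar (ℓ * M)⟯,
      ∑ k, a k • Module.Basis.mk hli hsp.ge k
        = ∑ e, algebraMap Qb⟮jBar (ℓ * M)⟯ (FN (ℓ * M)) (a e)
            * Fermat.Agent.S35.helper1928.twoBasis ℓ M hℓM e := fun a =>
    Finset.sum_congr rfl fun e _ => by rw [hb, Algebra.smul_def]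
  refine ⟨Module.Basis.mk hli hsp.ge, hb, ⟨fun a => ?_, fun a => ?_⟩⟩
  · rw [mem_twBall_one, hsum]
    have h := Fermat.Agent.S35.helper1928.twoChart_le_one ℓ M hℓM A hA
      (fun e => algebraMap Qb⟮jBar (ℓ * M)⟯ (FN (ℓ * M)) (a e)) (fun e => (a e).2)
    rw [ValuationSubring.valuation_le_one_iff, ValuationSubring.valuation_le_one_iff] at h
    refine h.trans (forall_congr' fun e => ?_)
    rw [ValuationSubring.valuation_le_one_iff, ValuationSubring.mem_comap]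
  · rw [mem_twOpenBall_one, hsum]
    have h := Fermat.Agent.S35.helper1928.twoChart_lt_one ℓ M hℓM A hA
      (fun e => algebraMap Qb⟮jBar (ℓ * M)⟯ (FN (ℓ * M)) (a e)) (fun e => (a e).2)
    rw [ValuationSubring.mem_nonunits_iff, ValuationSubring.mem_nonunits_iff,
      gpRingW_valuation_lt_one_iff]
    refine h.trans (forall_congr' fun e => ?_)
    rw [← ValuationSubring.mem_nonunits_iff]
    exact mem_nonunits_iff_of_comap rfl (a e)

include hA in
/-- **(T4) at the Gauss pair of level `ℓ * M`**, for every chart coordinate `x` with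
`j ∈ Qb(x)`: an element of `V_∞ ∩ V_0` is a root of a monic polynomial with coefficients in
`V_∞ ∩ Qb(x)`. -/
theorem gp_hT4 (x : FN (ℓ * M)) (hj : jBar (ℓ * M) ∈ Qb⟮x⟯) (z : FN (ℓ * M))
    (hz₁ : z ∈ gpRing A (ℓ * M))
    (hz₂ : z ∈ gpRingW A (ℓ * M) (Fermat.Agent.S35.helper1928.wAL ℓ M hℓM)) :
    ∃ p : (FN (ℓ * M))[X], p.Monic ∧ (∀ i, p.coeff i ∈ gpRing A (ℓ * M)) ∧
      (∀ i, p.coeff i ∈ Qb⟮x⟯) ∧ aeval z p = 0 := by
  classical
  obtain ⟨𝔟, -, h𝔟⟩ := gp_exists_isCartesian ℓ M hℓM A hA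
  obtain ⟨p, hp, hp₁, hp₂, hp₃⟩ := exists_monic_of_isCartesian 𝔟 h𝔟 rfl hz₁ hz₂
  have hle : Qb⟮jBar (ℓ * M)⟯ ≤ Qb⟮x⟯ := by
    rw [IntermediateField.adjoin_le_iff]
    intro y hy
    rw [Set.mem_singleton_iff.1 hy]
    exact hj
  refine ⟨p, hp, hp₁, fun i => ?_, hp₃⟩
  obtain ⟨c, hc⟩ := hp₂ i
  rw [← hc]
  exact hle c.2

end Cart

section ChartMonic

variable (ℓ M : ℕ) [Fact ℓ.Prime] [NeZero M] (hℓM : ¬ ℓ ∣ M) (A : ValuationSubring Qb)
  (hA : (ℓ : Qb) ∈ A.nonunits)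

include hA in
/-- **CHARTINT instance at the Gauss pair, chart `x`** (= (H2) of KRON-INST): an element of
`V_∞ ∩ V_0` which is integral over `Qb[x]` is a root of a monic polynomial whose coefficients are
`p_i(x)` with `p_i ∈ A[X]`.  Hypotheses on the chart coordinate: Gauss element at `V_∞` and
`j ∈ Qb(x)`. -/
theorem gp_chart_monic (x : FN (ℓ * M)) (hx : GaussElt A (gpRing A (ℓ * M)) x)
    (hj : jBar (ℓ * M) ∈ Qb⟮x⟯) (z : FN (ℓ * M)) (hz₁ : z ∈ gpRing A (ℓ * M))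
    (hz₂ : z ∈ gpRingW A (ℓ * M) (Fermat.Agent.S35.helper1928.wAL ℓ M hℓM))
    (hz : IsIntegral (Algebra.adjoin Qb ({x} : Set (FN (ℓ * M)))) z) :
    ∃ m : (FN (ℓ * M))[X], m.Monic ∧
      (∀ i, ∃ p : Qb[X], (∀ j, p.coeff j ∈ A) ∧ m.coeff i = aeval x p) ∧ aeval z m = 0 :=
  exists_monic_of_gauss A (gpRing A (ℓ * M)) x (gpRing_comap A _) hx z hz
    (gp_hT4 ℓ M hℓM A hA x hj z hz₁ hz₂)

include hA in
/-- **CHARTINT instance at the Gauss pair, chart `x⁻¹`**: the same for elements integral over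
`Qb[x⁻¹]`, coefficients `p_i(x⁻¹)` with `p_i ∈ A[X]`. -/
theorem gp_chart_monic_inv (x : FN (ℓ * M)) (hx : GaussElt A (gpRing A (ℓ * M)) x)
    (hj : jBar (ℓ * M) ∈ Qb⟮x⟯) (z : FN (ℓ * M)) (hz₁ : z ∈ gpRing A (ℓ * M))
    (hz₂ : z ∈ gpRingW A (ℓ * M) (Fermat.Agent.S35.helper1928.wAL ℓ M hℓM))
    (hz : IsIntegral (Algebra.adjoin Qb ({x⁻¹} : Set (FN (ℓ * M)))) z) :
    ∃ m : (FN (ℓ * M))[X], m.Monic ∧
      (∀ i, ∃ p : Qb[X], (∀ j, p.coeff j ∈ A) ∧ m.coeff i = aeval x⁻¹ p) ∧ aeval z m = 0 :=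
  gp_chart_monic ℓ M hℓM A hA x⁻¹ (gaussElt_inv hx)
    (by rw [Fermat.Agent.S24.helper204.adjoin_inv_eq]; exact hj) z hz₁ hz₂ hz

include hA in
/-- **CHARTINT instance, integral-closure form**: an element of `V_∞ ∩ V_0` integral over
`Qb[x]` is integral over `A[x]`. -/
theorem gp_chart_isIntegral (x : FN (ℓ * M)) (hx : GaussElt A (gpRing A (ℓ * M)) x)
    (hj : jBar (ℓ * M) ∈ Qb⟮x⟯) (z : FN (ℓ * M)) (hz₁ : z ∈ gpRing A (ℓ * M))
    (hz₂ : z ∈ gpRingW A (ℓ * M) (Fermat.Agent.S35.helper1928.wAL ℓ M hℓM))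
    (hz : IsIntegral (Algebra.adjoin Qb ({x} : Set (FN (ℓ * M)))) z) :
    IsIntegral (Algebra.adjoin A ({x} : Set (FN (ℓ * M)))) z :=
  isIntegral_adjoin_of_gauss (A0 := A) A (fun a ha => ⟨⟨a, ha⟩, rfl⟩) (gpRing A (ℓ * M)) x
    (gpRing_comap A _) hx z hz (gp_hT4 ℓ M hℓM A hA x hj z hz₁ hz₂)

include hA in
/-- **CHARTINT instance, integral-closure form, chart `x⁻¹`.** -/
theorem gp_chart_isIntegral_inv (x : FN (ℓ * M)) (hx : GaussElt A (gpRing A (ℓ * M)) x)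
    (hj : jBar (ℓ * M) ∈ Qb⟮x⟯) (z : FN (ℓ * M)) (hz₁ : z ∈ gpRing A (ℓ * M))
    (hz₂ : z ∈ gpRingW A (ℓ * M) (Fermat.Agent.S35.helper1928.wAL ℓ M hℓM))
    (hz : IsIntegral (Algebra.adjoin Qb ({x⁻¹} : Set (FN (ℓ * M)))) z) :
    IsIntegral (Algebra.adjoin A ({x⁻¹} : Set (FN (ℓ * M)))) z :=
  gp_chart_isIntegral ℓ M hℓM A hA x⁻¹ (gaussElt_inv hx)
    (by rw [Fermat.Agent.S24.helper204.adjoin_inv_eq]; exact hj) z hz₁ hz₂ hz

end ChartMonic

section Final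

/-- A function field finite over `K(j)` is finite over `K(x)` as soon as `j ∈ K(x)`. -/
theorem finiteDimensional_adjoin_of_mem {K F : Type*} [Field K] [Field F] [Algebra K F]
    (j x : F) [FiniteDimensional K⟮j⟯ F] (hj : j ∈ K⟮x⟯) : FiniteDimensional K⟮x⟯ F := by
  have hle : K⟮j⟯ ≤ K⟮x⟯ := by
    rw [IntermediateField.adjoin_le_iff]
    intro y hy
    rw [Set.mem_singleton_iff.1 hy]
    exact hj
  let _ : Algebra K⟮j⟯ K⟮x⟯ := (IntermediateField.inclusion hle).toRingHom.toAlgebra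
  have : IsScalarTower K⟮j⟯ K⟮x⟯ F := IsScalarTower.of_algebraMap_eq (fun _ => rfl)
  exact Module.Finite.of_restrictScalars_finite K⟮j⟯ K⟮x⟯ F

variable (ℓ M : ℕ) [Fact ℓ.Prime] [NeZero M] (hℓM : ¬ ℓ ∣ M) (A : ValuationSubring Qb)
  (hA : A.LiesOverPrime ℓ)

include hA in
/-- **(KC) at the Gauss pair of level `ℓ * M`** (`ℓ ∤ M`, `A` over `ℓ`, `ℓ ∤ n`):
the hypothesis `hKC` of `helper2423.torFix_of_gen_of_kc` VERBATIM for
`V₁ = helper882.gpRing A (ℓ * M)` (`= helper584.gaussV = helper1928.vInf`),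
`V₂ = helper882.gpRingW A (ℓ * M) W`, `W = helper1928.wAL ℓ M hℓM = helper1219.atkinLehnerBar`.

The only remaining hypotheses are three facts on the chart coordinate `x`: it is a Gauss element
at `V₁`, it lies in `V₂`, and `j ∈ Qb(x)`; the charts are `X j₁ ⊆ {poles of x}`,
`X j₂ ⊆ {zeros of x}`. -/
theorem hKC_gp [HasPrincipalDivisors Qb (FN (ℓ * M))] (x : FN (ℓ * M))
    (hx₁ : GaussElt A (gpRing A (ℓ * M)) x)
    (hx₂ : x ∈ gpRingW A (ℓ * M) (Fermat.Agent.S35.helper1928.wAL ℓ M hℓM))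
    (hj : jBar (ℓ * M) ∈ Qb⟮x⟯)
    {ι : Type*} (X : ι → Set (Place Qb (FN (ℓ * M)))) (j₁ j₂ : ι)
    (hX₁ : ∀ v ∈ X j₁, v.ord x < 0) (hX₂ : ∀ v ∈ X j₂, 0 < v.ord x) (n : ℕ) (hn : ¬ ℓ ∣ n) :
    ∀ h : FN (ℓ * M), IsKummer Qb n h → (gpRing A (ℓ * M)).valuation (h - 1) < 1 →
      (gpRingW A (ℓ * M) (Fermat.Agent.S35.helper1928.wAL ℓ M hℓM)).valuation (h - 1) < 1 →
      (∀ j, ∃ a ∈ Fermat.Agent.S35.helper2423.chartLat Qb (gpRing A (ℓ * M))
          (gpRingW A (ℓ * M) (Fermat.Agent.S35.helper1928.wAL ℓ M hℓM)) (X j) n h,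
        (gpRing A (ℓ * M)).valuation (a - 1) < 1 ∧
        (gpRingW A (ℓ * M) (Fermat.Agent.S35.helper1928.wAL ℓ M hℓM)).valuation (a - 1) < 1) →
      ∃ w c : FN (ℓ * M), w ≠ 0 ∧ c ≠ 0 ∧ (∀ v : Place Qb (FN (ℓ * M)), v.ord c = 0) ∧
        h = c * w ^ n := by
  have hℓ : ℓ.Prime := Fact.out
  have : NeZero (ℓ * M) := ⟨Nat.mul_ne_zero hℓ.ne_zero (NeZero.ne M)⟩
  have : FiniteDimensional Qb⟮jBar (ℓ * M)⟯ (FN (ℓ * M)) :=
    (Fermat.Agent.S24.helper504.stmt_JFinrank (ℓ * M)).1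
  have : FiniteDimensional Qb⟮x⟯ (FN (ℓ * M)) :=
    finiteDimensional_adjoin_of_mem (jBar (ℓ * M)) x hj
  exact hKC_ratBar A hℓ hA (gpRing A (ℓ * M))
    (gpRingW A (ℓ * M) (Fermat.Agent.S35.helper1928.wAL ℓ M hℓM)) x (gpRing_comap A _)
    (gpRingW_comap A _ _) hx₁ hx₂ (gp_hT4 ℓ M hℓM A hA x hj) (gpRing_exists_const A _)
    (gpRingW_exists_const A _ _) X j₁ j₂ hX₁ hX₂ n hn

end Final

end Fermat.Agent.S35.helper2459
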