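/-
helper541 — abstract algebra bricks for the "semistable Kummer core"
(module (2)(b),(c) of route #2739 / #2780; feeds (UNI) for S34 and clause 2 of S35).
Mathlib only, spec-independent.

* `surjective_of_linearIndependent` : finitely many independent functionals are jointly onto.
* `exists_glueing_constants` (C) : a subspace `M` of small codimension on which
  `f_b(x)^n = g_b(x)^n` at every node `b` is cut out by `g_b = c_b • f_b` with `c_b^n = 1`.
* `mem_of_constant_on_classes`, `mem_iff_forall_node`, `finrank_quotient_eq_card_nodeSet` (B) :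
  a subalgebra `R ⊆ B₁ × B₂` with both projections onto and containing a conductor `J₁ × J₂`
  of finitely many `k`-points is the glueing of `B₁` and `B₂` along finitely many node pairs,
  and its codimension is the number of nodes.
* `exists_glueing_constants_of_nodes`, `exists_glueing_constants_filtered` : (C) on `B₁ × B₂`
  and on a finite-dimensional piece.
* `glueing_constants_mul`, `eq_toSubmodule_of_constants_eq_one`, `glueing_constants_transport`,
  `glueing_constants_semilinear(_of_nodes)`, `glueing_constants_swap(_of_nodes)`,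
  `glueing_constants_twist_of_nodes` : calculus and functoriality of the constants.
-/
import Mathlib

set_option autoImplicit false

namespace Fermat.Agent.S35.helper541

open Module

section Functionals

variable {k : Type*} [Field k] {X : Type*} [AddCommGroup X] [Module k X]

/-- Finitely many linearly independent functionals are jointly surjective. -/
theorem surjective_of_linearIndependent {ι : Type*} [Finite ι] (ℓ : ι → Module.Dual k X)
    (h : LinearIndependent k ℓ) : Function.Surjective (fun x : X => fun i => ℓ i x) := by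
  classical
  cases nonempty_fintype ι
  let T : X →ₗ[k] (ι → k) := LinearMap.pi ℓ
  have hT : LinearMap.range T = ⊤ := by
    by_contra hne
    obtain ⟨φ, hφ, hle⟩ :=
      (LinearMap.range T).exists_le_ker_of_lt_top (lt_top_iff_ne_top.mpr hne)
    have hsum : ∑ i, (φ fun j => if i = j then 1 else 0) • ℓ i = 0 := by
      ext x
      have h0 : φ (T x) = 0 := hle ⟨x, rfl⟩
      rw [LinearMap.pi_apply_eq_sum_univ φ (T x)] at h0
      rw [LinearMap.sum_apply, LinearMap.zero_apply]
      refine Eq.trans (Finset.sum_congr rfl fun i _ => ?_) h0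
      simp only [T, LinearMap.pi_apply, LinearMap.smul_apply, smul_eq_mul]
      rw [mul_comm]
    have hz := Fintype.linearIndependent_iff.mp h _ hsum
    apply hφ
    refine LinearMap.ext fun x => ?_
    rw [LinearMap.pi_apply_eq_sum_univ φ x, LinearMap.zero_apply]
    exact Finset.sum_eq_zero fun i _ => by rw [hz i, smul_zero]
  intro v
  have hv : v ∈ LinearMap.range T := by rw [hT]; trivial
  obtain ⟨x, hx⟩ := hv
  exact ⟨x, hx⟩

/-- Converse of `surjective_of_linearIndependent`. -/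
theorem linearIndependent_of_surjective {ι : Type*} [Finite ι] (ℓ : ι → Module.Dual k X)
    (h : Function.Surjective (fun x : X => fun i => ℓ i x)) : LinearIndependent k ℓ := by
  classical
  cases nonempty_fintype ι
  rw [Fintype.linearIndependent_iff]
  intro a ha i
  obtain ⟨x, hx⟩ := h (Pi.single i 1)
  have h0 := congrArg (fun F : Module.Dual k X => F x) ha
  simp only [LinearMap.sum_apply, LinearMap.smul_apply, LinearMap.zero_apply, smul_eq_mul] at h0
  rw [Finset.sum_eq_single i] at h0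
  · have hi : ℓ i x = 1 := by
      have := congrFun hx i
      simpa using this
    rw [hi, mul_one] at h0
    exact h0
  · intro j _ hj
    have hj' : ℓ j x = 0 := by
      have := congrFun hx j
      simpa [Pi.single_eq_of_ne hj] using this
    rw [hj', mul_zero]
  · intro hi
    exact absurd (Finset.mem_univ i) hi

/-- If the `2δ` functionals `f b, g b` are independent, so are the `δ` functionals
`g b - c b • f b`. -/
theorem linearIndependent_sub_smul {ι : Type*} [Fintype ι] (f g : ι → Module.Dual k X)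
    (hind : LinearIndependent k (Sum.elim f g)) (c : ι → k) :
    LinearIndependent k (fun b => g b - c b • f b) := by
  rw [Fintype.linearIndependent_iff]
  intro a ha
  have hind' := Fintype.linearIndependent_iff.mp hind
    (Sum.elim (fun b => - (a b * c b)) a)
  have hsum : ∑ i, Sum.elim (fun b => - (a b * c b)) a i • Sum.elim f g i = 0 := by
    rw [Fintype.sum_sum_type]
    simp only [Sum.elim_inl, Sum.elim_inr]
    rw [← Finset.sum_add_distrib, ← ha]
    refine Finset.sum_congr rfl fun b _ => ?_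
    module
  intro b
  exact hind' hsum (Sum.inr b)

/-- **(C) Glueing constants.**  Let `f b, g b` (`b` in a finite type of "nodes") be `2δ` linearly
independent functionals on `X`, and `M` a subspace of codimension `≤ δ` on which
`f b x ^ n = g b x ^ n` for every node.  Then there are constants `c b` with `c b ^ n = 1` such
that `M` is exactly the subspace cut out by the `δ` conditions `g b x = c b * f b x`.
(In particular no node is a base point and no node is "full".) -/
theorem exists_glueing_constants {ι : Type*} [Fintype ι] (f g : ι → Module.Dual k X)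
    (hind : LinearIndependent k (Sum.elim f g))
    (M : Submodule k X) {n : ℕ} (hn : n ≠ 0)
    (hpow : ∀ x ∈ M, ∀ b, f b x ^ n = g b x ^ n)
    [Module.Finite k (X ⧸ M)]
    (hcodim : Module.finrank k (X ⧸ M) ≤ Fintype.card ι) :
    ∃ c : ι → k, (∀ b, c b ^ n = 1) ∧ ∀ x, x ∈ M ↔ ∀ b, g b x = c b * f b x := by
  classical
  -- step 1: the constants
  have key : ∀ b, ∃ c : k, c ^ n = 1 ∧ ∀ x ∈ M, g b x = c * f b x := by
    intro b
    by_cases hb : ∃ x ∈ M, f b x ≠ 0
    · obtain ⟨x, hxM, hx⟩ := hb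
      refine ⟨g b x / f b x, ?_, ?_⟩
      · rw [div_pow, ← hpow x hxM b, div_self (pow_ne_zero n hx)]
      · intro y hy
        have hz : y - (f b y / f b x) • x ∈ M := M.sub_mem hy (M.smul_mem _ hxM)
        have h1 : f b (y - (f b y / f b x) • x) = 0 := by
          rw [map_sub, map_smul, smul_eq_mul, div_mul_cancel₀ _ hx, sub_self]
        have h2 := hpow _ hz b
        rw [h1, zero_pow hn] at h2
        have h3 : g b (y - (f b y / f b x) • x) = 0 := (pow_eq_zero_iff hn).mp h2.symm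
        rw [map_sub, map_smul, smul_eq_mul, sub_eq_zero] at h3
        rw [h3]
        field_simp
    · have hb : ∀ x ∈ M, f b x = 0 := fun x hx => by
        by_contra h
        exact hb ⟨x, hx, h⟩
      refine ⟨1, one_pow n, fun x hx => ?_⟩
      have h2 := hpow x hx b
      rw [hb x hx, zero_pow hn] at h2
      rw [hb x hx, mul_zero]
      exact (pow_eq_zero_iff hn).mp h2.symm
  choose c hc1 hc2 using key
  refine ⟨c, hc1, fun x => ⟨fun hx b => hc2 b x hx, fun hx => ?_⟩⟩
  -- step 2: the dimension count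
  let ℓ : ι → Module.Dual k X := fun b => g b - c b • f b
  have hℓ : LinearIndependent k ℓ := linearIndependent_sub_smul f g hind c
  let T : X →ₗ[k] (ι → k) := LinearMap.pi ℓ
  have hTsurj : Function.Surjective T := surjective_of_linearIndependent ℓ hℓ
  have hMker : M ≤ LinearMap.ker T := by
    intro y hy
    rw [LinearMap.mem_ker]
    ext b
    simp only [T, ℓ, LinearMap.pi_apply, LinearMap.sub_apply, LinearMap.smul_apply, smul_eq_mul,
      Pi.zero_apply]
    rw [hc2 b y hy, sub_self]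
  let T' : (X ⧸ M) →ₗ[k] (ι → k) := M.liftQ T hMker
  have hT'surj : Function.Surjective T' := by
    intro v
    obtain ⟨y, hy⟩ := hTsurj v
    exact ⟨Submodule.Quotient.mk y, by simpa [T'] using hy⟩
  have hfin : Module.finrank k (X ⧸ M) = Module.finrank k (ι → k) := by
    refine le_antisymm ?_ (LinearMap.finrank_le_finrank_of_surjective hT'surj)
    rw [Module.finrank_fintype_fun_eq_card]
    exact hcodim
  have hT'inj : Function.Injective T' :=
    (LinearMap.injective_iff_surjective_of_finrank_eq_finrank hfin).mpr hT'surj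
  have hx0 : T' (Submodule.Quotient.mk x) = 0 := by
    ext b
    simp only [T', Submodule.liftQ_apply, T, ℓ, LinearMap.pi_apply, LinearMap.sub_apply,
      LinearMap.smul_apply, smul_eq_mul, Pi.zero_apply]
    rw [hx b, sub_self]
  have := hT'inj (hx0.trans (map_zero T').symm)
  exact (Submodule.Quotient.mk_eq_zero M).mp this

/-- In the situation of `exists_glueing_constants` the constants are unique, and `M` has a
section with prescribed values at the nodes: for every `v` there is `x ∈ M` with `f b x = v b`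
(and hence `g b x = c b * v b`) for all `b`. -/
theorem exists_mem_with_values {ι : Type*} [Fintype ι] (f g : ι → Module.Dual k X)
    (hind : LinearIndependent k (Sum.elim f g)) (M : Submodule k X) (c : ι → k)
    (hM : ∀ x, x ∈ M ↔ ∀ b, g b x = c b * f b x) (v : ι → k) :
    ∃ x ∈ M, ∀ b, f b x = v b := by
  obtain ⟨x, hx⟩ := surjective_of_linearIndependent (Sum.elim f g) hind
    (Sum.elim v fun b => c b * v b)
  have h1 : ∀ b, f b x = v b := fun b => congrFun hx (Sum.inl b)
  have h2 : ∀ b, g b x = c b * v b := fun b => congrFun hx (Sum.inr b)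
  exact ⟨x, (hM x).mpr fun b => by rw [h2 b, h1 b], h1⟩

theorem glueing_constants_unique {ι : Type*} [Fintype ι] (f g : ι → Module.Dual k X)
    (hind : LinearIndependent k (Sum.elim f g)) (M : Submodule k X) (c c' : ι → k)
    (hM : ∀ x, x ∈ M ↔ ∀ b, g b x = c b * f b x)
    (hM' : ∀ x ∈ M, ∀ b, g b x = c' b * f b x) : c = c' := by
  funext b
  obtain ⟨x, hxM, hx⟩ := exists_mem_with_values f g hind M c hM (fun _ => 1)
  have h1 := (hM x).mp hxM b
  have h2 := hM' x hxM b
  rw [hx b, mul_one] at h1 h2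
  rw [← h1, ← h2]

/-- **Transport of the glueing constants (FROB-GLUE).**  Let `M`, `M'` be glued subspaces with
constants `c`, `c'`, and let `Θ` be any map with `Θ M ⊆ M'` which moves the node `b` to the node
`π b`, acting on the two fibres through a ring endomorphism `θ` of `k` up to scalars `u b`, `w b`.
Then `c' (π b) * u b = w b * θ (c b)`.
(Semilinear automorphisms permuting the nodes: `u = w = 1`; `θ = id`, `Θ = id` for inertia;
`θ = Frobenius ^ 2`, `π = id` at `θ`-rational nodes; twist by `(1, z)`: `u = 1`, `w = z`.) -/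
theorem glueing_constants_transport {ι : Type*} [Fintype ι] (f g : ι → Module.Dual k X)
    (hind : LinearIndependent k (Sum.elim f g)) (M M' : Submodule k X) (c c' : ι → k)
    (hM : ∀ x, x ∈ M ↔ ∀ b, g b x = c b * f b x)
    (hM' : ∀ x ∈ M', ∀ b, g b x = c' b * f b x)
    (θ : k →+* k) (Θ : X → X) (π : ι → ι) (u w : ι → k)
    (hf : ∀ b, ∀ x ∈ M, f (π b) (Θ x) = u b * θ (f b x))
    (hg : ∀ b, ∀ x ∈ M, g (π b) (Θ x) = w b * θ (g b x))
    (hΘ : ∀ x ∈ M, Θ x ∈ M') (b : ι) : c' (π b) * u b = w b * θ (c b) := by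
  obtain ⟨x, hxM, hx⟩ := exists_mem_with_values f g hind M c hM (fun _ => 1)
  have h1 := (hM x).mp hxM b
  have h2 := hM' (Θ x) (hΘ x hxM) (π b)
  rw [hf b x hxM, hg b x hxM, h1, hx b, mul_one, map_one, mul_one] at h2
  exact h2.symm

/-- Semilinear form of `glueing_constants_transport`: `c' (π b) = θ (c b)`. -/
theorem glueing_constants_semilinear {ι : Type*} [Fintype ι] (f g : ι → Module.Dual k X)
    (hind : LinearIndependent k (Sum.elim f g)) (M M' : Submodule k X) (c c' : ι → k)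
    (hM : ∀ x, x ∈ M ↔ ∀ b, g b x = c b * f b x)
    (hM' : ∀ x ∈ M', ∀ b, g b x = c' b * f b x)
    (θ : k →+* k) (Θ : X → X) (π : ι → ι)
    (hf : ∀ b, ∀ x ∈ M, f (π b) (Θ x) = θ (f b x))
    (hg : ∀ b, ∀ x ∈ M, g (π b) (Θ x) = θ (g b x))
    (hΘ : ∀ x ∈ M, Θ x ∈ M') (b : ι) : c' (π b) = θ (c b) := by
  have h := glueing_constants_transport f g hind M M' c c' hM hM' θ Θ π (fun _ => 1) (fun _ => 1)
    (fun b x hx => by rw [one_mul]; exact hf b x hx)
    (fun b x hx => by rw [one_mul]; exact hg b x hx) hΘ b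
  rw [mul_one, one_mul] at h
  exact h

/-- **Swap form** (for an involution exchanging the two components, e.g. Atkin–Lehner):
if `Θ` exchanges the two fibres at the node `b ↦ π b`, then `c' (π b) * c b = 1`. -/
theorem glueing_constants_swap {ι : Type*} [Fintype ι] (f g : ι → Module.Dual k X)
    (hind : LinearIndependent k (Sum.elim f g)) (M M' : Submodule k X) (c c' : ι → k)
    (hM : ∀ x, x ∈ M ↔ ∀ b, g b x = c b * f b x)
    (hM' : ∀ x ∈ M', ∀ b, g b x = c' b * f b x)
    (θ : k →+* k) (Θ : X → X) (π : ι → ι)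
    (hf : ∀ b, ∀ x ∈ M, f (π b) (Θ x) = θ (g b x))
    (hg : ∀ b, ∀ x ∈ M, g (π b) (Θ x) = θ (f b x))
    (hΘ : ∀ x ∈ M, Θ x ∈ M') (b : ι) : c' (π b) * θ (c b) = 1 := by
  obtain ⟨x, hxM, hx⟩ := exists_mem_with_values f g hind M c hM (fun _ => 1)
  have h1 := (hM x).mp hxM b
  have h2 := hM' (Θ x) (hΘ x hxM) (π b)
  rw [hf b x hxM, hg b x hxM, h1, hx b, mul_one, map_one] at h2
  exact h2.symm

/-- **Codimension from a filtration.**  If `Y` is exhausted by an increasing sequence of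
finite-dimensional pieces `X n` with `dim (X n) ≤ dim (M ∩ X n) + δ` for all `n`, then `Y ⧸ M` is
finite-dimensional of dimension `≤ δ`.  (This is how the hypothesis `hcodim` of
`exists_glueing_constants(_of_nodes)` is obtained from Riemann-type counts at finite level:
`X n = L(n E̅) × L(n E̅)`, `M` the reduction of a lattice, `M ∩ X n ⊇` its level-`n` part.) -/
theorem finite_quotient_of_filtration {Y : Type*} [AddCommGroup Y] [Module k Y]
    (M : Submodule k Y) (X : ℕ → Submodule k Y) (hmono : Monotone X)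
    (hcov : ∀ y, ∃ n, y ∈ X n) [∀ n, Module.Finite k (X n)] (δ : ℕ)
    (hdim : ∀ n, Module.finrank k (X n) ≤ Module.finrank k (M ⊓ X n : Submodule k Y) + δ) :
    Module.Finite k (Y ⧸ M) ∧ Module.finrank k (Y ⧸ M) ≤ δ := by
  classical
  let Q : ℕ → Submodule k (Y ⧸ M) := fun n => (X n).map M.mkQ
  have hQmono : Monotone Q := fun a b hab => Submodule.map_mono (hmono hab)
  have hQdim : ∀ n, Module.finrank k (Q n) ≤ δ := by
    intro n
    let f : X n →ₗ[k] (Y ⧸ M) := M.mkQ.comp (X n).subtype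
    have hrange : LinearMap.range f = Q n := by
      simp only [f, Q, LinearMap.range_comp, Submodule.range_subtype]
    have hker : LinearMap.ker f = (M ⊓ X n).comap (X n).subtype := by
      ext x
      simp only [f, LinearMap.mem_ker, LinearMap.comp_apply, Submodule.subtype_apply,
        Submodule.mkQ_apply, Submodule.Quotient.mk_eq_zero, Submodule.mem_comap,
        Submodule.mem_inf, x.2, and_true]
    have h1 := LinearMap.finrank_range_add_finrank_ker f
    have h2 : Module.finrank k (LinearMap.ker f) =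
        Module.finrank k (M ⊓ X n : Submodule k Y) := by
      rw [hker]
      exact LinearEquiv.finrank_eq (Submodule.comapSubtypeEquivOfLe inf_le_right)
    rw [hrange] at h1
    have := hdim n
    omega
  have hall : ∀ s : Finset (Y ⧸ M), ∃ N, ∀ q ∈ s, q ∈ Q N := by
    intro s
    induction s using Finset.induction_on with
    | empty => exact ⟨0, fun q hq => absurd hq (Finset.notMem_empty q)⟩
    | insert a s ha ih =>
      obtain ⟨N, hN⟩ := ih
      obtain ⟨y, rfl⟩ := M.mkQ_surjective a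
      obtain ⟨n, hn⟩ := hcov y
      refine ⟨max N n, fun q hq => ?_⟩
      rcases Finset.mem_insert.mp hq with rfl | hq
      · exact hQmono (le_max_right N n) (Submodule.mem_map_of_mem hn)
      · exact hQmono (le_max_left N n) (hN q hq)
  have hrank : Module.rank k (Y ⧸ M) ≤ δ := by
    apply rank_le
    intro s hs
    obtain ⟨N, hN⟩ := hall s
    have hli : LinearIndependent k (fun i : s => (⟨i.1, hN i.1 i.2⟩ : Q N)) := by
      apply LinearIndependent.of_comp (Q N).subtype
      exact hs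
    have := hli.fintype_card_le_finrank
    rw [Fintype.card_coe] at this
    exact this.trans (hQdim N)
  have hfin : Module.Finite k (Y ⧸ M) :=
    Module.rank_lt_aleph0_iff.mp (lt_of_le_of_lt hrank Cardinal.natCast_lt_aleph0)
  refine ⟨hfin, ?_⟩
  have h := Module.finrank_eq_rank k (Y ⧸ M)
  rw [← h] at hrank
  exact_mod_cast hrank


end Functionals

section Separation

variable {k : Type*} [Field k] {A : Type*} [CommRing A] [Algebra k A]

/-- For a subalgebra `R` and a finite set `E` of `k`-points, there is `u ∈ R` taking the value `1`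
at `e` and `0` at every point of `E` that `R` separates from `e`. -/
theorem exists_separator (R : Subalgebra k A) (E : Finset (A →ₐ[k] k)) (e : A →ₐ[k] k) :
    ∃ u ∈ R, e u = 1 ∧ ∀ e' ∈ E, (¬ ∀ r ∈ R, e' r = e r) → e' u = 0 := by
  classical
  let r : (A →ₐ[k] k) → A := fun e' =>
    if h : ∃ r ∈ R, e' r ≠ e r then h.choose else 0
  have hrR : ∀ e', r e' ∈ R := by
    intro e'
    simp only [r]
    split_ifs with h
    · exact h.choose_spec.1
    · exact R.zero_mem
  have hrne : ∀ e', (¬ ∀ r ∈ R, e' r = e r) → e' (r e') ≠ e (r e') := by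
    intro e' he'
    have h : ∃ r ∈ R, e' r ≠ e r := by
      by_contra hcon
      exact he' fun r hr => by
        by_contra hne
        exact hcon ⟨r, hr, hne⟩
    simp only [r, dif_pos h]
    exact h.choose_spec.2
  let F : Finset (A →ₐ[k] k) := E.filter fun e' => ¬ ∀ r ∈ R, e' r = e r
  let fac : (A →ₐ[k] k) → A := fun e' =>
    (r e' - algebraMap k A (e' (r e'))) * algebraMap k A ((e (r e') - e' (r e'))⁻¹)
  refine ⟨∏ e' ∈ F, fac e', ?_, ?_, ?_⟩
  · refine Subalgebra.prod_mem R fun e' _ => ?_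
    exact R.mul_mem (R.sub_mem (hrR e') (R.algebraMap_mem _)) (R.algebraMap_mem _)
  · rw [map_prod]
    refine Finset.prod_eq_one fun e' he' => ?_
    have hne : e (r e') - e' (r e') ≠ 0 :=
      sub_ne_zero.mpr (Ne.symm (hrne e' (Finset.mem_filter.mp he').2))
    simp only [fac, map_mul, map_sub, AlgHom.commutes, Algebra.algebraMap_self_apply]
    exact mul_inv_cancel₀ hne
  · intro e' he'E he'
    rw [map_prod]
    refine Finset.prod_eq_zero (Finset.mem_filter.mpr ⟨he'E, he'⟩) ?_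
    simp only [fac, map_mul, map_sub, AlgHom.commutes, Algebra.algebraMap_self_apply, sub_self,
      zero_mul]

/-- **(B₀)**  Let `R` be a subalgebra of `A` containing the common kernel of a finite set `E` of
`k`-points.  Then `R` consists exactly of the elements that are constant on the classes of the
relation "`R` does not separate `e` and `e'`" on `E`. -/
theorem mem_of_constant_on_classes (R : Subalgebra k A) (E : Finset (A →ₐ[k] k))
    (hJ : ∀ x : A, (∀ e ∈ E, e x = 0) → x ∈ R) (x : A)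
    (hx : ∀ e ∈ E, ∀ e' ∈ E, (∀ r ∈ R, e' r = e r) → e' x = e x) : x ∈ R := by
  classical
  suffices H : ∀ (m : ℕ) (x : A), (E.filter fun e => e x ≠ 0).card = m →
      (∀ e ∈ E, ∀ e' ∈ E, (∀ r ∈ R, e' r = e r) → e' x = e x) → x ∈ R from H _ x rfl hx
  intro m
  induction m using Nat.strong_induction_on with
  | _ m ih =>
    intro x hm hx
    by_cases h0 : ∀ e ∈ E, e x = 0
    · exact hJ x h0
    · have h0' : ∃ e ∈ E, e x ≠ 0 := by
        by_contra hcon
        exact h0 fun e he => by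
          by_contra hne
          exact hcon ⟨e, he, hne⟩
      obtain ⟨e, heE, hex⟩ := h0'
      obtain ⟨u, huR, hu1, hu0⟩ := exists_separator R E e
      have hval : ∀ e' ∈ E, e' (x - algebraMap k A (e x) * u) =
          if (∀ r ∈ R, e' r = e r) then 0 else e' x := by
        intro e' he'
        split_ifs with h
        · rw [map_sub, map_mul, AlgHom.commutes, Algebra.algebraMap_self_apply, h u huR, hu1,
            mul_one, hx e heE e' he' h, sub_self]
        · rw [map_sub, map_mul, AlgHom.commutes, Algebra.algebraMap_self_apply, hu0 e' he' h,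
            mul_zero, sub_zero]
      have hsub : (E.filter fun e' => e' (x - algebraMap k A (e x) * u) ≠ 0) ⊂
          (E.filter fun e' => e' x ≠ 0) := by
        refine Finset.ssubset_iff_subset_ne.mpr ⟨?_, ?_⟩
        · intro e' he'
          rw [Finset.mem_filter] at he' ⊢
          refine ⟨he'.1, ?_⟩
          have := he'.2
          rw [hval e' he'.1] at this
          split_ifs at this with h
          · exact absurd rfl this
          · exact this
        · intro heq
          have hmem : e ∈ E.filter fun e' => e' x ≠ 0 := Finset.mem_filter.mpr ⟨heE, hex⟩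
          rw [← heq, Finset.mem_filter, hval e heE, if_pos fun _ _ => rfl] at hmem
          exact hmem.2 rfl
      have hx'R : x - algebraMap k A (e x) * u ∈ R := by
        refine ih _ (hm ▸ Finset.card_lt_card hsub) _ rfl ?_
        intro e₁ he₁ e₂ he₂ h12
        rw [map_sub, map_sub, map_mul, map_mul, hx e₁ he₁ e₂ he₂ h12, h12 u huR,
          AlgHom.commutes, AlgHom.commutes]
      have hxeq : x = (x - algebraMap k A (e x) * u) + algebraMap k A (e x) * u := by ring
      rw [hxeq]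
      exact R.add_mem hx'R (R.mul_mem (R.algebraMap_mem _) huR)

end Separation

section Nodes

variable {k : Type*} [Field k] {B₁ B₂ : Type*} [CommRing B₁] [CommRing B₂]
  [Algebra k B₁] [Algebra k B₂]

/-- A pair of `k`-points `(φ, ψ)` of `B₁`, `B₂` is a *node* of the subalgebra `R ⊆ B₁ × B₂` if
every element of `R` takes the same value at `φ` and at `ψ`. -/
def IsNode (R : Subalgebra k (B₁ × B₂)) (p : (B₁ →ₐ[k] k) × (B₂ →ₐ[k] k)) : Prop :=
  ∀ r ∈ R, p.1 r.1 = p.2 r.2

/-- The nodes of `R` among `S₁ × S₂`. -/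
noncomputable def nodeSet (R : Subalgebra k (B₁ × B₂)) (S₁ : Finset (B₁ →ₐ[k] k))
    (S₂ : Finset (B₂ →ₐ[k] k)) : Finset ((B₁ →ₐ[k] k) × (B₂ →ₐ[k] k)) := by
  classical
  exact (S₁ ×ˢ S₂).filter fun p => IsNode R p

theorem mem_nodeSet {R : Subalgebra k (B₁ × B₂)} {S₁ : Finset (B₁ →ₐ[k] k)}
    {S₂ : Finset (B₂ →ₐ[k] k)} {p : (B₁ →ₐ[k] k) × (B₂ →ₐ[k] k)} :
    p ∈ nodeSet R S₁ S₂ ↔ p.1 ∈ S₁ ∧ p.2 ∈ S₂ ∧ IsNode R p := by
  classical
  simp only [nodeSet, Finset.mem_filter, Finset.mem_product, and_assoc]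

/-- If the first projection of `R` is onto, a node is determined by its second component
(a point of `B₂` is glued to at most one point of `B₁`). -/
theorem node_fst_unique {R : Subalgebra k (B₁ × B₂)} (hfst : ∀ a : B₁, ∃ r ∈ R, r.1 = a)
    {p p' : (B₁ →ₐ[k] k) × (B₂ →ₐ[k] k)} (hp : IsNode R p) (hp' : IsNode R p')
    (h : p.2 = p'.2) : p = p' := by
  refine Prod.ext (AlgHom.ext fun a => ?_) h
  obtain ⟨r, hr, rfl⟩ := hfst a
  rw [hp r hr, hp' r hr, h]

/-- If the second projection of `R` is onto, a node is determined by its first component. -/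
theorem node_snd_unique {R : Subalgebra k (B₁ × B₂)} (hsnd : ∀ b : B₂, ∃ r ∈ R, r.2 = b)
    {p p' : (B₁ →ₐ[k] k) × (B₂ →ₐ[k] k)} (hp : IsNode R p) (hp' : IsNode R p')
    (h : p.1 = p'.1) : p = p' := by
  refine Prod.ext h (AlgHom.ext fun b => ?_)
  obtain ⟨r, hr, rfl⟩ := hsnd b
  rw [← hp r hr, ← hp' r hr, h]

/-- **(B) Nodal description.**  Let `R ⊆ B₁ × B₂` be a `k`-subalgebra whose two projections are
onto, and which contains the conductor `J₁ × J₂`, where `J_i` is the common kernel of a finite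
set `S_i` of `k`-points of `B_i`.  Then `R` is the glueing of `B₁` and `B₂` along its nodes:
`x ∈ R ↔ φ x.1 = ψ x.2` for every node `(φ, ψ) ∈ S₁ × S₂`. -/
theorem mem_iff_forall_node (R : Subalgebra k (B₁ × B₂))
    (S₁ : Finset (B₁ →ₐ[k] k)) (S₂ : Finset (B₂ →ₐ[k] k))
    (hfst : ∀ a : B₁, ∃ r ∈ R, r.1 = a) (hsnd : ∀ b : B₂, ∃ r ∈ R, r.2 = b)
    (hJ : ∀ x : B₁ × B₂, (∀ φ ∈ S₁, φ x.1 = 0) → (∀ ψ ∈ S₂, ψ x.2 = 0) → x ∈ R)
    (x : B₁ × B₂) : x ∈ R ↔ ∀ p ∈ nodeSet R S₁ S₂, p.1 x.1 = p.2 x.2 := by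
  classical
  refine ⟨fun hx p hp => (mem_nodeSet.mp hp).2.2 x hx, fun hx => ?_⟩
  let E : Finset ((B₁ × B₂) →ₐ[k] k) :=
    S₁.image (fun φ => φ.comp (AlgHom.fst k B₁ B₂)) ∪
      S₂.image (fun ψ => ψ.comp (AlgHom.snd k B₁ B₂))
  have hE : ∀ e ∈ E, (∃ φ ∈ S₁, e = φ.comp (AlgHom.fst k B₁ B₂)) ∨
      (∃ ψ ∈ S₂, e = ψ.comp (AlgHom.snd k B₁ B₂)) := by
    intro e he
    rcases Finset.mem_union.mp he with h | h
    · obtain ⟨φ, hφ, rfl⟩ := Finset.mem_image.mp h
      exact Or.inl ⟨φ, hφ, rfl⟩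
    · obtain ⟨ψ, hψ, rfl⟩ := Finset.mem_image.mp h
      exact Or.inr ⟨ψ, hψ, rfl⟩
  refine mem_of_constant_on_classes R E (fun y hy => hJ y (fun φ hφ => ?_) (fun ψ hψ => ?_)) x ?_
  · exact hy _ (Finset.mem_union_left _ (Finset.mem_image_of_mem _ hφ))
  · exact hy _ (Finset.mem_union_right _ (Finset.mem_image_of_mem _ hψ))
  · intro e he e' he' hee'
    rcases hE e he with ⟨φ, hφ, rfl⟩ | ⟨ψ, hψ, rfl⟩ <;>
      rcases hE e' he' with ⟨φ', hφ', rfl⟩ | ⟨ψ', hψ', rfl⟩
    · -- two points of `B₁`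
      have : φ' = φ := AlgHom.ext fun a => by
        obtain ⟨r, hr, rfl⟩ := hfst a
        exact hee' r hr
      rw [this]
    · -- `e = φ ∘ fst`, `e' = ψ' ∘ snd`
      have hnode : (φ, ψ') ∈ nodeSet R S₁ S₂ :=
        mem_nodeSet.mpr ⟨hφ, hψ', fun r hr => (hee' r hr).symm⟩
      exact (hx _ hnode).symm
    · -- `e = ψ ∘ snd`, `e' = φ' ∘ fst`
      have hnode : (φ', ψ) ∈ nodeSet R S₁ S₂ :=
        mem_nodeSet.mpr ⟨hφ', hψ, fun r hr => hee' r hr⟩
      exact hx _ hnode
    · -- two points of `B₂`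
      have : ψ' = ψ := AlgHom.ext fun b => by
        obtain ⟨r, hr, rfl⟩ := hsnd b
        exact hee' r hr
      rw [this]

/-- The `2δ` evaluation functionals at a finite family of node pairs which is injective in each
coordinate are linearly independent on `B₁ × B₂`. -/
theorem linearIndependent_nodes {ι : Type*} (φ : ι → (B₁ →ₐ[k] k)) (ψ : ι → (B₂ →ₐ[k] k))
    (hφ : Function.Injective φ) (hψ : Function.Injective ψ) :
    LinearIndependent k (Sum.elim
      (fun b => ((φ b).toLinearMap.comp (LinearMap.fst k B₁ B₂) : Module.Dual k (B₁ × B₂)))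
      (fun b => ((ψ b).toLinearMap.comp (LinearMap.snd k B₁ B₂) : Module.Dual k (B₁ × B₂)))) := by
  classical
  have h1 : LinearIndependent k (fun b => (φ b).toLinearMap) :=
    (linearIndependent_toLinearMap k B₁ k).comp φ hφ
  have h2 : LinearIndependent k (fun b => (ψ b).toLinearMap) :=
    (linearIndependent_toLinearMap k B₂ k).comp ψ hψ
  rw [linearIndependent_iff'] at h1 h2 ⊢
  intro s a ha
  -- split the finite set `s` of `ι ⊕ ι`
  have hL : ∑ i ∈ s.toLeft, a (Sum.inl i) • (φ i).toLinearMap = 0 := by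
    refine LinearMap.ext fun y => ?_
    have := congrArg (fun F : Module.Dual k (B₁ × B₂) => F (y, 0)) ha
    simp only [LinearMap.zero_apply] at this
    rw [← Finset.toLeft_disjSum_toRight (u := s), Finset.sum_disjSum] at this
    simp only [Sum.elim_inl, Sum.elim_inr, LinearMap.add_apply, LinearMap.sum_apply,
      LinearMap.smul_apply, LinearMap.comp_apply, LinearMap.fst_apply, LinearMap.snd_apply,
      map_zero, smul_zero, Finset.sum_const_zero, add_zero] at this
    simpa only [LinearMap.sum_apply, LinearMap.smul_apply, LinearMap.zero_apply] using this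
  have hR : ∑ i ∈ s.toRight, a (Sum.inr i) • (ψ i).toLinearMap = 0 := by
    refine LinearMap.ext fun y => ?_
    have := congrArg (fun F : Module.Dual k (B₁ × B₂) => F (0, y)) ha
    simp only [LinearMap.zero_apply] at this
    rw [← Finset.toLeft_disjSum_toRight (u := s), Finset.sum_disjSum] at this
    simp only [Sum.elim_inl, Sum.elim_inr, LinearMap.add_apply, LinearMap.sum_apply,
      LinearMap.smul_apply, LinearMap.comp_apply, LinearMap.fst_apply, LinearMap.snd_apply,
      map_zero, smul_zero, Finset.sum_const_zero, zero_add] at this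
    simpa only [LinearMap.sum_apply, LinearMap.smul_apply, LinearMap.zero_apply] using this
  rintro (i | i) hi
  · exact h1 s.toLeft (fun i => a (Sum.inl i)) hL i (Finset.mem_toLeft.mpr hi)
  · exact h2 s.toRight (fun i => a (Sum.inr i)) hR i (Finset.mem_toRight.mpr hi)

/-- The evaluation functionals at the nodes of `R` (indexed by the node set) are linearly
independent, provided both projections of `R` are onto. -/
theorem linearIndependent_nodeSet (R : Subalgebra k (B₁ × B₂))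
    (S₁ : Finset (B₁ →ₐ[k] k)) (S₂ : Finset (B₂ →ₐ[k] k))
    (hfst : ∀ a : B₁, ∃ r ∈ R, r.1 = a) (hsnd : ∀ b : B₂, ∃ r ∈ R, r.2 = b) :
    LinearIndependent k (Sum.elim
      (fun b : nodeSet R S₁ S₂ =>
        ((b.1.1).toLinearMap.comp (LinearMap.fst k B₁ B₂) : Module.Dual k (B₁ × B₂)))
      (fun b : nodeSet R S₁ S₂ =>
        ((b.1.2).toLinearMap.comp (LinearMap.snd k B₁ B₂) : Module.Dual k (B₁ × B₂)))) := by
  refine linearIndependent_nodes (fun b : nodeSet R S₁ S₂ => b.1.1)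
    (fun b : nodeSet R S₁ S₂ => b.1.2) ?_ ?_
  · intro b b' h
    exact Subtype.ext (node_snd_unique hsnd (mem_nodeSet.mp b.2).2.2 (mem_nodeSet.mp b'.2).2.2 h)
  · intro b b' h
    exact Subtype.ext (node_fst_unique hfst (mem_nodeSet.mp b.2).2.2 (mem_nodeSet.mp b'.2).2.2 h)

/-- **(B), codimension.**  In the situation of `mem_iff_forall_node`, the codimension of `R` in
`B₁ × B₂` is the number of nodes. -/
theorem finrank_quotient_eq_card_nodeSet (R : Subalgebra k (B₁ × B₂))
    (S₁ : Finset (B₁ →ₐ[k] k)) (S₂ : Finset (B₂ →ₐ[k] k))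
    (hfst : ∀ a : B₁, ∃ r ∈ R, r.1 = a) (hsnd : ∀ b : B₂, ∃ r ∈ R, r.2 = b)
    (hJ : ∀ x : B₁ × B₂, (∀ φ ∈ S₁, φ x.1 = 0) → (∀ ψ ∈ S₂, ψ x.2 = 0) → x ∈ R) :
    Module.Finite k ((B₁ × B₂) ⧸ Subalgebra.toSubmodule R) ∧
      Module.finrank k ((B₁ × B₂) ⧸ Subalgebra.toSubmodule R) = (nodeSet R S₁ S₂).card := by
  classical
  let f : nodeSet R S₁ S₂ → Module.Dual k (B₁ × B₂) := fun b =>
    (b.1.1).toLinearMap.comp (LinearMap.fst k B₁ B₂)
  let g : nodeSet R S₁ S₂ → Module.Dual k (B₁ × B₂) := fun b =>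
    (b.1.2).toLinearMap.comp (LinearMap.snd k B₁ B₂)
  have hind : LinearIndependent k (Sum.elim f g) := linearIndependent_nodeSet R S₁ S₂ hfst hsnd
  let ℓ : nodeSet R S₁ S₂ → Module.Dual k (B₁ × B₂) := fun b => g b - (1 : k) • f b
  have hℓ : LinearIndependent k ℓ := linearIndependent_sub_smul f g hind fun _ => 1
  let T : (B₁ × B₂) →ₗ[k] (nodeSet R S₁ S₂ → k) := LinearMap.pi ℓ
  have hTsurj : Function.Surjective T := surjective_of_linearIndependent ℓ hℓ
  have hker : Subalgebra.toSubmodule R = LinearMap.ker T := by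
    ext x
    rw [Subalgebra.mem_toSubmodule, mem_iff_forall_node R S₁ S₂ hfst hsnd hJ x, LinearMap.mem_ker]
    constructor
    · intro hx
      ext b
      simp only [T, ℓ, f, g, LinearMap.pi_apply, LinearMap.sub_apply,
        LinearMap.comp_apply, LinearMap.fst_apply, LinearMap.snd_apply, AlgHom.toLinearMap_apply,
        one_smul, Pi.zero_apply]
      rw [hx b.1 b.2, sub_self]
    · intro hx p hp
      have := congrFun hx ⟨p, hp⟩
      simp only [T, ℓ, f, g, LinearMap.pi_apply, LinearMap.sub_apply,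
        LinearMap.comp_apply, LinearMap.fst_apply, LinearMap.snd_apply, AlgHom.toLinearMap_apply,
        one_smul, Pi.zero_apply] at this
      exact (sub_eq_zero.mp this).symm
  rw [hker]
  let e := T.quotKerEquivOfSurjective hTsurj
  refine ⟨Module.Finite.equiv e.symm, ?_⟩
  rw [LinearEquiv.finrank_eq e, Module.finrank_fintype_fun_eq_card, Fintype.card_coe]

/-- **(B)+(C) on `B₁ × B₂`.**  Let `R` be nodal as in `mem_iff_forall_node` and let `M` be a
`k`-subspace of `B₁ × B₂` of codimension at most the number of nodes such that `x ^ n ∈ R` for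
all `x ∈ M`.  Then `M` is cut out by glueing conditions `ψ x.2 = c (φ, ψ) * φ x.1` at the nodes,
with `n`-th roots of unity `c`. -/
theorem exists_glueing_constants_of_nodes (R : Subalgebra k (B₁ × B₂))
    (S₁ : Finset (B₁ →ₐ[k] k)) (S₂ : Finset (B₂ →ₐ[k] k))
    (hfst : ∀ a : B₁, ∃ r ∈ R, r.1 = a) (hsnd : ∀ b : B₂, ∃ r ∈ R, r.2 = b)
    (M : Submodule k (B₁ × B₂)) {n : ℕ} (hn : n ≠ 0) (hpow : ∀ x ∈ M, x ^ n ∈ R)
    [Module.Finite k ((B₁ × B₂) ⧸ M)]
    (hcodim : Module.finrank k ((B₁ × B₂) ⧸ M) ≤ (nodeSet R S₁ S₂).card) :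
    ∃ c : (B₁ →ₐ[k] k) × (B₂ →ₐ[k] k) → k, (∀ p ∈ nodeSet R S₁ S₂, c p ^ n = 1) ∧
      ∀ x, x ∈ M ↔ ∀ p ∈ nodeSet R S₁ S₂, p.2 x.2 = c p * p.1 x.1 := by
  classical
  let f : nodeSet R S₁ S₂ → Module.Dual k (B₁ × B₂) := fun b =>
    (b.1.1).toLinearMap.comp (LinearMap.fst k B₁ B₂)
  let g : nodeSet R S₁ S₂ → Module.Dual k (B₁ × B₂) := fun b =>
    (b.1.2).toLinearMap.comp (LinearMap.snd k B₁ B₂)
  have hind : LinearIndependent k (Sum.elim f g) := linearIndependent_nodeSet R S₁ S₂ hfst hsnd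
  have hpow' : ∀ x ∈ M, ∀ b, f b x ^ n = g b x ^ n := by
    intro x hx b
    have h := (mem_nodeSet.mp b.2).2.2 (x ^ n) (hpow x hx)
    simp only [Prod.pow_fst, Prod.pow_snd, map_pow] at h
    exact h
  have hcodim' : Module.finrank k ((B₁ × B₂) ⧸ M) ≤ Fintype.card (nodeSet R S₁ S₂) := by
    rw [Fintype.card_coe]; exact hcodim
  obtain ⟨c₀, hc₀, hM⟩ := exists_glueing_constants f g hind M hn hpow' hcodim'
  refine ⟨fun p => if h : p ∈ nodeSet R S₁ S₂ then c₀ ⟨p, h⟩ else 1, ?_, ?_⟩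
  · intro p hp
    simp only [dif_pos hp]
    exact hc₀ ⟨p, hp⟩
  · intro x
    rw [hM x]
    constructor
    · intro h p hp
      simp only [dif_pos hp]
      exact h ⟨p, hp⟩
    · intro h b
      have := h b.1 b.2
      simp only [dif_pos b.2] at this
      exact this

/-- **(d), trivial constants.**  If all glueing constants are `1`, the glued module is `R`. -/
theorem eq_toSubmodule_of_constants_eq_one (R : Subalgebra k (B₁ × B₂))
    (S₁ : Finset (B₁ →ₐ[k] k)) (S₂ : Finset (B₂ →ₐ[k] k))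
    (hfst : ∀ a : B₁, ∃ r ∈ R, r.1 = a) (hsnd : ∀ b : B₂, ∃ r ∈ R, r.2 = b)
    (hJ : ∀ x : B₁ × B₂, (∀ φ ∈ S₁, φ x.1 = 0) → (∀ ψ ∈ S₂, ψ x.2 = 0) → x ∈ R)
    (M : Submodule k (B₁ × B₂)) (c : (B₁ →ₐ[k] k) × (B₂ →ₐ[k] k) → k)
    (hM : ∀ x, x ∈ M ↔ ∀ p ∈ nodeSet R S₁ S₂, p.2 x.2 = c p * p.1 x.1)
    (hc : ∀ p ∈ nodeSet R S₁ S₂, c p = 1) : M = Subalgebra.toSubmodule R := by
  ext x
  rw [hM x, Subalgebra.mem_toSubmodule, mem_iff_forall_node R S₁ S₂ hfst hsnd hJ x]
  constructor
  · intro h p hp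
    rw [h p hp, hc p hp, one_mul]
  · intro h p hp
    rw [hc p hp, one_mul, h p hp]

/-- **(c), multiplicativity of the glueing constants.** -/
theorem glueing_constants_mul (R : Subalgebra k (B₁ × B₂))
    (S₁ : Finset (B₁ →ₐ[k] k)) (S₂ : Finset (B₂ →ₐ[k] k))
    (hfst : ∀ a : B₁, ∃ r ∈ R, r.1 = a) (hsnd : ∀ b : B₂, ∃ r ∈ R, r.2 = b)
    (M M' M'' : Submodule k (B₁ × B₂)) (c c' c'' : (B₁ →ₐ[k] k) × (B₂ →ₐ[k] k) → k)
    (hM : ∀ x, x ∈ M ↔ ∀ p ∈ nodeSet R S₁ S₂, p.2 x.2 = c p * p.1 x.1)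
    (hM' : ∀ x, x ∈ M' ↔ ∀ p ∈ nodeSet R S₁ S₂, p.2 x.2 = c' p * p.1 x.1)
    (hM'' : ∀ x ∈ M'', ∀ p ∈ nodeSet R S₁ S₂, p.2 x.2 = c'' p * p.1 x.1)
    (hmul : ∀ x ∈ M, ∀ y ∈ M', x * y ∈ M'') :
    ∀ p ∈ nodeSet R S₁ S₂, c'' p = c p * c' p := by
  classical
  intro p hp
  let f : nodeSet R S₁ S₂ → Module.Dual k (B₁ × B₂) := fun b =>
    (b.1.1).toLinearMap.comp (LinearMap.fst k B₁ B₂)
  let g : nodeSet R S₁ S₂ → Module.Dual k (B₁ × B₂) := fun b =>
    (b.1.2).toLinearMap.comp (LinearMap.snd k B₁ B₂)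
  have hind : LinearIndependent k (Sum.elim f g) := linearIndependent_nodeSet R S₁ S₂ hfst hsnd
  have aux : ∀ (N : Submodule k (B₁ × B₂)) (d : (B₁ →ₐ[k] k) × (B₂ →ₐ[k] k) → k),
      (∀ x, x ∈ N ↔ ∀ p ∈ nodeSet R S₁ S₂, p.2 x.2 = d p * p.1 x.1) →
      ∃ x ∈ N, p.1 x.1 = 1 := by
    intro N d hN
    have hN' : ∀ x, x ∈ N ↔ ∀ b : nodeSet R S₁ S₂, g b x = d b.1 * f b x := by
      intro x
      rw [hN x]
      exact ⟨fun h b => h b.1 b.2, fun h q hq => h ⟨q, hq⟩⟩
    obtain ⟨x, hxN, hx⟩ := exists_mem_with_values f g hind N (fun b => d b.1) hN' (fun _ => 1)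
    exact ⟨x, hxN, hx ⟨p, hp⟩⟩
  obtain ⟨x, hxM, hx1⟩ := aux M c hM
  obtain ⟨y, hyM, hy1⟩ := aux M' c' hM'
  have h1 := (hM x).mp hxM p hp
  have h2 := (hM' y).mp hyM p hp
  have h3 := hM'' (x * y) (hmul x hxM y hyM) p hp
  rw [hx1, mul_one] at h1
  rw [hy1, mul_one] at h2
  rw [Prod.snd_mul, Prod.fst_mul, map_mul, map_mul, h1, h2, hx1, hy1, mul_one, mul_one] at h3
  exact h3.symm

/-- **(C), filtered form** (the shape in which dimension counts are available: `X` is a
finite-dimensional piece such as `L(E̅_∞) × L(E̅_0)` separating the `2δ` node points, `M ≤ X`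
the reduction of a lattice, `dim X ≤ dim M + δ`).  Then `M` is cut out inside `X` by glueing
conditions at the nodes with `n`-th roots of unity. -/
theorem exists_glueing_constants_filtered
    (nodes : Finset ((B₁ →ₐ[k] k) × (B₂ →ₐ[k] k)))
    (X M : Submodule k (B₁ × B₂)) [Module.Finite k X] (hMX : M ≤ X)
    (hsep : ∀ v w : nodes → k, ∃ x ∈ X, (∀ p : nodes, p.1.1 x.1 = v p) ∧
      ∀ p : nodes, p.1.2 x.2 = w p)
    {n : ℕ} (hn : n ≠ 0)
    (hpow : ∀ x ∈ M, ∀ p ∈ nodes, p.1 x.1 ^ n = p.2 x.2 ^ n)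
    (hdim : Module.finrank k X ≤ Module.finrank k M + nodes.card) :
    ∃ c : (B₁ →ₐ[k] k) × (B₂ →ₐ[k] k) → k, (∀ p ∈ nodes, c p ^ n = 1) ∧
      ∀ x ∈ X, x ∈ M ↔ ∀ p ∈ nodes, p.2 x.2 = c p * p.1 x.1 := by
  classical
  let f : nodes → Module.Dual k X := fun b =>
    ((b.1.1).toLinearMap.comp (LinearMap.fst k B₁ B₂)).comp X.subtype
  let g : nodes → Module.Dual k X := fun b =>
    ((b.1.2).toLinearMap.comp (LinearMap.snd k B₁ B₂)).comp X.subtype
  have hind : LinearIndependent k (Sum.elim f g) := by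
    refine linearIndependent_of_surjective _ fun u => ?_
    obtain ⟨x, hxX, hv, hw⟩ := hsep (fun p => u (Sum.inl p)) (fun p => u (Sum.inr p))
    refine ⟨⟨x, hxX⟩, ?_⟩
    funext i
    rcases i with p | p
    · exact hv p
    · exact hw p
  let M' : Submodule k X := M.comap X.subtype
  have hpow' : ∀ x ∈ M', ∀ b, f b x ^ n = g b x ^ n := fun x hx b => hpow x.1 hx b.1 b.2
  have hM'M : Module.finrank k M' = Module.finrank k M :=
    LinearEquiv.finrank_eq (Submodule.comapSubtypeEquivOfLe hMX)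
  have hcodim : Module.finrank k (X ⧸ M') ≤ Fintype.card nodes := by
    have h := Submodule.finrank_quotient_add_finrank M'
    rw [Fintype.card_coe]
    omega
  obtain ⟨c₀, hc₀, hM⟩ := exists_glueing_constants f g hind M' hn hpow' hcodim
  refine ⟨fun p => if h : p ∈ nodes then c₀ ⟨p, h⟩ else 1, ?_, ?_⟩
  · intro p hp
    simp only [dif_pos hp]
    exact hc₀ ⟨p, hp⟩
  · intro x hxX
    have hx := hM ⟨x, hxX⟩
    constructor
    · intro hxM p hp
      simp only [dif_pos hp]
      exact hx.mp hxM ⟨p, hp⟩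
    · intro h
      refine hx.mpr fun b => ?_
      have := h b.1 b.2
      simp only [dif_pos b.2] at this
      exact this

/-- A glued module has, at every node, an element with value `1` on the first branch. -/
theorem exists_mem_node_eq_one (R : Subalgebra k (B₁ × B₂))
    (S₁ : Finset (B₁ →ₐ[k] k)) (S₂ : Finset (B₂ →ₐ[k] k))
    (hfst : ∀ a : B₁, ∃ r ∈ R, r.1 = a) (hsnd : ∀ b : B₂, ∃ r ∈ R, r.2 = b)
    (M : Submodule k (B₁ × B₂)) (c : (B₁ →ₐ[k] k) × (B₂ →ₐ[k] k) → k)
    (hM : ∀ x, x ∈ M ↔ ∀ p ∈ nodeSet R S₁ S₂, p.2 x.2 = c p * p.1 x.1)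
    {p : (B₁ →ₐ[k] k) × (B₂ →ₐ[k] k)} (hp : p ∈ nodeSet R S₁ S₂) :
    ∃ x ∈ M, p.1 x.1 = 1 ∧ p.2 x.2 = c p := by
  classical
  let f : nodeSet R S₁ S₂ → Module.Dual k (B₁ × B₂) := fun b =>
    (b.1.1).toLinearMap.comp (LinearMap.fst k B₁ B₂)
  let g : nodeSet R S₁ S₂ → Module.Dual k (B₁ × B₂) := fun b =>
    (b.1.2).toLinearMap.comp (LinearMap.snd k B₁ B₂)
  have hind : LinearIndependent k (Sum.elim f g) := linearIndependent_nodeSet R S₁ S₂ hfst hsnd
  have hM' : ∀ x, x ∈ M ↔ ∀ b : nodeSet R S₁ S₂, g b x = c b.1 * f b x := by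
    intro x
    rw [hM x]
    exact ⟨fun h b => h b.1 b.2, fun h q hq => h ⟨q, hq⟩⟩
  obtain ⟨x, hxM, hx⟩ := exists_mem_with_values f g hind M (fun b => c b.1) hM' (fun _ => 1)
  have h1 : p.1 x.1 = 1 := hx ⟨p, hp⟩
  refine ⟨x, hxM, h1, ?_⟩
  rw [(hM x).mp hxM p hp, h1, mul_one]

/-- **FROB-GLUE on `B₁ × B₂`.**  If `Θ` maps the glued module `M` into the glued module `M'`
and carries the node `p` to the node `p'` through the ring endomorphism `θ` of `k`
(`p'.i (Θ x).i = θ (p.i x.i)` on `M`), then `c' p' = θ (c p)`.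
(`Θ = id`, `θ = id`: the constants of `M ⊆ M'` agree; inertia.  `θ = Frobenius ^ 2`, `p' = p` a
`θ`-rational node: `c' p = (c p) ^ (q ^ 2)`.) -/
theorem glueing_constants_semilinear_of_nodes (R : Subalgebra k (B₁ × B₂))
    (S₁ : Finset (B₁ →ₐ[k] k)) (S₂ : Finset (B₂ →ₐ[k] k))
    (hfst : ∀ a : B₁, ∃ r ∈ R, r.1 = a) (hsnd : ∀ b : B₂, ∃ r ∈ R, r.2 = b)
    (M M' : Submodule k (B₁ × B₂)) (c c' : (B₁ →ₐ[k] k) × (B₂ →ₐ[k] k) → k)
    (hM : ∀ x, x ∈ M ↔ ∀ p ∈ nodeSet R S₁ S₂, p.2 x.2 = c p * p.1 x.1)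
    (hM' : ∀ x ∈ M', ∀ p ∈ nodeSet R S₁ S₂, p.2 x.2 = c' p * p.1 x.1)
    (θ : k →+* k) (Θ : B₁ × B₂ → B₁ × B₂)
    {p p' : (B₁ →ₐ[k] k) × (B₂ →ₐ[k] k)} (hp : p ∈ nodeSet R S₁ S₂) (hp' : p' ∈ nodeSet R S₁ S₂)
    (hf : ∀ x ∈ M, p'.1 (Θ x).1 = θ (p.1 x.1)) (hg : ∀ x ∈ M, p'.2 (Θ x).2 = θ (p.2 x.2))
    (hΘ : ∀ x ∈ M, Θ x ∈ M') : c' p' = θ (c p) := by
  obtain ⟨x, hxM, hx1, hx2⟩ := exists_mem_node_eq_one R S₁ S₂ hfst hsnd M c hM hp
  have h := hM' (Θ x) (hΘ x hxM) p' hp'
  rw [hf x hxM, hg x hxM, hx1, hx2, map_one, mul_one] at h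
  exact h.symm

/-- **Swap form on `B₁ × B₂`** (an involution exchanging the two components, e.g. `W_q`):
if `p'.1 (Θ x).1 = θ (p.2 x.2)` and `p'.2 (Θ x).2 = θ (p.1 x.1)` on `M`, then
`c' p' * θ (c p) = 1`. -/
theorem glueing_constants_swap_of_nodes (R : Subalgebra k (B₁ × B₂))
    (S₁ : Finset (B₁ →ₐ[k] k)) (S₂ : Finset (B₂ →ₐ[k] k))
    (hfst : ∀ a : B₁, ∃ r ∈ R, r.1 = a) (hsnd : ∀ b : B₂, ∃ r ∈ R, r.2 = b)
    (M M' : Submodule k (B₁ × B₂)) (c c' : (B₁ →ₐ[k] k) × (B₂ →ₐ[k] k) → k)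
    (hM : ∀ x, x ∈ M ↔ ∀ p ∈ nodeSet R S₁ S₂, p.2 x.2 = c p * p.1 x.1)
    (hM' : ∀ x ∈ M', ∀ p ∈ nodeSet R S₁ S₂, p.2 x.2 = c' p * p.1 x.1)
    (θ : k →+* k) (Θ : B₁ × B₂ → B₁ × B₂)
    {p p' : (B₁ →ₐ[k] k) × (B₂ →ₐ[k] k)} (hp : p ∈ nodeSet R S₁ S₂) (hp' : p' ∈ nodeSet R S₁ S₂)
    (hf : ∀ x ∈ M, p'.1 (Θ x).1 = θ (p.2 x.2)) (hg : ∀ x ∈ M, p'.2 (Θ x).2 = θ (p.1 x.1))
    (hΘ : ∀ x ∈ M, Θ x ∈ M') : c' p' * θ (c p) = 1 := by
  obtain ⟨x, hxM, hx1, hx2⟩ := exists_mem_node_eq_one R S₁ S₂ hfst hsnd M c hM hp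
  have h := hM' (Θ x) (hΘ x hxM) p' hp'
  rw [hf x hxM, hg x hxM, hx1, hx2, map_one] at h
  exact h.symm

/-- **Twist by a constant on the second component**: `(1, z) • M_c = M_{z c}`, in the form
"if `x ↦ (x.1, z * x.2)` maps `M` into `M'` then `c' p = z * c p`". -/
theorem glueing_constants_twist_of_nodes (R : Subalgebra k (B₁ × B₂))
    (S₁ : Finset (B₁ →ₐ[k] k)) (S₂ : Finset (B₂ →ₐ[k] k))
    (hfst : ∀ a : B₁, ∃ r ∈ R, r.1 = a) (hsnd : ∀ b : B₂, ∃ r ∈ R, r.2 = b)
    (M M' : Submodule k (B₁ × B₂)) (c c' : (B₁ →ₐ[k] k) × (B₂ →ₐ[k] k) → k)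
    (hM : ∀ x, x ∈ M ↔ ∀ p ∈ nodeSet R S₁ S₂, p.2 x.2 = c p * p.1 x.1)
    (hM' : ∀ x ∈ M', ∀ p ∈ nodeSet R S₁ S₂, p.2 x.2 = c' p * p.1 x.1)
    (z : k) (hz : ∀ x ∈ M, (x.1, algebraMap k B₂ z * x.2) ∈ M')
    {p : (B₁ →ₐ[k] k) × (B₂ →ₐ[k] k)} (hp : p ∈ nodeSet R S₁ S₂) : c' p = z * c p := by
  obtain ⟨x, hxM, hx1, hx2⟩ := exists_mem_node_eq_one R S₁ S₂ hfst hsnd M c hM hp
  have h := hM' _ (hz x hxM) p hp
  simp only [map_mul, AlgHom.commutes, Algebra.algebraMap_self_apply] at h
  rw [hx1, hx2, mul_one] at h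
  exact h.symm

end Nodes

end Fermat.Agent.S35.helper541
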