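import Mathlib
import Fermat.Agent.S35.helper603_NodalRRInst

/-!
# S35/S34 NODEPLACES (P3): two charts, same nodes  (helper6174)

Generic function-field statement, hypothesis-passing.  Two function fields `Fk₁`, `Fk₂` over `k`
(all places of degree one), chart functions `x₁`, `x₂`.  `RA` is a set of pairs of functions
regular on the chart `x ≠ ∞`, cut out by node conditions at a family `(PA i, QA i)`; `RB` the same
on the chart `x ≠ 0` with a family `(PB j, QB j)`.  If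

* `(x₁, x₂) ∈ RA`, `(x₁⁻¹, x₂⁻¹) ∈ RB`,
* `RA` and `RB` are transported into each other by powers of `(x₁, x₂)`,
* there are units `(1, u) ∈ RA`, `(1, u') ∈ RB` with `u` vanishing at the zeros of `x₂` and `u'`
  vanishing at the poles of `x₂`,
* both families are maximal (every pair of places of the chart glued by the ring is a node),

then the two node families coincide and all nodes lie off the zeros and the poles of `x₁`, `x₂`.

Two vocabularies are provided: the valuation form (`v.adicValuation x ≤ 1`; theorems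
`nodes_subset_val`, `same_nodes_val`, `same_nodes_iff_val`) and the order form (`0 ≤ v.ord x`;
theorems `same_nodes`, `same_nodes_iff`).
-/

set_option autoImplicit false

namespace Fermat.Agent.S35.helper6174

open AlgebraicCurve WithZero
open Fermat.Agent.S35.helper603

section OneField

variable {K F : Type*} [Field K] [Field F] [Algebra K F]

/-- `0 ≤ ord` is the same as `adicValuation ≤ 1` (with the junk value `ord 0 = 0`). -/
theorem ord_nonneg_iff (v : Place K F) (f : F) : 0 ≤ v.ord f ↔ v.adicValuation f ≤ 1 := by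
  rw [v.adicValuation_le_one_iff]
  constructor
  · exact fun h => Or.inr h
  · rintro (rfl | h)
    · simp
    · exact h

/-- For `f ≠ 0`: a zero at `v` is the same as `adicValuation < 1`. -/
theorem ord_pos_iff (v : Place K F) {f : F} (hf : f ≠ 0) :
    0 < v.ord f ↔ v.adicValuation f < 1 := by
  rw [v.adicValuation_eq_exp_neg_ord hf, ← exp_zero, exp_lt_exp]
  constructor <;> intro h <;> linarith

/-- A zero at `v` gives `adicValuation < 1` (no hypothesis on `f`). -/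
theorem adicValuation_lt_one_of_ord_pos (v : Place K F) {f : F} (h : 0 < v.ord f) :
    v.adicValuation f < 1 := by
  rcases eq_or_ne f 0 with rfl | hf
  · simp at h
  · exact (ord_pos_iff v hf).mp h

theorem adicValuation_eq_one_of_ord_eq_zero (v : Place K F) {f : F} (hf : f ≠ 0)
    (h : v.ord f = 0) : v.adicValuation f = 1 := by
  rw [v.adicValuation_eq_exp_neg_ord hf, h]
  simp

theorem ord_eq_zero_of_adicValuation_eq_one (v : Place K F) {f : F}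
    (h : v.adicValuation f = 1) : v.ord f = 0 := by
  simp [Place.ord, h]

theorem valueAt_congr {v w : Place K F} (h : v = w) (hv : v.deg = 1) (hw : w.deg = 1) (f : F) :
    valueAt v hv f = valueAt w hw f := by
  subst h
  rfl

theorem valueAt_one (v : Place K F) (hv : v.deg = 1) : valueAt v hv (1 : F) = 1 :=
  valueAt_unique v hv (by simp)

theorem valueAt_mul (v : Place K F) (hv : v.deg = 1) {f g : F} (hf : v.adicValuation f ≤ 1)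
    (hg : v.adicValuation g ≤ 1) :
    valueAt v hv (f * g) = valueAt v hv f * valueAt v hv g := by
  refine valueAt_unique v hv ?_
  have h1 := valueAt_spec v hv hf
  have h2 := valueAt_spec v hv hg
  have e : f * g - algebraMap K F (valueAt v hv f * valueAt v hv g) =
      (f - algebraMap K F (valueAt v hv f)) * g +
        algebraMap K F (valueAt v hv f) * (g - algebraMap K F (valueAt v hv g)) := by
    rw [map_mul]; ring
  rw [e]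
  refine v.adicValuation.map_add_lt ?_ ?_
  · rw [map_mul]
    calc v.adicValuation (f - algebraMap K F (valueAt v hv f)) * v.adicValuation g
        ≤ v.adicValuation (f - algebraMap K F (valueAt v hv f)) * 1 := mul_le_mul' le_rfl hg
      _ = v.adicValuation (f - algebraMap K F (valueAt v hv f)) := mul_one _
      _ < 1 := h1
  · rw [map_mul]
    calc v.adicValuation (algebraMap K F (valueAt v hv f)) *
          v.adicValuation (g - algebraMap K F (valueAt v hv g))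
        ≤ 1 * v.adicValuation (g - algebraMap K F (valueAt v hv g)) :=
          mul_le_mul' (v.adicValuation_algebraMap_le_one _) le_rfl
      _ = v.adicValuation (g - algebraMap K F (valueAt v hv g)) := one_mul _
      _ < 1 := h2

theorem adicValuation_pow_le_one (v : Place K F) {f : F} (hf : v.adicValuation f ≤ 1) (n : ℕ) :
    v.adicValuation (f ^ n) ≤ 1 := by
  rw [map_pow]
  exact pow_le_one' hf n

theorem valueAt_pow (v : Place K F) (hv : v.deg = 1) {f : F} (hf : v.adicValuation f ≤ 1)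
    (n : ℕ) : valueAt v hv (f ^ n) = valueAt v hv f ^ n := by
  induction n with
  | zero => simp [valueAt_one]
  | succ n ih =>
    rw [pow_succ, valueAt_mul v hv (adicValuation_pow_le_one v hf n) hf, ih, pow_succ]

/-- A nonzero value means: regular and a unit at the place. -/
theorem adicValuation_eq_one_of_valueAt_ne_zero (v : Place K F) (hv : v.deg = 1) {f : F}
    (h : valueAt v hv f ≠ 0) : v.adicValuation f = 1 := by
  by_cases hf : v.adicValuation f ≤ 1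
  · refine le_antisymm hf (not_lt.mp fun hlt => h ?_)
    exact (valueAt_eq_zero_iff v hv hf).mpr hlt
  · exact absurd (by unfold valueAt; rw [dif_neg hf]) h

theorem valueAt_ne_zero_of_adicValuation_eq_one (v : Place K F) (hv : v.deg = 1) {f : F}
    (h : v.adicValuation f = 1) : valueAt v hv f ≠ 0 := by
  intro h0
  have := (valueAt_eq_zero_iff v hv h.le).mp h0
  rw [h] at this
  exact lt_irrefl _ this

/-- `f` is regular wherever `x` is regular (order form of membership in the chart algebra). -/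
def RegOn (K : Type*) {F : Type*} [Field K] [Field F] [Algebra K F] (x f : F) : Prop :=
  ∀ v : Place K F, 0 ≤ v.ord x → 0 ≤ v.ord f

/-- `f` is regular wherever `x` is regular (valuation form of membership in the chart
algebra). -/
def RegOnVal (K : Type*) {F : Type*} [Field K] [Field F] [Algebra K F] (x f : F) : Prop :=
  ∀ v : Place K F, v.adicValuation x ≤ 1 → v.adicValuation f ≤ 1

theorem regOn_iff_regOnVal (x f : F) : RegOn K x f ↔ RegOnVal K x f := by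
  unfold RegOn RegOnVal
  simp only [ord_nonneg_iff]

end OneField

section TwoCharts

variable {k Fk₁ Fk₂ : Type*} [Field k] [Field Fk₁] [Field Fk₂] [Algebra k Fk₁] [Algebra k Fk₂]

/-- One half of `same_nodes_val`: every node of the chart `A` is a node of the chart `B`, and the
nodes of `A` lie off the zeros of the chart functions.  Stated for abstract chart functions
`x₁, x₂` of `A` and `y₁, y₂` of `B` with `x * y = 1`, so that it can be used in both directions. -/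
theorem nodes_subset_val
    (hd₁ : ∀ v : Place k Fk₁, v.deg = 1) (hd₂ : ∀ w : Place k Fk₂, w.deg = 1)
    {x₁ y₁ : Fk₁} {x₂ y₂ : Fk₂} (hxy₁ : x₁ * y₁ = 1) (hxy₂ : x₂ * y₂ = 1)
    (RA RB : Set (Fk₁ × Fk₂))
    {IA IB : Type*} (PA : IA → Place k Fk₁) (QA : IA → Place k Fk₂)
    (PB : IB → Place k Fk₁) (QB : IB → Place k Fk₂)
    (hA : ∀ z ∈ RA, ∀ i, valueAt (PA i) (hd₁ _) z.1 = valueAt (QA i) (hd₂ _) z.2)
    (hAreg : ∀ i, (PA i).adicValuation x₁ ≤ 1 ∧ (QA i).adicValuation x₂ ≤ 1)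
    (hRB : ∀ z ∈ RB, RegOnVal k y₁ z.1 ∧ RegOnVal k y₂ z.2)
    (hBmax : ∀ (v : Place k Fk₁) (w : Place k Fk₂), v.adicValuation y₁ ≤ 1 →
      w.adicValuation y₂ ≤ 1 →
      (∀ z ∈ RB, valueAt v (hd₁ v) z.1 = valueAt w (hd₂ w) z.2) → ∃ j, PB j = v ∧ QB j = w)
    (hx : (x₁, x₂) ∈ RA)
    (hBA : ∀ z ∈ RB, ∃ n : ℕ, (x₁ ^ n * z.1, x₂ ^ n * z.2) ∈ RA)
    (u : Fk₂) (hu : (1, u) ∈ RA)
    (hu0 : ∀ w : Place k Fk₂, w.adicValuation x₂ < 1 → w.adicValuation u < 1) :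
    (∀ i, (PA i).adicValuation x₁ = 1 ∧ (QA i).adicValuation x₂ = 1) ∧
      (∀ i, ∃ j, PB j = PA i ∧ QB j = QA i) := by
  -- the nodes of `A` are off the zeros
  have key : ∀ i, (PA i).adicValuation x₁ = 1 ∧ (QA i).adicValuation x₂ = 1 ∧
      valueAt (PA i) (hd₁ _) x₁ = valueAt (QA i) (hd₂ _) x₂ ∧
      valueAt (PA i) (hd₁ _) x₁ ≠ 0 := by
    intro i
    have h1 : valueAt (QA i) (hd₂ _) u = 1 := by
      have := hA (1, u) hu i
      rw [valueAt_one] at this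
      exact this.symm
    have h2 : (QA i).adicValuation u = 1 :=
      adicValuation_eq_one_of_valueAt_ne_zero _ _ (by rw [h1]; exact one_ne_zero)
    have h4 : (QA i).adicValuation x₂ = 1 := by
      refine le_antisymm (hAreg i).2 (not_lt.mp fun hlt => ?_)
      have := hu0 (QA i) hlt
      rw [h2] at this
      exact lt_irrefl _ this
    have h5 : valueAt (QA i) (hd₂ _) x₂ ≠ 0 := valueAt_ne_zero_of_adicValuation_eq_one _ _ h4
    have h6 : valueAt (PA i) (hd₁ _) x₁ = valueAt (QA i) (hd₂ _) x₂ := hA (x₁, x₂) hx i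
    have h7 : valueAt (PA i) (hd₁ _) x₁ ≠ 0 := by rw [h6]; exact h5
    exact ⟨adicValuation_eq_one_of_valueAt_ne_zero _ _ h7, h4, h6, h7⟩
  refine ⟨fun i => ⟨(key i).1, (key i).2.1⟩, fun i => ?_⟩
  obtain ⟨ho₁, ho₂, hval, hne⟩ := key i
  have hyo₁ : (PA i).adicValuation y₁ ≤ 1 := by
    have := congrArg (PA i).adicValuation hxy₁
    rw [map_mul, ho₁, one_mul, map_one] at this
    exact this.le
  have hyo₂ : (QA i).adicValuation y₂ ≤ 1 := by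
    have := congrArg (QA i).adicValuation hxy₂
    rw [map_mul, ho₂, one_mul, map_one] at this
    exact this.le
  refine hBmax (PA i) (QA i) hyo₁ hyo₂ fun z hz => ?_
  obtain ⟨n, hn⟩ := hBA z hz
  have e := hA _ hn i
  have hz₁ : (PA i).adicValuation z.1 ≤ 1 := (hRB z hz).1 (PA i) hyo₁
  have hz₂ : (QA i).adicValuation z.2 ≤ 1 := (hRB z hz).2 (QA i) hyo₂
  simp only at e
  rw [valueAt_mul _ _ (adicValuation_pow_le_one _ ho₁.le n) hz₁,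
    valueAt_mul _ _ (adicValuation_pow_le_one _ ho₂.le n) hz₂,
    valueAt_pow _ _ ho₁.le, valueAt_pow _ _ ho₂.le, ← hval] at e
  exact mul_left_cancel₀ (pow_ne_zero n hne) e

/-- **(P3) Two charts, same nodes (valuation form).**  The node families of the chart `x`
(functions regular off the poles of `x`) and of the chart `x⁻¹` coincide, and all nodes lie off
the zeros and the poles of `x₁`, `x₂`. -/
theorem same_nodes_val
    (hd₁ : ∀ v : Place k Fk₁, v.deg = 1) (hd₂ : ∀ w : Place k Fk₂, w.deg = 1)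
    {x₁ : Fk₁} {x₂ : Fk₂} (hx₁ : x₁ ≠ 0) (hx₂ : x₂ ≠ 0)
    (RA RB : Set (Fk₁ × Fk₂))
    {IA IB : Type*} (PA : IA → Place k Fk₁) (QA : IA → Place k Fk₂)
    (PB : IB → Place k Fk₁) (QB : IB → Place k Fk₂)
    -- chart `A` (off the poles of `x`)
    (hRA : ∀ z ∈ RA, RegOnVal k x₁ z.1 ∧ RegOnVal k x₂ z.2)
    (hA : ∀ z ∈ RA, ∀ i, valueAt (PA i) (hd₁ _) z.1 = valueAt (QA i) (hd₂ _) z.2)
    (hAreg : ∀ i, (PA i).adicValuation x₁ ≤ 1 ∧ (QA i).adicValuation x₂ ≤ 1)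
    (hAmax : ∀ (v : Place k Fk₁) (w : Place k Fk₂), v.adicValuation x₁ ≤ 1 →
      w.adicValuation x₂ ≤ 1 →
      (∀ z ∈ RA, valueAt v (hd₁ v) z.1 = valueAt w (hd₂ w) z.2) → ∃ i, PA i = v ∧ QA i = w)
    -- chart `B` (off the zeros of `x`)
    (hRB : ∀ z ∈ RB, RegOnVal k x₁⁻¹ z.1 ∧ RegOnVal k x₂⁻¹ z.2)
    (hB : ∀ z ∈ RB, ∀ j, valueAt (PB j) (hd₁ _) z.1 = valueAt (QB j) (hd₂ _) z.2)
    (hBreg : ∀ j, (PB j).adicValuation x₁⁻¹ ≤ 1 ∧ (QB j).adicValuation x₂⁻¹ ≤ 1)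
    (hBmax : ∀ (v : Place k Fk₁) (w : Place k Fk₂), v.adicValuation x₁⁻¹ ≤ 1 →
      w.adicValuation x₂⁻¹ ≤ 1 →
      (∀ z ∈ RB, valueAt v (hd₁ v) z.1 = valueAt w (hd₂ w) z.2) → ∃ j, PB j = v ∧ QB j = w)
    -- the chart function, transport and the two units
    (hx : (x₁, x₂) ∈ RA) (hxi : (x₁⁻¹, x₂⁻¹) ∈ RB)
    (hBA : ∀ z ∈ RB, ∃ n : ℕ, (x₁ ^ n * z.1, x₂ ^ n * z.2) ∈ RA)
    (hAB : ∀ z ∈ RA, ∃ n : ℕ, (x₁⁻¹ ^ n * z.1, x₂⁻¹ ^ n * z.2) ∈ RB)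
    (u u' : Fk₂) (hu : (1, u) ∈ RA) (hu' : (1, u') ∈ RB)
    (hu0 : ∀ w : Place k Fk₂, w.adicValuation x₂ < 1 → w.adicValuation u < 1)
    (hu'0 : ∀ w : Place k Fk₂, 1 < w.adicValuation x₂ → w.adicValuation u' < 1) :
    (∀ i, (PA i).adicValuation x₁ = 1 ∧ (QA i).adicValuation x₂ = 1) ∧
    (∀ j, (PB j).adicValuation x₁ = 1 ∧ (QB j).adicValuation x₂ = 1) ∧
    (∀ i, ∃ j, PB j = PA i ∧ QB j = QA i) ∧ (∀ j, ∃ i, PA i = PB j ∧ QA i = QB j) := by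
  obtain ⟨hA0, hAB'⟩ := nodes_subset_val hd₁ hd₂ (mul_inv_cancel₀ hx₁) (mul_inv_cancel₀ hx₂)
    RA RB PA QA PB QB hA hAreg hRB hBmax hx hBA u hu hu0
  have hu'0' : ∀ w : Place k Fk₂, w.adicValuation x₂⁻¹ < 1 → w.adicValuation u' < 1 := by
    intro w hw
    refine hu'0 w ?_
    rw [map_inv₀] at hw
    have h0 : w.adicValuation x₂ ≠ 0 := w.adicValuation_ne_zero hx₂
    exact (inv_lt_one₀ (zero_lt_iff.mpr h0)).mp hw
  obtain ⟨hB0, hBA'⟩ := nodes_subset_val hd₁ hd₂ (inv_mul_cancel₀ hx₁) (inv_mul_cancel₀ hx₂)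
    RB RA PB QB PA QA hB hBreg hRA hAmax hxi hAB u' hu' hu'0'
  refine ⟨hA0, fun j => ?_, hAB', hBA'⟩
  have := hB0 j
  rw [map_inv₀, map_inv₀, inv_eq_one, inv_eq_one] at this
  exact this

/-- **(P3), iff form (valuation vocabulary).**  If moreover `RA` and `RB` are exactly cut out by
their node conditions, then the ONE family `(PA, QA)` cuts out both: `z ∈ RA ↔ node conditions`
on the chart `x` and `z ∈ RB ↔ node conditions` on the chart `x⁻¹`, with all nodes off the zeros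
and poles of `x`. -/
theorem same_nodes_iff_val
    (hd₁ : ∀ v : Place k Fk₁, v.deg = 1) (hd₂ : ∀ w : Place k Fk₂, w.deg = 1)
    {x₁ : Fk₁} {x₂ : Fk₂} (hx₁ : x₁ ≠ 0) (hx₂ : x₂ ≠ 0)
    (RA RB : Set (Fk₁ × Fk₂))
    {IA IB : Type*} (PA : IA → Place k Fk₁) (QA : IA → Place k Fk₂)
    (PB : IB → Place k Fk₁) (QB : IB → Place k Fk₂)
    (hRA : ∀ z ∈ RA, RegOnVal k x₁ z.1 ∧ RegOnVal k x₂ z.2)
    (hAiff : ∀ z : Fk₁ × Fk₂, RegOnVal k x₁ z.1 → RegOnVal k x₂ z.2 →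
      (z ∈ RA ↔ ∀ i, valueAt (PA i) (hd₁ _) z.1 = valueAt (QA i) (hd₂ _) z.2))
    (hAreg : ∀ i, (PA i).adicValuation x₁ ≤ 1 ∧ (QA i).adicValuation x₂ ≤ 1)
    (hAmax : ∀ (v : Place k Fk₁) (w : Place k Fk₂), v.adicValuation x₁ ≤ 1 →
      w.adicValuation x₂ ≤ 1 →
      (∀ z ∈ RA, valueAt v (hd₁ v) z.1 = valueAt w (hd₂ w) z.2) → ∃ i, PA i = v ∧ QA i = w)
    (hRB : ∀ z ∈ RB, RegOnVal k x₁⁻¹ z.1 ∧ RegOnVal k x₂⁻¹ z.2)
    (hBiff : ∀ z : Fk₁ × Fk₂, RegOnVal k x₁⁻¹ z.1 → RegOnVal k x₂⁻¹ z.2 →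
      (z ∈ RB ↔ ∀ j, valueAt (PB j) (hd₁ _) z.1 = valueAt (QB j) (hd₂ _) z.2))
    (hBreg : ∀ j, (PB j).adicValuation x₁⁻¹ ≤ 1 ∧ (QB j).adicValuation x₂⁻¹ ≤ 1)
    (hBmax : ∀ (v : Place k Fk₁) (w : Place k Fk₂), v.adicValuation x₁⁻¹ ≤ 1 →
      w.adicValuation x₂⁻¹ ≤ 1 →
      (∀ z ∈ RB, valueAt v (hd₁ v) z.1 = valueAt w (hd₂ w) z.2) → ∃ j, PB j = v ∧ QB j = w)
    (hx : (x₁, x₂) ∈ RA) (hxi : (x₁⁻¹, x₂⁻¹) ∈ RB)
    (hBA : ∀ z ∈ RB, ∃ n : ℕ, (x₁ ^ n * z.1, x₂ ^ n * z.2) ∈ RA)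
    (hAB : ∀ z ∈ RA, ∃ n : ℕ, (x₁⁻¹ ^ n * z.1, x₂⁻¹ ^ n * z.2) ∈ RB)
    (u u' : Fk₂) (hu : (1, u) ∈ RA) (hu' : (1, u') ∈ RB)
    (hu0 : ∀ w : Place k Fk₂, w.adicValuation x₂ < 1 → w.adicValuation u < 1)
    (hu'0 : ∀ w : Place k Fk₂, 1 < w.adicValuation x₂ → w.adicValuation u' < 1) :
    (∀ i, (PA i).adicValuation x₁ = 1 ∧ (QA i).adicValuation x₂ = 1) ∧
    (∀ z : Fk₁ × Fk₂, RegOnVal k x₁ z.1 → RegOnVal k x₂ z.2 →
      (z ∈ RA ↔ ∀ i, valueAt (PA i) (hd₁ _) z.1 = valueAt (QA i) (hd₂ _) z.2)) ∧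
    (∀ z : Fk₁ × Fk₂, RegOnVal k x₁⁻¹ z.1 → RegOnVal k x₂⁻¹ z.2 →
      (z ∈ RB ↔ ∀ i, valueAt (PA i) (hd₁ _) z.1 = valueAt (QA i) (hd₂ _) z.2)) := by
  obtain ⟨hA0, -, hAB', hBA'⟩ := same_nodes_val hd₁ hd₂ hx₁ hx₂ RA RB PA QA PB QB hRA
    (fun z hz => (hAiff z (hRA z hz).1 (hRA z hz).2).mp hz) hAreg hAmax hRB
    (fun z hz => (hBiff z (hRB z hz).1 (hRB z hz).2).mp hz) hBreg hBmax hx hxi hBA hAB u u'
    hu hu' hu0 hu'0
  refine ⟨hA0, hAiff, fun z h1 h2 => ?_⟩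
  rw [hBiff z h1 h2]
  constructor
  · intro h i
    obtain ⟨j, hj₁, hj₂⟩ := hAB' i
    rw [← valueAt_congr hj₁ (hd₁ _) (hd₁ _), ← valueAt_congr hj₂ (hd₂ _) (hd₂ _)]
    exact h j
  · intro h j
    obtain ⟨i, hi₁, hi₂⟩ := hBA' j
    rw [← valueAt_congr hi₁ (hd₁ _) (hd₁ _), ← valueAt_congr hi₂ (hd₂ _) (hd₂ _)]
    exact h i

/-- **(P3) Two charts, same nodes (order form).** -/
theorem same_nodes
    (hd₁ : ∀ v : Place k Fk₁, v.deg = 1) (hd₂ : ∀ w : Place k Fk₂, w.deg = 1)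
    {x₁ : Fk₁} {x₂ : Fk₂} (hx₁ : x₁ ≠ 0) (hx₂ : x₂ ≠ 0)
    (RA RB : Set (Fk₁ × Fk₂))
    {IA IB : Type*} (PA : IA → Place k Fk₁) (QA : IA → Place k Fk₂)
    (PB : IB → Place k Fk₁) (QB : IB → Place k Fk₂)
    -- chart `A` (off the poles of `x`)
    (hRA : ∀ z ∈ RA, RegOn k x₁ z.1 ∧ RegOn k x₂ z.2)
    (hA : ∀ z ∈ RA, ∀ i, valueAt (PA i) (hd₁ _) z.1 = valueAt (QA i) (hd₂ _) z.2)
    (hAreg : ∀ i, 0 ≤ (PA i).ord x₁ ∧ 0 ≤ (QA i).ord x₂)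
    (hAmax : ∀ (v : Place k Fk₁) (w : Place k Fk₂), 0 ≤ v.ord x₁ → 0 ≤ w.ord x₂ →
      (∀ z ∈ RA, valueAt v (hd₁ v) z.1 = valueAt w (hd₂ w) z.2) → ∃ i, PA i = v ∧ QA i = w)
    -- chart `B` (off the zeros of `x`)
    (hRB : ∀ z ∈ RB, RegOn k x₁⁻¹ z.1 ∧ RegOn k x₂⁻¹ z.2)
    (hB : ∀ z ∈ RB, ∀ j, valueAt (PB j) (hd₁ _) z.1 = valueAt (QB j) (hd₂ _) z.2)
    (hBreg : ∀ j, 0 ≤ (PB j).ord x₁⁻¹ ∧ 0 ≤ (QB j).ord x₂⁻¹)
    (hBmax : ∀ (v : Place k Fk₁) (w : Place k Fk₂), 0 ≤ v.ord x₁⁻¹ → 0 ≤ w.ord x₂⁻¹ →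
      (∀ z ∈ RB, valueAt v (hd₁ v) z.1 = valueAt w (hd₂ w) z.2) → ∃ j, PB j = v ∧ QB j = w)
    -- the chart function, transport and the two units
    (hx : (x₁, x₂) ∈ RA) (hxi : (x₁⁻¹, x₂⁻¹) ∈ RB)
    (hBA : ∀ z ∈ RB, ∃ n : ℕ, (x₁ ^ n * z.1, x₂ ^ n * z.2) ∈ RA)
    (hAB : ∀ z ∈ RA, ∃ n : ℕ, (x₁⁻¹ ^ n * z.1, x₂⁻¹ ^ n * z.2) ∈ RB)
    (u u' : Fk₂) (hu : (1, u) ∈ RA) (hu' : (1, u') ∈ RB)
    (hu0 : ∀ w : Place k Fk₂, 0 < w.ord x₂ → 0 < w.ord u)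
    (hu'0 : ∀ w : Place k Fk₂, w.ord x₂ < 0 → 0 < w.ord u') :
    (∀ i, (PA i).ord x₁ = 0 ∧ (QA i).ord x₂ = 0) ∧
    (∀ j, (PB j).ord x₁ = 0 ∧ (QB j).ord x₂ = 0) ∧
    (∀ i, ∃ j, PB j = PA i ∧ QB j = QA i) ∧ (∀ j, ∃ i, PA i = PB j ∧ QA i = QB j) := by
  have hu0' : ∀ w : Place k Fk₂, w.adicValuation x₂ < 1 → w.adicValuation u < 1 :=
    fun w hw => adicValuation_lt_one_of_ord_pos w (hu0 w ((ord_pos_iff w hx₂).mpr hw))
  have hu'0' : ∀ w : Place k Fk₂, 1 < w.adicValuation x₂ → w.adicValuation u' < 1 := by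
    intro w hw
    refine adicValuation_lt_one_of_ord_pos w (hu'0 w ?_)
    exact (w.not_adicValuation_le_one_iff).mp (not_le.mpr hw)
  obtain ⟨h1, h2, h3, h4⟩ := same_nodes_val hd₁ hd₂ hx₁ hx₂ RA RB PA QA PB QB
    (fun z hz => ⟨(regOn_iff_regOnVal _ _).mp (hRA z hz).1,
      (regOn_iff_regOnVal _ _).mp (hRA z hz).2⟩) hA
    (fun i => ⟨(ord_nonneg_iff _ _).mp (hAreg i).1, (ord_nonneg_iff _ _).mp (hAreg i).2⟩)
    (fun v w hv hw => hAmax v w ((ord_nonneg_iff _ _).mpr hv) ((ord_nonneg_iff _ _).mpr hw))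
    (fun z hz => ⟨(regOn_iff_regOnVal _ _).mp (hRB z hz).1,
      (regOn_iff_regOnVal _ _).mp (hRB z hz).2⟩) hB
    (fun j => ⟨(ord_nonneg_iff _ _).mp (hBreg j).1, (ord_nonneg_iff _ _).mp (hBreg j).2⟩)
    (fun v w hv hw => hBmax v w ((ord_nonneg_iff _ _).mpr hv) ((ord_nonneg_iff _ _).mpr hw))
    hx hxi hBA hAB u u' hu hu' hu0' hu'0'
  exact ⟨fun i => ⟨ord_eq_zero_of_adicValuation_eq_one _ (h1 i).1,
      ord_eq_zero_of_adicValuation_eq_one _ (h1 i).2⟩,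
    fun j => ⟨ord_eq_zero_of_adicValuation_eq_one _ (h2 j).1,
      ord_eq_zero_of_adicValuation_eq_one _ (h2 j).2⟩, h3, h4⟩

/-- **(P3), iff form (order vocabulary).** -/
theorem same_nodes_iff
    (hd₁ : ∀ v : Place k Fk₁, v.deg = 1) (hd₂ : ∀ w : Place k Fk₂, w.deg = 1)
    {x₁ : Fk₁} {x₂ : Fk₂} (hx₁ : x₁ ≠ 0) (hx₂ : x₂ ≠ 0)
    (RA RB : Set (Fk₁ × Fk₂))
    {IA IB : Type*} (PA : IA → Place k Fk₁) (QA : IA → Place k Fk₂)
    (PB : IB → Place k Fk₁) (QB : IB → Place k Fk₂)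
    (hRA : ∀ z ∈ RA, RegOn k x₁ z.1 ∧ RegOn k x₂ z.2)
    (hAiff : ∀ z : Fk₁ × Fk₂, RegOn k x₁ z.1 → RegOn k x₂ z.2 →
      (z ∈ RA ↔ ∀ i, valueAt (PA i) (hd₁ _) z.1 = valueAt (QA i) (hd₂ _) z.2))
    (hAreg : ∀ i, 0 ≤ (PA i).ord x₁ ∧ 0 ≤ (QA i).ord x₂)
    (hAmax : ∀ (v : Place k Fk₁) (w : Place k Fk₂), 0 ≤ v.ord x₁ → 0 ≤ w.ord x₂ →
      (∀ z ∈ RA, valueAt v (hd₁ v) z.1 = valueAt w (hd₂ w) z.2) → ∃ i, PA i = v ∧ QA i = w)
    (hRB : ∀ z ∈ RB, RegOn k x₁⁻¹ z.1 ∧ RegOn k x₂⁻¹ z.2)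
    (hBiff : ∀ z : Fk₁ × Fk₂, RegOn k x₁⁻¹ z.1 → RegOn k x₂⁻¹ z.2 →
      (z ∈ RB ↔ ∀ j, valueAt (PB j) (hd₁ _) z.1 = valueAt (QB j) (hd₂ _) z.2))
    (hBreg : ∀ j, 0 ≤ (PB j).ord x₁⁻¹ ∧ 0 ≤ (QB j).ord x₂⁻¹)
    (hBmax : ∀ (v : Place k Fk₁) (w : Place k Fk₂), 0 ≤ v.ord x₁⁻¹ → 0 ≤ w.ord x₂⁻¹ →
      (∀ z ∈ RB, valueAt v (hd₁ v) z.1 = valueAt w (hd₂ w) z.2) → ∃ j, PB j = v ∧ QB j = w)
    (hx : (x₁, x₂) ∈ RA) (hxi : (x₁⁻¹, x₂⁻¹) ∈ RB)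
    (hBA : ∀ z ∈ RB, ∃ n : ℕ, (x₁ ^ n * z.1, x₂ ^ n * z.2) ∈ RA)
    (hAB : ∀ z ∈ RA, ∃ n : ℕ, (x₁⁻¹ ^ n * z.1, x₂⁻¹ ^ n * z.2) ∈ RB)
    (u u' : Fk₂) (hu : (1, u) ∈ RA) (hu' : (1, u') ∈ RB)
    (hu0 : ∀ w : Place k Fk₂, 0 < w.ord x₂ → 0 < w.ord u)
    (hu'0 : ∀ w : Place k Fk₂, w.ord x₂ < 0 → 0 < w.ord u') :
    (∀ i, (PA i).ord x₁ = 0 ∧ (QA i).ord x₂ = 0) ∧
    (∀ z : Fk₁ × Fk₂, RegOn k x₁ z.1 → RegOn k x₂ z.2 →
      (z ∈ RA ↔ ∀ i, valueAt (PA i) (hd₁ _) z.1 = valueAt (QA i) (hd₂ _) z.2)) ∧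
    (∀ z : Fk₁ × Fk₂, RegOn k x₁⁻¹ z.1 → RegOn k x₂⁻¹ z.2 →
      (z ∈ RB ↔ ∀ i, valueAt (PA i) (hd₁ _) z.1 = valueAt (QA i) (hd₂ _) z.2)) := by
  obtain ⟨hA0, -, hAB', hBA'⟩ := same_nodes hd₁ hd₂ hx₁ hx₂ RA RB PA QA PB QB hRA
    (fun z hz => (hAiff z (hRA z hz).1 (hRA z hz).2).mp hz) hAreg hAmax hRB
    (fun z hz => (hBiff z (hRB z hz).1 (hRB z hz).2).mp hz) hBreg hBmax hx hxi hBA hAB u u'
    hu hu' hu0 hu'0
  refine ⟨hA0, hAiff, fun z h1 h2 => ?_⟩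
  rw [hBiff z h1 h2]
  constructor
  · intro h i
    obtain ⟨j, hj₁, hj₂⟩ := hAB' i
    rw [← valueAt_congr hj₁ (hd₁ _) (hd₁ _), ← valueAt_congr hj₂ (hd₂ _) (hd₂ _)]
    exact h j
  · intro h j
    obtain ⟨i, hi₁, hi₂⟩ := hBA' j
    rw [← valueAt_congr hi₁ (hd₁ _) (hd₁ _), ← valueAt_congr hi₂ (hd₂ _) (hd₂ _)]
    exact h i

end TwoCharts

end Fermat.Agent.S35.helper6174
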