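/-
S35/S34-NODEPLACES (helper825): from the ABSTRACT node output of the geometry module
(`helper2736.kron_conductor_graph_finset` + `helper541.mem_iff_forall_node`: node pairs are
`k`-algebra homs of abstract chart rings) to the PLACE-FORM node data consumed by
`helper603_NodalRRInst` / `helper603.card_nodes_and_saturation`.

Generic function fields over an algebraically closed field; no modular input.

* `chartAlg K x` : the chart ring of `x`, functions regular wherever `x` is regular.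
* `exists_place_of_algHom`, `place_unique_of_valueAt` (P1) : the `k`-points of the chart ring are
  the places of the chart, evaluation being `helper603.valueAt`.
* `exists_node_places` (P2) : a subalgebra `R` of `chartAlg x₁ × chartAlg x₂` containing the
  graph of a Frobenius-type map `F` and the transposed graph of `G` is cut out by finitely many
  node conditions `valueAt (P i) z.1 = valueAt (Q i) z.2` at places `P i`, `Q i` of the two charts
  (injective families), and every pair of places glued by `R` is one of them.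
* `exists_node_places_two_charts` (P3) : the charts `x` and `x⁻¹` have the same nodes.
-/
import Mathlib
import Fermat.Agent.S35.helper541_NodalAlgebra
import Fermat.Agent.S35.helper2736_KronConductor
import Fermat.Agent.S35.helper1549_FixPoints
import Fermat.Agent.S35.helper603_NodalRRInst
import Fermat.Agent.S35.helper6174_SameNodes
import Fermat.Agent.S18.helper7885_PlacesFF
import Fermat.Agent.S18.helper4307_PlacesAnyChar
import Fermat.Agent.S18.helper981_FundEq

set_option autoImplicit false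

noncomputable section

namespace Fermat.Agent.S35.helper825

open AlgebraicCurve WithZero Module IntermediateField
open Fermat.Agent.S18
open Fermat.Agent.S35.helper603 (valueAt valueAt_spec valueAt_unique)

/-! ### The chart ring -/

section ChartAlg

variable (K : Type*) {F : Type*} [Field K] [Field F] [Algebra K F]

/-- The chart ring of `x`: the functions that are regular at every place where `x` is regular
(the coordinate ring of the complement of the poles of `x`). -/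
def chartAlg (x : F) : Subalgebra K F where
  carrier := {f | ∀ v : Place K F, v.adicValuation x ≤ 1 → v.adicValuation f ≤ 1}
  mul_mem' := fun ha hb v hv => by rw [map_mul]; exact mul_le_one' (ha v hv) (hb v hv)
  add_mem' := fun ha hb v hv => v.adicValuation.map_add_le (ha v hv) (hb v hv)
  algebraMap_mem' := fun c v _ => v.adicValuation_algebraMap_le_one c

variable {K}

theorem mem_chartAlg {x f : F} :
    f ∈ chartAlg K x ↔ ∀ v : Place K F, v.adicValuation x ≤ 1 → v.adicValuation f ≤ 1 :=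
  Iff.rfl

theorem self_mem_chartAlg (x : F) : x ∈ chartAlg K x := fun _ hv => hv

/-- Evaluation at a place of the chart (of degree one), as a `K`-algebra hom on the chart
ring. -/
def pointAt {x : F} (v : Place K F) (hv : v.deg = 1) (hvx : v.adicValuation x ≤ 1) :
    chartAlg K x →ₐ[K] K where
  toFun f := valueAt v hv (f : F)
  map_one' := valueAt_unique _ _ (by simp)
  map_mul' f g := by
    refine valueAt_unique _ _ ?_
    have hf := valueAt_spec v hv (f.2 v hvx)
    have hg := valueAt_spec v hv (g.2 v hvx)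
    have : ((f * g : chartAlg K x) : F) -
        algebraMap K F (valueAt v hv f * valueAt v hv g) =
        ((f : F) - algebraMap K F (valueAt v hv f)) * (g : F) +
          algebraMap K F (valueAt v hv f) * ((g : F) - algebraMap K F (valueAt v hv g)) := by
      rw [map_mul]
      push_cast
      ring
    rw [this]
    refine v.adicValuation.map_add_lt ?_ ?_
    · rw [map_mul]
      exact (mul_le_mul' le_rfl (g.2 v hvx)).trans_lt (by rwa [mul_one])
    · rw [map_mul]
      exact (mul_le_mul' (v.adicValuation_algebraMap_le_one _) le_rfl).trans_lt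
        (by rwa [one_mul])
  map_zero' := valueAt_unique _ _ (by simp)
  map_add' f g := Fermat.Agent.S35.helper603.valueAt_add v hv (f.2 v hvx) (g.2 v hvx)
  commutes' c := valueAt_unique _ _ (by simp)

@[simp]
theorem pointAt_apply {x : F} (v : Place K F) (hv : v.deg = 1) (hvx : v.adicValuation x ≤ 1)
    (f : chartAlg K x) : pointAt v hv hvx f = valueAt v hv (f : F) := rfl

end ChartAlg

/-! ### (P1) The `k`-points of the chart ring are the places of the chart -/

section Points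

variable {K F : Type*} [Field K] [Field F] [Algebra K F] [IsAlgClosed K]

/-- Every place of a function field over an algebraically closed field has degree one. -/
theorem place_deg (x : F) [FiniteDimensional K⟮x⟯ F] (v : Place K F) : v.deg = 1 :=
  helper7885.place_deg_eq_one x v

/-- **(P1), existence.**  Every `K`-point `φ` of the chart ring of `x` is the evaluation at a
place `v` of the chart: `f - φ f` vanishes at `v` for every `f` of the chart ring. -/
theorem exists_place_of_algHom (x : F) (hx : Transcendental K x) [FiniteDimensional K⟮x⟯ F]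
    (φ : chartAlg K x →ₐ[K] K) :
    ∃ v : Place K F, v.adicValuation x ≤ 1 ∧
      ∀ f : chartAlg K x, v.adicValuation ((f : F) - algebraMap K F (φ f)) < 1 := by
  let A : Subring F := (chartAlg K x).toSubring
  let ψ : A →+* K :=
    { toFun := fun a => φ ⟨a.1, a.2⟩
      map_one' := map_one φ
      map_mul' := fun a b => map_mul φ ⟨a.1, a.2⟩ ⟨b.1, b.2⟩
      map_zero' := map_zero φ
      map_add' := fun a b => map_add φ ⟨a.1, a.2⟩ ⟨b.1, b.2⟩ }
  have hI : RingHom.ker ψ ≠ ⊤ := RingHom.ker_ne_top ψ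
  obtain ⟨O, hAO, hIO⟩ := Ideal.image_subset_nonunits_valuationSubring (RingHom.ker ψ) hI
  have hK : ∀ c : K, algebraMap K F c ∈ O := fun c => hAO ((chartAlg K x).algebraMap_mem c)
  have hnon : ∀ f : chartAlg K x, (f : F) - algebraMap K F (φ f) ∈ O.nonunits := by
    intro f
    have hmem : (f : F) - algebraMap K F (φ f) ∈ chartAlg K x :=
      sub_mem f.2 ((chartAlg K x).algebraMap_mem _)
    refine hIO ⟨⟨_, hmem⟩, ?_, rfl⟩
    rw [SetLike.mem_coe, RingHom.mem_ker]
    show φ ⟨(f : F) - algebraMap K F (φ f), hmem⟩ = 0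
    have h1 : (⟨(f : F) - algebraMap K F (φ f), hmem⟩ : chartAlg K x) =
        f - algebraMap K (chartAlg K x) (φ f) := Subtype.ext rfl
    rw [h1, map_sub, AlgHom.commutes]
    simp
  have hO : O ≠ ⊤ := by
    rintro rfl
    have h1 := hnon ⟨x, self_mem_chartAlg x⟩
    rcases (ValuationSubring.mem_nonunits_iff_or _).mp h1 with h | h
    · apply helper7885.not_mem_range_of_transcendental hx
      exact ⟨φ ⟨x, self_mem_chartAlg x⟩, (sub_eq_zero.mp h).symm⟩
    · exact h (ValuationSubring.mem_top _)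
  refine ⟨helper7885.placeOfValuationSubring O x hK hO, ?_, fun f => ?_⟩
  · exact (helper7885.mem_iff_adicValuation_le_one _).mp (hAO (self_mem_chartAlg x))
  · exact (helper7885.mem_nonunits_iff_adicValuation_lt_one _).mp (hnon f)

/-- **(P1), existence, `valueAt` form.** -/
theorem exists_place_valueAt (x : F) (hx : Transcendental K x) [FiniteDimensional K⟮x⟯ F]
    (φ : chartAlg K x →ₐ[K] K) :
    ∃ v : Place K F, ∃ hvx : v.adicValuation x ≤ 1, pointAt v (place_deg x v) hvx = φ := by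
  obtain ⟨v, hvx, hv⟩ := exists_place_of_algHom x hx φ
  exact ⟨v, hvx, AlgHom.ext fun f => valueAt_unique v (place_deg x v) (hv f)⟩

end Points

/-! ### The Riemann–Roch filtration of the chart ring -/

section ChartRR

variable {K F : Type*} [Field K] [Field F] [Algebra K F] [IsAlgClosed K]

/-- **The chart package.**  For a transcendental `x` with `[F : K(x)] < ∞`: the pole divisor
`Y` of `x` (effective, of degree `d > 0`, zero exactly at the places of the chart), the chart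
ring is the union of the Riemann–Roch spaces `L(n • Y)`, these are finite-dimensional, and
Riemann's equality holds in large degree. -/
theorem exists_chart_package (x : F) (hx : Transcendental K x) [FiniteDimensional K⟮x⟯ F] :
    ∃ (Y : Divisor K F) (d : ℕ) (g c : ℤ), 0 < d ∧ 0 ≤ Y ∧ Divisor.degree Y = d ∧
      (∀ v : Place K F, Y v = 0 ↔ v.adicValuation x ≤ 1) ∧
      (∀ f : F, f ∈ chartAlg K x ↔ ∃ n : ℕ, f ∈ riemannRochSpace (n • Y)) ∧
      (∀ D : Divisor K F, Module.Finite K (riemannRochSpace D)) ∧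
      (∀ D : Divisor K F, c ≤ Divisor.degree D →
        (finrank K (riemannRochSpace D) : ℤ) = Divisor.degree D + 1 - g) := by
  classical
  have hx0 : x ≠ 0 := fun h => hx (h ▸ isAlgebraic_zero)
  have := helper4307.hasPrincipalDivisors x hx
  have hdeg : ∀ v : Place K F, v.deg = 1 := place_deg x
  obtain ⟨P₀, -⟩ := helper7885.exists_place_adicValuation_lt_one x hx
  obtain ⟨X0, Y, -, hY, -, hY0, -, -, -, hYdeg⟩ := helper4307.exists_zero_pole_divisors x hx
  obtain ⟨-, c, hc⟩ := helper981.exists_forall_finrank_eq_of_transcendental x hx P₀ hdeg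
  have hYv : ∀ v : Place K F, Y v = 0 ↔ v.adicValuation x ≤ 1 := by
    intro v
    rw [hY v, v.adicValuation_le_one_iff, or_iff_right hx0]
    constructor
    · intro h
      have := le_max_right 0 (-(v.ord x))
      omega
    · intro h
      exact max_eq_left (by omega)
  have hYnn : ∀ v : Place K F, 0 ≤ Y v := fun v => by
    rw [hY v]
    exact le_max_left _ _
  refine ⟨Y, Module.finrank K⟮x⟯ F, helper981.riemannGenus K F, c, Module.finrank_pos, hY0,
    hYdeg, hYv, fun f => ⟨fun hf => ?_, ?_⟩,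
    fun D => helper981.finite_riemannRochSpace hdeg P₀ D, hc⟩
  · -- exhaustion
    rcases eq_or_ne f 0 with rfl | hf0
    · exact ⟨0, zero_mem _⟩
    refine ⟨Y.support.sup fun v => (-(v.ord f)).toNat, fun v => ?_⟩
    by_cases hv : Y v = 0
    · have := hf v ((hYv v).mp hv)
      simpa [hv] using this
    · have hvs : v ∈ Y.support := Finsupp.mem_support_iff.mpr hv
      have h1 : (-(v.ord f)).toNat ≤ Y.support.sup fun v => (-(v.ord f)).toNat :=
        Finset.le_sup (f := fun v : Place K F => (-(v.ord f)).toNat) hvs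
      have h2 : 1 ≤ Y v := by
        have := hYnn v
        omega
      rw [v.adicValuation_eq_exp_neg_ord hf0, exp_le_exp, Finsupp.smul_apply, nsmul_eq_mul]
      have h3 : -(v.ord f) ≤ ((-(v.ord f)).toNat : ℤ) := Int.self_le_toNat _
      have h4 : ((-(v.ord f)).toNat : ℤ) ≤
          ((Y.support.sup fun v => (-(v.ord f)).toNat : ℕ) : ℤ) := by exact_mod_cast h1
      have h5 : ((Y.support.sup fun v => (-(v.ord f)).toNat : ℕ) : ℤ) ≤
          ((Y.support.sup fun v => (-(v.ord f)).toNat : ℕ) : ℤ) * Y v :=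
        le_mul_of_one_le_right (Int.natCast_nonneg _) h2
      omega
  · rintro ⟨n, hn⟩ v hv
    have := hn v
    rwa [Finsupp.smul_apply, (hYv v).mpr hv, smul_zero, exp_zero] at this

/-- **(P1), uniqueness.**  A place of the chart is determined by its evaluation on the chart
ring. -/
theorem place_unique (x : F) (hx : Transcendental K x) [FiniteDimensional K⟮x⟯ F]
    {v w : Place K F} (hv : v.adicValuation x ≤ 1) (hw : w.adicValuation x ≤ 1)
    (h : ∀ f : chartAlg K x, valueAt v (place_deg x v) (f : F) = valueAt w (place_deg x w) f) :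
    v = w := by
  classical
  by_contra hne
  obtain ⟨Y, d, g, c, hd, -, hYdeg, hYv, hch, -, hR⟩ := exists_chart_package (K := K) x hx
  have := helper4307.hasPrincipalDivisors x hx
  have hdeg : ∀ v : Place K F, v.deg = 1 := place_deg x
  let P : Fin 2 → Place K F := ![v, w]
  have hP : Function.Injective P := by
    intro i j hij
    fin_cases i <;> fin_cases j
    · rfl
    · exact absurd hij hne
    · exact absurd hij.symm hne
    · rfl
  -- a level `n` with `c + 2 ≤ n * d`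
  obtain ⟨n, hn⟩ : ∃ n : ℕ, c + 2 ≤ (n : ℤ) * d := by
    refine ⟨(c + 2).toNat, ?_⟩
    have h1 : c + 2 ≤ ((c + 2).toNat : ℤ) := Int.self_le_toNat _
    have h2 : ((c + 2).toNat : ℤ) ≤ ((c + 2).toNat : ℤ) * d :=
      le_mul_of_one_le_right (Int.natCast_nonneg _) (by exact_mod_cast hd)
    omega
  have hE : ∀ i, (n • Y) (P i) = 0 := by
    intro i
    rw [Finsupp.smul_apply]
    fin_cases i
    · show n • Y v = 0
      rw [(hYv v).mpr hv, smul_zero]
    · show n • Y w = 0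
      rw [(hYv w).mpr hw, smul_zero]
  have hdegE : c + Fintype.card (Fin 2) ≤ Divisor.degree (n • Y) := by
    rw [map_nsmul, hYdeg, Fintype.card_fin, nsmul_eq_mul]
    push_cast
    exact hn
  obtain ⟨f, hf, hval⟩ := Fermat.Agent.S35.helper603.exists_mem_rr_values hdeg P hP g c hR
    (n • Y) hE hdegE ![0, 1]
  have hfc : f ∈ chartAlg K x := (hch f).mpr ⟨n, hf⟩
  have h0 : valueAt v (place_deg x v) f = 0 := hval 0
  have h1 : valueAt w (place_deg x w) f = 1 := hval 1
  have := h ⟨f, hfc⟩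
  rw [h0, h1] at this
  exact zero_ne_one this

end ChartRR

/-! ### Finiteness of the fixed-point quotient of a chart ring -/

section FixedQuotient

variable {K F : Type*} [Field K] [Field F] [Algebra K F] [IsAlgClosed K]

/-- A Frobenius-type endomorphism of the chart ring (all values are `q`-th powers, `q ≥ 2`)
is not the identity. -/
theorem exists_sub_ne_zero (x : F) (hx : Transcendental K x) [FiniteDimensional K⟮x⟯ F]
    {q : ℕ} (hq : 2 ≤ q) (Φ : chartAlg K x →ₐ[K] chartAlg K x)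
    (hΦ : ∀ u, ∃ w, Φ u = w ^ q) : ∃ u, u - Φ u ≠ 0 := by
  by_contra hall
  push Not at hall
  have hpow : ∀ u : chartAlg K x, ∃ w : chartAlg K x, u = w ^ q := fun u => by
    obtain ⟨w, hw⟩ := hΦ u
    exact ⟨w, by rw [← hw]; exact sub_eq_zero.mp (hall u)⟩
  obtain ⟨v, hv⟩ := helper7885.exists_place_adicValuation_lt_one x hx
  have hx0 : x ≠ 0 := fun h => hx (h ▸ isAlgebraic_zero)
  have key : ∀ n : ℕ, ∀ u : chartAlg K x, (u : F) ≠ 0 → v.ord (u : F) = n → n = 0 := by
    intro n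
    induction n using Nat.strong_induction_on with
    | _ n ih =>
      intro u hu0 hun
      by_contra hn
      obtain ⟨w, rfl⟩ := hpow u
      have hcoe : ((w ^ q : chartAlg K x) : F) = (w : F) ^ q := rfl
      have hw0 : (w : F) ≠ 0 := by
        intro h
        apply hu0
        rw [hcoe, h, zero_pow (by omega)]
      have hord : v.ord ((w ^ q : chartAlg K x) : F) = q * v.ord (w : F) := by
        rw [hcoe, ← zpow_natCast, v.ord_zpow]
      rw [hord] at hun
      have hwpos : 0 < v.ord (w : F) := by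
        by_contra hle
        push Not at hle
        have h1 : (q : ℤ) * v.ord (w : F) ≤ 0 :=
          mul_nonpos_of_nonneg_of_nonpos (Int.natCast_nonneg _) hle
        omega
      have h2 : 2 * v.ord (w : F) ≤ q * v.ord (w : F) :=
        mul_le_mul_of_nonneg_right (by exact_mod_cast hq) hwpos.le
      have hlt : (v.ord (w : F)).toNat < n := by omega
      have h3 := ih _ hlt w hw0 (Int.toNat_of_nonneg hwpos.le).symm
      omega
  have h1 : 0 < v.ord x := (helper7885.ord_pos_iff v hx0).mpr hv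
  have h2 := key (v.ord x).toNat ⟨x, self_mem_chartAlg x⟩ hx0 (Int.toNat_of_nonneg h1.le).symm
  omega

/-- The quotient of the chart ring by the fixed-point ideal of a Frobenius-type endomorphism is
finite-dimensional (no finite-type hypothesis on the chart ring: Riemann–Roch filtration). -/
theorem finite_quotient_fixedIdeal (x : F) (hx : Transcendental K x) [FiniteDimensional K⟮x⟯ F]
    {q : ℕ} (hq : 2 ≤ q) (Φ : chartAlg K x →ₐ[K] chartAlg K x)
    (hΦ : ∀ u, ∃ w, Φ u = w ^ q) :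
    Module.Finite K (chartAlg K x ⧸ Fermat.Agent.S35.helper2736.fixedIdeal Φ) := by
  classical
  obtain ⟨Y, d, g, c, hd, hY0, hYdeg, hYv, hch, hfin, hR⟩ := exists_chart_package (K := K) x hx
  obtain ⟨u, hu⟩ := exists_sub_ne_zero x hx hq Φ hΦ
  obtain ⟨e, he⟩ := (hch _).mp (u - Φ u).2
  have : ∀ n : ℕ, Module.Finite K (riemannRochSpace (n • Y)) := fun n => hfin _
  have hmono : Monotone fun n : ℕ => riemannRochSpace (n • Y) := by
    intro m n hmn
    refine helper981.riemannRochSpace_mono (Finsupp.le_def.mpr fun v => ?_)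
    rw [Finsupp.smul_apply, Finsupp.smul_apply]
    exact nsmul_le_nsmul_left (Finsupp.le_def.mp hY0 v) hmn
  have hdim : ∀ n : ℕ, c.toNat ≤ n →
      finrank K (riemannRochSpace ((n + e) • Y)) ≤ finrank K (riemannRochSpace (n • Y)) + e * d := by
    intro n hn
    have hcn : c ≤ (n : ℤ) * d := by
      have h1 : c ≤ (c.toNat : ℤ) := Int.self_le_toNat _
      have h2 : (c.toNat : ℤ) ≤ n := by exact_mod_cast hn
      have h3 : (n : ℤ) ≤ (n : ℤ) * d :=
        le_mul_of_one_le_right (Int.natCast_nonneg _) (by exact_mod_cast hd)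
      omega
    have hd1 : Divisor.degree (n • Y) = (n : ℤ) * d := by
      rw [map_nsmul, hYdeg, nsmul_eq_mul]
    have hd2 : Divisor.degree ((n + e) • Y) = ((n : ℤ) + e) * d := by
      rw [map_nsmul, hYdeg, nsmul_eq_mul]
      push_cast
      ring
    have h1 := hR (n • Y) (by rw [hd1]; exact hcn)
    have h2 := hR ((n + e) • Y) (by
      rw [hd2]
      have : (0 : ℤ) ≤ (e : ℤ) * d := by positivity
      nlinarith)
    rw [hd1] at h1
    rw [hd2] at h2
    have h3 : (finrank K (riemannRochSpace ((n + e) • Y)) : ℤ) =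
        (finrank K (riemannRochSpace (n • Y)) : ℤ) + (e : ℤ) * d := by
      rw [h1, h2]
      ring
    exact_mod_cast h3.le
  refine (Fermat.Agent.S35.helper1549.finite_quotient_of_filtration_subalgebra (chartAlg K x)
    (Fermat.Agent.S35.helper2736.fixedIdeal Φ) (fun n : ℕ => riemannRochSpace (n • Y)) hmono
    (fun n f hf => (hch f).mpr ⟨n, hf⟩) (fun b hb => (hch b).mp hb) (u - Φ u)
    (Fermat.Agent.S35.helper2736.sub_mem_fixedIdeal Φ u) (fun a _ ha => ?_) e (e * d) c.toNat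
    (fun n b hb v => ?_) hdim).1
  · rcases mul_eq_zero.mp ha with h | h
    · exact absurd (Subtype.ext h) hu
    · exact h
  · have h1 := he v
    have h2 := hb v
    rw [map_mul]
    calc v.adicValuation ((u - Φ u : chartAlg K x) : F) * v.adicValuation b
        ≤ exp ((e • Y) v) * exp ((n • Y) v) := mul_le_mul' h1 h2
      _ = exp (((n + e) • Y) v) := by
        rw [← exp_add]
        congr 1
        simp only [Finsupp.smul_apply, nsmul_eq_mul]
        push_cast
        ring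

end FixedQuotient

/-! ### (P1) for an abstract presentation of the chart ring -/

section Abstract

variable {K F : Type*} [Field K] [Field F] [Algebra K F] [IsAlgClosed K]
variable {B : Type*} [CommRing B] [Algebra K B]

/-- The `K`-point of an abstract chart ring `B` (embedded in `F` by `ι` with range the chart
ring of `x`) given by a place of the chart. -/
def pointOf {x : F} [FiniteDimensional K⟮x⟯ F] (ι : B →ₐ[K] F)
    (hr : ∀ f, f ∈ chartAlg K x ↔ ∃ b, ι b = f) (v : Place K F)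
    (hvx : v.adicValuation x ≤ 1) : B →ₐ[K] K :=
  (pointAt v (place_deg x v) hvx).comp
    (ι.codRestrict (chartAlg K x) fun b => (hr _).mpr ⟨b, rfl⟩)

@[simp]
theorem pointOf_apply {x : F} [FiniteDimensional K⟮x⟯ F] (ι : B →ₐ[K] F)
    (hr : ∀ f, f ∈ chartAlg K x ↔ ∃ b, ι b = f) (v : Place K F)
    (hvx : v.adicValuation x ≤ 1) (b : B) :
    pointOf ι hr v hvx b = valueAt v (place_deg x v) (ι b) := rfl

/-- **(P1), existence, abstract chart ring.**  Every `K`-point of `B` is the evaluation at a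
place of the chart. -/
theorem exists_place_pointOf (x : F) (hx : Transcendental K x) [FiniteDimensional K⟮x⟯ F]
    (ι : B →ₐ[K] F) (hι : Function.Injective ι) (hr : ∀ f, f ∈ chartAlg K x ↔ ∃ b, ι b = f)
    (φ : B →ₐ[K] K) :
    ∃ v : Place K F, ∃ hvx : v.adicValuation x ≤ 1, pointOf ι hr v hvx = φ := by
  let ι' : B →ₐ[K] chartAlg K x := ι.codRestrict (chartAlg K x) fun b => (hr _).mpr ⟨b, rfl⟩
  have hbij : Function.Bijective ι' := by
    refine ⟨fun a b hab => hι (congrArg Subtype.val hab), fun f => ?_⟩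
    obtain ⟨b, hb⟩ := (hr _).mp f.2
    exact ⟨b, Subtype.ext hb⟩
  let e : B ≃ₐ[K] chartAlg K x := AlgEquiv.ofBijective ι' hbij
  obtain ⟨v, hvx, hv⟩ := exists_place_valueAt x hx (φ.comp (e.symm : chartAlg K x →ₐ[K] B))
  refine ⟨v, hvx, AlgHom.ext fun b => ?_⟩
  have h1 := congrArg (fun ψ : chartAlg K x →ₐ[K] K => ψ (e b)) hv
  have h2 : (e.symm : chartAlg K x →ₐ[K] B) (e b) = b := e.symm_apply_apply b
  simp only [AlgHom.comp_apply] at h1
  rw [h2] at h1
  exact h1

/-- **(P1), uniqueness, abstract chart ring.** -/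
theorem place_unique_of_pointOf (x : F) (hx : Transcendental K x) [FiniteDimensional K⟮x⟯ F]
    (ι : B →ₐ[K] F) (hr : ∀ f, f ∈ chartAlg K x ↔ ∃ b, ι b = f)
    {v w : Place K F} (hv : v.adicValuation x ≤ 1) (hw : w.adicValuation x ≤ 1)
    (h : ∀ b : B, valueAt v (place_deg x v) (ι b) = valueAt w (place_deg x w) (ι b)) :
    v = w := by
  refine place_unique x hx hv hw fun f => ?_
  obtain ⟨b, hb⟩ := (hr _).mp f.2
  rw [← hb]
  exact h b

end Abstract

/-! ### (P2) Node places -/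

section NodePlaces

variable {k : Type*} [Field k] [IsAlgClosed k]
variable {F₁ F₂ : Type*} [Field F₁] [Field F₂] [Algebra k F₁] [Algebra k F₂]
variable {B₁ B₂ : Type*} [CommRing B₁] [CommRing B₂] [Algebra k B₁] [Algebra k B₂]

omit [IsAlgClosed k] in
/-- If `R ⊆ B₁ × B₂` contains the conductor `J₁ × J₂` cut out by the finite sets `S₁`, `S₂` of
`k`-points, every node of `R` lies in `S₁ × S₂`. -/
theorem node_mem_of_conductor (R : Subalgebra k (B₁ × B₂))
    (S₁ : Finset (B₁ →ₐ[k] k)) (S₂ : Finset (B₂ →ₐ[k] k))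
    (hJ : ∀ x : B₁ × B₂, (∀ φ ∈ S₁, φ x.1 = 0) → (∀ ψ ∈ S₂, ψ x.2 = 0) → x ∈ R)
    (p : (B₁ →ₐ[k] k) × (B₂ →ₐ[k] k)) (hp : Fermat.Agent.S35.helper541.IsNode R p) :
    p.1 ∈ S₁ ∧ p.2 ∈ S₂ := by
  constructor
  · by_contra hmem
    obtain ⟨u, -, hu1, hu0⟩ := Fermat.Agent.S35.helper541.exists_separator
      (⊤ : Subalgebra k B₁) S₁ p.1
    have hmemR : ((u, 0) : B₁ × B₂) ∈ R := hJ (u, 0) (fun φ hφ => hu0 φ hφ fun h =>
      hmem (by
        have : φ = p.1 := AlgHom.ext fun r => h r Algebra.mem_top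
        rwa [← this])) (fun ψ _ => map_zero ψ)
    have := hp _ hmemR
    rw [hu1, map_zero] at this
    exact one_ne_zero this
  · by_contra hmem
    obtain ⟨u, -, hu1, hu0⟩ := Fermat.Agent.S35.helper541.exists_separator
      (⊤ : Subalgebra k B₂) S₂ p.2
    have hmemR : ((0, u) : B₁ × B₂) ∈ R := hJ (0, u) (fun φ _ => map_zero φ)
      (fun ψ hψ => hu0 ψ hψ fun h =>
      hmem (by
        have : ψ = p.2 := AlgHom.ext fun r => h r Algebra.mem_top
        rwa [← this]))
    have := hp _ hmemR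
    rw [hu1, map_zero] at this
    exact zero_ne_one this

/-- **(P2) Node places.**  Let `B₁`, `B₂` be (abstract presentations of) the chart rings of
`x₁ ∈ F₁`, `x₂ ∈ F₂`, and `R ⊆ B₁ × B₂` a subalgebra with both projections onto and containing
the conductor cut out by finite sets `S₁`, `S₂` of `k`-points (the hypotheses of
`helper541.mem_iff_forall_node`, as supplied by `helper2736.kron_conductor_graph_finset` /
`kron_conductor_modular_finset`).  Then `R` is cut out by finitely many node conditions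
`valueAt (P i) r.1 = valueAt (Q i) r.2` at places of the two charts (injective families), and
every pair of chart places glued by `R` is one of the `(P i, Q i)`. -/
theorem exists_node_places (x₁ : F₁) (x₂ : F₂) (hx₁ : Transcendental k x₁)
    (hx₂ : Transcendental k x₂) [FiniteDimensional k⟮x₁⟯ F₁] [FiniteDimensional k⟮x₂⟯ F₂]
    (ι₁ : B₁ →ₐ[k] F₁) (ι₂ : B₂ →ₐ[k] F₂) (hι₁ : Function.Injective ι₁)
    (hι₂ : Function.Injective ι₂) (hr₁ : ∀ f, f ∈ chartAlg k x₁ ↔ ∃ b, ι₁ b = f)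
    (hr₂ : ∀ f, f ∈ chartAlg k x₂ ↔ ∃ b, ι₂ b = f)
    (R : Subalgebra k (B₁ × B₂)) (S₁ : Finset (B₁ →ₐ[k] k)) (S₂ : Finset (B₂ →ₐ[k] k))
    (hfst : ∀ a : B₁, ∃ r ∈ R, r.1 = a) (hsnd : ∀ b : B₂, ∃ r ∈ R, r.2 = b)
    (hJ : ∀ x : B₁ × B₂, (∀ φ ∈ S₁, φ x.1 = 0) → (∀ ψ ∈ S₂, ψ x.2 = 0) → x ∈ R) :
    ∃ (I : Type) (_ : Fintype I) (P : I → Place k F₁) (Q : I → Place k F₂),
      Function.Injective P ∧ Function.Injective Q ∧
      (∀ i, (P i).adicValuation x₁ ≤ 1) ∧ (∀ i, (Q i).adicValuation x₂ ≤ 1) ∧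
      (∀ r : B₁ × B₂, r ∈ R ↔ ∀ i, valueAt (P i) (place_deg x₁ (P i)) (ι₁ r.1) =
        valueAt (Q i) (place_deg x₂ (Q i)) (ι₂ r.2)) ∧
      ∀ (v : Place k F₁) (w : Place k F₂), v.adicValuation x₁ ≤ 1 → w.adicValuation x₂ ≤ 1 →
        (∀ r ∈ R, valueAt v (place_deg x₁ v) (ι₁ r.1) = valueAt w (place_deg x₂ w) (ι₂ r.2)) →
        ∃ i, P i = v ∧ Q i = w := by
  classical
  set N := Fermat.Agent.S35.helper541.nodeSet R S₁ S₂ with hN
  let nd : Fin N.card → (B₁ →ₐ[k] k) × (B₂ →ₐ[k] k) := fun i => (N.equivFin.symm i : _)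
  have hnd : ∀ i, nd i ∈ N := fun i => (N.equivFin.symm i).2
  have hnode : ∀ i, Fermat.Agent.S35.helper541.IsNode R (nd i) := fun i =>
    (Fermat.Agent.S35.helper541.mem_nodeSet.mp (hnd i)).2.2
  have hnd_inj : Function.Injective nd := fun i j hij =>
    N.equivFin.symm.injective (Subtype.ext hij)
  have hex₁ := fun i => exists_place_pointOf x₁ hx₁ ι₁ hι₁ hr₁ (nd i).1
  have hex₂ := fun i => exists_place_pointOf x₂ hx₂ ι₂ hι₂ hr₂ (nd i).2
  choose P hPx hP using hex₁
  choose Q hQx hQ using hex₂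
  have hPval : ∀ i b, valueAt (P i) (place_deg x₁ (P i)) (ι₁ b) = (nd i).1 b := fun i b => by
    rw [← hP i]; rfl
  have hQval : ∀ i b, valueAt (Q i) (place_deg x₂ (Q i)) (ι₂ b) = (nd i).2 b := fun i b => by
    rw [← hQ i]; rfl
  refine ⟨Fin N.card, inferInstance, P, Q, fun i j hij => ?_, fun i j hij => ?_, hPx, hQx,
    fun r => ?_, fun v w hv hw hvw => ?_⟩
  · refine hnd_inj (Fermat.Agent.S35.helper541.node_snd_unique hsnd (hnode i) (hnode j) ?_)
    rw [← hP i, ← hP j]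
    exact AlgHom.ext fun b => by
      simp only [pointOf_apply]
      congr 1
  · refine hnd_inj (Fermat.Agent.S35.helper541.node_fst_unique hfst (hnode i) (hnode j) ?_)
    rw [← hQ i, ← hQ j]
    exact AlgHom.ext fun b => by
      simp only [pointOf_apply]
      congr 1
  · rw [Fermat.Agent.S35.helper541.mem_iff_forall_node R S₁ S₂ hfst hsnd hJ r]
    constructor
    · intro h i
      rw [hPval, hQval]
      exact h _ (hnd i)
    · intro h p hp
      have := h (N.equivFin ⟨p, hp⟩)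
      rw [hPval, hQval] at this
      have hp' : nd (N.equivFin ⟨p, hp⟩) = p := by
        show ((N.equivFin.symm (N.equivFin ⟨p, hp⟩) : N) : _) = p
        rw [Equiv.symm_apply_apply]
      rwa [hp'] at this
  · let p : (B₁ →ₐ[k] k) × (B₂ →ₐ[k] k) := (pointOf ι₁ hr₁ v hv, pointOf ι₂ hr₂ w hw)
    have hpnode : Fermat.Agent.S35.helper541.IsNode R p := fun r hr => hvw r hr
    have hpS := node_mem_of_conductor R S₁ S₂ hJ p hpnode
    have hp : p ∈ N := Fermat.Agent.S35.helper541.mem_nodeSet.mpr ⟨hpS.1, hpS.2, hpnode⟩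
    have hp' : nd (N.equivFin ⟨p, hp⟩) = p := by
      show ((N.equivFin.symm (N.equivFin ⟨p, hp⟩) : N) : _) = p
      rw [Equiv.symm_apply_apply]
    refine ⟨N.equivFin ⟨p, hp⟩, ?_, ?_⟩
    · refine place_unique_of_pointOf x₁ hx₁ ι₁ hr₁ (hPx _) hv fun b => ?_
      rw [hPval, hp']
      rfl
    · refine place_unique_of_pointOf x₂ hx₂ ι₂ hr₂ (hQx _) hw fun b => ?_
      rw [hQval, hp']
      rfl

end NodePlaces

/-! ### The chart `x⁻¹` -/

section Inv

variable {K F : Type*} [Field K] [Field F] [Algebra K F]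

theorem transcendental_inv {x : F} (hx : Transcendental K x) : Transcendental K x⁻¹ :=
  fun h => hx (IsAlgebraic.inv_iff.mp h)

theorem adjoin_simple_inv (x : F) : K⟮x⁻¹⟯ = K⟮x⟯ := by
  refine le_antisymm (adjoin_simple_le_iff.mpr (inv_mem (mem_adjoin_simple_self K x)))
    (adjoin_simple_le_iff.mpr ?_)
  have := inv_mem (mem_adjoin_simple_self K x⁻¹)
  rwa [inv_inv] at this

theorem finiteDimensional_inv (x : F) [h : FiniteDimensional K⟮x⟯ F] :
    FiniteDimensional K⟮x⁻¹⟯ F := by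
  rw [adjoin_simple_inv]
  exact h

/-- `helper6174.RegOn` is membership in the chart ring. -/
theorem regOn_iff {x f : F} : Fermat.Agent.S35.helper6174.RegOn K x f ↔ f ∈ chartAlg K x :=
  forall_congr' fun v => by
    rw [Fermat.Agent.S35.helper6174.ord_nonneg_iff, Fermat.Agent.S35.helper6174.ord_nonneg_iff]

end Inv

/-! ### (P3) Two charts, one family of nodes -/

section TwoCharts

variable {k : Type*} [Field k] [IsAlgClosed k]
variable {F₁ F₂ : Type*} [Field F₁] [Field F₂] [Algebra k F₁] [Algebra k F₂]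
variable {A₁ A₂ : Type*} [CommRing A₁] [CommRing A₂] [Algebra k A₁] [Algebra k A₂]
variable {B₁ B₂ : Type*} [CommRing B₁] [CommRing B₂] [Algebra k B₁] [Algebra k B₂]

/-- **(P2) + (P3): the node package of two charts.**  `A₁`, `A₂` present the chart rings of
`x₁`, `x₂` (functions regular off the poles), `B₁`, `B₂` those of `x₁⁻¹`, `x₂⁻¹` (regular off
the zeros).  `RA ⊆ A₁ × A₂` and `RB ⊆ B₁ × B₂` satisfy the hypotheses of
`helper541.mem_iff_forall_node` (projections onto, conductor cut out by finitely many points).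
If `(x₁, x₂) ∈ RA`, `(x₁⁻¹, x₂⁻¹) ∈ RB`, the two rings are transported into each other by powers
of the chart function, and there are units `(1, u) ∈ RA`, `(1, u') ∈ RB` with `u` vanishing at
the zeros and `u'` at the poles of `x₂`, then ONE finite family of pairs of places
`(P i, Q i)`, lying off the zeros and poles of `x₁`, `x₂` and injective in each coordinate, cuts
out both `RA` and `RB`; and every pair of places of either chart glued by the corresponding
ring is in the family. -/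
theorem exists_node_places_two_charts (x₁ : F₁) (x₂ : F₂) (hx₁ : Transcendental k x₁)
    (hx₂ : Transcendental k x₂) [FiniteDimensional k⟮x₁⟯ F₁] [FiniteDimensional k⟮x₂⟯ F₂]
    -- chart `A`
    (ιA₁ : A₁ →ₐ[k] F₁) (ιA₂ : A₂ →ₐ[k] F₂) (hιA₁ : Function.Injective ιA₁)
    (hιA₂ : Function.Injective ιA₂) (hrA₁ : ∀ f, f ∈ chartAlg k x₁ ↔ ∃ b, ιA₁ b = f)
    (hrA₂ : ∀ f, f ∈ chartAlg k x₂ ↔ ∃ b, ιA₂ b = f)
    (RA : Subalgebra k (A₁ × A₂)) (SA₁ : Finset (A₁ →ₐ[k] k)) (SA₂ : Finset (A₂ →ₐ[k] k))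
    (hfstA : ∀ a : A₁, ∃ r ∈ RA, r.1 = a) (hsndA : ∀ b : A₂, ∃ r ∈ RA, r.2 = b)
    (hJA : ∀ x : A₁ × A₂, (∀ φ ∈ SA₁, φ x.1 = 0) → (∀ ψ ∈ SA₂, ψ x.2 = 0) → x ∈ RA)
    -- chart `B`
    (ιB₁ : B₁ →ₐ[k] F₁) (ιB₂ : B₂ →ₐ[k] F₂) (hιB₁ : Function.Injective ιB₁)
    (hιB₂ : Function.Injective ιB₂) (hrB₁ : ∀ f, f ∈ chartAlg k x₁⁻¹ ↔ ∃ b, ιB₁ b = f)
    (hrB₂ : ∀ f, f ∈ chartAlg k x₂⁻¹ ↔ ∃ b, ιB₂ b = f)
    (RB : Subalgebra k (B₁ × B₂)) (SB₁ : Finset (B₁ →ₐ[k] k)) (SB₂ : Finset (B₂ →ₐ[k] k))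
    (hfstB : ∀ a : B₁, ∃ r ∈ RB, r.1 = a) (hsndB : ∀ b : B₂, ∃ r ∈ RB, r.2 = b)
    (hJB : ∀ x : B₁ × B₂, (∀ φ ∈ SB₁, φ x.1 = 0) → (∀ ψ ∈ SB₂, ψ x.2 = 0) → x ∈ RB)
    -- the chart function, transport, and the two units
    (hx : ∃ r ∈ RA, ιA₁ r.1 = x₁ ∧ ιA₂ r.2 = x₂)
    (hxi : ∃ r ∈ RB, ιB₁ r.1 = x₁⁻¹ ∧ ιB₂ r.2 = x₂⁻¹)
    (hBA : ∀ z ∈ RB, ∃ n : ℕ, ∃ r ∈ RA,
      ιA₁ r.1 = x₁ ^ n * ιB₁ z.1 ∧ ιA₂ r.2 = x₂ ^ n * ιB₂ z.2)
    (hAB : ∀ z ∈ RA, ∃ n : ℕ, ∃ r ∈ RB,
      ιB₁ r.1 = x₁⁻¹ ^ n * ιA₁ z.1 ∧ ιB₂ r.2 = x₂⁻¹ ^ n * ιA₂ z.2)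
    (u u' : F₂) (hu : ∃ r ∈ RA, ιA₁ r.1 = 1 ∧ ιA₂ r.2 = u)
    (hu' : ∃ r ∈ RB, ιB₁ r.1 = 1 ∧ ιB₂ r.2 = u')
    (hu0 : ∀ w : Place k F₂, 0 < w.ord x₂ → 0 < w.ord u)
    (hu'0 : ∀ w : Place k F₂, w.ord x₂ < 0 → 0 < w.ord u') :
    ∃ (I : Type) (_ : Fintype I) (P : I → Place k F₁) (Q : I → Place k F₂),
      Function.Injective P ∧ Function.Injective Q ∧
      (∀ i, (P i).ord x₁ = 0 ∧ (Q i).ord x₂ = 0) ∧
      (∀ r : A₁ × A₂, r ∈ RA ↔ ∀ i, valueAt (P i) (place_deg x₁ (P i)) (ιA₁ r.1) =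
        valueAt (Q i) (place_deg x₂ (Q i)) (ιA₂ r.2)) ∧
      (∀ r : B₁ × B₂, r ∈ RB ↔ ∀ i, valueAt (P i) (place_deg x₁ (P i)) (ιB₁ r.1) =
        valueAt (Q i) (place_deg x₂ (Q i)) (ιB₂ r.2)) ∧
      (∀ (v : Place k F₁) (w : Place k F₂), 0 ≤ v.ord x₁ → 0 ≤ w.ord x₂ →
        (∀ r ∈ RA, valueAt v (place_deg x₁ v) (ιA₁ r.1) = valueAt w (place_deg x₂ w) (ιA₂ r.2)) →
        ∃ i, P i = v ∧ Q i = w) ∧
      (∀ (v : Place k F₁) (w : Place k F₂), v.ord x₁ ≤ 0 → w.ord x₂ ≤ 0 →
        (∀ r ∈ RB, valueAt v (place_deg x₁ v) (ιB₁ r.1) = valueAt w (place_deg x₂ w) (ιB₂ r.2)) →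
        ∃ i, P i = v ∧ Q i = w) := by
  have hx₁0 : x₁ ≠ 0 := fun h => hx₁ (h ▸ isAlgebraic_zero)
  have hx₂0 : x₂ ≠ 0 := fun h => hx₂ (h ▸ isAlgebraic_zero)
  have := finiteDimensional_inv (K := k) x₁
  have := finiteDimensional_inv (K := k) x₂
  have hd₁ : ∀ v : Place k F₁, v.deg = 1 := place_deg x₁
  have hd₂ : ∀ w : Place k F₂, w.deg = 1 := place_deg x₂
  obtain ⟨IA, hIA, PA, QA, hPA, hQA, hPAx, hQAx, hAiff, hAmax⟩ :=
    exists_node_places x₁ x₂ hx₁ hx₂ ιA₁ ιA₂ hιA₁ hιA₂ hrA₁ hrA₂ RA SA₁ SA₂ hfstA hsndA hJA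
  obtain ⟨IB, hIB, PB, QB, hPB, hQB, hPBx, hQBx, hBiff, hBmax⟩ :=
    exists_node_places x₁⁻¹ x₂⁻¹ (transcendental_inv hx₁) (transcendental_inv hx₂) ιB₁ ιB₂
      hιB₁ hιB₂ hrB₁ hrB₂ RB SB₁ SB₂ hfstB hsndB hJB
  let RA' : Set (F₁ × F₂) := (fun r : A₁ × A₂ => (ιA₁ r.1, ιA₂ r.2)) '' (RA : Set (A₁ × A₂))
  let RB' : Set (F₁ × F₂) := (fun r : B₁ × B₂ => (ιB₁ r.1, ιB₂ r.2)) '' (RB : Set (B₁ × B₂))
  have hord₁ : ∀ (v : Place k F₁) (f : F₁), 0 ≤ v.ord f ↔ v.adicValuation f ≤ 1 :=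
    Fermat.Agent.S35.helper6174.ord_nonneg_iff
  have hord₂ : ∀ (w : Place k F₂) (f : F₂), 0 ≤ w.ord f ↔ w.adicValuation f ≤ 1 :=
    Fermat.Agent.S35.helper6174.ord_nonneg_iff
  obtain ⟨hA0, -, hAB', hBA'⟩ := Fermat.Agent.S35.helper6174.same_nodes hd₁ hd₂ hx₁0 hx₂0
    RA' RB' PA QA PB QB
    (by
      rintro _ ⟨r, -, rfl⟩
      exact ⟨regOn_iff.mpr ((hrA₁ _).mpr ⟨_, rfl⟩), regOn_iff.mpr ((hrA₂ _).mpr ⟨_, rfl⟩)⟩)
    (by
      rintro _ ⟨r, hr, rfl⟩ i
      exact (hAiff r).mp hr i)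
    (fun i => ⟨(hord₁ _ _).mpr (hPAx i), (hord₂ _ _).mpr (hQAx i)⟩)
    (fun v w hv hw h => hAmax v w ((hord₁ _ _).mp hv) ((hord₂ _ _).mp hw)
      fun r hr => h _ ⟨r, hr, rfl⟩)
    (by
      rintro _ ⟨r, -, rfl⟩
      exact ⟨regOn_iff.mpr ((hrB₁ _).mpr ⟨_, rfl⟩), regOn_iff.mpr ((hrB₂ _).mpr ⟨_, rfl⟩)⟩)
    (by
      rintro _ ⟨r, hr, rfl⟩ i
      exact (hBiff r).mp hr i)
    (fun i => ⟨(hord₁ _ _).mpr (hPBx i), (hord₂ _ _).mpr (hQBx i)⟩)
    (fun v w hv hw h => hBmax v w ((hord₁ _ _).mp hv) ((hord₂ _ _).mp hw)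
      fun r hr => h _ ⟨r, hr, rfl⟩)
    (by
      obtain ⟨r, hr, h1, h2⟩ := hx
      exact ⟨r, hr, Prod.ext h1 h2⟩)
    (by
      obtain ⟨r, hr, h1, h2⟩ := hxi
      exact ⟨r, hr, Prod.ext h1 h2⟩)
    (by
      rintro _ ⟨z, hz, rfl⟩
      obtain ⟨n, r, hr, h1, h2⟩ := hBA z hz
      exact ⟨n, r, hr, Prod.ext h1 h2⟩)
    (by
      rintro _ ⟨z, hz, rfl⟩
      obtain ⟨n, r, hr, h1, h2⟩ := hAB z hz
      exact ⟨n, r, hr, Prod.ext h1 h2⟩)
    u u'
    (by
      obtain ⟨r, hr, h1, h2⟩ := hu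
      exact ⟨r, hr, Prod.ext h1 h2⟩)
    (by
      obtain ⟨r, hr, h1, h2⟩ := hu'
      exact ⟨r, hr, Prod.ext h1 h2⟩)
    hu0 hu'0
  refine ⟨IA, hIA, PA, QA, hPA, hQA, hA0, hAiff, fun r => ?_, fun v w hv hw h => ?_,
    fun v w hv hw h => ?_⟩
  · rw [hBiff r]
    constructor
    · intro h i
      obtain ⟨j, hj₁, hj₂⟩ := hAB' i
      rw [← Fermat.Agent.S35.helper6174.valueAt_congr hj₁ (hd₁ _) (hd₁ _),
        ← Fermat.Agent.S35.helper6174.valueAt_congr hj₂ (hd₂ _) (hd₂ _)]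
      exact h j
    · intro h j
      obtain ⟨i, hi₁, hi₂⟩ := hBA' j
      rw [← Fermat.Agent.S35.helper6174.valueAt_congr hi₁ (hd₁ _) (hd₁ _),
        ← Fermat.Agent.S35.helper6174.valueAt_congr hi₂ (hd₂ _) (hd₂ _)]
      exact h i
  · exact hAmax v w ((hord₁ _ _).mp hv) ((hord₂ _ _).mp hw) h
  · have hv' : v.adicValuation x₁⁻¹ ≤ 1 := by
      rw [← hord₁, Place.ord_inv]
      omega
    have hw' : w.adicValuation x₂⁻¹ ≤ 1 := by
      rw [← hord₂, Place.ord_inv]
      omega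
    obtain ⟨j, hj₁, hj₂⟩ := hBmax v w hv' hw' h
    obtain ⟨i, hi₁, hi₂⟩ := hBA' j
    exact ⟨i, hi₁.trans hj₁, hi₂.trans hj₂⟩

end TwoCharts

/-! ### The chart of `x ^ n`

The chart ring is the integral closure of `K[x]` in `F`: that bridge is
`helper7984.isIntegral_adjoin_iff_forall_place` (S35/helper7984_ChartPoints), which applies to
`chartAlg` by `Iff.rfl`. -/

section Integral

variable {K F : Type*} [Field K] [Field F] [Algebra K F]

/-- The charts of `x` and of `x ^ n` (`n ≠ 0`) are the same. -/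
theorem chartAlg_pow (x : F) {n : ℕ} (hn : n ≠ 0) : chartAlg K (x ^ n) = chartAlg K x := by
  ext f
  refine forall_congr' fun v => ?_
  rw [map_pow, pow_le_one_iff hn]

/-- `F` is finite over `K(x ^ n)` (`n ≠ 0`) as soon as it is finite over `K(x)`. -/
theorem finiteDimensional_pow (x : F) {n : ℕ} (hn : n ≠ 0) [h : FiniteDimensional K⟮x⟯ F] :
    FiniteDimensional K⟮x ^ n⟯ F := by
  -- `x` is integral over `E = K(x ^ n)`
  have hint : IsIntegral K⟮x ^ n⟯ x := by
    refine ⟨Polynomial.X ^ n - Polynomial.C (⟨x ^ n, mem_adjoin_simple_self K (x ^ n)⟩ : K⟮x ^ n⟯),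
      Polynomial.monic_X_pow_sub_C _ hn, ?_⟩
    simp [Polynomial.eval₂_sub, Polynomial.eval₂_pow]
  have h1 : FiniteDimensional K⟮x ^ n⟯ (K⟮x ^ n⟯)⟮x⟯ := adjoin.finiteDimensional hint
  -- `K(x) ⊆ E(x)`
  have hle : ∀ a : K⟮x⟯, (a : F) ∈ (K⟮x ^ n⟯)⟮x⟯ := by
    intro a
    have h2 : K⟮x⟯ ≤ ((K⟮x ^ n⟯)⟮x⟯).restrictScalars K :=
      adjoin_simple_le_iff.mpr (mem_adjoin_simple_self K⟮x ^ n⟯ x)
    exact h2 a.2
  let j : K⟮x⟯ →+* (K⟮x ^ n⟯)⟮x⟯ :=
    { toFun := fun a => ⟨a, hle a⟩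
      map_one' := rfl
      map_mul' := fun _ _ => rfl
      map_zero' := rfl
      map_add' := fun _ _ => rfl }
  let _ : Algebra K⟮x⟯ (K⟮x ^ n⟯)⟮x⟯ := j.toAlgebra
  have : IsScalarTower K⟮x⟯ (K⟮x ^ n⟯)⟮x⟯ F := IsScalarTower.of_algebraMap_eq fun a => rfl
  have h3 : Module.Finite (K⟮x ^ n⟯)⟮x⟯ F :=
    Module.Finite.of_restrictScalars_finite K⟮x⟯ (K⟮x ^ n⟯)⟮x⟯ F
  exact Module.Finite.trans (K⟮x ^ n⟯)⟮x⟯ F

end Integral

/-! ### Finiteness and the conductor for an abstract presentation of the chart ring -/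

section AbstractFinite

variable {K F : Type*} [Field K] [Field F] [Algebra K F] [IsAlgClosed K]
variable {B : Type*} [CommRing B] [Algebra K B]

/-- The quotient of (an abstract presentation of) the chart ring by the fixed-point ideal of a
Frobenius-type endomorphism is finite-dimensional. -/
theorem finite_quotient_fixedIdeal_of_range (x : F) (hx : Transcendental K x)
    [FiniteDimensional K⟮x⟯ F] (ι : B →ₐ[K] F) (hι : Function.Injective ι)
    (hr : ∀ f, f ∈ chartAlg K x ↔ ∃ b, ι b = f) {q : ℕ} (hq : 2 ≤ q) (Φ : B →ₐ[K] B)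
    (hΦ : ∀ u, ∃ w, Φ u = w ^ q) :
    Module.Finite K (B ⧸ Fermat.Agent.S35.helper2736.fixedIdeal Φ) := by
  let ι' : B →ₐ[K] chartAlg K x := ι.codRestrict (chartAlg K x) fun b => (hr _).mpr ⟨b, rfl⟩
  have hbij : Function.Bijective ι' := by
    refine ⟨fun a b hab => hι (congrArg Subtype.val hab), fun f => ?_⟩
    obtain ⟨b, hb⟩ := (hr _).mp f.2
    exact ⟨b, Subtype.ext hb⟩
  let e : B ≃ₐ[K] chartAlg K x := AlgEquiv.ofBijective ι' hbij
  let Φ' : chartAlg K x →ₐ[K] chartAlg K x :=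
    (e : B →ₐ[K] chartAlg K x).comp (Φ.comp (e.symm : chartAlg K x →ₐ[K] B))
  have hΦ' : ∀ u, ∃ w, Φ' u = w ^ q := fun u => by
    obtain ⟨w, hw⟩ := hΦ (e.symm u)
    refine ⟨e w, ?_⟩
    show e (Φ (e.symm u)) = e w ^ q
    rw [hw, map_pow]
  have hfin := finite_quotient_fixedIdeal x hx hq Φ' hΦ'
  have hle : Fermat.Agent.S35.helper2736.fixedIdeal Φ' ≤
      (Fermat.Agent.S35.helper2736.fixedIdeal Φ).comap (e.symm : chartAlg K x →ₐ[K] B) := by
    refine Ideal.span_le.mpr ?_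
    rintro _ ⟨u, rfl⟩
    show e.symm (u - Φ' u) ∈ Fermat.Agent.S35.helper2736.fixedIdeal Φ
    have h1 : e.symm (u - Φ' u) = e.symm u - Φ (e.symm u) := by
      rw [map_sub]
      show e.symm u - e.symm (e (Φ (e.symm u))) = _
      rw [AlgEquiv.symm_apply_apply]
    rw [h1]
    exact Fermat.Agent.S35.helper2736.sub_mem_fixedIdeal Φ _
  refine Module.Finite.of_surjective
    (Ideal.quotientMapₐ (Fermat.Agent.S35.helper2736.fixedIdeal Φ)
      (e.symm : chartAlg K x →ₐ[K] B) hle).toLinearMap fun y => ?_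
  obtain ⟨b, rfl⟩ := Ideal.Quotient.mk_surjective y
  refine ⟨Ideal.Quotient.mk _ (e b), ?_⟩
  show Ideal.Quotient.mk _ (e.symm (e b)) = Ideal.Quotient.mk _ b
  rw [AlgEquiv.symm_apply_apply]

end AbstractFinite

section GraphForm

variable {k : Type*} [Field k] [IsAlgClosed k]
variable {F₁ F₂ : Type*} [Field F₁] [Field F₂] [Algebra k F₁] [Algebra k F₂]
variable {B₁ B₂ : Type*} [CommRing B₁] [CommRing B₂] [Algebra k B₁] [Algebra k B₂]

/-- **Graph form of the hypotheses of `exists_node_places`.**  If `R ⊆ B₁ × B₂` contains the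
graph of a Frobenius-type map `Fm : B₁ → B₂` and the transposed graph of `Gm : B₂ → B₁`, the
finite sets of fixed points of `Gm ∘ Fm`, `Fm ∘ Gm` satisfy `hfst`, `hsnd`, `hJ`; no finiteness
hypothesis on the chart rings is needed. -/
theorem exists_conductor_of_graph (q : ℕ) [CharP k q] (hq : 2 ≤ q) (x₁ : F₁) (x₂ : F₂)
    (hx₁ : Transcendental k x₁) (hx₂ : Transcendental k x₂) [FiniteDimensional k⟮x₁⟯ F₁]
    [FiniteDimensional k⟮x₂⟯ F₂] (ι₁ : B₁ →ₐ[k] F₁) (ι₂ : B₂ →ₐ[k] F₂)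
    (hι₁ : Function.Injective ι₁) (hι₂ : Function.Injective ι₂)
    (hr₁ : ∀ f, f ∈ chartAlg k x₁ ↔ ∃ b, ι₁ b = f) (hr₂ : ∀ f, f ∈ chartAlg k x₂ ↔ ∃ b, ι₂ b = f)
    (Fm : B₁ →ₐ[k] B₂) (Gm : B₂ →ₐ[k] B₁) (hF : ∀ u, ∃ w, Fm u = w ^ q)
    (hG : ∀ u, ∃ w, Gm u = w ^ q) (R : Subalgebra k (B₁ × B₂)) (h₁ : ∀ u, (u, Fm u) ∈ R)
    (h₂ : ∀ u, (Gm u, u) ∈ R) :
    ∃ (S₁ : Finset (B₁ →ₐ[k] k)) (S₂ : Finset (B₂ →ₐ[k] k)),
      (∀ P, P ∈ S₁ ↔ P.comp (Gm.comp Fm) = P) ∧ (∀ Q, Q ∈ S₂ ↔ Q.comp (Fm.comp Gm) = Q) ∧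
      (∀ a : B₁, ∃ r ∈ R, r.1 = a) ∧ (∀ b : B₂, ∃ r ∈ R, r.2 = b) ∧
      (∀ x : B₁ × B₂, (∀ φ ∈ S₁, φ x.1 = 0) → (∀ ψ ∈ S₂, ψ x.2 = 0) → x ∈ R) := by
  have := finite_quotient_fixedIdeal_of_range x₁ hx₁ ι₁ hι₁ hr₁ hq (Gm.comp Fm)
    fun u => hG (Fm u)
  have := finite_quotient_fixedIdeal_of_range x₂ hx₂ ι₂ hι₂ hr₂ hq (Fm.comp Gm)
    fun u => hF (Gm u)
  obtain ⟨S₁, S₂, hS₁, hS₂, hfst, hsnd, hJ, -⟩ :=
    Fermat.Agent.S35.helper2736.kron_conductor_graph_finset q Fm Gm hF hG R h₁ h₂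
  exact ⟨S₁, S₂, hS₁, hS₂, hfst, hsnd, hJ⟩

end GraphForm

end Fermat.Agent.S35.helper825
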