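/-
S35/S34-NODERR (helper825): the LAST ASSEMBLY of the node package.

From the output of the Kronecker chart instance (two charts `x`, `x⁻¹`; on each chart a
subalgebra `R` of the product of the two reduced chart rings, described as the set of
reductions of the functions of the generic chart ring lying in the unit ball, and satisfying
the conductor hypotheses of `helper541.mem_iff_forall_node`) to the node hypotheses
`hPY`, `hQY`, `hnode`, `hK1`, `hK2` of `helper603.twisted_lattice_of_components` /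
`helper603.hcont_of_chart`, in their Riemann–Roch binder shape.

Generic: no modular object.  The dictionary "regular off the poles of `x`" ↔ "in some
`L(a • E₁)`" is proved here for any pole/zero divisor pair of `x`.
-/
import Mathlib
import Fermat.Agent.S35.helper825_NodePlaces

set_option autoImplicit false

noncomputable section

namespace Fermat.Agent.S35.helper825

open AlgebraicCurve WithZero Module IntermediateField
open Fermat.Agent.S18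
open Fermat.Agent.S35.helper603 (valueAt valueAt_spec valueAt_unique)

/-! ### The dictionary chart ring ↔ Riemann–Roch spaces of the pole divisor -/

section Dictionary

variable {K F : Type*} [Field K] [Field F] [Algebra K F]

/-- If `div x = E₂ - E₁` with `E₁`, `E₂` of disjoint supports and `E₁ ≥ 0`, every function of
`L(a • E₁)` is regular wherever `x` is. -/
theorem mem_chartAlg_of_mem_rr {E1 E2 : Divisor K F} (hE1 : 0 ≤ E1)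
    (hdisj : ∀ w : Place K F, E1 w = 0 ∨ E2 w = 0) {x : F} (hx0 : x ≠ 0)
    (hxord : ∀ w : Place K F, w.ord x = E2 w - E1 w) {a : ℕ} {f : F}
    (hf : f ∈ riemannRochSpace (a • E1)) : f ∈ chartAlg K x := by
  intro w hw
  have h0 : 0 ≤ w.ord x := (w.adicValuation_le_one_iff.mp hw).resolve_left hx0
  have h1 : 0 ≤ E1 w := Finsupp.le_def.mp hE1 w
  have hE1w : E1 w = 0 := by
    rcases hdisj w with h | h
    · exact h
    · rw [hxord, h] at h0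
      omega
  have := hf w
  rwa [Finsupp.smul_apply, hE1w, smul_zero, exp_zero] at this

/-- If `div x = E₂ - E₁` with `E₁, E₂ ≥ 0`, every function regular wherever `x` is lies in some
`L(a • E₁)`. -/
theorem exists_mem_rr_of_mem_chartAlg {E1 E2 : Divisor K F} (hE1 : 0 ≤ E1) (hE2 : 0 ≤ E2)
    {x : F} (hxord : ∀ w : Place K F, w.ord x = E2 w - E1 w) {f : F}
    (hf : f ∈ chartAlg K x) : ∃ a : ℕ, f ∈ riemannRochSpace (a • E1) := by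
  classical
  rcases eq_or_ne f 0 with rfl | hf0
  · exact ⟨0, zero_mem _⟩
  refine ⟨E1.support.sup fun v => (-(v.ord f)).toNat, fun v => ?_⟩
  have hE1v : 0 ≤ E1 v := Finsupp.le_def.mp hE1 v
  by_cases hv : E1 v = 0
  · have hxv : v.adicValuation x ≤ 1 := by
      rw [v.adicValuation_le_one_iff]
      right
      rw [hxord, hv, sub_zero]
      exact Finsupp.le_def.mp hE2 v
    have := hf v hxv
    simpa [hv] using this
  · have hvs : v ∈ E1.support := Finsupp.mem_support_iff.mpr hv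
    have h1 : (-(v.ord f)).toNat ≤ E1.support.sup fun v => (-(v.ord f)).toNat :=
      Finset.le_sup (f := fun v : Place K F => (-(v.ord f)).toNat) hvs
    have h2 : 1 ≤ E1 v := by omega
    rw [v.adicValuation_eq_exp_neg_ord hf0, exp_le_exp, Finsupp.smul_apply, nsmul_eq_mul]
    have h3 : -(v.ord f) ≤ ((-(v.ord f)).toNat : ℤ) := Int.self_le_toNat _
    have h4 : ((-(v.ord f)).toNat : ℤ) ≤
        ((E1.support.sup fun v => (-(v.ord f)).toNat : ℕ) : ℤ) := by exact_mod_cast h1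
    have h5 : ((E1.support.sup fun v => (-(v.ord f)).toNat : ℕ) : ℤ) ≤
        ((E1.support.sup fun v => (-(v.ord f)).toNat : ℕ) : ℤ) * E1 v :=
      le_mul_of_one_le_right (Int.natCast_nonneg _) h2
    omega

end Dictionary

/-! ### Values at the nodes of the graphs of `F`, `G` -/

section Graph

variable {kk : Type*} [Field kk]
variable {Fk₁ Fk₂ : Type*} [Field Fk₁] [Field Fk₂] [Algebra kk Fk₁] [Algebra kk Fk₂]
variable {A₁ A₂ : Type*}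

/-- **(FROB).**  If every element of `R` satisfies the node conditions and `R` contains the
graph of `Fm` and the transposed graph of `Gm`, then `Fm`, `Gm` exchange the values at the two
points of every node, and `Gm ∘ Fm`, `Fm ∘ Gm` fix them (the nodes are fixed points of the
square of the Frobenius-type map). -/
theorem node_values_of_graph {I : Type*} (P : I → Place kk Fk₁) (Q : I → Place kk Fk₂)
    (hdeg₁ : ∀ i, (P i).deg = 1) (hdeg₂ : ∀ i, (Q i).deg = 1)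
    (ι₁ : A₁ → Fk₁) (ι₂ : A₂ → Fk₂) (R : Set (A₁ × A₂))
    (hR : ∀ r ∈ R, ∀ i, valueAt (P i) (hdeg₁ i) (ι₁ r.1) = valueAt (Q i) (hdeg₂ i) (ι₂ r.2))
    (Fm : A₁ → A₂) (Gm : A₂ → A₁) (h₁ : ∀ u, (u, Fm u) ∈ R) (h₂ : ∀ u, (Gm u, u) ∈ R) :
    (∀ i u, valueAt (Q i) (hdeg₂ i) (ι₂ (Fm u)) = valueAt (P i) (hdeg₁ i) (ι₁ u)) ∧
    (∀ i u, valueAt (P i) (hdeg₁ i) (ι₁ (Gm u)) = valueAt (Q i) (hdeg₂ i) (ι₂ u)) ∧
    (∀ i u, valueAt (P i) (hdeg₁ i) (ι₁ (Gm (Fm u))) = valueAt (P i) (hdeg₁ i) (ι₁ u)) ∧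
    (∀ i u, valueAt (Q i) (hdeg₂ i) (ι₂ (Fm (Gm u))) = valueAt (Q i) (hdeg₂ i) (ι₂ u)) := by
  have e₁ : ∀ i u, valueAt (Q i) (hdeg₂ i) (ι₂ (Fm u)) = valueAt (P i) (hdeg₁ i) (ι₁ u) :=
    fun i u => (hR _ (h₁ u) i).symm
  have e₂ : ∀ i u, valueAt (P i) (hdeg₁ i) (ι₁ (Gm u)) = valueAt (Q i) (hdeg₂ i) (ι₂ u) :=
    fun i u => hR _ (h₂ u) i
  exact ⟨e₁, e₂, fun i u => (e₂ i (Fm u)).trans (e₁ i u), fun i u => (e₁ i (Gm u)).trans (e₂ i u)⟩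

end Graph

section Separation

variable {K F : Type*} [Field K] [Field F] [Algebra K F] [IsAlgClosed K]

/-- The chart ring separates the places of the chart from all places at which it is regular
(the hypothesis `hsep` of `helper2195.smul_place_eq_of_frob_fixed` for `B = chartAlg K x`). -/
theorem place_eq_of_values_on_chart (x : F) (hx : Transcendental K x) [FiniteDimensional K⟮x⟯ F]
    {P P' : Place K F} (hP : P.adicValuation x ≤ 1)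
    (hreg : ∀ u ∈ chartAlg K x, P'.adicValuation u ≤ 1)
    (hval : ∀ u ∈ chartAlg K x,
      valueAt P' (place_deg x P') u = valueAt P (place_deg x P) u) : P' = P :=
  place_unique x hx (hreg x (self_mem_chartAlg x)) hP fun f => hval f f.2

end Separation

/-! ### The node package in Riemann–Roch form -/

section Package

variable {K F : Type*} [Field K] [Field F] [Algebra K F]
variable {Γ₀ : Type*} [LinearOrderedCommGroupWithZero Γ₀] {ι : Type*}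
variable {kk : Type*} [Field kk] [IsAlgClosed kk]
variable {Fk₁ Fk₂ : Type*} [Field Fk₁] [Field Fk₂] [Algebra kk Fk₁] [Algebra kk Fk₂]
variable {Fk : Type*} [CommRing Fk] [Algebra kk Fk]
variable {A₁ A₂ : Type*} [CommRing A₁] [CommRing A₂] [Algebra kk A₁] [Algebra kk A₂]
variable {B₁ B₂ : Type*} [CommRing B₁] [CommRing B₂] [Algebra kk B₁] [Algebra kk B₂]

/-- **The node package in Riemann–Roch form (last assembly).**

Generic fibre: `F / K`, valuations `v i` (unit ball `∀ i, v i f ≤ 1`), `div x = E₂ - E₁` with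
`E₁, E₂ ≥ 0` of disjoint supports, reduction `red : F → Fk`, `jj : Fk₁ × Fk₂ → Fk`.
Special fibre: `x₁ ∈ Fk₁`, `x₂ ∈ Fk₂` transcendental with `div x_j = Y0_j - Yinf_j`.

Chart `A`: `A₁`, `A₂` present the chart rings of `x₁`, `x₂`; `RA ⊆ A₁ × A₂` is the set of pairs
which are reductions of functions of the unit ball regular off the poles of `x` (`hRA`), and
satisfies the conductor hypotheses.  Chart `B`: the same for `x⁻¹`.  With the chart function,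
the transport between the charts and the two units as in `exists_node_places_two_charts`, there
is ONE finite family of nodes `(P i, Q i)`, off the zeros and poles of `x₁`, `x₂`, such that
the hypotheses `hPY`, `hQY`, `hnode`, `hK1`, `hK2` of `helper603.twisted_lattice_of_components`
and `helper603.hcont_of_chart` hold. -/
theorem node_rr_package
    (v : ι → Valuation F Γ₀) (red : F → Fk) (jj : Fk₁ × Fk₂ →ₐ[kk] Fk)
    -- generic fibre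
    (E1 E2 : Divisor K F) (hE1 : 0 ≤ E1) (hE2 : 0 ≤ E2)
    (hdisjE : ∀ w : Place K F, E1 w = 0 ∨ E2 w = 0)
    (x : F) (hx0 : x ≠ 0) (hxord : ∀ w : Place K F, w.ord x = E2 w - E1 w)
    -- special fibre
    (x₁ : Fk₁) (x₂ : Fk₂) (hx₁t : Transcendental kk x₁) (hx₂t : Transcendental kk x₂)
    [FiniteDimensional kk⟮x₁⟯ Fk₁] [FiniteDimensional kk⟮x₂⟯ Fk₂]
    (Yinf₁ Y0₁ : Divisor kk Fk₁) (Yinf₂ Y0₂ : Divisor kk Fk₂)
    (hYinf₁ : 0 ≤ Yinf₁) (hY0₁ : 0 ≤ Y0₁) (hYinf₂ : 0 ≤ Yinf₂) (hY0₂ : 0 ≤ Y0₂)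
    (hdisj₁ : ∀ w : Place kk Fk₁, Yinf₁ w = 0 ∨ Y0₁ w = 0)
    (hdisj₂ : ∀ w : Place kk Fk₂, Yinf₂ w = 0 ∨ Y0₂ w = 0)
    (hx₁ : ∀ w : Place kk Fk₁, w.ord x₁ = Y0₁ w - Yinf₁ w)
    (hx₂ : ∀ w : Place kk Fk₂, w.ord x₂ = Y0₂ w - Yinf₂ w)
    -- chart `A`
    (ιA₁ : A₁ →ₐ[kk] Fk₁) (ιA₂ : A₂ →ₐ[kk] Fk₂) (hιA₁ : Function.Injective ιA₁)
    (hιA₂ : Function.Injective ιA₂) (hrA₁ : ∀ f, f ∈ chartAlg kk x₁ ↔ ∃ b, ιA₁ b = f)
    (hrA₂ : ∀ f, f ∈ chartAlg kk x₂ ↔ ∃ b, ιA₂ b = f)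
    (RA : Subalgebra kk (A₁ × A₂)) (SA₁ : Finset (A₁ →ₐ[kk] kk)) (SA₂ : Finset (A₂ →ₐ[kk] kk))
    (hfstA : ∀ a : A₁, ∃ r ∈ RA, r.1 = a) (hsndA : ∀ b : A₂, ∃ r ∈ RA, r.2 = b)
    (hJA : ∀ z : A₁ × A₂, (∀ φ ∈ SA₁, φ z.1 = 0) → (∀ ψ ∈ SA₂, ψ z.2 = 0) → z ∈ RA)
    (hRA : ∀ r : A₁ × A₂, r ∈ RA ↔ ∃ f : F, (∀ i, v i f ≤ 1) ∧ f ∈ chartAlg K x ∧
      red f = jj (ιA₁ r.1, ιA₂ r.2))
    -- chart `B`
    (ιB₁ : B₁ →ₐ[kk] Fk₁) (ιB₂ : B₂ →ₐ[kk] Fk₂) (hιB₁ : Function.Injective ιB₁)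
    (hιB₂ : Function.Injective ιB₂) (hrB₁ : ∀ f, f ∈ chartAlg kk x₁⁻¹ ↔ ∃ b, ιB₁ b = f)
    (hrB₂ : ∀ f, f ∈ chartAlg kk x₂⁻¹ ↔ ∃ b, ιB₂ b = f)
    (RB : Subalgebra kk (B₁ × B₂)) (SB₁ : Finset (B₁ →ₐ[kk] kk)) (SB₂ : Finset (B₂ →ₐ[kk] kk))
    (hfstB : ∀ a : B₁, ∃ r ∈ RB, r.1 = a) (hsndB : ∀ b : B₂, ∃ r ∈ RB, r.2 = b)
    (hJB : ∀ z : B₁ × B₂, (∀ φ ∈ SB₁, φ z.1 = 0) → (∀ ψ ∈ SB₂, ψ z.2 = 0) → z ∈ RB)
    (hRB : ∀ r : B₁ × B₂, r ∈ RB ↔ ∃ f : F, (∀ i, v i f ≤ 1) ∧ f ∈ chartAlg K x⁻¹ ∧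
      red f = jj (ιB₁ r.1, ιB₂ r.2))
    -- the chart function, transport, and the two units
    (hx : ∃ r ∈ RA, ιA₁ r.1 = x₁ ∧ ιA₂ r.2 = x₂)
    (hxi : ∃ r ∈ RB, ιB₁ r.1 = x₁⁻¹ ∧ ιB₂ r.2 = x₂⁻¹)
    (hBA : ∀ z ∈ RB, ∃ n : ℕ, ∃ r ∈ RA,
      ιA₁ r.1 = x₁ ^ n * ιB₁ z.1 ∧ ιA₂ r.2 = x₂ ^ n * ιB₂ z.2)
    (hAB : ∀ z ∈ RA, ∃ n : ℕ, ∃ r ∈ RB,
      ιB₁ r.1 = x₁⁻¹ ^ n * ιA₁ z.1 ∧ ιB₂ r.2 = x₂⁻¹ ^ n * ιA₂ z.2)
    (u u' : Fk₂) (hu : ∃ r ∈ RA, ιA₁ r.1 = 1 ∧ ιA₂ r.2 = u)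
    (hu' : ∃ r ∈ RB, ιB₁ r.1 = 1 ∧ ιB₂ r.2 = u')
    (hu0 : ∀ w : Place kk Fk₂, 0 < w.ord x₂ → 0 < w.ord u)
    (hu'0 : ∀ w : Place kk Fk₂, w.ord x₂ < 0 → 0 < w.ord u') :
    ∃ (I : Type) (_ : Fintype I) (P : I → Place kk Fk₁) (Q : I → Place kk Fk₂),
      Function.Injective P ∧ Function.Injective Q ∧
      -- `hPY`, `hQY`
      (∀ i, Yinf₁ (P i) = 0 ∧ Y0₁ (P i) = 0) ∧ (∀ i, Yinf₂ (Q i) = 0 ∧ Y0₂ (Q i) = 0) ∧
      -- `hnode`
      (∀ a : ℕ, ∀ f ∈ riemannRochSpace (a • E1), (∀ i, v i f ≤ 1) →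
        ∀ y₁ ∈ riemannRochSpace (a • Yinf₁), ∀ y₂ ∈ riemannRochSpace (a • Yinf₂),
          red f = jj (y₁, y₂) →
          ∀ i, valueAt (Q i) (place_deg x₂ (Q i)) y₂ = valueAt (P i) (place_deg x₁ (P i)) y₁) ∧
      -- `hK1`
      (∀ a : ℕ, ∀ y₁ ∈ riemannRochSpace (a • Yinf₁), ∀ y₂ ∈ riemannRochSpace (a • Yinf₂),
        (∀ i, valueAt (Q i) (place_deg x₂ (Q i)) y₂ = valueAt (P i) (place_deg x₁ (P i)) y₁) →
        ∃ a' : ℕ, ∃ f ∈ riemannRochSpace (a' • E1), (∀ i, v i f ≤ 1) ∧ red f = jj (y₁, y₂)) ∧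
      -- `hK2`
      (∀ b : ℕ, ∀ y₁ ∈ riemannRochSpace (b • Y0₁), ∀ y₂ ∈ riemannRochSpace (b • Y0₂),
        (∀ i, valueAt (Q i) (place_deg x₂ (Q i)) y₂ = valueAt (P i) (place_deg x₁ (P i)) y₁) →
        ∃ b' : ℕ, ∃ f ∈ riemannRochSpace (b' • E2), (∀ i, v i f ≤ 1) ∧ red f = jj (y₁, y₂)) ∧
      -- the node conditions on the two chart rings, and maximality
      (∀ i, (P i).ord x₁ = 0 ∧ (Q i).ord x₂ = 0) ∧
      (∀ r : A₁ × A₂, r ∈ RA ↔ ∀ i, valueAt (P i) (place_deg x₁ (P i)) (ιA₁ r.1) =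
        valueAt (Q i) (place_deg x₂ (Q i)) (ιA₂ r.2)) ∧
      (∀ r : B₁ × B₂, r ∈ RB ↔ ∀ i, valueAt (P i) (place_deg x₁ (P i)) (ιB₁ r.1) =
        valueAt (Q i) (place_deg x₂ (Q i)) (ιB₂ r.2)) ∧
      (∀ (p : Place kk Fk₁) (q : Place kk Fk₂), 0 ≤ p.ord x₁ → 0 ≤ q.ord x₂ →
        (∀ r ∈ RA, valueAt p (place_deg x₁ p) (ιA₁ r.1) = valueAt q (place_deg x₂ q) (ιA₂ r.2)) →
        ∃ i, P i = p ∧ Q i = q) ∧
      (∀ (p : Place kk Fk₁) (q : Place kk Fk₂), p.ord x₁ ≤ 0 → q.ord x₂ ≤ 0 →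
        (∀ r ∈ RB, valueAt p (place_deg x₁ p) (ιB₁ r.1) = valueAt q (place_deg x₂ q) (ιB₂ r.2)) →
        ∃ i, P i = p ∧ Q i = q) := by
  have hx₁0 : x₁ ≠ 0 := fun h => hx₁t (h ▸ isAlgebraic_zero)
  have hx₂0 : x₂ ≠ 0 := fun h => hx₂t (h ▸ isAlgebraic_zero)
  obtain ⟨I, hI, P, Q, hP, hQ, h0, hA, hB, hmaxA, hmaxB⟩ :=
    exists_node_places_two_charts x₁ x₂ hx₁t hx₂t ιA₁ ιA₂ hιA₁ hιA₂ hrA₁ hrA₂ RA SA₁ SA₂
      hfstA hsndA hJA ιB₁ ιB₂ hιB₁ hιB₂ hrB₁ hrB₂ RB SB₁ SB₂ hfstB hsndB hJB hx hxi hBA hAB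
      u u' hu hu' hu0 hu'0
  -- the inverse charts
  have hxordi : ∀ w : Place K F, w.ord x⁻¹ = E1 w - E2 w := fun w => by
    rw [Place.ord_inv, hxord]; ring
  have hx₁i : ∀ w : Place kk Fk₁, w.ord x₁⁻¹ = Yinf₁ w - Y0₁ w := fun w => by
    rw [Place.ord_inv, hx₁]; ring
  have hx₂i : ∀ w : Place kk Fk₂, w.ord x₂⁻¹ = Yinf₂ w - Y0₂ w := fun w => by
    rw [Place.ord_inv, hx₂]; ring
  refine ⟨I, hI, P, Q, hP, hQ, fun i => ?_, fun i => ?_, ?_, ?_, ?_, h0, hA, hB, hmaxA, hmaxB⟩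
  · have e := hx₁ (P i)
    rw [(h0 i).1] at e
    rcases hdisj₁ (P i) with h | h
    · exact ⟨h, by omega⟩
    · exact ⟨by omega, h⟩
  · have e := hx₂ (Q i)
    rw [(h0 i).2] at e
    rcases hdisj₂ (Q i) with h | h
    · exact ⟨h, by omega⟩
    · exact ⟨by omega, h⟩
  · -- `hnode`
    intro a f hf hball y₁ hy₁ y₂ hy₂ hredf i
    obtain ⟨b₁, rfl⟩ := (hrA₁ y₁).mp (mem_chartAlg_of_mem_rr hYinf₁ hdisj₁ hx₁0 hx₁ hy₁)
    obtain ⟨b₂, rfl⟩ := (hrA₂ y₂).mp (mem_chartAlg_of_mem_rr hYinf₂ hdisj₂ hx₂0 hx₂ hy₂)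
    have hr : ((b₁, b₂) : A₁ × A₂) ∈ RA :=
      (hRA (b₁, b₂)).mpr ⟨f, hball, mem_chartAlg_of_mem_rr hE1 hdisjE hx0 hxord hf, hredf⟩
    exact ((hA (b₁, b₂)).mp hr i).symm
  · -- `hK1`
    intro a y₁ hy₁ y₂ hy₂ hval
    obtain ⟨b₁, rfl⟩ := (hrA₁ y₁).mp (mem_chartAlg_of_mem_rr hYinf₁ hdisj₁ hx₁0 hx₁ hy₁)
    obtain ⟨b₂, rfl⟩ := (hrA₂ y₂).mp (mem_chartAlg_of_mem_rr hYinf₂ hdisj₂ hx₂0 hx₂ hy₂)
    have hr : ((b₁, b₂) : A₁ × A₂) ∈ RA := (hA (b₁, b₂)).mpr fun i => (hval i).symm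
    obtain ⟨f, hball, hfc, hredf⟩ := (hRA (b₁, b₂)).mp hr
    obtain ⟨a', ha'⟩ := exists_mem_rr_of_mem_chartAlg hE1 hE2 hxord hfc
    exact ⟨a', f, ha', hball, hredf⟩
  · -- `hK2`
    intro b y₁ hy₁ y₂ hy₂ hval
    obtain ⟨b₁, rfl⟩ := (hrB₁ y₁).mp (mem_chartAlg_of_mem_rr hY0₁
      (fun w => (hdisj₁ w).symm) (inv_ne_zero hx₁0) hx₁i hy₁)
    obtain ⟨b₂, rfl⟩ := (hrB₂ y₂).mp (mem_chartAlg_of_mem_rr hY0₂
      (fun w => (hdisj₂ w).symm) (inv_ne_zero hx₂0) hx₂i hy₂)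
    have hr : ((b₁, b₂) : B₁ × B₂) ∈ RB := (hB (b₁, b₂)).mpr fun i => (hval i).symm
    obtain ⟨f, hball, hfc, hredf⟩ := (hRB (b₁, b₂)).mp hr
    obtain ⟨b', hb'⟩ := exists_mem_rr_of_mem_chartAlg hE2 hE1 hxordi hfc
    exact ⟨b', f, hb', hball, hredf⟩

end Package

end Fermat.Agent.S35.helper825
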