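/-
S35 / S34, KRON-INST side lemma (helper6174): THE TRANSFER FACTS BETWEEN THE TWO CHARTS, generic.

`helper825.node_rr_package` / `exists_node_places_two_charts` take, besides the two conductor
packages `RA` (chart `x`) and `RB` (chart `x⁻¹`), eight "transfer" hypotheses

  `hx  : ∃ r ∈ RA, ιA₁ r.1 = x₁ ∧ ιA₂ r.2 = x₂`
  `hxi : ∃ r ∈ RB, ιB₁ r.1 = x₁⁻¹ ∧ ιB₂ r.2 = x₂⁻¹`
  `hBA : ∀ z ∈ RB, ∃ n, ∃ r ∈ RA, ιA₁ r.1 = x₁ ^ n * ιB₁ z.1 ∧ ιA₂ r.2 = x₂ ^ n * ιB₂ z.2`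
  `hAB : ∀ z ∈ RA, ∃ n, ∃ r ∈ RB, ιB₁ r.1 = x₁⁻¹ ^ n * ιA₁ z.1 ∧ ιB₂ r.2 = x₂⁻¹ ^ n * ιA₂ z.2`
  `hu hu' hu0 hu'0` (the two units).

This file proves them ONCE, for ANY `RA`, `RB` satisfying the characterisations `hRA`, `hRB` of
`node_rr_package` ("`r ∈ RA ↔ r` is the reduction of a function of the unit ball regular on the
chart"), from the chart facts `v i x = 1`, `red x = jj (x₁, x₂)` and the multiplicativity of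
`red` on the unit ball:

* `exists_pow_mul_mem_chartAlg` (bounded pole order): `f ∈ chartAlg K x⁻¹ → x ^ m * f ∈ chartAlg K x`
  for all large `m`;
* `red_inv_of_unit`, `red_pow_mul_of_unit`: the reduction of `g⁻¹` and of `g ^ n * f`;
* `transfer_package`: `hx ∧ hxi ∧ hBA ∧ hAB`, binders = those of `node_rr_package`;
* `unit_package`: `hu ∧ hu'` from ONE unit `g` of the ball with `g ∈ chartAlg K x`,
  `g⁻¹ ∈ chartAlg K x⁻¹`, `red g = jj (1, u)`;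
* `unit_package_pow`: `hu ∧ hu' ∧ hu0 ∧ hu'0` for `x₂ = x₁ ^ q`, `u = x₁ ^ (q ^ 2 - 1)`
  (the modular instance: `g = x ^ q / W x`, `red g = (x₁ ^ q / x₂, x₂ ^ q / x₁)`).
-/
import Mathlib
import Fermat.Agent.S35.helper825_NodeRR

set_option autoImplicit false

namespace Fermat.Agent.S35.helper6174

open AlgebraicCurve WithZero
open Fermat.Agent.S35.helper825 (chartAlg mem_chartAlg self_mem_chartAlg chartAlg_pow)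

/-! ### Bounded pole order -/

section BoundedPoles

variable {K F : Type*} [Field K] [Field F] [Algebra K F]

/-- **Bounded pole order.**  If `f` is regular off the zeros of `x` and the zeros of `x` lie in
the (finite) support of a divisor `D`, then `x ^ m * f` is regular off the poles of `x` for all
large `m`. -/
theorem exists_pow_mul_mem_chartAlg {x : F} (hx0 : x ≠ 0) (D : Divisor K F)
    (hD : ∀ w : Place K F, 0 < w.ord x → D w ≠ 0) {f : F} (hf : f ∈ chartAlg K x⁻¹) :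
    ∃ n : ℕ, ∀ m : ℕ, n ≤ m → x ^ m * f ∈ chartAlg K x := by
  classical
  rcases eq_or_ne f 0 with rfl | hf0
  · exact ⟨0, fun m _ => by rw [mul_zero]; exact zero_mem _⟩
  refine ⟨D.support.sup fun w => (-(w.ord f)).toNat, fun m hm w hw => ?_⟩
  rw [map_mul, map_pow]
  rcases hw.lt_or_eq with hlt | heq
  · have hpos : 0 < w.ord x := (ord_pos_iff w hx0).mpr hlt
    have hws : w ∈ D.support := Finsupp.mem_support_iff.mpr (hD w hpos)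
    have h1 : (-(w.ord f)).toNat ≤ D.support.sup fun w => (-(w.ord f)).toNat :=
      Finset.le_sup (f := fun w : Place K F => (-(w.ord f)).toNat) hws
    have h3 : -(w.ord f) ≤ ((-(w.ord f)).toNat : ℤ) := Int.self_le_toNat _
    have h4 : ((-(w.ord f)).toNat : ℤ) ≤ (m : ℤ) := by exact_mod_cast h1.trans hm
    have h5 : (m : ℤ) ≤ m * w.ord x := le_mul_of_one_le_right (Int.natCast_nonneg _) hpos
    rw [w.adicValuation_eq_exp_neg_ord hx0, w.adicValuation_eq_exp_neg_ord hf0, ← exp_nsmul,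
      ← exp_add, ← exp_zero, exp_le_exp, nsmul_eq_mul]
    linarith
  · have hxi : w.adicValuation x⁻¹ ≤ 1 := by rw [map_inv₀, heq, inv_one]
    rw [heq, one_pow, one_mul]
    exact hf w hxi

/-- The same on the inverse chart: `f ∈ chartAlg K x → x⁻¹ ^ m * f ∈ chartAlg K x⁻¹` for all
large `m`, when the poles of `x` lie in the support of `D`. -/
theorem exists_inv_pow_mul_mem_chartAlg {x : F} (hx0 : x ≠ 0) (D : Divisor K F)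
    (hD : ∀ w : Place K F, w.ord x < 0 → D w ≠ 0) {f : F} (hf : f ∈ chartAlg K x) :
    ∃ n : ℕ, ∀ m : ℕ, n ≤ m → x⁻¹ ^ m * f ∈ chartAlg K x⁻¹ := by
  refine exists_pow_mul_mem_chartAlg (inv_ne_zero hx0) D (fun w hw => hD w ?_) ?_
  · rw [Place.ord_inv] at hw
    omega
  · rwa [inv_inv]

end BoundedPoles

/-! ### Reduction of inverses and of products with powers -/

section Red

variable {F : Type*} [Field F]
variable {Γ₀ : Type*} [LinearOrderedCommGroupWithZero Γ₀] {ι : Type*}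
variable {kk : Type*} [Field kk]
variable {Fk₁ Fk₂ : Type*} [Field Fk₁] [Field Fk₂] [Algebra kk Fk₁] [Algebra kk Fk₂]
variable {Fk : Type*} [CommRing Fk] [Algebra kk Fk]

theorem ball_of_unit {v : ι → Valuation F Γ₀} {g : F} (hg : ∀ i, v i g = 1) :
    ∀ i, v i g ≤ 1 := fun i => (hg i).le

theorem unit_inv {v : ι → Valuation F Γ₀} {g : F} (hg : ∀ i, v i g = 1) :
    ∀ i, v i g⁻¹ = 1 := fun i => by rw [map_inv₀, hg i, inv_one]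

theorem unit_pow {v : ι → Valuation F Γ₀} {g : F} (hg : ∀ i, v i g = 1) (n : ℕ) :
    ∀ i, v i (g ^ n) = 1 := fun i => by rw [map_pow, hg i, one_pow]

theorem ball_mul {v : ι → Valuation F Γ₀} {a b : F} (ha : ∀ i, v i a ≤ 1)
    (hb : ∀ i, v i b ≤ 1) : ∀ i, v i (a * b) ≤ 1 := fun i => by
  rw [map_mul]
  exact mul_le_one' (ha i) (hb i)

/-- The reduction of the inverse of a unit of the ball. -/
theorem red_inv_of_unit (v : ι → Valuation F Γ₀) (red : F → Fk) (jj : Fk₁ × Fk₂ →ₐ[kk] Fk)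
    (hjj : Function.Injective jj)
    (hmul : ∀ a b : F, (∀ i, v i a ≤ 1) → (∀ i, v i b ≤ 1) → red (a * b) = red a * red b)
    (hone : red 1 = 1) (hrange : ∀ f : F, (∀ i, v i f ≤ 1) → ∃ y, red f = jj y)
    {g : F} (hg0 : g ≠ 0) (hg : ∀ i, v i g = 1) {a : Fk₁} {b : Fk₂}
    (hredg : red g = jj (a, b)) : red g⁻¹ = jj (a⁻¹, b⁻¹) := by
  obtain ⟨y, hy⟩ := hrange g⁻¹ (ball_of_unit (unit_inv hg))
  have h1 := hmul g g⁻¹ (ball_of_unit hg) (ball_of_unit (unit_inv hg))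
  rw [mul_inv_cancel₀ hg0, hone, hredg, hy, ← map_mul, ← map_one jj] at h1
  have h2 : (a, b) * y = 1 := (hjj h1).symm
  have h3 : a * y.1 = 1 := congrArg Prod.fst h2
  have h4 : b * y.2 = 1 := congrArg Prod.snd h2
  rw [hy]
  congr 1
  exact Prod.ext (eq_inv_of_mul_eq_one_right h3) (eq_inv_of_mul_eq_one_right h4)

/-- The reduction of a power of a unit of the ball. -/
theorem red_pow_of_unit (v : ι → Valuation F Γ₀) (red : F → Fk) (jj : Fk₁ × Fk₂ →ₐ[kk] Fk)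
    (hmul : ∀ a b : F, (∀ i, v i a ≤ 1) → (∀ i, v i b ≤ 1) → red (a * b) = red a * red b)
    (hone : red 1 = 1) {g : F} (hg : ∀ i, v i g = 1) {a : Fk₁} {b : Fk₂}
    (hredg : red g = jj (a, b)) (n : ℕ) : red (g ^ n) = jj (a ^ n, b ^ n) := by
  induction n with
  | zero =>
    rw [pow_zero, pow_zero, pow_zero, hone]
    exact (map_one jj).symm
  | succ n ih =>
    rw [pow_succ, hmul _ _ (ball_of_unit (unit_pow hg n)) (ball_of_unit hg), ih, hredg,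
      ← map_mul, pow_succ, pow_succ]
    rfl

/-- The reduction of `g ^ n * f`, `g` a unit of the ball, `f` in the ball. -/
theorem red_pow_mul_of_unit (v : ι → Valuation F Γ₀) (red : F → Fk) (jj : Fk₁ × Fk₂ →ₐ[kk] Fk)
    (hmul : ∀ a b : F, (∀ i, v i a ≤ 1) → (∀ i, v i b ≤ 1) → red (a * b) = red a * red b)
    (hone : red 1 = 1) {g : F} (hg : ∀ i, v i g = 1) {a : Fk₁} {b : Fk₂}
    (hredg : red g = jj (a, b)) (n : ℕ) {f : F} (hf : ∀ i, v i f ≤ 1) {c : Fk₁} {d : Fk₂}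
    (hredf : red f = jj (c, d)) : red (g ^ n * f) = jj (a ^ n * c, b ^ n * d) := by
  rw [hmul _ _ (ball_of_unit (unit_pow hg n)) hf, red_pow_of_unit v red jj hmul hone hg hredg n,
    hredf, ← map_mul]
  rfl

end Red

/-! ### The transfer package -/

section Transfer

variable {K F : Type*} [Field K] [Field F] [Algebra K F]
variable {Γ₀ : Type*} [LinearOrderedCommGroupWithZero Γ₀] {ι : Type*}
variable {kk : Type*} [Field kk]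
variable {Fk₁ Fk₂ : Type*} [Field Fk₁] [Field Fk₂] [Algebra kk Fk₁] [Algebra kk Fk₂]
variable {Fk : Type*} [CommRing Fk] [Algebra kk Fk]
variable {A₁ A₂ : Type*} [CommRing A₁] [CommRing A₂] [Algebra kk A₁] [Algebra kk A₂]
variable {B₁ B₂ : Type*} [CommRing B₁] [CommRing B₂] [Algebra kk B₁] [Algebra kk B₂]

/-- **The transfer package** (`hx`, `hxi`, `hBA`, `hAB` of `helper825.node_rr_package` /
`exists_node_places_two_charts`), for ANY `RA`, `RB` with the characterisations `hRA`, `hRB`.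
Binder names and shapes are those of `node_rr_package`; the extra inputs are `hjj`, `hmul`,
`hone`, `hrange` (all part of the E3 carrier: `fibreIncl_injective`, `RedDataW.map_mul`,
`RedDataW.map_one`, `gpRed_mem_range`), the unit property `hxv` and `hredx`. -/
theorem transfer_package
    (v : ι → Valuation F Γ₀) (red : F → Fk) (jj : Fk₁ × Fk₂ →ₐ[kk] Fk)
    (hjj : Function.Injective jj)
    (hmul : ∀ a b : F, (∀ i, v i a ≤ 1) → (∀ i, v i b ≤ 1) → red (a * b) = red a * red b)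
    (hone : red 1 = 1) (hrange : ∀ f : F, (∀ i, v i f ≤ 1) → ∃ y, red f = jj y)
    -- generic fibre
    (E1 E2 : Divisor K F) (hE1 : 0 ≤ E1) (hE2 : 0 ≤ E2)
    (x : F) (hx0 : x ≠ 0) (hxord : ∀ w : Place K F, w.ord x = E2 w - E1 w)
    (hxv : ∀ i, v i x = 1)
    -- special fibre
    (x₁ : Fk₁) (x₂ : Fk₂) (hx₁0 : x₁ ≠ 0) (hx₂0 : x₂ ≠ 0)
    (Yinf₁ Y0₁ : Divisor kk Fk₁) (Yinf₂ Y0₂ : Divisor kk Fk₂)
    (hYinf₁ : 0 ≤ Yinf₁) (hY0₁ : 0 ≤ Y0₁) (hYinf₂ : 0 ≤ Yinf₂) (hY0₂ : 0 ≤ Y0₂)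
    (hx₁ : ∀ w : Place kk Fk₁, w.ord x₁ = Y0₁ w - Yinf₁ w)
    (hx₂ : ∀ w : Place kk Fk₂, w.ord x₂ = Y0₂ w - Yinf₂ w)
    (hredx : red x = jj (x₁, x₂))
    -- chart `A`
    (ιA₁ : A₁ →ₐ[kk] Fk₁) (ιA₂ : A₂ →ₐ[kk] Fk₂)
    (hrA₁ : ∀ f, f ∈ chartAlg kk x₁ ↔ ∃ b, ιA₁ b = f)
    (hrA₂ : ∀ f, f ∈ chartAlg kk x₂ ↔ ∃ b, ιA₂ b = f)
    (RA : Subalgebra kk (A₁ × A₂))
    (hRA : ∀ r : A₁ × A₂, r ∈ RA ↔ ∃ f : F, (∀ i, v i f ≤ 1) ∧ f ∈ chartAlg K x ∧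
      red f = jj (ιA₁ r.1, ιA₂ r.2))
    -- chart `B`
    (ιB₁ : B₁ →ₐ[kk] Fk₁) (ιB₂ : B₂ →ₐ[kk] Fk₂)
    (hrB₁ : ∀ f, f ∈ chartAlg kk x₁⁻¹ ↔ ∃ b, ιB₁ b = f)
    (hrB₂ : ∀ f, f ∈ chartAlg kk x₂⁻¹ ↔ ∃ b, ιB₂ b = f)
    (RB : Subalgebra kk (B₁ × B₂))
    (hRB : ∀ r : B₁ × B₂, r ∈ RB ↔ ∃ f : F, (∀ i, v i f ≤ 1) ∧ f ∈ chartAlg K x⁻¹ ∧
      red f = jj (ιB₁ r.1, ιB₂ r.2)) :
    (∃ r ∈ RA, ιA₁ r.1 = x₁ ∧ ιA₂ r.2 = x₂) ∧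
    (∃ r ∈ RB, ιB₁ r.1 = x₁⁻¹ ∧ ιB₂ r.2 = x₂⁻¹) ∧
    (∀ z ∈ RB, ∃ n : ℕ, ∃ r ∈ RA,
      ιA₁ r.1 = x₁ ^ n * ιB₁ z.1 ∧ ιA₂ r.2 = x₂ ^ n * ιB₂ z.2) ∧
    (∀ z ∈ RA, ∃ n : ℕ, ∃ r ∈ RB,
      ιB₁ r.1 = x₁⁻¹ ^ n * ιA₁ z.1 ∧ ιB₂ r.2 = x₂⁻¹ ^ n * ιA₂ z.2) := by
  have hE1w : ∀ w, 0 ≤ E1 w := fun w => by simpa using Finsupp.le_def.mp hE1 w
  have hE2w : ∀ w, 0 ≤ E2 w := fun w => by simpa using Finsupp.le_def.mp hE2 w
  have hYinf₁w : ∀ w, 0 ≤ Yinf₁ w := fun w => by simpa using Finsupp.le_def.mp hYinf₁ w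
  have hY0₁w : ∀ w, 0 ≤ Y0₁ w := fun w => by simpa using Finsupp.le_def.mp hY0₁ w
  have hYinf₂w : ∀ w, 0 ≤ Yinf₂ w := fun w => by simpa using Finsupp.le_def.mp hYinf₂ w
  have hY0₂w : ∀ w, 0 ≤ Y0₂ w := fun w => by simpa using Finsupp.le_def.mp hY0₂ w
  have hredxi : red x⁻¹ = jj (x₁⁻¹, x₂⁻¹) :=
    red_inv_of_unit v red jj hjj hmul hone hrange hx0 hxv hredx
  refine ⟨?_, ?_, ?_, ?_⟩
  · obtain ⟨b₁, hb₁⟩ := (hrA₁ x₁).mp (self_mem_chartAlg x₁)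
    obtain ⟨b₂, hb₂⟩ := (hrA₂ x₂).mp (self_mem_chartAlg x₂)
    exact ⟨(b₁, b₂), (hRA _).mpr ⟨x, ball_of_unit hxv, self_mem_chartAlg x, by
      rw [hredx, hb₁, hb₂]⟩, hb₁, hb₂⟩
  · obtain ⟨b₁, hb₁⟩ := (hrB₁ x₁⁻¹).mp (self_mem_chartAlg x₁⁻¹)
    obtain ⟨b₂, hb₂⟩ := (hrB₂ x₂⁻¹).mp (self_mem_chartAlg x₂⁻¹)
    exact ⟨(b₁, b₂), (hRB _).mpr ⟨x⁻¹, ball_of_unit (unit_inv hxv), self_mem_chartAlg x⁻¹, by
      rw [hredxi, hb₁, hb₂]⟩, hb₁, hb₂⟩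
  · intro z hz
    obtain ⟨f, hfb, hfc, hfr⟩ := (hRB z).mp hz
    obtain ⟨n₀, hn₀⟩ := exists_pow_mul_mem_chartAlg hx0 E2 (fun w hw => by
      have := hxord w; have := hE1w w; omega) hfc
    obtain ⟨n₁, hn₁⟩ := exists_pow_mul_mem_chartAlg hx₁0 Y0₁ (fun w hw => by
      have := hx₁ w; have := hYinf₁w w; omega) ((hrB₁ _).mpr ⟨z.1, rfl⟩)
    obtain ⟨n₂, hn₂⟩ := exists_pow_mul_mem_chartAlg hx₂0 Y0₂ (fun w hw => by
      have := hx₂ w; have := hYinf₂w w; omega) ((hrB₂ _).mpr ⟨z.2, rfl⟩)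
    obtain ⟨b₁, hb₁⟩ := (hrA₁ _).mp (hn₁ (max n₀ (max n₁ n₂))
      ((le_max_left n₁ n₂).trans (le_max_right n₀ _)))
    obtain ⟨b₂, hb₂⟩ := (hrA₂ _).mp (hn₂ (max n₀ (max n₁ n₂))
      ((le_max_right n₁ n₂).trans (le_max_right n₀ _)))
    refine ⟨max n₀ (max n₁ n₂), (b₁, b₂), (hRA _).mpr ⟨x ^ (max n₀ (max n₁ n₂)) * f,
      ball_mul (ball_of_unit (unit_pow hxv _)) hfb, hn₀ _ (le_max_left n₀ _), ?_⟩, hb₁, hb₂⟩
    rw [red_pow_mul_of_unit v red jj hmul hone hxv hredx _ hfb hfr, hb₁, hb₂]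
  · intro z hz
    obtain ⟨f, hfb, hfc, hfr⟩ := (hRA z).mp hz
    obtain ⟨n₀, hn₀⟩ := exists_inv_pow_mul_mem_chartAlg hx0 E1 (fun w hw => by
      have := hxord w; have := hE2w w; omega) hfc
    obtain ⟨n₁, hn₁⟩ := exists_inv_pow_mul_mem_chartAlg hx₁0 Yinf₁ (fun w hw => by
      have := hx₁ w; have := hY0₁w w; omega) ((hrA₁ _).mpr ⟨z.1, rfl⟩)
    obtain ⟨n₂, hn₂⟩ := exists_inv_pow_mul_mem_chartAlg hx₂0 Yinf₂ (fun w hw => by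
      have := hx₂ w; have := hY0₂w w; omega) ((hrA₂ _).mpr ⟨z.2, rfl⟩)
    obtain ⟨b₁, hb₁⟩ := (hrB₁ _).mp (hn₁ (max n₀ (max n₁ n₂))
      ((le_max_left n₁ n₂).trans (le_max_right n₀ _)))
    obtain ⟨b₂, hb₂⟩ := (hrB₂ _).mp (hn₂ (max n₀ (max n₁ n₂))
      ((le_max_right n₁ n₂).trans (le_max_right n₀ _)))
    refine ⟨max n₀ (max n₁ n₂), (b₁, b₂), (hRB _).mpr ⟨x⁻¹ ^ (max n₀ (max n₁ n₂)) * f,
      ball_mul (ball_of_unit (unit_pow (unit_inv hxv) _)) hfb, hn₀ _ (le_max_left n₀ _), ?_⟩,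
      hb₁, hb₂⟩
    rw [red_pow_mul_of_unit v red jj hmul hone (unit_inv hxv) hredxi _ hfb hfr, hb₁, hb₂]

/-- **The unit package** (`hu`, `hu'` of `node_rr_package`) from ONE unit `g` of the ball which
is regular on the chart `x`, whose inverse is regular on the chart `x⁻¹`, with
`red g = jj (1, u)`. -/
theorem unit_package
    (v : ι → Valuation F Γ₀) (red : F → Fk) (jj : Fk₁ × Fk₂ →ₐ[kk] Fk)
    (hjj : Function.Injective jj)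
    (hmul : ∀ a b : F, (∀ i, v i a ≤ 1) → (∀ i, v i b ≤ 1) → red (a * b) = red a * red b)
    (hone : red 1 = 1) (hrange : ∀ f : F, (∀ i, v i f ≤ 1) → ∃ y, red f = jj y)
    (x : F) (x₂ : Fk₂)
    (ιA₁ : A₁ →ₐ[kk] Fk₁) (ιA₂ : A₂ →ₐ[kk] Fk₂)
    (hrA₂ : ∀ f, f ∈ chartAlg kk x₂ ↔ ∃ b, ιA₂ b = f)
    (RA : Subalgebra kk (A₁ × A₂))
    (hRA : ∀ r : A₁ × A₂, r ∈ RA ↔ ∃ f : F, (∀ i, v i f ≤ 1) ∧ f ∈ chartAlg K x ∧
      red f = jj (ιA₁ r.1, ιA₂ r.2))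
    (ιB₁ : B₁ →ₐ[kk] Fk₁) (ιB₂ : B₂ →ₐ[kk] Fk₂)
    (hrB₂ : ∀ f, f ∈ chartAlg kk x₂⁻¹ ↔ ∃ b, ιB₂ b = f)
    (RB : Subalgebra kk (B₁ × B₂))
    (hRB : ∀ r : B₁ × B₂, r ∈ RB ↔ ∃ f : F, (∀ i, v i f ≤ 1) ∧ f ∈ chartAlg K x⁻¹ ∧
      red f = jj (ιB₁ r.1, ιB₂ r.2))
    (g : F) (hg0 : g ≠ 0) (hgv : ∀ i, v i g = 1) (hgA : g ∈ chartAlg K x)
    (hgB : g⁻¹ ∈ chartAlg K x⁻¹) (u : Fk₂) (hu : u ∈ chartAlg kk x₂)
    (hu' : u⁻¹ ∈ chartAlg kk x₂⁻¹) (hredg : red g = jj (1, u)) :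
    (∃ r ∈ RA, ιA₁ r.1 = 1 ∧ ιA₂ r.2 = u) ∧ (∃ r ∈ RB, ιB₁ r.1 = 1 ∧ ιB₂ r.2 = u⁻¹) := by
  have hredgi : red g⁻¹ = jj (1, u⁻¹) := by
    have := red_inv_of_unit v red jj hjj hmul hone hrange hg0 hgv hredg
    rwa [inv_one] at this
  constructor
  · obtain ⟨b, hb⟩ := (hrA₂ u).mp hu
    exact ⟨(1, b), (hRA _).mpr ⟨g, ball_of_unit hgv, hgA, by
      rw [hredg]; show _ = jj (ιA₁ 1, ιA₂ b); rw [map_one, hb]⟩, map_one ιA₁, hb⟩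
  · obtain ⟨b, hb⟩ := (hrB₂ u⁻¹).mp hu'
    exact ⟨(1, b), (hRB _).mpr ⟨g⁻¹, ball_of_unit (unit_inv hgv), hgB, by
      rw [hredgi]; show _ = jj (ιB₁ 1, ιB₂ b); rw [map_one, hb]⟩, map_one ιB₁, hb⟩

end Transfer

/-! ### The unit package when `x₂ = x₁ ^ q` -/

section UnitPow

variable {K F : Type*} [Field K] [Field F] [Algebra K F]
variable {Γ₀ : Type*} [LinearOrderedCommGroupWithZero Γ₀] {ι : Type*}
variable {kk : Type*} [Field kk]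
variable {Fk₁ Fk' : Type*} [Field Fk₁] [Field Fk'] [Algebra kk Fk₁] [Algebra kk Fk']
variable {Fk : Type*} [CommRing Fk] [Algebra kk Fk]
variable {A₁ A₂ : Type*} [CommRing A₁] [CommRing A₂] [Algebra kk A₁] [Algebra kk A₂]
variable {B₁ B₂ : Type*} [CommRing B₁] [CommRing B₂] [Algebra kk B₁] [Algebra kk B₂]

/-- A positive power has a zero exactly where the base has one (valuation form). -/
theorem ord_pow_pos_of_ord_pow_pos (w : Place kk Fk') {y : Fk'} (hy0 : y ≠ 0) {a b : ℕ}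
    (hb : b ≠ 0) (h : 0 < w.ord (y ^ a)) : 0 < w.ord (y ^ b) := by
  rw [ord_pos_iff w (pow_ne_zero a hy0), map_pow] at h
  rw [ord_pos_iff w (pow_ne_zero b hy0), map_pow]
  rcases Nat.eq_zero_or_pos a with rfl | ha
  · simp at h
  · exact pow_lt_one₀ zero_le ((pow_lt_one_iff_of_nonneg zero_le ha.ne').mp h) hb

/-- **The unit package for `x₂ = x₁ ^ q`** (`hu`, `hu'`, `hu0`, `hu'0` of `node_rr_package`
with `u := x₁ ^ (q ^ 2 - 1)`, `u' := u⁻¹`), from ONE unit `g` of the ball, regular on the chart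
`x` with inverse regular on the chart `x⁻¹`, and `red g = jj (1, x₁ ^ (q ^ 2 - 1))`.
In the modular instance `g = x ^ q / W x`: `red g = (x₁ ^ q / x₂, x₂ ^ q / x₁)`. -/
theorem unit_package_pow
    (v : ι → Valuation F Γ₀) (red : F → Fk) (jj : Fk₁ × Fk' →ₐ[kk] Fk)
    (hjj : Function.Injective jj)
    (hmul : ∀ a b : F, (∀ i, v i a ≤ 1) → (∀ i, v i b ≤ 1) → red (a * b) = red a * red b)
    (hone : red 1 = 1) (hrange : ∀ f : F, (∀ i, v i f ≤ 1) → ∃ y, red f = jj y)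
    (x : F) (y : Fk') (hy0 : y ≠ 0) (q : ℕ) (hq : 2 ≤ q)
    (ιA₁ : A₁ →ₐ[kk] Fk₁) (ιA₂ : A₂ →ₐ[kk] Fk')
    (hrA₂ : ∀ f, f ∈ chartAlg kk (y ^ q) ↔ ∃ b, ιA₂ b = f)
    (RA : Subalgebra kk (A₁ × A₂))
    (hRA : ∀ r : A₁ × A₂, r ∈ RA ↔ ∃ f : F, (∀ i, v i f ≤ 1) ∧ f ∈ chartAlg K x ∧
      red f = jj (ιA₁ r.1, ιA₂ r.2))
    (ιB₁ : B₁ →ₐ[kk] Fk₁) (ιB₂ : B₂ →ₐ[kk] Fk')
    (hrB₂ : ∀ f, f ∈ chartAlg kk (y ^ q)⁻¹ ↔ ∃ b, ιB₂ b = f)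
    (RB : Subalgebra kk (B₁ × B₂))
    (hRB : ∀ r : B₁ × B₂, r ∈ RB ↔ ∃ f : F, (∀ i, v i f ≤ 1) ∧ f ∈ chartAlg K x⁻¹ ∧
      red f = jj (ιB₁ r.1, ιB₂ r.2))
    (g : F) (hg0 : g ≠ 0) (hgv : ∀ i, v i g = 1) (hgA : g ∈ chartAlg K x)
    (hgB : g⁻¹ ∈ chartAlg K x⁻¹) (hredg : red g = jj (1, y ^ (q ^ 2 - 1))) :
    (∃ r ∈ RA, ιA₁ r.1 = 1 ∧ ιA₂ r.2 = y ^ (q ^ 2 - 1)) ∧
    (∃ r ∈ RB, ιB₁ r.1 = 1 ∧ ιB₂ r.2 = (y ^ (q ^ 2 - 1))⁻¹) ∧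
    (∀ w : Place kk Fk', 0 < w.ord (y ^ q) → 0 < w.ord (y ^ (q ^ 2 - 1))) ∧
    (∀ w : Place kk Fk', w.ord (y ^ q) < 0 → 0 < w.ord (y ^ (q ^ 2 - 1))⁻¹) := by
  have hq0 : q ≠ 0 := by omega
  have hqq : q ^ 2 - 1 ≠ 0 := by
    have : 2 ^ 2 ≤ q ^ 2 := Nat.pow_le_pow_left hq 2
    omega
  have hu : y ^ (q ^ 2 - 1) ∈ chartAlg kk (y ^ q) := by
    rw [chartAlg_pow y hq0]
    exact pow_mem (self_mem_chartAlg y) _
  have hu' : (y ^ (q ^ 2 - 1))⁻¹ ∈ chartAlg kk (y ^ q)⁻¹ := by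
    rw [← inv_pow, ← inv_pow, chartAlg_pow y⁻¹ hq0]
    exact pow_mem (self_mem_chartAlg y⁻¹) _
  obtain ⟨h1, h2⟩ := unit_package v red jj hjj hmul hone hrange x (y ^ q) ιA₁ ιA₂ hrA₂ RA hRA
    ιB₁ ιB₂ hrB₂ RB hRB g hg0 hgv hgA hgB (y ^ (q ^ 2 - 1)) hu hu' hredg
  refine ⟨h1, h2, fun w hw => ord_pow_pos_of_ord_pow_pos w hy0 hqq hw, fun w hw => ?_⟩
  have hw' : 0 < w.ord (y⁻¹ ^ q) := by
    rw [inv_pow, Place.ord_inv]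
    omega
  have := ord_pow_pos_of_ord_pow_pos w (inv_ne_zero hy0) hqq hw'
  rwa [inv_pow] at this

end UnitPow

/-! ### `node_rr_package` with the transfer hypotheses discharged -/

section Package

open Fermat.Agent.S35.helper603 (valueAt)
open Fermat.Agent.S35.helper825 (place_deg node_rr_package)

variable {K F : Type*} [Field K] [Field F] [Algebra K F]
variable {Γ₀ : Type*} [LinearOrderedCommGroupWithZero Γ₀] {ι : Type*}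
variable {kk : Type*} [Field kk] [IsAlgClosed kk]
variable {Fk' : Type*} [Field Fk'] [Algebra kk Fk']
variable {Fk : Type*} [CommRing Fk] [Algebra kk Fk]
variable {A₁ A₂ : Type*} [CommRing A₁] [CommRing A₂] [Algebra kk A₁] [Algebra kk A₂]
variable {B₁ B₂ : Type*} [CommRing B₁] [CommRing B₂] [Algebra kk B₁] [Algebra kk B₂]

/-- **`helper825.node_rr_package` with its ten transfer hypotheses discharged**
(`hx hxi hBA hAB u u' hu hu' hu0 hu'0`), in the situation of the modular instance: both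
components of the special fibre are the same field `Fk'`, `x₂ = x₁ ^ q` (`2 ≤ q`), and there is
ONE unit `g` of the ball (`g = x ^ q / W x`), regular on the chart `x`, with inverse regular on
the chart `x⁻¹`, and `red g = jj (1, x₁ ^ (q ^ 2 - 1))`.  All other binders, and the
conclusion, are those of `node_rr_package` verbatim; the new inputs are `hjj`, `hmul`, `hone`,
`hrange`, `hxv`, `hredx` (chart facts of the E3 carrier). -/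
theorem node_rr_package_of_unit
    (v : ι → Valuation F Γ₀) (red : F → Fk) (jj : Fk' × Fk' →ₐ[kk] Fk)
    (hjj : Function.Injective jj)
    (hmul : ∀ a b : F, (∀ i, v i a ≤ 1) → (∀ i, v i b ≤ 1) → red (a * b) = red a * red b)
    (hone : red 1 = 1) (hrange : ∀ f : F, (∀ i, v i f ≤ 1) → ∃ y, red f = jj y)
    -- generic fibre
    (E1 E2 : Divisor K F) (hE1 : 0 ≤ E1) (hE2 : 0 ≤ E2)
    (hdisjE : ∀ w : Place K F, E1 w = 0 ∨ E2 w = 0)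
    (x : F) (hx0 : x ≠ 0) (hxord : ∀ w : Place K F, w.ord x = E2 w - E1 w)
    (hxv : ∀ i, v i x = 1)
    -- special fibre
    (x₁ x₂ : Fk') (hx₁t : Transcendental kk x₁) (hx₂t : Transcendental kk x₂)
    [FiniteDimensional (IntermediateField.adjoin kk {x₁}) Fk']
    [FiniteDimensional (IntermediateField.adjoin kk {x₂}) Fk']
    (q : ℕ) (hq : 2 ≤ q) (hx₂q : x₂ = x₁ ^ q) (hredx : red x = jj (x₁, x₂))
    (Yinf₁ Y0₁ : Divisor kk Fk') (Yinf₂ Y0₂ : Divisor kk Fk')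
    (hYinf₁ : 0 ≤ Yinf₁) (hY0₁ : 0 ≤ Y0₁) (hYinf₂ : 0 ≤ Yinf₂) (hY0₂ : 0 ≤ Y0₂)
    (hdisj₁ : ∀ w : Place kk Fk', Yinf₁ w = 0 ∨ Y0₁ w = 0)
    (hdisj₂ : ∀ w : Place kk Fk', Yinf₂ w = 0 ∨ Y0₂ w = 0)
    (hx₁ : ∀ w : Place kk Fk', w.ord x₁ = Y0₁ w - Yinf₁ w)
    (hx₂ : ∀ w : Place kk Fk', w.ord x₂ = Y0₂ w - Yinf₂ w)
    -- chart `A`
    (ιA₁ : A₁ →ₐ[kk] Fk') (ιA₂ : A₂ →ₐ[kk] Fk') (hιA₁ : Function.Injective ιA₁)
    (hιA₂ : Function.Injective ιA₂) (hrA₁ : ∀ f, f ∈ chartAlg kk x₁ ↔ ∃ b, ιA₁ b = f)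
    (hrA₂ : ∀ f, f ∈ chartAlg kk x₂ ↔ ∃ b, ιA₂ b = f)
    (RA : Subalgebra kk (A₁ × A₂)) (SA₁ : Finset (A₁ →ₐ[kk] kk)) (SA₂ : Finset (A₂ →ₐ[kk] kk))
    (hfstA : ∀ a : A₁, ∃ r ∈ RA, r.1 = a) (hsndA : ∀ b : A₂, ∃ r ∈ RA, r.2 = b)
    (hJA : ∀ z : A₁ × A₂, (∀ φ ∈ SA₁, φ z.1 = 0) → (∀ ψ ∈ SA₂, ψ z.2 = 0) → z ∈ RA)
    (hRA : ∀ r : A₁ × A₂, r ∈ RA ↔ ∃ f : F, (∀ i, v i f ≤ 1) ∧ f ∈ chartAlg K x ∧
      red f = jj (ιA₁ r.1, ιA₂ r.2))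
    -- chart `B`
    (ιB₁ : B₁ →ₐ[kk] Fk') (ιB₂ : B₂ →ₐ[kk] Fk') (hιB₁ : Function.Injective ιB₁)
    (hιB₂ : Function.Injective ιB₂) (hrB₁ : ∀ f, f ∈ chartAlg kk x₁⁻¹ ↔ ∃ b, ιB₁ b = f)
    (hrB₂ : ∀ f, f ∈ chartAlg kk x₂⁻¹ ↔ ∃ b, ιB₂ b = f)
    (RB : Subalgebra kk (B₁ × B₂)) (SB₁ : Finset (B₁ →ₐ[kk] kk)) (SB₂ : Finset (B₂ →ₐ[kk] kk))
    (hfstB : ∀ a : B₁, ∃ r ∈ RB, r.1 = a) (hsndB : ∀ b : B₂, ∃ r ∈ RB, r.2 = b)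
    (hJB : ∀ z : B₁ × B₂, (∀ φ ∈ SB₁, φ z.1 = 0) → (∀ ψ ∈ SB₂, ψ z.2 = 0) → z ∈ RB)
    (hRB : ∀ r : B₁ × B₂, r ∈ RB ↔ ∃ f : F, (∀ i, v i f ≤ 1) ∧ f ∈ chartAlg K x⁻¹ ∧
      red f = jj (ιB₁ r.1, ιB₂ r.2))
    -- the unit
    (g : F) (hg0 : g ≠ 0) (hgv : ∀ i, v i g = 1) (hgA : g ∈ chartAlg K x)
    (hgB : g⁻¹ ∈ chartAlg K x⁻¹) (hredg : red g = jj (1, x₁ ^ (q ^ 2 - 1))) :
    ∃ (I : Type) (_ : Fintype I) (P : I → Place kk Fk') (Q : I → Place kk Fk'),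
      Function.Injective P ∧ Function.Injective Q ∧
      -- `hPY`, `hQY`
      (∀ i, Yinf₁ (P i) = 0 ∧ Y0₁ (P i) = 0) ∧ (∀ i, Yinf₂ (Q i) = 0 ∧ Y0₂ (Q i) = 0) ∧
      -- `hnode`
      (∀ a : ℕ, ∀ f ∈ riemannRochSpace (a • E1), (∀ i, v i f ≤ 1) →
        ∀ y₁ ∈ riemannRochSpace (a • Yinf₁), ∀ y₂ ∈ riemannRochSpace (a • Yinf₂),
          red f = jj (y₁, y₂) →
          ∀ i, valueAt (Q i) (place_deg x₂ (Q i)) y₂ = valueAt (P i) (place_deg x₁ (P i)) y₁) ∧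
      -- `hK1`
      (∀ a : ℕ, ∀ y₁ ∈ riemannRochSpace (a • Yinf₁), ∀ y₂ ∈ riemannRochSpace (a • Yinf₂),
        (∀ i, valueAt (Q i) (place_deg x₂ (Q i)) y₂ = valueAt (P i) (place_deg x₁ (P i)) y₁) →
        ∃ a' : ℕ, ∃ f ∈ riemannRochSpace (a' • E1), (∀ i, v i f ≤ 1) ∧ red f = jj (y₁, y₂)) ∧
      -- `hK2`
      (∀ b : ℕ, ∀ y₁ ∈ riemannRochSpace (b • Y0₁), ∀ y₂ ∈ riemannRochSpace (b • Y0₂),
        (∀ i, valueAt (Q i) (place_deg x₂ (Q i)) y₂ = valueAt (P i) (place_deg x₁ (P i)) y₁) →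
        ∃ b' : ℕ, ∃ f ∈ riemannRochSpace (b' • E2), (∀ i, v i f ≤ 1) ∧ red f = jj (y₁, y₂)) ∧
      -- the node conditions on the two chart rings, and maximality
      (∀ i, (P i).ord x₁ = 0 ∧ (Q i).ord x₂ = 0) ∧
      (∀ r : A₁ × A₂, r ∈ RA ↔ ∀ i, valueAt (P i) (place_deg x₁ (P i)) (ιA₁ r.1) =
        valueAt (Q i) (place_deg x₂ (Q i)) (ιA₂ r.2)) ∧
      (∀ r : B₁ × B₂, r ∈ RB ↔ ∀ i, valueAt (P i) (place_deg x₁ (P i)) (ιB₁ r.1) =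
        valueAt (Q i) (place_deg x₂ (Q i)) (ιB₂ r.2)) ∧
      (∀ (p : Place kk Fk') (q' : Place kk Fk'), 0 ≤ p.ord x₁ → 0 ≤ q'.ord x₂ →
        (∀ r ∈ RA, valueAt p (place_deg x₁ p) (ιA₁ r.1) =
          valueAt q' (place_deg x₂ q') (ιA₂ r.2)) →
        ∃ i, P i = p ∧ Q i = q') ∧
      (∀ (p : Place kk Fk') (q' : Place kk Fk'), p.ord x₁ ≤ 0 → q'.ord x₂ ≤ 0 →
        (∀ r ∈ RB, valueAt p (place_deg x₁ p) (ιB₁ r.1) =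
          valueAt q' (place_deg x₂ q') (ιB₂ r.2)) →
        ∃ i, P i = p ∧ Q i = q') := by
  have hx₁0 : x₁ ≠ 0 := fun h => hx₁t (h ▸ isAlgebraic_zero)
  have hx₂0 : x₂ ≠ 0 := fun h => hx₂t (h ▸ isAlgebraic_zero)
  obtain ⟨hx, hxi, hBA, hAB⟩ := transfer_package v red jj hjj hmul hone hrange E1 E2 hE1 hE2 x
    hx0 hxord hxv x₁ x₂ hx₁0 hx₂0 Yinf₁ Y0₁ Yinf₂ Y0₂ hYinf₁ hY0₁ hYinf₂ hY0₂ hx₁ hx₂ hredx
    ιA₁ ιA₂ hrA₁ hrA₂ RA hRA ιB₁ ιB₂ hrB₁ hrB₂ RB hRB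
  subst hx₂q
  obtain ⟨hu, hu', hu0, hu'0⟩ := unit_package_pow v red jj hjj hmul hone hrange x x₁ hx₁0 q hq
    ιA₁ ιA₂ hrA₂ RA hRA ιB₁ ιB₂ hrB₂ RB hRB g hg0 hgv hgA hgB hredg
  exact node_rr_package v red jj E1 E2 hE1 hE2 hdisjE x hx0 hxord x₁ (x₁ ^ q) hx₁t hx₂t
    Yinf₁ Y0₁ Yinf₂ Y0₂ hYinf₁ hY0₁ hYinf₂ hY0₂ hdisj₁ hdisj₂ hx₁ hx₂ ιA₁ ιA₂ hιA₁ hιA₂ hrA₁
    hrA₂ RA SA₁ SA₂ hfstA hsndA hJA hRA ιB₁ ιB₂ hιB₁ hιB₂ hrB₁ hrB₂ RB SB₁ SB₂ hfstB hsndB hJB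
    hRB hx hxi hBA hAB (x₁ ^ (q ^ 2 - 1)) (x₁ ^ (q ^ 2 - 1))⁻¹ hu hu' hu0 hu'0

end Package

end Fermat.Agent.S35.helper6174
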