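/-
S35/S34-SQUEEZE (helper4658, S34 architect; board #2189).

The special-fibre SQUEEZE at a good prime, as a named theorem, from the LANDED S18 track A
(`helper2030.LineData`, `helper2030.Stmt_Cart`; unconditional on the Hauptmodul lines by
`helper789.lineData_t2`, `lineData_t3`, `stmt_Cart_gauss`).

For a level `N`, a prime `ℓ ∤ N`, a place `A` of `ℚ̄` over `ℓ`, the Gauss ring
`O = helper2030.gaussO N ℓ hℓN A hA` of `F̄_N` with its reduction `red = helper2030.gaussRed`
onto `F_k = modularFunctionFieldFullC k N` (`k = ResidueField A`) and a base line `x` with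
`LineData`:

* `squeeze_chart` : there are `d > 0`, `γ`, `cK` such that for `cK ≤ (a + b) d` the chart spaces
  `helper8566.chartSpace` of the two fibres have the SAME dimension `(a + b) d + 1 - γ` and every
  element of `chartSpace k x̄ a b` is the reduction of an element of `chartSpace ℚ̄ x a b ∩ O`;
* `red_mem_chartSpace` : conversely `red (chartSpace ℚ̄ x a b ∩ O) ⊆ chartSpace k x̄ a b`;
* `exists_lift_of_isIntegral` / `exists_lift_of_isIntegral_inv` : CHART RINGS — every element of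
  `F_k` integral over `k[x̄]` (resp. `k[x̄⁻¹]`) is the reduction of an element of `O` integral over
  `ℚ̄[x]` (resp. `ℚ̄[x⁻¹]`).

This is the hypothesis `hsurj` of `helper2736.kron_conductor_modular` (E2) and the component-wise
surjectivity used by E3 of the geometry module shared by S34 and S35.
-/
import Fermat.Agent.S18.helper789_LineInst

set_option autoImplicit false
set_option synthInstance.maxHeartbeats 400000

noncomputable section

namespace Fermat.Agent.S35.helper4658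

open ModularCurve AlgebraicCurve IntermediateField Module
open Fermat.Agent.S18.helper2030 Fermat.Agent.S18.helper6292 Fermat.Agent.S18.helper8566

section Scaling

open Polynomial in
/-- An element integral over `k[y]` becomes integral over `k[y⁻¹]` after multiplication by a
large power of `y⁻¹`. -/
theorem exists_forall_isIntegral_inv_pow_mul {k E : Type*} [Field k] [Field E] [Algebra k E]
    (y g : E) (hg : IsIntegral (Algebra.adjoin k {y}) g) :
    ∃ n₀ : ℕ, ∀ n : ℕ, n₀ ≤ n → IsIntegral (Algebra.adjoin k {y⁻¹}) (y⁻¹ ^ n * g) := by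
  by_cases hy : y = 0
  · refine ⟨1, fun n hn => ?_⟩
    have hn0 : n ≠ 0 := by omega
    rw [hy, inv_zero, zero_pow hn0, zero_mul]
    exact isIntegral_zero
  obtain ⟨p, hpm, hp⟩ := hg
  -- every coefficient is a polynomial in `y`
  have hcoef : ∀ i : ℕ, ∃ q : k[X], aeval y q = ((p.coeff i : Algebra.adjoin k {y}) : E) := by
    intro i
    have h : ((p.coeff i : Algebra.adjoin k {y}) : E) ∈ (aeval (R := k) y).range := by
      rw [← Algebra.adjoin_singleton_eq_range_aeval]
      exact (p.coeff i).2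
    obtain ⟨q, hq⟩ := h
    exact ⟨q, hq⟩
  choose q hq using hcoef
  refine ⟨(Finset.range (p.natDegree + 1)).sup fun i => (q i).natDegree, fun n hn => ?_⟩
  set S : Subalgebra k E := Algebra.adjoin k {y⁻¹} with hS
  have hyS : y⁻¹ ∈ S := Algebra.self_mem_adjoin_singleton k y⁻¹
  -- `y⁻¹ ^ n * c_i ∈ S` for `i ≤ natDegree p`
  have hK1 : ∀ i : ℕ, i ≤ p.natDegree →
      y⁻¹ ^ n * ((p.coeff i : Algebra.adjoin k {y}) : E) ∈ S := by
    intro i hi
    have hdeg : (q i).natDegree ≤ n :=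
      le_trans (Finset.le_sup (f := fun i => (q i).natDegree)
        (Finset.mem_range.mpr (Nat.lt_succ_of_le hi))) hn
    rw [← hq i, aeval_eq_sum_range, Finset.mul_sum]
    refine Subalgebra.sum_mem _ fun j hj => ?_
    have hj' : j ≤ n := le_trans (Nat.lt_succ_iff.mp (Finset.mem_range.mp hj)) hdeg
    have h1 : y⁻¹ ^ n * ((q i).coeff j • y ^ j) = (q i).coeff j • y⁻¹ ^ (n - j) := by
      rw [mul_smul_comm]
      congr 1
      have : n = (n - j) + j := (Nat.sub_add_cancel hj').symm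
      conv_lhs => rw [this, pow_add, mul_assoc, ← mul_pow, inv_mul_cancel₀ hy, one_pow, mul_one]
    rw [h1]
    exact Subalgebra.smul_mem _ (Subalgebra.pow_mem _ hyS _) _
  -- the scaled polynomial over `E`
  set P : E[X] := scaleRoots (p.map (algebraMap (Algebra.adjoin k {y}) E)) (y⁻¹ ^ n) with hP
  have hmapm : (p.map (algebraMap (Algebra.adjoin k {y}) E)).Monic := hpm.map _
  have hPm : P.Monic := (monic_scaleRoots_iff _).mpr hmapm
  have hroot : eval (y⁻¹ ^ n * g) P = 0 := by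
    have h0 : eval₂ (RingHom.id E) g (p.map (algebraMap (Algebra.adjoin k {y}) E)) = 0 := by
      rw [eval₂_id, eval_map]; exact hp
    have := scaleRoots_eval₂_eq_zero (p := p.map (algebraMap (Algebra.adjoin k {y}) E))
      (RingHom.id E) (r := g) (s := y⁻¹ ^ n) h0
    rwa [eval₂_id, RingHom.id_apply] at this
  have hnat : (p.map (algebraMap (Algebra.adjoin k {y}) E)).natDegree = p.natDegree :=
    hpm.natDegree_map _
  have hlift : P ∈ lifts (algebraMap S E) := by
    rw [lifts_iff_coeff_lifts]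
    intro i
    have hmem : P.coeff i ∈ S := by
      rw [hP, coeff_scaleRoots, hnat, coeff_map]
      by_cases hi : i ≤ p.natDegree
      · rcases Nat.eq_or_lt_of_le hi with h | h
        · rw [h, Nat.sub_self, pow_zero, mul_one]
          have : p.coeff p.natDegree = 1 := hpm.coeff_natDegree
          rw [this, map_one]
          exact S.one_mem
        · have h2 : p.natDegree - i = (p.natDegree - i - 1) + 1 := by omega
          rw [h2, pow_succ, ← mul_assoc, mul_comm (algebraMap _ E (p.coeff i)), mul_assoc]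
          refine S.mul_mem (Subalgebra.pow_mem _ (Subalgebra.pow_mem _ hyS _) _) ?_
          rw [mul_comm]
          exact hK1 i hi
      · rw [coeff_eq_zero_of_natDegree_lt (not_le.mp hi), map_zero, zero_mul]
        exact S.zero_mem
    exact ⟨⟨P.coeff i, hmem⟩, rfl⟩
  obtain ⟨Q, hQ, -, hQm⟩ := lifts_and_degree_eq_and_monic hlift hPm
  refine ⟨Q, hQm, ?_⟩
  rw [← eval_map, hQ]
  exact hroot

/-- Every element integral over `k[y]` lies in the chart spaces `chartSpace k y a 0` for all large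
`a`: the chart ring of `y` is the union of the chart spaces `chartSpace k y a 0`. -/
theorem exists_forall_mem_chartSpace_of_isIntegral {k E : Type*} [Field k] [Field E] [Algebra k E]
    (y g : E) (hg : IsIntegral (Algebra.adjoin k {y}) g) :
    ∃ n₀ : ℕ, ∀ a : ℕ, n₀ ≤ a → g ∈ chartSpace k y a 0 := by
  obtain ⟨n₀, hn₀⟩ := exists_forall_isIntegral_inv_pow_mul y g hg
  refine ⟨n₀, fun a ha => ⟨?_, hn₀ a ha⟩⟩
  rw [pow_zero, one_mul]
  exact hg

/-- Every element integral over `k[y⁻¹]` lies in the chart spaces `chartSpace k y 0 b` for all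
large `b`. -/
theorem exists_forall_mem_chartSpace_of_isIntegral_inv {k E : Type*} [Field k] [Field E]
    [Algebra k E] (y g : E) (hg : IsIntegral (Algebra.adjoin k {y⁻¹}) g) :
    ∃ n₀ : ℕ, ∀ b : ℕ, n₀ ≤ b → g ∈ chartSpace k y 0 b := by
  obtain ⟨n₀, hn₀⟩ := exists_forall_isIntegral_inv_pow_mul y⁻¹ g hg
  refine ⟨n₀, fun b hb => ⟨?_, ?_⟩⟩
  · have := hn₀ b hb
    rwa [inv_inv] at this
  · rw [pow_zero, one_mul]
    exact hg

/-- Elements of a chart space `chartSpace k y a 0` are integral over `k[y]`. -/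
theorem isIntegral_of_mem_chartSpace_zero {k E : Type*} [Field k] [Field E] [Algebra k E]
    {y g : E} {a : ℕ} (hg : g ∈ chartSpace k y a 0) : IsIntegral (Algebra.adjoin k {y}) g := by
  have := hg.1
  rwa [pow_zero, one_mul] at this

end Scaling

section Abstract

variable {L F k Fk : Type*} [Field L] [Field F] [Algebra L F] [Field k] [Field Fk] [Algebra k Fk]

/-- **Abstract squeeze, chart form** (the landed `FFDataG.surj_and_finrank` at the trivial
Kummer datum `D0 = 0`, `w = 1`, `m = 1`, `u = 1`).  Same hypotheses as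
`helper2030.kummer_ff_chart` without the Kummer datum. -/
theorem squeeze_chart_abstract
    (O : ValuationSubring F)
    (hVG : ∀ f : F, f ≠ 0 → ∃ c : L, O.valuation (algebraMap L F c) = O.valuation f)
    (harch : ∀ ε κ : O.ValueGroup, ε < 1 → κ ≠ 0 → ∃ n : ℕ, ε ^ n < κ)
    (red : O →+* Fk)
    (hred : ∀ f : O, red f = 0 ↔ O.valuation (f : F) < 1)
    (hredk_surj : ∀ c' : k, ∃ (c : L) (hc : algebraMap L F c ∈ O),
      red ⟨algebraMap L F c, hc⟩ = algebraMap k Fk c')
    (x : F) (hx0 : x ≠ 0) (hx : x ∈ O) (hxi : x⁻¹ ∈ O)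
    (Xinf X0 : Divisor L F) (hXinf : IsPoleDivisor x Xinf) (hX0 : IsZeroDivisor x X0)
    (hC : ChartIntegral L x) (hC' : ChartIntegral L x⁻¹)
    (hIT : IntegralityTransfer L k O red x (red ⟨x, hx⟩))
    (hIT' : IntegralityTransfer L k O red x⁻¹ (red ⟨x, hx⟩)⁻¹)
    (d : ℤ) (hdpos : 0 < d)
    (hdX : Divisor.degree Xinf = d) (hdX0 : Divisor.degree X0 = d)
    (hcart : ∀ E : Divisor L F, ∃ (r : ℕ) (e : Fin r → F), LinearIndependent L e ∧
      Submodule.span L (Set.range e) = riemannRochSpace E ∧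
      ∀ c : Fin r → L, (∑ i, c i • e i ∈ O ↔ ∀ i, algebraMap L F (c i) ∈ O))
    (γ : ℤ)
    (hRiemF : ∀ D : Divisor L F,
      Divisor.degree D + 1 - γ ≤ (Module.finrank L (riemannRochSpace D) : ℤ))
    (hfink : ∀ a b : ℕ, Module.Finite k (chartSpace k (red ⟨x, hx⟩) a b))
    (cK : ℤ)
    (hGapk : ∀ a b : ℕ, cK ≤ ((a : ℤ) + b) * d →
      (Module.finrank k (chartSpace k (red ⟨x, hx⟩) a b) : ℤ) ≤ ((a : ℤ) + b) * d + 1 - γ)
    (a b : ℕ) (hab : cK ≤ ((a : ℤ) + b) * d) :
    (Module.finrank k (chartSpace k (red ⟨x, hx⟩) a b) : ℤ) = ((a : ℤ) + b) * d + 1 - γ ∧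
    (Module.finrank L (chartSpace L x a b) : ℤ) = ((a : ℤ) + b) * d + 1 - γ ∧
    ∀ g ∈ chartSpace k (red ⟨x, hx⟩) a b,
      ∃ f ∈ chartSpace L x a b, ∃ hf : f ∈ O, red ⟨f, hf⟩ = g := by
  have h1O : (1 : F) ∈ O := O.one_mem
  let S : FFDataG L F k Fk :=
    { O := O, red := red, hVG := hVG, harch := harch, hred := hred, hredk_surj := hredk_surj,
      Xinf := Xinf, X0 := X0,
      hXinf := Finsupp.le_def.mpr fun v => by simpa using hXinf.nonneg v,
      hX0 := Finsupp.le_def.mpr fun v => by simpa using hX0.nonneg v,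
      hdisj := fun P => by
        rw [hXinf P, hX0 P]
        rcases le_total 0 (P.ord x) with h | h
        · left; exact max_eq_left (by omega)
        · right; exact max_eq_left h
      d := d, hdpos := hdpos, hdX := hdX, hdX0 := hdX0, D0 := 0, hD0 := map_zero _,
      hcart := fun a b => hcart _, γ := γ, hRiemF := fun a b => hRiemF _,
      w := 1, hw := one_ne_zero,
      Nk := fun a b => chartSpace k (red ⟨x, hx⟩) a b,
      hNmono := fun a a' b b' ha hb => chartSpace_mono _ ha hb,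
      hNinf := fun a a' b b' _ _ => chartSpace_inf_le _ a a' b b',
      hNone := fun a b => one_mem_chartSpace _ a b,
      hNred := fun a b f hf hfL =>
        red_mul_w_mem_chartSpace (m := 1) (u := 1) (D0 := 0) (w := 1) O red hx0 hx hxi hXinf hX0
          hC hC' hIT hIT' one_ne_zero h1O one_ne_zero
          (fun P => by rw [Place.ord_one]; simp)
          (by
            have : (⟨1, h1O⟩ : O) = 1 := rfl
            rw [this, map_one, one_pow]) a b hf hfL,
      hfink := hfink, cK := cK, hRiemk := hGapk,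
      m := 1, hm := by rw [Nat.cast_one, map_one], u := 1, hu := h1O,
      hordu := fun P => by rw [Place.ord_one]; simp,
      hredu := by
        have : (⟨1, h1O⟩ : O) = 1 := rfl
        rw [this, map_one, one_pow] }
  have hrr : riemannRochSpace ((0 : Divisor L F) + twoDiv Xinf X0 a b) = chartSpace L x a b := by
    rw [zero_add]
    exact riemannRochSpace_eq_chartSpace hx0 hXinf hX0 hC hC' a b
  obtain ⟨hfin, hsurj⟩ := S.surj_and_finrank a b hab
  refine ⟨hfin, ?_, fun g hg => ?_⟩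
  · -- generic dimension: Riemann from below, orthonormal basis reduces independently from above
    obtain ⟨r, e, he_li, he_span, he_orth⟩ := hcart ((0 : Divisor L F) + twoDiv Xinf X0 a b)
    have hr : Module.finrank L (riemannRochSpace ((0 : Divisor L F) + twoDiv Xinf X0 a b)) = r := by
      rw [← he_span, finrank_span_eq_card he_li, Fintype.card_fin]
    have hmem : ∀ i, e i ∈ riemannRochSpace ((0 : Divisor L F) + twoDiv Xinf X0 a b) := fun i => by
      rw [← he_span]; exact Submodule.subset_span (Set.mem_range_self i)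
    have := hfink a b
    let e' : Fin r → chartSpace k (red ⟨x, hx⟩) a b := fun i =>
      ⟨S.red ⟨e i, S.orth_mem he_orth i⟩ * S.w, S.red_mul_w_mem a b _ (hmem i)⟩
    have hli' : LinearIndependent k e' :=
      LinearIndependent.of_comp (chartSpace k (red ⟨x, hx⟩) a b).subtype
        (S.red_linearIndependent he_li he_orth)
    have h1 : r ≤ Module.finrank k (chartSpace k (red ⟨x, hx⟩) a b) := by
      have := hli'.fintype_card_le_finrank
      rwa [Fintype.card_fin] at this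
    have h3 := hRiemF ((0 : Divisor L F) + twoDiv Xinf X0 a b)
    have hdeg : Divisor.degree ((0 : Divisor L F) + twoDiv Xinf X0 a b) = ((a : ℤ) + b) * d :=
      S.degree_E a b
    rw [hdeg, hr] at h3
    have h4 : (r : ℤ) ≤ (Module.finrank k (chartSpace k (red ⟨x, hx⟩) a b) : ℤ) := by
      exact_mod_cast h1
    rw [← hrr, hr]
    have hfin' : (Module.finrank k (chartSpace k (red ⟨x, hx⟩) a b) : ℤ) =
        ((a : ℤ) + b) * d + 1 - γ := hfin
    linarith
  · obtain ⟨f, hf1, hf2, hf3⟩ := hsurj g hg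
    refine ⟨f, by rwa [hrr] at hf1, hf2, ?_⟩
    have : S.red ⟨f, hf2⟩ * S.w = g := hf3
    simpa [S] using this

/-- **Reduction containment, chart form** (all `a`, `b`): the reduction of an element of
`chartSpace L x a b ∩ O` lies in `chartSpace k x̄ a b`.  Only integrality transfer is used. -/
theorem red_mem_chartSpace_abstract (O : ValuationSubring F) (red : O →+* Fk)
    {x : F} (hx0 : x ≠ 0) (hx : x ∈ O) (hxi : x⁻¹ ∈ O)
    (hIT : IntegralityTransfer L k O red x (red ⟨x, hx⟩))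
    (hIT' : IntegralityTransfer L k O red x⁻¹ (red ⟨x, hx⟩)⁻¹)
    (a b : ℕ) {f : F} (hf : f ∈ O) (hfL : f ∈ chartSpace L x a b) :
    red ⟨f, hf⟩ ∈ chartSpace k (red ⟨x, hx⟩) a b := by
  obtain ⟨h1, h2⟩ := hfL
  refine ⟨?_, ?_⟩
  · have hO : x ^ b * f ∈ O := O.mul_mem _ _ (O.pow_mem hx _) hf
    have h3 := hIT _ hO h1
    have h4 : red ⟨x ^ b * f, hO⟩ = red ⟨x, hx⟩ ^ b * red ⟨f, hf⟩ := by
      have h5 : (⟨x ^ b * f, hO⟩ : O) = ⟨x, hx⟩ ^ b * ⟨f, hf⟩ := rfl
      rw [h5, map_mul, map_pow]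
    rwa [h4] at h3
  · have hO : x⁻¹ ^ a * f ∈ O := O.mul_mem _ _ (O.pow_mem hxi _) hf
    have h3 := hIT' _ hO h2
    have h4 : red ⟨x⁻¹ ^ a * f, hO⟩ = (red ⟨x, hx⟩)⁻¹ ^ a * red ⟨f, hf⟩ := by
      have h5 : (⟨x⁻¹ ^ a * f, hO⟩ : O) = ⟨x⁻¹, hxi⟩ ^ a * ⟨f, hf⟩ := rfl
      rw [h5, map_mul, map_pow, red_inv O red hx0 hx hxi]
    rwa [h4] at h3

end Abstract


section Modular

variable (N : ℕ) [NeZero N] (ℓ : ℕ) [Fact ℓ.Prime] (hℓN : ¬ ℓ ∣ N)
  (A : ValuationSubring (AlgebraicClosure ℚ)) (hA : A.LiesOverPrime ℓ)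

local notation "Qb" => AlgebraicClosure ℚ

/-- **(SQ1) The squeeze on a base line with `LineData`** (level `N`, prime `ℓ ∤ N`): there are
`d > 0`, `γ`, `cK` such that `d` is the degree of the pole divisor of `x`, Riemann's inequality
holds on `F̄_N` with `γ`, and for `cK ≤ (a + b) d` the chart spaces of the two fibres have the same
dimension `(a + b) d + 1 - γ` and the reduction `chartSpace ℚ̄ x a b ∩ O → chartSpace k x̄ a b` is
ONTO. -/
theorem squeeze_chart (hcart : Stmt_Cart N ℓ hℓN A hA) {x : modularFunctionFieldBar N}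
    (hL : LineData N ℓ hℓN A hA x) :
    ∃ (d : ℕ) (γ cK : ℤ), 0 < d ∧
      (∀ Xinf : Divisor Qb (modularFunctionFieldBar N), IsPoleDivisor x Xinf →
        Divisor.degree Xinf = d) ∧
      (∀ D : Divisor Qb (modularFunctionFieldBar N),
        Divisor.degree D + 1 - γ ≤ (Module.finrank Qb (riemannRochSpace D) : ℤ)) ∧
      ∀ a b : ℕ, cK ≤ ((a : ℤ) + b) * d →
        (Module.finrank (IsLocalRing.ResidueField A)
          (chartSpace (IsLocalRing.ResidueField A) (gaussRed N ℓ hℓN A hA ⟨x, hL.hx⟩) a b) : ℤ) =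
            ((a : ℤ) + b) * d + 1 - γ ∧
        (Module.finrank Qb (chartSpace Qb x a b) : ℤ) = ((a : ℤ) + b) * d + 1 - γ ∧
        ∀ g ∈ chartSpace (IsLocalRing.ResidueField A) (gaussRed N ℓ hℓN A hA ⟨x, hL.hx⟩) a b,
          ∃ f ∈ chartSpace Qb x a b, ∃ hf : f ∈ gaussO N ℓ hℓN A hA,
            gaussRed N ℓ hℓN A hA ⟨f, hf⟩ = g := by
  obtain ⟨d, γ, hdpos, hdeg, hRiemF, hfink, cK, hGapk⟩ := hL.genus
  have hx0 : x ≠ 0 := fun h => hL.htr (h ▸ isAlgebraic_zero)
  have := Fermat.Agent.S18.helper4226.hasPrincipalDivisors_FN N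
  have := Fermat.Agent.S18.helper4226.finiteDimensional_jBar_FN N
  have : FiniteDimensional (AlgebraicClosure ℚ)⟮x⟯ (modularFunctionFieldBar N) :=
    Fermat.Agent.S18.helper7885.finiteDimensional_adjoin_of_transcendental
      (Fermat.Agent.S24.helper24.jBar N) hL.htr
  obtain ⟨Xinf, X0, hXinf, hX0⟩ := exists_pole_zero_divisor (K := AlgebraicClosure ℚ) hx0
  have hdX : Divisor.degree Xinf = (d : ℤ) := hdeg Xinf hXinf
  have hdX0 : Divisor.degree X0 = (d : ℤ) := by
    rw [degree_zero_eq_degree_pole hx0 hXinf hX0, hdX]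
  refine ⟨d, γ, cK, hdpos, hdeg, hRiemF, fun a b hab => ?_⟩
  exact squeeze_chart_abstract (gaussO N ℓ hℓN A hA) (gaussO_hVG N ℓ hℓN A hA)
    (gaussO_harch N ℓ hℓN A hA) (gaussRed N ℓ hℓN A hA) (gaussRed_eq_zero_iff N ℓ hℓN A hA)
    (gaussRed_const_surj N ℓ hℓN A hA) x hx0 hL.hx hL.hxi Xinf X0 hXinf hX0
    (chartIntegral_of_charZero x) (chartIntegral_inv_of_charZero x) hL.hIT hL.hIT'
    (d : ℤ) (by exact_mod_cast hdpos) hdX hdX0 (hcart) γ hRiemF hfink cK hGapk a b hab

/-- **(SQ2) Reduction containment** on a base line with `LineData`, all `a`, `b`. -/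
theorem red_mem_chartSpace {x : modularFunctionFieldBar N} (hL : LineData N ℓ hℓN A hA x)
    (a b : ℕ) {f : modularFunctionFieldBar N} (hf : f ∈ gaussO N ℓ hℓN A hA)
    (hfL : f ∈ chartSpace Qb x a b) :
    gaussRed N ℓ hℓN A hA ⟨f, hf⟩ ∈
      chartSpace (IsLocalRing.ResidueField A) (gaussRed N ℓ hℓN A hA ⟨x, hL.hx⟩) a b :=
  red_mem_chartSpace_abstract (gaussO N ℓ hℓN A hA) (gaussRed N ℓ hℓN A hA)
    (fun h : x = 0 => hL.htr (h ▸ isAlgebraic_zero)) hL.hx hL.hxi hL.hIT hL.hIT' a b hf hfL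

/-- **(SQ3) Chart ring, chart `x`**: every element of the special fibre `F_k` integral over
`k[x̄]` is the reduction of a Gauss-integral element of `F̄_N` integral over `ℚ̄[x]`. -/
theorem exists_lift_of_isIntegral (hcart : Stmt_Cart N ℓ hℓN A hA)
    {x : modularFunctionFieldBar N} (hL : LineData N ℓ hℓN A hA x)
    (g : modularFunctionFieldFullC (IsLocalRing.ResidueField A) N)
    (hg : IsIntegral (Algebra.adjoin (IsLocalRing.ResidueField A)
      {gaussRed N ℓ hℓN A hA ⟨x, hL.hx⟩}) g) :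
    ∃ (f : modularFunctionFieldBar N) (hf : f ∈ gaussO N ℓ hℓN A hA),
      IsIntegral (Algebra.adjoin Qb {x}) f ∧ gaussRed N ℓ hℓN A hA ⟨f, hf⟩ = g := by
  obtain ⟨d, γ, cK, hdpos, -, -, hsq⟩ := squeeze_chart N ℓ hℓN A hA hcart hL
  obtain ⟨n₀, hn₀⟩ := exists_forall_isIntegral_inv_pow_mul _ g hg
  set a : ℕ := max n₀ cK.toNat with ha
  have hab : cK ≤ ((a : ℤ) + (0 : ℕ)) * d := by
    have h1 : cK ≤ (a : ℤ) := by
      have := Int.self_le_toNat cK
      have h2 : (cK.toNat : ℤ) ≤ (a : ℤ) := by exact_mod_cast le_max_right n₀ cK.toNat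
      omega
    have h3 : (1 : ℤ) ≤ d := by exact_mod_cast hdpos
    have h4 : (0 : ℤ) ≤ a := by positivity
    push_cast
    nlinarith
  have hgmem : g ∈ chartSpace (IsLocalRing.ResidueField A)
      (gaussRed N ℓ hℓN A hA ⟨x, hL.hx⟩) a 0 := by
    refine ⟨?_, hn₀ a (le_max_left _ _)⟩
    rw [pow_zero, one_mul]
    exact hg
  obtain ⟨f, hfL, hf, hfred⟩ := (hsq a 0 hab).2.2 g hgmem
  refine ⟨f, hf, ?_, hfred⟩
  have := hfL.1
  rwa [pow_zero, one_mul] at this

/-- **(SQ3) Chart ring, chart `x⁻¹`**: every element of `F_k` integral over `k[x̄⁻¹]` is the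
reduction of a Gauss-integral element of `F̄_N` integral over `ℚ̄[x⁻¹]`. -/
theorem exists_lift_of_isIntegral_inv (hcart : Stmt_Cart N ℓ hℓN A hA)
    {x : modularFunctionFieldBar N} (hL : LineData N ℓ hℓN A hA x)
    (g : modularFunctionFieldFullC (IsLocalRing.ResidueField A) N)
    (hg : IsIntegral (Algebra.adjoin (IsLocalRing.ResidueField A)
      {(gaussRed N ℓ hℓN A hA ⟨x, hL.hx⟩)⁻¹}) g) :
    ∃ (f : modularFunctionFieldBar N) (hf : f ∈ gaussO N ℓ hℓN A hA),
      IsIntegral (Algebra.adjoin Qb {x⁻¹}) f ∧ gaussRed N ℓ hℓN A hA ⟨f, hf⟩ = g := by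
  obtain ⟨d, γ, cK, hdpos, -, -, hsq⟩ := squeeze_chart N ℓ hℓN A hA hcart hL
  obtain ⟨n₀, hn₀⟩ := exists_forall_isIntegral_inv_pow_mul _ g hg
  set b : ℕ := max n₀ cK.toNat with hb
  have hab : cK ≤ (((0 : ℕ) : ℤ) + b) * d := by
    have h1 : cK ≤ (b : ℤ) := by
      have := Int.self_le_toNat cK
      have h2 : (cK.toNat : ℤ) ≤ (b : ℤ) := by exact_mod_cast le_max_right n₀ cK.toNat
      omega
    have h3 : (1 : ℤ) ≤ d := by exact_mod_cast hdpos
    have h4 : (0 : ℤ) ≤ b := by positivity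
    push_cast
    nlinarith
  have hgmem : g ∈ chartSpace (IsLocalRing.ResidueField A)
      (gaussRed N ℓ hℓN A hA ⟨x, hL.hx⟩) 0 b := by
    refine ⟨?_, ?_⟩
    · have := hn₀ b (le_max_left _ _)
      rwa [inv_inv] at this
    · rw [pow_zero, one_mul]
      exact hg
  obtain ⟨f, hfL, hf, hfred⟩ := (hsq 0 b hab).2.2 g hgmem
  refine ⟨f, hf, ?_, hfred⟩
  have := hfL.2
  rwa [pow_zero, one_mul] at this

/-- **(SQ1-RR) The squeeze in Riemann–Roch vocabulary on BOTH fibres** (Prelude places on `F_k`):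
for pole/zero divisors `Xinf`, `X0` of `x` on `F̄_N` and `Yinf`, `Y0` of `x̄` on `F_k`, in the range
`cK ≤ (a + b) d`, the spaces `L(a Xinf + b X0)` and `L_k(a Yinf + b Y0)` have the same dimension
`(a + b) d + 1 - γ` and the reduction of the Gauss unit ball of the first is ONTO the second. -/
theorem squeeze_rr (hcart : Stmt_Cart N ℓ hℓN A hA) {x : modularFunctionFieldBar N}
    (hL : LineData N ℓ hℓN A hA x)
    [FiniteDimensional (IsLocalRing.ResidueField A)⟮gaussRed N ℓ hℓN A hA ⟨x, hL.hx⟩⟯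
      (modularFunctionFieldFullC (IsLocalRing.ResidueField A) N)] :
    ∃ (d : ℕ) (γ cK : ℤ), 0 < d ∧
      ∀ (Xinf X0 : Divisor Qb (modularFunctionFieldBar N)), IsPoleDivisor x Xinf →
        IsZeroDivisor x X0 →
      ∀ (Yinf Y0 : Divisor (IsLocalRing.ResidueField A)
          (modularFunctionFieldFullC (IsLocalRing.ResidueField A) N)),
        IsPoleDivisor (gaussRed N ℓ hℓN A hA ⟨x, hL.hx⟩) Yinf →
        IsZeroDivisor (gaussRed N ℓ hℓN A hA ⟨x, hL.hx⟩) Y0 →
      ∀ a b : ℕ, cK ≤ ((a : ℤ) + b) * d →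
        (Module.finrank (IsLocalRing.ResidueField A) (riemannRochSpace (a • Yinf + b • Y0)) : ℤ) =
            ((a : ℤ) + b) * d + 1 - γ ∧
        (Module.finrank Qb (riemannRochSpace (a • Xinf + b • X0)) : ℤ) =
            ((a : ℤ) + b) * d + 1 - γ ∧
        ∀ g ∈ riemannRochSpace (a • Yinf + b • Y0),
          ∃ f ∈ riemannRochSpace (a • Xinf + b • X0), ∃ hf : f ∈ gaussO N ℓ hℓN A hA,
            gaussRed N ℓ hℓN A hA ⟨f, hf⟩ = g := by
  obtain ⟨d, γ, cK, hdpos, -, -, hsq⟩ := squeeze_chart N ℓ hℓN A hA hcart hL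
  have hk := Lib.helper6879.isAlgClosed_residueField A
  have hx0 : x ≠ 0 := fun h => hL.htr (h ▸ isAlgebraic_zero)
  have hxb0 : gaussRed N ℓ hℓN A hA ⟨x, hL.hx⟩ ≠ 0 :=
    red_ne_zero_of_unit (gaussO N ℓ hℓN A hA) (gaussRed N ℓ hℓN A hA) hx0 hL.hx hL.hxi
  have := Fermat.Agent.S18.helper4226.finiteDimensional_jBar_FN N
  have : FiniteDimensional (AlgebraicClosure ℚ)⟮x⟯ (modularFunctionFieldBar N) :=
    Fermat.Agent.S18.helper7885.finiteDimensional_adjoin_of_transcendental
      (Fermat.Agent.S24.helper24.jBar N) hL.htr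
  refine ⟨d, γ, cK, hdpos, fun Xinf X0 hXinf hX0 Yinf Y0 hYinf hY0 a b hab => ?_⟩
  rw [riemannRochSpace_eq_chartSpace_of_perfect hxb0 hYinf hY0 a b,
    riemannRochSpace_eq_chartSpace hx0 hXinf hX0 (chartIntegral_of_charZero x)
      (chartIntegral_inv_of_charZero x) a b]
  exact hsq a b hab

/-- **(SQ2-RR) Reduction containment in Riemann–Roch vocabulary**, all `a`, `b`. -/
theorem red_mem_rr {x : modularFunctionFieldBar N} (hL : LineData N ℓ hℓN A hA x)
    [FiniteDimensional (IsLocalRing.ResidueField A)⟮gaussRed N ℓ hℓN A hA ⟨x, hL.hx⟩⟯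
      (modularFunctionFieldFullC (IsLocalRing.ResidueField A) N)]
    {Xinf X0 : Divisor Qb (modularFunctionFieldBar N)} (hXinf : IsPoleDivisor x Xinf)
    (hX0 : IsZeroDivisor x X0)
    {Yinf Y0 : Divisor (IsLocalRing.ResidueField A)
      (modularFunctionFieldFullC (IsLocalRing.ResidueField A) N)}
    (hYinf : IsPoleDivisor (gaussRed N ℓ hℓN A hA ⟨x, hL.hx⟩) Yinf)
    (hY0 : IsZeroDivisor (gaussRed N ℓ hℓN A hA ⟨x, hL.hx⟩) Y0)
    (a b : ℕ) {f : modularFunctionFieldBar N} (hf : f ∈ gaussO N ℓ hℓN A hA)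
    (hfL : f ∈ riemannRochSpace (a • Xinf + b • X0)) :
    gaussRed N ℓ hℓN A hA ⟨f, hf⟩ ∈ riemannRochSpace (a • Yinf + b • Y0) := by
  have hk := Lib.helper6879.isAlgClosed_residueField A
  have hx0 : x ≠ 0 := fun h => hL.htr (h ▸ isAlgebraic_zero)
  have hxb0 : gaussRed N ℓ hℓN A hA ⟨x, hL.hx⟩ ≠ 0 :=
    red_ne_zero_of_unit (gaussO N ℓ hℓN A hA) (gaussRed N ℓ hℓN A hA) hx0 hL.hx hL.hxi
  have := Fermat.Agent.S18.helper4226.finiteDimensional_jBar_FN N
  have : FiniteDimensional (AlgebraicClosure ℚ)⟮x⟯ (modularFunctionFieldBar N) :=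
    Fermat.Agent.S18.helper7885.finiteDimensional_adjoin_of_transcendental
      (Fermat.Agent.S24.helper24.jBar N) hL.htr
  rw [riemannRochSpace_eq_chartSpace_of_perfect hxb0 hYinf hY0 a b]
  rw [riemannRochSpace_eq_chartSpace hx0 hXinf hX0 (chartIntegral_of_charZero x)
      (chartIntegral_inv_of_charZero x) a b] at hfL
  exact red_mem_chartSpace N ℓ hℓN A hA hL a b hf hfL

/-- The chart spaces of the special fibre are finite-dimensional (from `LineData`). -/
theorem finite_chartSpace {x : modularFunctionFieldBar N} (hL : LineData N ℓ hℓN A hA x)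
    (a b : ℕ) : Module.Finite (IsLocalRing.ResidueField A)
      (chartSpace (IsLocalRing.ResidueField A) (gaussRed N ℓ hℓN A hA ⟨x, hL.hx⟩) a b) := by
  obtain ⟨d, γ, -, -, -, hfink, -⟩ := hL.genus
  exact hfink a b

end Modular

/-! ## The E2 vocabulary: chart rings inside `helper8991.gaussF` and inside `k((t))`

`chartRing A N x` is a `Subring` of `F̄_N` contained in `helper8991.gaussF A (residue A) N`;
`chartRingBar k N x̄` is a `Subalgebra k (LaurentSeries k)`.  The three theorems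
`chartRing_le_gaussF`, `gaussFRed_mem_chartRingBar`, `exists_gaussFRed_eq` are the hypotheses
`hB'`, `hred`, `hsurj` of `helper2736.kron_conductor_modular` / `coeffMap_mem_of_stable` for
`B' := chartRing A N x`, `B̄ := chartRingBar k N x̄`, `π := IsLocalRing.residue A`. -/

section ChartRings

local notation "Qb" => AlgebraicClosure ℚ

/-- The integral chart ring of the chart `x`: the elements of the Gauss ring
`helper8991.gaussF A (residue A) N` of `F̄_N` that are integral over `ℚ̄[x]`. -/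
def chartRing (A : ValuationSubring (AlgebraicClosure ℚ)) (N : ℕ)
    (x : modularFunctionFieldBar N) : Subring (modularFunctionFieldBar N) :=
  (Fermat.Agent.S18.helper8991.gaussF A (IsLocalRing.residue A) N).toSubring ⊓
    (integralClosure (Algebra.adjoin Qb {x}) (modularFunctionFieldBar N)).toSubring

theorem mem_chartRing {A : ValuationSubring (AlgebraicClosure ℚ)} {N : ℕ}
    {x y : modularFunctionFieldBar N} :
    y ∈ chartRing A N x ↔ y ∈ Fermat.Agent.S18.helper8991.gaussF A (IsLocalRing.residue A) N ∧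
      IsIntegral (Algebra.adjoin Qb {x}) y := Iff.rfl

/-- (`hB'`) the chart ring lies in the Gauss ring. -/
theorem chartRing_le_gaussF (A : ValuationSubring (AlgebraicClosure ℚ)) (N : ℕ)
    (x : modularFunctionFieldBar N) :
    ∀ y ∈ chartRing A N x, y ∈ Fermat.Agent.S18.helper8991.gaussF A (IsLocalRing.residue A) N :=
  fun _ hy => hy.1

/-- The reduced chart ring of the chart `x̄` of the special fibre: the elements of
`F_k = modularFunctionFieldFullC k N ⊆ k((t))` integral over `k[x̄]`, as a `k`-subalgebra of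
`k((t))`. -/
def chartRingBar (k : Type*) [Field k] (N : ℕ) (xb : modularFunctionFieldFullC k N) :
    Subalgebra k (LaurentSeries k) :=
  ((integralClosure (Algebra.adjoin k {xb}) (modularFunctionFieldFullC k N)).restrictScalars
    k).map (modularFunctionFieldFullC k N).val

theorem mem_chartRingBar {k : Type*} [Field k] {N : ℕ} {xb : modularFunctionFieldFullC k N}
    {u : LaurentSeries k} :
    u ∈ chartRingBar k N xb ↔ ∃ g : modularFunctionFieldFullC k N,
      IsIntegral (Algebra.adjoin k {xb}) g ∧ (g : LaurentSeries k) = u := by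
  constructor
  · rintro ⟨g, hg, rfl⟩
    exact ⟨g, hg, rfl⟩
  · rintro ⟨g, hg, rfl⟩
    exact ⟨g, hg, rfl⟩

theorem coe_mem_chartRingBar {k : Type*} [Field k] {N : ℕ} {xb : modularFunctionFieldFullC k N}
    {g : modularFunctionFieldFullC k N} (hg : IsIntegral (Algebra.adjoin k {xb}) g) :
    (g : LaurentSeries k) ∈ chartRingBar k N xb :=
  mem_chartRingBar.mpr ⟨g, hg, rfl⟩

/-- The reduced chart ring lies in the function field of the special fibre. -/
theorem chartRingBar_le_fullC (k : Type*) [Field k] (N : ℕ) (xb : modularFunctionFieldFullC k N)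
    {u : LaurentSeries k} (hu : u ∈ chartRingBar k N xb) : u ∈ modularFunctionFieldFullC k N := by
  obtain ⟨g, -, rfl⟩ := mem_chartRingBar.mp hu
  exact g.2

/-- The chart function itself lies in the reduced chart ring. -/
theorem self_mem_chartRingBar (k : Type*) [Field k] (N : ℕ) (xb : modularFunctionFieldFullC k N) :
    (xb : LaurentSeries k) ∈ chartRingBar k N xb :=
  coe_mem_chartRingBar (isIntegral_self_adjoin xb)

/-- **Dictionary**: the reduced chart ring is the union of the Riemann–Roch spaces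
`L_k(a • Yinf)` of the pole divisor `Yinf` of the chart function (Prelude places on `F_k`;
`k` perfect, `F_k` finite over `k(x̄)`). -/
theorem mem_chartRingBar_iff_exists_rr {k : Type*} [Field k] [PerfectField k] {N : ℕ}
    {xb : modularFunctionFieldFullC k N}
    [FiniteDimensional k⟮xb⟯ (modularFunctionFieldFullC k N)]
    {Yinf : Divisor k (modularFunctionFieldFullC k N)} (hYinf : IsPoleDivisor xb Yinf)
    {u : LaurentSeries k} :
    u ∈ chartRingBar k N xb ↔ ∃ (a : ℕ) (g : modularFunctionFieldFullC k N),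
      g ∈ riemannRochSpace (a • Yinf) ∧ (g : LaurentSeries k) = u := by
  constructor
  · intro hu
    obtain ⟨g, hg, rfl⟩ := mem_chartRingBar.mp hu
    obtain ⟨n₀, hn₀⟩ := exists_forall_isIntegral_inv_pow_mul xb g hg
    exact ⟨n₀, g, mem_riemannRochSpace_of_isIntegral hYinf n₀ hg (hn₀ n₀ le_rfl), rfl⟩
  · rintro ⟨a, g, hg, rfl⟩
    exact coe_mem_chartRingBar
      (isIntegral_of_mem_riemannRochSpace hYinf (chartIntegral_of_perfect xb) a hg)

variable (N : ℕ) [NeZero N] (ℓ : ℕ) [Fact ℓ.Prime] (hℓN : ¬ ℓ ∣ N)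
  (A : ValuationSubring (AlgebraicClosure ℚ)) (hA : A.LiesOverPrime ℓ)

include hℓN hA in
/-- The two landed Gauss rings of `F̄_N` coincide (`helper1733.gaussF_eq`, `ℓ ∤ N`). -/
theorem gaussF_eq_gaussO :
    Fermat.Agent.S18.helper8991.gaussF A (IsLocalRing.residue A) N = gaussO N ℓ hℓN A hA :=
  Fermat.Agent.S18.helper1733.gaussF_eq N ℓ hℓN A hA

/-- The two landed residue maps agree (`helper1733.gaussFRed_eq_gaussResidue`). -/
theorem gaussFRed_eq_gaussRed (f : modularFunctionFieldBar N)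
    (hf : f ∈ gaussO N ℓ hℓN A hA)
    (hf' : f ∈ Fermat.Agent.S18.helper8991.gaussF A (IsLocalRing.residue A) N) :
    Fermat.Agent.S18.helper8991.gaussFRed A (IsLocalRing.residue A) N ⟨f, hf'⟩ =
      ((gaussRed N ℓ hℓN A hA ⟨f, hf⟩ :
        modularFunctionFieldFullC (IsLocalRing.ResidueField A) N) :
          LaurentSeries (IsLocalRing.ResidueField A)) :=
  Fermat.Agent.S18.helper1733.gaussFRed_eq_gaussResidue N ℓ hℓN A hA f hf hf'

/-- (`hred`) **Reductions of the chart ring lie in the reduced chart ring.** -/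
theorem gaussFRed_mem_chartRingBar {x : modularFunctionFieldBar N}
    (hL : LineData N ℓ hℓN A hA x) (y : modularFunctionFieldBar N) (hy : y ∈ chartRing A N x) :
    Fermat.Agent.S18.helper8991.gaussFRed A (IsLocalRing.residue A) N
        ⟨y, chartRing_le_gaussF A N x y hy⟩ ∈
      chartRingBar (IsLocalRing.ResidueField A) N (gaussRed N ℓ hℓN A hA ⟨x, hL.hx⟩) := by
  have hyO : y ∈ gaussO N ℓ hℓN A hA := by
    rw [← gaussF_eq_gaussO N ℓ hℓN A hA]; exact hy.1
  rw [gaussFRed_eq_gaussRed N ℓ hℓN A hA y hyO]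
  exact coe_mem_chartRingBar (hL.hIT y hyO hy.2)

/-- (`hsurj`) **THE SQUEEZE IN THE E2 VOCABULARY.**  Every element of the reduced chart ring
`chartRingBar k N x̄` is the `helper8991.gaussFRed`-reduction of an element of the integral chart
ring `chartRing A N x`.  Verbatim the hypothesis `hsurj` of
`helper2736.kron_conductor_modular` for `B' := chartRing A N x`, `hB' := chartRing_le_gaussF A N x`,
`B̄ := chartRingBar k N x̄`, `π := IsLocalRing.residue A`. -/
theorem exists_gaussFRed_eq (hcart : Stmt_Cart N ℓ hℓN A hA) {x : modularFunctionFieldBar N}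
    (hL : LineData N ℓ hℓN A hA x) :
    ∀ u ∈ chartRingBar (IsLocalRing.ResidueField A) N (gaussRed N ℓ hℓN A hA ⟨x, hL.hx⟩),
      ∃ y, ∃ hy : y ∈ chartRing A N x,
        Fermat.Agent.S18.helper8991.gaussFRed A (IsLocalRing.residue A) N
          ⟨y, chartRing_le_gaussF A N x y hy⟩ = u := by
  intro u hu
  obtain ⟨g, hg, rfl⟩ := mem_chartRingBar.mp hu
  obtain ⟨f, hf, hfint, hfred⟩ := exists_lift_of_isIntegral N ℓ hℓN A hA hcart hL g hg
  have hf' : f ∈ Fermat.Agent.S18.helper8991.gaussF A (IsLocalRing.residue A) N := by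
    rw [gaussF_eq_gaussO N ℓ hℓN A hA]; exact hf
  refine ⟨f, ⟨hf', hfint⟩, ?_⟩
  rw [gaussFRed_eq_gaussRed N ℓ hℓN A hA f hf, hfred]

/-- (`hred`) for the chart `x⁻¹`. -/
theorem gaussFRed_mem_chartRingBar_inv {x : modularFunctionFieldBar N}
    (hL : LineData N ℓ hℓN A hA x) (y : modularFunctionFieldBar N)
    (hy : y ∈ chartRing A N x⁻¹) :
    Fermat.Agent.S18.helper8991.gaussFRed A (IsLocalRing.residue A) N
        ⟨y, chartRing_le_gaussF A N x⁻¹ y hy⟩ ∈
      chartRingBar (IsLocalRing.ResidueField A) N (gaussRed N ℓ hℓN A hA ⟨x, hL.hx⟩)⁻¹ := by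
  have hyO : y ∈ gaussO N ℓ hℓN A hA := by
    rw [← gaussF_eq_gaussO N ℓ hℓN A hA]; exact hy.1
  rw [gaussFRed_eq_gaussRed N ℓ hℓN A hA y hyO]
  exact coe_mem_chartRingBar (hL.hIT' y hyO hy.2)

/-- (`hsurj`) for the chart `x⁻¹`. -/
theorem exists_gaussFRed_eq_inv (hcart : Stmt_Cart N ℓ hℓN A hA)
    {x : modularFunctionFieldBar N} (hL : LineData N ℓ hℓN A hA x) :
    ∀ u ∈ chartRingBar (IsLocalRing.ResidueField A) N (gaussRed N ℓ hℓN A hA ⟨x, hL.hx⟩)⁻¹,
      ∃ y, ∃ hy : y ∈ chartRing A N x⁻¹,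
        Fermat.Agent.S18.helper8991.gaussFRed A (IsLocalRing.residue A) N
          ⟨y, chartRing_le_gaussF A N x⁻¹ y hy⟩ = u := by
  intro u hu
  obtain ⟨g, hg, rfl⟩ := mem_chartRingBar.mp hu
  obtain ⟨f, hf, hfint, hfred⟩ := exists_lift_of_isIntegral_inv N ℓ hℓN A hA hcart hL g hg
  have hf' : f ∈ Fermat.Agent.S18.helper8991.gaussF A (IsLocalRing.residue A) N := by
    rw [gaussF_eq_gaussO N ℓ hℓN A hA]; exact hf
  refine ⟨f, ⟨hf', hfint⟩, ?_⟩
  rw [gaussFRed_eq_gaussRed N ℓ hℓN A hA f hf, hfred]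

end ChartRings

/-! ## The Hauptmodul lines `t_2`, `t_3`: everything unconditional -/

section Lines

open Fermat.Agent.S18

local notation "Qb" => AlgebraicClosure ℚ

variable (N : ℕ) [NeZero N] (ℓ : ℕ) [Fact ℓ.Prime] (hℓN : ¬ ℓ ∣ N)
  (A : ValuationSubring (AlgebraicClosure ℚ)) (hA : A.LiesOverPrime ℓ)

/-- The reduction `t̄_2 ∈ F_k` of the Hauptmodul `t_2` (`2 ∣ N`, `ℓ ∤ N`). -/
def t2Bar (h2N : 2 ∣ N) : modularFunctionFieldFullC (IsLocalRing.ResidueField A) N :=
  gaussRed N ℓ hℓN A hA ⟨helper4665.gaussT2 Qb N h2N, helper4665.gaussT2_mem N ℓ hℓN A hA h2N⟩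

/-- `t̄_2` is the integer series `t_2` read over the residue field. -/
theorem coe_t2Bar (h2N : 2 ∣ N) :
    ((t2Bar N ℓ hℓN A hA h2N : modularFunctionFieldFullC (IsLocalRing.ResidueField A) N) :
      LaurentSeries (IsLocalRing.ResidueField A)) =
        helper4665.zSeries helper1257.t2Z (IsLocalRing.ResidueField A) :=
  helper4665.gaussResidue_gaussT2 N ℓ hℓN A hA h2N

/-- The reduction `t̄_3 ∈ F_k` of the Hauptmodul `t_3` (`3 ∣ N`, `ℓ ∤ N`). -/
def t3Bar (h3N : 3 ∣ N) : modularFunctionFieldFullC (IsLocalRing.ResidueField A) N :=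
  gaussRed N ℓ hℓN A hA ⟨helper4665.gaussT3 Qb N h3N, helper4665.gaussT3_mem N ℓ hℓN A hA h3N⟩

/-- `t̄_3` is the integer series `t_3` read over the residue field. -/
theorem coe_t3Bar (h3N : 3 ∣ N) :
    ((t3Bar N ℓ hℓN A hA h3N : modularFunctionFieldFullC (IsLocalRing.ResidueField A) N) :
      LaurentSeries (IsLocalRing.ResidueField A)) =
        helper4665.zSeries helper1257.t3Z (IsLocalRing.ResidueField A) :=
  helper4665.gaussResidue_gaussT3 N ℓ hℓN A hA h3N

/-- **(SQ1) on the `t_2`-line, unconditional.** -/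
theorem squeeze_chart_t2 (h2N : 2 ∣ N) :
    ∃ (d : ℕ) (γ cK : ℤ), 0 < d ∧
      (∀ Xinf : Divisor Qb (modularFunctionFieldBar N),
        IsPoleDivisor (helper4665.gaussT2 Qb N h2N) Xinf → Divisor.degree Xinf = d) ∧
      (∀ D : Divisor Qb (modularFunctionFieldBar N),
        Divisor.degree D + 1 - γ ≤ (Module.finrank Qb (riemannRochSpace D) : ℤ)) ∧
      ∀ a b : ℕ, cK ≤ ((a : ℤ) + b) * d →
        (Module.finrank (IsLocalRing.ResidueField A)
          (chartSpace (IsLocalRing.ResidueField A) (t2Bar N ℓ hℓN A hA h2N) a b) : ℤ) =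
            ((a : ℤ) + b) * d + 1 - γ ∧
        (Module.finrank Qb (chartSpace Qb (helper4665.gaussT2 Qb N h2N) a b) : ℤ) =
          ((a : ℤ) + b) * d + 1 - γ ∧
        ∀ g ∈ chartSpace (IsLocalRing.ResidueField A) (t2Bar N ℓ hℓN A hA h2N) a b,
          ∃ f ∈ chartSpace Qb (helper4665.gaussT2 Qb N h2N) a b,
            ∃ hf : f ∈ gaussO N ℓ hℓN A hA, gaussRed N ℓ hℓN A hA ⟨f, hf⟩ = g :=
  squeeze_chart N ℓ hℓN A hA (helper789.stmt_Cart_gauss N ℓ hℓN A hA)
    (helper789.lineData_t2 N ℓ hℓN A hA h2N)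

/-- **(SQ1) on the `t_3`-line, unconditional.** -/
theorem squeeze_chart_t3 (h3N : 3 ∣ N) :
    ∃ (d : ℕ) (γ cK : ℤ), 0 < d ∧
      (∀ Xinf : Divisor Qb (modularFunctionFieldBar N),
        IsPoleDivisor (helper4665.gaussT3 Qb N h3N) Xinf → Divisor.degree Xinf = d) ∧
      (∀ D : Divisor Qb (modularFunctionFieldBar N),
        Divisor.degree D + 1 - γ ≤ (Module.finrank Qb (riemannRochSpace D) : ℤ)) ∧
      ∀ a b : ℕ, cK ≤ ((a : ℤ) + b) * d →
        (Module.finrank (IsLocalRing.ResidueField A)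
          (chartSpace (IsLocalRing.ResidueField A) (t3Bar N ℓ hℓN A hA h3N) a b) : ℤ) =
            ((a : ℤ) + b) * d + 1 - γ ∧
        (Module.finrank Qb (chartSpace Qb (helper4665.gaussT3 Qb N h3N) a b) : ℤ) =
          ((a : ℤ) + b) * d + 1 - γ ∧
        ∀ g ∈ chartSpace (IsLocalRing.ResidueField A) (t3Bar N ℓ hℓN A hA h3N) a b,
          ∃ f ∈ chartSpace Qb (helper4665.gaussT3 Qb N h3N) a b,
            ∃ hf : f ∈ gaussO N ℓ hℓN A hA, gaussRed N ℓ hℓN A hA ⟨f, hf⟩ = g :=
  squeeze_chart N ℓ hℓN A hA (helper789.stmt_Cart_gauss N ℓ hℓN A hA)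
    (helper789.lineData_t3 N ℓ hℓN A hA h3N)

/-- (`hred`), `t_2`-line, chart `t_2`. -/
theorem gaussFRed_mem_chartRingBar_t2 (h2N : 2 ∣ N) (y : modularFunctionFieldBar N)
    (hy : y ∈ chartRing A N (helper4665.gaussT2 Qb N h2N)) :
    helper8991.gaussFRed A (IsLocalRing.residue A) N ⟨y, chartRing_le_gaussF A N _ y hy⟩ ∈
      chartRingBar (IsLocalRing.ResidueField A) N (t2Bar N ℓ hℓN A hA h2N) :=
  gaussFRed_mem_chartRingBar N ℓ hℓN A hA (helper789.lineData_t2 N ℓ hℓN A hA h2N) y hy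

/-- (`hsurj`) **the squeeze on the `t_2`-line, chart `t_2`, E2 vocabulary, unconditional.** -/
theorem exists_gaussFRed_eq_t2 (h2N : 2 ∣ N) :
    ∀ u ∈ chartRingBar (IsLocalRing.ResidueField A) N (t2Bar N ℓ hℓN A hA h2N),
      ∃ y, ∃ hy : y ∈ chartRing A N (helper4665.gaussT2 Qb N h2N),
        helper8991.gaussFRed A (IsLocalRing.residue A) N
          ⟨y, chartRing_le_gaussF A N _ y hy⟩ = u :=
  exists_gaussFRed_eq N ℓ hℓN A hA (helper789.stmt_Cart_gauss N ℓ hℓN A hA)
    (helper789.lineData_t2 N ℓ hℓN A hA h2N)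

/-- (`hred`), `t_2`-line, chart `t_2⁻¹`. -/
theorem gaussFRed_mem_chartRingBar_t2_inv (h2N : 2 ∣ N) (y : modularFunctionFieldBar N)
    (hy : y ∈ chartRing A N (helper4665.gaussT2 Qb N h2N)⁻¹) :
    helper8991.gaussFRed A (IsLocalRing.residue A) N ⟨y, chartRing_le_gaussF A N _ y hy⟩ ∈
      chartRingBar (IsLocalRing.ResidueField A) N (t2Bar N ℓ hℓN A hA h2N)⁻¹ :=
  gaussFRed_mem_chartRingBar_inv N ℓ hℓN A hA (helper789.lineData_t2 N ℓ hℓN A hA h2N) y hy

/-- (`hsurj`), `t_2`-line, chart `t_2⁻¹`, unconditional. -/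
theorem exists_gaussFRed_eq_t2_inv (h2N : 2 ∣ N) :
    ∀ u ∈ chartRingBar (IsLocalRing.ResidueField A) N (t2Bar N ℓ hℓN A hA h2N)⁻¹,
      ∃ y, ∃ hy : y ∈ chartRing A N (helper4665.gaussT2 Qb N h2N)⁻¹,
        helper8991.gaussFRed A (IsLocalRing.residue A) N
          ⟨y, chartRing_le_gaussF A N _ y hy⟩ = u :=
  exists_gaussFRed_eq_inv N ℓ hℓN A hA (helper789.stmt_Cart_gauss N ℓ hℓN A hA)
    (helper789.lineData_t2 N ℓ hℓN A hA h2N)

/-- (`hred`), `t_3`-line, chart `t_3`. -/
theorem gaussFRed_mem_chartRingBar_t3 (h3N : 3 ∣ N) (y : modularFunctionFieldBar N)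
    (hy : y ∈ chartRing A N (helper4665.gaussT3 Qb N h3N)) :
    helper8991.gaussFRed A (IsLocalRing.residue A) N ⟨y, chartRing_le_gaussF A N _ y hy⟩ ∈
      chartRingBar (IsLocalRing.ResidueField A) N (t3Bar N ℓ hℓN A hA h3N) :=
  gaussFRed_mem_chartRingBar N ℓ hℓN A hA (helper789.lineData_t3 N ℓ hℓN A hA h3N) y hy

/-- (`hsurj`) **the squeeze on the `t_3`-line, chart `t_3`, E2 vocabulary, unconditional.** -/
theorem exists_gaussFRed_eq_t3 (h3N : 3 ∣ N) :
    ∀ u ∈ chartRingBar (IsLocalRing.ResidueField A) N (t3Bar N ℓ hℓN A hA h3N),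
      ∃ y, ∃ hy : y ∈ chartRing A N (helper4665.gaussT3 Qb N h3N),
        helper8991.gaussFRed A (IsLocalRing.residue A) N
          ⟨y, chartRing_le_gaussF A N _ y hy⟩ = u :=
  exists_gaussFRed_eq N ℓ hℓN A hA (helper789.stmt_Cart_gauss N ℓ hℓN A hA)
    (helper789.lineData_t3 N ℓ hℓN A hA h3N)

/-- (`hred`), `t_3`-line, chart `t_3⁻¹`. -/
theorem gaussFRed_mem_chartRingBar_t3_inv (h3N : 3 ∣ N) (y : modularFunctionFieldBar N)
    (hy : y ∈ chartRing A N (helper4665.gaussT3 Qb N h3N)⁻¹) :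
    helper8991.gaussFRed A (IsLocalRing.residue A) N ⟨y, chartRing_le_gaussF A N _ y hy⟩ ∈
      chartRingBar (IsLocalRing.ResidueField A) N (t3Bar N ℓ hℓN A hA h3N)⁻¹ :=
  gaussFRed_mem_chartRingBar_inv N ℓ hℓN A hA (helper789.lineData_t3 N ℓ hℓN A hA h3N) y hy

/-- (`hsurj`), `t_3`-line, chart `t_3⁻¹`, unconditional. -/
theorem exists_gaussFRed_eq_t3_inv (h3N : 3 ∣ N) :
    ∀ u ∈ chartRingBar (IsLocalRing.ResidueField A) N (t3Bar N ℓ hℓN A hA h3N)⁻¹,
      ∃ y, ∃ hy : y ∈ chartRing A N (helper4665.gaussT3 Qb N h3N)⁻¹,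
        helper8991.gaussFRed A (IsLocalRing.residue A) N
          ⟨y, chartRing_le_gaussF A N _ y hy⟩ = u :=
  exists_gaussFRed_eq_inv N ℓ hℓN A hA (helper789.stmt_Cart_gauss N ℓ hℓN A hA)
    (helper789.lineData_t3 N ℓ hℓN A hA h3N)

/-- **(SQ1-RR) on the `t_2`-line, unconditional**: Riemann–Roch vocabulary on both fibres. -/
theorem squeeze_rr_t2 (h2N : 2 ∣ N) :
    ∃ (d : ℕ) (γ cK : ℤ), 0 < d ∧
      ∀ (Xinf X0 : Divisor Qb (modularFunctionFieldBar N)),
        IsPoleDivisor (helper4665.gaussT2 Qb N h2N) Xinf →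
        IsZeroDivisor (helper4665.gaussT2 Qb N h2N) X0 →
      ∀ (Yinf Y0 : Divisor (IsLocalRing.ResidueField A)
          (modularFunctionFieldFullC (IsLocalRing.ResidueField A) N)),
        IsPoleDivisor (t2Bar N ℓ hℓN A hA h2N) Yinf →
        IsZeroDivisor (t2Bar N ℓ hℓN A hA h2N) Y0 →
      ∀ a b : ℕ, cK ≤ ((a : ℤ) + b) * d →
        (Module.finrank (IsLocalRing.ResidueField A) (riemannRochSpace (a • Yinf + b • Y0)) : ℤ) =
            ((a : ℤ) + b) * d + 1 - γ ∧
        (Module.finrank Qb (riemannRochSpace (a • Xinf + b • X0)) : ℤ) =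
            ((a : ℤ) + b) * d + 1 - γ ∧
        ∀ g ∈ riemannRochSpace (a • Yinf + b • Y0),
          ∃ f ∈ riemannRochSpace (a • Xinf + b • X0), ∃ hf : f ∈ gaussO N ℓ hℓN A hA,
            gaussRed N ℓ hℓN A hA ⟨f, hf⟩ = g := by
  have := (helper4665.gaussResidue_gaussT2_degree N ℓ hℓN A hA h2N).2.1
  exact squeeze_rr N ℓ hℓN A hA (helper789.stmt_Cart_gauss N ℓ hℓN A hA)
    (helper789.lineData_t2 N ℓ hℓN A hA h2N)

/-- **(SQ1-RR) on the `t_3`-line, unconditional**: Riemann–Roch vocabulary on both fibres. -/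
theorem squeeze_rr_t3 (h3N : 3 ∣ N) :
    ∃ (d : ℕ) (γ cK : ℤ), 0 < d ∧
      ∀ (Xinf X0 : Divisor Qb (modularFunctionFieldBar N)),
        IsPoleDivisor (helper4665.gaussT3 Qb N h3N) Xinf →
        IsZeroDivisor (helper4665.gaussT3 Qb N h3N) X0 →
      ∀ (Yinf Y0 : Divisor (IsLocalRing.ResidueField A)
          (modularFunctionFieldFullC (IsLocalRing.ResidueField A) N)),
        IsPoleDivisor (t3Bar N ℓ hℓN A hA h3N) Yinf →
        IsZeroDivisor (t3Bar N ℓ hℓN A hA h3N) Y0 →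
      ∀ a b : ℕ, cK ≤ ((a : ℤ) + b) * d →
        (Module.finrank (IsLocalRing.ResidueField A) (riemannRochSpace (a • Yinf + b • Y0)) : ℤ) =
            ((a : ℤ) + b) * d + 1 - γ ∧
        (Module.finrank Qb (riemannRochSpace (a • Xinf + b • X0)) : ℤ) =
            ((a : ℤ) + b) * d + 1 - γ ∧
        ∀ g ∈ riemannRochSpace (a • Yinf + b • Y0),
          ∃ f ∈ riemannRochSpace (a • Xinf + b • X0), ∃ hf : f ∈ gaussO N ℓ hℓN A hA,
            gaussRed N ℓ hℓN A hA ⟨f, hf⟩ = g := by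
  have := (helper4665.gaussResidue_gaussT3_degree N ℓ hℓN A hA h3N).2.1
  exact squeeze_rr N ℓ hℓN A hA (helper789.stmt_Cart_gauss N ℓ hℓN A hA)
    (helper789.lineData_t3 N ℓ hℓN A hA h3N)

end Lines

end Fermat.Agent.S35.helper4658
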