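/-
S35/S34-KRON-INST supply (H1) (helper6381): the SQUEEZE chart-ring lifting in GaussPair
vocabulary, a thin adapter on top of the landed `helper4658_Squeeze` (no second copy of the
squeeze itself).

Level `N`, prime `ℓ ∤ N`, `A` a valuation subring of `ℚ̄` over `ℓ`, `k` its residue field,
`F_k = modularFunctionFieldFullC k N`, `V = helper882.gpRing A N` (`= helper8991.gaussF A (residue
A) N`), `ρ = helper882.gpRho A N : F̄_N → k((T))`.  For a base line `x` with `helper2030.LineData`
and `helper2030.Stmt_Cart`, and `tb : F_k` with expansion `ρ x`: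

* `gp_lift` : every `u : F_k` integral over `k[tb]` is `ρ y` for some `y ∈ V` integral over
  `ℚ̄[x]`;
* `gp_lift_inv` : the same on the chart `x⁻¹`, `tb⁻¹`;
* `gp_red_isIntegral`, `gp_red_isIntegral_inv` : conversely the reduction of `y ∈ V` integral over
  `ℚ̄[x]` is (the expansion of) an element of `F_k` integral over `k[tb]`;
* `gp_lift_t2`, `gp_lift_t2_inv`, `gp_lift_t3`, `gp_lift_t3_inv` (+ `gp_red_isIntegral_t2`, ...):
  unconditional on the Hauptmodul lines, in EXPANSION form (`x` any element of `F̄_N` with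
  expansion the integer series `t_r`, `tb` any element of `F_k` with expansion `t_r`).
-/
import Fermat.Agent.S35.helper4658_Squeeze
import Fermat.Agent.S35.helper882_GaussPair

set_option autoImplicit false
set_option synthInstance.maxHeartbeats 400000

noncomputable section

namespace Fermat.Agent.S35.helper6381

open ModularCurve AlgebraicCurve IntermediateField
open Fermat.Agent.S18 Fermat.Agent.S18.helper2030

section GP

variable (N : ℕ) [NeZero N] (ℓ : ℕ) [Fact ℓ.Prime] (hℓN : ¬ ℓ ∣ N)
  (A : ValuationSubring (AlgebraicClosure ℚ)) (hA : A.LiesOverPrime ℓ)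

/-- On the Gauss ring, `gpRho` is the expansion of the track-A residue map `gaussRed`. -/
theorem gpRho_eq_coe_gaussRed {f : modularFunctionFieldBar N}
    (hf : f ∈ gaussO N ℓ hℓN A hA) :
    f ∈ helper882.gpRing A N ∧ helper882.gpRho A N f =
      ((gaussRed N ℓ hℓN A hA ⟨f, hf⟩ :
        modularFunctionFieldFullC (IsLocalRing.ResidueField A) N) :
          LaurentSeries (IsLocalRing.ResidueField A)) := by
  have hf' : f ∈ helper8991.gaussF A (IsLocalRing.residue A) N := by
    rw [helper4658.gaussF_eq_gaussO N ℓ hℓN A hA]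
    exact hf
  exact ⟨hf', (helper882.gpRho_of_mem A N hf').trans
    (helper4658.gaussFRed_eq_gaussRed N ℓ hℓN A hA f hf hf')⟩

/-- Elements of `gpRing` lie in the track-A Gauss ring. -/
theorem mem_gaussO_of_mem_gpRing {f : modularFunctionFieldBar N}
    (hf : f ∈ helper882.gpRing A N) : f ∈ gaussO N ℓ hℓN A hA := by
  rw [← helper4658.gaussF_eq_gaussO N ℓ hℓN A hA]
  exact hf

/-- The reduced base line: any `tb : F_k` with expansion `ρ x` is `gaussRed x`. -/
theorem eq_gaussRed_of_coe_eq {x : modularFunctionFieldBar N} (hL : LineData N ℓ hℓN A hA x)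
    {tb : modularFunctionFieldFullC (IsLocalRing.ResidueField A) N}
    (htb : (tb : LaurentSeries (IsLocalRing.ResidueField A)) = helper882.gpRho A N x) :
    tb = gaussRed N ℓ hℓN A hA ⟨x, hL.hx⟩ :=
  Subtype.ext (htb.trans (gpRho_eq_coe_gaussRed N ℓ hℓN A hA hL.hx).2)

/-- **(H1) of KRON-INST, chart `x`.** Every element of `F_k` integral over `k[tb]` is the
`gpRho`-reduction of an element of the Gauss ring `gpRing A N` integral over `ℚ̄[x]`. -/
theorem gp_lift (hcart : Stmt_Cart N ℓ hℓN A hA) {x : modularFunctionFieldBar N}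
    (hL : LineData N ℓ hℓN A hA x)
    {tb : modularFunctionFieldFullC (IsLocalRing.ResidueField A) N}
    (htb : (tb : LaurentSeries (IsLocalRing.ResidueField A)) = helper882.gpRho A N x) :
    ∀ u : modularFunctionFieldFullC (IsLocalRing.ResidueField A) N,
      IsIntegral (Algebra.adjoin (IsLocalRing.ResidueField A) {tb}) u →
      ∃ y : modularFunctionFieldBar N, y ∈ helper882.gpRing A N ∧
        IsIntegral (Algebra.adjoin (AlgebraicClosure ℚ) {x}) y ∧
        helper882.gpRho A N y = (u : LaurentSeries (IsLocalRing.ResidueField A)) := by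
  intro u hu
  rw [eq_gaussRed_of_coe_eq N ℓ hℓN A hA hL htb] at hu
  obtain ⟨f, hf, hfint, hfred⟩ :=
    helper4658.exists_lift_of_isIntegral N ℓ hℓN A hA hcart hL u hu
  have h := gpRho_eq_coe_gaussRed N ℓ hℓN A hA hf
  exact ⟨f, h.1, hfint, by rw [h.2, hfred]⟩

/-- **(H1) of KRON-INST, chart `x⁻¹`.** Every element of `F_k` integral over `k[tb⁻¹]` is the
`gpRho`-reduction of an element of the Gauss ring `gpRing A N` integral over `ℚ̄[x⁻¹]`. -/
theorem gp_lift_inv (hcart : Stmt_Cart N ℓ hℓN A hA) {x : modularFunctionFieldBar N}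
    (hL : LineData N ℓ hℓN A hA x)
    {tb : modularFunctionFieldFullC (IsLocalRing.ResidueField A) N}
    (htb : (tb : LaurentSeries (IsLocalRing.ResidueField A)) = helper882.gpRho A N x) :
    ∀ u : modularFunctionFieldFullC (IsLocalRing.ResidueField A) N,
      IsIntegral (Algebra.adjoin (IsLocalRing.ResidueField A) {tb⁻¹}) u →
      ∃ y : modularFunctionFieldBar N, y ∈ helper882.gpRing A N ∧
        IsIntegral (Algebra.adjoin (AlgebraicClosure ℚ) {x⁻¹}) y ∧
        helper882.gpRho A N y = (u : LaurentSeries (IsLocalRing.ResidueField A)) := by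
  intro u hu
  rw [eq_gaussRed_of_coe_eq N ℓ hℓN A hA hL htb] at hu
  obtain ⟨f, hf, hfint, hfred⟩ :=
    helper4658.exists_lift_of_isIntegral_inv N ℓ hℓN A hA hcart hL u hu
  have h := gpRho_eq_coe_gaussRed N ℓ hℓN A hA hf
  exact ⟨f, h.1, hfint, by rw [h.2, hfred]⟩

/-- Converse, chart `x`: the reduction of an element of the Gauss ring integral over `ℚ̄[x]` is
the expansion of an element of `F_k` integral over `k[tb]`. -/
theorem gp_red_isIntegral {x : modularFunctionFieldBar N} (hL : LineData N ℓ hℓN A hA x)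
    {tb : modularFunctionFieldFullC (IsLocalRing.ResidueField A) N}
    (htb : (tb : LaurentSeries (IsLocalRing.ResidueField A)) = helper882.gpRho A N x)
    {y : modularFunctionFieldBar N} (hy : y ∈ helper882.gpRing A N)
    (hyint : IsIntegral (Algebra.adjoin (AlgebraicClosure ℚ) {x}) y) :
    ∃ u : modularFunctionFieldFullC (IsLocalRing.ResidueField A) N,
      (u : LaurentSeries (IsLocalRing.ResidueField A)) = helper882.gpRho A N y ∧
        IsIntegral (Algebra.adjoin (IsLocalRing.ResidueField A) {tb}) u := by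
  have hyO := mem_gaussO_of_mem_gpRing N ℓ hℓN A hA hy
  refine ⟨gaussRed N ℓ hℓN A hA ⟨y, hyO⟩, (gpRho_eq_coe_gaussRed N ℓ hℓN A hA hyO).2.symm, ?_⟩
  rw [eq_gaussRed_of_coe_eq N ℓ hℓN A hA hL htb]
  exact hL.hIT y hyO hyint

/-- Converse, chart `x⁻¹`. -/
theorem gp_red_isIntegral_inv {x : modularFunctionFieldBar N} (hL : LineData N ℓ hℓN A hA x)
    {tb : modularFunctionFieldFullC (IsLocalRing.ResidueField A) N}
    (htb : (tb : LaurentSeries (IsLocalRing.ResidueField A)) = helper882.gpRho A N x)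
    {y : modularFunctionFieldBar N} (hy : y ∈ helper882.gpRing A N)
    (hyint : IsIntegral (Algebra.adjoin (AlgebraicClosure ℚ) {x⁻¹}) y) :
    ∃ u : modularFunctionFieldFullC (IsLocalRing.ResidueField A) N,
      (u : LaurentSeries (IsLocalRing.ResidueField A)) = helper882.gpRho A N y ∧
        IsIntegral (Algebra.adjoin (IsLocalRing.ResidueField A) {tb⁻¹}) u := by
  have hyO := mem_gaussO_of_mem_gpRing N ℓ hℓN A hA hy
  refine ⟨gaussRed N ℓ hℓN A hA ⟨y, hyO⟩, (gpRho_eq_coe_gaussRed N ℓ hℓN A hA hyO).2.symm, ?_⟩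
  rw [eq_gaussRed_of_coe_eq N ℓ hℓN A hA hL htb]
  exact hL.hIT' y hyO hyint

end GP

/-! ### The Hauptmodul lines, expansion form -/

section Haupt

variable (N : ℕ) [NeZero N] (ℓ : ℕ) [Fact ℓ.Prime] (hℓN : ¬ ℓ ∣ N)
  (A : ValuationSubring (AlgebraicClosure ℚ)) (hA : A.LiesOverPrime ℓ)

include hℓN hA in
/-- `ρ t_2 = t̄_2`: the `gpRho`-reduction of `t_2` is the integer series `t_2` read over `k`. -/
theorem gpRho_t2 (h2N : 2 ∣ N) {t : modularFunctionFieldBar N}
    (ht : (t : LaurentSeries (AlgebraicClosure ℚ)) =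
      coeffMap (Int.castRingHom (AlgebraicClosure ℚ)) helper1257.t2Z) :
    helper882.gpRho A N t =
      coeffMap (Int.castRingHom (IsLocalRing.ResidueField A)) helper1257.t2Z := by
  have e : t = helper4665.gaussT2 (AlgebraicClosure ℚ) N h2N := Subtype.ext ht
  subst e
  have hL := helper789.lineData_t2 N ℓ hℓN A hA h2N
  rw [(gpRho_eq_coe_gaussRed N ℓ hℓN A hA hL.hx).2]
  exact helper4665.gaussResidue_gaussT2 N ℓ hℓN A hA h2N

include hℓN hA in
/-- `ρ t_3 = t̄_3`. -/
theorem gpRho_t3 (h3N : 3 ∣ N) {t : modularFunctionFieldBar N}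
    (ht : (t : LaurentSeries (AlgebraicClosure ℚ)) =
      coeffMap (Int.castRingHom (AlgebraicClosure ℚ)) helper1257.t3Z) :
    helper882.gpRho A N t =
      coeffMap (Int.castRingHom (IsLocalRing.ResidueField A)) helper1257.t3Z := by
  have e : t = helper4665.gaussT3 (AlgebraicClosure ℚ) N h3N := Subtype.ext ht
  subst e
  have hL := helper789.lineData_t3 N ℓ hℓN A hA h3N
  rw [(gpRho_eq_coe_gaussRed N ℓ hℓN A hA hL.hx).2]
  exact helper4665.gaussResidue_gaussT3 N ℓ hℓN A hA h3N

include hℓN hA in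
/-- **(H1) on the `t_2`-line, chart `t`** (`2 ∣ N`, `ℓ ∤ N`, `A` over `ℓ`), unconditional,
expansion form. -/
theorem gp_lift_t2 (h2N : 2 ∣ N) {t : modularFunctionFieldBar N}
    (ht : (t : LaurentSeries (AlgebraicClosure ℚ)) =
      coeffMap (Int.castRingHom (AlgebraicClosure ℚ)) helper1257.t2Z)
    {tb : modularFunctionFieldFullC (IsLocalRing.ResidueField A) N}
    (htb : (tb : LaurentSeries (IsLocalRing.ResidueField A)) =
      coeffMap (Int.castRingHom (IsLocalRing.ResidueField A)) helper1257.t2Z) :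
    ∀ u : modularFunctionFieldFullC (IsLocalRing.ResidueField A) N,
      IsIntegral (Algebra.adjoin (IsLocalRing.ResidueField A) {tb}) u →
      ∃ y : modularFunctionFieldBar N, y ∈ helper882.gpRing A N ∧
        IsIntegral (Algebra.adjoin (AlgebraicClosure ℚ) {t}) y ∧
        helper882.gpRho A N y = (u : LaurentSeries (IsLocalRing.ResidueField A)) := by
  have htb' := htb.trans (gpRho_t2 N ℓ hℓN A hA h2N ht).symm
  have e : t = helper4665.gaussT2 (AlgebraicClosure ℚ) N h2N := Subtype.ext ht
  subst e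
  exact gp_lift N ℓ hℓN A hA (helper789.stmt_Cart_gauss N ℓ hℓN A hA)
    (helper789.lineData_t2 N ℓ hℓN A hA h2N) htb'

include hℓN hA in
/-- **(H1) on the `t_2`-line, chart `t⁻¹`.** -/
theorem gp_lift_t2_inv (h2N : 2 ∣ N) {t : modularFunctionFieldBar N}
    (ht : (t : LaurentSeries (AlgebraicClosure ℚ)) =
      coeffMap (Int.castRingHom (AlgebraicClosure ℚ)) helper1257.t2Z)
    {tb : modularFunctionFieldFullC (IsLocalRing.ResidueField A) N}
    (htb : (tb : LaurentSeries (IsLocalRing.ResidueField A)) =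
      coeffMap (Int.castRingHom (IsLocalRing.ResidueField A)) helper1257.t2Z) :
    ∀ u : modularFunctionFieldFullC (IsLocalRing.ResidueField A) N,
      IsIntegral (Algebra.adjoin (IsLocalRing.ResidueField A) {tb⁻¹}) u →
      ∃ y : modularFunctionFieldBar N, y ∈ helper882.gpRing A N ∧
        IsIntegral (Algebra.adjoin (AlgebraicClosure ℚ) {t⁻¹}) y ∧
        helper882.gpRho A N y = (u : LaurentSeries (IsLocalRing.ResidueField A)) := by
  have htb' := htb.trans (gpRho_t2 N ℓ hℓN A hA h2N ht).symm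
  have e : t = helper4665.gaussT2 (AlgebraicClosure ℚ) N h2N := Subtype.ext ht
  subst e
  exact gp_lift_inv N ℓ hℓN A hA (helper789.stmt_Cart_gauss N ℓ hℓN A hA)
    (helper789.lineData_t2 N ℓ hℓN A hA h2N) htb'

include hℓN hA in
/-- **(H1) on the `t_3`-line, chart `t`** (`3 ∣ N`, `ℓ ∤ N`, `A` over `ℓ`), unconditional,
expansion form. -/
theorem gp_lift_t3 (h3N : 3 ∣ N) {t : modularFunctionFieldBar N}
    (ht : (t : LaurentSeries (AlgebraicClosure ℚ)) =
      coeffMap (Int.castRingHom (AlgebraicClosure ℚ)) helper1257.t3Z)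
    {tb : modularFunctionFieldFullC (IsLocalRing.ResidueField A) N}
    (htb : (tb : LaurentSeries (IsLocalRing.ResidueField A)) =
      coeffMap (Int.castRingHom (IsLocalRing.ResidueField A)) helper1257.t3Z) :
    ∀ u : modularFunctionFieldFullC (IsLocalRing.ResidueField A) N,
      IsIntegral (Algebra.adjoin (IsLocalRing.ResidueField A) {tb}) u →
      ∃ y : modularFunctionFieldBar N, y ∈ helper882.gpRing A N ∧
        IsIntegral (Algebra.adjoin (AlgebraicClosure ℚ) {t}) y ∧
        helper882.gpRho A N y = (u : LaurentSeries (IsLocalRing.ResidueField A)) := by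
  have htb' := htb.trans (gpRho_t3 N ℓ hℓN A hA h3N ht).symm
  have e : t = helper4665.gaussT3 (AlgebraicClosure ℚ) N h3N := Subtype.ext ht
  subst e
  exact gp_lift N ℓ hℓN A hA (helper789.stmt_Cart_gauss N ℓ hℓN A hA)
    (helper789.lineData_t3 N ℓ hℓN A hA h3N) htb'

include hℓN hA in
/-- **(H1) on the `t_3`-line, chart `t⁻¹`.** -/
theorem gp_lift_t3_inv (h3N : 3 ∣ N) {t : modularFunctionFieldBar N}
    (ht : (t : LaurentSeries (AlgebraicClosure ℚ)) =
      coeffMap (Int.castRingHom (AlgebraicClosure ℚ)) helper1257.t3Z)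
    {tb : modularFunctionFieldFullC (IsLocalRing.ResidueField A) N}
    (htb : (tb : LaurentSeries (IsLocalRing.ResidueField A)) =
      coeffMap (Int.castRingHom (IsLocalRing.ResidueField A)) helper1257.t3Z) :
    ∀ u : modularFunctionFieldFullC (IsLocalRing.ResidueField A) N,
      IsIntegral (Algebra.adjoin (IsLocalRing.ResidueField A) {tb⁻¹}) u →
      ∃ y : modularFunctionFieldBar N, y ∈ helper882.gpRing A N ∧
        IsIntegral (Algebra.adjoin (AlgebraicClosure ℚ) {t⁻¹}) y ∧
        helper882.gpRho A N y = (u : LaurentSeries (IsLocalRing.ResidueField A)) := by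
  have htb' := htb.trans (gpRho_t3 N ℓ hℓN A hA h3N ht).symm
  have e : t = helper4665.gaussT3 (AlgebraicClosure ℚ) N h3N := Subtype.ext ht
  subst e
  exact gp_lift_inv N ℓ hℓN A hA (helper789.stmt_Cart_gauss N ℓ hℓN A hA)
    (helper789.lineData_t3 N ℓ hℓN A hA h3N) htb'

include hℓN hA in
/-- Converse on the `t_2`-line, both charts: reductions of elements of the Gauss ring integral
over `ℚ̄[t]` (resp. `ℚ̄[t⁻¹]`) are expansions of elements of `F_k` integral over `k[tb]` (resp.
`k[tb⁻¹]`). -/
theorem gp_red_isIntegral_t2 (h2N : 2 ∣ N) {t : modularFunctionFieldBar N}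
    (ht : (t : LaurentSeries (AlgebraicClosure ℚ)) =
      coeffMap (Int.castRingHom (AlgebraicClosure ℚ)) helper1257.t2Z)
    {tb : modularFunctionFieldFullC (IsLocalRing.ResidueField A) N}
    (htb : (tb : LaurentSeries (IsLocalRing.ResidueField A)) =
      coeffMap (Int.castRingHom (IsLocalRing.ResidueField A)) helper1257.t2Z)
    {y : modularFunctionFieldBar N} (hy : y ∈ helper882.gpRing A N) :
    (IsIntegral (Algebra.adjoin (AlgebraicClosure ℚ) {t}) y →
      ∃ u : modularFunctionFieldFullC (IsLocalRing.ResidueField A) N,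
        (u : LaurentSeries (IsLocalRing.ResidueField A)) = helper882.gpRho A N y ∧
          IsIntegral (Algebra.adjoin (IsLocalRing.ResidueField A) {tb}) u) ∧
    (IsIntegral (Algebra.adjoin (AlgebraicClosure ℚ) {t⁻¹}) y →
      ∃ u : modularFunctionFieldFullC (IsLocalRing.ResidueField A) N,
        (u : LaurentSeries (IsLocalRing.ResidueField A)) = helper882.gpRho A N y ∧
          IsIntegral (Algebra.adjoin (IsLocalRing.ResidueField A) {tb⁻¹}) u) := by
  have htb' := htb.trans (gpRho_t2 N ℓ hℓN A hA h2N ht).symm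
  have e : t = helper4665.gaussT2 (AlgebraicClosure ℚ) N h2N := Subtype.ext ht
  subst e
  exact ⟨fun h => gp_red_isIntegral N ℓ hℓN A hA (helper789.lineData_t2 N ℓ hℓN A hA h2N)
      htb' hy h,
    fun h => gp_red_isIntegral_inv N ℓ hℓN A hA (helper789.lineData_t2 N ℓ hℓN A hA h2N)
      htb' hy h⟩

include hℓN hA in
/-- Converse on the `t_3`-line, both charts. -/
theorem gp_red_isIntegral_t3 (h3N : 3 ∣ N) {t : modularFunctionFieldBar N}
    (ht : (t : LaurentSeries (AlgebraicClosure ℚ)) =
      coeffMap (Int.castRingHom (AlgebraicClosure ℚ)) helper1257.t3Z)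
    {tb : modularFunctionFieldFullC (IsLocalRing.ResidueField A) N}
    (htb : (tb : LaurentSeries (IsLocalRing.ResidueField A)) =
      coeffMap (Int.castRingHom (IsLocalRing.ResidueField A)) helper1257.t3Z)
    {y : modularFunctionFieldBar N} (hy : y ∈ helper882.gpRing A N) :
    (IsIntegral (Algebra.adjoin (AlgebraicClosure ℚ) {t}) y →
      ∃ u : modularFunctionFieldFullC (IsLocalRing.ResidueField A) N,
        (u : LaurentSeries (IsLocalRing.ResidueField A)) = helper882.gpRho A N y ∧
          IsIntegral (Algebra.adjoin (IsLocalRing.ResidueField A) {tb}) u) ∧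
    (IsIntegral (Algebra.adjoin (AlgebraicClosure ℚ) {t⁻¹}) y →
      ∃ u : modularFunctionFieldFullC (IsLocalRing.ResidueField A) N,
        (u : LaurentSeries (IsLocalRing.ResidueField A)) = helper882.gpRho A N y ∧
          IsIntegral (Algebra.adjoin (IsLocalRing.ResidueField A) {tb⁻¹}) u) := by
  have htb' := htb.trans (gpRho_t3 N ℓ hℓN A hA h3N ht).symm
  have e : t = helper4665.gaussT3 (AlgebraicClosure ℚ) N h3N := Subtype.ext ht
  subst e
  exact ⟨fun h => gp_red_isIntegral N ℓ hℓN A hA (helper789.lineData_t3 N ℓ hℓN A hA h3N)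
      htb' hy h,
    fun h => gp_red_isIntegral_inv N ℓ hℓN A hA (helper789.lineData_t3 N ℓ hℓN A hA h3N)
      htb' hy h⟩

end Haupt

end Fermat.Agent.S35.helper6381
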