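/-
S35/S34-CHARTPTS (helper7984) = item (e) of the NODE PACKAGE (architect helper35, team_s35_chat
#204 (3)): `k`-points of a chart ring versus Prelude places, in the `valueAt` vocabulary of
`helper603_NodalRRInst`.

Setting: `k` algebraically closed (any characteristic), `F / k` a function field in one variable
(`F` finite over `k(x₀)` for one `x₀`), `B` any commutative `k`-algebra with an injective
`k`-algebra hom `ι : B →ₐ[k] F` (a chart ring: `B` a subalgebra of `F`, or a subalgebra of an
ambient field all of whose elements lie in `F`).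

* `exists_place_of_point`  : every `k`-point `χ : B →ₐ[k] k` is the evaluation at a place `P`
  of `F` (`ι b ≡ χ b` at `P` for every `b`), provided `ι B` contains one transcendental element.
* `pointOfPlace`           : conversely a place at which all of `ι B` is regular gives a
  `k`-point of `B`.
* `place_unique_of_point`  : if `ι B` contains the whole integral closure of `k[x]` in `F`, the
  place of a `k`-point is unique.
* `exists_places_of_points`: the family form consumed by the node package (an injective family
  of points gives an injective family of places with `valueAt (P i) (ι b) = χ i b`).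
* `chartPointsEquiv`       : for `ι B` = the integral closure of `k[x]` in `F`, the bijection
  `{P // x regular at P} ≃ (B →ₐ[k] k)`.
* `isIntegral_adjoin_iff_forall_place`, `eq_integralClosure_of_mem_iff` : the bridge between the
  valuation-defined chart ring (`helper825.chartAlg`) and the integral closure of `k[x]`
  (valuative criterion, any characteristic).
-/
import Mathlib
import Fermat.Prelude.Def_AlgebraicCurve_Repartitions
import Fermat.Agent.S18.helper7885_PlacesFF
import Fermat.Agent.S18.helper4307_PlacesAnyChar
import Fermat.Agent.S35.helper603_NodalRRInst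

set_option autoImplicit false

noncomputable section

namespace Fermat.Agent.S35.helper7984

open AlgebraicCurve IntermediateField WithZero Polynomial IsDedekindDomain
open Fermat.Agent.S18 Fermat.Agent.S24.helper204 Fermat.Agent.S35.helper603

variable {k F : Type*} [Field k] [Field F] [Algebra k F]

/-! ### Regularity of integral elements, values -/

section Basic

/-- An element integral over `k[x]` is regular at every place at which `x` is regular. -/
theorem adicValuation_le_one_of_isIntegral (P : Place k F) {x : F}
    (hx : P.adicValuation x ≤ 1) {y : F} (hy : IsIntegral (Algebra.adjoin k {x}) y) :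
    P.adicValuation y ≤ 1 := by
  rw [← helper7885.mem_iff_adicValuation_le_one] at hx ⊢
  refine helper7885.mem_of_isIntegral_of_forall_mem P.toValuationSubring
    (S := Algebra.adjoin k {x}) (fun s => ?_) hy
  exact adjoin_le_of_mem P hx s s.2

/-- `ord` form of regularity. -/
theorem adicValuation_le_one_of_ord_nonneg (P : Place k F) {x : F} (hx : 0 ≤ P.ord x) :
    P.adicValuation x ≤ 1 :=
  P.adicValuation_le_one_iff.mpr (Or.inr hx)

/-- Regularity of a nonzero element in `ord` form. -/
theorem ord_nonneg_of_adicValuation_le_one (P : Place k F) {x : F}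
    (hx : P.adicValuation x ≤ 1) : 0 ≤ P.ord x := by
  rcases P.adicValuation_le_one_iff.mp hx with rfl | h
  · simp
  · exact h

/-- If `f ≡ c` at `P`, then `f` is regular at `P`. -/
theorem adicValuation_le_one_of_sub_lt (P : Place k F) {f : F} {c : k}
    (h : P.adicValuation (f - algebraMap k F c) < 1) : P.adicValuation f ≤ 1 := by
  have : f = (f - algebraMap k F c) + algebraMap k F c := by ring
  rw [this]
  exact P.adicValuation.map_add_le h.le (P.adicValuation_algebraMap_le_one c)

/-- If `f ≡ c` at `P` and `f` vanishes at `P`, then `c = 0`. -/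
theorem eq_zero_of_sub_lt_of_lt (P : Place k F) {f : F} {c : k}
    (h : P.adicValuation (f - algebraMap k F c) < 1) (hf : P.adicValuation f < 1) : c = 0 := by
  refine eq_zero_of_adicValuation_algebraMap_lt_one P ?_
  have : algebraMap k F c = f - (f - algebraMap k F c) := by ring
  rw [this]
  exact P.adicValuation.map_sub_lt hf h

/-- A regular function with nonzero value at `P` has order `0` there. -/
theorem ord_eq_zero_of_valueAt_ne_zero (P : Place k F) (hP : P.deg = 1) {f : F}
    (hf : P.adicValuation f ≤ 1) (hv : valueAt P hP f ≠ 0) : P.ord f = 0 := by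
  have hnlt : ¬ P.adicValuation f < 1 := fun h => hv ((valueAt_eq_zero_iff P hP hf).mpr h)
  have h1 : P.adicValuation f = 1 := le_antisymm hf (not_lt.mp hnlt)
  have hf0 : f ≠ 0 := by
    rintro rfl
    rw [map_zero] at h1
    exact zero_ne_one h1
  rw [P.adicValuation_eq_exp_neg_ord hf0, ← exp_zero, exp_inj] at h1
  omega

end Basic

/-! ### From a `k`-point to a place (Chevalley) -/

section Existence

variable {B : Type*} [CommRing B] [Algebra k B]

/-- **(E-a), existence.** Every `k`-point of a chart ring is the evaluation at a place: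
for `ι : B →ₐ[k] F` injective whose image contains a transcendental element, and
`χ : B →ₐ[k] k`, there is a place `P` with `ι b ≡ χ b` at `P` for every `b`. -/
theorem exists_place_of_point [IsAlgClosed k] (x₀ : F) [FiniteDimensional k⟮x₀⟯ F]
    (ι : B →ₐ[k] F) (hι : Function.Injective ι) (hne : ∃ b : B, Transcendental k (ι b))
    (χ : B →ₐ[k] k) :
    ∃ P : Place k F, ∀ b : B, P.adicValuation (ι b - algebraMap k F (χ b)) < 1 := by
  let A : Subring F := (ι : B →+* F).range
  let e : B →+* A := (ι : B →+* F).rangeRestrict
  have he : Function.Surjective e := (ι : B →+* F).rangeRestrict_surjective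
  have hecoe : ∀ b : B, ((e b : A) : F) = ι b := fun _ => rfl
  let I : Ideal A := Ideal.map e (RingHom.ker (χ : B →+* k))
  have hI : I ≠ ⊤ := by
    intro htop
    have h1 : (1 : A) ∈ Ideal.map e (RingHom.ker (χ : B →+* k)) := by
      show (1 : A) ∈ I
      rw [htop]
      exact Submodule.mem_top
    obtain ⟨b, hb, hb1⟩ := (Ideal.mem_map_iff_of_surjective e he).mp h1
    have h2 : ι b = 1 := by
      have := congrArg (fun a : A => (a : F)) hb1
      simpa [hecoe] using this
    have hb' : b = 1 := hι (h2.trans (map_one ι).symm)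
    rw [hb'] at hb
    have h3 : χ 1 = 0 := hb
    rw [map_one] at h3
    exact one_ne_zero h3
  obtain ⟨O, hAO, hIO⟩ := Ideal.image_subset_nonunits_valuationSubring I hI
  have hK : ∀ c : k, algebraMap k F c ∈ O := fun c =>
    hAO ⟨algebraMap k B c, by simp⟩
  have hnon : ∀ b : B, ι b - algebraMap k F (χ b) ∈ O.nonunits := by
    intro b
    apply hIO
    refine ⟨e (b - algebraMap k B (χ b)), Ideal.mem_map_of_mem e ?_, ?_⟩
    · show χ (b - algebraMap k B (χ b)) = 0
      simp
    · show ((e (b - algebraMap k B (χ b)) : A) : F) = _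
      rw [hecoe, map_sub, AlgHom.commutes]
  have hO : O ≠ ⊤ := by
    rintro rfl
    obtain ⟨b, hb⟩ := hne
    rcases (ValuationSubring.mem_nonunits_iff_or _).mp (hnon b) with h0 | h0
    · apply hb
      rw [sub_eq_zero.mp h0]
      exact isAlgebraic_algebraMap _
    · exact h0 (ValuationSubring.mem_top _)
  refine ⟨helper7885.placeOfValuationSubring O x₀ hK hO, fun b => ?_⟩
  exact (helper7885.mem_nonunits_iff_adicValuation_lt_one _).mp (hnon b)

/-- **(E-a), `valueAt` form.** -/
theorem exists_place_valueAt [IsAlgClosed k] (x₀ : F) [FiniteDimensional k⟮x₀⟯ F]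
    (ι : B →ₐ[k] F) (hι : Function.Injective ι) (hne : ∃ b : B, Transcendental k (ι b))
    (χ : B →ₐ[k] k) :
    ∃ P : Place k F, P.deg = 1 ∧ (∀ b : B, P.adicValuation (ι b) ≤ 1) ∧
      ∀ (hP : P.deg = 1) (b : B), valueAt P hP (ι b) = χ b := by
  obtain ⟨P, hP⟩ := exists_place_of_point x₀ ι hι hne χ
  exact ⟨P, helper7885.place_deg_eq_one x₀ P,
    fun b => adicValuation_le_one_of_sub_lt P (hP b), fun h b => valueAt_unique P h (hP b)⟩

end Existence

/-! ### From a place to a `k`-point -/

section Point

variable {B : Type*} [CommRing B] [Algebra k B]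

/-- **(E-b).** The `k`-point of a chart ring attached to a place of degree one at which the
whole chart ring is regular: `b ↦ valueAt P (ι b)`. -/
def pointOfPlace (P : Place k F) (hP : P.deg = 1) (ι : B →ₐ[k] F)
    (hreg : ∀ b : B, P.adicValuation (ι b) ≤ 1) : B →ₐ[k] k :=
  (evalAt (fun _ : Unit => P) (fun _ => hP) ()).comp
    (ι.codRestrict (nodeRing (fun _ : Unit => P)) (fun b _ => hreg b))

@[simp]
theorem pointOfPlace_apply (P : Place k F) (hP : P.deg = 1) (ι : B →ₐ[k] F)
    (hreg : ∀ b : B, P.adicValuation (ι b) ≤ 1) (b : B) :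
    pointOfPlace P hP ι hreg b = valueAt P hP (ι b) := rfl

/-- The point of a place is characterised by `ι b ≡ χ b` at `P`. -/
theorem pointOfPlace_eq_iff (P : Place k F) (hP : P.deg = 1) (ι : B →ₐ[k] F)
    (hreg : ∀ b : B, P.adicValuation (ι b) ≤ 1) (χ : B →ₐ[k] k) :
    pointOfPlace P hP ι hreg = χ ↔
      ∀ b : B, P.adicValuation (ι b - algebraMap k F (χ b)) < 1 := by
  constructor
  · rintro rfl b
    exact valueAt_spec P hP (hreg b)
  · intro h
    exact AlgHom.ext fun b => valueAt_unique P hP (h b)

/-- The congruence `ι b ≡ (pointOfPlace P) b` at `P`. -/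
theorem adicValuation_sub_pointOfPlace_lt (P : Place k F) (hP : P.deg = 1) (ι : B →ₐ[k] F)
    (hreg : ∀ b : B, P.adicValuation (ι b) ≤ 1) (b : B) :
    P.adicValuation (ι b - algebraMap k F (pointOfPlace P hP ι hreg b)) < 1 :=
  valueAt_spec P hP (hreg b)

end Point

/-! ### Uniqueness of the place of a point (Dedekind localisation) -/

section Unique

open scoped IntermediateField.algebraAdjoinAdjoin

variable [IsAlgClosed k] (x : F) (hx : Transcendental k x) [FiniteDimensional k⟮x⟯ F]

include hx in
/-- Two places at which `x` is regular and which have the same integral functions vanishing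
coincide (one inclusion of the vanishing sets suffices). -/
theorem place_eq_of_forall_lt_one_imp (P P' : Place k F) (hP : P.adicValuation x ≤ 1)
    (hP' : P'.adicValuation x ≤ 1)
    (h : ∀ y : F, IsIntegral (Algebra.adjoin k {x}) y → P'.adicValuation y < 1 →
      P.adicValuation y < 1) : P = P' := by
  have := helper4307.isDedekindDomain_B k x
  have := helper4307.finite_B k x
  obtain ⟨c, hc⟩ := helper7885.exists_const_adicValuation_sub_lt_one P x hP
  have hxc : x - algebraMap k F c ≠ 0 := sub_ne_zero_of_transcendental hx c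
  have hord : 0 < P.ord (x - algebraMap k F c) := (helper7885.ord_pos_iff P hxc).mpr hc
  obtain ⟨w, -, hw⟩ := helper4307.exists_heightOneSpectrum_of_ord_pos hx c P hord
  rw [← hw]
  refine ofHeightOneSpectrum_eq_of_le P' w (fun r => ?_) (fun r hr => ?_)
  · exact integralClosure_le_of_mem P' ((helper7885.mem_iff_adicValuation_le_one P').mpr hP') r
  · by_contra hinv
    have h1 : P'.adicValuation
        (algebraMap (integralClosure (Algebra.adjoin k {x}) F) F r) < 1 :=
      (helper7885.mem_nonunits_iff_adicValuation_lt_one P').mp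
        ((ValuationSubring.mem_nonunits_iff_or _).mpr (Or.inr hinv))
    have h2 : P.adicValuation (algebraMap (integralClosure (Algebra.adjoin k {x}) F) F r) < 1 :=
      h _ r.2 h1
    have h3 : algebraMap (integralClosure (Algebra.adjoin k {x}) F) F r ∈
        P.toValuationSubring.nonunits :=
      (helper7885.mem_nonunits_iff_adicValuation_lt_one P).mpr h2
    rw [← hw, Place.ofHeightOneSpectrum_toValuationSubring,
      ValuationSubring.mem_nonunits_iff] at h3
    have h4 : w.valuation F (algebraMap (integralClosure (Algebra.adjoin k {x}) F) F r) < 1 :=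
      (Valuation.isEquiv_valuation_valuationSubring (w.valuation F)).lt_one_iff_lt_one.mpr h3
    exact hr ((w.valuation_lt_one_iff_mem r).mp h4)

variable {B : Type*} [CommRing B] [Algebra k B]

include hx in
/-- **(E-a), uniqueness.** If the chart ring `ι B` contains `x` and every element of `F`
integral over `k[x]`, the place of a `k`-point is unique. -/
theorem place_unique_of_point (ι : B →ₐ[k] F) (hxι : x ∈ ι.range)
    (hfull : ∀ y : F, IsIntegral (Algebra.adjoin k {x}) y → y ∈ ι.range) (χ : B →ₐ[k] k)
    (P P' : Place k F) (hP : ∀ b : B, P.adicValuation (ι b - algebraMap k F (χ b)) < 1)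
    (hP' : ∀ b : B, P'.adicValuation (ι b - algebraMap k F (χ b)) < 1) : P = P' := by
  obtain ⟨b₀, rfl⟩ := (AlgHom.mem_range ι).mp hxι
  refine place_eq_of_forall_lt_one_imp (ι b₀) hx P P'
    (adicValuation_le_one_of_sub_lt P (hP b₀)) (adicValuation_le_one_of_sub_lt P' (hP' b₀)) ?_
  intro y hy hy'
  obtain ⟨b, rfl⟩ := (AlgHom.mem_range ι).mp (hfull y hy)
  have h0 : χ b = 0 := eq_zero_of_sub_lt_of_lt P' (hP' b) hy'
  have := hP b
  rwa [h0, map_zero, sub_zero] at this

end Unique

/-! ### Family form and the bijection -/

section Family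

variable {B : Type*} [CommRing B] [Algebra k B]

/-- **(E-c), the form consumed by the node package.** An injective family of `k`-points of a
chart ring is the family of evaluations at an injective family of places (all of degree one),
at which the whole chart ring is regular. -/
theorem exists_places_of_points [IsAlgClosed k] (x₀ : F) [FiniteDimensional k⟮x₀⟯ F]
    (ι : B →ₐ[k] F) (hι : Function.Injective ι) (hne : ∃ b : B, Transcendental k (ι b))
    {I : Type*} (χ : I → B →ₐ[k] k) (hχ : Function.Injective χ) :
    ∃ P : I → Place k F, Function.Injective P ∧ (∀ i, (P i).deg = 1) ∧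
      (∀ i (b : B), (P i).adicValuation (ι b) ≤ 1) ∧
      (∀ i (b : B), (P i).adicValuation (ι b - algebraMap k F (χ i b)) < 1) ∧
      ∀ i (hP : (P i).deg = 1) (b : B), valueAt (P i) hP (ι b) = χ i b := by
  choose P hP using fun i => exists_place_of_point x₀ ι hι hne (χ i)
  refine ⟨P, ?_, fun i => helper7885.place_deg_eq_one x₀ (P i),
    fun i b => adicValuation_le_one_of_sub_lt (P i) (hP i b), hP,
    fun i h b => valueAt_unique (P i) h (hP i b)⟩
  intro i j hij
  apply hχ
  refine AlgHom.ext fun b => ?_
  have hdeg := helper7885.place_deg_eq_one x₀ (P i)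
  have h1 : valueAt (P i) hdeg (ι b) = χ i b := valueAt_unique (P i) hdeg (hP i b)
  have h2 : valueAt (P i) hdeg (ι b) = χ j b := by
    refine valueAt_unique (P i) hdeg ?_
    rw [hij]
    exact hP j b
  rw [← h1, h2]

open scoped IntermediateField.algebraAdjoinAdjoin in
/-- **(E-a)+(E-b), the bijection.** If `ι B` is exactly the integral closure of `k[x]` in `F`
(`x` transcendental, `F` finite over `k(x)`), the `k`-points of `B` are the places of `F` at
which `x` is regular, via `P ↦ (b ↦ valueAt P (ι b))`. -/
def chartPointsEquiv [IsAlgClosed k] (x : F) (hx : Transcendental k x)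
    [FiniteDimensional k⟮x⟯ F] (ι : B →ₐ[k] F) (hι : Function.Injective ι)
    (hint : ∀ b : B, IsIntegral (Algebra.adjoin k {x}) (ι b))
    (hfull : ∀ y : F, IsIntegral (Algebra.adjoin k {x}) y → y ∈ ι.range) :
    {P : Place k F // P.adicValuation x ≤ 1} ≃ (B →ₐ[k] k) where
  toFun P := pointOfPlace P.1 (helper7885.place_deg_eq_one x P.1) ι
    (fun b => adicValuation_le_one_of_isIntegral P.1 P.2 (hint b))
  invFun χ :=
    have hxι : x ∈ ι.range := hfull x (isIntegral_algebraMap (R := Algebra.adjoin k {x})
      (x := (⟨x, Algebra.self_mem_adjoin_singleton k x⟩ : Algebra.adjoin k {x})))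
    have hne : ∃ b : B, Transcendental k (ι b) := by
      obtain ⟨b, hb⟩ := (AlgHom.mem_range ι).mp hxι
      exact ⟨b, hb ▸ hx⟩
    ⟨Classical.choose (exists_place_of_point x ι hι hne χ), by
      obtain ⟨b, hb⟩ := (AlgHom.mem_range ι).mp hxι
      have := Classical.choose_spec (exists_place_of_point x ι hι hne χ) b
      rw [hb] at this
      exact adicValuation_le_one_of_sub_lt _ this⟩
  left_inv P := by
    have hxι : x ∈ ι.range := hfull x (isIntegral_algebraMap (R := Algebra.adjoin k {x})
      (x := (⟨x, Algebra.self_mem_adjoin_singleton k x⟩ : Algebra.adjoin k {x})))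
    have hne : ∃ b : B, Transcendental k (ι b) := by
      obtain ⟨b, hb⟩ := (AlgHom.mem_range ι).mp hxι
      exact ⟨b, hb ▸ hx⟩
    apply Subtype.ext
    refine place_unique_of_point x hx ι hxι hfull
      (pointOfPlace P.1 (helper7885.place_deg_eq_one x P.1) ι
        (fun b => adicValuation_le_one_of_isIntegral P.1 P.2 (hint b))) _ _
      (Classical.choose_spec (exists_place_of_point x ι hι hne _)) ?_
    intro b
    exact adicValuation_sub_pointOfPlace_lt _ _ _ _ b
  right_inv χ := by
    have hxι : x ∈ ι.range := hfull x (isIntegral_algebraMap (R := Algebra.adjoin k {x})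
      (x := (⟨x, Algebra.self_mem_adjoin_singleton k x⟩ : Algebra.adjoin k {x})))
    have hne : ∃ b : B, Transcendental k (ι b) := by
      obtain ⟨b, hb⟩ := (AlgHom.mem_range ι).mp hxι
      exact ⟨b, hb ▸ hx⟩
    exact (pointOfPlace_eq_iff _ _ _ _ χ).mpr
      (Classical.choose_spec (exists_place_of_point x ι hι hne χ))

@[simp]
theorem chartPointsEquiv_apply [IsAlgClosed k] (x : F) (hx : Transcendental k x)
    [FiniteDimensional k⟮x⟯ F] (ι : B →ₐ[k] F) (hι : Function.Injective ι)
    (hint : ∀ b : B, IsIntegral (Algebra.adjoin k {x}) (ι b))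
    (hfull : ∀ y : F, IsIntegral (Algebra.adjoin k {x}) y → y ∈ ι.range)
    (P : {P : Place k F // P.adicValuation x ≤ 1}) (b : B) :
    chartPointsEquiv x hx ι hι hint hfull P b =
      valueAt P.1 (helper7885.place_deg_eq_one x P.1) (ι b) := rfl

/-- The place of a point, through the bijection: `ι b ≡ χ b` there. -/
theorem adicValuation_sub_chartPointsEquiv_symm_lt [IsAlgClosed k] (x : F)
    (hx : Transcendental k x) [FiniteDimensional k⟮x⟯ F] (ι : B →ₐ[k] F)
    (hι : Function.Injective ι) (hint : ∀ b : B, IsIntegral (Algebra.adjoin k {x}) (ι b))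
    (hfull : ∀ y : F, IsIntegral (Algebra.adjoin k {x}) y → y ∈ ι.range)
    (χ : B →ₐ[k] k) (b : B) :
    ((chartPointsEquiv x hx ι hι hint hfull).symm χ).1.adicValuation
      (ι b - algebraMap k F (χ b)) < 1 := by
  have h := (chartPointsEquiv x hx ι hι hint hfull).apply_symm_apply χ
  have h2 := adicValuation_sub_pointOfPlace_lt
    ((chartPointsEquiv x hx ι hι hint hfull).symm χ).1
    (helper7885.place_deg_eq_one x _) ι
    (fun b => adicValuation_le_one_of_isIntegral _
      ((chartPointsEquiv x hx ι hι hint hfull).symm χ).2 (hint b)) b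
  have h3 : pointOfPlace ((chartPointsEquiv x hx ι hι hint hfull).symm χ).1
      (helper7885.place_deg_eq_one x _) ι
      (fun b => adicValuation_le_one_of_isIntegral _
        ((chartPointsEquiv x hx ι hι hint hfull).symm χ).2 (hint b)) = χ := h
  rwa [h3] at h2

/-- The place of a point, through the bijection, in `valueAt` form. -/
theorem valueAt_chartPointsEquiv_symm [IsAlgClosed k] (x : F)
    (hx : Transcendental k x) [FiniteDimensional k⟮x⟯ F] (ι : B →ₐ[k] F)
    (hι : Function.Injective ι) (hint : ∀ b : B, IsIntegral (Algebra.adjoin k {x}) (ι b))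
    (hfull : ∀ y : F, IsIntegral (Algebra.adjoin k {x}) y → y ∈ ι.range)
    (χ : B →ₐ[k] k) (hP : ((chartPointsEquiv x hx ι hι hint hfull).symm χ).1.deg = 1) (b : B) :
    valueAt ((chartPointsEquiv x hx ι hι hint hfull).symm χ).1 hP (ι b) = χ b :=
  valueAt_unique _ hP (adicValuation_sub_chartPointsEquiv_symm_lt x hx ι hι hint hfull χ b)

end Family

/-! ### Change of chart `x ↦ x⁻¹` -/

section ChartChange

/-- A place at which `x` is regular with nonzero value is a point of the chart `x⁻¹` as well:
every element integral over `k[x⁻¹]` is regular there. -/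
theorem adicValuation_le_one_of_isIntegral_inv (P : Place k F) (hP : P.deg = 1) {x : F}
    (hx : P.adicValuation x ≤ 1) (hv : valueAt P hP x ≠ 0) {y : F}
    (hy : IsIntegral (Algebra.adjoin k {x⁻¹}) y) : P.adicValuation y ≤ 1 := by
  refine adicValuation_le_one_of_isIntegral P ?_ hy
  have hnlt : ¬ P.adicValuation x < 1 := fun h => hv ((valueAt_eq_zero_iff P hP hx).mpr h)
  have h1 : P.adicValuation x = 1 := le_antisymm hx (not_lt.mp hnlt)
  rw [map_inv₀, h1, inv_one]

/-- `valueAt` is multiplicative on regular elements. -/
theorem valueAt_mul (P : Place k F) (hP : P.deg = 1) {f g : F} (hf : P.adicValuation f ≤ 1)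
    (hg : P.adicValuation g ≤ 1) : valueAt P hP (f * g) = valueAt P hP f * valueAt P hP g :=
  map_mul (evalAt (fun _ : Unit => P) (fun _ => hP) ())
    (⟨f, fun _ => hf⟩ : nodeRing (fun _ : Unit => P)) ⟨g, fun _ => hg⟩

/-- `valueAt` of a constant. -/
theorem valueAt_algebraMap (P : Place k F) (hP : P.deg = 1) (c : k) :
    valueAt P hP (algebraMap k F c) = c :=
  valueAt_unique P hP (by simp)

/-- `valueAt` of `1`. -/
theorem valueAt_one (P : Place k F) (hP : P.deg = 1) : valueAt P hP (1 : F) = 1 :=
  valueAt_unique P hP (by simp)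

/-- `valueAt` of a power of a regular element. -/
theorem valueAt_pow (P : Place k F) (hP : P.deg = 1) {f : F} (hf : P.adicValuation f ≤ 1)
    (n : ℕ) : valueAt P hP (f ^ n) = valueAt P hP f ^ n :=
  map_pow (evalAt (fun _ : Unit => P) (fun _ => hP) ())
    (⟨f, fun _ => hf⟩ : nodeRing (fun _ : Unit => P)) n

/-- `valueAt` of the inverse of a regular element with nonzero value. -/
theorem valueAt_inv (P : Place k F) (hP : P.deg = 1) {f : F} (hf : P.adicValuation f ≤ 1)
    (hv : valueAt P hP f ≠ 0) : valueAt P hP f⁻¹ = (valueAt P hP f)⁻¹ := by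
  have hnlt : ¬ P.adicValuation f < 1 := fun h => hv ((valueAt_eq_zero_iff P hP hf).mpr h)
  have h1 : P.adicValuation f = 1 := le_antisymm hf (not_lt.mp hnlt)
  have hinv : P.adicValuation f⁻¹ ≤ 1 := by rw [map_inv₀, h1, inv_one]
  have hf0 : f ≠ 0 := by
    rintro rfl
    rw [map_zero] at h1
    exact zero_ne_one h1
  have hmul := valueAt_mul P hP hf hinv
  rw [mul_inv_cancel₀ hf0, valueAt_one] at hmul
  exact eq_inv_of_mul_eq_one_right hmul.symm

end ChartChange

/-! ### The bridge: valuation-defined chart ring = integral closure of `k[x]` -/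

section Bridge

/-- **Valuative criterion, any characteristic** (bridge between the valuation-defined chart ring
`{f | ∀ v, x regular at v → f regular at v}` and the integral closure of `k[x]` in `F`):
`f` is integral over `k[x]` iff `f` is regular at every place at which `x` is regular.
No transcendence or separability hypothesis on `x`; `F` finite over `k(x₀)` for one `x₀`. -/
theorem isIntegral_adjoin_iff_forall_place [IsAlgClosed k] (x₀ : F) [FiniteDimensional k⟮x₀⟯ F]
    (x f : F) :
    IsIntegral (Algebra.adjoin k {x}) f ↔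
      ∀ v : Place k F, v.adicValuation x ≤ 1 → v.adicValuation f ≤ 1 := by
  constructor
  · intro hf v hv
    exact adicValuation_le_one_of_isIntegral v hv hf
  · intro h
    by_contra hf
    have hfR : f ∉ (integralClosure (Algebra.adjoin k {x}) F).toSubring := hf
    obtain ⟨V, hRV, hfV⟩ := Subring.exists_le_valuationSubring_of_isIntegrallyClosedIn hfR
    have hA : ∀ a : Algebra.adjoin k {x}, (a : F) ∈ V := fun a =>
      hRV ((integralClosure (Algebra.adjoin k {x}) F).algebraMap_mem a)
    have hK : ∀ c : k, algebraMap k F c ∈ V := fun c =>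
      hA ⟨algebraMap k F c, (Algebra.adjoin k {x}).algebraMap_mem c⟩
    have hxV : x ∈ V := hA ⟨x, Algebra.self_mem_adjoin_singleton k x⟩
    have hV : V ≠ ⊤ := by
      rintro rfl
      exact hfV (ValuationSubring.mem_top _)
    have h1 := h (helper7885.placeOfValuationSubring V x₀ hK hV)
      ((helper7885.mem_iff_adicValuation_le_one _).mp hxV)
    exact hfV ((helper7885.mem_iff_adicValuation_le_one
      (helper7885.placeOfValuationSubring V x₀ hK hV)).mpr h1)

/-- **The bridge as an equality of `k`-subalgebras**: any `k`-subalgebra `S` of `F` whose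
membership is "regular wherever `x` is regular" (e.g. `helper825.chartAlg k x`, with
`fun _ => Iff.rfl`) is the integral closure of `k[x]` in `F`. -/
theorem eq_integralClosure_of_mem_iff [IsAlgClosed k] (x₀ : F) [FiniteDimensional k⟮x₀⟯ F]
    (x : F) (S : Subalgebra k F)
    (hS : ∀ f : F, f ∈ S ↔ ∀ v : Place k F, v.adicValuation x ≤ 1 → v.adicValuation f ≤ 1) :
    S = (integralClosure (Algebra.adjoin k {x}) F).restrictScalars k := by
  refine SetLike.ext fun f => ?_
  rw [hS f, ← isIntegral_adjoin_iff_forall_place x₀ x f]
  exact Iff.rfl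

/-- Membership form of the bridge. -/
theorem mem_iff_isIntegral_of_mem_iff [IsAlgClosed k] (x₀ : F) [FiniteDimensional k⟮x₀⟯ F]
    (x : F) (S : Subalgebra k F)
    (hS : ∀ f : F, f ∈ S ↔ ∀ v : Place k F, v.adicValuation x ≤ 1 → v.adicValuation f ≤ 1)
    (f : F) : f ∈ S ↔ IsIntegral (Algebra.adjoin k {x}) f := by
  rw [hS f, ← isIntegral_adjoin_iff_forall_place x₀ x f]

end Bridge

/-! ### The chart ring as a subalgebra of an ambient field -/

section Ambient

variable {E : Type*} [Field E] [Algebra k E]

/-- A `k`-subalgebra `Bbar` of an ambient field `E` all of whose elements lie in the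
intermediate field `Fk`, mapped into `Fk` (e.g. `E = k((t))`, `Fk = modularFunctionFieldFullC`,
`Bbar` the chart ring of `helper2736.kron_conductor_modular`). -/
def inclField (Fk : IntermediateField k E) (Bbar : Subalgebra k E)
    (h : ∀ u ∈ Bbar, u ∈ Fk) : Bbar →ₐ[k] Fk :=
  Bbar.val.codRestrict Fk.toSubalgebra (fun u => h u u.2)

@[simp]
theorem coe_inclField (Fk : IntermediateField k E) (Bbar : Subalgebra k E)
    (h : ∀ u ∈ Bbar, u ∈ Fk) (u : Bbar) : ((inclField Fk Bbar h u : Fk) : E) = u := rfl

theorem inclField_injective (Fk : IntermediateField k E) (Bbar : Subalgebra k E)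
    (h : ∀ u ∈ Bbar, u ∈ Fk) : Function.Injective (inclField Fk Bbar h) := by
  intro u v huv
  apply Subtype.ext
  have := congrArg (fun z : Fk => (z : E)) huv
  simpa using this

end Ambient

end Fermat.Agent.S35.helper7984
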