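/-
S35/S34-CHARTPTS addendum (helper7984): the `hr` plug of `helper825.exists_node_places(_two_charts)`
for a chart ring presented as the IMAGE of an integral closure inside an ambient ring
(`helper6174.chartBar`, `helper2736` `kronBbar`, `helper4658.chartRingBar`).

* `exists_incl_of_image` : for `Fk : IntermediateField k E`, `x : Fk`, and `Bbar : Subalgebra k E`
  with `u ∈ Bbar ↔ ∃ f : Fk, (f : E) = u ∧ IsIntegral (Algebra.adjoin k {x}) f`, the inclusion
  `ι := inclField Fk Bbar _ : Bbar →ₐ[k] Fk` is injective, satisfies `((ι b : Fk) : E) = b`, and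
  its range is the valuation-defined chart ring of `x`:
  `(∀ v : Place k Fk, v.adicValuation x ≤ 1 → v.adicValuation f ≤ 1) ↔ ∃ b, ι b = f`
  (the left side is `f ∈ helper825.chartAlg k x` by `Iff.rfl`).
-/
import Mathlib
import Fermat.Agent.S35.helper7984_ChartPoints

set_option autoImplicit false

noncomputable section

namespace Fermat.Agent.S35.helper7984

open AlgebraicCurve IntermediateField

section ImageBridge

variable {k : Type*} [Field k] {E : Type*} [Field E] [Algebra k E]

/-- Elements of a subalgebra presented as the image of an integral closure lie in the field. -/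
theorem mem_of_image (Fk : IntermediateField k E) (x : Fk) (Bbar : Subalgebra k E)
    (hB : ∀ u : E, u ∈ Bbar ↔ ∃ f : Fk, (f : E) = u ∧ IsIntegral (Algebra.adjoin k {x}) f) :
    ∀ u ∈ Bbar, u ∈ Fk := by
  intro u hu
  obtain ⟨f, rfl, -⟩ := (hB u).mp hu
  exact f.2

/-- **The `hr` plug.**  A chart ring `Bbar ⊆ E` presented as the image of the integral closure of
`k[x]` in `Fk` is, through the inclusion `inclField`, the valuation-defined chart ring of `x`. -/
theorem exists_incl_of_image [IsAlgClosed k] (Fk : IntermediateField k E) (x₀ x : Fk)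
    [FiniteDimensional k⟮x₀⟯ Fk] (Bbar : Subalgebra k E)
    (hB : ∀ u : E, u ∈ Bbar ↔ ∃ f : Fk, (f : E) = u ∧ IsIntegral (Algebra.adjoin k {x}) f) :
    Function.Injective (inclField Fk Bbar (mem_of_image Fk x Bbar hB)) ∧
      (∀ b : Bbar, ((inclField Fk Bbar (mem_of_image Fk x Bbar hB) b : Fk) : E) = b) ∧
      ∀ f : Fk, (∀ v : Place k Fk, v.adicValuation x ≤ 1 → v.adicValuation f ≤ 1) ↔
        ∃ b : Bbar, inclField Fk Bbar (mem_of_image Fk x Bbar hB) b = f := by
  refine ⟨inclField_injective Fk Bbar _, fun b => rfl, fun f => ?_⟩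
  rw [← isIntegral_adjoin_iff_forall_place x₀ x f]
  constructor
  · intro hf
    refine ⟨⟨(f : E), (hB _).mpr ⟨f, rfl, hf⟩⟩, ?_⟩
    exact Subtype.ext rfl
  · rintro ⟨b, rfl⟩
    obtain ⟨g, hg, hgi⟩ := (hB _).mp b.2
    have : inclField Fk Bbar (mem_of_image Fk x Bbar hB) b = g := Subtype.ext hg.symm
    rw [this]
    exact hgi

end ImageBridge

end Fermat.Agent.S35.helper7984
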