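/-
S35/S34-KRON, part (B), instance for the landed Atkin–Lehner involution
`Fermat.Agent.S35.helper1219.atkinLehnerBarR M q h : FN (M * q) ≃ₐ[Kbar] FN (M * q)`
(`q`, `M` coprime):  the second Gauss valuation subring `v_0 = v_∞ ∘ W_q` of `FN (M * q)`, the
two-valuation ring, its double reduction, and the Kronecker conductor statement
`kron_conductor_atkinLehner` (no hypothesis on `W` left).

KRON-INST (second half of the file, literal level `q * M`, `W = helper1219.atkinLehnerBar q M h`,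
GaussPair vocabulary `helper882.gpRing / gpRingW / gpRho / gpRed`):
* `kronB A q M h t` : the chart ring `V_∞ ∩ V_0 ∩ icl ℚ̄[t]` of level `q * M`;
* `kronBbar k M tb` : the reduced chart ring `icl k[t̄] ⊆ F_k(M) ⊆ k((T))`;
* `kronR A q M h t tb` : the double reduction `red (kronB)` as a subalgebra of `B̄ × B̄`
  (`mem_kronR_iff` by `Iff.rfl`);
* `kron_chart` : the Kronecker conductor on one chart, `k`-point vocabulary (the inputs `hfst`,
  `hsnd`, `hJ` of `helper541.mem_iff_forall_node` / `helper825.exists_node_places`, the graph of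
  `F : u(T) ↦ u(T ^ q)` and its transpose in `R`, and the node lemma), from the chart suppliers
  (squeeze `hsurj`, chart integrality `hInt`, CUSPORD `hβ`).

KRON-NODES (last section): both charts `t`, `t⁻¹` assembled through
`helper6174.node_rr_package_of_unit`:
* `kron_nodes_general` : for a chart coordinate with integer unit expansion, ONE finite family
  of nodes `(P i, Q i)` of the special fibre with the node conditions `hnode`, `hK1`, `hK2` in
  Riemann–Roch form for the pole / zero divisors and the graph clause (FROB);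
* `kron_nodes_t2`, `kron_nodes_t3` : the same, unconditional, on the Hauptmodul charts
  (`r ∣ M`, `q ≠ r`) — the tail of `helper2039.Stmt_ChartNodesFrob`.
-/
import Fermat.Agent.S35.helper2736_KronModular
import Fermat.Agent.S35.helper1219_AtkinLehnerFF
import Fermat.Agent.S35.helper1928_ResField
import Fermat.Agent.S35.helper1549_ChartFin
import Fermat.Agent.S18.helper508_GaussBridge
import Fermat.Agent.S35.helper6174_ChartTransfer
import Fermat.Agent.S35.helper7984_ChartBridge
import Fermat.Agent.S35.helper4640_ChartElts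
import Fermat.Agent.S35.helper6381_SqueezeGP
import Fermat.Agent.S35.helper2459_KCGauss

set_option autoImplicit false

open ModularCurve HahnSeries

namespace Fermat.Agent.S35.helper2736

open Fermat.Agent.S18.helper8991 Fermat.Agent.S24.helper24

noncomputable section

variable (A : ValuationSubring Kbar) {k : Type*} [Field k] (π : A →+* k)
variable (M q : ℕ) [NeZero M] [NeZero q] (h : Nat.Coprime q M)

/-- The Atkin–Lehner involution `W_q` of level `M * q` as a ring endomorphism. -/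
def wqHom : FN (M * q) →+* FN (M * q) :=
  (helper1219.atkinLehnerBarR M q h : FN (M * q) →+* FN (M * q))

theorem wqHom_apply (z : FN (M * q)) : wqHom M q h z = helper1219.atkinLehnerBarR M q h z := rfl

theorem wqHom_wqHom (z : FN (M * q)) : wqHom M q h (wqHom M q h z) = z :=
  helper1219.atkinLehnerBarR_atkinLehnerBarR M q h z

theorem wqHom_heckeAlphaBar (y : FN M) :
    wqHom M q h (heckeAlphaBar Kbar M q y) = heckeBetaBar Kbar M q y :=
  helper1219.atkinLehnerBarR_heckeAlphaBar M q h y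

theorem wqHom_heckeBetaBar (y : FN M) :
    wqHom M q h (heckeBetaBar Kbar M q y) = heckeAlphaBar Kbar M q y :=
  helper1219.atkinLehnerBarR_heckeBetaBar M q h y

/-- The second Gauss valuation subring `v_0 = v_∞ ∘ W_q` of the function field of level `M q`. -/
def gaussFZero : ValuationSubring (FN (M * q)) :=
  (gaussF A π (M * q)).comap (wqHom M q h)

theorem mem_gaussFZero_iff (x : FN (M * q)) :
    x ∈ gaussFZero A π M q h ↔ wqHom M q h x ∈ gaussF A π (M * q) := Iff.rfl

/-- `W_q` exchanges the two Gauss valuation subrings. -/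
theorem wqHom_mem_gaussFZero_iff (x : FN (M * q)) :
    wqHom M q h x ∈ gaussFZero A π M q h ↔ x ∈ gaussF A π (M * q) := by
  rw [mem_gaussFZero_iff, wqHom_wqHom]

/-- The two-valuation ring is the intersection of the two Gauss valuation subrings. -/
theorem mem_gaussTwo_wqHom_iff (x : FN (M * q)) :
    x ∈ gaussTwo A π M q (wqHom M q h) ↔
      x ∈ gaussF A π (M * q) ∧ x ∈ gaussFZero A π M q h := Iff.rfl

/-- The two-valuation ring is stable under `W_q`. -/
theorem wqHom_mem_gaussTwo {x : FN (M * q)} (hx : x ∈ gaussTwo A π M q (wqHom M q h)) :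
    wqHom M q h x ∈ gaussTwo A π M q (wqHom M q h) :=
  ⟨hx.2, by
    show wqHom M q h (wqHom M q h x) ∈ gaussF A π (M * q)
    rw [wqHom_wqHom]; exact hx.1⟩

/-- `W_q` swaps the two components of the double reduction. -/
theorem gaussTwoRed_wqHom {x : FN (M * q)} (hx : x ∈ gaussTwo A π M q (wqHom M q h)) :
    gaussTwoRed A π M q (wqHom M q h) ⟨wqHom M q h x, wqHom_mem_gaussTwo A π M q h hx⟩ =
      ((gaussTwoRed A π M q (wqHom M q h) ⟨x, hx⟩).2,
        (gaussTwoRed A π M q (wqHom M q h) ⟨x, hx⟩).1) := by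
  rw [gaussTwoRed_apply, gaussTwoRed_apply]
  refine Prod.ext rfl ?_
  show gaussFRed A π (M * q) ⟨wqHom M q h (wqHom M q h x), _⟩ = gaussFRed A π (M * q) ⟨x, hx.1⟩
  congr 1
  exact Subtype.ext (wqHom_wqHom M q h x)

/-- **Kronecker conductor for `X₀(M q)`, `q ∤ M`** (S35/S34-KRON, part B, with the landed
Atkin–Lehner involution): see `kron_conductor_modular`. -/
theorem kron_conductor_atkinLehner (hq : q.Prime) [CharP k q]
    (B' : Subring (FN M)) (hB' : ∀ y ∈ B', y ∈ gaussF A π M)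
    (B : Subring (FN (M * q)))
    (hB : ∀ x ∈ B, x ∈ gaussF A π (M * q) ∧ x ∈ gaussFZero A π M q h)
    (hα : ∀ y ∈ B', heckeAlphaBar Kbar M q y ∈ B) (hβ : ∀ y ∈ B', heckeBetaBar Kbar M q y ∈ B)
    (Bbar : Subalgebra k (LaurentSeries k))
    (hsurj : ∀ u ∈ Bbar, ∃ y, ∃ hy : y ∈ B', gaussFRed A π M ⟨y, hB' y hy⟩ = u)
    (φ : k →+* k) (hφ : ∀ c, φ c ^ q = c) (hfrob : ∀ u ∈ Bbar, coeffMap φ u ∈ Bbar)
    (hfin : ∀ F : Bbar →ₐ[k] Bbar,
      (∀ u : Bbar, ((F u : Bbar) : LaurentSeries k) = qExpand k q (u : LaurentSeries k)) →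
      Algebra.EssFiniteType k (Bbar ⧸ fixedIdeal (F.comp F)))
    (R : Subalgebra k (Bbar × Bbar))
    (hR : ∀ x (hx : x ∈ B), ∃ r ∈ R, ((r.1 : LaurentSeries k), (r.2 : LaurentSeries k)) =
      (gaussFRed A π (M * q) ⟨x, (hB x hx).1⟩,
        gaussFRed A π (M * q) ⟨wqHom M q h x, (hB x hx).2⟩)) :
    ∃ F : Bbar →ₐ[k] Bbar,
      (∀ u : Bbar, ((F u : Bbar) : LaurentSeries k) = qExpand k q (u : LaurentSeries k)) ∧
      (∀ u, ∃ v, F u = v ^ q) ∧ (∀ u, (u, F u) ∈ R) ∧ (∀ u, (F u, u) ∈ R) ∧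
      (∀ a, ∃ b, (a, b) ∈ R) ∧ (∀ b, ∃ a, (a, b) ∈ R) ∧
      (fixedIdeal (F.comp F)).IsRadical ∧ Module.Finite k (Bbar ⧸ fixedIdeal (F.comp F)) ∧
      (∀ a ∈ fixedIdeal (F.comp F), (a, (0 : Bbar)) ∈ R) ∧
      (∀ b ∈ fixedIdeal (F.comp F), ((0 : Bbar), b) ∈ R) ∧
      (∀ a ∈ fixedIdeal (F.comp F), ∀ b ∈ fixedIdeal (F.comp F), (a, b) ∈ R) :=
  kron_conductor_modular A π M q hq (wqHom M q h) (wqHom_heckeAlphaBar M q h)
    (wqHom_heckeBetaBar M q h) B' hB' B hB hα hβ Bbar hsurj φ hφ hfrob hfin R hR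


section KronInst

open Polynomial

/-! ### Integrality over `K[x]`: transport lemmas -/

section IntLemmas

variable {K F F' : Type*} [Field K] [CommRing F] [CommRing F'] [Algebra K F] [Algebra K F']

/-- Integrality over `K[x]` as integrality of the ring homomorphism `p ↦ p(x)`. -/
theorem isIntegral_adjoin_iff (x u : F) :
    IsIntegral (Algebra.adjoin K {x}) u ↔
      ((aeval x : K[X] →ₐ[K] F) : K[X] →+* F).IsIntegralElem u := by
  let φ : K[X] →ₐ[K] Algebra.adjoin K {x} :=
    aeval ⟨x, Algebra.self_mem_adjoin_singleton K x⟩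
  have hφ : (algebraMap (Algebra.adjoin K {x}) F).comp (φ : K[X] →+* Algebra.adjoin K {x}) =
      ((aeval x : K[X] →ₐ[K] F) : K[X] →+* F) := by
    ext p
    · simp [φ]
    · simp [φ]
  have hsurj : Function.Surjective (φ : K[X] →+* Algebra.adjoin K {x}) := by
    rintro ⟨y, hy⟩
    rw [Algebra.adjoin_singleton_eq_range_aeval] at hy
    obtain ⟨p, rfl⟩ := hy
    refine ⟨p, Subtype.ext ?_⟩
    have := Subalgebra.aeval_coe (Algebra.adjoin K {x})
      ⟨x, Algebra.self_mem_adjoin_singleton K x⟩ p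
    exact this.symm
  constructor
  · rintro ⟨p, hpm, hp⟩
    obtain ⟨r, hr⟩ := Polynomial.map_surjective _ hsurj p
    obtain ⟨r', hr', -, hr'm⟩ := Polynomial.lifts_and_natDegree_eq_and_monic
      ((Polynomial.mem_lifts _).mpr ⟨r, hr⟩) hpm
    refine ⟨r', hr'm, ?_⟩
    rw [← hφ, ← Polynomial.eval₂_map, hr']
    exact hp
  · rintro ⟨r, hrm, hr⟩
    refine ⟨r.map (φ : K[X] →+* Algebra.adjoin K {x}), hrm.map _, ?_⟩
    rw [Polynomial.eval₂_map, hφ]
    exact hr

theorem aeval_comp_algHom (φ : F →ₐ[K] F') (x : F) :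
    ((aeval (φ x) : K[X] →ₐ[K] F') : K[X] →+* F') =
      (φ : F →+* F').comp ((aeval x : K[X] →ₐ[K] F) : K[X] →+* F) := by
  ext p
  · simp
  · simp

/-- Integrality over `K[x]` is transported by `K`-algebra homomorphisms. -/
theorem isIntegral_adjoin_map (φ : F →ₐ[K] F') {x u : F}
    (hu : IsIntegral (Algebra.adjoin K {x}) u) :
    IsIntegral (Algebra.adjoin K {φ x}) (φ u) := by
  rw [isIntegral_adjoin_iff] at hu ⊢
  obtain ⟨p, hp, hpu⟩ := hu
  refine ⟨p, hp, ?_⟩
  rw [aeval_comp_algHom, ← RingHom.coe_coe φ, ← Polynomial.hom_eval₂, hpu, map_zero]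

/-- ... and reflected by injective ones. -/
theorem isIntegral_adjoin_of_map (φ : F →ₐ[K] F') (hφ : Function.Injective φ) {x u : F}
    (hu : IsIntegral (Algebra.adjoin K {φ x}) (φ u)) :
    IsIntegral (Algebra.adjoin K {x}) u := by
  rw [isIntegral_adjoin_iff] at hu ⊢
  obtain ⟨p, hp, hpu⟩ := hu
  refine ⟨p, hp, hφ ?_⟩
  rw [aeval_comp_algHom, ← RingHom.coe_coe φ, ← Polynomial.hom_eval₂] at hpu
  rw [map_zero]
  exact hpu

/-- A root of a monic polynomial with coefficients in a subalgebra is integral over it. -/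
theorem isIntegral_of_monic_of_coeff_mem (S : Subalgebra K F) {u : F} (m : F[X]) (hm : m.Monic)
    (hc : ∀ i, m.coeff i ∈ S) (hu : m.eval u = 0) : IsIntegral S u := by
  have h1 : m ∈ lifts (algebraMap S F) :=
    (lifts_iff_coeff_lifts m).2 fun n => ⟨⟨m.coeff n, hc n⟩, rfl⟩
  obtain ⟨m', hm', -, hm'm⟩ := lifts_and_natDegree_eq_and_monic h1 hm
  refine ⟨m', hm'm, ?_⟩
  rw [← eval_map, hm']
  exact hu

/-- Transitivity: if `s` is integral over `K[t]` and `z` is integral over `K[s]`, then `z` is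
integral over `K[t]`. -/
theorem isIntegral_adjoin_trans {s t z : F} (hs : IsIntegral (Algebra.adjoin K {t}) s)
    (hz : IsIntegral (Algebra.adjoin K {s}) z) : IsIntegral (Algebra.adjoin K {t}) z := by
  obtain ⟨p, hp, hpz⟩ := (isIntegral_adjoin_iff s z).1 hz
  -- `z` is a root of the monic polynomial `p(s, Y)`, whose coefficients are integral over `K[t]`
  set C : Subalgebra (Algebra.adjoin K {t}) F := integralClosure (Algebra.adjoin K {t}) F
  have hcoef : ∀ c : K[X], aeval s c ∈ C := by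
    intro c
    rw [aeval_eq_sum_range]
    refine Subalgebra.sum_mem _ fun j _ => ?_
    rw [Algebra.smul_def]
    refine Subalgebra.mul_mem _ ?_ (Subalgebra.pow_mem _ hs j)
    have : algebraMap K F (c.coeff j) =
        algebraMap (Algebra.adjoin K {t}) F (algebraMap K (Algebra.adjoin K {t}) (c.coeff j)) :=
      rfl
    rw [this]
    exact Subalgebra.algebraMap_mem C _
  have hzC : IsIntegral C z := by
    refine ⟨p.map (RingHom.codRestrict ((aeval s : K[X] →ₐ[K] F) : K[X] →+* F) C.toSubring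
      hcoef), hp.map _, ?_⟩
    rw [Polynomial.eval₂_map]
    exact hpz
  have h2 : z ∈ integralClosure C F := hzC
  rw [integralClosure_idem] at h2
  obtain ⟨c, rfl⟩ := h2
  exact c.2

end IntLemmas


/-! ### Gauss rings and reductions depend only on the expansion -/

section Series

variable (A : ValuationSubring Kbar)

theorem mem_gpRing_of_coe_eq {N N' : ℕ} {z : FN N} {z' : FN N'}
    (e : (z' : LaurentSeries Kbar) = (z : LaurentSeries Kbar))
    (hz : z ∈ helper882.gpRing A N) : z' ∈ helper882.gpRing A N' := by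
  show (z' : LaurentSeries Kbar) ∈ gaussRing A (IsLocalRing.residue A)
  rw [e]
  exact hz

theorem gpRho_of_coe_eq {N N' : ℕ} {z : FN N} {z' : FN N'}
    (e : (z' : LaurentSeries Kbar) = (z : LaurentSeries Kbar)) :
    helper882.gpRho A N' z' = helper882.gpRho A N z := by
  by_cases hz : z ∈ helper882.gpRing A N
  · have hz' := mem_gpRing_of_coe_eq A e hz
    rw [helper882.gpRho_of_mem A N hz, helper882.gpRho_of_mem A N' hz']
    show gaussRho A (IsLocalRing.residue A) ⟨(z' : LaurentSeries Kbar), hz'⟩ =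
      gaussRho A (IsLocalRing.residue A) ⟨(z : LaurentSeries Kbar), hz⟩
    congr 1
    exact Subtype.ext e
  · have hz' : z' ∉ helper882.gpRing A N' := fun h => hz (mem_gpRing_of_coe_eq A e.symm h)
    unfold helper882.gpRho
    rw [dif_neg hz, dif_neg hz']

theorem mem_gpRing_of_coe_eq_qExpand {N N' : ℕ} (n : ℕ) [NeZero n] {z : FN N} {z' : FN N'}
    (e : (z' : LaurentSeries Kbar) = qExpand Kbar n (z : LaurentSeries Kbar))
    (hz : z ∈ helper882.gpRing A N) : z' ∈ helper882.gpRing A N' := by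
  show (z' : LaurentSeries Kbar) ∈ gaussRing A (IsLocalRing.residue A)
  rw [e]
  exact qExpand_mem_gaussRing A (IsLocalRing.residue A) n hz

theorem gpRho_of_coe_eq_qExpand {N N' : ℕ} (n : ℕ) [NeZero n] {z : FN N} {z' : FN N'}
    (e : (z' : LaurentSeries Kbar) = qExpand Kbar n (z : LaurentSeries Kbar))
    (hz : z ∈ helper882.gpRing A N) :
    helper882.gpRho A N' z' =
      qExpand (IsLocalRing.ResidueField A) n (helper882.gpRho A N z) := by
  have hz' := mem_gpRing_of_coe_eq_qExpand A n e hz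
  rw [helper882.gpRho_of_mem A N hz, helper882.gpRho_of_mem A N' hz']
  have h1 : gaussRho A (IsLocalRing.residue A) ⟨qExpand Kbar n (z : LaurentSeries Kbar),
      qExpand_mem_gaussRing A (IsLocalRing.residue A) n hz⟩ =
      qExpand (IsLocalRing.ResidueField A) n
        (gaussRho A (IsLocalRing.residue A) ⟨(z : LaurentSeries Kbar), hz⟩) :=
    gaussRho_qExpand A (IsLocalRing.residue A) n hz
  refine Eq.trans ?_ h1
  show gaussRho A (IsLocalRing.residue A) ⟨(z' : LaurentSeries Kbar), hz'⟩ = _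
  congr 1
  exact Subtype.ext e

/-- A root `x` of a monic polynomial whose coefficients are polynomials in `s` with coefficients
in `A` has a reduction integral over `k[s̄]`. -/
theorem gpRho_isIntegral_of_monic {N : ℕ} {s x : FN N} (hs : s ∈ helper882.gpRing A N)
    (hx : x ∈ helper882.gpRing A N) (m : (FN N)[X]) (hm : m.Monic)
    (hc : ∀ i, ∃ p : Kbar[X], (∀ j, p.coeff j ∈ A) ∧ m.coeff i = aeval s p)
    (hmx : aeval x m = 0) :
    IsIntegral (Algebra.adjoin (IsLocalRing.ResidueField A) {helper882.gpRho A N s})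
      (helper882.gpRho A N x) := by
  have hconst : ∀ c : Kbar, c ∈ A → algebraMap Kbar (FN N) c ∈ helper882.gpRing A N := fun c hc =>
    (algebraMap_mem_gaussF_iff A (IsLocalRing.residue A) N
      (fun a ha => (IsLocalRing.residue_eq_zero_iff a).mpr ha) c).mpr hc
  have hcV : ∀ i, m.coeff i ∈ helper882.gpRing A N := by
    intro i
    obtain ⟨p, hp, e⟩ := hc i
    rw [e, aeval_eq_sum_range]
    refine sum_mem fun j _ => ?_
    rw [Algebra.smul_def]
    exact mul_mem (hconst _ (hp j)) (pow_mem hs j)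
  have h1 : m ∈ lifts (helper882.gpRing A N).subtype :=
    (lifts_iff_coeff_lifts m).2 fun n => ⟨⟨m.coeff n, hcV n⟩, rfl⟩
  obtain ⟨m', hm', -, hm'm⟩ := lifts_and_natDegree_eq_and_monic h1 hm
  have h2 : eval (⟨x, hx⟩ : helper882.gpRing A N) m' = 0 := by
    apply Subtype.ext
    have h3 : (helper882.gpRing A N).subtype (eval (⟨x, hx⟩ : helper882.gpRing A N) m') =
        eval₂ (helper882.gpRing A N).subtype x m' :=
      (eval₂_at_apply (helper882.gpRing A N).subtype (⟨x, hx⟩ : helper882.gpRing A N)).symm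
    have h4 : eval₂ (helper882.gpRing A N).subtype x m' = 0 := by
      rw [← eval_map, hm', ← coe_aeval_eq_eval]
      exact hmx
    exact h3.trans h4
  set ρ := gaussFRed A (IsLocalRing.residue A) N with hρ
  have h5 : eval (ρ ⟨x, hx⟩) (m'.map ρ) = 0 := by
    rw [eval_map, eval₂_at_apply, h2, map_zero]
  have hρs : helper882.gpRho A N s = ρ ⟨s, hs⟩ := helper882.gpRho_of_mem A N hs
  have hρx : helper882.gpRho A N x = ρ ⟨x, hx⟩ := helper882.gpRho_of_mem A N hx
  rw [hρx]
  refine isIntegral_of_monic_of_coeff_mem _ (m'.map ρ) (hm'm.map ρ) (fun i => ?_) h5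
  rw [coeff_map]
  obtain ⟨p, hp, e⟩ := hc i
  have h6 : m'.coeff i = ∑ j ∈ Finset.range (p.natDegree + 1),
      (⟨algebraMap Kbar (FN N) (p.coeff j), hconst _ (hp j)⟩ : helper882.gpRing A N) *
        (⟨s, hs⟩ : helper882.gpRing A N) ^ j := by
    apply Subtype.ext
    have h7 : ((m'.coeff i : helper882.gpRing A N) : FN N) = m.coeff i := by
      rw [← hm', coeff_map]
      rfl
    rw [h7, e, aeval_eq_sum_range]
    have h8 : ∀ z : helper882.gpRing A N, (z : FN N) = (helper882.gpRing A N).subtype z :=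
      fun _ => rfl
    rw [h8, map_sum]
    refine Finset.sum_congr rfl fun j _ => ?_
    rw [map_mul, map_pow, Algebra.smul_def]
    rfl
  rw [h6, map_sum]
  refine Subalgebra.sum_mem _ fun j _ => ?_
  rw [map_mul, map_pow]
  refine Subalgebra.mul_mem _ ?_ (Subalgebra.pow_mem _ ?_ j)
  · have h9 := helper882.gpRho_algebraMap A N (hp j)
    rw [helper882.gpRho_of_mem A N (hconst _ (hp j))] at h9
    rw [hρ, h9]
    exact Subalgebra.algebraMap_mem _ _
  · rw [hρs]
    exact Algebra.self_mem_adjoin_singleton _ _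

end Series


/-! ### The chart rings -/

section ChartDefs

/-- The reduced chart ring: the elements of the special fibre `F_k(M) ⊆ k((T))` integral over
`k[t̄]`. -/
def kronBbar (k : Type*) [Field k] (M : ℕ) [NeZero M] (tb : modularFunctionFieldFullC k M) :
    Subalgebra k (LaurentSeries k) :=
  ((integralClosure (Algebra.adjoin k {tb}) (modularFunctionFieldFullC k M)).restrictScalars k).map
    (modularFunctionFieldFullC k M).val

theorem mem_kronBbar_iff {k : Type*} [Field k] {M : ℕ} [NeZero M]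
    {tb : modularFunctionFieldFullC k M} {u : LaurentSeries k} :
    u ∈ kronBbar k M tb ↔ ∃ f : modularFunctionFieldFullC k M,
      (f : LaurentSeries k) = u ∧ IsIntegral (Algebra.adjoin k {tb}) f := by
  constructor
  · rintro ⟨f, hf, rfl⟩
    exact ⟨f, rfl, hf⟩
  · rintro ⟨f, rfl, hf⟩
    exact ⟨f, hf, rfl⟩

/-- The reduced chart ring is stable under a coefficientwise endomorphism fixing `t̄` (the
hypothesis `hfrob` of `kron_conductor_modular`). -/
theorem coeffMap_mem_kronBbar {k : Type*} [Field k] {M : ℕ} [NeZero M] (φ : k →+* k)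
    (tb : modularFunctionFieldFullC k M) (htb : coeffMap φ (tb : LaurentSeries k) = tb) :
    ∀ u ∈ kronBbar k M tb, coeffMap φ u ∈ kronBbar k M tb := by
  intro u hu
  obtain ⟨f, rfl, hf⟩ := mem_kronBbar_iff.mp hu
  have hmem : coeffMap φ (f : LaurentSeries k) ∈ modularFunctionFieldFullC k M :=
    Fermat.Agent.S18.helper508.coeffMap_mem_fullC φ M f.2
  refine mem_kronBbar_iff.mpr ⟨⟨_, hmem⟩, rfl, ?_⟩
  refine isIntegral_adjoin_of_map (modularFunctionFieldFullC k M).val Subtype.val_injective ?_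
  show IsIntegral (Algebra.adjoin k {(tb : LaurentSeries k)}) (coeffMap φ (f : LaurentSeries k))
  have h1 : IsIntegral (Algebra.adjoin k {(tb : LaurentSeries k)}) (f : LaurentSeries k) :=
    isIntegral_adjoin_map (modularFunctionFieldFullC k M).val hf
  obtain ⟨p, hp, hpf⟩ := (isIntegral_adjoin_iff _ _).1 h1
  rw [isIntegral_adjoin_iff]
  refine ⟨p.map (Polynomial.mapRingHom φ), hp.map _, ?_⟩
  rw [eval₂_map]
  have h2 : ((aeval (tb : LaurentSeries k) : k[X] →ₐ[k] LaurentSeries k) :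
      k[X] →+* LaurentSeries k).comp (Polynomial.mapRingHom φ) =
      (coeffMap φ).comp ((aeval (tb : LaurentSeries k) : k[X] →ₐ[k] LaurentSeries k) :
        k[X] →+* LaurentSeries k) := by
    ext c
    · simp [coeffMap_algebraMap]
    · simp [htb]
  rw [h2, ← Polynomial.hom_eval₂, hpf, map_zero]

variable (A : ValuationSubring Kbar) (q M : ℕ) [NeZero q] [NeZero M] (h : Nat.Coprime q M)

/-- The chart ring of level `q * M`: the functions in both Gauss rings `V_∞`, `V_0 = W⁻¹ V_∞`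
that are integral over `ℚ̄[t]`. -/
def kronB (t : FN (q * M)) : Subring (FN (q * M)) where
  carrier := {x | x ∈ helper882.gpRing A (q * M) ∧
    x ∈ helper882.gpRingW A (q * M) (helper1219.atkinLehnerBar q M h) ∧
    IsIntegral (Algebra.adjoin Kbar {t}) x}
  mul_mem' := fun {a b} ha hb => ⟨mul_mem ha.1 hb.1, mul_mem ha.2.1 hb.2.1, ha.2.2.mul hb.2.2⟩
  one_mem' := ⟨one_mem _, one_mem _, isIntegral_one⟩
  add_mem' := fun {a b} ha hb => ⟨add_mem ha.1 hb.1, add_mem ha.2.1 hb.2.1, ha.2.2.add hb.2.2⟩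
  zero_mem' := ⟨zero_mem _, zero_mem _, isIntegral_zero⟩
  neg_mem' := fun {a} ha => ⟨neg_mem ha.1, neg_mem ha.2.1, ha.2.2.neg⟩

theorem mem_kronB_iff {t x : FN (q * M)} :
    x ∈ kronB A q M h t ↔ x ∈ helper882.gpRing A (q * M) ∧
      helper1219.atkinLehnerBar q M h x ∈ helper882.gpRing A (q * M) ∧
      IsIntegral (Algebra.adjoin Kbar {t}) x := Iff.rfl

/-- The chart ring of level `M`: Gauss-integral functions integral over `ℚ̄[t']`. -/
def kronB' (t' : FN M) : Subring (FN M) where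
  carrier := {y | y ∈ helper882.gpRing A M ∧ IsIntegral (Algebra.adjoin Kbar {t'}) y}
  mul_mem' := fun {a b} ha hb => ⟨mul_mem ha.1 hb.1, ha.2.mul hb.2⟩
  one_mem' := ⟨one_mem _, isIntegral_one⟩
  add_mem' := fun {a b} ha hb => ⟨add_mem ha.1 hb.1, ha.2.add hb.2⟩
  zero_mem' := ⟨zero_mem _, isIntegral_zero⟩
  neg_mem' := fun {a} ha => ⟨neg_mem ha.1, ha.2.neg⟩

theorem gpRed_mul_of_mem {N : ℕ} (W : FN N ≃ₐ[Kbar] FN N) {x y : FN N}
    (hx : x ∈ helper882.gpRing A N) (hx' : W x ∈ helper882.gpRing A N)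
    (hy : y ∈ helper882.gpRing A N) (hy' : W y ∈ helper882.gpRing A N) :
    helper882.gpRed A N W (x * y) = helper882.gpRed A N W x * helper882.gpRed A N W y := by
  refine Prod.ext (helper882.gpRho_mul A N hx hy) ?_
  show helper882.gpRho A N (W (x * y)) = _
  rw [map_mul]
  exact helper882.gpRho_mul A N hx' hy'

theorem gpRed_add_of_mem {N : ℕ} (W : FN N ≃ₐ[Kbar] FN N) {x y : FN N}
    (hx : x ∈ helper882.gpRing A N) (hx' : W x ∈ helper882.gpRing A N)
    (hy : y ∈ helper882.gpRing A N) (hy' : W y ∈ helper882.gpRing A N) :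
    helper882.gpRed A N W (x + y) = helper882.gpRed A N W x + helper882.gpRed A N W y := by
  refine Prod.ext (helper882.gpRho_add A N hx hy) ?_
  show helper882.gpRho A N (W (x + y)) = _
  rw [map_add]
  exact helper882.gpRho_add A N hx' hy'

/-- The double reduction `red (B)` of the chart ring, as a subalgebra of `B̄ × B̄`. -/
def kronR (t : FN (q * M)) (tb : modularFunctionFieldFullC (IsLocalRing.ResidueField A) M) :
    Subalgebra (IsLocalRing.ResidueField A)
      (kronBbar (IsLocalRing.ResidueField A) M tb × kronBbar (IsLocalRing.ResidueField A) M tb) where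
  carrier := {r | ∃ x ∈ kronB A q M h t,
    helper882.gpRed A (q * M) (helper1219.atkinLehnerBar q M h) x =
      ((r.1 : LaurentSeries (IsLocalRing.ResidueField A)),
        (r.2 : LaurentSeries (IsLocalRing.ResidueField A)))}
  mul_mem' := by
    rintro _ _ ⟨x, hx, ex⟩ ⟨y, hy, ey⟩
    refine ⟨x * y, mul_mem hx hy, ?_⟩
    rw [gpRed_mul_of_mem A _ hx.1 hx.2.1 hy.1 hy.2.1, ex, ey]
    rfl
  add_mem' := by
    rintro _ _ ⟨x, hx, ex⟩ ⟨y, hy, ey⟩
    refine ⟨x + y, add_mem hx hy, ?_⟩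
    rw [gpRed_add_of_mem A _ hx.1 hx.2.1 hy.1 hy.2.1, ex, ey]
    rfl
  algebraMap_mem' := by
    intro c
    obtain ⟨a, rfl⟩ := IsLocalRing.residue_surjective c
    have ha : algebraMap Kbar (FN (q * M)) (a : Kbar) ∈ helper882.gpRing A (q * M) :=
      (algebraMap_mem_gaussF_iff A (IsLocalRing.residue A) (q * M)
        (fun a ha => (IsLocalRing.residue_eq_zero_iff a).mpr ha) _).mpr a.2
    have hW : helper1219.atkinLehnerBar q M h (algebraMap Kbar (FN (q * M)) (a : Kbar)) =
        algebraMap Kbar (FN (q * M)) (a : Kbar) := AlgEquiv.commutes _ _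
    refine ⟨algebraMap Kbar (FN (q * M)) (a : Kbar), ⟨ha, ?_, ?_⟩, ?_⟩
    · show helper1219.atkinLehnerBar q M h (algebraMap Kbar (FN (q * M)) (a : Kbar)) ∈
        helper882.gpRing A (q * M)
      rw [hW]
      exact ha
    · exact isIntegral_algebraMap (R := Algebra.adjoin Kbar {t})
        (x := algebraMap Kbar (Algebra.adjoin Kbar {t}) (a : Kbar))
    · refine Prod.ext ?_ ?_
      · show helper882.gpRho A (q * M) (algebraMap Kbar (FN (q * M)) (a : Kbar)) = _
        rw [helper882.gpRho_algebraMap A (q * M) a.2]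
        rfl
      · show helper882.gpRho A (q * M)
          (helper1219.atkinLehnerBar q M h (algebraMap Kbar (FN (q * M)) (a : Kbar))) = _
        rw [hW, helper882.gpRho_algebraMap A (q * M) a.2]
        rfl

theorem mem_kronR_iff {t : FN (q * M)}
    {tb : modularFunctionFieldFullC (IsLocalRing.ResidueField A) M}
    {r : kronBbar (IsLocalRing.ResidueField A) M tb × kronBbar (IsLocalRing.ResidueField A) M tb} :
    r ∈ kronR A q M h t tb ↔ ∃ x ∈ kronB A q M h t,
      helper882.gpRed A (q * M) (helper1219.atkinLehnerBar q M h) x =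
        ((r.1 : LaurentSeries (IsLocalRing.ResidueField A)),
          (r.2 : LaurentSeries (IsLocalRing.ResidueField A))) := Iff.rfl

end ChartDefs


/-! ### The chart instance of the Kronecker conductor -/

section ChartInstance

variable (A : ValuationSubring Kbar) (q M : ℕ) [NeZero q] [NeZero M] (h : Nat.Coprime q M)

theorem atkinLehnerBar_castFN (z : FN (M * q)) :
    helper1219.atkinLehnerBar q M h (helper1219.castFN (mul_comm M q) z) =
      helper1219.castFN (mul_comm M q) (helper1219.atkinLehnerBarR M q h z) := by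
  rw [helper1219.atkinLehnerBarR_apply, helper1219.castFN_castFN]

/-- **KRON-INST, one chart, `k`-point vocabulary.** -/
theorem kron_chart (hq : q.Prime) (hA : (q : Kbar) ∈ A.nonunits)
    (t' : FN M) (ht'V : t' ∈ helper882.gpRing A M) (t tq : FN (q * M))
    (ht : (t : LaurentSeries Kbar) = (t' : LaurentSeries Kbar))
    (htq : (tq : LaurentSeries Kbar) = qExpand Kbar q (t' : LaurentSeries Kbar))
    (tb : modularFunctionFieldFullC (IsLocalRing.ResidueField A) M)
    (htb : (tb : LaurentSeries (IsLocalRing.ResidueField A)) = helper882.gpRho A M t')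
    (htbq : qExpand (IsLocalRing.ResidueField A) q
      (tb : LaurentSeries (IsLocalRing.ResidueField A)) =
        (tb : LaurentSeries (IsLocalRing.ResidueField A)) ^ q)
    (htr : Transcendental (IsLocalRing.ResidueField A) tb)
    (hsurj : ∀ u : modularFunctionFieldFullC (IsLocalRing.ResidueField A) M,
      IsIntegral (Algebra.adjoin (IsLocalRing.ResidueField A) {tb}) u →
      ∃ y : FN M, y ∈ helper882.gpRing A M ∧ IsIntegral (Algebra.adjoin Kbar {t'}) y ∧
        helper882.gpRho A M y = (u : LaurentSeries (IsLocalRing.ResidueField A)))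
    (hInt : ∀ x : FN (q * M), x ∈ helper882.gpRing A (q * M) →
      x ∈ helper882.gpRingW A (q * M) (helper1219.atkinLehnerBar q M h) →
      IsIntegral (Algebra.adjoin Kbar {t}) x →
      ∃ m : (FN (q * M))[X], m.Monic ∧
        (∀ i, ∃ p : Kbar[X], (∀ j, p.coeff j ∈ A) ∧ m.coeff i = aeval t p) ∧ aeval x m = 0)
    (hβ : IsIntegral (Algebra.adjoin Kbar {t}) tq) :
    (∀ x ∈ kronB A q M h t,
      helper882.gpRho A (q * M) x ∈ kronBbar (IsLocalRing.ResidueField A) M tb ∧
      helper882.gpRho A (q * M) (helper1219.atkinLehnerBar q M h x) ∈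
        kronBbar (IsLocalRing.ResidueField A) M tb) ∧
    ∃ (F : kronBbar (IsLocalRing.ResidueField A) M tb →ₐ[IsLocalRing.ResidueField A]
        kronBbar (IsLocalRing.ResidueField A) M tb)
      (S : Finset (kronBbar (IsLocalRing.ResidueField A) M tb →ₐ[IsLocalRing.ResidueField A]
        IsLocalRing.ResidueField A)),
      (∀ u : kronBbar (IsLocalRing.ResidueField A) M tb,
        ((F u : kronBbar (IsLocalRing.ResidueField A) M tb) :
          LaurentSeries (IsLocalRing.ResidueField A)) =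
          qExpand (IsLocalRing.ResidueField A) q
            (u : LaurentSeries (IsLocalRing.ResidueField A))) ∧
      (∀ u, ∃ v, F u = v ^ q) ∧
      (∀ P, P ∈ S ↔ P.comp (F.comp F) = P) ∧
      (∀ u, (u, F u) ∈ kronR A q M h t tb) ∧ (∀ u, (F u, u) ∈ kronR A q M h t tb) ∧
      (∀ a, ∃ r ∈ kronR A q M h t tb, r.1 = a) ∧ (∀ b, ∃ r ∈ kronR A q M h t tb, r.2 = b) ∧
      (∀ x : kronBbar (IsLocalRing.ResidueField A) M tb × kronBbar (IsLocalRing.ResidueField A) M tb,
        (∀ φ ∈ S, φ x.1 = 0) → (∀ ψ ∈ S, ψ x.2 = 0) → x ∈ kronR A q M h t tb) ∧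
      ∀ p : (kronBbar (IsLocalRing.ResidueField A) M tb →ₐ[IsLocalRing.ResidueField A]
          IsLocalRing.ResidueField A) ×
        (kronBbar (IsLocalRing.ResidueField A) M tb →ₐ[IsLocalRing.ResidueField A]
          IsLocalRing.ResidueField A),
        (∀ r ∈ kronR A q M h t tb, p.1 r.1 = p.2 r.2) →
          p.1 = p.2.comp F ∧ p.2 = p.1.comp F ∧ p.1 ∈ S ∧ p.2 ∈ S := by
  classical
  have hqM : ¬ q ∣ M := fun hd => hq.one_lt.ne' (Nat.Coprime.eq_one_of_dvd h hd)
  haveI : Fact q.Prime := ⟨hq⟩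
  haveI : CharP (IsLocalRing.ResidueField A) q :=
    Fermat.Agent.S18.helper508.charP_residueField q A hA
  haveI : IsAlgClosed (IsLocalRing.ResidueField A) :=
    Fermat.Agent.Lib.helper6879.isAlgClosed_residueField A
  haveI : ExpChar (IsLocalRing.ResidueField A) q := ExpChar.prime hq
  haveI : CharP (LaurentSeries (IsLocalRing.ResidueField A)) q :=
    charP_of_injective_algebraMap
      (algebraMap (IsLocalRing.ResidueField A)
        (LaurentSeries (IsLocalRing.ResidueField A))).injective q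
  haveI : ExpChar (LaurentSeries (IsLocalRing.ResidueField A)) q := ExpChar.prime hq
  -- the inverse Frobenius
  set φ : IsLocalRing.ResidueField A →+* IsLocalRing.ResidueField A :=
    ((frobeniusEquiv (IsLocalRing.ResidueField A) q).symm :
      IsLocalRing.ResidueField A →+* IsLocalRing.ResidueField A) with hφdef
  have hφ : ∀ c, φ c ^ q = c := fun c =>
    frobeniusEquiv_symm_pow_p (IsLocalRing.ResidueField A) q c
  have hφtb : coeffMap φ (tb : LaurentSeries (IsLocalRing.ResidueField A)) = tb := by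
    have h1 := Fermat.Agent.Lib.helper7516.qExpand_coeffMap_frobenius q
      (coeffMap φ (tb : LaurentSeries (IsLocalRing.ResidueField A)))
    rw [coeffMap_coeffMap] at h1
    have h2 : (frobenius (IsLocalRing.ResidueField A) q).comp φ =
        RingHom.id (IsLocalRing.ResidueField A) := by
      ext c
      simp [frobenius_def, hφ]
    rw [coeffMap_congr h2, coeffMap_id, htbq] at h1
    exact (frobenius_inj (LaurentSeries (IsLocalRing.ResidueField A)) q h1).symm
  -- the chart coordinates at level `q * M`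
  have ht1 : t ∈ helper882.gpRing A (q * M) := mem_gpRing_of_coe_eq A ht ht'V
  have htq1 : tq ∈ helper882.gpRing A (q * M) := mem_gpRing_of_coe_eq_qExpand A q htq ht'V
  have hρt : helper882.gpRho A (q * M) t = tb := (gpRho_of_coe_eq A ht).trans htb.symm
  have hρtq : helper882.gpRho A (q * M) tq =
      (tb : LaurentSeries (IsLocalRing.ResidueField A)) ^ q := by
    rw [gpRho_of_coe_eq_qExpand A q htq ht'V, ← htb, htbq]
  have e1 : t = helper1219.castFN (mul_comm M q) (heckeAlphaBar Kbar M q t') :=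
    Subtype.ext (by rw [helper1219.coe_castFN, coe_heckeAlphaBar]; exact ht)
  have e2 : tq = helper1219.castFN (mul_comm M q) (heckeBetaBar Kbar M q t') :=
    Subtype.ext (by rw [helper1219.coe_castFN, coe_heckeBetaBar]; exact htq)
  have hWt : helper1219.atkinLehnerBar q M h t = tq := by
    rw [e1, e2, atkinLehnerBar_castFN, helper1219.atkinLehnerBarR_heckeAlphaBar]
  -- reductions of the chart ring
  have hred : ∀ x ∈ kronB A q M h t,
      helper882.gpRho A (q * M) x ∈ kronBbar (IsLocalRing.ResidueField A) M tb ∧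
      helper882.gpRho A (q * M) (helper1219.atkinLehnerBar q M h x) ∈
        kronBbar (IsLocalRing.ResidueField A) M tb := by
    rintro x ⟨hx1, hx2, hx3⟩
    obtain ⟨m, hm, hc, hmx⟩ := hInt x hx1 hx2 hx3
    have i1 := gpRho_isIntegral_of_monic A ht1 hx1 m hm hc hmx
    rw [hρt] at i1
    have hmW : aeval (helper1219.atkinLehnerBar q M h x)
        (m.map ((helper1219.atkinLehnerBar q M h : FN (q * M) ≃ₐ[Kbar] FN (q * M)) :
          FN (q * M) →+* FN (q * M))) = 0 := by
      rw [coe_aeval_eq_eval, eval_map]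
      have h3 := eval₂_at_apply (p := m)
        ((helper1219.atkinLehnerBar q M h : FN (q * M) ≃ₐ[Kbar] FN (q * M)) :
          FN (q * M) →+* FN (q * M)) x
      rw [coe_aeval_eq_eval] at hmx
      rw [hmx, map_zero] at h3
      exact h3
    have hcW : ∀ i, ∃ p : Kbar[X], (∀ j, p.coeff j ∈ A) ∧
        (m.map ((helper1219.atkinLehnerBar q M h : FN (q * M) ≃ₐ[Kbar] FN (q * M)) :
          FN (q * M) →+* FN (q * M))).coeff i = aeval tq p := by
      intro i
      obtain ⟨p, hp, e⟩ := hc i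
      refine ⟨p, hp, ?_⟩
      rw [coeff_map, e, ← hWt]
      exact (aeval_algHom_apply
        ((helper1219.atkinLehnerBar q M h : FN (q * M) ≃ₐ[Kbar] FN (q * M)) :
          FN (q * M) →ₐ[Kbar] FN (q * M)) t p).symm
    have i2 := gpRho_isIntegral_of_monic A htq1 hx2 _ (hm.map _) hcW hmW
    rw [hρtq] at i2
    have i3 : IsIntegral (Algebra.adjoin (IsLocalRing.ResidueField A)
        {(tb : LaurentSeries (IsLocalRing.ResidueField A))})
        ((tb : LaurentSeries (IsLocalRing.ResidueField A)) ^ q) :=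
      IsIntegral.pow (isIntegral_algebraMap (R := Algebra.adjoin (IsLocalRing.ResidueField A)
        {(tb : LaurentSeries (IsLocalRing.ResidueField A))})
        (x := ⟨_, Algebra.self_mem_adjoin_singleton _ _⟩)) q
    have i2' := isIntegral_adjoin_trans i3 i2
    obtain ⟨m1, m2⟩ := helper1928.gpRed_mem_fullC q M hqM A hA (helper1219.atkinLehnerBar q M h) x
    exact ⟨mem_kronBbar_iff.mpr ⟨⟨_, m1⟩, rfl,
        isIntegral_adjoin_of_map (modularFunctionFieldFullC (IsLocalRing.ResidueField A) M).val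
          Subtype.val_injective i1⟩,
      mem_kronBbar_iff.mpr ⟨⟨_, m2⟩, rfl,
        isIntegral_adjoin_of_map (modularFunctionFieldFullC (IsLocalRing.ResidueField A) M).val
          Subtype.val_injective i2'⟩⟩
  -- the hypotheses of `kron_conductor_modular`
  have hB' : ∀ y ∈ kronB' A M t', y ∈ gaussF A (IsLocalRing.residue A) M := fun y hy => hy.1
  set BR : Subring (FN (M * q)) := (kronB A q M h t).comap
    ((helper1219.castFN (mul_comm M q) : FN (M * q) ≃ₐ[Kbar] FN (q * M)) :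
      FN (M * q) →+* FN (q * M)) with hBR
  have hBRmem : ∀ x : FN (M * q), x ∈ BR ↔
      helper1219.castFN (mul_comm M q) x ∈ kronB A q M h t := fun x => Iff.rfl
  have hB : ∀ x ∈ BR, x ∈ gaussTwo A (IsLocalRing.residue A) M q (wqHom M q h) := by
    intro x hx
    obtain ⟨h1, h2, -⟩ := (hBRmem x).mp hx
    refine ⟨mem_gpRing_of_coe_eq A (helper1219.coe_castFN (mul_comm M q) x).symm h1, ?_⟩
    have h3 : helper1219.atkinLehnerBar q M h (helper1219.castFN (mul_comm M q) x) ∈
        helper882.gpRing A (q * M) := h2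
    rw [atkinLehnerBar_castFN] at h3
    exact mem_gpRing_of_coe_eq A (helper1219.coe_castFN (mul_comm M q) _).symm h3
  have hα : ∀ y ∈ kronB' A M t', heckeAlphaBar Kbar M q y ∈ BR := by
    rintro y ⟨hy1, hy2⟩
    rw [hBRmem]
    refine ⟨mem_gpRing_of_coe_eq A (by rw [helper1219.coe_castFN, coe_heckeAlphaBar]) hy1, ?_, ?_⟩
    · show helper1219.atkinLehnerBar q M h _ ∈ helper882.gpRing A (q * M)
      rw [atkinLehnerBar_castFN, helper1219.atkinLehnerBarR_heckeAlphaBar]
      exact mem_gpRing_of_coe_eq_qExpand A q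
        (by rw [helper1219.coe_castFN, coe_heckeBetaBar]) hy1
    · rw [e1]
      exact isIntegral_adjoin_map
        (((helper1219.castFN (mul_comm M q) : FN (M * q) ≃ₐ[Kbar] FN (q * M)) :
          FN (M * q) →ₐ[Kbar] FN (q * M)).comp (heckeAlphaBar Kbar M q)) hy2
  have hβ' : ∀ y ∈ kronB' A M t', heckeBetaBar Kbar M q y ∈ BR := by
    rintro y ⟨hy1, hy2⟩
    rw [hBRmem]
    refine ⟨mem_gpRing_of_coe_eq_qExpand A q
      (by rw [helper1219.coe_castFN, coe_heckeBetaBar]) hy1, ?_, ?_⟩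
    · show helper1219.atkinLehnerBar q M h _ ∈ helper882.gpRing A (q * M)
      rw [atkinLehnerBar_castFN, helper1219.atkinLehnerBarR_heckeBetaBar]
      exact mem_gpRing_of_coe_eq A (by rw [helper1219.coe_castFN, coe_heckeAlphaBar]) hy1
    · have h4 : IsIntegral (Algebra.adjoin Kbar {tq})
          (helper1219.castFN (mul_comm M q) (heckeBetaBar Kbar M q y)) := by
        rw [e2]
        exact isIntegral_adjoin_map
          (((helper1219.castFN (mul_comm M q) : FN (M * q) ≃ₐ[Kbar] FN (q * M)) :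
            FN (M * q) →ₐ[Kbar] FN (q * M)).comp (heckeBetaBar Kbar M q)) hy2
      exact isIntegral_adjoin_trans hβ h4
  have hsurj' : ∀ u ∈ kronBbar (IsLocalRing.ResidueField A) M tb, ∃ y,
      ∃ hy : y ∈ kronB' A M t', gaussFRed A (IsLocalRing.residue A) M ⟨y, hB' y hy⟩ = u := by
    intro u hu
    obtain ⟨f, rfl, hf⟩ := mem_kronBbar_iff.mp hu
    obtain ⟨y, hy1, hy2, hy3⟩ := hsurj f hf
    exact ⟨y, ⟨hy1, hy2⟩, by rw [← helper882.gpRho_of_mem A M hy1]; exact hy3⟩
  have htb0 : tb ≠ 0 := fun h0 => htr (h0 ▸ isAlgebraic_zero)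
  have hu₀ : (tb : LaurentSeries (IsLocalRing.ResidueField A)) ∈
      kronBbar (IsLocalRing.ResidueField A) M tb :=
    mem_kronBbar_iff.mpr ⟨tb, rfl, isIntegral_algebraMap
      (R := Algebra.adjoin (IsLocalRing.ResidueField A) {tb})
      (x := ⟨tb, Algebra.self_mem_adjoin_singleton _ _⟩)⟩
  obtain ⟨m₀, hm₀, hcoeff⟩ := helper1549.exists_coeff_ne_zero_of_ne_C
    (tb : LaurentSeries (IsLocalRing.ResidueField A)) (fun c hc => htr (by
      have h5 : tb = algebraMap (IsLocalRing.ResidueField A)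
          (modularFunctionFieldFullC (IsLocalRing.ResidueField A) M) c :=
        Subtype.ext (by
          rw [hc, HahnSeries.C_apply]
          exact (algebraMap_laurentSeries_eq_single _ c).symm)
      rw [h5]
      exact isAlgebraic_algebraMap c))
  have hfin := helper1549.essFiniteType_fixedIdeal_residue M hq hqM A hA htb0
    (kronBbar (IsLocalRing.ResidueField A) M tb) (fun u hu => mem_kronBbar_iff.mp hu) hu₀
    hm₀ hcoeff
  have hR : ∀ x (hx : x ∈ BR), ∃ r ∈ kronR A q M h t tb,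
      ((r.1 : LaurentSeries (IsLocalRing.ResidueField A)),
        (r.2 : LaurentSeries (IsLocalRing.ResidueField A))) =
      gaussTwoRed A (IsLocalRing.residue A) M q (wqHom M q h) ⟨x, hB x hx⟩ := by
    intro x hx
    have hx' : helper1219.castFN (mul_comm M q) x ∈ kronB A q M h t := (hBRmem x).mp hx
    obtain ⟨b1, b2⟩ := hred _ hx'
    refine ⟨(⟨_, b1⟩, ⟨_, b2⟩), ⟨_, hx', rfl⟩, ?_⟩
    rw [gaussTwoRed_apply]
    refine Prod.ext ?_ ?_
    · show helper882.gpRho A (q * M) (helper1219.castFN (mul_comm M q) x) = _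
      rw [gpRho_of_coe_eq A (helper1219.coe_castFN (mul_comm M q) x)]
      exact helper882.gpRho_of_mem A (M * q) _
    · show helper882.gpRho A (q * M)
        (helper1219.atkinLehnerBar q M h (helper1219.castFN (mul_comm M q) x)) = _
      rw [atkinLehnerBar_castFN,
        gpRho_of_coe_eq A (helper1219.coe_castFN (mul_comm M q) _)]
      exact helper882.gpRho_of_mem A (M * q) _
  obtain ⟨F, hF, hFpow, h₁, h₂, -⟩ := kron_conductor_modular A (IsLocalRing.residue A) M q hq
    (wqHom M q h) (wqHom_heckeAlphaBar M q h) (wqHom_heckeBetaBar M q h) (kronB' A M t') hB' BR hB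
    hα hβ' (kronBbar (IsLocalRing.ResidueField A) M tb) hsurj' φ hφ (coeffMap_mem_kronBbar φ tb hφtb) hfin
    (kronR A q M h t tb) hR
  haveI := hfin F hF
  obtain ⟨S₁, S₂, hS₁, hS₂, hfst, hsnd, hJ, hnode⟩ :=
    kron_conductor_graph_finset q F F hFpow hFpow (kronR A q M h t tb) h₁ h₂
  have hS : S₂ = S₁ := Finset.ext fun P => by rw [hS₁, hS₂]
  subst hS
  exact ⟨hred, F, S₂, hF, hFpow, hS₁, h₁, h₂, hfst, hsnd, hJ, hnode⟩

end ChartInstance


end KronInst


/-! ### Both charts: the node package on the Hauptmodul charts -/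

section KronNodes

open Polynomial AlgebraicCurve IntermediateField
open Fermat.Agent.S35.helper603 (valueAt)

variable (A : ValuationSubring Kbar) (q M : ℕ) [NeZero q] [NeZero M] (h : Nat.Coprime q M)

/-- `x` is a unit for both Gauss valuations as soon as `x`, `x⁻¹` lie in the unit ball. -/
theorem gpVal_eq_one_of_ball {N : ℕ} (W : FN N ≃ₐ[Kbar] FN N) {x : FN N} (hx0 : x ≠ 0)
    (h1 : ∀ i, helper882.gpVal A N W i x ≤ 1) (h2 : ∀ i, helper882.gpVal A N W i x⁻¹ ≤ 1) :
    ∀ i, helper882.gpVal A N W i x = 1 := by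
  intro i
  refine le_antisymm (h1 i) ?_
  have h3 := h2 i
  rw [map_inv₀] at h3
  have h4 : helper882.gpVal A N W i x ≠ 0 := (Valuation.ne_zero_iff _).mpr hx0
  exact (inv_le_one₀ (zero_lt_iff.mpr h4)).mp h3

set_option synthInstance.maxHeartbeats 400000 in
set_option maxHeartbeats 4000000 in
/-- **KRON-INST, both charts, node package.** -/
theorem kron_nodes_general (hq : q.Prime) (hA : A.LiesOverPrime q)
    {tZ sZ : LaurentSeries ℤ} (hts : tZ * sZ = 1)
    (t' : FN M) (ht' : (t' : LaurentSeries Kbar) = coeffMap (Int.castRingHom Kbar) tZ)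
    (t : FN (q * M)) (ht : (t : LaurentSeries Kbar) = coeffMap (Int.castRingHom Kbar) tZ)
    (httr : Transcendental Kbar t) [FiniteDimensional Kbar⟮t⟯ (FN (q * M))]
    (tb : ↥(modularFunctionFieldFullC (IsLocalRing.ResidueField A) M)) (htb : (tb : LaurentSeries (IsLocalRing.ResidueField A)) = coeffMap (Int.castRingHom (IsLocalRing.ResidueField A)) tZ)
    (htr : Transcendental (IsLocalRing.ResidueField A) tb) [FiniteDimensional (IsLocalRing.ResidueField A)⟮tb⟯ ↥(modularFunctionFieldFullC (IsLocalRing.ResidueField A) M)]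
    (hsurj : ∀ u : ↥(modularFunctionFieldFullC (IsLocalRing.ResidueField A) M), IsIntegral (Algebra.adjoin (IsLocalRing.ResidueField A) {tb}) u →
      ∃ y : FN M, y ∈ helper882.gpRing A M ∧ IsIntegral (Algebra.adjoin Kbar {t'}) y ∧
        helper882.gpRho A M y = (u : LaurentSeries (IsLocalRing.ResidueField A)))
    (hsurj' : ∀ u : ↥(modularFunctionFieldFullC (IsLocalRing.ResidueField A) M), IsIntegral (Algebra.adjoin (IsLocalRing.ResidueField A) {tb⁻¹}) u →
      ∃ y : FN M, y ∈ helper882.gpRing A M ∧ IsIntegral (Algebra.adjoin Kbar {t'⁻¹}) y ∧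
        helper882.gpRho A M y = (u : LaurentSeries (IsLocalRing.ResidueField A)))
    (hInt : ∀ x : FN (q * M), x ∈ helper882.gpRing A (q * M) → x ∈ helper882.gpRingW A (q * M) (helper1219.atkinLehnerBar q M h) →
      IsIntegral (Algebra.adjoin Kbar {t}) x →
      ∃ m : (FN (q * M))[X], m.Monic ∧
        (∀ i, ∃ p : Kbar[X], (∀ j, p.coeff j ∈ A) ∧ m.coeff i = aeval t p) ∧ aeval x m = 0)
    (hInt' : ∀ x : FN (q * M), x ∈ helper882.gpRing A (q * M) → x ∈ helper882.gpRingW A (q * M) (helper1219.atkinLehnerBar q M h) →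
      IsIntegral (Algebra.adjoin Kbar {t⁻¹}) x →
      ∃ m : (FN (q * M))[X], m.Monic ∧
        (∀ i, ∃ p : Kbar[X], (∀ j, p.coeff j ∈ A) ∧ m.coeff i = aeval t⁻¹ p) ∧ aeval x m = 0)
    (hint : (IsIntegral (Algebra.adjoin Kbar {t}) ((helper1219.atkinLehnerBar q M h) t) ∧
        IsIntegral (Algebra.adjoin Kbar {t}) (t ^ q / (helper1219.atkinLehnerBar q M h) t) ∧
        IsIntegral (Algebra.adjoin Kbar {t}) ((helper1219.atkinLehnerBar q M h) t ^ q / t)) ∧
      (IsIntegral (Algebra.adjoin Kbar {t⁻¹}) ((helper1219.atkinLehnerBar q M h) t)⁻¹ ∧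
        IsIntegral (Algebra.adjoin Kbar {t⁻¹}) ((helper1219.atkinLehnerBar q M h) t / t ^ q) ∧
        IsIntegral (Algebra.adjoin Kbar {t⁻¹}) (t / (helper1219.atkinLehnerBar q M h) t ^ q)))
    (hdegk : ∀ w : Place (IsLocalRing.ResidueField A) ↥(modularFunctionFieldFullC (IsLocalRing.ResidueField A) M), w.deg = 1) :
    ∃ (I : Type) (_ : Fintype I) (P Q : I → Place (IsLocalRing.ResidueField A) ↥(modularFunctionFieldFullC (IsLocalRing.ResidueField A) M)),
      Function.Injective P ∧ Function.Injective Q ∧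
      (∀ i, (P i).ord tb = 0) ∧ (∀ i, (Q i).ord (tb ^ q) = 0) ∧
      (∀ i, ∀ u u' : ↥(modularFunctionFieldFullC (IsLocalRing.ResidueField A) M), u ∈ Fermat.Agent.S35.helper825.chartAlg (IsLocalRing.ResidueField A) tb →
        (u' : LaurentSeries (IsLocalRing.ResidueField A)) = qExpand (IsLocalRing.ResidueField A) q (u : LaurentSeries (IsLocalRing.ResidueField A)) →
        valueAt (P i) (hdegk (P i)) u' = valueAt (Q i) (hdegk (Q i)) u ∧
          valueAt (Q i) (hdegk (Q i)) u' = valueAt (P i) (hdegk (P i)) u) ∧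
      ∀ (E1 E2 : Divisor Kbar (FN (q * M))) (Yinf₁ Y0₁ Yinf₂ Y0₂ : Divisor (IsLocalRing.ResidueField A) ↥(modularFunctionFieldFullC (IsLocalRing.ResidueField A) M)),
        (∀ w, E1 w = max 0 (-(w.ord t))) → (∀ w, E2 w = max 0 (w.ord t)) →
        (∀ w, Yinf₁ w = max 0 (-(w.ord tb))) → (∀ w, Y0₁ w = max 0 (w.ord tb)) →
        (∀ w, Yinf₂ w = max 0 (-(w.ord (tb ^ q)))) → (∀ w, Y0₂ w = max 0 (w.ord (tb ^ q))) →
        (∀ a : ℕ, ∀ f ∈ riemannRochSpace (a • E1),
          (∀ i, helper882.gpVal A (q * M) (helper1219.atkinLehnerBar q M h) i f ≤ 1) →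
          ∀ y₁ ∈ riemannRochSpace (a • Yinf₁), ∀ y₂ ∈ riemannRochSpace (a • Yinf₂),
            helper882.gpRed A (q * M) (helper1219.atkinLehnerBar q M h) f = helper1928.fibreIncl (IsLocalRing.ResidueField A) M (y₁, y₂) →
            ∀ i, valueAt (Q i) (hdegk (Q i)) y₂ = valueAt (P i) (hdegk (P i)) y₁) ∧
        (∀ a : ℕ, ∀ y₁ ∈ riemannRochSpace (a • Yinf₁), ∀ y₂ ∈ riemannRochSpace (a • Yinf₂),
          (∀ i, valueAt (Q i) (hdegk (Q i)) y₂ = valueAt (P i) (hdegk (P i)) y₁) →
          ∃ a' : ℕ, ∃ f ∈ riemannRochSpace (a' • E1),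
            (∀ i, helper882.gpVal A (q * M) (helper1219.atkinLehnerBar q M h) i f ≤ 1) ∧
              helper882.gpRed A (q * M) (helper1219.atkinLehnerBar q M h) f = helper1928.fibreIncl (IsLocalRing.ResidueField A) M (y₁, y₂)) ∧
        (∀ b : ℕ, ∀ y₁ ∈ riemannRochSpace (b • Y0₁), ∀ y₂ ∈ riemannRochSpace (b • Y0₂),
          (∀ i, valueAt (Q i) (hdegk (Q i)) y₂ = valueAt (P i) (hdegk (P i)) y₁) →
          ∃ b' : ℕ, ∃ f ∈ riemannRochSpace (b' • E2),
            (∀ i, helper882.gpVal A (q * M) (helper1219.atkinLehnerBar q M h) i f ≤ 1) ∧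
              helper882.gpRed A (q * M) (helper1219.atkinLehnerBar q M h) f = helper1928.fibreIncl (IsLocalRing.ResidueField A) M (y₁, y₂)) := by
  classical
  have hqM : ¬ q ∣ M := fun hd => hq.one_lt.ne' (Nat.Coprime.eq_one_of_dvd h hd)
  haveI : Fact q.Prime := ⟨hq⟩
  haveI : CharP (IsLocalRing.ResidueField A) q := Fermat.Agent.S18.helper508.charP_residueField q A hA
  haveI : IsAlgClosed (IsLocalRing.ResidueField A) := Fermat.Agent.Lib.helper6879.isAlgClosed_residueField A
  -- level `M`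
  have ht'V : t' ∈ helper882.gpRing A M :=
    Fermat.Agent.S35.helper4640.base_mem A (IsLocalRing.residue A) M ht'
  have ht'iV : t'⁻¹ ∈ helper882.gpRing A M :=
    Fermat.Agent.S35.helper4640.base_inv_mem A (IsLocalRing.residue A) M hts ht'
  have hρt' : helper882.gpRho A M t' = coeffMap (Int.castRingHom (IsLocalRing.ResidueField A)) tZ :=
    (helper882.gpRho_of_mem A M ht'V).trans
      (Fermat.Agent.S35.helper4640.gaussFRed_of_coe_eq A (IsLocalRing.residue A) M ht' ht'V)
  have ht'i : ((t'⁻¹ : FN M) : LaurentSeries Kbar) = coeffMap (Int.castRingHom Kbar) sZ :=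
    Fermat.Agent.S35.helper4640.coe_inv_eq M hts ht'
  have hρt'i : helper882.gpRho A M t'⁻¹ = coeffMap (Int.castRingHom (IsLocalRing.ResidueField A)) sZ :=
    (helper882.gpRho_of_mem A M ht'iV).trans
      (Fermat.Agent.S35.helper4640.gaussFRed_of_coe_eq A (IsLocalRing.residue A) M ht'i ht'iV)
  have htbs : coeffMap (Int.castRingHom (IsLocalRing.ResidueField A)) tZ * coeffMap (Int.castRingHom (IsLocalRing.ResidueField A)) sZ = 1 := by
    rw [← map_mul, hts, map_one]
  have htbi : ((tb⁻¹ : ↥(modularFunctionFieldFullC (IsLocalRing.ResidueField A) M)) : LaurentSeries (IsLocalRing.ResidueField A)) = coeffMap (Int.castRingHom (IsLocalRing.ResidueField A)) sZ := by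
    rw [IntermediateField.coe_inv, htb]
    exact (eq_inv_of_mul_eq_one_right htbs).symm
  have htx : (t : LaurentSeries Kbar) = (t' : LaurentSeries Kbar) := ht.trans ht'.symm
  have htq : (((helper1219.atkinLehnerBar q M h) t : FN (q * M)) : LaurentSeries Kbar) =
      qExpand Kbar q (t' : LaurentSeries Kbar) := by
    rw [Fermat.Agent.S35.helper4640.coe_atkinLehnerBar_of_coe_eq q M h htx, htx]
  have hti : ((t⁻¹ : FN (q * M)) : LaurentSeries Kbar) = ((t'⁻¹ : FN M) : LaurentSeries Kbar) := by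
    rw [IntermediateField.coe_inv, IntermediateField.coe_inv, htx]
  have htqi : ((((helper1219.atkinLehnerBar q M h) t)⁻¹ : FN (q * M)) : LaurentSeries Kbar) =
      qExpand Kbar q ((t'⁻¹ : FN M) : LaurentSeries Kbar) := by
    rw [IntermediateField.coe_inv, IntermediateField.coe_inv, htq, map_inv₀]
  -- the eight elements
  obtain ⟨⟨e1, e2, e3, -⟩, e5, e6, e7, -⟩ :=
    Fermat.Agent.S35.helper4640.chartElts_general q M h A hq hA hts ht (x := t') htx hint
  -- the two Kronecker charts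
  obtain ⟨-, FA, SA, hFA, -, -, hgrA1, hgrA2, hfstA, hsndA, hJA, -⟩ :=
    kron_chart A q M h hq hA t' ht'V t ((helper1219.atkinLehnerBar q M h) t) htx htq tb (htb.trans hρt'.symm)
      (by rw [htb]; exact Fermat.Agent.S35.helper4640.qExpand_intSeries (IsLocalRing.ResidueField A) q tZ) htr hsurj hInt
      e2.2.2.1
  obtain ⟨-, FB, SB, hFB, -, -, hgrB1, hgrB2, hfstB, hsndB, hJB, -⟩ :=
    kron_chart A q M h hq hA t'⁻¹ ht'iV t⁻¹ ((helper1219.atkinLehnerBar q M h) t)⁻¹ hti htqi tb⁻¹ (htbi.trans hρt'i.symm)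
      (by rw [htbi]; exact Fermat.Agent.S35.helper4640.qExpand_intSeries (IsLocalRing.ResidueField A) q sZ)
      (Fermat.Agent.S35.helper825.transcendental_inv htr) hsurj' hInt' e6.2.2.1
  -- the inclusions of the reduced chart rings
  haveI : FiniteDimensional (IsLocalRing.ResidueField A)⟮tb⁻¹⟯ ↥(modularFunctionFieldFullC (IsLocalRing.ResidueField A) M) := Fermat.Agent.S35.helper825.finiteDimensional_inv tb
  haveI : FiniteDimensional (IsLocalRing.ResidueField A)⟮tb ^ q⟯ ↥(modularFunctionFieldFullC (IsLocalRing.ResidueField A) M) :=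
    Fermat.Agent.S35.helper825.finiteDimensional_pow tb hq.ne_zero
  haveI : FiniteDimensional Kbar⟮t⁻¹⟯ (FN (q * M)) := Fermat.Agent.S35.helper825.finiteDimensional_inv t
  -- the inclusions of the reduced chart rings, and the relation rings as reductions of the
  -- ball functions regular on the charts
  obtain ⟨ιA, hιA, hιAcoe, hrA, hRA⟩ : ∃ ιA : kronBbar (IsLocalRing.ResidueField A) M tb →ₐ[(IsLocalRing.ResidueField A)] ↥(modularFunctionFieldFullC (IsLocalRing.ResidueField A) M),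
      Function.Injective ιA ∧ (∀ b, ((ιA b : ↥(modularFunctionFieldFullC (IsLocalRing.ResidueField A) M)) : LaurentSeries (IsLocalRing.ResidueField A)) = b) ∧
      (∀ f : ↥(modularFunctionFieldFullC (IsLocalRing.ResidueField A) M), f ∈ Fermat.Agent.S35.helper825.chartAlg (IsLocalRing.ResidueField A) tb ↔ ∃ b, ιA b = f) ∧
      ∀ r : kronBbar (IsLocalRing.ResidueField A) M tb × kronBbar (IsLocalRing.ResidueField A) M tb, r ∈ kronR A q M h t tb ↔
        ∃ f : FN (q * M), (∀ i, helper882.gpVal A (q * M) (helper1219.atkinLehnerBar q M h) i f ≤ 1) ∧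
          f ∈ Fermat.Agent.S35.helper825.chartAlg Kbar t ∧
          helper882.gpRed A (q * M) (helper1219.atkinLehnerBar q M h) f = helper1928.fibreIncl (IsLocalRing.ResidueField A) M (ιA r.1, ιA r.2) := by
    obtain ⟨h1, h2, h3⟩ := Fermat.Agent.S35.helper7984.exists_incl_of_image
      (modularFunctionFieldFullC (IsLocalRing.ResidueField A) M) tb tb (kronBbar (IsLocalRing.ResidueField A) M tb) (fun u => mem_kronBbar_iff)
    refine ⟨_, h1, h2, h3, fun r => ⟨?_, ?_⟩⟩
    · rintro ⟨x, ⟨hx1, hx2, hx3⟩, hxr⟩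
      exact ⟨x, (helper882.gpVal_le_one_iff A (q * M) (helper1219.atkinLehnerBar q M h) x).mpr ⟨hx1, hx2⟩,
        (Fermat.Agent.S35.helper7984.isIntegral_adjoin_iff_forall_place t t x).mp hx3, hxr⟩
    · rintro ⟨f, hb, hfc, hfr⟩
      obtain ⟨h1, h2⟩ := (helper882.gpVal_le_one_iff A (q * M) (helper1219.atkinLehnerBar q M h) f).mp hb
      exact ⟨f, ⟨h1, h2,
        (Fermat.Agent.S35.helper7984.isIntegral_adjoin_iff_forall_place t t f).mpr hfc⟩, hfr⟩
  obtain ⟨ιB, hιB, -, hrB, hRB⟩ : ∃ ιB : kronBbar (IsLocalRing.ResidueField A) M tb⁻¹ →ₐ[(IsLocalRing.ResidueField A)] ↥(modularFunctionFieldFullC (IsLocalRing.ResidueField A) M),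
      Function.Injective ιB ∧ (∀ b, ((ιB b : ↥(modularFunctionFieldFullC (IsLocalRing.ResidueField A) M)) : LaurentSeries (IsLocalRing.ResidueField A)) = b) ∧
      (∀ f : ↥(modularFunctionFieldFullC (IsLocalRing.ResidueField A) M), f ∈ Fermat.Agent.S35.helper825.chartAlg (IsLocalRing.ResidueField A) tb⁻¹ ↔ ∃ b, ιB b = f) ∧
      ∀ r : kronBbar (IsLocalRing.ResidueField A) M tb⁻¹ × kronBbar (IsLocalRing.ResidueField A) M tb⁻¹, r ∈ kronR A q M h t⁻¹ tb⁻¹ ↔
        ∃ f : FN (q * M), (∀ i, helper882.gpVal A (q * M) (helper1219.atkinLehnerBar q M h) i f ≤ 1) ∧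
          f ∈ Fermat.Agent.S35.helper825.chartAlg Kbar t⁻¹ ∧
          helper882.gpRed A (q * M) (helper1219.atkinLehnerBar q M h) f = helper1928.fibreIncl (IsLocalRing.ResidueField A) M (ιB r.1, ιB r.2) := by
    obtain ⟨h1, h2, h3⟩ := Fermat.Agent.S35.helper7984.exists_incl_of_image
      (modularFunctionFieldFullC (IsLocalRing.ResidueField A) M) tb tb⁻¹ (kronBbar (IsLocalRing.ResidueField A) M tb⁻¹) (fun u => mem_kronBbar_iff)
    refine ⟨_, h1, h2, h3, fun r => ⟨?_, ?_⟩⟩
    · rintro ⟨x, ⟨hx1, hx2, hx3⟩, hxr⟩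
      exact ⟨x, (helper882.gpVal_le_one_iff A (q * M) (helper1219.atkinLehnerBar q M h) x).mpr ⟨hx1, hx2⟩,
        (Fermat.Agent.S35.helper7984.isIntegral_adjoin_iff_forall_place t t⁻¹ x).mp hx3, hxr⟩
    · rintro ⟨f, hb, hfc, hfr⟩
      obtain ⟨h1, h2⟩ := (helper882.gpVal_le_one_iff A (q * M) (helper1219.atkinLehnerBar q M h) f).mp hb
      exact ⟨f, ⟨h1, h2,
        (Fermat.Agent.S35.helper7984.isIntegral_adjoin_iff_forall_place t t⁻¹ f).mpr hfc⟩, hfr⟩
  -- abbreviations
  have ht0 : t ≠ 0 := fun h0 => httr (h0 ▸ isAlgebraic_zero)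
  have hWt0 : (helper1219.atkinLehnerBar q M h) t ≠ 0 := fun h0 => ht0 ((map_eq_zero_iff _ (AlgEquiv.injective _)).mp h0)
  have hball : ∀ {x f : FN (q * M)} {r : LaurentSeries (IsLocalRing.ResidueField A) × LaurentSeries (IsLocalRing.ResidueField A)},
      Fermat.Agent.S35.helper4640.ChartElt A (q * M) (helper1219.atkinLehnerBar q M h) x f r →
        ∀ i, helper882.gpVal A (q * M) (helper1219.atkinLehnerBar q M h) i f ≤ 1 :=
    fun {x f r} e => (helper882.gpVal_le_one_iff A (q * M) (helper1219.atkinLehnerBar q M h) f).mpr ⟨e.1, e.2.1⟩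
  -- chart facts
  have hxv : ∀ i, helper882.gpVal A (q * M) (helper1219.atkinLehnerBar q M h) i t = 1 :=
    gpVal_eq_one_of_ball A (helper1219.atkinLehnerBar q M h) ht0 (hball e1) (hball e5)
  have hredx : helper882.gpRed A (q * M) (helper1219.atkinLehnerBar q M h) t = helper1928.fibreIncl (IsLocalRing.ResidueField A) M (tb, tb ^ q) :=
    e1.2.2.2.trans (by rw [← htb]; rfl)
  have hg0 : t ^ q / (helper1219.atkinLehnerBar q M h) t ≠ 0 := div_ne_zero (pow_ne_zero q ht0) hWt0
  have hginv : (t ^ q / (helper1219.atkinLehnerBar q M h) t)⁻¹ = (helper1219.atkinLehnerBar q M h) t / t ^ q := inv_div _ _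
  have hgv : ∀ i, helper882.gpVal A (q * M) (helper1219.atkinLehnerBar q M h) i (t ^ q / (helper1219.atkinLehnerBar q M h) t) = 1 :=
    gpVal_eq_one_of_ball A (helper1219.atkinLehnerBar q M h) hg0 (hball e3) (by rw [hginv]; exact hball e7)
  have hgA : t ^ q / (helper1219.atkinLehnerBar q M h) t ∈ Fermat.Agent.S35.helper825.chartAlg Kbar t :=
    (Fermat.Agent.S35.helper7984.isIntegral_adjoin_iff_forall_place t t _).mp e3.2.2.1
  have hgB : (t ^ q / (helper1219.atkinLehnerBar q M h) t)⁻¹ ∈ Fermat.Agent.S35.helper825.chartAlg Kbar t⁻¹ := by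
    rw [hginv]
    exact (Fermat.Agent.S35.helper7984.isIntegral_adjoin_iff_forall_place t t⁻¹ _).mp e7.2.2.1
  have hredg : helper882.gpRed A (q * M) (helper1219.atkinLehnerBar q M h) (t ^ q / (helper1219.atkinLehnerBar q M h) t) =
      helper1928.fibreIncl (IsLocalRing.ResidueField A) M (1, tb ^ (q ^ 2 - 1)) :=
    e3.2.2.2.trans (by rw [← htb]; rfl)
  -- the pole / zero divisors
  have htrq : Transcendental (IsLocalRing.ResidueField A) (tb ^ q) := htr.pow hq.pos
  obtain ⟨E2, E1, hE2f, hE1f, hE2nn, hE1nn, hdisj, hxord, -, -⟩ :=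
    Fermat.Agent.S18.helper4307.exists_zero_pole_divisors t httr
  obtain ⟨Y0₁, Yinf₁, hY0₁f, hYinf₁f, hY0₁nn, hYinf₁nn, hdisj₁, hx₁ord, -, -⟩ :=
    Fermat.Agent.S18.helper4307.exists_zero_pole_divisors tb htr
  obtain ⟨Y0₂, Yinf₂, hY0₂f, hYinf₂f, hY0₂nn, hYinf₂nn, hdisj₂, hx₂ord, -, -⟩ :=
    Fermat.Agent.S18.helper4307.exists_zero_pole_divisors (tb ^ q) htrq
  -- the node package
  obtain ⟨I, hI, P, Q, hP, hQ, -, -, hnode, hK1, hK2, h0, hAiff, -, -, -⟩ :=
    Fermat.Agent.S35.helper6174.node_rr_package_of_unit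
      (helper882.gpVal A (q * M) (helper1219.atkinLehnerBar q M h)) (helper882.gpRed A (q * M) (helper1219.atkinLehnerBar q M h)) (helper1928.fibreIncl (IsLocalRing.ResidueField A) M)
      (helper1928.fibreIncl_injective (IsLocalRing.ResidueField A) M)
      (helper882.gpRedData A (q * M) (helper1219.atkinLehnerBar q M h)).map_mul (helper882.gpRedData A (q * M) (helper1219.atkinLehnerBar q M h)).map_one
      (fun f _ => by
        obtain ⟨y, hy⟩ := helper1928.gpRed_mem_range q M hqM A hA (helper1219.atkinLehnerBar q M h) f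
        exact ⟨y, hy.symm⟩)
      E1 E2 hE1nn hE2nn hdisj t ht0 hxord hxv
      tb (tb ^ q) htr htrq q hq.two_le rfl hredx
      Yinf₁ Y0₁ Yinf₂ Y0₂ hYinf₁nn hY0₁nn hYinf₂nn hY0₂nn hdisj₁ hdisj₂ hx₁ord hx₂ord
      ιA ιA hιA hιA hrA
      (fun f => by rw [Fermat.Agent.S35.helper825.chartAlg_pow tb hq.ne_zero]; exact hrA f)
      (kronR A q M h t tb) SA SA hfstA hsndA hJA hRA
      ιB ιB hιB hιB hrB
      (fun f => by
        rw [← inv_pow, Fermat.Agent.S35.helper825.chartAlg_pow tb⁻¹ hq.ne_zero]; exact hrB f)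
      (kronR A q M h t⁻¹ tb⁻¹) SB SB hfstB hsndB hJB hRB
      (t ^ q / (helper1219.atkinLehnerBar q M h) t) hg0 hgv hgA hgB hredg
  refine ⟨I, hI, P, Q, hP, hQ, fun i => (h0 i).1, fun i => (h0 i).2, ?_, ?_⟩
  · -- (FROB): the graphs of `u ↦ u(T ^ q)` lie in the relation ring
    intro i u u' hu hu'
    obtain ⟨b, rfl⟩ := (hrA u).mp hu
    have hb' : ιA (FA b) = u' := Subtype.ext (by rw [hιAcoe, hFA, hu', hιAcoe])
    have h1 := (hAiff (b, FA b)).mp (hgrA1 b) i
    have h2 := (hAiff (FA b, b)).mp (hgrA2 b) i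
    rw [hb'] at h1 h2
    exact ⟨h2, h1.symm⟩
  · intro E1' E2' Yinf₁' Y0₁' Yinf₂' Y0₂' hE1' hE2' hYinf₁' hY0₁' hYinf₂' hY0₂'
    obtain rfl : E1' = E1 := Finsupp.ext fun w => by rw [hE1', hE1f]
    obtain rfl : E2' = E2 := Finsupp.ext fun w => by rw [hE2', hE2f]
    obtain rfl : Yinf₁' = Yinf₁ := Finsupp.ext fun w => by rw [hYinf₁', hYinf₁f]
    obtain rfl : Y0₁' = Y0₁ := Finsupp.ext fun w => by rw [hY0₁', hY0₁f]
    obtain rfl : Yinf₂' = Yinf₂ := Finsupp.ext fun w => by rw [hYinf₂', hYinf₂f]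
    obtain rfl : Y0₂' = Y0₂ := Finsupp.ext fun w => by rw [hY0₂', hY0₂f]
    exact ⟨hnode, hK1, hK2⟩

set_option synthInstance.maxHeartbeats 400000 in
set_option maxHeartbeats 4000000 in
/-- **The node package on the `t_2`-chart** (`2 ∣ M`, `q ≠ 2`): the tail of
`helper2039.Stmt_ChartNodesFrob` / `S34.helper2423.Stmt_ChartNodes` for
`x := t2L Kbar (q * M) _`, `x₁ := t2F k M h2 hNk`, `x₂ := x₁ ^ q`. -/
theorem kron_nodes_t2 (hq : q.Prime) (hq2 : q ≠ 2) (hA : A.LiesOverPrime q) (h2 : 2 ∣ M)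
    (hNk : ∀ p : ℕ, p.Prime → p ∣ M → (p : (IsLocalRing.ResidueField A)) ≠ 0)
    (hdegk : ∀ w : Place (IsLocalRing.ResidueField A) ↥(modularFunctionFieldFullC (IsLocalRing.ResidueField A) M), w.deg = 1) :
    ∃ (I : Type) (_ : Fintype I) (P Q : I → Place (IsLocalRing.ResidueField A) ↥(modularFunctionFieldFullC (IsLocalRing.ResidueField A) M)),
      Function.Injective P ∧ Function.Injective Q ∧
      (∀ i, (P i).ord (Fermat.Agent.S18.helper6381.t2F (IsLocalRing.ResidueField A) M h2 hNk) = 0) ∧ (∀ i, (Q i).ord (Fermat.Agent.S18.helper6381.t2F (IsLocalRing.ResidueField A) M h2 hNk ^ q) = 0) ∧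
      (∀ i, ∀ u u' : ↥(modularFunctionFieldFullC (IsLocalRing.ResidueField A) M), u ∈ Fermat.Agent.S35.helper825.chartAlg (IsLocalRing.ResidueField A) (Fermat.Agent.S18.helper6381.t2F (IsLocalRing.ResidueField A) M h2 hNk) →
        (u' : LaurentSeries (IsLocalRing.ResidueField A)) = qExpand (IsLocalRing.ResidueField A) q (u : LaurentSeries (IsLocalRing.ResidueField A)) →
        valueAt (P i) (hdegk (P i)) u' = valueAt (Q i) (hdegk (Q i)) u ∧
          valueAt (Q i) (hdegk (Q i)) u' = valueAt (P i) (hdegk (P i)) u) ∧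
      ∀ (E1 E2 : Divisor Kbar (FN (q * M))) (Yinf₁ Y0₁ Yinf₂ Y0₂ : Divisor (IsLocalRing.ResidueField A) ↥(modularFunctionFieldFullC (IsLocalRing.ResidueField A) M)),
        (∀ w, E1 w = max 0 (-(w.ord (Fermat.Agent.S18.helper6381.t2L Kbar (q * M) (h2.mul_left q))))) → (∀ w, E2 w = max 0 (w.ord (Fermat.Agent.S18.helper6381.t2L Kbar (q * M) (h2.mul_left q)))) →
        (∀ w, Yinf₁ w = max 0 (-(w.ord (Fermat.Agent.S18.helper6381.t2F (IsLocalRing.ResidueField A) M h2 hNk)))) → (∀ w, Y0₁ w = max 0 (w.ord (Fermat.Agent.S18.helper6381.t2F (IsLocalRing.ResidueField A) M h2 hNk))) →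
        (∀ w, Yinf₂ w = max 0 (-(w.ord (Fermat.Agent.S18.helper6381.t2F (IsLocalRing.ResidueField A) M h2 hNk ^ q)))) →
        (∀ w, Y0₂ w = max 0 (w.ord (Fermat.Agent.S18.helper6381.t2F (IsLocalRing.ResidueField A) M h2 hNk ^ q))) →
        (∀ a : ℕ, ∀ f ∈ riemannRochSpace (a • E1),
          (∀ i, helper882.gpVal A (q * M) (helper1219.atkinLehnerBar q M h) i f ≤ 1) →
          ∀ y₁ ∈ riemannRochSpace (a • Yinf₁), ∀ y₂ ∈ riemannRochSpace (a • Yinf₂),
            helper882.gpRed A (q * M) (helper1219.atkinLehnerBar q M h) f = helper1928.fibreIncl (IsLocalRing.ResidueField A) M (y₁, y₂) →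
            ∀ i, valueAt (Q i) (hdegk (Q i)) y₂ = valueAt (P i) (hdegk (P i)) y₁) ∧
        (∀ a : ℕ, ∀ y₁ ∈ riemannRochSpace (a • Yinf₁), ∀ y₂ ∈ riemannRochSpace (a • Yinf₂),
          (∀ i, valueAt (Q i) (hdegk (Q i)) y₂ = valueAt (P i) (hdegk (P i)) y₁) →
          ∃ a' : ℕ, ∃ f ∈ riemannRochSpace (a' • E1),
            (∀ i, helper882.gpVal A (q * M) (helper1219.atkinLehnerBar q M h) i f ≤ 1) ∧
              helper882.gpRed A (q * M) (helper1219.atkinLehnerBar q M h) f = helper1928.fibreIncl (IsLocalRing.ResidueField A) M (y₁, y₂)) ∧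
        (∀ b : ℕ, ∀ y₁ ∈ riemannRochSpace (b • Y0₁), ∀ y₂ ∈ riemannRochSpace (b • Y0₂),
          (∀ i, valueAt (Q i) (hdegk (Q i)) y₂ = valueAt (P i) (hdegk (P i)) y₁) →
          ∃ b' : ℕ, ∃ f ∈ riemannRochSpace (b' • E2),
            (∀ i, helper882.gpVal A (q * M) (helper1219.atkinLehnerBar q M h) i f ≤ 1) ∧
              helper882.gpRed A (q * M) (helper1219.atkinLehnerBar q M h) f = helper1928.fibreIncl (IsLocalRing.ResidueField A) M (y₁, y₂)) := by
  haveI : Fact q.Prime := ⟨hq⟩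
  have hqM : ¬ q ∣ M := (Nat.Prime.coprime_iff_not_dvd hq).mp h
  have hN : 2 * q ∣ q * M := by
    rw [mul_comm 2 q]
    exact Nat.mul_dvd_mul_left q h2
  obtain ⟨hxtr, hxfin, -⟩ :=
    Fermat.Agent.S18.helper6381.t2L_spec Kbar (q * M) (h2.mul_left q)
  obtain ⟨hx₁tr, hx₁fin, -⟩ := Fermat.Agent.S18.helper6381.t2F_spec (IsLocalRing.ResidueField A) M h2 hNk
  haveI := hxfin
  haveI := hx₁fin
  have hπ : ∀ a : A, IsLocalRing.residue A a = 0 → a ∈ IsLocalRing.maximalIdeal A :=
    fun a ha => (IsLocalRing.residue_eq_zero_iff a).mp ha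
  have hG := Fermat.Agent.S35.helper4640.gaussElt_t2L Kbar (q * M) A (IsLocalRing.residue A) hπ
    (h2.mul_left q)
  have hj := Fermat.Agent.S35.helper4640.jBar_mem_adjoin_t2L (q * M) (h2.mul_left q)
  have htq := Fermat.Agent.S35.helper4640.coe_atkinLehnerBar_of_coe_eq q M h
    (t := Fermat.Agent.S18.helper6381.t2L Kbar (q * M) (h2.mul_left q))
    (x := Fermat.Agent.S18.helper6381.t2L Kbar M h2) rfl
  exact kron_nodes_general A q M h hq hA Fermat.Agent.S35.helper4640.t2Z_mul_hauptInv2Z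
    (Fermat.Agent.S18.helper6381.t2L Kbar M h2)
    (Fermat.Agent.S35.helper4640.coe_t2L_eq Kbar M h2)
    (Fermat.Agent.S18.helper6381.t2L Kbar (q * M) (h2.mul_left q))
    (Fermat.Agent.S35.helper4640.coe_t2L_eq Kbar (q * M) _) hxtr
    (Fermat.Agent.S18.helper6381.t2F (IsLocalRing.ResidueField A) M h2 hNk) rfl hx₁tr
    (Fermat.Agent.S35.helper6381.gp_lift_t2 M q hqM A hA h2
      (Fermat.Agent.S35.helper4640.coe_t2L_eq Kbar M h2) rfl)
    (Fermat.Agent.S35.helper6381.gp_lift_t2_inv M q hqM A hA h2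
      (Fermat.Agent.S35.helper4640.coe_t2L_eq Kbar M h2) rfl)
    (fun x hx1 hx2 hx3 =>
      Fermat.Agent.S35.helper2459.gp_chart_monic q M hqM A hA _ hG hj x hx1 hx2 hx3)
    (fun x hx1 hx2 hx3 =>
      Fermat.Agent.S35.helper2459.gp_chart_monic_inv q M hqM A hA _ hG hj x hx1 hx2 hx3)
    (Fermat.Agent.S35.helper2974.cuspOrd_integral_t2 (q * M) q hq hq2 hN
      (Fermat.Agent.S35.helper4640.coe_t2L_eq Kbar (q * M) _) htq)
    hdegk

set_option synthInstance.maxHeartbeats 400000 in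
set_option maxHeartbeats 4000000 in
/-- **The node package on the `t_3`-chart** (`3 ∣ M`, `q ≠ 3`): the tail of
`helper2039.Stmt_ChartNodesFrob` / `S34.helper2423.Stmt_ChartNodes` for
`x := t3L Kbar (q * M) _`, `x₁ := t3F k M h3 hNk`, `x₂ := x₁ ^ q`. -/
theorem kron_nodes_t3 (hq : q.Prime) (hq3 : q ≠ 3) (hA : A.LiesOverPrime q) (h3 : 3 ∣ M)
    (hNk : ∀ p : ℕ, p.Prime → p ∣ M → (p : (IsLocalRing.ResidueField A)) ≠ 0)
    (hdegk : ∀ w : Place (IsLocalRing.ResidueField A) ↥(modularFunctionFieldFullC (IsLocalRing.ResidueField A) M), w.deg = 1) :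
    ∃ (I : Type) (_ : Fintype I) (P Q : I → Place (IsLocalRing.ResidueField A) ↥(modularFunctionFieldFullC (IsLocalRing.ResidueField A) M)),
      Function.Injective P ∧ Function.Injective Q ∧
      (∀ i, (P i).ord (Fermat.Agent.S18.helper6381.t3F (IsLocalRing.ResidueField A) M h3 hNk) = 0) ∧ (∀ i, (Q i).ord (Fermat.Agent.S18.helper6381.t3F (IsLocalRing.ResidueField A) M h3 hNk ^ q) = 0) ∧
      (∀ i, ∀ u u' : ↥(modularFunctionFieldFullC (IsLocalRing.ResidueField A) M), u ∈ Fermat.Agent.S35.helper825.chartAlg (IsLocalRing.ResidueField A) (Fermat.Agent.S18.helper6381.t3F (IsLocalRing.ResidueField A) M h3 hNk) →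
        (u' : LaurentSeries (IsLocalRing.ResidueField A)) = qExpand (IsLocalRing.ResidueField A) q (u : LaurentSeries (IsLocalRing.ResidueField A)) →
        valueAt (P i) (hdegk (P i)) u' = valueAt (Q i) (hdegk (Q i)) u ∧
          valueAt (Q i) (hdegk (Q i)) u' = valueAt (P i) (hdegk (P i)) u) ∧
      ∀ (E1 E2 : Divisor Kbar (FN (q * M))) (Yinf₁ Y0₁ Yinf₂ Y0₂ : Divisor (IsLocalRing.ResidueField A) ↥(modularFunctionFieldFullC (IsLocalRing.ResidueField A) M)),
        (∀ w, E1 w = max 0 (-(w.ord (Fermat.Agent.S18.helper6381.t3L Kbar (q * M) (h3.mul_left q))))) → (∀ w, E2 w = max 0 (w.ord (Fermat.Agent.S18.helper6381.t3L Kbar (q * M) (h3.mul_left q)))) →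
        (∀ w, Yinf₁ w = max 0 (-(w.ord (Fermat.Agent.S18.helper6381.t3F (IsLocalRing.ResidueField A) M h3 hNk)))) → (∀ w, Y0₁ w = max 0 (w.ord (Fermat.Agent.S18.helper6381.t3F (IsLocalRing.ResidueField A) M h3 hNk))) →
        (∀ w, Yinf₂ w = max 0 (-(w.ord (Fermat.Agent.S18.helper6381.t3F (IsLocalRing.ResidueField A) M h3 hNk ^ q)))) →
        (∀ w, Y0₂ w = max 0 (w.ord (Fermat.Agent.S18.helper6381.t3F (IsLocalRing.ResidueField A) M h3 hNk ^ q))) →
        (∀ a : ℕ, ∀ f ∈ riemannRochSpace (a • E1),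
          (∀ i, helper882.gpVal A (q * M) (helper1219.atkinLehnerBar q M h) i f ≤ 1) →
          ∀ y₁ ∈ riemannRochSpace (a • Yinf₁), ∀ y₂ ∈ riemannRochSpace (a • Yinf₂),
            helper882.gpRed A (q * M) (helper1219.atkinLehnerBar q M h) f = helper1928.fibreIncl (IsLocalRing.ResidueField A) M (y₁, y₂) →
            ∀ i, valueAt (Q i) (hdegk (Q i)) y₂ = valueAt (P i) (hdegk (P i)) y₁) ∧
        (∀ a : ℕ, ∀ y₁ ∈ riemannRochSpace (a • Yinf₁), ∀ y₂ ∈ riemannRochSpace (a • Yinf₂),
          (∀ i, valueAt (Q i) (hdegk (Q i)) y₂ = valueAt (P i) (hdegk (P i)) y₁) →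
          ∃ a' : ℕ, ∃ f ∈ riemannRochSpace (a' • E1),
            (∀ i, helper882.gpVal A (q * M) (helper1219.atkinLehnerBar q M h) i f ≤ 1) ∧
              helper882.gpRed A (q * M) (helper1219.atkinLehnerBar q M h) f = helper1928.fibreIncl (IsLocalRing.ResidueField A) M (y₁, y₂)) ∧
        (∀ b : ℕ, ∀ y₁ ∈ riemannRochSpace (b • Y0₁), ∀ y₂ ∈ riemannRochSpace (b • Y0₂),
          (∀ i, valueAt (Q i) (hdegk (Q i)) y₂ = valueAt (P i) (hdegk (P i)) y₁) →
          ∃ b' : ℕ, ∃ f ∈ riemannRochSpace (b' • E2),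
            (∀ i, helper882.gpVal A (q * M) (helper1219.atkinLehnerBar q M h) i f ≤ 1) ∧
              helper882.gpRed A (q * M) (helper1219.atkinLehnerBar q M h) f = helper1928.fibreIncl (IsLocalRing.ResidueField A) M (y₁, y₂)) := by
  haveI : Fact q.Prime := ⟨hq⟩
  have hqM : ¬ q ∣ M := (Nat.Prime.coprime_iff_not_dvd hq).mp h
  have hN : 3 * q ∣ q * M := by
    rw [mul_comm 3 q]
    exact Nat.mul_dvd_mul_left q h3
  obtain ⟨hxtr, hxfin, -⟩ :=
    Fermat.Agent.S18.helper6381.t3L_spec Kbar (q * M) (h3.mul_left q)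
  obtain ⟨hx₁tr, hx₁fin, -⟩ := Fermat.Agent.S18.helper6381.t3F_spec (IsLocalRing.ResidueField A) M h3 hNk
  haveI := hxfin
  haveI := hx₁fin
  have hπ : ∀ a : A, IsLocalRing.residue A a = 0 → a ∈ IsLocalRing.maximalIdeal A :=
    fun a ha => (IsLocalRing.residue_eq_zero_iff a).mp ha
  have hG := Fermat.Agent.S35.helper4640.gaussElt_t3L Kbar (q * M) A (IsLocalRing.residue A) hπ
    (h3.mul_left q)
  have hj := Fermat.Agent.S35.helper4640.jBar_mem_adjoin_t3L (q * M) (h3.mul_left q)
  have htq := Fermat.Agent.S35.helper4640.coe_atkinLehnerBar_of_coe_eq q M h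
    (t := Fermat.Agent.S18.helper6381.t3L Kbar (q * M) (h3.mul_left q))
    (x := Fermat.Agent.S18.helper6381.t3L Kbar M h3) rfl
  exact kron_nodes_general A q M h hq hA Fermat.Agent.S35.helper4640.t3Z_mul_hauptInv3Z
    (Fermat.Agent.S18.helper6381.t3L Kbar M h3)
    (Fermat.Agent.S35.helper4640.coe_t3L_eq Kbar M h3)
    (Fermat.Agent.S18.helper6381.t3L Kbar (q * M) (h3.mul_left q))
    (Fermat.Agent.S35.helper4640.coe_t3L_eq Kbar (q * M) _) hxtr
    (Fermat.Agent.S18.helper6381.t3F (IsLocalRing.ResidueField A) M h3 hNk) rfl hx₁tr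
    (Fermat.Agent.S35.helper6381.gp_lift_t3 M q hqM A hA h3
      (Fermat.Agent.S35.helper4640.coe_t3L_eq Kbar M h3) rfl)
    (Fermat.Agent.S35.helper6381.gp_lift_t3_inv M q hqM A hA h3
      (Fermat.Agent.S35.helper4640.coe_t3L_eq Kbar M h3) rfl)
    (fun x hx1 hx2 hx3 =>
      Fermat.Agent.S35.helper2459.gp_chart_monic q M hqM A hA _ hG hj x hx1 hx2 hx3)
    (fun x hx1 hx2 hx3 =>
      Fermat.Agent.S35.helper2459.gp_chart_monic_inv q M hqM A hA _ hG hj x hx1 hx2 hx3)
    (Fermat.Agent.S35.helper2974.cuspOrd_integral_t3 (q * M) q hq hq3 hN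
      (Fermat.Agent.S35.helper4640.coe_t3L_eq Kbar (q * M) _) htq)
    hdegk

end KronNodes

end

end Fermat.Agent.S35.helper2736
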