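/-
S35/S34 geometry module, E3 instantiation: supplier of the containment half of the hypothesis
`(hcont)` of the E3 function-field theorem (board row S35/S34-HCONT, helper3028).

* `ord_nonneg_of_isIntegralElem`, `ord_nonneg_of_isIntegral_adjoin` (H1a): an element integral
  over a ring all of whose elements are regular at a place is regular at that place.
* `mem_riemannRochSpace_of_ord`, `mem_riemannRochSpace_of_isIntegral` (H1b): if `y * x ^ b` is
  regular wherever `x` is, and `y * x⁻¹ ^ a` is regular wherever `x⁻¹` is, then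
  `y ∈ L(a • Yinf + b • Y0)` for the pole and zero divisors `Yinf`, `Y0` of `x`.
* `ballAdjoin vK x`: the subring of `F` generated by the integral constants and `x`
  (`= A[x]` for the valuation ring `A` of `vK`, `isIntegral_ballAdjoin_of_adjoin`).
* `ord_nonneg_of_red_of_isIntegral` (H2 core): in the situation of `helper2459.RedDataW` with a
  two-component special fibre `jj : Fk₁ × Fk₂ → Fk`, the two components of the reduction of an
  element integral over `A[x]` are regular wherever the corresponding component of `red x` is.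
* `hcont_of_isIntegral` (H2): for `f` in the unit ball with `f * x ^ b` integral over `A[x]` and
  `f * x⁻¹ ^ a` integral over `A[x⁻¹]` (chart integrality of `f ∈ L(a E₁ + b E₂)`),
  `red f = jj (y₁, y₂)` with `y_j ∈ L(a • Yinf_j + b • Y0_j)`.
-/
import Mathlib
import Fermat.Prelude.Def_AlgebraicCurve_Repartitions
import Fermat.Agent.S24.helper204_Places
import Fermat.Agent.S35.helper2459_KummerMultiSF

set_option autoImplicit false

namespace Fermat.Agent.S35.helper3028

open AlgebraicCurve Polynomial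

section PlaceHalf

variable {K F : Type*} [Field K] [Field F] [Algebra K F]

theorem ord_pow_nat (v : Place K F) (f : F) (n : ℕ) : v.ord (f ^ n) = n * v.ord f := by
  rcases eq_or_ne f 0 with rfl | hf
  · rcases Nat.eq_zero_or_pos n with rfl | hn
    · simp [Place.ord_one]
    · rw [zero_pow hn.ne', Place.ord_zero, mul_zero]
  induction n with
  | zero => simp [Place.ord_one]
  | succ n ih =>
    rw [pow_succ, v.ord_mul (pow_ne_zero n hf) hf, ih]
    push_cast
    ring

/-- **(H1a), ring-hom form.** If all values of `φ : S →+* F` are regular at the place `v`, so is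
every element integral over `φ`. -/
theorem ord_nonneg_of_isIntegralElem (v : Place K F) {S : Type*} [CommRing S] (φ : S →+* F)
    (hφ : ∀ s, 0 ≤ v.ord (φ s)) {y : F} (hy : φ.IsIntegralElem y) : 0 ≤ v.ord y := by
  let _ : Algebra S F := φ.toAlgebra
  have hy' : IsIntegral S y := hy
  exact Fermat.Agent.S24.helper204.ord_nonneg_of_mem v
    (Fermat.Agent.S24.helper204.mem_of_isIntegral_of_range_le v.toValuationSubring
      (fun s => Fermat.Agent.S24.helper204.mem_of_ord_nonneg v (hφ s)) hy')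

/-- **(H1a).** An element integral over `K[x]` is regular at every place where `x` is. -/
theorem ord_nonneg_of_isIntegral_adjoin (v : Place K F) {x y : F} (hx : 0 ≤ v.ord x)
    (hy : IsIntegral (Algebra.adjoin K ({x} : Set F)) y) : 0 ≤ v.ord y := by
  refine ord_nonneg_of_isIntegralElem v (algebraMap (Algebra.adjoin K ({x} : Set F)) F) ?_ hy
  rintro ⟨s, hs⟩
  show 0 ≤ v.ord s
  refine Fermat.Agent.S24.helper204.ord_nonneg_of_mem v ?_
  induction hs using Algebra.adjoin_induction with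
  | mem z hz =>
    rw [Set.mem_singleton_iff] at hz
    subst hz
    exact Fermat.Agent.S24.helper204.mem_of_ord_nonneg v hx
  | algebraMap c => exact v.algebraMap_mem' c
  | add a b _ _ ha hb => exact add_mem ha hb
  | mul a b _ _ ha hb => exact mul_mem ha hb

/-- **(H1b), order form.** `Yinf`, `Y0` effective with `ord x = Y0 - Yinf`.  If `y * x ^ b` is
regular wherever `x` is regular and `y * x⁻¹ ^ a` is regular wherever `x⁻¹` is regular, then
`y ∈ L(a • Yinf + b • Y0)`. -/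
theorem mem_riemannRochSpace_of_ord {x y : F} (hx0 : x ≠ 0) (Yinf Y0 : Divisor K F)
    (hYinf : ∀ v, 0 ≤ Yinf v) (hY0 : ∀ v, 0 ≤ Y0 v)
    (hord : ∀ v : Place K F, v.ord x = Y0 v - Yinf v) (a b : ℕ)
    (h1 : ∀ v : Place K F, 0 ≤ v.ord x → 0 ≤ v.ord (y * x ^ b))
    (h2 : ∀ v : Place K F, v.ord x ≤ 0 → 0 ≤ v.ord (y * x⁻¹ ^ a)) :
    y ∈ riemannRochSpace (a • Yinf + b • Y0) := by
  rw [mem_riemannRochSpace_iff]
  intro v
  rcases eq_or_ne y 0 with rfl | hy0
  · exact Or.inl rfl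
  refine Or.inr ?_
  have hD : (a • Yinf + b • Y0) v = (a : ℤ) * Yinf v + (b : ℤ) * Y0 v := by
    simp [Finsupp.add_apply, Finsupp.smul_apply]
  rw [hD]
  have hY1 := hYinf v
  have hY2 := hY0 v
  have ho := hord v
  rcases le_total 0 (v.ord x) with hx | hx
  · have h := h1 v hx
    rw [v.ord_mul hy0 (pow_ne_zero b hx0), ord_pow_nat] at h
    have e1 : (0:ℤ) ≤ (b : ℤ) * Yinf v := mul_nonneg (Int.natCast_nonneg b) hY1
    have e2 : (0:ℤ) ≤ (a : ℤ) * Yinf v := mul_nonneg (Int.natCast_nonneg a) hY1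
    have e3 : (b : ℤ) * v.ord x = (b : ℤ) * Y0 v - (b : ℤ) * Yinf v := by rw [ho]; ring
    linarith
  · have h := h2 v hx
    rw [v.ord_mul hy0 (pow_ne_zero a (inv_ne_zero hx0)), ord_pow_nat, v.ord_inv] at h
    have e1 : (0:ℤ) ≤ (a : ℤ) * Y0 v := mul_nonneg (Int.natCast_nonneg a) hY2
    have e2 : (0:ℤ) ≤ (b : ℤ) * Y0 v := mul_nonneg (Int.natCast_nonneg b) hY2
    have e3 : (a : ℤ) * -v.ord x = (a : ℤ) * Yinf v - (a : ℤ) * Y0 v := by rw [ho]; ring
    linarith

/-- **(H1b).** `y * x ^ b` integral over `K[x]` and `y * x⁻¹ ^ a` integral over `K[x⁻¹]` imply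
`y ∈ L(a • Yinf + b • Y0)` for the pole and zero divisors of `x`. -/
theorem mem_riemannRochSpace_of_isIntegral {x y : F} (hx0 : x ≠ 0) (Yinf Y0 : Divisor K F)
    (hYinf : ∀ v, 0 ≤ Yinf v) (hY0 : ∀ v, 0 ≤ Y0 v)
    (hord : ∀ v : Place K F, v.ord x = Y0 v - Yinf v) (a b : ℕ)
    (h1 : IsIntegral (Algebra.adjoin K ({x} : Set F)) (y * x ^ b))
    (h2 : IsIntegral (Algebra.adjoin K ({x⁻¹} : Set F)) (y * x⁻¹ ^ a)) :
    y ∈ riemannRochSpace (a • Yinf + b • Y0) := by
  refine mem_riemannRochSpace_of_ord hx0 Yinf Y0 hYinf hY0 hord a b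
    (fun v hv => ord_nonneg_of_isIntegral_adjoin v hv h1) (fun v hv => ?_)
  refine ord_nonneg_of_isIntegral_adjoin v ?_ h2
  rw [v.ord_inv]
  omega

end PlaceHalf

section Reduction

open Fermat.Agent.S35.helper2459

variable {K F : Type*} [Field K] [Field F] [Algebra K F]
  {ι Γ₀ : Type*} [LinearOrderedCommGroupWithZero Γ₀]

/-- The subring of `F` generated by the constants of `vK`-norm `≤ 1` and the element `x`
(`A[x]` for the valuation ring `A` of `vK`). -/
def ballAdjoin (vK : Valuation K Γ₀) (x : F) : Subring F :=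
  Subring.closure (algebraMap K F '' {c | vK c ≤ 1} ∪ {x})

/-- Integrality over `A[x]` in the `Algebra.adjoin` form (helper5377 / CHARTINT vocabulary)
gives integrality over `ballAdjoin vK x`, when `A` is the valuation ring of `vK`. -/
theorem isIntegral_ballAdjoin_of_adjoin (vK : Valuation K Γ₀) (A : ValuationSubring K)
    (hA : ∀ c : K, vK c ≤ 1 ↔ c ∈ A) (x : F) {g : F}
    (h : IsIntegral (Algebra.adjoin A ({x} : Set F)) g) : IsIntegral (ballAdjoin vK x) g := by
  have hle : ∀ s ∈ Algebra.adjoin A ({x} : Set F), s ∈ ballAdjoin vK x := by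
    intro s hs
    have hs' : s ∈ (Algebra.adjoin A ({x} : Set F)).toSubring := hs
    rw [Algebra.adjoin_eq_ring_closure] at hs'
    refine Subring.closure_mono ?_ hs'
    rintro z (⟨c, rfl⟩ | hz)
    · exact Or.inl ⟨(c : K), (hA _).mpr c.2, rfl⟩
    · exact Or.inr hz
  let ψ : Algebra.adjoin A ({x} : Set F) →+* ballAdjoin vK x :=
    { toFun := fun s => ⟨s, hle s s.2⟩
      map_one' := rfl
      map_mul' := fun _ _ => rfl
      map_zero' := rfl
      map_add' := fun _ _ => rfl }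
  obtain ⟨p, hp, hpg⟩ := h
  refine ⟨p.map ψ, hp.map ψ, ?_⟩
  rw [Polynomial.eval₂_map]
  exact hpg

variable {v : ι → Valuation F Γ₀} {vK : Valuation K Γ₀} {kk : Type*} [Field kk]
  {Fk : Type*} [CommRing Fk] [Algebra kk Fk] {red : F → Fk}
  {Fk₁ Fk₂ : Type*} [Field Fk₁] [Field Fk₂] [Algebra kk Fk₁] [Algebra kk Fk₂]

/-- The unit ball of a family of valuations, as a subring. -/
def ballRing (v : ι → Valuation F Γ₀) : Subring F where
  carrier := {f | ∀ i, v i f ≤ 1}
  mul_mem' := fun ha hb i => by rw [map_mul]; exact mul_le_one' (ha i) (hb i)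
  one_mem' := fun i => by rw [map_one]
  add_mem' := fun ha hb i => (Valuation.map_add _ _ _).trans (max_le (ha i) (hb i))
  zero_mem' := fun i => by rw [map_zero]; exact zero_le_one
  neg_mem' := fun ha i => by rw [Valuation.map_neg]; exact ha i

theorem mem_ballRing {f : F} : f ∈ ballRing v ↔ ∀ i, v i f ≤ 1 := Iff.rfl

theorem ballAdjoin_le_ballRing (hred : RedDataW v (fun _ => (1 : Γ₀)) vK kk red red) {x : F}
    (hx : ∀ i, v i x ≤ 1) : ballAdjoin vK x ≤ ballRing v := by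
  refine Subring.closure_le.mpr ?_
  rintro z (⟨c, hc, rfl⟩ | hz)
  · intro i
    rw [hred.val_algebraMap]
    exact hc
  · rw [Set.mem_singleton_iff] at hz
    subst hz
    exact hx

theorem red_pow (hred : RedDataW v (fun _ => (1 : Γ₀)) vK kk red red) {x : F}
    (hx : ∀ i, v i x ≤ 1) (n : ℕ) : red (x ^ n) = red x ^ n := by
  induction n with
  | zero => rw [pow_zero, pow_zero, hred.map_one]
  | succ n ih =>
    rw [pow_succ, pow_succ, hred.map_mul _ _ ((ballRing v).pow_mem hx n) hx, ih]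

/-- Auxiliary form of the core: `θ` any ring hom from the unit ball to a function field `E/kk`
sending integral constants to constants; an element of the ball integral over `A[x]` is sent to
an element regular at every place at which `θ x` is regular. -/
theorem ord_nonneg_of_ringHom_of_isIntegral
    (hred : RedDataW v (fun _ => (1 : Γ₀)) vK kk red red)
    {E : Type*} [Field E] [Algebra kk E] (θ : ballRing v →+* E)
    (hθc : ∀ (c : K) (hc : ∀ i, v i (algebraMap K F c) ≤ 1), vK c ≤ 1 →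
      ∃ κ : kk, θ ⟨algebraMap K F c, hc⟩ = algebraMap kk E κ)
    {x : F} (hx : ∀ i, v i x ≤ 1) (w : Place kk E) (hw : 0 ≤ w.ord (θ ⟨x, hx⟩))
    {g : F} (hgb : ∀ i, v i g ≤ 1) (hg : IsIntegral (ballAdjoin vK x) g) :
    0 ≤ w.ord (θ ⟨g, hgb⟩) := by
  have hle := ballAdjoin_le_ballRing (x := x) hred hx
  -- elements of `A[x]` go to the valuation ring of `w`
  have hS : ∀ s (hs : s ∈ ballAdjoin vK x), θ ⟨s, hle hs⟩ ∈ w.toValuationSubring := by
    have hcl : ballAdjoin vK x ≤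
        (w.toValuationSubring.toSubring.comap θ).map (ballRing v).subtype := by
      refine Subring.closure_le.mpr ?_
      rintro z (⟨c, hc, rfl⟩ | hz)
      · have hcb : ∀ i, v i (algebraMap K F c) ≤ 1 := fun i => by
          rw [hred.val_algebraMap]; exact hc
        obtain ⟨κ, hκ⟩ := hθc c hcb hc
        refine ⟨⟨algebraMap K F c, hcb⟩, ?_, rfl⟩
        show θ ⟨algebraMap K F c, hcb⟩ ∈ w.toValuationSubring
        rw [hκ]
        exact w.algebraMap_mem' κ
      · rw [Set.mem_singleton_iff] at hz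
        subst hz
        exact ⟨⟨z, hx⟩, Fermat.Agent.S24.helper204.mem_of_ord_nonneg w hw, rfl⟩
    intro s hs
    obtain ⟨t, ht, hts⟩ := hcl hs
    have e : t = ⟨s, hle hs⟩ := Subtype.ext hts
    rw [← e]
    exact ht
  let incl : ballAdjoin vK x →+* ballRing v := Subring.inclusion hle
  obtain ⟨p, hp, hpg⟩ := hg
  have hpg' : p.eval₂ incl (⟨g, hgb⟩ : ballRing v) = 0 := by
    apply Subtype.ext
    have h1 := Polynomial.hom_eval₂ p incl (ballRing v).subtype (⟨g, hgb⟩ : ballRing v)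
    exact h1.trans hpg
  have hint : (θ.comp incl).IsIntegralElem (θ ⟨g, hgb⟩) := by
    refine ⟨p, hp, ?_⟩
    have h1 := Polynomial.hom_eval₂ p incl θ (⟨g, hgb⟩ : ballRing v)
    rw [hpg', map_zero] at h1
    exact h1.symm
  refine ord_nonneg_of_isIntegralElem w _ ?_ hint
  rintro ⟨s, hs⟩
  exact Fermat.Agent.S24.helper204.ord_nonneg_of_mem w (hS s hs)

/-- **(H2), core.**  Two-component special fibre `jj : Fk₁ × Fk₂ → Fk` (injective), `red` of the
unit ball lands in the range of `jj`, constants reduce to constants, `red x = jj (x₁, x₂)`.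
If `g` (in the unit ball) is integral over `A[x]` and `red g = jj (y₁, y₂)`, then `y_j` is regular
at every place of `Fk_j` at which `x_j` is regular. -/
theorem ord_nonneg_of_red_of_isIntegral
    (hred : RedDataW v (fun _ => (1 : Γ₀)) vK kk red red)
    (jj : Fk₁ × Fk₂ →ₐ[kk] Fk) (hjj : Function.Injective jj)
    (hrange : ∀ f : F, (∀ i, v i f ≤ 1) → red f ∈ Set.range jj)
    (hconst : ∀ c : K, vK c ≤ 1 → ∃ κ : kk, red (algebraMap K F c) = algebraMap kk Fk κ)
    {x : F} (hx : ∀ i, v i x ≤ 1) {x₁ : Fk₁} {x₂ : Fk₂} (hredx : red x = jj (x₁, x₂))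
    {g : F} (hgb : ∀ i, v i g ≤ 1) (hg : IsIntegral (ballAdjoin vK x) g)
    {y₁ : Fk₁} {y₂ : Fk₂} (hy : red g = jj (y₁, y₂)) :
    (∀ w : Place kk Fk₁, 0 ≤ w.ord x₁ → 0 ≤ w.ord y₁) ∧
      (∀ w : Place kk Fk₂, 0 ≤ w.ord x₂ → 0 ≤ w.ord y₂) := by
  classical
  -- the reduction as a ring hom into `Fk₁ × Fk₂`
  have hex : ∀ f : ballRing v, ∃ z : Fk₁ × Fk₂, jj z = red (f : F) := fun f => hrange f f.2
  choose ρf hρf using hex
  let ρ : ballRing v →+* Fk₁ × Fk₂ :=
    { toFun := ρf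
      map_one' := hjj (by rw [hρf, map_one]; exact hred.map_one)
      map_mul' := fun a b => hjj (by
        rw [hρf, map_mul, hρf, hρf]; exact hred.map_mul _ _ a.2 b.2)
      map_zero' := hjj (by rw [hρf, map_zero]; exact hred.map_zero)
      map_add' := fun a b => hjj (by
        rw [hρf, map_add, hρf, hρf]; exact hred.map_add _ _ a.2 b.2) }
  have hρ : ∀ f : ballRing v, jj (ρ f) = red (f : F) := hρf
  have hρx : ρ ⟨x, hx⟩ = (x₁, x₂) := hjj (by rw [hρ, hredx])
  have hρc : ∀ (c : K) (hc : ∀ i, v i (algebraMap K F c) ≤ 1), vK c ≤ 1 → ∃ κ : kk,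
      ρ ⟨algebraMap K F c, hc⟩ = algebraMap kk (Fk₁ × Fk₂) κ := by
    intro c hcb hc
    obtain ⟨κ, hκ⟩ := hconst c hc
    exact ⟨κ, hjj (by rw [hρ, AlgHom.commutes]; exact hκ)⟩
  have hρg : ρ ⟨g, hgb⟩ = (y₁, y₂) := hjj (by rw [hρ, hy])
  constructor
  · intro w hw
    have h := ord_nonneg_of_ringHom_of_isIntegral hred ((RingHom.fst Fk₁ Fk₂).comp ρ)
      (fun c hcb hc => by
        obtain ⟨κ, hκ⟩ := hρc c hcb hc
        exact ⟨κ, by rw [RingHom.comp_apply, hκ]; rfl⟩)
      hx w (by rw [RingHom.comp_apply, hρx]; exact hw) hgb hg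
    rw [RingHom.comp_apply, hρg] at h
    exact h
  · intro w hw
    have h := ord_nonneg_of_ringHom_of_isIntegral hred ((RingHom.snd Fk₁ Fk₂).comp ρ)
      (fun c hcb hc => by
        obtain ⟨κ, hκ⟩ := hρc c hcb hc
        exact ⟨κ, by rw [RingHom.comp_apply, hκ]; rfl⟩)
      hx w (by rw [RingHom.comp_apply, hρx]; exact hw) hgb hg
    rw [RingHom.comp_apply, hρg] at h
    exact h

/-- **(H2): the containment half of `(hcont)`.**  In the situation of
`ord_nonneg_of_red_of_isIntegral`, let `x` be a unit for all the valuations with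
`red x = jj (x₁, x₂)`, and `Yinf_j`, `Y0_j` effective divisors of `Fk_j` with
`ord x_j = Y0_j - Yinf_j`.  If `f` is in the unit ball, `f * x ^ b` is integral over `A[x]` and
`f * x⁻¹ ^ a` is integral over `A[x⁻¹]` (chart integrality for `f ∈ L(a E₁ + b E₂)`,
`div x = E₂ - E₁`), then `red f = jj (y₁, y₂)` with `y_j ∈ L(a • Yinf_j + b • Y0_j)`. -/
theorem hcont_of_isIntegral
    (hred : RedDataW v (fun _ => (1 : Γ₀)) vK kk red red)
    (jj : Fk₁ × Fk₂ →ₐ[kk] Fk) (hjj : Function.Injective jj)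
    (hrange : ∀ f : F, (∀ i, v i f ≤ 1) → red f ∈ Set.range jj)
    (hconst : ∀ c : K, vK c ≤ 1 → ∃ κ : kk, red (algebraMap K F c) = algebraMap kk Fk κ)
    {x : F} (hx : ∀ i, v i x = 1) {x₁ : Fk₁} {x₂ : Fk₂} (hredx : red x = jj (x₁, x₂))
    (Yinf₁ Y0₁ : Divisor kk Fk₁) (hYinf₁ : ∀ w, 0 ≤ Yinf₁ w) (hY0₁ : ∀ w, 0 ≤ Y0₁ w)
    (hord₁ : ∀ w : Place kk Fk₁, w.ord x₁ = Y0₁ w - Yinf₁ w)
    (Yinf₂ Y0₂ : Divisor kk Fk₂) (hYinf₂ : ∀ w, 0 ≤ Yinf₂ w) (hY0₂ : ∀ w, 0 ≤ Y0₂ w)
    (hord₂ : ∀ w : Place kk Fk₂, w.ord x₂ = Y0₂ w - Yinf₂ w)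
    (a b : ℕ) {f : F} (hf : ∀ i, v i f ≤ 1)
    (h1 : IsIntegral (ballAdjoin vK x) (f * x ^ b))
    (h2 : IsIntegral (ballAdjoin vK x⁻¹) (f * x⁻¹ ^ a)) :
    ∃ (y₁ : Fk₁) (y₂ : Fk₂), red f = jj (y₁, y₂) ∧
      y₁ ∈ riemannRochSpace (a • Yinf₁ + b • Y0₁) ∧
      y₂ ∈ riemannRochSpace (a • Yinf₂ + b • Y0₂) := by
  have hxle : ∀ i, v i x ≤ 1 := fun i => (hx i).le
  have hxi : ∀ i, v i x⁻¹ ≤ 1 := fun i => by rw [map_inv₀, hx i, inv_one]
  have hx0 : x ≠ 0 := by
    rintro rfl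
    rcases isEmpty_or_nonempty ι with hι | ⟨⟨i⟩⟩
    · -- no valuation at all: `red` is constant `= red 0`, contradiction with `red 1 = 1`
      have h0 : red (0 : F) = 0 := hred.map_zero
      have h1' : red (1 : F) = 0 := (hred.eq_zero_iff 1 (fun i => isEmptyElim i)).mpr
        (fun i => isEmptyElim i)
      have h10 : (1 : Fk) = 0 := by rw [← hred.map_one, h1']
      -- then `jj (1, 1) = jj 0`
      have : ((1 : Fk₁ × Fk₂)) = 0 := hjj (by rw [map_one, map_zero]; exact h10)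
      exact one_ne_zero (congrArg Prod.fst this)
    · have := hx i
      rw [map_zero] at this
      exact zero_ne_one this
  obtain ⟨⟨y₁, y₂⟩, hy⟩ := hrange f hf
  obtain ⟨⟨u₁, u₂⟩, hu⟩ := hrange x⁻¹ hxi
  -- `u_j = x_j⁻¹`
  have hxu : ((x₁, x₂) : Fk₁ × Fk₂) * (u₁, u₂) = 1 := hjj (by
    rw [map_mul, ← hredx, hu, ← hred.map_mul _ _ hxle hxi, mul_inv_cancel₀ hx0, map_one]
    exact hred.map_one)
  have hxu₁ : x₁ * u₁ = 1 := congrArg Prod.fst hxu
  have hxu₂ : x₂ * u₂ = 1 := congrArg Prod.snd hxu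
  have hx₁0 : x₁ ≠ 0 := left_ne_zero_of_mul_eq_one hxu₁
  have hx₂0 : x₂ ≠ 0 := left_ne_zero_of_mul_eq_one hxu₂
  have hu₁ : u₁ = x₁⁻¹ := eq_inv_of_mul_eq_one_right hxu₁
  have hu₂ : u₂ = x₂⁻¹ := eq_inv_of_mul_eq_one_right hxu₂
  -- the two reductions
  have hr1 : red (f * x ^ b) = jj (y₁ * x₁ ^ b, y₂ * x₂ ^ b) := by
    rw [hred.map_mul _ _ hf ((ballRing v).pow_mem hxle b), red_pow hred hxle, ← hy, hredx,
      ← map_pow, ← map_mul]
    rfl
  have hr2 : red (f * x⁻¹ ^ a) = jj (y₁ * x₁⁻¹ ^ a, y₂ * x₂⁻¹ ^ a) := by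
    rw [hred.map_mul _ _ hf ((ballRing v).pow_mem hxi a), red_pow hred hxi, ← hy, ← hu,
      ← map_pow, ← map_mul, hu₁, hu₂]
    rfl
  have hb1 : ∀ i, v i (f * x ^ b) ≤ 1 := (ballRing v).mul_mem hf ((ballRing v).pow_mem hxle b)
  have hb2 : ∀ i, v i (f * x⁻¹ ^ a) ≤ 1 := (ballRing v).mul_mem hf ((ballRing v).pow_mem hxi a)
  have hu' : red x⁻¹ = jj (x₁⁻¹, x₂⁻¹) := by rw [← hu, hu₁, hu₂]
  obtain ⟨k11, k12⟩ := ord_nonneg_of_red_of_isIntegral hred jj hjj hrange hconst hxle hredx hb1 h1 hr1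
  obtain ⟨k21, k22⟩ := ord_nonneg_of_red_of_isIntegral hred jj hjj hrange hconst hxi hu' hb2 h2 hr2
  refine ⟨y₁, y₂, hy.symm ▸ rfl, ?_, ?_⟩
  · refine mem_riemannRochSpace_of_ord hx₁0 Yinf₁ Y0₁ hYinf₁ hY0₁ hord₁ a b k11 (fun w hw => ?_)
    refine k21 w ?_
    rw [w.ord_inv]
    omega
  · refine mem_riemannRochSpace_of_ord hx₂0 Yinf₂ Y0₂ hYinf₂ hY0₂ hord₂ a b k12 (fun w hw => ?_)
    refine k22 w ?_
    rw [w.ord_inv]
    omega

end Reduction

end Fermat.Agent.S35.helper3028
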