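/-
S35/S34 geometry module, E3 instantiation: the hypothesis `(hcont)` of
`helper603.twisted_lattice_of_components` (E3, function-field form) in its exact binder shape
(board row S35/S34-HCONT, helper3028).

* `ord_mul_pow_nonneg_of_mem_rr`, `ord_mul_inv_pow_nonneg_of_mem_rr`: for `f ∈ L(a E₁ + b E₂)`
  (`div x = E₂ - E₁`, `E₁`, `E₂` effective and disjoint), `f * x ^ b` is regular on the chart
  `x` and `f * x⁻¹ ^ a` is regular on the chart `x⁻¹`.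
* `hRR_of_regular`: the hypothesis `hRR` of `helper603.hcont_of_chart` (= `(hcont)` without the
  node equality) verbatim, from chart integrality `hint₁`, `hint₂` (ball elements regular on a
  chart are integral over `A[x]`, resp. `A[x⁻¹]`).
* `hint_of_chart`: `hint₁`, `hint₂` from the CHARTINT hypotheses of `helper2459.chart_isIntegral`.
* `hRR_of_chart`: the two combined (**(H2)**: `hRR` from the CHARTINT hypotheses).
* `hcont_of_regular`, `hcont_of_chart`, `hcont_of_chart_isIntegral`: `(hcont)` itself, with the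
  node equality assumed for ball elements regular on the chart `x` (resp. integral over `K[x]`,
  the shape of (NODE) of KRON-INST); an alternative to `helper603.hcont_of_chart`.
-/
import Mathlib
import Fermat.Agent.S35.helper3028_HCont
import Fermat.Agent.S35.helper2459_ChartInt
import Fermat.Agent.S35.helper603_NodalRRInst

set_option autoImplicit false

namespace Fermat.Agent.S35.helper3028

open AlgebraicCurve Polynomial IntermediateField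
open Fermat.Agent.S35.helper2459 (RedDataW)
open Fermat.Agent.S35.helper603 (valueAt nodeRing evalAt)

section ChartRegular

variable {K F : Type*} [Field K] [Field F] [Algebra K F]

/-- For `f ∈ L(a E₁ + b E₂)` with `div x = E₂ - E₁` (`E₁`, `E₂` effective, disjoint), the function
`f * x ^ b` is regular wherever `x` is. -/
theorem ord_mul_pow_nonneg_of_mem_rr {x f : F} (hx0 : x ≠ 0) (E1 E2 : Divisor K F)
    (hE1 : 0 ≤ E1) (hE2 : 0 ≤ E2) (hdisj : ∀ w : Place K F, E1 w = 0 ∨ E2 w = 0)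
    (hxord : ∀ w : Place K F, w.ord x = E2 w - E1 w) (a b : ℕ)
    (hf : f ∈ riemannRochSpace (a • E1 + b • E2)) (w : Place K F) (hw : 0 ≤ w.ord x) :
    0 ≤ w.ord (f * x ^ b) := by
  rcases eq_or_ne f 0 with rfl | hf0
  · rw [zero_mul, Place.ord_zero]
  rw [w.ord_mul hf0 (pow_ne_zero b hx0), ord_pow_nat]
  have h := (mem_riemannRochSpace_iff.mp hf w).resolve_left hf0
  have hD : (a • E1 + b • E2) w = (a : ℤ) * E1 w + (b : ℤ) * E2 w := by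
    simp [Finsupp.add_apply, Finsupp.smul_apply]
  rw [hD] at h
  have h1 : (0 : ℤ) ≤ E1 w := by simpa using Finsupp.le_def.mp hE1 w
  have h2 : (0 : ℤ) ≤ E2 w := by simpa using Finsupp.le_def.mp hE2 w
  have ho := hxord w
  have hE1w : E1 w = 0 := by
    rcases hdisj w with h0 | h0
    · exact h0
    · rw [h0] at ho; omega
  rw [hE1w, mul_zero, zero_add] at h
  rw [ho, hE1w, sub_zero]
  linarith

/-- For `f ∈ L(a E₁ + b E₂)` with `div x = E₂ - E₁` (`E₁`, `E₂` effective, disjoint), the function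
`f * x⁻¹ ^ a` is regular wherever `x⁻¹` is. -/
theorem ord_mul_inv_pow_nonneg_of_mem_rr {x f : F} (hx0 : x ≠ 0) (E1 E2 : Divisor K F)
    (hE1 : 0 ≤ E1) (hE2 : 0 ≤ E2) (hdisj : ∀ w : Place K F, E1 w = 0 ∨ E2 w = 0)
    (hxord : ∀ w : Place K F, w.ord x = E2 w - E1 w) (a b : ℕ)
    (hf : f ∈ riemannRochSpace (a • E1 + b • E2)) (w : Place K F) (hw : w.ord x ≤ 0) :
    0 ≤ w.ord (f * x⁻¹ ^ a) := by
  rcases eq_or_ne f 0 with rfl | hf0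
  · rw [zero_mul, Place.ord_zero]
  rw [w.ord_mul hf0 (pow_ne_zero a (inv_ne_zero hx0)), ord_pow_nat, w.ord_inv]
  have h := (mem_riemannRochSpace_iff.mp hf w).resolve_left hf0
  have hD : (a • E1 + b • E2) w = (a : ℤ) * E1 w + (b : ℤ) * E2 w := by
    simp [Finsupp.add_apply, Finsupp.smul_apply]
  rw [hD] at h
  have h1 : (0 : ℤ) ≤ E1 w := by simpa using Finsupp.le_def.mp hE1 w
  have h2 : (0 : ℤ) ≤ E2 w := by simpa using Finsupp.le_def.mp hE2 w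
  have ho := hxord w
  have hE2w : E2 w = 0 := by
    rcases hdisj w with h0 | h0
    · rw [h0] at ho; omega
    · exact h0
  rw [hE2w, mul_zero, add_zero] at h
  rw [ho, hE2w, zero_sub, neg_neg]
  linarith

end ChartRegular

section HCont

variable {K F : Type*} [Field K] [Field F] [Algebra K F]
  {ι Γ₀ : Type*} [LinearOrderedCommGroupWithZero Γ₀]
  {v : ι → Valuation F Γ₀} {vK : Valuation K Γ₀} {kk : Type*} [Field kk]
  {Fk : Type*} [CommRing Fk] [Algebra kk Fk] {red : F → Fk}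
  {Fk₁ Fk₂ : Type*} [Field Fk₁] [Field Fk₂] [Algebra kk Fk₁] [Algebra kk Fk₂]
  {I : Type*}

/-- The value at a node of a product `y * x ^ b` of functions regular at the node. -/
theorem valueAt_mul_pow {E : Type*} [Field E] [Algebra kk E] (w : Place kk E) (hw : w.deg = 1)
    {y x : E} (hy : w.adicValuation y ≤ 1) (hx : w.adicValuation x ≤ 1) (b : ℕ) :
    valueAt w hw (y * x ^ b) = valueAt w hw y * valueAt w hw x ^ b := by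
  let Pw : Unit → Place kk E := fun _ => w
  have hy' : y ∈ nodeRing Pw := fun _ => hy
  have hx' : x ∈ nodeRing Pw := fun _ => hx
  have h := map_mul (evalAt Pw (fun _ => hw) ()) ⟨y, hy'⟩ (⟨x, hx'⟩ ^ b)
  rw [map_pow] at h
  exact h

/-- **(H2), abstract form: `hRR` of `helper603.hcont_of_chart` from chart integrality.**

`hint₁`, `hint₂`: an element of the unit ball regular on the chart `x` (resp. `x⁻¹`) is integral
over `A[x]` (resp. `A[x⁻¹]`) [CHARTINT].  `E₁`, `E₂` effective and disjoint with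
`div x = E₂ - E₁`; `Yinf_j`, `Y0_j` effective with `div x_j = Y0_j - Yinf_j`, where
`red x = jj (x₁, x₂)`.  Then the reduction of the unit ball of `L(a E₁ + b E₂)` lies in
`L(a Yinf₁ + b Y0₁) × L(a Yinf₂ + b Y0₂)`. -/
theorem hRR_of_regular
    (hred : RedDataW v (fun _ => (1 : Γ₀)) vK kk red red)
    (hconst : ∀ c : K, vK c ≤ 1 → ∃ κ : kk, red (algebraMap K F c) = algebraMap kk Fk κ)
    (jj : Fk₁ × Fk₂ →ₐ[kk] Fk) (hjj : Function.Injective jj)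
    (hrange : ∀ f : F, (∀ i, v i f ≤ 1) → ∃ y : Fk₁ × Fk₂, red f = jj y)
    (Yinf₁ Y0₁ : Divisor kk Fk₁) (Yinf₂ Y0₂ : Divisor kk Fk₂)
    (hYinf₁ : 0 ≤ Yinf₁) (hY0₁ : 0 ≤ Y0₁) (hYinf₂ : 0 ≤ Yinf₂) (hY0₂ : 0 ≤ Y0₂)
    (E1 E2 : Divisor K F) (hE1 : 0 ≤ E1) (hE2 : 0 ≤ E2)
    (hdisj : ∀ w : Place K F, E1 w = 0 ∨ E2 w = 0)
    (x : F) (hx0 : x ≠ 0) (hxord : ∀ w : Place K F, w.ord x = E2 w - E1 w)
    (hxv : ∀ i, v i x = 1)
    (x₁ : Fk₁) (x₂ : Fk₂) (hredx : red x = jj (x₁, x₂))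
    (hx₁ : ∀ w : Place kk Fk₁, w.ord x₁ = Y0₁ w - Yinf₁ w)
    (hx₂ : ∀ w : Place kk Fk₂, w.ord x₂ = Y0₂ w - Yinf₂ w)
    (hint₁ : ∀ g : F, (∀ i, v i g ≤ 1) → (∀ w : Place K F, 0 ≤ w.ord x → 0 ≤ w.ord g) →
      IsIntegral (ballAdjoin vK x) g)
    (hint₂ : ∀ g : F, (∀ i, v i g ≤ 1) → (∀ w : Place K F, w.ord x ≤ 0 → 0 ≤ w.ord g) →
      IsIntegral (ballAdjoin vK x⁻¹) g) :
    ∀ a b : ℕ, ∀ f ∈ riemannRochSpace (a • E1 + b • E2), (∀ i, v i f ≤ 1) →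
      ∃ y₁ ∈ riemannRochSpace (a • Yinf₁ + b • Y0₁),
        ∃ y₂ ∈ riemannRochSpace (a • Yinf₂ + b • Y0₂), red f = jj (y₁, y₂) := by
  intro a b f hf hfb
  have hxle : ∀ i, v i x ≤ 1 := fun i => (hxv i).le
  have hxi : ∀ i, v i x⁻¹ ≤ 1 := fun i => by rw [map_inv₀, hxv i, inv_one]
  have hb1 : ∀ i, v i (f * x ^ b) ≤ 1 := (ballRing v).mul_mem hfb ((ballRing v).pow_mem hxle b)
  have hb2 : ∀ i, v i (f * x⁻¹ ^ a) ≤ 1 := (ballRing v).mul_mem hfb ((ballRing v).pow_mem hxi a)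
  have hreg1 : ∀ w : Place K F, 0 ≤ w.ord x → 0 ≤ w.ord (f * x ^ b) := fun w hw =>
    ord_mul_pow_nonneg_of_mem_rr hx0 E1 E2 hE1 hE2 hdisj hxord a b hf w hw
  have hreg2 : ∀ w : Place K F, w.ord x ≤ 0 → 0 ≤ w.ord (f * x⁻¹ ^ a) := fun w hw =>
    ord_mul_inv_pow_nonneg_of_mem_rr hx0 E1 E2 hE1 hE2 hdisj hxord a b hf w hw
  obtain ⟨y₁, y₂, hy, hy₁, hy₂⟩ := hcont_of_isIntegral hred jj hjj
    (fun g hg => by obtain ⟨y, hy⟩ := hrange g hg; exact ⟨y, hy.symm⟩) hconst hxv hredx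
    Yinf₁ Y0₁ (fun w => by simpa using Finsupp.le_def.mp hYinf₁ w)
    (fun w => by simpa using Finsupp.le_def.mp hY0₁ w) hx₁
    Yinf₂ Y0₂ (fun w => by simpa using Finsupp.le_def.mp hYinf₂ w)
    (fun w => by simpa using Finsupp.le_def.mp hY0₂ w) hx₂ a b hfb
    (hint₁ _ hb1 hreg1) (hint₂ _ hb2 hreg2)
  exact ⟨y₁, hy₁, y₂, hy₂, hy⟩

/-- **`(hcont)` of E3-FF from chart integrality and the node equality on one chart.**

`hint₁`, `hint₂`: an element of the unit ball regular on the chart `x` (resp. `x⁻¹`) is integral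
over `A[x]` (resp. `A[x⁻¹]`) [CHARTINT].  `hnode`: for an element `g` of the unit ball regular on
the chart `x`, the two components of `red g` take the same value at the two points of every
node [(NODE) of KRON-INST].  `E₁`, `E₂` effective and disjoint with `div x = E₂ - E₁`; the nodes
are off the zeros and poles of `x₁`, `x₂`.  Conclusion: the hypothesis `hcont` of
`helper603.twisted_lattice_of_components`, verbatim. -/
theorem hcont_of_regular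
    (hred : RedDataW v (fun _ => (1 : Γ₀)) vK kk red red)
    (hconst : ∀ c : K, vK c ≤ 1 → ∃ κ : kk, red (algebraMap K F c) = algebraMap kk Fk κ)
    (jj : Fk₁ × Fk₂ →ₐ[kk] Fk) (hjj : Function.Injective jj)
    (hrange : ∀ f : F, (∀ i, v i f ≤ 1) → ∃ y : Fk₁ × Fk₂, red f = jj y)
    (hdeg₁ : ∀ w : Place kk Fk₁, w.deg = 1) (hdeg₂ : ∀ w : Place kk Fk₂, w.deg = 1)
    (P : I → Place kk Fk₁) (Q : I → Place kk Fk₂)
    (Yinf₁ Y0₁ : Divisor kk Fk₁) (Yinf₂ Y0₂ : Divisor kk Fk₂)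
    (hYinf₁ : 0 ≤ Yinf₁) (hY0₁ : 0 ≤ Y0₁) (hYinf₂ : 0 ≤ Yinf₂) (hY0₂ : 0 ≤ Y0₂)
    (hPY : ∀ i, Yinf₁ (P i) = 0 ∧ Y0₁ (P i) = 0) (hQY : ∀ i, Yinf₂ (Q i) = 0 ∧ Y0₂ (Q i) = 0)
    (E1 E2 : Divisor K F) (hE1 : 0 ≤ E1) (hE2 : 0 ≤ E2)
    (hdisj : ∀ w : Place K F, E1 w = 0 ∨ E2 w = 0)
    (x : F) (hx0 : x ≠ 0) (hxord : ∀ w : Place K F, w.ord x = E2 w - E1 w)
    (hxv : ∀ i, v i x = 1)
    (x₁ : Fk₁) (x₂ : Fk₂) (hredx : red x = jj (x₁, x₂))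
    (hx₁ : ∀ w : Place kk Fk₁, w.ord x₁ = Y0₁ w - Yinf₁ w)
    (hx₂ : ∀ w : Place kk Fk₂, w.ord x₂ = Y0₂ w - Yinf₂ w)
    (hint₁ : ∀ g : F, (∀ i, v i g ≤ 1) → (∀ w : Place K F, 0 ≤ w.ord x → 0 ≤ w.ord g) →
      IsIntegral (ballAdjoin vK x) g)
    (hint₂ : ∀ g : F, (∀ i, v i g ≤ 1) → (∀ w : Place K F, w.ord x ≤ 0 → 0 ≤ w.ord g) →
      IsIntegral (ballAdjoin vK x⁻¹) g)
    (hnode : ∀ g : F, (∀ i, v i g ≤ 1) → (∀ w : Place K F, 0 ≤ w.ord x → 0 ≤ w.ord g) →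
      ∀ (z₁ : Fk₁) (z₂ : Fk₂), red g = jj (z₁, z₂) →
        ∀ i, valueAt (Q i) (hdeg₂ (Q i)) z₂ = valueAt (P i) (hdeg₁ (P i)) z₁) :
    ∀ a b : ℕ, ∀ f ∈ riemannRochSpace (a • E1 + b • E2), (∀ i, v i f ≤ 1) →
      ∃ y₁ ∈ riemannRochSpace (a • Yinf₁ + b • Y0₁),
        ∃ y₂ ∈ riemannRochSpace (a • Yinf₂ + b • Y0₂), red f = jj (y₁, y₂) ∧
          ∀ i, valueAt (Q i) (hdeg₂ (Q i)) y₂ = valueAt (P i) (hdeg₁ (P i)) y₁ := by
  intro a b f hf hfb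
  have hxle : ∀ i, v i x ≤ 1 := fun i => (hxv i).le
  have hxi : ∀ i, v i x⁻¹ ≤ 1 := fun i => by rw [map_inv₀, hxv i, inv_one]
  have hb1 : ∀ i, v i (f * x ^ b) ≤ 1 := (ballRing v).mul_mem hfb ((ballRing v).pow_mem hxle b)
  have hb2 : ∀ i, v i (f * x⁻¹ ^ a) ≤ 1 := (ballRing v).mul_mem hfb ((ballRing v).pow_mem hxi a)
  have hreg1 : ∀ w : Place K F, 0 ≤ w.ord x → 0 ≤ w.ord (f * x ^ b) := fun w hw =>
    ord_mul_pow_nonneg_of_mem_rr hx0 E1 E2 hE1 hE2 hdisj hxord a b hf w hw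
  obtain ⟨y₁, hy₁, y₂, hy₂, hy⟩ := hRR_of_regular hred hconst jj hjj hrange Yinf₁ Y0₁ Yinf₂ Y0₂
    hYinf₁ hY0₁ hYinf₂ hY0₂ E1 E2 hE1 hE2 hdisj x hx0 hxord hxv x₁ x₂ hredx hx₁ hx₂ hint₁ hint₂
    a b f hf hfb
  refine ⟨y₁, hy₁, y₂, hy₂, hy, fun i => ?_⟩
  -- the node equality for `f * x ^ b` and for `x`
  have hr1 : red (f * x ^ b) = jj (y₁ * x₁ ^ b, y₂ * x₂ ^ b) := by
    rw [hred.map_mul _ _ hfb ((ballRing v).pow_mem hxle b), red_pow hred hxle, hy, hredx,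
      ← map_pow, ← map_mul]
    rfl
  have hn1 := hnode _ hb1 hreg1 _ _ hr1 i
  have hn2 := hnode x hxle (fun w hw => hw) _ _ hredx i
  -- regularity at the nodes
  have hDP : (a • Yinf₁ + b • Y0₁) (P i) = 0 := by
    simp [Finsupp.add_apply, Finsupp.smul_apply, (hPY i).1, (hPY i).2]
  have hDQ : (a • Yinf₂ + b • Y0₂) (Q i) = 0 := by
    simp [Finsupp.add_apply, Finsupp.smul_apply, (hQY i).1, (hQY i).2]
  have hy₁P : (P i).adicValuation y₁ ≤ 1 := by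
    have := hy₁ (P i)
    rwa [hDP, WithZero.exp_zero] at this
  have hy₂Q : (Q i).adicValuation y₂ ≤ 1 := by
    have := hy₂ (Q i)
    rwa [hDQ, WithZero.exp_zero] at this
  have hx₁P0 : (P i).ord x₁ = 0 := by rw [hx₁ (P i), (hPY i).1, (hPY i).2, sub_zero]
  have hx₂Q0 : (Q i).ord x₂ = 0 := by rw [hx₂ (Q i), (hQY i).1, (hQY i).2, sub_zero]
  have hx₁P : (P i).adicValuation x₁ ≤ 1 := by
    rw [Place.adicValuation_le_one_iff]; right; rw [hx₁P0]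
  have hx₂Q : (Q i).adicValuation x₂ ≤ 1 := by
    rw [Place.adicValuation_le_one_iff]; right; rw [hx₂Q0]
  rw [valueAt_mul_pow (Q i) (hdeg₂ (Q i)) hy₂Q hx₂Q, valueAt_mul_pow (P i) (hdeg₁ (P i)) hy₁P hx₁P,
    hn2] at hn1
  -- the value of `x₁` at the node is nonzero
  have hx₁ne : x₁ ≠ 0 := by
    rintro rfl
    obtain ⟨z, hz⟩ := hrange x⁻¹ hxi
    have h1 : ((0 : Fk₁), x₂) * z = 1 := hjj (by
      rw [map_mul, ← hredx, ← hz, ← hred.map_mul x x⁻¹ hxle hxi, mul_inv_cancel₀ hx0,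
        hred.map_one, map_one])
    have h2 := congrArg Prod.fst h1
    simp at h2
  have hval : valueAt (P i) (hdeg₁ (P i)) x₁ ≠ 0 := by
    intro h0
    rw [Fermat.Agent.S35.helper603.valueAt_eq_zero_iff (P i) (hdeg₁ (P i)) hx₁P,
      (P i).adicValuation_eq_exp_neg_ord hx₁ne, hx₁P0, neg_zero, WithZero.exp_zero] at h0
    exact lt_irrefl _ h0
  exact mul_right_cancel₀ (pow_ne_zero b hval) hn1

/-- **Chart integrality in the ball vocabulary** from the CHARTINT hypotheses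
(`helper2459.chart_isIntegral`, `chart_isIntegral_inv`): `A` the valuation ring of `vK`,
`V₁`, `V₂` valuation rings of `F` containing the unit ball, `x` a Gauss element of `V₁`, and
(T4) for `V₁ ∩ V₂`. -/
theorem hint_of_chart [CharZero K] (A : ValuationSubring K) (hvK : ∀ c : K, vK c ≤ 1 ↔ c ∈ A)
    (V₁ V₂ : ValuationSubring F) (hball : ∀ f : F, (∀ i, v i f ≤ 1) → f ∈ V₁ ∧ f ∈ V₂)
    (x : F) [FiniteDimensional K⟮x⟯ F] (hA : V₁.comap (algebraMap K F) = A)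
    (hx : Fermat.Agent.S35.helper1024.GaussElt A V₁ x)
    (hT4 : ∀ z : F, z ∈ V₁ → z ∈ V₂ → ∃ p : F[X], p.Monic ∧ (∀ i, p.coeff i ∈ V₁) ∧
      (∀ i, p.coeff i ∈ K⟮x⟯) ∧ aeval z p = 0) :
    (∀ g : F, (∀ i, v i g ≤ 1) → (∀ w : Place K F, 0 ≤ w.ord x → 0 ≤ w.ord g) →
      IsIntegral (ballAdjoin vK x) g) ∧
    (∀ g : F, (∀ i, v i g ≤ 1) → (∀ w : Place K F, w.ord x ≤ 0 → 0 ≤ w.ord g) →
      IsIntegral (ballAdjoin vK x⁻¹) g) := by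
  have hA0 : ∀ a : K, a ∈ A → a ∈ (algebraMap A K).range := fun a ha => ⟨⟨a, ha⟩, rfl⟩
  constructor
  · intro g hg hreg
    obtain ⟨hg₁, hg₂⟩ := hball g hg
    exact isIntegral_ballAdjoin_of_adjoin vK A hvK x
      (Fermat.Agent.S35.helper2459.chart_isIntegral (A0 := A) A hA0 V₁ V₂ x hA hx hT4 g hg₁ hg₂
        hreg)
  · intro g hg hreg
    obtain ⟨hg₁, hg₂⟩ := hball g hg
    exact isIntegral_ballAdjoin_of_adjoin vK A hvK x⁻¹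
      (Fermat.Agent.S35.helper2459.chart_isIntegral_inv (A0 := A) A hA0 V₁ V₂ x hA hx hT4 g hg₁
        hg₂ hreg)

/-- **(H2): `hRR` of `helper603.hcont_of_chart` from the CHARTINT hypotheses.**

`A` the valuation ring of `vK`, `V₁`, `V₂` valuation rings of `F` containing the unit ball of the
family `v`, `x` a Gauss element of `V₁` over `A`, (T4) for `V₁ ∩ V₂`; `E₁`, `E₂` effective and
disjoint with `div x = E₂ - E₁`.  Then the reduction of the unit ball of `L(a E₁ + b E₂)` lies in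
`L(a Yinf₁ + b Y0₁) × L(a Yinf₂ + b Y0₂)`. -/
theorem hRR_of_chart [CharZero K]
    (hred : RedDataW v (fun _ => (1 : Γ₀)) vK kk red red)
    (hconst : ∀ c : K, vK c ≤ 1 → ∃ κ : kk, red (algebraMap K F c) = algebraMap kk Fk κ)
    (jj : Fk₁ × Fk₂ →ₐ[kk] Fk) (hjj : Function.Injective jj)
    (hrange : ∀ f : F, (∀ i, v i f ≤ 1) → ∃ y : Fk₁ × Fk₂, red f = jj y)
    (Yinf₁ Y0₁ : Divisor kk Fk₁) (Yinf₂ Y0₂ : Divisor kk Fk₂)
    (hYinf₁ : 0 ≤ Yinf₁) (hY0₁ : 0 ≤ Y0₁) (hYinf₂ : 0 ≤ Yinf₂) (hY0₂ : 0 ≤ Y0₂)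
    (E1 E2 : Divisor K F) (hE1 : 0 ≤ E1) (hE2 : 0 ≤ E2)
    (hdisj : ∀ w : Place K F, E1 w = 0 ∨ E2 w = 0)
    (x : F) (hx0 : x ≠ 0) (hxord : ∀ w : Place K F, w.ord x = E2 w - E1 w)
    (hxv : ∀ i, v i x = 1)
    (x₁ : Fk₁) (x₂ : Fk₂) (hredx : red x = jj (x₁, x₂))
    (hx₁ : ∀ w : Place kk Fk₁, w.ord x₁ = Y0₁ w - Yinf₁ w)
    (hx₂ : ∀ w : Place kk Fk₂, w.ord x₂ = Y0₂ w - Yinf₂ w)
    (A : ValuationSubring K) (hvK : ∀ c : K, vK c ≤ 1 ↔ c ∈ A)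
    (V₁ V₂ : ValuationSubring F) (hball : ∀ f : F, (∀ i, v i f ≤ 1) → f ∈ V₁ ∧ f ∈ V₂)
    [FiniteDimensional K⟮x⟯ F] (hA : V₁.comap (algebraMap K F) = A)
    (hx : Fermat.Agent.S35.helper1024.GaussElt A V₁ x)
    (hT4 : ∀ z : F, z ∈ V₁ → z ∈ V₂ → ∃ p : F[X], p.Monic ∧ (∀ i, p.coeff i ∈ V₁) ∧
      (∀ i, p.coeff i ∈ K⟮x⟯) ∧ aeval z p = 0) :
    ∀ a b : ℕ, ∀ f ∈ riemannRochSpace (a • E1 + b • E2), (∀ i, v i f ≤ 1) →
      ∃ y₁ ∈ riemannRochSpace (a • Yinf₁ + b • Y0₁),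
        ∃ y₂ ∈ riemannRochSpace (a • Yinf₂ + b • Y0₂), red f = jj (y₁, y₂) := by
  obtain ⟨hint₁, hint₂⟩ := hint_of_chart (v := v) A hvK V₁ V₂ hball x hA hx hT4
  exact hRR_of_regular hred hconst jj hjj hrange Yinf₁ Y0₁ Yinf₂ Y0₂ hYinf₁ hY0₁ hYinf₂ hY0₂
    E1 E2 hE1 hE2 hdisj x hx0 hxord hxv x₁ x₂ hredx hx₁ hx₂ hint₁ hint₂

/-- **`(hcont)` of E3-FF from the CHARTINT hypotheses and the node equality on the chart `x`.** -/
theorem hcont_of_chart [CharZero K]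
    (hred : RedDataW v (fun _ => (1 : Γ₀)) vK kk red red)
    (hconst : ∀ c : K, vK c ≤ 1 → ∃ κ : kk, red (algebraMap K F c) = algebraMap kk Fk κ)
    (jj : Fk₁ × Fk₂ →ₐ[kk] Fk) (hjj : Function.Injective jj)
    (hrange : ∀ f : F, (∀ i, v i f ≤ 1) → ∃ y : Fk₁ × Fk₂, red f = jj y)
    (hdeg₁ : ∀ w : Place kk Fk₁, w.deg = 1) (hdeg₂ : ∀ w : Place kk Fk₂, w.deg = 1)
    (P : I → Place kk Fk₁) (Q : I → Place kk Fk₂)
    (Yinf₁ Y0₁ : Divisor kk Fk₁) (Yinf₂ Y0₂ : Divisor kk Fk₂)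
    (hYinf₁ : 0 ≤ Yinf₁) (hY0₁ : 0 ≤ Y0₁) (hYinf₂ : 0 ≤ Yinf₂) (hY0₂ : 0 ≤ Y0₂)
    (hPY : ∀ i, Yinf₁ (P i) = 0 ∧ Y0₁ (P i) = 0) (hQY : ∀ i, Yinf₂ (Q i) = 0 ∧ Y0₂ (Q i) = 0)
    (E1 E2 : Divisor K F) (hE1 : 0 ≤ E1) (hE2 : 0 ≤ E2)
    (hdisj : ∀ w : Place K F, E1 w = 0 ∨ E2 w = 0)
    (x : F) (hx0 : x ≠ 0) (hxord : ∀ w : Place K F, w.ord x = E2 w - E1 w)
    (hxv : ∀ i, v i x = 1)
    (x₁ : Fk₁) (x₂ : Fk₂) (hredx : red x = jj (x₁, x₂))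
    (hx₁ : ∀ w : Place kk Fk₁, w.ord x₁ = Y0₁ w - Yinf₁ w)
    (hx₂ : ∀ w : Place kk Fk₂, w.ord x₂ = Y0₂ w - Yinf₂ w)
    (A : ValuationSubring K) (hvK : ∀ c : K, vK c ≤ 1 ↔ c ∈ A)
    (V₁ V₂ : ValuationSubring F) (hball : ∀ f : F, (∀ i, v i f ≤ 1) → f ∈ V₁ ∧ f ∈ V₂)
    [FiniteDimensional K⟮x⟯ F] (hA : V₁.comap (algebraMap K F) = A)
    (hx : Fermat.Agent.S35.helper1024.GaussElt A V₁ x)
    (hT4 : ∀ z : F, z ∈ V₁ → z ∈ V₂ → ∃ p : F[X], p.Monic ∧ (∀ i, p.coeff i ∈ V₁) ∧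
      (∀ i, p.coeff i ∈ K⟮x⟯) ∧ aeval z p = 0)
    (hnode : ∀ g : F, (∀ i, v i g ≤ 1) → (∀ w : Place K F, 0 ≤ w.ord x → 0 ≤ w.ord g) →
      ∀ (z₁ : Fk₁) (z₂ : Fk₂), red g = jj (z₁, z₂) →
        ∀ i, valueAt (Q i) (hdeg₂ (Q i)) z₂ = valueAt (P i) (hdeg₁ (P i)) z₁) :
    ∀ a b : ℕ, ∀ f ∈ riemannRochSpace (a • E1 + b • E2), (∀ i, v i f ≤ 1) →
      ∃ y₁ ∈ riemannRochSpace (a • Yinf₁ + b • Y0₁),
        ∃ y₂ ∈ riemannRochSpace (a • Yinf₂ + b • Y0₂), red f = jj (y₁, y₂) ∧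
          ∀ i, valueAt (Q i) (hdeg₂ (Q i)) y₂ = valueAt (P i) (hdeg₁ (P i)) y₁ := by
  obtain ⟨hint₁, hint₂⟩ := hint_of_chart (v := v) A hvK V₁ V₂ hball x hA hx hT4
  exact hcont_of_regular hred hconst jj hjj hrange hdeg₁ hdeg₂ P Q Yinf₁ Y0₁ Yinf₂ Y0₂ hYinf₁ hY0₁
    hYinf₂ hY0₂ hPY hQY E1 E2 hE1 hE2 hdisj x hx0 hxord hxv x₁ x₂ hredx hx₁ hx₂ hint₁ hint₂ hnode

/-- **`(hcont)` of E3-FF**, with the node equality assumed for ball elements *integral over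
`K[x]`* (the shape of (NODE) of KRON-INST). -/
theorem hcont_of_chart_isIntegral [CharZero K]
    (hred : RedDataW v (fun _ => (1 : Γ₀)) vK kk red red)
    (hconst : ∀ c : K, vK c ≤ 1 → ∃ κ : kk, red (algebraMap K F c) = algebraMap kk Fk κ)
    (jj : Fk₁ × Fk₂ →ₐ[kk] Fk) (hjj : Function.Injective jj)
    (hrange : ∀ f : F, (∀ i, v i f ≤ 1) → ∃ y : Fk₁ × Fk₂, red f = jj y)
    (hdeg₁ : ∀ w : Place kk Fk₁, w.deg = 1) (hdeg₂ : ∀ w : Place kk Fk₂, w.deg = 1)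
    (P : I → Place kk Fk₁) (Q : I → Place kk Fk₂)
    (Yinf₁ Y0₁ : Divisor kk Fk₁) (Yinf₂ Y0₂ : Divisor kk Fk₂)
    (hYinf₁ : 0 ≤ Yinf₁) (hY0₁ : 0 ≤ Y0₁) (hYinf₂ : 0 ≤ Yinf₂) (hY0₂ : 0 ≤ Y0₂)
    (hPY : ∀ i, Yinf₁ (P i) = 0 ∧ Y0₁ (P i) = 0) (hQY : ∀ i, Yinf₂ (Q i) = 0 ∧ Y0₂ (Q i) = 0)
    (E1 E2 : Divisor K F) (hE1 : 0 ≤ E1) (hE2 : 0 ≤ E2)
    (hdisj : ∀ w : Place K F, E1 w = 0 ∨ E2 w = 0)
    (x : F) (hx0 : x ≠ 0) (hxord : ∀ w : Place K F, w.ord x = E2 w - E1 w)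
    (hxv : ∀ i, v i x = 1)
    (x₁ : Fk₁) (x₂ : Fk₂) (hredx : red x = jj (x₁, x₂))
    (hx₁ : ∀ w : Place kk Fk₁, w.ord x₁ = Y0₁ w - Yinf₁ w)
    (hx₂ : ∀ w : Place kk Fk₂, w.ord x₂ = Y0₂ w - Yinf₂ w)
    (A : ValuationSubring K) (hvK : ∀ c : K, vK c ≤ 1 ↔ c ∈ A)
    (V₁ V₂ : ValuationSubring F) (hball : ∀ f : F, (∀ i, v i f ≤ 1) → f ∈ V₁ ∧ f ∈ V₂)
    [FiniteDimensional K⟮x⟯ F] (hA : V₁.comap (algebraMap K F) = A)
    (hx : Fermat.Agent.S35.helper1024.GaussElt A V₁ x)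
    (hT4 : ∀ z : F, z ∈ V₁ → z ∈ V₂ → ∃ p : F[X], p.Monic ∧ (∀ i, p.coeff i ∈ V₁) ∧
      (∀ i, p.coeff i ∈ K⟮x⟯) ∧ aeval z p = 0)
    (hnode : ∀ g : F, (∀ i, v i g ≤ 1) → IsIntegral (Algebra.adjoin K ({x} : Set F)) g →
      ∀ (z₁ : Fk₁) (z₂ : Fk₂), red g = jj (z₁, z₂) →
        ∀ i, valueAt (Q i) (hdeg₂ (Q i)) z₂ = valueAt (P i) (hdeg₁ (P i)) z₁) :
    ∀ a b : ℕ, ∀ f ∈ riemannRochSpace (a • E1 + b • E2), (∀ i, v i f ≤ 1) →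
      ∃ y₁ ∈ riemannRochSpace (a • Yinf₁ + b • Y0₁),
        ∃ y₂ ∈ riemannRochSpace (a • Yinf₂ + b • Y0₂), red f = jj (y₁, y₂) ∧
          ∀ i, valueAt (Q i) (hdeg₂ (Q i)) y₂ = valueAt (P i) (hdeg₁ (P i)) y₁ :=
  hcont_of_chart hred hconst jj hjj hrange hdeg₁ hdeg₂ P Q Yinf₁ Y0₁ Yinf₂ Y0₂ hYinf₁ hY0₁
    hYinf₂ hY0₂ hPY hQY E1 E2 hE1 hE2 hdisj x hx0 hxord hxv x₁ x₂ hredx hx₁ hx₂ A hvK V₁ V₂ hball
    hA hx hT4
    (fun g hg hreg => hnode g hg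
      (Fermat.Agent.S35.helper2459.isIntegral_adjoin_of_regular x g hreg))

end HCont

end Fermat.Agent.S35.helper3028
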