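import Fermat.Agent.S35.helper1928_ResField

/-!
# S35/S34 RESFIELD packaging (helper584): the reduction maps INTO the component function field

Addendum to `helper1928_ResField` (the residue field of the Gauss valuation of `F_{ℓ M}` is
`F_k(M) = modularFunctionFieldFullC k M`).  Nothing of that file is repeated; this file only
packages its theorems in the shapes that the special-fibre consumers use (Prelude places and
Riemann–Roch spaces live on the FIELD `F_k(M)`, not on `k((t))`):

* `redInf`, `redZero` : the reductions of the two Gauss rings `V_∞`, `V_0 = V_∞.comap W` as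
  surjective ring homs onto `F_k(M)`, with kernels the maximal ideals;
* `redFk` : the pair reduction `F_{ℓ M} → F_k(M) × F_k(M)`, with
  `helper1928.fibreIncl (redFk f) = helper882.gpRed f` and its `RedDataW` (so that every Kummer
  core can be instantiated with special fibre `F_k(M) × F_k(M)` directly);
* `redDataW_of_injective` : transfer of `RedDataW` along an injective algebra hom (generic);
* `gpRed_algebraMap`, `redFk_algebraMap` : **(hconst)** constants reduce to constants;
* `mem_gaussF_iff_of_coe_eq`, `gpRho_eq_of_coe_eq` : the Gauss ring and its reduction do not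
  depend on the level (they only see the `t`-expansion);
* `exists_gaussFRed_eq_of_dvd` : every element of `F_k(M)` is a Gauss reduction at every level
  divisible by `M`.
-/

set_option autoImplicit false

noncomputable section

namespace Fermat.Agent.S35.helper584

open ModularCurve Polynomial IntermediateField
open Fermat.Agent.S28
open Fermat.Agent.S18.helper508
open Fermat.Agent.S24.helper24
open Fermat.Agent.S18
open Fermat.Agent.S35.helper1928

/-! ### Generic: transfer of `RedDataW` along an injective algebra hom -/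

section Transfer

variable {L F : Type*} [Field L] [Field F] [Algebra L F]
  {Γ₀ : Type*} [LinearOrderedCommGroupWithZero Γ₀] {ι : Type*}

/-- If `red = jj ∘ red'` and `redM = jj ∘ redM'` for an injective algebra hom `jj`, reduction
data for `(red, redM)` give reduction data for `(red', redM')`. -/
theorem redDataW_of_injective {v : ι → Valuation F Γ₀} {w : ι → Γ₀} {vL : Valuation L Γ₀}
    {kk : Type*} [Field kk] {Fk Fk' : Type*} [CommRing Fk] [Algebra kk Fk] [CommRing Fk']
    [Algebra kk Fk'] {red redM : F → Fk} (h : helper2459.RedDataW v w vL kk red redM)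
    (jj : Fk' →ₐ[kk] Fk) (hjj : Function.Injective jj) (red' redM' : F → Fk')
    (hred : ∀ a, jj (red' a) = red a) (hredM : ∀ a, jj (redM' a) = redM a) :
    helper2459.RedDataW v w vL kk red' redM' where
  val_algebraMap := h.val_algebraMap
  weight_ne_zero := h.weight_ne_zero
  map_add := fun a b ha hb => hjj (by rw [map_add, hred, hred, hred, h.map_add a b ha hb])
  map_mul := fun a b ha hb => hjj (by rw [map_mul, hred, hred, hred, h.map_mul a b ha hb])
  map_one := hjj (by rw [hred, map_one, h.map_one])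
  eq_zero_iff := fun a ha => by
    rw [← h.eq_zero_iff a ha, ← hred a, map_eq_zero_iff jj hjj]
  exists_const := fun κ => by
    obtain ⟨c, hc, hcκ⟩ := h.exists_const κ
    exact ⟨c, hc, hjj (by rw [hred, hcκ, AlgHom.commutes])⟩
  mapM_add := fun a b ha hb => hjj (by rw [map_add, hredM, hredM, hredM, h.mapM_add a b ha hb])
  mapM_mul := fun s a hs ha => hjj (by rw [map_mul, hredM, hredM, hred, h.mapM_mul s a hs ha])
  eqM_zero_iff := fun a ha => by
    rw [← h.eqM_zero_iff a ha, ← hredM a, map_eq_zero_iff jj hjj]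

end Transfer

/-! ### Level independence of the Gauss ring and of its reduction -/

section Level

variable (A : ValuationSubring Kbar)

/-- The Gauss ring only sees the `t`-expansion: two functions (of any two levels) with the same
expansion are Gauss-integral together. -/
theorem mem_gaussF_iff_of_coe_eq {N N' : ℕ} (f : FN N) (f' : FN N')
    (h : (f : LaurentSeries Kbar) = (f' : LaurentSeries Kbar)) :
    f ∈ helper8991.gaussF A (IsLocalRing.residue A) N ↔
      f' ∈ helper8991.gaussF A (IsLocalRing.residue A) N' := by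
  rw [helper8991.mem_gaussF_iff, helper8991.mem_gaussF_iff, h]

/-- The Gauss reduction only sees the `t`-expansion. -/
theorem gaussFRed_eq_of_coe_eq {N N' : ℕ} (f : ↥(helper8991.gaussF A (IsLocalRing.residue A) N))
    (f' : ↥(helper8991.gaussF A (IsLocalRing.residue A) N'))
    (h : ((f : FN N) : LaurentSeries Kbar) = ((f' : FN N') : LaurentSeries Kbar)) :
    helper8991.gaussFRed A (IsLocalRing.residue A) N f =
      helper8991.gaussFRed A (IsLocalRing.residue A) N' f' := by
  obtain ⟨X, Y, hY, hXY⟩ := (helper8991.mem_gaussF_iff A (IsLocalRing.residue A) N f).mp f.2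
  rw [helper8991.gaussFRed_eq A (IsLocalRing.residue A) N f hY hXY,
    helper8991.gaussFRed_eq A (IsLocalRing.residue A) N' f' hY (by rw [← h]; exact hXY)]

/-- The extended reduction `helper882.gpRho` only sees the `t`-expansion. -/
theorem gpRho_eq_of_coe_eq {N N' : ℕ} (f : FN N) (f' : FN N')
    (h : (f : LaurentSeries Kbar) = (f' : LaurentSeries Kbar)) :
    helper882.gpRho A N f = helper882.gpRho A N' f' := by
  by_cases hf : f ∈ helper882.gpRing A N
  · have hf' : f' ∈ helper882.gpRing A N' := (mem_gaussF_iff_of_coe_eq A f f' h).mp hf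
    rw [helper882.gpRho_of_mem A N hf, helper882.gpRho_of_mem A N' hf']
    exact gaussFRed_eq_of_coe_eq A ⟨f, hf⟩ ⟨f', hf'⟩ h
  · have hf' : f' ∉ helper882.gpRing A N' := fun h' =>
      hf ((mem_gaussF_iff_of_coe_eq A f f' h).mpr h')
    unfold helper882.gpRho
    rw [dif_neg hf, dif_neg hf']

/-- The reduction map of the Gauss ring at level `N` reaches the whole modular function field of
every level `M ∣ N` over the residue field (no hypothesis on the characteristic). -/
theorem exists_gaussFRed_eq_of_dvd {M N : ℕ} [NeZero M] (hMN : M ∣ N)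
    {x : LaurentSeries (IsLocalRing.ResidueField A)}
    (hx : x ∈ modularFunctionFieldFullC (IsLocalRing.ResidueField A) M) :
    ∃ f : ↥(helper8991.gaussF A (IsLocalRing.residue A) N),
      helper8991.gaussFRed A (IsLocalRing.residue A) N f = x := by
  refine helper8991.exists_gaussRed_eq_of_mem_adjoin A (IsLocalRing.residue A) _ _
    IsLocalRing.residue_surjective ?_ hx
  rintro _ ⟨d, hd, hdM, rfl⟩
  have := hd
  refine ⟨jqNModC A d, ?_, helper8991.red_jqNModC A (IsLocalRing.residue A) d⟩
  rw [helper8991.inc_jqNModC, helper8991.mem_laurentBaseChange_full_iff]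
  exact jqModCd_mem_full Kbar N (hdM.trans hMN)

/-- Membership in the second Gauss ring (any level, any `W`). -/
theorem mem_gpRingW_iff (N : ℕ) (W : FN N ≃ₐ[Kbar] FN N) (x : FN N) :
    x ∈ helper882.gpRingW A N W ↔ W x ∈ helper882.gpRing A N := Iff.rfl

/-- **(hconst)**: constants reduce to constants (any level, any `W`), carrier
`k((t)) × k((t))`. -/
theorem gpRed_algebraMap (N : ℕ) (W : FN N ≃ₐ[Kbar] FN N) (c : Kbar)
    (hc : helper882.gpBase A N c ≤ 1) :
    ∃ κ : IsLocalRing.ResidueField A,
      helper882.gpRed A N W (algebraMap Kbar (FN N) c) =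
        algebraMap (IsLocalRing.ResidueField A)
          (LaurentSeries (IsLocalRing.ResidueField A) ×
            LaurentSeries (IsLocalRing.ResidueField A)) κ := by
  have hcA : c ∈ A := (helper882.gpBase_le_one_iff A N c).mp hc
  refine ⟨IsLocalRing.residue A ⟨c, hcA⟩, ?_⟩
  rw [Prod.algebraMap_apply]
  refine Prod.ext (helper882.gpRho_algebraMap A N hcA) ?_
  show helper882.gpRho A N (W (algebraMap Kbar (FN N) c)) = _
  rw [AlgEquiv.commutes]
  exact helper882.gpRho_algebraMap A N hcA

end Level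

/-! ### The reduction maps into `F_k(M)` -/

section Hom

variable (ℓ M : ℕ) [Fact ℓ.Prime] [NeZero M] (hℓM : ¬ ℓ ∣ M) (A : ValuationSubring Kbar)
  (hA : (ℓ : Kbar) ∈ A.nonunits)

/-- The reduction map of `v_∞` at level `ℓ M`, with values in the function field of level `M`
over the residue field. -/
def redInf : ↥(vInf ℓ M A) →+* ↥(modularFunctionFieldFullC (IsLocalRing.ResidueField A) M) :=
  (helper8991.gaussFRed A (IsLocalRing.residue A) (ℓ * M)).codRestrict
    (modularFunctionFieldFullC (IsLocalRing.ResidueField A) M)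
    (gaussFRed_mem_fullC_level ℓ M hℓM A hA)

@[simp]
theorem coe_redInf (f : ↥(vInf ℓ M A)) :
    ((redInf ℓ M hℓM A hA f : ↥(modularFunctionFieldFullC (IsLocalRing.ResidueField A) M)) :
      LaurentSeries (IsLocalRing.ResidueField A)) =
      helper8991.gaussFRed A (IsLocalRing.residue A) (ℓ * M) f := rfl

theorem redInf_surjective : Function.Surjective (redInf ℓ M hℓM A hA) := by
  intro x
  obtain ⟨f, hf⟩ := exists_gaussFRed_eq_of_dvd (N := ℓ * M) A (Dvd.intro_left ℓ rfl) x.2
  exact ⟨f, Subtype.ext hf⟩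

theorem redInf_eq_zero_iff (f : ↥(vInf ℓ M A)) :
    redInf ℓ M hℓM A hA f = 0 ↔ (vInf ℓ M A).valuation (f : FN (ℓ * M)) < 1 := by
  rw [← ValuationSubring.valuation_lt_one_iff (vInf ℓ M A) f,
    ← helper8991.gaussFRed_eq_zero_iff]
  exact ⟨fun h => by rw [← coe_redInf ℓ M hℓM A hA, h]; rfl, fun h => Subtype.ext h⟩

/-- The residue field of `v_∞` at level `ℓ M` is `F_k(M)`: kernel form. -/
theorem ker_redInf :
    RingHom.ker (redInf ℓ M hℓM A hA) = IsLocalRing.maximalIdeal ↥(vInf ℓ M A) := by
  ext f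
  rw [RingHom.mem_ker, redInf_eq_zero_iff, ValuationSubring.valuation_lt_one_iff]

/-- The second Gauss ring `V_0 = {f | W f ∈ V_∞}`. -/
abbrev vZero : ValuationSubring (FN (ℓ * M)) :=
  helper882.gpRingW A (ℓ * M) (wAL ℓ M hℓM)

theorem wAL_mem_of_mem_vZero {f : FN (ℓ * M)} (hf : f ∈ vZero ℓ M hℓM A) :
    wAL ℓ M hℓM f ∈ vInf ℓ M A := hf

/-- `W` as a ring hom `V_0 → V_∞`. -/
def wZeroInf : ↥(vZero ℓ M hℓM A) →+* ↥(vInf ℓ M A) where
  toFun f := ⟨wAL ℓ M hℓM (f : FN (ℓ * M)), f.2⟩
  map_one' := Subtype.ext (map_one _)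
  map_mul' _ _ := Subtype.ext (map_mul _ _ _)
  map_zero' := Subtype.ext (map_zero _)
  map_add' _ _ := Subtype.ext (map_add _ _ _)

theorem coe_wZeroInf (f : ↥(vZero ℓ M hℓM A)) :
    ((wZeroInf ℓ M hℓM A f : ↥(vInf ℓ M A)) : FN (ℓ * M)) = wAL ℓ M hℓM (f : FN (ℓ * M)) := rfl

theorem wAL_wAL (f : FN (ℓ * M)) : wAL ℓ M hℓM (wAL ℓ M hℓM f) = f :=
  helper1219.atkinLehnerBar_atkinLehnerBar _ _ _ _

theorem wAL_mem_vZero {g : FN (ℓ * M)} (hg : g ∈ vInf ℓ M A) :
    wAL ℓ M hℓM g ∈ vZero ℓ M hℓM A := by
  have h : wAL ℓ M hℓM (wAL ℓ M hℓM g) ∈ helper882.gpRing A (ℓ * M) := by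
    rw [wAL_wAL]; exact hg
  exact (mem_gpRingW_iff A (ℓ * M) (wAL ℓ M hℓM) (wAL ℓ M hℓM g)).mpr h

theorem wZeroInf_surjective : Function.Surjective (wZeroInf ℓ M hℓM A) := fun g =>
  ⟨⟨wAL ℓ M hℓM (g : FN (ℓ * M)), wAL_mem_vZero ℓ M hℓM A g.2⟩,
    Subtype.ext (wAL_wAL ℓ M hℓM _)⟩

/-- The reduction map of `v_0 = v_∞ ∘ W` at level `ℓ M`, with values in the function field of
level `M` over the residue field: `f ↦ red_∞ (W f)`. -/
def redZero : ↥(vZero ℓ M hℓM A) →+*
    ↥(modularFunctionFieldFullC (IsLocalRing.ResidueField A) M) :=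
  (redInf ℓ M hℓM A hA).comp (wZeroInf ℓ M hℓM A)

theorem redZero_apply (f : ↥(vZero ℓ M hℓM A)) :
    redZero ℓ M hℓM A hA f = redInf ℓ M hℓM A hA (wZeroInf ℓ M hℓM A f) := rfl

theorem coe_redZero (f : ↥(vZero ℓ M hℓM A)) :
    ((redZero ℓ M hℓM A hA f : ↥(modularFunctionFieldFullC (IsLocalRing.ResidueField A) M)) :
      LaurentSeries (IsLocalRing.ResidueField A)) =
      helper8991.gaussFRed A (IsLocalRing.residue A) (ℓ * M)
        ⟨wAL ℓ M hℓM (f : FN (ℓ * M)), f.2⟩ := rfl

theorem redZero_surjective : Function.Surjective (redZero ℓ M hℓM A hA) :=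
  (redInf_surjective ℓ M hℓM A hA).comp (wZeroInf_surjective ℓ M hℓM A)

theorem redZero_eq_zero_iff (f : ↥(vZero ℓ M hℓM A)) :
    redZero ℓ M hℓM A hA f = 0 ↔ (vZero ℓ M hℓM A).valuation (f : FN (ℓ * M)) < 1 := by
  rw [helper882.gpRingW_valuation_lt_one_iff, redZero_apply, redInf_eq_zero_iff, coe_wZeroInf]

/-! ### The pair reduction into `F_k(M) × F_k(M)` -/

/-- The pair reduction `f ↦ (ρ f, ρ (W f))` with values in `F_k(M) × F_k(M)` (`ρ` extended by
`0` off the Gauss ring): `helper882.gpRed` with its values restricted to the two component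
function fields. -/
def redFk (f : FN (ℓ * M)) :
    ↥(modularFunctionFieldFullC (IsLocalRing.ResidueField A) M) ×
      ↥(modularFunctionFieldFullC (IsLocalRing.ResidueField A) M) :=
  (⟨helper882.gpRho A (ℓ * M) f, gpRho_mem_fullC ℓ M hℓM A hA f⟩,
    ⟨helper882.gpRho A (ℓ * M) (wAL ℓ M hℓM f),
      gpRho_mem_fullC ℓ M hℓM A hA (wAL ℓ M hℓM f)⟩)

theorem fibreIncl_redFk (f : FN (ℓ * M)) :
    fibreIncl (IsLocalRing.ResidueField A) M (redFk ℓ M hℓM A hA f) =
      helper882.gpRed A (ℓ * M) (wAL ℓ M hℓM) f := rfl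

theorem coe_redFk_fst (f : FN (ℓ * M)) :
    (((redFk ℓ M hℓM A hA f).1 : ↥(modularFunctionFieldFullC (IsLocalRing.ResidueField A) M)) :
      LaurentSeries (IsLocalRing.ResidueField A)) = helper882.gpRho A (ℓ * M) f := rfl

theorem coe_redFk_snd (f : FN (ℓ * M)) :
    (((redFk ℓ M hℓM A hA f).2 : ↥(modularFunctionFieldFullC (IsLocalRing.ResidueField A) M)) :
      LaurentSeries (IsLocalRing.ResidueField A)) =
      helper882.gpRho A (ℓ * M) (wAL ℓ M hℓM f) := rfl

/-- On the common unit ball the pair reduction is `(redInf, redZero)`. -/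
theorem redFk_of_mem {f : FN (ℓ * M)} (h1 : f ∈ vInf ℓ M A) (h2 : f ∈ vZero ℓ M hℓM A) :
    redFk ℓ M hℓM A hA f =
      (redInf ℓ M hℓM A hA ⟨f, h1⟩, redZero ℓ M hℓM A hA ⟨f, h2⟩) := by
  refine Prod.ext (Subtype.ext ?_) (Subtype.ext ?_)
  · exact helper882.gpRho_of_mem A (ℓ * M) h1
  · exact helper882.gpRho_of_mem A (ℓ * M) (wAL_mem_of_mem_vZero ℓ M hℓM A h2)

set_option synthInstance.maxHeartbeats 400000 in
/-- **`RedDataW` with special fibre `F_k(M) × F_k(M)`** for the pair of Gauss valuations at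
level `ℓ M` (weights `1`): the reduction data of `helper882.gpRedData`, with values in the
product of the two component function fields. -/
theorem redFk_redDataW :
    helper2459.RedDataW (helper882.gpVal A (ℓ * M) (wAL ℓ M hℓM))
      (fun _ => (1 : (helper882.gpRing A (ℓ * M)).ValueGroup)) (helper882.gpBase A (ℓ * M))
      (IsLocalRing.ResidueField A) (redFk ℓ M hℓM A hA) (redFk ℓ M hℓM A hA) :=
  redDataW_of_injective (helper882.gpRedData A (ℓ * M) (wAL ℓ M hℓM))
    (fibreIncl (IsLocalRing.ResidueField A) M) (fibreIncl_injective _ M)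
    (redFk ℓ M hℓM A hA) (redFk ℓ M hℓM A hA)
    (fibreIncl_redFk ℓ M hℓM A hA) (fibreIncl_redFk ℓ M hℓM A hA)

set_option synthInstance.maxHeartbeats 400000 in
/-- **(hconst)** with special fibre `F_k(M) × F_k(M)`. -/
theorem redFk_algebraMap (c : Kbar) (hc : helper882.gpBase A (ℓ * M) c ≤ 1) :
    ∃ κ : IsLocalRing.ResidueField A,
      redFk ℓ M hℓM A hA (algebraMap Kbar (FN (ℓ * M)) c) =
        algebraMap (IsLocalRing.ResidueField A)
          (↥(modularFunctionFieldFullC (IsLocalRing.ResidueField A) M) ×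
            ↥(modularFunctionFieldFullC (IsLocalRing.ResidueField A) M)) κ := by
  obtain ⟨κ, hκ⟩ := gpRed_algebraMap A (ℓ * M) (wAL ℓ M hℓM) c hc
  refine ⟨κ, fibreIncl_injective _ M ?_⟩
  rw [fibreIncl_redFk, hκ, AlgHom.commutes]

end Hom

end Fermat.Agent.S35.helper584
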