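/-
S35/S34 geometry module, E3 instance at the Gauss pair of level `ℓ * M` (board row
S35/S34-HCONT, helper3028; registry row A14): the hypothesis `hRR` of
`helper603.hcont_of_chart` (= HCONT (H2)) in the vocabulary of `helper882_GaussPair`
(`gpVal`, `gpBase`, `gpRed`), `W = helper1928.wAL ℓ M hℓM` (`= helper1219.atkinLehnerBar ℓ M _`),
special fibre `jj = helper1928.fibreIncl k M`, `k = IsLocalRing.ResidueField A`.

* `hRR_gp`: `hRR` VERBATIM at the Gauss pair, for ANY chart coordinate `x` which is a Gauss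
  element of `V₁ = gpRing A (ℓ * M)` over `A` with `j ∈ ℚ̄(x)` and `v_i x = 1`:
  the reduction of `V₁ ∩ V₂ ∩ L(a E₁ + b E₂)` lies in `L(a Yinf₁ + b Y0₁) × L(a Yinf₂ + b Y0₂)`.
* `hRR_t2L`, `hRR_t3L`: the same at the charts `x = t₂`, `x = t₃` with every chart hypothesis
  discharged from the landed `helper4640_CuspChart` / `helper4640_CuspChartGP`
  ((G) Gauss element, (J) `j ∈ ℚ̄(t_r)`, (A11) `hxv`, (A12) `hredx`); what remains are the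
  divisor data `E₁`, `E₂` of `t_r` and `Yinf_j`, `Y0_j` of `t̄_r`, `t̄_r ^ ℓ`.
* `hRR_gp_lit`, `hRR_t2L_lit`, `hRR_t3L_lit`: the literal binder shape
  `(q M : ℕ) [NeZero q] [NeZero M] (h' : Nat.Coprime q M)`, `W := helper1219.atkinLehnerBar q M h'`
  of `helper2423.Stmt_NodalAt` / `helper1928.GenericInst`.
-/
import Mathlib
import Fermat.Agent.S35.helper3028_HContChart
import Fermat.Agent.S35.helper2459_KCGauss
import Fermat.Agent.S35.helper4640_CuspChartGP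
import Fermat.Agent.S35.helper584_ResFieldHom

set_option autoImplicit false
set_option synthInstance.maxHeartbeats 400000
set_option maxHeartbeats 1000000

namespace Fermat.Agent.S35.helper3028

open AlgebraicCurve Polynomial IntermediateField ModularCurve
open Fermat.Agent.S24.helper24 Fermat.Agent.S35.helper882 Fermat.Agent.S35.helper1928
open Fermat.Agent.S18.helper6381

section GaussPairInstance

variable (ℓ M : ℕ) [Fact ℓ.Prime] [NeZero M] (hℓM : ¬ ℓ ∣ M) (A : ValuationSubring Kbar)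
  (hA : A.LiesOverPrime ℓ)

include hA in
/-- **(H2) at the Gauss pair of level `ℓ * M`**: the hypothesis `hRR` of
`helper603.hcont_of_chart` VERBATIM (`v := gpVal`, `red := gpRed`, `jj := fibreIncl k M`).

Chart-specific hypotheses only: `x` is a Gauss element of `V₁ = gpRing A (ℓ * M)` over `A`,
`j ∈ ℚ̄(x)`, `v_i x = 1`, `E₁`, `E₂` effective and disjoint with `div x = E₂ - E₁`,
`gpRed x = jj (x₁, x₂)` and `Yinf_j`, `Y0_j` effective with `div x_j = Y0_j - Yinf_j`. -/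
theorem hRR_gp (x : FN (ℓ * M))
    (hx₁ : Fermat.Agent.S35.helper1024.GaussElt A (gpRing A (ℓ * M)) x)
    (hj : jBar (ℓ * M) ∈ Kbar⟮x⟯)
    (hxv : ∀ i, gpVal A (ℓ * M) (wAL ℓ M hℓM) i x = 1)
    (E1 E2 : Divisor Kbar (FN (ℓ * M))) (hE1 : 0 ≤ E1) (hE2 : 0 ≤ E2)
    (hdisj : ∀ w : Place Kbar (FN (ℓ * M)), E1 w = 0 ∨ E2 w = 0)
    (hxord : ∀ w : Place Kbar (FN (ℓ * M)), w.ord x = E2 w - E1 w)
    (x₁ x₂ : ↥(modularFunctionFieldFullC (IsLocalRing.ResidueField A) M))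
    (hredx : gpRed A (ℓ * M) (wAL ℓ M hℓM) x =
      fibreIncl (IsLocalRing.ResidueField A) M (x₁, x₂))
    (Yinf₁ Y0₁ Yinf₂ Y0₂ : Divisor (IsLocalRing.ResidueField A)
      ↥(modularFunctionFieldFullC (IsLocalRing.ResidueField A) M))
    (hYinf₁ : 0 ≤ Yinf₁) (hY0₁ : 0 ≤ Y0₁) (hYinf₂ : 0 ≤ Yinf₂) (hY0₂ : 0 ≤ Y0₂)
    (hordx₁ : ∀ w : Place (IsLocalRing.ResidueField A)
      ↥(modularFunctionFieldFullC (IsLocalRing.ResidueField A) M), w.ord x₁ = Y0₁ w - Yinf₁ w)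
    (hordx₂ : ∀ w : Place (IsLocalRing.ResidueField A)
      ↥(modularFunctionFieldFullC (IsLocalRing.ResidueField A) M), w.ord x₂ = Y0₂ w - Yinf₂ w) :
    ∀ a b : ℕ, ∀ f ∈ riemannRochSpace (a • E1 + b • E2),
      (∀ i, gpVal A (ℓ * M) (wAL ℓ M hℓM) i f ≤ 1) →
      ∃ y₁ ∈ riemannRochSpace (a • Yinf₁ + b • Y0₁),
        ∃ y₂ ∈ riemannRochSpace (a • Yinf₂ + b • Y0₂),
          gpRed A (ℓ * M) (wAL ℓ M hℓM) f =
            fibreIncl (IsLocalRing.ResidueField A) M (y₁, y₂) := by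
  have hℓ : ℓ.Prime := Fact.out
  have : NeZero (ℓ * M) := ⟨Nat.mul_ne_zero hℓ.ne_zero (NeZero.ne M)⟩
  have : FiniteDimensional Kbar⟮jBar (ℓ * M)⟯ (FN (ℓ * M)) :=
    (Fermat.Agent.S24.helper504.stmt_JFinrank (ℓ * M)).1
  have : FiniteDimensional Kbar⟮x⟯ (FN (ℓ * M)) :=
    Fermat.Agent.S35.helper2459.finiteDimensional_adjoin_of_mem (jBar (ℓ * M)) x hj
  have hx0 : x ≠ 0 := by
    rintro rfl
    have h := hxv 0
    rw [map_zero] at h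
    exact zero_ne_one h
  exact hRR_of_chart (gpRedData A (ℓ * M) (wAL ℓ M hℓM))
    (Fermat.Agent.S35.helper584.gpRed_algebraMap A (ℓ * M) (wAL ℓ M hℓM))
    (fibreIncl (IsLocalRing.ResidueField A) M) (fibreIncl_injective _ M)
    (fun f _ => by
      obtain ⟨y, hy⟩ := gpRed_mem_range ℓ M hℓM A hA (wAL ℓ M hℓM) f
      exact ⟨y, hy.symm⟩)
    Yinf₁ Y0₁ Yinf₂ Y0₂ hYinf₁ hY0₁ hYinf₂ hY0₂ E1 E2 hE1 hE2 hdisj x hx0 hxord hxv x₁ x₂ hredx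
    hordx₁ hordx₂ A (gpBase_le_one_iff A (ℓ * M)) (gpRing A (ℓ * M))
    (gpRingW A (ℓ * M) (wAL ℓ M hℓM))
    (fun f hf => (gpVal_le_one_iff A (ℓ * M) (wAL ℓ M hℓM) f).mp hf)
    (Fermat.Agent.S35.helper2459.gpRing_comap A (ℓ * M)) hx₁
    (Fermat.Agent.S35.helper2459.gp_hT4 ℓ M hℓM A hA x hj)

include hA in
/-- **(H2) on the chart `t₂`, hypothesis-free on the chart side.**  `x = t₂` at level `ℓ * M`
(`2 ∣ M`), `x₁` any element of `F_k(M)` with expansion `t̄₂`, `x₂ = x₁ ^ ℓ`; `E₁`, `E₂` the pole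
and zero divisors of `t₂`, `Yinf_j`, `Y0_j` those of `x₁` and of `x₁ ^ ℓ`. -/
theorem hRR_t2L (h2 : 2 ∣ M)
    (E1 E2 : Divisor Kbar (FN (ℓ * M))) (hE1 : 0 ≤ E1) (hE2 : 0 ≤ E2)
    (hdisj : ∀ w : Place Kbar (FN (ℓ * M)), E1 w = 0 ∨ E2 w = 0)
    (hxord : ∀ w : Place Kbar (FN (ℓ * M)),
      w.ord (t2L Kbar (ℓ * M) (h2.mul_left ℓ)) = E2 w - E1 w)
    (x₁ : ↥(modularFunctionFieldFullC (IsLocalRing.ResidueField A) M))
    (hcoe : (x₁ : LaurentSeries (IsLocalRing.ResidueField A)) = t2K (IsLocalRing.ResidueField A))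
    (Yinf₁ Y0₁ Yinf₂ Y0₂ : Divisor (IsLocalRing.ResidueField A)
      ↥(modularFunctionFieldFullC (IsLocalRing.ResidueField A) M))
    (hYinf₁ : 0 ≤ Yinf₁) (hY0₁ : 0 ≤ Y0₁) (hYinf₂ : 0 ≤ Yinf₂) (hY0₂ : 0 ≤ Y0₂)
    (hordx₁ : ∀ w : Place (IsLocalRing.ResidueField A)
      ↥(modularFunctionFieldFullC (IsLocalRing.ResidueField A) M), w.ord x₁ = Y0₁ w - Yinf₁ w)
    (hordx₂ : ∀ w : Place (IsLocalRing.ResidueField A)
      ↥(modularFunctionFieldFullC (IsLocalRing.ResidueField A) M),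
        w.ord (x₁ ^ ℓ) = Y0₂ w - Yinf₂ w) :
    ∀ a b : ℕ, ∀ f ∈ riemannRochSpace (a • E1 + b • E2),
      (∀ i, gpVal A (ℓ * M) (wAL ℓ M hℓM) i f ≤ 1) →
      ∃ y₁ ∈ riemannRochSpace (a • Yinf₁ + b • Y0₁),
        ∃ y₂ ∈ riemannRochSpace (a • Yinf₂ + b • Y0₂),
          gpRed A (ℓ * M) (wAL ℓ M hℓM) f =
            fibreIncl (IsLocalRing.ResidueField A) M (y₁, y₂) := by
  have hℓ : ℓ.Prime := Fact.out
  have : NeZero (ℓ * M) := ⟨Nat.mul_ne_zero hℓ.ne_zero (NeZero.ne M)⟩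
  have hπ : ∀ a : A, IsLocalRing.residue A a = 0 → a ∈ IsLocalRing.maximalIdeal A :=
    fun a ha => (IsLocalRing.residue_eq_zero_iff a).mp ha
  exact hRR_gp ℓ M hℓM A hA (t2L Kbar (ℓ * M) (h2.mul_left ℓ))
    (Fermat.Agent.S35.helper4640.gaussElt_t2L Kbar (ℓ * M) A (IsLocalRing.residue A) hπ
      (h2.mul_left ℓ))
    (Fermat.Agent.S35.helper4640.jBar_mem_adjoin_t2L (ℓ * M) (h2.mul_left ℓ))
    (Fermat.Agent.S35.helper4640.gpVal_t2L ℓ M hℓM A h2) E1 E2 hE1 hE2 hdisj hxord x₁ (x₁ ^ ℓ)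
    (Fermat.Agent.S35.helper4640.gpRed_t2L ℓ M hℓM A hA h2 x₁ hcoe) Yinf₁ Y0₁ Yinf₂ Y0₂ hYinf₁
    hY0₁ hYinf₂ hY0₂ hordx₁ hordx₂

include hA in
/-- **(H2) on the chart `t₃`, hypothesis-free on the chart side** (`3 ∣ M`). -/
theorem hRR_t3L (h3 : 3 ∣ M)
    (E1 E2 : Divisor Kbar (FN (ℓ * M))) (hE1 : 0 ≤ E1) (hE2 : 0 ≤ E2)
    (hdisj : ∀ w : Place Kbar (FN (ℓ * M)), E1 w = 0 ∨ E2 w = 0)
    (hxord : ∀ w : Place Kbar (FN (ℓ * M)),
      w.ord (t3L Kbar (ℓ * M) (h3.mul_left ℓ)) = E2 w - E1 w)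
    (x₁ : ↥(modularFunctionFieldFullC (IsLocalRing.ResidueField A) M))
    (hcoe : (x₁ : LaurentSeries (IsLocalRing.ResidueField A)) = t3K (IsLocalRing.ResidueField A))
    (Yinf₁ Y0₁ Yinf₂ Y0₂ : Divisor (IsLocalRing.ResidueField A)
      ↥(modularFunctionFieldFullC (IsLocalRing.ResidueField A) M))
    (hYinf₁ : 0 ≤ Yinf₁) (hY0₁ : 0 ≤ Y0₁) (hYinf₂ : 0 ≤ Yinf₂) (hY0₂ : 0 ≤ Y0₂)
    (hordx₁ : ∀ w : Place (IsLocalRing.ResidueField A)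
      ↥(modularFunctionFieldFullC (IsLocalRing.ResidueField A) M), w.ord x₁ = Y0₁ w - Yinf₁ w)
    (hordx₂ : ∀ w : Place (IsLocalRing.ResidueField A)
      ↥(modularFunctionFieldFullC (IsLocalRing.ResidueField A) M),
        w.ord (x₁ ^ ℓ) = Y0₂ w - Yinf₂ w) :
    ∀ a b : ℕ, ∀ f ∈ riemannRochSpace (a • E1 + b • E2),
      (∀ i, gpVal A (ℓ * M) (wAL ℓ M hℓM) i f ≤ 1) →
      ∃ y₁ ∈ riemannRochSpace (a • Yinf₁ + b • Y0₁),
        ∃ y₂ ∈ riemannRochSpace (a • Yinf₂ + b • Y0₂),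
          gpRed A (ℓ * M) (wAL ℓ M hℓM) f =
            fibreIncl (IsLocalRing.ResidueField A) M (y₁, y₂) := by
  have hℓ : ℓ.Prime := Fact.out
  have : NeZero (ℓ * M) := ⟨Nat.mul_ne_zero hℓ.ne_zero (NeZero.ne M)⟩
  have hπ : ∀ a : A, IsLocalRing.residue A a = 0 → a ∈ IsLocalRing.maximalIdeal A :=
    fun a ha => (IsLocalRing.residue_eq_zero_iff a).mp ha
  exact hRR_gp ℓ M hℓM A hA (t3L Kbar (ℓ * M) (h3.mul_left ℓ))
    (Fermat.Agent.S35.helper4640.gaussElt_t3L Kbar (ℓ * M) A (IsLocalRing.residue A) hπ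
      (h3.mul_left ℓ))
    (Fermat.Agent.S35.helper4640.jBar_mem_adjoin_t3L (ℓ * M) (h3.mul_left ℓ))
    (Fermat.Agent.S35.helper4640.gpVal_t3L ℓ M hℓM A h3) E1 E2 hE1 hE2 hdisj hxord x₁ (x₁ ^ ℓ)
    (Fermat.Agent.S35.helper4640.gpRed_t3L ℓ M hℓM A hA h3 x₁ hcoe) Yinf₁ Y0₁ Yinf₂ Y0₂ hYinf₁
    hY0₁ hYinf₂ hY0₂ hordx₁ hordx₂

end GaussPairInstance

/-! ### Literal binder shape of `helper2423.Stmt_NodalAt` / `helper1928.GenericInst`: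
`(q M : ℕ) [NeZero q] [NeZero M] (h' : Nat.Coprime q M)`,
`W := helper1219.atkinLehnerBar q M h'` -/

section Literal

open Fermat.Agent.S35.helper1219

variable (q M : ℕ) [NeZero q] [NeZero M] (h' : Nat.Coprime q M) (A : ValuationSubring Kbar)

/-- **(H2) at the Gauss pair, literal shape**, any chart coordinate `x`. -/
theorem hRR_gp_lit (hq : q.Prime) (hA : A.LiesOverPrime q) (x : FN (q * M))
    (hx₁ : Fermat.Agent.S35.helper1024.GaussElt A (gpRing A (q * M)) x)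
    (hj : jBar (q * M) ∈ Kbar⟮x⟯)
    (hxv : ∀ i, gpVal A (q * M) (atkinLehnerBar q M h') i x = 1)
    (E1 E2 : Divisor Kbar (FN (q * M))) (hE1 : 0 ≤ E1) (hE2 : 0 ≤ E2)
    (hdisj : ∀ w : Place Kbar (FN (q * M)), E1 w = 0 ∨ E2 w = 0)
    (hxord : ∀ w : Place Kbar (FN (q * M)), w.ord x = E2 w - E1 w)
    (x₁ x₂ : ↥(modularFunctionFieldFullC (IsLocalRing.ResidueField A) M))
    (hredx : gpRed A (q * M) (atkinLehnerBar q M h') x =
      fibreIncl (IsLocalRing.ResidueField A) M (x₁, x₂))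
    (Yinf₁ Y0₁ Yinf₂ Y0₂ : Divisor (IsLocalRing.ResidueField A)
      ↥(modularFunctionFieldFullC (IsLocalRing.ResidueField A) M))
    (hYinf₁ : 0 ≤ Yinf₁) (hY0₁ : 0 ≤ Y0₁) (hYinf₂ : 0 ≤ Yinf₂) (hY0₂ : 0 ≤ Y0₂)
    (hordx₁ : ∀ w : Place (IsLocalRing.ResidueField A)
      ↥(modularFunctionFieldFullC (IsLocalRing.ResidueField A) M), w.ord x₁ = Y0₁ w - Yinf₁ w)
    (hordx₂ : ∀ w : Place (IsLocalRing.ResidueField A)
      ↥(modularFunctionFieldFullC (IsLocalRing.ResidueField A) M), w.ord x₂ = Y0₂ w - Yinf₂ w) :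
    ∀ a b : ℕ, ∀ f ∈ riemannRochSpace (a • E1 + b • E2),
      (∀ i, gpVal A (q * M) (atkinLehnerBar q M h') i f ≤ 1) →
      ∃ y₁ ∈ riemannRochSpace (a • Yinf₁ + b • Y0₁),
        ∃ y₂ ∈ riemannRochSpace (a • Yinf₂ + b • Y0₂),
          gpRed A (q * M) (atkinLehnerBar q M h') f =
            fibreIncl (IsLocalRing.ResidueField A) M (y₁, y₂) := by
  have : Fact q.Prime := ⟨hq⟩
  exact hRR_gp q M ((Nat.Prime.coprime_iff_not_dvd hq).mp h') A hA x hx₁ hj hxv E1 E2 hE1 hE2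
    hdisj hxord x₁ x₂ hredx Yinf₁ Y0₁ Yinf₂ Y0₂ hYinf₁ hY0₁ hYinf₂ hY0₂ hordx₁ hordx₂

/-- **(H2) on the chart `t₂`, literal shape.** -/
theorem hRR_t2L_lit (hq : q.Prime) (hA : A.LiesOverPrime q) (h2 : 2 ∣ M)
    (E1 E2 : Divisor Kbar (FN (q * M))) (hE1 : 0 ≤ E1) (hE2 : 0 ≤ E2)
    (hdisj : ∀ w : Place Kbar (FN (q * M)), E1 w = 0 ∨ E2 w = 0)
    (hxord : ∀ w : Place Kbar (FN (q * M)),
      w.ord (t2L Kbar (q * M) (h2.mul_left q)) = E2 w - E1 w)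
    (x₁ : ↥(modularFunctionFieldFullC (IsLocalRing.ResidueField A) M))
    (hcoe : (x₁ : LaurentSeries (IsLocalRing.ResidueField A)) = t2K (IsLocalRing.ResidueField A))
    (Yinf₁ Y0₁ Yinf₂ Y0₂ : Divisor (IsLocalRing.ResidueField A)
      ↥(modularFunctionFieldFullC (IsLocalRing.ResidueField A) M))
    (hYinf₁ : 0 ≤ Yinf₁) (hY0₁ : 0 ≤ Y0₁) (hYinf₂ : 0 ≤ Yinf₂) (hY0₂ : 0 ≤ Y0₂)
    (hordx₁ : ∀ w : Place (IsLocalRing.ResidueField A)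
      ↥(modularFunctionFieldFullC (IsLocalRing.ResidueField A) M), w.ord x₁ = Y0₁ w - Yinf₁ w)
    (hordx₂ : ∀ w : Place (IsLocalRing.ResidueField A)
      ↥(modularFunctionFieldFullC (IsLocalRing.ResidueField A) M),
        w.ord (x₁ ^ q) = Y0₂ w - Yinf₂ w) :
    ∀ a b : ℕ, ∀ f ∈ riemannRochSpace (a • E1 + b • E2),
      (∀ i, gpVal A (q * M) (atkinLehnerBar q M h') i f ≤ 1) →
      ∃ y₁ ∈ riemannRochSpace (a • Yinf₁ + b • Y0₁),
        ∃ y₂ ∈ riemannRochSpace (a • Yinf₂ + b • Y0₂),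
          gpRed A (q * M) (atkinLehnerBar q M h') f =
            fibreIncl (IsLocalRing.ResidueField A) M (y₁, y₂) := by
  have : Fact q.Prime := ⟨hq⟩
  exact hRR_t2L q M ((Nat.Prime.coprime_iff_not_dvd hq).mp h') A hA h2 E1 E2 hE1 hE2 hdisj hxord
    x₁ hcoe Yinf₁ Y0₁ Yinf₂ Y0₂ hYinf₁ hY0₁ hYinf₂ hY0₂ hordx₁ hordx₂

/-- **(H2) on the chart `t₃`, literal shape.** -/
theorem hRR_t3L_lit (hq : q.Prime) (hA : A.LiesOverPrime q) (h3 : 3 ∣ M)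
    (E1 E2 : Divisor Kbar (FN (q * M))) (hE1 : 0 ≤ E1) (hE2 : 0 ≤ E2)
    (hdisj : ∀ w : Place Kbar (FN (q * M)), E1 w = 0 ∨ E2 w = 0)
    (hxord : ∀ w : Place Kbar (FN (q * M)),
      w.ord (t3L Kbar (q * M) (h3.mul_left q)) = E2 w - E1 w)
    (x₁ : ↥(modularFunctionFieldFullC (IsLocalRing.ResidueField A) M))
    (hcoe : (x₁ : LaurentSeries (IsLocalRing.ResidueField A)) = t3K (IsLocalRing.ResidueField A))
    (Yinf₁ Y0₁ Yinf₂ Y0₂ : Divisor (IsLocalRing.ResidueField A)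
      ↥(modularFunctionFieldFullC (IsLocalRing.ResidueField A) M))
    (hYinf₁ : 0 ≤ Yinf₁) (hY0₁ : 0 ≤ Y0₁) (hYinf₂ : 0 ≤ Yinf₂) (hY0₂ : 0 ≤ Y0₂)
    (hordx₁ : ∀ w : Place (IsLocalRing.ResidueField A)
      ↥(modularFunctionFieldFullC (IsLocalRing.ResidueField A) M), w.ord x₁ = Y0₁ w - Yinf₁ w)
    (hordx₂ : ∀ w : Place (IsLocalRing.ResidueField A)
      ↥(modularFunctionFieldFullC (IsLocalRing.ResidueField A) M),
        w.ord (x₁ ^ q) = Y0₂ w - Yinf₂ w) :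
    ∀ a b : ℕ, ∀ f ∈ riemannRochSpace (a • E1 + b • E2),
      (∀ i, gpVal A (q * M) (atkinLehnerBar q M h') i f ≤ 1) →
      ∃ y₁ ∈ riemannRochSpace (a • Yinf₁ + b • Y0₁),
        ∃ y₂ ∈ riemannRochSpace (a • Yinf₂ + b • Y0₂),
          gpRed A (q * M) (atkinLehnerBar q M h') f =
            fibreIncl (IsLocalRing.ResidueField A) M (y₁, y₂) := by
  have : Fact q.Prime := ⟨hq⟩
  exact hRR_t3L q M ((Nat.Prime.coprime_iff_not_dvd hq).mp h') A hA h3 E1 E2 hE1 hE2 hdisj hxord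
    x₁ hcoe Yinf₁ Y0₁ Yinf₂ Y0₂ hYinf₁ hY0₁ hYinf₂ hY0₂ hordx₁ hordx₂

end Literal

end Fermat.Agent.S35.helper3028
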