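/-
S35/S34-CUSPCHART, GaussPair form (helper4640, board #2246): the two chart-function binders of
`helper603.twisted_lattice_of_components` at the carrier of the S35 registry (findings #3575),
level `ℓ * M` literal, `W := helper1928.wAL ℓ M hℓM` (= `helper1219.atkinLehnerBar ℓ M _`),
`v := helper882.gpVal A (ℓ * M) W`, `red := helper882.gpRed A (ℓ * M) W`,
`jj := helper1928.fibreIncl k M`, `k := IsLocalRing.ResidueField A`:

* (A11) `hxv`   : `∀ i, gpVal A (ℓ * M) W i x = 1`,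
* (A12) `hredx` : `gpRed A (ℓ * M) W x = fibreIncl k M (x₁, x₁ ^ ℓ)`,

for the chart coordinate `x := helper6381.t2L Kbar (ℓ * M) _` (resp. `t3L`) and ANY
`x₁ : ↥(modularFunctionFieldFullC k M)` with expansion `t̄_r` (e.g. `helper6381.t2F k M _ _`),
plus `x ≠ 0`.  General forms `gpVal_chart_eq_one`, `gpRed_chart` for any function `t` of level
`ℓ * M` whose expansion is an integer unit series and is the expansion of a function of level `M`.
-/
import Mathlib
import Fermat.Agent.S35.helper4640_CuspChart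
import Fermat.Agent.S35.helper882_GaussPair
import Fermat.Agent.S35.helper1928_ResField

set_option autoImplicit false

open ModularCurve HahnSeries

namespace Fermat.Agent.S35.helper4640

open Fermat.Agent.S18.helper8991 Fermat.Agent.S24.helper24 Fermat.Agent.S35.helper1219
  Fermat.Agent.S18.helper1257 Fermat.Agent.S18.helper6381

noncomputable section

section GP

variable (ℓ M : ℕ) [Fact ℓ.Prime] [NeZero M] (hℓM : ¬ ℓ ∣ M) (A : ValuationSubring Kbar)
  {t : FN (ℓ * M)} {x : FN M} {tZ sZ : LaurentSeries ℤ}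

/-- **(A11) `hxv`, general form.** -/
theorem gpVal_chart_eq_one (hts : tZ * sZ = 1)
    (ht : (t : LaurentSeries Kbar) = coeffMap (Int.castRingHom Kbar) tZ)
    (htx : (t : LaurentSeries Kbar) = (x : LaurentSeries Kbar)) :
    ∀ i, helper882.gpVal A (ℓ * M) (helper1928.wAL ℓ M hℓM) i t = 1 := by
  intro i
  fin_cases i
  · exact valuation_base_eq_one A (IsLocalRing.residue A) (ℓ * M) hts ht
  · exact valuation_twist_eq_one A (IsLocalRing.residue A) (ℓ * M) ℓ hts ht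
      (coe_atkinLehnerBar_of_coe_eq ℓ M (helper1928.coprime_of_not_dvd ℓ M hℓM) htx)

/-- **(A12) `hredx`, general form**: `red t = jj (x₁, x₁ ^ ℓ)` for any `x₁` of level `M` over the
residue field with expansion `t̄`. -/
theorem gpRed_chart (hA : (ℓ : Kbar) ∈ A.nonunits) (hts : tZ * sZ = 1)
    (ht : (t : LaurentSeries Kbar) = coeffMap (Int.castRingHom Kbar) tZ)
    (htx : (t : LaurentSeries Kbar) = (x : LaurentSeries Kbar))
    (x₁ : ↥(modularFunctionFieldFullC (IsLocalRing.ResidueField A) M))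
    (hx₁ : (x₁ : LaurentSeries (IsLocalRing.ResidueField A))
      = coeffMap (Int.castRingHom (IsLocalRing.ResidueField A)) tZ) :
    helper882.gpRed A (ℓ * M) (helper1928.wAL ℓ M hℓM) t
      = helper1928.fibreIncl (IsLocalRing.ResidueField A) M (x₁, x₁ ^ ℓ) := by
  have := Fermat.Agent.S18.helper508.charP_residueField ℓ A hA
  obtain ⟨h1, h2, -, -, e1, e2, -, -⟩ := gaussFRed_al_base ℓ M
    (helper1928.coprime_of_not_dvd ℓ M hℓM) A (IsLocalRing.residue A) hts ht htx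
  rw [helper1928.fibreIncl_apply]
  refine Prod.ext ?_ ?_
  · show helper882.gpRho A (ℓ * M) t = _
    rw [helper882.gpRho_of_mem A (ℓ * M) h1, e1, hx₁]
  · show helper882.gpRho A (ℓ * M) (helper1928.wAL ℓ M hℓM t) = _
    rw [helper882.gpRho_of_mem A (ℓ * M) h2, e2, IntermediateField.coe_pow, hx₁]

end GP

section Haupt

variable (ℓ M : ℕ) [Fact ℓ.Prime] [NeZero M] (hℓM : ¬ ℓ ∣ M) (A : ValuationSubring Kbar)

omit [NeZero M] in
include hℓM in
/-- The primes of `M` are invertible in the residue field (`hNk` of `helper6381.t2F`, `t3F`). -/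
theorem natCast_residue_ne_zero (hA : (ℓ : Kbar) ∈ A.nonunits) :
    ∀ p : ℕ, p.Prime → p ∣ M → (p : IsLocalRing.ResidueField A) ≠ 0 := by
  intro p hp hpM h0
  have := Fermat.Agent.S18.helper508.charP_residueField ℓ A hA
  have h1 : ℓ ∣ p := (CharP.cast_eq_zero_iff (IsLocalRing.ResidueField A) ℓ p).mp h0
  have h2 : ℓ = p := (Nat.prime_dvd_prime_iff_eq (Fact.out : ℓ.Prime) hp).mp h1
  exact hℓM (h2 ▸ hpM)

theorem t2L_ne_zero (h2 : 2 ∣ M) : t2L Kbar (ℓ * M) (h2.mul_left ℓ) ≠ 0 :=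
  base_ne_zero (ℓ * M) t2Z_mul_hauptInv2Z (coe_t2L_eq Kbar (ℓ * M) _)

theorem t3L_ne_zero (h3 : 3 ∣ M) : t3L Kbar (ℓ * M) (h3.mul_left ℓ) ≠ 0 :=
  base_ne_zero (ℓ * M) t3Z_mul_hauptInv3Z (coe_t3L_eq Kbar (ℓ * M) _)

/-- **(A11) `hxv` for `x = t₂`.** -/
theorem gpVal_t2L (h2 : 2 ∣ M) :
    ∀ i, helper882.gpVal A (ℓ * M) (helper1928.wAL ℓ M hℓM) i
      (t2L Kbar (ℓ * M) (h2.mul_left ℓ)) = 1 :=
  gpVal_chart_eq_one ℓ M hℓM A t2Z_mul_hauptInv2Z (coe_t2L_eq Kbar (ℓ * M) _)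
    (x := t2L Kbar M h2) rfl

/-- **(A11) `hxv` for `x = t₃`.** -/
theorem gpVal_t3L (h3 : 3 ∣ M) :
    ∀ i, helper882.gpVal A (ℓ * M) (helper1928.wAL ℓ M hℓM) i
      (t3L Kbar (ℓ * M) (h3.mul_left ℓ)) = 1 :=
  gpVal_chart_eq_one ℓ M hℓM A t3Z_mul_hauptInv3Z (coe_t3L_eq Kbar (ℓ * M) _)
    (x := t3L Kbar M h3) rfl

/-- **(A12) `hredx` for `x = t₂`**: `red t₂ = jj (x₁, x₁ ^ ℓ)` for ANY `x₁` with expansion
`t̄₂`. -/
theorem gpRed_t2L (hA : (ℓ : Kbar) ∈ A.nonunits) (h2 : 2 ∣ M)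
    (x₁ : ↥(modularFunctionFieldFullC (IsLocalRing.ResidueField A) M))
    (hx₁ : (x₁ : LaurentSeries (IsLocalRing.ResidueField A)) = t2K (IsLocalRing.ResidueField A)) :
    helper882.gpRed A (ℓ * M) (helper1928.wAL ℓ M hℓM) (t2L Kbar (ℓ * M) (h2.mul_left ℓ))
      = helper1928.fibreIncl (IsLocalRing.ResidueField A) M (x₁, x₁ ^ ℓ) :=
  gpRed_chart ℓ M hℓM A hA t2Z_mul_hauptInv2Z (coe_t2L_eq Kbar (ℓ * M) _)
    (x := t2L Kbar M h2) rfl x₁ hx₁

/-- **(A12) `hredx` for `x = t₃`.** -/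
theorem gpRed_t3L (hA : (ℓ : Kbar) ∈ A.nonunits) (h3 : 3 ∣ M)
    (x₁ : ↥(modularFunctionFieldFullC (IsLocalRing.ResidueField A) M))
    (hx₁ : (x₁ : LaurentSeries (IsLocalRing.ResidueField A)) = t3K (IsLocalRing.ResidueField A)) :
    helper882.gpRed A (ℓ * M) (helper1928.wAL ℓ M hℓM) (t3L Kbar (ℓ * M) (h3.mul_left ℓ))
      = helper1928.fibreIncl (IsLocalRing.ResidueField A) M (x₁, x₁ ^ ℓ) :=
  gpRed_chart ℓ M hℓM A hA t3Z_mul_hauptInv3Z (coe_t3L_eq Kbar (ℓ * M) _)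
    (x := t3L Kbar M h3) rfl x₁ hx₁

/-- **(A12) with the canonical `x₁ := helper6381.t2F k M h2 _`.** -/
theorem gpRed_t2L_t2F (hA : (ℓ : Kbar) ∈ A.nonunits) (h2 : 2 ∣ M) :
    helper882.gpRed A (ℓ * M) (helper1928.wAL ℓ M hℓM) (t2L Kbar (ℓ * M) (h2.mul_left ℓ))
      = helper1928.fibreIncl (IsLocalRing.ResidueField A) M
          (t2F (IsLocalRing.ResidueField A) M h2 (natCast_residue_ne_zero ℓ M hℓM A hA),
            t2F (IsLocalRing.ResidueField A) M h2 (natCast_residue_ne_zero ℓ M hℓM A hA) ^ ℓ) :=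
  gpRed_t2L ℓ M hℓM A hA h2 _ rfl

/-- **(A12) with the canonical `x₁ := helper6381.t3F k M h3 _`.** -/
theorem gpRed_t3L_t3F (hA : (ℓ : Kbar) ∈ A.nonunits) (h3 : 3 ∣ M) :
    helper882.gpRed A (ℓ * M) (helper1928.wAL ℓ M hℓM) (t3L Kbar (ℓ * M) (h3.mul_left ℓ))
      = helper1928.fibreIncl (IsLocalRing.ResidueField A) M
          (t3F (IsLocalRing.ResidueField A) M h3 (natCast_residue_ne_zero ℓ M hℓM A hA),
            t3F (IsLocalRing.ResidueField A) M h3 (natCast_residue_ne_zero ℓ M hℓM A hA) ^ ℓ) :=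
  gpRed_t3L ℓ M hℓM A hA h3 _ rfl

end Haupt

/-! ## Literal binder shape of `helper2423.Stmt_NodalAt` / `helper1928.GenericInst`:
`(q M : ℕ) [NeZero q] [NeZero M] (h' : Nat.Coprime q M)`, `W := helper1219.atkinLehnerBar q M h'` -/

section Literal

variable (q M : ℕ) [NeZero q] [NeZero M] (h' : Nat.Coprime q M) (A : ValuationSubring Kbar)

/-- **(A11) `hxv` for `x = t₂`, literal shape.** -/
theorem gpVal_t2L_lit (hq : q.Prime) (h2 : 2 ∣ M) :
    ∀ i, helper882.gpVal A (q * M) (atkinLehnerBar q M h') i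
      (t2L Kbar (q * M) (h2.mul_left q)) = 1 := by
  have : Fact q.Prime := ⟨hq⟩
  exact gpVal_t2L q M ((Nat.Prime.coprime_iff_not_dvd hq).mp h') A h2

/-- **(A11) `hxv` for `x = t₃`, literal shape.** -/
theorem gpVal_t3L_lit (hq : q.Prime) (h3 : 3 ∣ M) :
    ∀ i, helper882.gpVal A (q * M) (atkinLehnerBar q M h') i
      (t3L Kbar (q * M) (h3.mul_left q)) = 1 := by
  have : Fact q.Prime := ⟨hq⟩
  exact gpVal_t3L q M ((Nat.Prime.coprime_iff_not_dvd hq).mp h') A h3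

/-- **(A12) `hredx` for `x = t₂`, literal shape.** -/
theorem gpRed_t2L_lit (hq : q.Prime) (hA : A.LiesOverPrime q) (h2 : 2 ∣ M)
    (x₁ : ↥(modularFunctionFieldFullC (IsLocalRing.ResidueField A) M))
    (hx₁ : (x₁ : LaurentSeries (IsLocalRing.ResidueField A)) = t2K (IsLocalRing.ResidueField A)) :
    helper882.gpRed A (q * M) (atkinLehnerBar q M h') (t2L Kbar (q * M) (h2.mul_left q))
      = helper1928.fibreIncl (IsLocalRing.ResidueField A) M (x₁, x₁ ^ q) := by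
  have : Fact q.Prime := ⟨hq⟩
  exact gpRed_t2L q M ((Nat.Prime.coprime_iff_not_dvd hq).mp h') A hA h2 x₁ hx₁

/-- **(A12) `hredx` for `x = t₃`, literal shape.** -/
theorem gpRed_t3L_lit (hq : q.Prime) (hA : A.LiesOverPrime q) (h3 : 3 ∣ M)
    (x₁ : ↥(modularFunctionFieldFullC (IsLocalRing.ResidueField A) M))
    (hx₁ : (x₁ : LaurentSeries (IsLocalRing.ResidueField A)) = t3K (IsLocalRing.ResidueField A)) :
    helper882.gpRed A (q * M) (atkinLehnerBar q M h') (t3L Kbar (q * M) (h3.mul_left q))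
      = helper1928.fibreIncl (IsLocalRing.ResidueField A) M (x₁, x₁ ^ q) := by
  have : Fact q.Prime := ⟨hq⟩
  exact gpRed_t3L q M ((Nat.Prime.coprime_iff_not_dvd hq).mp h') A hA h3 x₁ hx₁

include h' in
omit [NeZero q] [NeZero M] in
/-- `hNk` at level `M` over the residue field, literal shape. -/
theorem natCast_residue_ne_zero_lit (hq : q.Prime) (hA : A.LiesOverPrime q) :
    ∀ p : ℕ, p.Prime → p ∣ M → (p : IsLocalRing.ResidueField A) ≠ 0 := by
  have : Fact q.Prime := ⟨hq⟩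
  exact natCast_residue_ne_zero q M ((Nat.Prime.coprime_iff_not_dvd hq).mp h') A hA

/-- **(S) in the literal shape**: the chart coordinate `t₂` is fixed by the arithmetic Galois
action at level `q * M`. -/
theorem arithmeticGalois_smul_t2L_lit (h2 : 2 ∣ M) (σ : Kbar ≃ₐ[ℚ] Kbar) :
    arithmeticGalois (modularFunctionFieldFull (q * M)) σ • t2L Kbar (q * M) (h2.mul_left q)
      = t2L Kbar (q * M) (h2.mul_left q) :=
  arithmeticGalois_smul_t2L Kbar (q * M) _ σ

theorem arithmeticGalois_smul_t3L_lit (h3 : 3 ∣ M) (σ : Kbar ≃ₐ[ℚ] Kbar) :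
    arithmeticGalois (modularFunctionFieldFull (q * M)) σ • t3L Kbar (q * M) (h3.mul_left q)
      = t3L Kbar (q * M) (h3.mul_left q) :=
  arithmeticGalois_smul_t3L Kbar (q * M) _ σ

end Literal

end

end Fermat.Agent.S35.helper4640
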