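/-
S35 / S34, chart FRONT MATTER (helper3729): the nine chart facts of
`Fermat.Agent.S34.helper2423.Stmt_ChartNodes` (and the clauses (a), (b), (c) of its Frobenius twin)
for the Hauptmodul charts `x := t_2` (`2 ∣ M`) and `x := t_3` (`3 ∣ M`) at the literal level
`q * M`, from landed suppliers only:

* `x := helper6381.t2L Qb (q * M) _`, `x₁ := helper6381.t2F k M h2 _`, `x₂ := x₁ ^ q`
  (`k` the residue field of `A`);
* `x` transcendental, `F` finite over `Qb(x)`, `x` fixed by every `arithmeticGalois g`, a unit for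
  both Gauss valuations; `x₁`, `x₂` transcendental with `F_k(M)` finite over `k(x_j)`;
  `red x = (x₁, x₂)`; the expansion of `x₁` has coefficients in the prime field.
-/
import Mathlib
import Fermat.Agent.S35.helper4640_CuspChartGP
import Fermat.Agent.S35.helper825_NodePlaces

set_option autoImplicit false

namespace Fermat.Agent.S35.helper3729

open AlgebraicCurve ModularCurve
open Fermat.Agent.S35.helper1219
open Fermat.Agent.S35.helper882 (gpVal gpRed)
open Fermat.Agent.S35.helper1928 (fibreIncl)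
open Fermat.Agent.S18.helper6381 (t2L t3L t2F t3F)

local notation "Qb" => AlgebraicClosure ℚ
local notation "GQ" => (AlgebraicClosure ℚ ≃ₐ[ℚ] AlgebraicClosure ℚ)

noncomputable section

/-- Integer series have coefficients fixed by the `q`-power map in characteristic `q`. -/
theorem coeffMap_intCast_coeff_pow (k : Type) [Field k] (q : ℕ) [Fact q.Prime] [CharP k q]
    (f : LaurentSeries ℤ) (n : ℤ) :
    ((coeffMap (Int.castRingHom k) f).coeff n) ^ q = (coeffMap (Int.castRingHom k) f).coeff n := by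
  have h : (coeffMap (Int.castRingHom k) f).coeff n = ((f.coeff n : ℤ) : k) := rfl
  rw [h, ← frobenius_def, map_intCast]

/-- The primes of `M` are invertible in the residue field of a place over `q ∤ M`. -/
theorem chartFront_hNk (q M : ℕ) (hq : q.Prime) (h' : Nat.Coprime q M)
    (A : ValuationSubring Qb) (hA : A.LiesOverPrime q) :
    ∀ p : ℕ, p.Prime → p ∣ M → (p : IsLocalRing.ResidueField A) ≠ 0 :=
  have : Fact q.Prime := ⟨hq⟩
  Fermat.Agent.S35.helper4640.natCast_residue_ne_zero q M
    ((Nat.Prime.coprime_iff_not_dvd hq).mp h') A hA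

/-- **Chart front matter, `r = 2`.** -/
theorem chart_front_t2 (q M : ℕ) [NeZero q] [NeZero M] (h' : Nat.Coprime q M) (hq : q.Prime)
    (A : ValuationSubring Qb) (hA : A.LiesOverPrime q) (h2 : 2 ∣ M)
    (hNk : ∀ p : ℕ, p.Prime → p ∣ M → (p : IsLocalRing.ResidueField A) ≠ 0) :
    Transcendental Qb (t2L Qb (q * M) (h2.mul_left q)) ∧
    FiniteDimensional (IntermediateField.adjoin Qb {t2L Qb (q * M) (h2.mul_left q)})
      (modularFunctionFieldBar (q * M)) ∧
    (∀ g : GQ, arithmeticGalois (modularFunctionFieldFull (q * M)) g •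
      t2L Qb (q * M) (h2.mul_left q) = t2L Qb (q * M) (h2.mul_left q)) ∧
    (∀ i, gpVal A (q * M) (atkinLehnerBar q M h') i (t2L Qb (q * M) (h2.mul_left q)) = 1) ∧
    Transcendental (IsLocalRing.ResidueField A) (t2F (IsLocalRing.ResidueField A) M h2 hNk) ∧
    FiniteDimensional (IntermediateField.adjoin (IsLocalRing.ResidueField A)
        {t2F (IsLocalRing.ResidueField A) M h2 hNk})
      ↥(modularFunctionFieldFullC (IsLocalRing.ResidueField A) M) ∧
    Transcendental (IsLocalRing.ResidueField A) (t2F (IsLocalRing.ResidueField A) M h2 hNk ^ q) ∧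
    FiniteDimensional (IntermediateField.adjoin (IsLocalRing.ResidueField A)
        {t2F (IsLocalRing.ResidueField A) M h2 hNk ^ q})
      ↥(modularFunctionFieldFullC (IsLocalRing.ResidueField A) M) ∧
    gpRed A (q * M) (atkinLehnerBar q M h') (t2L Qb (q * M) (h2.mul_left q)) =
      fibreIncl (IsLocalRing.ResidueField A) M
        (t2F (IsLocalRing.ResidueField A) M h2 hNk,
          t2F (IsLocalRing.ResidueField A) M h2 hNk ^ q) ∧
    (∀ n : ℤ, ((t2F (IsLocalRing.ResidueField A) M h2 hNk :
        ↥(modularFunctionFieldFullC (IsLocalRing.ResidueField A) M)) :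
          LaurentSeries (IsLocalRing.ResidueField A)).coeff n ^ q =
      ((t2F (IsLocalRing.ResidueField A) M h2 hNk :
        ↥(modularFunctionFieldFullC (IsLocalRing.ResidueField A) M)) :
          LaurentSeries (IsLocalRing.ResidueField A)).coeff n) := by
  have : Fact q.Prime := ⟨hq⟩
  have hqM : ¬ q ∣ M := (Nat.Prime.coprime_iff_not_dvd hq).mp h'
  have := Fermat.Agent.S18.helper508.charP_residueField q A hA
  obtain ⟨hxtr, hxfin, -⟩ := Fermat.Agent.S18.helper6381.t2L_spec Qb (q * M) (h2.mul_left q)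
  obtain ⟨hx₁tr, hx₁fin, -⟩ :=
    Fermat.Agent.S18.helper6381.t2F_spec (IsLocalRing.ResidueField A) M h2 hNk
  refine ⟨hxtr, hxfin, fun g => ?_, ?_, hx₁tr, hx₁fin, hx₁tr.pow hq.pos, ?_, ?_, ?_⟩
  · exact Fermat.Agent.S35.helper4640.arithmeticGalois_smul_t2L Qb (q * M) (h2.mul_left q) g
  · exact Fermat.Agent.S35.helper4640.gpVal_t2L q M hqM A h2
  · exact Fermat.Agent.S35.helper825.finiteDimensional_pow _ hq.ne_zero
  · exact Fermat.Agent.S35.helper4640.gpRed_t2L q M hqM A hA h2 _ rfl
  · intro n
    exact coeffMap_intCast_coeff_pow (IsLocalRing.ResidueField A) q _ n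

/-- **Chart front matter, `r = 3`.** -/
theorem chart_front_t3 (q M : ℕ) [NeZero q] [NeZero M] (h' : Nat.Coprime q M) (hq : q.Prime)
    (A : ValuationSubring Qb) (hA : A.LiesOverPrime q) (h3 : 3 ∣ M)
    (hNk : ∀ p : ℕ, p.Prime → p ∣ M → (p : IsLocalRing.ResidueField A) ≠ 0) :
    Transcendental Qb (t3L Qb (q * M) (h3.mul_left q)) ∧
    FiniteDimensional (IntermediateField.adjoin Qb {t3L Qb (q * M) (h3.mul_left q)})
      (modularFunctionFieldBar (q * M)) ∧
    (∀ g : GQ, arithmeticGalois (modularFunctionFieldFull (q * M)) g •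
      t3L Qb (q * M) (h3.mul_left q) = t3L Qb (q * M) (h3.mul_left q)) ∧
    (∀ i, gpVal A (q * M) (atkinLehnerBar q M h') i (t3L Qb (q * M) (h3.mul_left q)) = 1) ∧
    Transcendental (IsLocalRing.ResidueField A) (t3F (IsLocalRing.ResidueField A) M h3 hNk) ∧
    FiniteDimensional (IntermediateField.adjoin (IsLocalRing.ResidueField A)
        {t3F (IsLocalRing.ResidueField A) M h3 hNk})
      ↥(modularFunctionFieldFullC (IsLocalRing.ResidueField A) M) ∧
    Transcendental (IsLocalRing.ResidueField A) (t3F (IsLocalRing.ResidueField A) M h3 hNk ^ q) ∧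
    FiniteDimensional (IntermediateField.adjoin (IsLocalRing.ResidueField A)
        {t3F (IsLocalRing.ResidueField A) M h3 hNk ^ q})
      ↥(modularFunctionFieldFullC (IsLocalRing.ResidueField A) M) ∧
    gpRed A (q * M) (atkinLehnerBar q M h') (t3L Qb (q * M) (h3.mul_left q)) =
      fibreIncl (IsLocalRing.ResidueField A) M
        (t3F (IsLocalRing.ResidueField A) M h3 hNk,
          t3F (IsLocalRing.ResidueField A) M h3 hNk ^ q) ∧
    (∀ n : ℤ, ((t3F (IsLocalRing.ResidueField A) M h3 hNk :
        ↥(modularFunctionFieldFullC (IsLocalRing.ResidueField A) M)) :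
          LaurentSeries (IsLocalRing.ResidueField A)).coeff n ^ q =
      ((t3F (IsLocalRing.ResidueField A) M h3 hNk :
        ↥(modularFunctionFieldFullC (IsLocalRing.ResidueField A) M)) :
          LaurentSeries (IsLocalRing.ResidueField A)).coeff n) := by
  have : Fact q.Prime := ⟨hq⟩
  have hqM : ¬ q ∣ M := (Nat.Prime.coprime_iff_not_dvd hq).mp h'
  have := Fermat.Agent.S18.helper508.charP_residueField q A hA
  obtain ⟨hxtr, hxfin, -⟩ := Fermat.Agent.S18.helper6381.t3L_spec Qb (q * M) (h3.mul_left q)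
  obtain ⟨hx₁tr, hx₁fin, -⟩ :=
    Fermat.Agent.S18.helper6381.t3F_spec (IsLocalRing.ResidueField A) M h3 hNk
  refine ⟨hxtr, hxfin, fun g => ?_, ?_, hx₁tr, hx₁fin, hx₁tr.pow hq.pos, ?_, ?_, ?_⟩
  · exact Fermat.Agent.S35.helper4640.arithmeticGalois_smul_t3L Qb (q * M) (h3.mul_left q) g
  · exact Fermat.Agent.S35.helper4640.gpVal_t3L q M hqM A h3
  · exact Fermat.Agent.S35.helper825.finiteDimensional_pow _ hq.ne_zero
  · exact Fermat.Agent.S35.helper4640.gpRed_t3L q M hqM A hA h3 _ rfl
  · intro n
    exact coeffMap_intCast_coeff_pow (IsLocalRing.ResidueField A) q _ n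

end

end Fermat.Agent.S35.helper3729
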