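/-
S35, the LAST theorem of the geometry module (helper3729): the chart / node package of S35
`Fermat.Agent.S35.helper2039.Stmt_ChartNodesFrobGeom` at every auxiliary level `q * M`
(`q ∤ M`, `r ∣ M`, `r ∈ {2, 3}`, `r ≠ q`) by composition of

* the chart front matter `helper3729.chart_front_t2/_t3` (chart function `x = t_r`, reduction
  `(x₁, x₁ ^ q)`, Galois invariance, prime-field coefficients);
* the Riemann–Roch containment `helper3028.hRR_t2L_lit/_t3L_lit`;
* the node tail `ChartNodesTail` (nodes `P i`, `Q i`, graph clause (FROB), node conditions,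
  Kronecker conductor in the two charts) = the conclusion of the Kronecker chart instance
  `helper2736.kron_nodes_t2/_t3`.

`stmt_ChartNodesFrobGeom : helper2039.Stmt_ChartNodesFrobGeom` has no hypothesis left.
-/
import Mathlib
import Fermat.Agent.S35.helper2039_NodalFrobInst
import Fermat.Agent.S35.helper3729_ChartFront
import Fermat.Agent.S35.helper3028_HContGp
import Fermat.Agent.S35.helper2736_KronW

set_option autoImplicit false

namespace Fermat.Agent.S35.helper3729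

open AlgebraicCurve ModularCurve HahnSeries
open Fermat.Agent.S35.helper1219
open Fermat.Agent.S35.helper603 (valueAt)
open Fermat.Agent.S35.helper882 (gpVal gpRed)
open Fermat.Agent.S35.helper1928 (fibreIncl)
open Fermat.Agent.S18.helper6381 (t2L t3L t2F t3F)

local notation "Qb" => AlgebraicClosure ℚ
local notation "GQ" => (AlgebraicClosure ℚ ≃ₐ[ℚ] AlgebraicClosure ℚ)

noncomputable section

/-- **The node tail of `helper2039.Stmt_ChartNodesFrob`** for a chart function `x` of level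
`q * M` with reduction `(x₁, x₁ ^ q)`: nodes `P i`, `Q i` off the zeros and poles, the graph
clause (FROB), and for the pole / zero divisors the node conditions `hnode` and the Kronecker
conductor `hK1`, `hK2` in the two charts. -/
def ChartNodesTail (q M : ℕ) [NeZero q] [NeZero M] (h' : Nat.Coprime q M)
    (A : ValuationSubring Qb)
    (hdegk : ∀ w : Place (IsLocalRing.ResidueField A)
      ↥(modularFunctionFieldFullC (IsLocalRing.ResidueField A) M), w.deg = 1)
    (x : modularFunctionFieldBar (q * M))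
    (x₁ : ↥(modularFunctionFieldFullC (IsLocalRing.ResidueField A) M)) : Prop :=
  ∃ (I : Type) (_ : Fintype I)
    (P Q : I → Place (IsLocalRing.ResidueField A)
      ↥(modularFunctionFieldFullC (IsLocalRing.ResidueField A) M)),
    Function.Injective P ∧ Function.Injective Q ∧
    (∀ i, (P i).ord x₁ = 0) ∧ (∀ i, (Q i).ord (x₁ ^ q) = 0) ∧
    (∀ i, ∀ u u' : ↥(modularFunctionFieldFullC (IsLocalRing.ResidueField A) M),
      u ∈ Fermat.Agent.S35.helper825.chartAlg (IsLocalRing.ResidueField A) x₁ →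
      (u' : LaurentSeries (IsLocalRing.ResidueField A)) =
        qExpand (IsLocalRing.ResidueField A) q
          (u : LaurentSeries (IsLocalRing.ResidueField A)) →
      valueAt (P i) (hdegk (P i)) u' = valueAt (Q i) (hdegk (Q i)) u ∧
        valueAt (Q i) (hdegk (Q i)) u' = valueAt (P i) (hdegk (P i)) u) ∧
    ∀ (E1 E2 : Divisor Qb (modularFunctionFieldBar (q * M)))
      (Yinf₁ Y0₁ Yinf₂ Y0₂ : Divisor (IsLocalRing.ResidueField A)
        ↥(modularFunctionFieldFullC (IsLocalRing.ResidueField A) M)),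
      (∀ w, E1 w = max 0 (-(w.ord x))) → (∀ w, E2 w = max 0 (w.ord x)) →
      (∀ w, Yinf₁ w = max 0 (-(w.ord x₁))) → (∀ w, Y0₁ w = max 0 (w.ord x₁)) →
      (∀ w, Yinf₂ w = max 0 (-(w.ord (x₁ ^ q)))) → (∀ w, Y0₂ w = max 0 (w.ord (x₁ ^ q))) →
      (∀ a : ℕ, ∀ f ∈ riemannRochSpace (a • E1),
        (∀ i, gpVal A (q * M) (atkinLehnerBar q M h') i f ≤ 1) →
        ∀ y₁ ∈ riemannRochSpace (a • Yinf₁), ∀ y₂ ∈ riemannRochSpace (a • Yinf₂),
          gpRed A (q * M) (atkinLehnerBar q M h') f =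
            fibreIncl (IsLocalRing.ResidueField A) M (y₁, y₂) →
          ∀ i, valueAt (Q i) (hdegk (Q i)) y₂ = valueAt (P i) (hdegk (P i)) y₁) ∧
      (∀ a : ℕ, ∀ y₁ ∈ riemannRochSpace (a • Yinf₁), ∀ y₂ ∈ riemannRochSpace (a • Yinf₂),
        (∀ i, valueAt (Q i) (hdegk (Q i)) y₂ = valueAt (P i) (hdegk (P i)) y₁) →
        ∃ a' : ℕ, ∃ f ∈ riemannRochSpace (a' • E1),
          (∀ i, gpVal A (q * M) (atkinLehnerBar q M h') i f ≤ 1) ∧
            gpRed A (q * M) (atkinLehnerBar q M h') f =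
              fibreIncl (IsLocalRing.ResidueField A) M (y₁, y₂)) ∧
      (∀ b : ℕ, ∀ y₁ ∈ riemannRochSpace (b • Y0₁), ∀ y₂ ∈ riemannRochSpace (b • Y0₂),
        (∀ i, valueAt (Q i) (hdegk (Q i)) y₂ = valueAt (P i) (hdegk (P i)) y₁) →
        ∃ b' : ℕ, ∃ f ∈ riemannRochSpace (b' • E2),
          (∀ i, gpVal A (q * M) (atkinLehnerBar q M h') i f ≤ 1) ∧
            gpRed A (q * M) (atkinLehnerBar q M h') f =
              fibreIncl (IsLocalRing.ResidueField A) M (y₁, y₂))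

/-- A divisor given by the pole formula is effective. -/
theorem divisor_nonneg_of_max {K F : Type*} [Field K] [Field F] [Algebra K F]
    {D : Divisor K F} {g : Place K F → ℤ} (hD : ∀ w, D w = max 0 (g w)) : 0 ≤ D :=
  Finsupp.le_def.mpr fun w => by
    rw [hD w]
    exact le_max_left _ _

/-- Pole and zero divisors given by the max formulas have disjoint supports. -/
theorem divisor_disjoint_of_max {K F : Type*} [Field K] [Field F] [Algebra K F]
    {D1 D2 : Divisor K F} {g : Place K F → ℤ} (h1 : ∀ w, D1 w = max 0 (-(g w)))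
    (h2 : ∀ w, D2 w = max 0 (g w)) (w : Place K F) : D1 w = 0 ∨ D2 w = 0 := by
  rw [h1 w, h2 w]
  rcases le_total 0 (g w) with h | h
  · exact Or.inl (max_eq_left (neg_nonpos.mpr h))
  · exact Or.inr (max_eq_left h)

/-- `g = D2 - D1` for the pole / zero divisors given by the max formulas. -/
theorem divisor_sub_of_max {K F : Type*} [Field K] [Field F] [Algebra K F]
    {D1 D2 : Divisor K F} {g : Place K F → ℤ} (h1 : ∀ w, D1 w = max 0 (-(g w)))
    (h2 : ∀ w, D2 w = max 0 (g w)) (w : Place K F) : g w = D2 w - D1 w := by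
  rw [h1 w, h2 w]
  rcases le_total 0 (g w) with h | h
  · rw [max_eq_left (neg_nonpos.mpr h), max_eq_right h, sub_zero]
  · rw [max_eq_right (neg_nonneg.mpr h), max_eq_left h, zero_sub, neg_neg]

/-- **The chart / node package of S35 on the chart `t₂`** from the node tail. -/
theorem stmt_ChartNodesFrob_of_tail_t2 (q M : ℕ) [NeZero q] [NeZero M] (h' : Nat.Coprime q M)
    (hq : q.Prime) (A : ValuationSubring Qb) (hA : A.LiesOverPrime q) (h2 : 2 ∣ M)
    (hNk : ∀ p : ℕ, p.Prime → p ∣ M → (p : IsLocalRing.ResidueField A) ≠ 0)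
    (htail : ∀ hdegk : (∀ w : Place (IsLocalRing.ResidueField A)
        ↥(modularFunctionFieldFullC (IsLocalRing.ResidueField A) M), w.deg = 1),
      ChartNodesTail q M h' A hdegk (t2L Qb (q * M) (h2.mul_left q))
        (t2F (IsLocalRing.ResidueField A) M h2 hNk)) :
    Fermat.Agent.S35.helper2039.Stmt_ChartNodesFrob q M h' A := by
  intro hdegk
  obtain ⟨hxtr, hxfin, hxgal, hxv, hx₁tr, hx₁fin, hx₂tr, hx₂fin, hredx, hx₁Fq⟩ :=
    chart_front_t2 q M h' hq A hA h2 hNk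
  obtain ⟨I, hI, P, Q, hP, hQ, hPx, hQx, hFROB, hpack⟩ := htail hdegk
  refine ⟨_, _, _, I, hI, P, Q, hxtr, hxfin, hxgal, hxv, hx₁tr, hx₁fin, hx₂tr, hx₂fin, hredx,
    hP, hQ, hPx, hQx, rfl, hx₁Fq, hFROB, ?_⟩
  intro E1 E2 Yinf₁ Y0₁ Yinf₂ Y0₂ hE1 hE2 hYinf₁ hY0₁ hYinf₂ hY0₂
  obtain ⟨hnode, hK1, hK2⟩ := hpack E1 E2 Yinf₁ Y0₁ Yinf₂ Y0₂ hE1 hE2 hYinf₁ hY0₁ hYinf₂ hY0₂
  refine ⟨?_, hnode, hK1, hK2⟩
  exact Fermat.Agent.S35.helper3028.hRR_t2L_lit q M h' A hq hA h2 E1 E2
    (divisor_nonneg_of_max hE1) (divisor_nonneg_of_max hE2) (divisor_disjoint_of_max hE1 hE2)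
    (divisor_sub_of_max hE1 hE2) _ rfl Yinf₁ Y0₁ Yinf₂ Y0₂
    (divisor_nonneg_of_max hYinf₁) (divisor_nonneg_of_max hY0₁)
    (divisor_nonneg_of_max hYinf₂) (divisor_nonneg_of_max hY0₂)
    (divisor_sub_of_max hYinf₁ hY0₁) (divisor_sub_of_max hYinf₂ hY0₂)

/-- **The chart / node package of S35 on the chart `t₃`** from the node tail. -/
theorem stmt_ChartNodesFrob_of_tail_t3 (q M : ℕ) [NeZero q] [NeZero M] (h' : Nat.Coprime q M)
    (hq : q.Prime) (A : ValuationSubring Qb) (hA : A.LiesOverPrime q) (h3 : 3 ∣ M)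
    (hNk : ∀ p : ℕ, p.Prime → p ∣ M → (p : IsLocalRing.ResidueField A) ≠ 0)
    (htail : ∀ hdegk : (∀ w : Place (IsLocalRing.ResidueField A)
        ↥(modularFunctionFieldFullC (IsLocalRing.ResidueField A) M), w.deg = 1),
      ChartNodesTail q M h' A hdegk (t3L Qb (q * M) (h3.mul_left q))
        (t3F (IsLocalRing.ResidueField A) M h3 hNk)) :
    Fermat.Agent.S35.helper2039.Stmt_ChartNodesFrob q M h' A := by
  intro hdegk
  obtain ⟨hxtr, hxfin, hxgal, hxv, hx₁tr, hx₁fin, hx₂tr, hx₂fin, hredx, hx₁Fq⟩ :=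
    chart_front_t3 q M h' hq A hA h3 hNk
  obtain ⟨I, hI, P, Q, hP, hQ, hPx, hQx, hFROB, hpack⟩ := htail hdegk
  refine ⟨_, _, _, I, hI, P, Q, hxtr, hxfin, hxgal, hxv, hx₁tr, hx₁fin, hx₂tr, hx₂fin, hredx,
    hP, hQ, hPx, hQx, rfl, hx₁Fq, hFROB, ?_⟩
  intro E1 E2 Yinf₁ Y0₁ Yinf₂ Y0₂ hE1 hE2 hYinf₁ hY0₁ hYinf₂ hY0₂
  obtain ⟨hnode, hK1, hK2⟩ := hpack E1 E2 Yinf₁ Y0₁ Yinf₂ Y0₂ hE1 hE2 hYinf₁ hY0₁ hYinf₂ hY0₂
  refine ⟨?_, hnode, hK1, hK2⟩
  exact Fermat.Agent.S35.helper3028.hRR_t3L_lit q M h' A hq hA h3 E1 E2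
    (divisor_nonneg_of_max hE1) (divisor_nonneg_of_max hE2) (divisor_disjoint_of_max hE1 hE2)
    (divisor_sub_of_max hE1 hE2) _ rfl Yinf₁ Y0₁ Yinf₂ Y0₂
    (divisor_nonneg_of_max hYinf₁) (divisor_nonneg_of_max hY0₁)
    (divisor_nonneg_of_max hYinf₂) (divisor_nonneg_of_max hY0₂)
    (divisor_sub_of_max hYinf₁ hY0₁) (divisor_sub_of_max hYinf₂ hY0₂)

/-- **`helper2039.Stmt_ChartNodesFrobGeom` from the node tails on the charts `t₂`, `t₃`.** -/
theorem stmt_ChartNodesFrobGeom_of_tails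
    (hk2 : ∀ (q M : ℕ) [NeZero q] [NeZero M] (h' : Nat.Coprime q M), q.Prime → q ≠ 2 →
      ∀ (A : ValuationSubring Qb), A.LiesOverPrime q → ∀ (h2 : 2 ∣ M)
        (hNk : ∀ p : ℕ, p.Prime → p ∣ M → (p : IsLocalRing.ResidueField A) ≠ 0)
        (hdegk : ∀ w : Place (IsLocalRing.ResidueField A)
          ↥(modularFunctionFieldFullC (IsLocalRing.ResidueField A) M), w.deg = 1),
        ChartNodesTail q M h' A hdegk (t2L Qb (q * M) (h2.mul_left q))
          (t2F (IsLocalRing.ResidueField A) M h2 hNk))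
    (hk3 : ∀ (q M : ℕ) [NeZero q] [NeZero M] (h' : Nat.Coprime q M), q.Prime → q ≠ 3 →
      ∀ (A : ValuationSubring Qb), A.LiesOverPrime q → ∀ (h3 : 3 ∣ M)
        (hNk : ∀ p : ℕ, p.Prime → p ∣ M → (p : IsLocalRing.ResidueField A) ≠ 0)
        (hdegk : ∀ w : Place (IsLocalRing.ResidueField A)
          ↥(modularFunctionFieldFullC (IsLocalRing.ResidueField A) M), w.deg = 1),
        ChartNodesTail q M h' A hdegk (t3L Qb (q * M) (h3.mul_left q))
          (t3F (IsLocalRing.ResidueField A) M h3 hNk)) :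
    Fermat.Agent.S35.helper2039.Stmt_ChartNodesFrobGeom := by
  intro q M r _ _ h' hq hr hrq hrM A hA
  have hNk := chartFront_hNk q M hq h' A hA
  rcases hr with rfl | rfl
  · exact stmt_ChartNodesFrob_of_tail_t2 q M h' hq A hA hrM hNk
      (fun hdegk => hk2 q M h' hq (Ne.symm hrq) A hA hrM hNk hdegk)
  · exact stmt_ChartNodesFrob_of_tail_t3 q M h' hq A hA hrM hNk
      (fun hdegk => hk3 q M h' hq (Ne.symm hrq) A hA hrM hNk hdegk)

/-- **THE chart / node package of S35 at all auxiliary levels** (no hypothesis): the last leaf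
`helper2039.Stmt_ChartNodesFrobGeom` of the geometry module. -/
theorem stmt_ChartNodesFrobGeom : Fermat.Agent.S35.helper2039.Stmt_ChartNodesFrobGeom :=
  stmt_ChartNodesFrobGeom_of_tails
    (fun q M _ _ h' hq hq2 A hA h2 hNk hdegk =>
      Fermat.Agent.S35.helper2736.kron_nodes_t2 A q M h' hq hq2 hA h2 hNk hdegk)
    (fun q M _ _ h' hq hq3 A hA h3 hNk hdegk =>
      Fermat.Agent.S35.helper2736.kron_nodes_t3 A q M h' hq hq3 hA h3 hNk hdegk)

end

end Fermat.Agent.S35.helper3729
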