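/-
S35/S34-CUSPORD (helper2974), board row 1960.

Orders of the Hauptmodul `t = t_r` (`r = 2, 3`) and of its Atkin-Lehner twist
`t_q = W_q t = t_r(q z)` at EVERY place of the generic fibre `modularFunctionFieldBar N`
(`r * q ∣ N`, `q` a prime different from `r`).  Pure counting, no geometry:

* the degree `[F_{rq} : Kbar(t)] = q + 1` (landed S18 Hauptmodul line) and the fundamental
  identity (landed S24) bound the zeros and the poles of `t`;
* the cusp `∞` and its `W_q`-translate carry pole orders `(1, q)` and `(q, 1)`, which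
  exhausts the poles;
* the modular equation (landed S37 mutual integrality of `j(z)`, `j(qz)`) shows that `t` and
  `t_q` have the same support;
* at the common zeros the two zero divisors have the same degree `q + 1`, whence
  `ord t ≤ q * ord t_q` and `ord t_q ≤ q * ord t`.

Consequences (`g = t ^ q / t_q`, the unit of the two-valuation argument): `g` and `W g` are
regular where `t` is regular, `g⁻¹` and `W g⁻¹` are regular where `t⁻¹` is regular; in integral
form: `t_q`, `g`, `W g` are integral over `Kbar[t]` and `t_q⁻¹`, `g⁻¹`, `W g⁻¹` over `Kbar[t⁻¹]`.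

Main exports (namespace `Fermat.Agent.S35.helper2974`):
* `PairOrd q a b` and `pairOrd_t2`, `pairOrd_t3` (any level `N` with `r * q ∣ N`);
* `cuspOrd_package_t2/_t3`, `cuspOrd_package_degeneracy_t2/_t3` (place-wise regularity);
* `cuspOrd_integral_t2/_t3`, `cuspOrd_integral_degeneracy_t2/_t3` (integrality);
* abstract: `ord_pair_of_involution`, `ord_pair_mul`, `ord_pair_of_line`, `regular_of_pairOrd`,
  `regular_inv_of_pairOrd`, `isIntegral_of_pairOrd`, `isIntegral_inv_of_pairOrd`.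
-/
import Mathlib
import Fermat.Agent.S24.helper489_FundId
import Fermat.Agent.S24.helper1370_PlaceBasics
import Fermat.Agent.S18.helper6381_HLineInst
import Fermat.Agent.S18.helper1040_PlaceFacts
import Fermat.Agent.S18.helper4387_BoundedDen
import Fermat.Agent.S35.helper1219_AtkinLehnerFF
import Fermat.Agent.S37.helper5162_HeckeInputsModular
import Fermat.Agent.S37.helper9343_JIntegral

set_option autoImplicit false

noncomputable section

namespace Fermat.Agent.S35.helper2974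

open AlgebraicCurve ModularCurve IntermediateField

/-! ## Counting core -/

section Comb

variable {X : Type*}

/-- Two families of positive integers on the same finite set with the same sum `q + 1`:
each `a x` is at most `q * b x`. -/
theorem comb_zero (a b : X → ℤ) (q : ℤ) (hq : 1 ≤ q) (s : Finset X)
    (hs : ∀ x, x ∈ s ↔ 0 < a x) (hsb : ∀ x, x ∈ s ↔ 0 < b x)
    (hsum : ∑ x ∈ s, a x = q + 1) (hsumb : ∑ x ∈ s, b x = q + 1)
    (x : X) (hx : 0 < a x) : a x ≤ q * b x := by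
  classical
  have hxs : x ∈ s := (hs x).mpr hx
  have hbx : 0 < b x := (hsb x).mp hxs
  have h1 := Finset.add_sum_erase s a hxs
  have h2 := Finset.add_sum_erase s b hxs
  rcases (s.erase x).eq_empty_or_nonempty with he | ⟨y, hy⟩
  · rw [he, Finset.sum_empty, add_zero] at h1 h2
    nlinarith
  · have hya : 1 ≤ a y := (hs y).mp (Finset.mem_of_mem_erase hy)
    have hle : a y ≤ ∑ z ∈ s.erase x, a z :=
      Finset.single_le_sum (f := a)
        (fun z hz => ((hs z).mp (Finset.mem_of_mem_erase hz)).le) hy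
    nlinarith

/-- **Counting core.**  `a`, `b` two integer functions exchanged by an involution `ι`, the
positive part and the negative part of `a` have total mass `q + 1`, one point carries
`(a, b) = (-1, -q)`, and `a = 0 → b = 0`. -/
theorem comb_main (a b : X → ℤ) (ι : X → X) (q : ℤ) (hq : 2 ≤ q)
    (hι : ∀ x, ι (ι x) = x) (hab : ∀ x, a (ι x) = b x)
    (sz : Finset X) (hsz : ∀ x, x ∈ sz ↔ 0 < a x) (hsumz : ∑ x ∈ sz, a x = q + 1)
    (sp : Finset X) (hsp : ∀ x, x ∈ sp ↔ a x < 0) (hsump : ∑ x ∈ sp, a x = -(q + 1))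
    (x0 : X) (ha0 : a x0 = -1) (hb0 : b x0 = -q)
    (hsupp : ∀ x, a x = 0 → b x = 0) (x : X) :
    (a x < 0 → (a x = -1 ∧ b x = -q) ∨ (a x = -q ∧ b x = -1)) ∧
      (0 < a x → 0 < b x ∧ a x ≤ q * b x ∧ b x ≤ q * a x) ∧
      (a x = 0 → b x = 0) := by
  classical
  have hba : ∀ y, b (ι y) = a y := fun y => by rw [← hab (ι y), hι]
  -- the poles
  have hpole : ∀ y, a y < 0 → y = x0 ∨ y = ι x0 := by
    intro y hy
    by_contra hne
    push Not at hne
    have h01 : x0 ≠ ι x0 := by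
      intro h
      have : a x0 = b x0 := by rw [← hab x0, ← h]
      omega
    have hsub : ({x0, ι x0, y} : Finset X) ⊆ sp := by
      intro z hz
      simp only [Finset.mem_insert, Finset.mem_singleton] at hz
      rw [hsp]
      rcases hz with rfl | rfl | rfl
      · omega
      · rw [hab]; omega
      · exact hy
    have hle : ∑ z ∈ ({x0, ι x0, y} : Finset X), (-a z) ≤ ∑ z ∈ sp, (-a z) :=
      Finset.sum_le_sum_of_subset_of_nonneg hsub
        (fun z hz _ => by have := (hsp z).mp hz; omega)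
    rw [Finset.sum_neg_distrib, Finset.sum_neg_distrib, hsump,
      Finset.sum_insert (by simp [h01, hne.1.symm]),
      Finset.sum_insert (by simp [hne.2.symm]), Finset.sum_singleton, hab, ha0, hb0] at hle
    omega
  have hpole' : ∀ y, a y < 0 → (a y = -1 ∧ b y = -q) ∨ (a y = -q ∧ b y = -1) := by
    intro y hy
    rcases hpole y hy with rfl | rfl
    · exact Or.inl ⟨ha0, hb0⟩
    · exact Or.inr ⟨by rw [hab, hb0], by rw [hba, ha0]⟩
  have hsupp' : ∀ y, b y = 0 → a y = 0 := by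
    intro y hy
    have h1 : a (ι y) = 0 := by rw [hab, hy]
    have h2 := hsupp (ι y) h1
    rwa [hba] at h2
  have hbneg : ∀ y, b y < 0 → a y < 0 := by
    intro y hy
    have h1 : a (ι y) < 0 := by rw [hab]; exact hy
    rcases hpole' (ι y) h1 with ⟨-, h3⟩ | ⟨-, h3⟩ <;> rw [hba] at h3 <;> omega
  have hpos : ∀ y, 0 < a y → 0 < b y := by
    intro y hy
    rcases lt_trichotomy (b y) 0 with h | h | h
    · have := hbneg y h; omega
    · have := hsupp' y h; omega
    · exact h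
  have hpos' : ∀ y, 0 < b y → 0 < a y := by
    intro y hy
    rcases lt_trichotomy (a y) 0 with h | h | h
    · rcases hpole' y h with ⟨-, h3⟩ | ⟨-, h3⟩ <;> omega
    · have := hsupp y h; omega
    · exact h
  have hszb : ∀ y, y ∈ sz ↔ 0 < b y := fun y => (hsz y).trans ⟨hpos y, hpos' y⟩
  have hsumb : ∑ y ∈ sz, b y = q + 1 := by
    rw [← hsumz]
    refine Finset.sum_nbij' ι ι ?_ ?_ ?_ ?_ ?_
    · intro y hy
      rw [hsz, hab]
      exact (hszb y).mp hy
    · intro y hy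
      rw [hszb, hba]
      exact (hsz y).mp hy
    · intro y _
      exact hι y
    · intro y _
      exact hι y
    · intro y _
      exact (hab y).symm
  refine ⟨hpole' x, fun hx => ⟨hpos x hx, ?_, ?_⟩, hsupp x⟩
  · exact comb_zero a b q (by omega) sz hsz hszb hsumz hsumb x hx
  · exact comb_zero b a q (by omega) sz hszb hsz hsumb hsumz x (hpos x hx)

end Comb

/-! ## The shape of the conclusion and its formal consequences -/

section PairOrd

/-- **The CUSPORD relation** between the orders `a = ord_P t`, `b = ord_P t_q` at one place: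
poles of order ratio exactly `q` (one way or the other), zeros of order ratio at most `q`,
and common support. -/
def PairOrd (q : ℕ) (a b : ℤ) : Prop :=
  (a < 0 → b < 0 ∧ (b = q * a ∨ a = q * b)) ∧
    (0 < a → 0 < b ∧ a ≤ q * b ∧ b ≤ q * a) ∧ (a = 0 → b = 0)

variable {q : ℕ} {a b : ℤ}

theorem PairOrd.symm (h : PairOrd q a b) : PairOrd q b a := by
  obtain ⟨h1, h2, h3⟩ := h
  refine ⟨fun hb => ?_, fun hb => ?_, fun hb => ?_⟩
  · rcases lt_trichotomy a 0 with ha | ha | ha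
    · obtain ⟨-, h | h⟩ := h1 ha
      · exact ⟨ha, Or.inr h⟩
      · exact ⟨ha, Or.inl h⟩
    · have := h3 ha; omega
    · have := (h2 ha).1; omega
  · rcases lt_trichotomy a 0 with ha | ha | ha
    · have := (h1 ha).1; omega
    · have := h3 ha; omega
    · obtain ⟨-, h4, h5⟩ := h2 ha
      exact ⟨ha, h5, h4⟩
  · rcases lt_trichotomy a 0 with ha | ha | ha
    · have := (h1 ha).1; omega
    · exact ha
    · have := (h2 ha).1; omega

/-- `t_q` is regular where `t` is regular. -/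
theorem PairOrd.nonneg (h : PairOrd q a b) (ha : 0 ≤ a) : 0 ≤ b := by
  rcases ha.lt_or_eq with ha | ha
  · exact (h.2.1 ha).1.le
  · exact (h.2.2 ha.symm).ge

/-- `t_q⁻¹` is regular where `t⁻¹` is regular. -/
theorem PairOrd.nonpos (h : PairOrd q a b) (ha : a ≤ 0) : b ≤ 0 := by
  rcases ha.lt_or_eq with ha | ha
  · exact (h.1 ha).1.le
  · exact (h.2.2 ha).le

/-- `g = t ^ q / t_q` and `W g = t_q ^ q / t` are regular where `t` is regular. -/
theorem PairOrd.unit_nonneg (h : PairOrd q a b) (ha : 0 ≤ a) :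
    0 ≤ q * a - b ∧ 0 ≤ q * b - a := by
  rcases ha.lt_or_eq with ha | ha
  · obtain ⟨-, h4, h5⟩ := h.2.1 ha
    exact ⟨by omega, by omega⟩
  · have := h.2.2 ha.symm
    subst this
    rw [← ha]
    simp

/-- `g⁻¹ = t_q / t ^ q` and `W g⁻¹ = t / t_q ^ q` are regular where `t⁻¹` is regular. -/
theorem PairOrd.unit_inv_nonneg (hq : 1 ≤ q) (h : PairOrd q a b) (ha : a ≤ 0) :
    0 ≤ b - q * a ∧ 0 ≤ a - q * b := by
  have hqZ : (1 : ℤ) ≤ q := by exact_mod_cast hq
  rcases ha.lt_or_eq with ha | ha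
  · obtain ⟨hb, h4 | h4⟩ := h.1 ha
    · rw [h4]
      refine ⟨by simp, ?_⟩
      nlinarith [mul_nonneg (mul_nonneg (by omega : (0 : ℤ) ≤ q) (by omega : (0 : ℤ) ≤ q - 1))
        (by omega : (0 : ℤ) ≤ -a), mul_nonneg (by omega : (0 : ℤ) ≤ q - 1) (by omega : (0 : ℤ) ≤ -a)]
    · rw [h4]
      refine ⟨?_, by simp⟩
      nlinarith [mul_nonneg (mul_nonneg (by omega : (0 : ℤ) ≤ q) (by omega : (0 : ℤ) ≤ q - 1))
        (by omega : (0 : ℤ) ≤ -b), mul_nonneg (by omega : (0 : ℤ) ≤ q - 1) (by omega : (0 : ℤ) ≤ -b)]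
  · have := h.2.2 ha
    subst this
    rw [ha]
    simp

end PairOrd

/-! ## Function fields: the abstract statement -/

section Abstract

variable {K F : Type*} [Field K] [Field F] [Algebra K F]

theorem adjoin_inv_eq (f : F) : K⟮f⁻¹⟯ = K⟮f⟯ := by
  apply le_antisymm
  · rw [adjoin_simple_le_iff]
    exact inv_mem (mem_adjoin_simple_self K f)
  · rw [adjoin_simple_le_iff]
    have h := inv_mem (mem_adjoin_simple_self K f⁻¹)
    rwa [inv_inv] at h

/-- The fundamental identity for the POLES of a transcendental element. -/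
theorem fundId_poles [IsAlgClosed K] [CharZero K] (t : F) (ht : Transcendental K t)
    [FiniteDimensional K⟮t⟯ F] :
    ∃ s : Finset (Place K F), (∀ v : Place K F, v ∈ s ↔ v.ord t < 0) ∧
      ∑ v ∈ s, v.ord t = -(Module.finrank K⟮t⟯ F : ℤ) := by
  have hA : K⟮t⁻¹⟯ = K⟮t⟯ := adjoin_inv_eq t
  have : FiniteDimensional K⟮t⁻¹⟯ F := by rw [hA]; infer_instance
  have hfr : Module.finrank K⟮t⁻¹⟯ F = Module.finrank K⟮t⟯ F := by rw [hA]
  obtain ⟨s, hs, hsum⟩ := Fermat.Agent.S24.helper489.fundId t⁻¹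
    (fun h => ht (IsAlgebraic.inv_iff.mp h))
  refine ⟨s, fun v => ?_, ?_⟩
  · rw [hs, Place.ord_inv]; omega
  · rw [← hfr, ← hsum, ← Finset.sum_neg_distrib]
    exact Finset.sum_congr rfl fun v _ => by rw [Place.ord_inv, neg_neg]

/-- For an involution `W` of `F/K`: `ord_P (W f) = ord_{W • P} f`. -/
theorem ord_apply_eq_ord_smul (W : F ≃ₐ[K] F) (hW : ∀ z, W (W z) = z) (P : Place K F) (f : F) :
    P.ord (W f) = (W • P).ord f := by
  have h := Place.ord_smul W P (W f)
  rw [hW f] at h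
  exact h.symm

/-- **Abstract CUSPORD.**  `F/K` a function field over an algebraically closed field of
characteristic zero, `W` an involution of `F/K`, `t` of degree `[F : K(t)] = q + 1`, one place
with `(ord t, ord (W t)) = (-1, -q)`, and `ord t = 0 → ord (W t) = 0` everywhere.  Then the
orders of `t` and `W t` are comparable at every place. -/
theorem ord_pair_of_involution [IsAlgClosed K] [CharZero K] (W : F ≃ₐ[K] F)
    (hW : ∀ z, W (W z) = z) (t : F) (ht : Transcendental K t) [FiniteDimensional K⟮t⟯ F]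
    (q : ℕ) (hq : 2 ≤ q) (hdeg : Module.finrank K⟮t⟯ F = q + 1)
    (P0 : Place K F) (h0 : P0.ord t = -1) (h0' : P0.ord (W t) = -(q : ℤ))
    (hsupp : ∀ P : Place K F, P.ord t = 0 → P.ord (W t) = 0) (P : Place K F) :
    (P.ord t < 0 → (P.ord t = -1 ∧ P.ord (W t) = -(q : ℤ)) ∨
        (P.ord t = -(q : ℤ) ∧ P.ord (W t) = -1)) ∧
      (0 < P.ord t → 0 < P.ord (W t) ∧ P.ord t ≤ q * P.ord (W t) ∧
        P.ord (W t) ≤ q * P.ord t) ∧
      (P.ord t = 0 → P.ord (W t) = 0) := by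
  obtain ⟨sz, hsz, hsumz⟩ := Fermat.Agent.S24.helper489.fundId t ht
  obtain ⟨sp, hsp, hsump⟩ := fundId_poles t ht
  have hWW : W * W = 1 := AlgEquiv.ext hW
  have hι : ∀ Q : Place K F, W • W • Q = Q := fun Q => by rw [← mul_smul, hWW, one_smul]
  have hab : ∀ Q : Place K F, (W • Q).ord t = Q.ord (W t) :=
    fun Q => (ord_apply_eq_ord_smul W hW Q t).symm
  exact comb_main (fun Q : Place K F => Q.ord t) (fun Q : Place K F => Q.ord (W t))
    (fun Q : Place K F => W • Q) (q : ℤ) (by exact_mod_cast hq) hι hab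
    sz hsz (by rw [hsumz, hdeg]; push_cast; ring) sp hsp (by rw [hsump, hdeg]; push_cast; ring)
    P0 h0 h0' hsupp P

open Fermat.Agent.S24.helper1370 in
/-- Order of a translate by a nonzero constant. -/
theorem ord_add_const (v : Place K F) (x : F) {c : K} (hc : c ≠ 0) :
    (0 < v.ord x → v.ord (x + algebraMap K F c) = 0) ∧
      (v.ord x < 0 → v.ord (x + algebraMap K F c) = v.ord x) ∧
      (v.ord x = 0 → 0 ≤ v.ord (x + algebraMap K F c)) := by
  have hC : algebraMap K F c ≠ 0 := (map_ne_zero _).mpr hc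
  have hC0 : v.ord (algebraMap K F c) = 0 := ord_algebraMap v c
  refine ⟨fun h => ?_, fun h => ?_, fun h => ?_⟩
  · rw [ord_add_eq_of_lt' v hC (by rw [hC0]; exact h), hC0]
  · have hx : x ≠ 0 := by
      rintro rfl
      simp at h
    exact ord_add_eq_of_lt v hx (by rw [hC0]; exact h)
  · rcases eq_or_ne (x + algebraMap K F c) 0 with h0 | h0
    · rw [h0]; simp
    · have := ord_add_ge v h0
      rw [h, hC0] at this
      simpa using this

open Fermat.Agent.S24.helper1370 in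
/-- The level-2 shape `j * x ^ 2 = (x + c) ^ 3`: `x` is a unit at `v` iff `j` is regular. -/
theorem ord_eq_zero_iff_of_rel2 (v : Place K F) {j x : F} (hj : j ≠ 0) (hx : x ≠ 0) {c : K}
    (hc : c ≠ 0) (hrel : j * x ^ 2 = (x + algebraMap K F c) ^ 3) :
    v.ord x = 0 ↔ 0 ≤ v.ord j := by
  have hy : x + algebraMap K F c ≠ 0 := by
    intro h
    rw [h] at hrel
    have : j * x ^ 2 ≠ 0 := mul_ne_zero hj (pow_ne_zero 2 hx)
    exact this (by rw [hrel]; simp)
  have h1 : v.ord j + 2 * v.ord x = 3 * v.ord (x + algebraMap K F c) := by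
    have := congrArg v.ord hrel
    rw [v.ord_mul hj (pow_ne_zero 2 hx), ord_pow, ord_pow] at this
    push_cast at this
    exact this
  obtain ⟨hpos, hneg, hzero⟩ := ord_add_const v x hc
  constructor
  · intro h
    have := hzero h
    omega
  · intro h
    rcases lt_trichotomy (v.ord x) 0 with h' | h' | h'
    · have := hneg h'
      omega
    · exact h'
    · have := hpos h'
      omega

open Fermat.Agent.S24.helper1370 in
/-- The level-3 shape `j * x ^ 3 = (x + c) * (x + d) ^ 3`: `x` is a unit at `v` iff `j` is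
regular. -/
theorem ord_eq_zero_iff_of_rel3 (v : Place K F) {j x : F} (hj : j ≠ 0) (hx : x ≠ 0) {c d : K}
    (hc : c ≠ 0) (hd : d ≠ 0)
    (hrel : j * x ^ 3 = (x + algebraMap K F c) * (x + algebraMap K F d) ^ 3) :
    v.ord x = 0 ↔ 0 ≤ v.ord j := by
  have hne : j * x ^ 3 ≠ 0 := mul_ne_zero hj (pow_ne_zero 3 hx)
  have hy1 : x + algebraMap K F c ≠ 0 := by
    intro h
    rw [h, zero_mul] at hrel
    exact hne hrel
  have hy2 : x + algebraMap K F d ≠ 0 := by
    intro h
    rw [h] at hrel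
    exact hne (by rw [hrel]; simp)
  have h1 : v.ord j + 3 * v.ord x
      = v.ord (x + algebraMap K F c) + 3 * v.ord (x + algebraMap K F d) := by
    have := congrArg v.ord hrel
    rw [v.ord_mul hj (pow_ne_zero 3 hx), v.ord_mul hy1 (pow_ne_zero 3 hy2), ord_pow, ord_pow]
      at this
    push_cast at this
    exact this
  obtain ⟨hpos, hneg, hzero⟩ := ord_add_const v x hc
  obtain ⟨hpos', hneg', hzero'⟩ := ord_add_const v x hd
  constructor
  · intro h
    have := hzero h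
    have := hzero' h
    omega
  · intro h
    rcases lt_trichotomy (v.ord x) 0 with h' | h' | h'
    · have := hneg h'
      have := hneg' h'
      omega
    · exact h'
    · have := hpos h'
      have := hpos' h'
      omega

open Fermat.Agent.S24.helper1370 in
/-- Elements integral over the valuation ring of a place are regular at the place. -/
theorem ord_nonneg_of_isIntegral (v : Place K F) {y : F}
    (h : IsIntegral v.toValuationSubring y) : 0 ≤ v.ord y := by
  obtain ⟨z, hz⟩ := IsIntegrallyClosed.isIntegral_iff.mp h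
  rw [← hz]
  exact ord_coe_nonneg v z

/-- Restriction of a place along an algebra map `φ : F → F'` with `F'` finite over `K(φ x)`:
`ord_w (φ f) = e * ord_v f` with `e ≥ 1`. -/
theorem exists_restrict_ord {F' : Type*} [Field F'] [Algebra K F'] (φ : F →ₐ[K] F') (x : F)
    [FiniteDimensional K⟮φ x⟯ F'] (w : Place K F') :
    ∃ (e : ℕ) (v : Place K F), 0 < e ∧ ∀ f : F, w.ord (φ f) = (e : ℤ) * v.ord f := by
  have hφ : φ.toRingHom.IsIntegral :=
    Fermat.Agent.S37.helper5162.isIntegral_of_finiteAlong φ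
      (Fermat.Agent.S37.helper5162.finiteAlong_of_finiteDimensional φ x)
  refine ⟨Place.ramificationIndexAlong φ w, w.restrictAlong φ hφ, ?_,
    Place.ord_restrictAlong φ hφ w⟩
  let _ := algebraAlong φ
  have := isScalarTower_along φ
  have := isIntegral_along φ hφ
  exact w.ramificationIndex_pos (F := F)

end Abstract

/-! ## The modular function fields -/

section Modular

open Fermat.Agent.S24.helper24 Fermat.Agent.S35.helper1219 Fermat.Agent.S18.helper6381
open Fermat.Agent.S18.helper1040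

theorem coe_jBar_eq (N : ℕ) : ((jBar N : FN N) : LaurentSeries Kbar) = jqModC Kbar := by
  rw [coe_jBar, coeffEmb, ← jqModC_rat, coeffMap_jqModC]

theorem jBar_ne_zero (N : ℕ) : jBar N ≠ 0 := by
  intro h
  have h1 := coe_jBar_eq N
  rw [h] at h1
  exact jqModC_ne_zero_of_nontrivial (R := Kbar) h1.symm

theorem bar_mono {M N : ℕ} [NeZero M] [NeZero N] (h : M ∣ N) :
    modularFunctionFieldBar M ≤ modularFunctionFieldBar N := by
  show laurentBaseChange Kbar (modularFunctionFieldFull M)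
    ≤ laurentBaseChange Kbar (modularFunctionFieldFull N)
  rw [laurentBaseChange, IntermediateField.adjoin_le_iff]
  rintro _ ⟨y, hy, rfl⟩
  exact coeffEmb_mem_laurentBaseChange Kbar (full_degeneracy_le h hy)

/-- The inclusion of function fields `F_M ⊆ F_N` for `M ∣ N`. -/
def inclBar {M N : ℕ} [NeZero M] [NeZero N] (h : M ∣ N) : FN M →ₐ[Kbar] FN N :=
  IntermediateField.inclusion (bar_mono h)

theorem coe_inclBar {M N : ℕ} [NeZero M] [NeZero N] (h : M ∣ N) (x : FN M) :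
    ((inclBar h x : FN N) : LaurentSeries Kbar) = (x : LaurentSeries Kbar) :=
  IntermediateField.coe_inclusion _ x

/-- **CUSPORD at level `M * q`, generic form.**  `x : F_M` with a simple pole at `∞`,
`[F_{Mq} : Kbar(x)] = q + 1`, and `x` a unit exactly where `j` is regular. -/
theorem ord_pair_mul (M q : ℕ) [NeZero M] [NeZero q] (hq : q.Prime) (hcop : Nat.Coprime q M)
    (x : FN M) (hxord : (x : LaurentSeries Kbar).order = -1)
    (htr : Transcendental Kbar (heckeAlphaBar Kbar M q x))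
    (hfin : FiniteDimensional Kbar⟮heckeAlphaBar Kbar M q x⟯ (FN (M * q)))
    (hdeg : Module.finrank Kbar⟮heckeAlphaBar Kbar M q x⟯ (FN (M * q)) = q + 1)
    (hsupp : ∀ P : Place Kbar (FN (M * q)),
      P.ord (heckeAlphaBar Kbar M q x) = 0 ↔ 0 ≤ P.ord (jBar (M * q)))
    (P : Place Kbar (FN (M * q))) :
    (P.ord (heckeAlphaBar Kbar M q x) < 0 →
        (P.ord (heckeAlphaBar Kbar M q x) = -1 ∧
          P.ord (heckeBetaBar Kbar M q x) = -(q : ℤ)) ∨
        (P.ord (heckeAlphaBar Kbar M q x) = -(q : ℤ) ∧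
          P.ord (heckeBetaBar Kbar M q x) = -1)) ∧
      (0 < P.ord (heckeAlphaBar Kbar M q x) → 0 < P.ord (heckeBetaBar Kbar M q x) ∧
        P.ord (heckeAlphaBar Kbar M q x) ≤ q * P.ord (heckeBetaBar Kbar M q x) ∧
        P.ord (heckeBetaBar Kbar M q x) ≤ q * P.ord (heckeAlphaBar Kbar M q x)) ∧
      (P.ord (heckeAlphaBar Kbar M q x) = 0 → P.ord (heckeBetaBar Kbar M q x) = 0) := by
  obtain ⟨W, hW, hWα⟩ : ∃ W : FN (M * q) ≃ₐ[Kbar] FN (M * q), (∀ z, W (W z) = z) ∧
      ∀ z : FN M, W (heckeAlphaBar Kbar M q z) = heckeBetaBar Kbar M q z :=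
    ⟨atkinLehnerBarR M q hcop, atkinLehnerBarR_atkinLehnerBarR M q hcop,
      atkinLehnerBarR_heckeAlphaBar M q hcop⟩
  have hx0 : (x : LaurentSeries Kbar) ≠ 0 := by
    intro h
    rw [h] at hxord
    simp at hxord
  have hα0 : heckeAlphaBar Kbar M q x ≠ 0 := by
    intro h
    apply hx0
    rw [← coe_heckeAlphaBar (L := Kbar) (N := M) (ℓ := q) x, h]
    rfl
  have hβ0 : heckeBetaBar Kbar M q x ≠ 0 := by
    rw [← hWα]
    exact (map_ne_zero_iff W W.injective).mpr hα0
  have h0 : (cuspInf (M * q)).ord (heckeAlphaBar Kbar M q x) = -1 := by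
    rw [isCuspInf_cuspInf (M * q) _ hα0, coe_heckeAlphaBar, hxord]
  have h0' : (cuspInf (M * q)).ord (W (heckeAlphaBar Kbar M q x)) = -(q : ℤ) := by
    rw [hWα, isCuspInf_cuspInf (M * q) _ hβ0, coe_heckeBetaBar,
      Fermat.Agent.S37.helper9343.order_qExpand q hx0, hxord]
    ring
  have hsupp' : ∀ Q : Place Kbar (FN (M * q)), Q.ord (heckeAlphaBar Kbar M q x) = 0 →
      Q.ord (W (heckeAlphaBar Kbar M q x)) = 0 := by
    intro Q hQ
    have h1 : 0 ≤ Q.ord (jBar (M * q)) := (hsupp Q).mp hQ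
    have hmem : jBar (M * q) ∈ Q.toValuationSubring :=
      Fermat.Agent.S24.helper1370.mem_of_ord_nonneg Q h1
    have hint : IsIntegral Q.toValuationSubring (heckeBetaBar Kbar M q (jBar M)) :=
      Fermat.Agent.S37.helper9343.isIntegral_heckeBetaBar_jBar_of_mem M q q hq (Or.inl rfl)
        (a := (⟨jBar (M * q), hmem⟩ : Q.toValuationSubring)) rfl
    have h2 : 0 ≤ Q.ord (heckeBetaBar Kbar M q (jBar M)) := ord_nonneg_of_isIntegral Q hint
    have hWj : W (jBar (M * q)) = heckeBetaBar Kbar M q (jBar M) := by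
      rw [← Fermat.Agent.S37.helper5162.heckeAlphaBar_jBar M q]
      exact hWα (jBar M)
    rw [← hWj, ord_apply_eq_ord_smul W hW] at h2
    have h3 := (hsupp (W • Q)).mpr h2
    rw [ord_apply_eq_ord_smul W hW]
    exact h3
  have key := ord_pair_of_involution W hW (heckeAlphaBar Kbar M q x) htr q hq.two_le hdeg
    (cuspInf (M * q)) h0 h0' hsupp' P
  rw [hWα] at key
  exact key

/-- **CUSPORD at every level `N` with `r * q ∣ N`, for a Hauptmodul line of prime level `r`**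
(generic in the line; instantiated below at `r = 2, 3`).  `t`, `tq : F_N` are the functions
with `q`-expansions `τ(T)` and `τ(T^q)`. -/
theorem ord_pair_of_line (r : ℕ) (hr : r.Prime) (hψ : dedekindPsi r = r + 1)
    (τ : LaurentSeries Kbar) (hτord : τ.order = -1)
    (hline : ∀ (N : ℕ) [NeZero N], r ∣ N → ∀ x : FN N, (x : LaurentSeries Kbar) = τ →
      Transcendental Kbar x ∧ FiniteDimensional Kbar⟮x⟯ (FN N) ∧
        (r + 1) * Module.finrank Kbar⟮x⟯ (FN N) = dedekindPsi N)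
    (hmem : τ ∈ modularFunctionFieldBar r)
    (hsupp : ∀ (N : ℕ) [NeZero N] (x : FN N), (x : LaurentSeries Kbar) = τ →
      ∀ P : Place Kbar (FN N), P.ord x = 0 ↔ 0 ≤ P.ord (jBar N))
    (N q : ℕ) [NeZero N] [NeZero q] (hq : q.Prime) (hqr : q ≠ r) (hN : r * q ∣ N)
    (t tq : FN N) (ht : (t : LaurentSeries Kbar) = τ)
    (htq : (tq : LaurentSeries Kbar) = qExpand Kbar q τ) (P : Place Kbar (FN N)) :
    PairOrd q (P.ord t) (P.ord tq) := by
  have : NeZero r := ⟨hr.ne_zero⟩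
  have : NeZero (r * q) := ⟨Nat.mul_ne_zero hr.ne_zero hq.ne_zero⟩
  have hcop : Nat.Coprime q r := (Nat.coprime_primes hq hr).mpr hqr
  obtain ⟨x, hx⟩ : ∃ x : FN r, (x : LaurentSeries Kbar) = τ := ⟨⟨τ, hmem⟩, rfl⟩
  obtain ⟨a, hca, ha⟩ : ∃ a : FN (r * q), (a : LaurentSeries Kbar) = τ ∧
      a = heckeAlphaBar Kbar r q x := ⟨_, by rw [coe_heckeAlphaBar, hx], rfl⟩
  obtain ⟨b, hcb, hb⟩ : ∃ b : FN (r * q), (b : LaurentSeries Kbar) = qExpand Kbar q τ ∧
      b = heckeBetaBar Kbar r q x := ⟨_, by rw [coe_heckeBetaBar, hx], rfl⟩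
  obtain ⟨htr, hfin, hdeg⟩ := hline (r * q) (dvd_mul_right r q) a hca
  have hdeg' : Module.finrank Kbar⟮a⟯ (FN (r * q)) = q + 1 := by
    rw [Fermat.Agent.S28.helper1595.dedekindPsi_mul_prime_of_not_dvd hq hr.pos
      (fun h => hqr ((Nat.prime_dvd_prime_iff_eq hq hr).mp h)), hψ] at hdeg
    have h3 : (r + 1) * Module.finrank Kbar⟮a⟯ (FN (r * q)) = (r + 1) * (q + 1) := by
      rw [hdeg]; ring
    exact Nat.eq_of_mul_eq_mul_left (Nat.succ_pos r) h3
  have key : ∀ v : Place Kbar (FN (r * q)),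
      (v.ord a < 0 → (v.ord a = -1 ∧ v.ord b = -(q : ℤ)) ∨ (v.ord a = -(q : ℤ) ∧ v.ord b = -1)) ∧
      (0 < v.ord a → 0 < v.ord b ∧ v.ord a ≤ q * v.ord b ∧ v.ord b ≤ q * v.ord a) ∧
      (v.ord a = 0 → v.ord b = 0) := by
    intro v
    subst ha hb
    exact ord_pair_mul r q hq hcop x (by rw [hx]; exact hτord) htr hfin hdeg'
      (hsupp (r * q) _ hca) v
  have hφa : inclBar hN a = t := Subtype.ext (by rw [coe_inclBar, hca, ht])
  have hφb : inclBar hN b = tq := Subtype.ext (by rw [coe_inclBar, hcb, htq])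
  obtain ⟨-, hfinN, -⟩ := hline N ((dvd_mul_right r q).trans hN) t ht
  have : FiniteDimensional Kbar⟮inclBar hN a⟯ (FN N) := by rw [hφa]; exact hfinN
  obtain ⟨e, v, he, hev⟩ := exists_restrict_ord (inclBar hN) a P
  obtain ⟨k1, k2, k3⟩ := key v
  rw [← hφa, ← hφb, hev a, hev b]
  unfold PairOrd
  have heZ : (0 : ℤ) < e := by exact_mod_cast he
  have hqZ : (1 : ℤ) ≤ q := by exact_mod_cast hq.one_lt.le
  refine ⟨fun h => ?_, fun h => ?_, fun h => ?_⟩
  · have h' : v.ord a < 0 := by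
      by_contra hcon
      push Not at hcon
      nlinarith [mul_nonneg heZ.le hcon]
    rcases k1 h' with ⟨h1, h2⟩ | ⟨h1, h2⟩
    · rw [h1, h2]
      exact ⟨by nlinarith, Or.inl (by ring)⟩
    · rw [h1, h2]
      exact ⟨by nlinarith, Or.inr (by ring)⟩
  · have h' : 0 < v.ord a := by
      by_contra hcon
      push Not at hcon
      nlinarith [mul_nonneg heZ.le (neg_nonneg.mpr hcon)]
    obtain ⟨g1, g2, g3⟩ := k2 h'
    refine ⟨mul_pos heZ g1, ?_, ?_⟩
    · have := mul_le_mul_of_nonneg_left g2 heZ.le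
      nlinarith
    · have := mul_le_mul_of_nonneg_left g3 heZ.le
      nlinarith
  · have h' : v.ord a = 0 := by
      rcases mul_eq_zero.mp h with h | h
      · omega
      · exact h
    rw [k3 h', mul_zero]

/-- Level 2: `t₂` is a unit at a place iff `j` is regular there. -/
theorem ord_t2_eq_zero_iff (N : ℕ) [NeZero N] (x : FN N)
    (hx : (x : LaurentSeries Kbar) = t2K Kbar) (P : Place Kbar (FN N)) :
    P.ord x = 0 ↔ 0 ≤ P.ord (jBar N) := by
  have hx0 : x ≠ 0 := by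
    intro h
    rw [h] at hx
    exact t2K_ne_zero Kbar hx.symm
  have hrel : jBar N * x ^ 2 = (x + algebraMap Kbar (FN N) 256) ^ 3 := by
    apply Subtype.ext
    push_cast
    rw [coe_jBar_eq, hx, map_ofNat]
    exact t2K_sq Kbar
  exact ord_eq_zero_iff_of_rel2 P (jBar_ne_zero N) hx0 (by norm_num) hrel

/-- Level 3: `t₃` is a unit at a place iff `j` is regular there. -/
theorem ord_t3_eq_zero_iff (N : ℕ) [NeZero N] (x : FN N)
    (hx : (x : LaurentSeries Kbar) = t3K Kbar) (P : Place Kbar (FN N)) :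
    P.ord x = 0 ↔ 0 ≤ P.ord (jBar N) := by
  have hx0 : x ≠ 0 := by
    intro h
    rw [h] at hx
    exact t3K_ne_zero Kbar hx.symm
  have hrel : jBar N * x ^ 3
      = (x + algebraMap Kbar (FN N) 27) * (x + algebraMap Kbar (FN N) 243) ^ 3 := by
    apply Subtype.ext
    push_cast
    rw [coe_jBar_eq, hx, map_ofNat, map_ofNat]
    exact t3K_cube Kbar
  exact ord_eq_zero_iff_of_rel3 P (jBar_ne_zero N) hx0 (by norm_num) (by norm_num) hrel

/-- **CUSPORD, `r = 2`.**  `N` any level with `2 * q ∣ N` (`q` an odd prime), `t`, `tq : F_N`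
the functions with `q`-expansions `t₂(T)` and `t₂(T^q)` (e.g. `t = helper6381.t2L Kbar N _`,
or `t = heckeAlphaBar Kbar M q x`, `tq = heckeBetaBar Kbar M q x` at `N = M * q` with
`x = helper6381.t2L Kbar M _`).  At EVERY place `P` of `F_N`. -/
theorem pairOrd_t2 (N q : ℕ) [NeZero N] [NeZero q] (hq : q.Prime) (hq2 : q ≠ 2)
    (hN : 2 * q ∣ N) (t tq : FN N) (ht : (t : LaurentSeries Kbar) = t2K Kbar)
    (htq : (tq : LaurentSeries Kbar) = qExpand Kbar q (t2K Kbar)) (P : Place Kbar (FN N)) :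
    PairOrd q (P.ord t) (P.ord tq) :=
  ord_pair_of_line 2 Nat.prime_two dedekindPsi_two (t2K Kbar) (t2K_order Kbar)
    (fun N _ h2N x hx => hline2_bar N h2N x (by rw [hx]; exact t2K_sq Kbar)
      (by rw [hx]; exact t2K_qExpand Kbar))
    (t2K_mem_baseChange Kbar 2 (dvd_refl 2))
    (fun N _ x hx P => ord_t2_eq_zero_iff N x hx P) N q hq hq2 hN t tq ht htq P

/-- **CUSPORD, `r = 3`.**  As `pairOrd_t2`, with `3 * q ∣ N`, `q ≠ 3` prime, and `t₃`. -/
theorem pairOrd_t3 (N q : ℕ) [NeZero N] [NeZero q] (hq : q.Prime) (hq3 : q ≠ 3)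
    (hN : 3 * q ∣ N) (t tq : FN N) (ht : (t : LaurentSeries Kbar) = t3K Kbar)
    (htq : (tq : LaurentSeries Kbar) = qExpand Kbar q (t3K Kbar)) (P : Place Kbar (FN N)) :
    PairOrd q (P.ord t) (P.ord tq) :=
  ord_pair_of_line 3 Nat.prime_three dedekindPsi_three (t3K Kbar) (t3K_order Kbar)
    (fun N _ h3N x hx => hline3_bar N h3N x (by rw [hx]; exact t3K_cube Kbar)
      (by rw [hx]; exact t3K_qExpand Kbar))
    (t3K_mem_baseChange Kbar 3 (dvd_refl 3))
    (fun N _ x hx P => ord_t3_eq_zero_iff N x hx P) N q hq hq3 hN t tq ht htq P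

end Modular

/-! ## Consequences for the unit `g = t ^ q / t_q` -/

section Unit

variable {K F : Type*} [Field K] [Field F] [Algebra K F]

open Fermat.Agent.S24.helper1370 in
theorem ord_pow_div (P : Place K F) {t s : F} (ht : t ≠ 0) (hs : s ≠ 0) (q : ℕ) :
    P.ord (t ^ q / s) = q * P.ord t - P.ord s := by
  rw [ord_div P (pow_ne_zero q ht) hs, ord_pow]

open Fermat.Agent.S24.helper1370 in
theorem ord_div_pow (P : Place K F) {t s : F} (ht : t ≠ 0) (hs : s ≠ 0) (q : ℕ) :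
    P.ord (s / t ^ q) = P.ord s - q * P.ord t := by
  rw [ord_div P hs (pow_ne_zero q ht), ord_pow]

/-- **Regularity on the chart `t`** (`0 ≤ ord_P t`): `t_q`, `g = t ^ q / t_q` and
`W g = t_q ^ q / t` are regular at `P`. -/
theorem regular_of_pairOrd (P : Place K F) {t tq : F} (ht : t ≠ 0) (htq : tq ≠ 0) {q : ℕ}
    (h : PairOrd q (P.ord t) (P.ord tq)) (hP : 0 ≤ P.ord t) :
    0 ≤ P.ord tq ∧ 0 ≤ P.ord (t ^ q / tq) ∧ 0 ≤ P.ord (tq ^ q / t) := by
  obtain ⟨h1, h2⟩ := h.unit_nonneg hP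
  rw [ord_pow_div P ht htq, ord_pow_div P htq ht]
  exact ⟨h.nonneg hP, h1, h2⟩

/-- **Regularity on the chart `1 / t`** (`ord_P t ≤ 0`): `t_q⁻¹`, `g⁻¹ = t_q / t ^ q` and
`W g⁻¹ = t / t_q ^ q` are regular at `P`. -/
theorem regular_inv_of_pairOrd (P : Place K F) {t tq : F} (ht : t ≠ 0) (htq : tq ≠ 0) {q : ℕ}
    (hq : 1 ≤ q) (h : PairOrd q (P.ord t) (P.ord tq)) (hP : P.ord t ≤ 0) :
    0 ≤ P.ord tq⁻¹ ∧ 0 ≤ P.ord (tq / t ^ q) ∧ 0 ≤ P.ord (t / tq ^ q) := by
  obtain ⟨h1, h2⟩ := h.unit_inv_nonneg hq hP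
  have h3 := h.nonpos hP
  rw [ord_div_pow P ht htq, ord_div_pow P htq ht, Place.ord_inv]
  exact ⟨by omega, h1, h2⟩

end Unit

/-! ## Packages, in the hypothesis shapes of `helper4640_CuspUnit` (the Laurent half) -/

section Package

open Fermat.Agent.S24.helper24 Fermat.Agent.S18.helper6381

/-- Both regularity statements at all places, from `PairOrd` at all places. -/
theorem regular_package {K F : Type*} [Field K] [Field F] [Algebra K F] {t tq : F} (ht : t ≠ 0)
    (htq : tq ≠ 0) {q : ℕ} (hq : 1 ≤ q) (h : ∀ P : Place K F, PairOrd q (P.ord t) (P.ord tq)) :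
    (∀ P : Place K F, 0 ≤ P.ord t →
      0 ≤ P.ord tq ∧ 0 ≤ P.ord (t ^ q / tq) ∧ 0 ≤ P.ord (tq ^ q / t)) ∧
    (∀ P : Place K F, P.ord t ≤ 0 →
      0 ≤ P.ord tq⁻¹ ∧ 0 ≤ P.ord (tq / t ^ q) ∧ 0 ≤ P.ord (t / tq ^ q)) :=
  ⟨fun P hP => regular_of_pairOrd P ht htq (h P) hP,
    fun P hP => regular_inv_of_pairOrd P ht htq hq (h P) hP⟩

theorem ne_zero_of_coe_ne_zero {N : ℕ} {f : FN N} (h : (f : LaurentSeries Kbar) ≠ 0) : f ≠ 0 := by
  rintro rfl
  exact h rfl

/-- **CUSPORD package, `r = 2`, expansion form** (hypotheses `ht`, `htq` exactly as in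
`helper4640.cuspUnit_package` at `L = Kbar`, `tZ = t2Z`). -/
theorem cuspOrd_package_t2 (N q : ℕ) [NeZero N] [NeZero q] (hq : q.Prime) (hq2 : q ≠ 2)
    (hN : 2 * q ∣ N) {t tq : FN N}
    (ht : (t : LaurentSeries Kbar) = coeffMap (Int.castRingHom Kbar) Fermat.Agent.S18.helper1257.t2Z)
    (htq : (tq : LaurentSeries Kbar) = qExpand Kbar q (t : LaurentSeries Kbar)) :
    t ≠ 0 ∧ tq ≠ 0 ∧ (∀ P : Place Kbar (FN N), PairOrd q (P.ord t) (P.ord tq)) ∧
    (∀ P : Place Kbar (FN N), 0 ≤ P.ord t →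
      0 ≤ P.ord tq ∧ 0 ≤ P.ord (t ^ q / tq) ∧ 0 ≤ P.ord (tq ^ q / t)) ∧
    (∀ P : Place Kbar (FN N), P.ord t ≤ 0 →
      0 ≤ P.ord tq⁻¹ ∧ 0 ≤ P.ord (tq / t ^ q) ∧ 0 ≤ P.ord (t / tq ^ q)) := by
  have ht' : (t : LaurentSeries Kbar) = t2K Kbar := ht
  have ht0 : t ≠ 0 := ne_zero_of_coe_ne_zero (by rw [ht']; exact t2K_ne_zero Kbar)
  have htq0 : tq ≠ 0 := ne_zero_of_coe_ne_zero (by
    rw [htq, ht']
    exact Fermat.Agent.S28.helper1457.qExpand_ne_zero Kbar q (t2K_ne_zero Kbar))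
  have h := pairOrd_t2 N q hq hq2 hN t tq ht' (by rw [htq, ht'])
  exact ⟨ht0, htq0, h, regular_package ht0 htq0 hq.one_lt.le h⟩

/-- **CUSPORD package, `r = 3`, expansion form.** -/
theorem cuspOrd_package_t3 (N q : ℕ) [NeZero N] [NeZero q] (hq : q.Prime) (hq3 : q ≠ 3)
    (hN : 3 * q ∣ N) {t tq : FN N}
    (ht : (t : LaurentSeries Kbar) = coeffMap (Int.castRingHom Kbar) Fermat.Agent.S18.helper1257.t3Z)
    (htq : (tq : LaurentSeries Kbar) = qExpand Kbar q (t : LaurentSeries Kbar)) :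
    t ≠ 0 ∧ tq ≠ 0 ∧ (∀ P : Place Kbar (FN N), PairOrd q (P.ord t) (P.ord tq)) ∧
    (∀ P : Place Kbar (FN N), 0 ≤ P.ord t →
      0 ≤ P.ord tq ∧ 0 ≤ P.ord (t ^ q / tq) ∧ 0 ≤ P.ord (tq ^ q / t)) ∧
    (∀ P : Place Kbar (FN N), P.ord t ≤ 0 →
      0 ≤ P.ord tq⁻¹ ∧ 0 ≤ P.ord (tq / t ^ q) ∧ 0 ≤ P.ord (t / tq ^ q)) := by
  have ht' : (t : LaurentSeries Kbar) = t3K Kbar := ht
  have ht0 : t ≠ 0 := ne_zero_of_coe_ne_zero (by rw [ht']; exact t3K_ne_zero Kbar)
  have htq0 : tq ≠ 0 := ne_zero_of_coe_ne_zero (by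
    rw [htq, ht']
    exact Fermat.Agent.S28.helper1457.qExpand_ne_zero Kbar q (t3K_ne_zero Kbar))
  have h := pairOrd_t3 N q hq hq3 hN t tq ht' (by rw [htq, ht'])
  exact ⟨ht0, htq0, h, regular_package ht0 htq0 hq.one_lt.le h⟩

/-- **CUSPORD package, `r = 2`, degeneracy form** at level `M * q` (`2 ∣ M`): `t = α^* x`,
`tq = β^* x` for `x : F_M` with expansion `t₂` (shape of
`helper4640.cuspUnit_package_degeneracy`). -/
theorem cuspOrd_package_degeneracy_t2 (M q : ℕ) [NeZero M] [NeZero q] (hq : q.Prime)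
    (hq2 : q ≠ 2) (h2M : 2 ∣ M) {x : FN M}
    (hx : (x : LaurentSeries Kbar) = coeffMap (Int.castRingHom Kbar) Fermat.Agent.S18.helper1257.t2Z) :
    heckeAlphaBar Kbar M q x ≠ 0 ∧ heckeBetaBar Kbar M q x ≠ 0 ∧
    (∀ P : Place Kbar (FN (M * q)),
      PairOrd q (P.ord (heckeAlphaBar Kbar M q x)) (P.ord (heckeBetaBar Kbar M q x))) ∧
    (∀ P : Place Kbar (FN (M * q)), 0 ≤ P.ord (heckeAlphaBar Kbar M q x) →
      0 ≤ P.ord (heckeBetaBar Kbar M q x) ∧
      0 ≤ P.ord (heckeAlphaBar Kbar M q x ^ q / heckeBetaBar Kbar M q x) ∧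
      0 ≤ P.ord (heckeBetaBar Kbar M q x ^ q / heckeAlphaBar Kbar M q x)) ∧
    (∀ P : Place Kbar (FN (M * q)), P.ord (heckeAlphaBar Kbar M q x) ≤ 0 →
      0 ≤ P.ord (heckeBetaBar Kbar M q x)⁻¹ ∧
      0 ≤ P.ord (heckeBetaBar Kbar M q x / heckeAlphaBar Kbar M q x ^ q) ∧
      0 ≤ P.ord (heckeAlphaBar Kbar M q x / heckeBetaBar Kbar M q x ^ q)) := by
  have : NeZero (M * q) := ⟨Nat.mul_ne_zero (NeZero.ne M) (NeZero.ne q)⟩
  exact cuspOrd_package_t2 (M * q) q hq hq2 (Nat.mul_dvd_mul_right h2M q)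
    (by rw [coe_heckeAlphaBar, hx]) (by rw [coe_heckeBetaBar, coe_heckeAlphaBar])

/-- **CUSPORD package, `r = 3`, degeneracy form** at level `M * q` (`3 ∣ M`). -/
theorem cuspOrd_package_degeneracy_t3 (M q : ℕ) [NeZero M] [NeZero q] (hq : q.Prime)
    (hq3 : q ≠ 3) (h3M : 3 ∣ M) {x : FN M}
    (hx : (x : LaurentSeries Kbar) = coeffMap (Int.castRingHom Kbar) Fermat.Agent.S18.helper1257.t3Z) :
    heckeAlphaBar Kbar M q x ≠ 0 ∧ heckeBetaBar Kbar M q x ≠ 0 ∧
    (∀ P : Place Kbar (FN (M * q)),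
      PairOrd q (P.ord (heckeAlphaBar Kbar M q x)) (P.ord (heckeBetaBar Kbar M q x))) ∧
    (∀ P : Place Kbar (FN (M * q)), 0 ≤ P.ord (heckeAlphaBar Kbar M q x) →
      0 ≤ P.ord (heckeBetaBar Kbar M q x) ∧
      0 ≤ P.ord (heckeAlphaBar Kbar M q x ^ q / heckeBetaBar Kbar M q x) ∧
      0 ≤ P.ord (heckeBetaBar Kbar M q x ^ q / heckeAlphaBar Kbar M q x)) ∧
    (∀ P : Place Kbar (FN (M * q)), P.ord (heckeAlphaBar Kbar M q x) ≤ 0 →
      0 ≤ P.ord (heckeBetaBar Kbar M q x)⁻¹ ∧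
      0 ≤ P.ord (heckeBetaBar Kbar M q x / heckeAlphaBar Kbar M q x ^ q) ∧
      0 ≤ P.ord (heckeAlphaBar Kbar M q x / heckeBetaBar Kbar M q x ^ q)) := by
  have : NeZero (M * q) := ⟨Nat.mul_ne_zero (NeZero.ne M) (NeZero.ne q)⟩
  exact cuspOrd_package_t3 (M * q) q hq hq3 (Nat.mul_dvd_mul_right h3M q)
    (by rw [coe_heckeAlphaBar, hx]) (by rw [coe_heckeBetaBar, coe_heckeAlphaBar])

end Package

/-! ## Integral forms: the coordinate rings of the two cuspidal charts of the generic fibre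

Chart `t`: `t_q`, `g = t ^ q / t_q`, `W g = t_q ^ q / t` are integral over `Kbar[t]`;
chart `1 / t`: `t_q⁻¹`, `g⁻¹ = t_q / t ^ q`, `W g⁻¹ = t / t_q ^ q` are integral over `Kbar[t⁻¹]`
(via the landed `helper4387.isIntegral_of_forall_ord_nonneg`). -/

section AbstractInt

variable {K F : Type*} [Field K] [Field F] [Algebra K F] [CharZero K]

/-- Chart `t`: integrality over `K[t]` of `t_q`, `t ^ q / t_q`, `t_q ^ q / t`. -/
theorem isIntegral_of_pairOrd (t tq : F) [FiniteDimensional K⟮t⟯ F] (ht : t ≠ 0) (htq : tq ≠ 0)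
    (q : ℕ) (h : ∀ P : Place K F, PairOrd q (P.ord t) (P.ord tq)) :
    IsIntegral (Algebra.adjoin K {t}) tq ∧ IsIntegral (Algebra.adjoin K {t}) (t ^ q / tq) ∧
      IsIntegral (Algebra.adjoin K {t}) (tq ^ q / t) := by
  refine ⟨?_, ?_, ?_⟩ <;>
    refine Fermat.Agent.S18.helper4387.isIntegral_of_forall_ord_nonneg t _ (fun v hv => ?_)
  · exact (regular_of_pairOrd v ht htq (h v) hv).1
  · exact (regular_of_pairOrd v ht htq (h v) hv).2.1
  · exact (regular_of_pairOrd v ht htq (h v) hv).2.2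

/-- Chart `1 / t`: integrality over `K[t⁻¹]` of `t_q⁻¹`, `t_q / t ^ q`, `t / t_q ^ q`. -/
theorem isIntegral_inv_of_pairOrd (t tq : F) [FiniteDimensional K⟮t⟯ F] (ht : t ≠ 0)
    (htq : tq ≠ 0) (q : ℕ) (hq : 1 ≤ q) (h : ∀ P : Place K F, PairOrd q (P.ord t) (P.ord tq)) :
    IsIntegral (Algebra.adjoin K {t⁻¹}) tq⁻¹ ∧ IsIntegral (Algebra.adjoin K {t⁻¹}) (tq / t ^ q) ∧
      IsIntegral (Algebra.adjoin K {t⁻¹}) (t / tq ^ q) := by
  have hA : K⟮t⁻¹⟯ = K⟮t⟯ := adjoin_inv_eq t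
  have : FiniteDimensional K⟮t⁻¹⟯ F := by rw [hA]; infer_instance
  have key : ∀ v : Place K F, 0 ≤ v.ord t⁻¹ → v.ord t ≤ 0 := by
    intro v hv
    rw [Place.ord_inv] at hv
    omega
  refine ⟨?_, ?_, ?_⟩ <;>
    refine Fermat.Agent.S18.helper4387.isIntegral_of_forall_ord_nonneg t⁻¹ _ (fun v hv => ?_)
  · exact (regular_inv_of_pairOrd v ht htq hq (h v) (key v hv)).1
  · exact (regular_inv_of_pairOrd v ht htq hq (h v) (key v hv)).2.1
  · exact (regular_inv_of_pairOrd v ht htq hq (h v) (key v hv)).2.2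

end AbstractInt

section ModularInt

open Fermat.Agent.S24.helper24 Fermat.Agent.S18.helper6381

/-- **CUSPORD, integral package, `r = 2`, expansion form** (hypotheses `ht`, `htq` as in
`helper4640.cuspUnit_package` at `L = Kbar`, `tZ = t2Z`; any level `N` with `2 * q ∣ N`). -/
theorem cuspOrd_integral_t2 (N q : ℕ) [NeZero N] [NeZero q] (hq : q.Prime) (hq2 : q ≠ 2)
    (hN : 2 * q ∣ N) {t tq : FN N}
    (ht : (t : LaurentSeries Kbar) = coeffMap (Int.castRingHom Kbar) Fermat.Agent.S18.helper1257.t2Z)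
    (htq : (tq : LaurentSeries Kbar) = qExpand Kbar q (t : LaurentSeries Kbar)) :
    (IsIntegral (Algebra.adjoin Kbar {t}) tq ∧ IsIntegral (Algebra.adjoin Kbar {t}) (t ^ q / tq) ∧
      IsIntegral (Algebra.adjoin Kbar {t}) (tq ^ q / t)) ∧
    (IsIntegral (Algebra.adjoin Kbar {t⁻¹}) tq⁻¹ ∧
      IsIntegral (Algebra.adjoin Kbar {t⁻¹}) (tq / t ^ q) ∧
      IsIntegral (Algebra.adjoin Kbar {t⁻¹}) (t / tq ^ q)) := by
  obtain ⟨ht0, htq0, h, -, -⟩ := cuspOrd_package_t2 N q hq hq2 hN ht htq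
  have ht' : (t : LaurentSeries Kbar) = t2K Kbar := ht
  obtain ⟨-, hfin, -⟩ := hline2_bar N ((dvd_mul_right 2 q).trans hN) t
    (by rw [ht']; exact t2K_sq Kbar) (by rw [ht']; exact t2K_qExpand Kbar)
  exact ⟨isIntegral_of_pairOrd t tq ht0 htq0 q h,
    isIntegral_inv_of_pairOrd t tq ht0 htq0 q hq.one_lt.le h⟩

/-- **CUSPORD, integral package, `r = 3`, expansion form.** -/
theorem cuspOrd_integral_t3 (N q : ℕ) [NeZero N] [NeZero q] (hq : q.Prime) (hq3 : q ≠ 3)
    (hN : 3 * q ∣ N) {t tq : FN N}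
    (ht : (t : LaurentSeries Kbar) = coeffMap (Int.castRingHom Kbar) Fermat.Agent.S18.helper1257.t3Z)
    (htq : (tq : LaurentSeries Kbar) = qExpand Kbar q (t : LaurentSeries Kbar)) :
    (IsIntegral (Algebra.adjoin Kbar {t}) tq ∧ IsIntegral (Algebra.adjoin Kbar {t}) (t ^ q / tq) ∧
      IsIntegral (Algebra.adjoin Kbar {t}) (tq ^ q / t)) ∧
    (IsIntegral (Algebra.adjoin Kbar {t⁻¹}) tq⁻¹ ∧
      IsIntegral (Algebra.adjoin Kbar {t⁻¹}) (tq / t ^ q) ∧
      IsIntegral (Algebra.adjoin Kbar {t⁻¹}) (t / tq ^ q)) := by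
  obtain ⟨ht0, htq0, h, -, -⟩ := cuspOrd_package_t3 N q hq hq3 hN ht htq
  have ht' : (t : LaurentSeries Kbar) = t3K Kbar := ht
  obtain ⟨-, hfin, -⟩ := hline3_bar N ((dvd_mul_right 3 q).trans hN) t
    (by rw [ht']; exact t3K_cube Kbar) (by rw [ht']; exact t3K_qExpand Kbar)
  exact ⟨isIntegral_of_pairOrd t tq ht0 htq0 q h,
    isIntegral_inv_of_pairOrd t tq ht0 htq0 q hq.one_lt.le h⟩

/-- **CUSPORD, integral package, `r = 2`, degeneracy form** at level `M * q`, `2 ∣ M`: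
`t = α^* x`, `tq = β^* x`. -/
theorem cuspOrd_integral_degeneracy_t2 (M q : ℕ) [NeZero M] [NeZero q] (hq : q.Prime)
    (hq2 : q ≠ 2) (h2M : 2 ∣ M) {x : FN M}
    (hx : (x : LaurentSeries Kbar) = coeffMap (Int.castRingHom Kbar) Fermat.Agent.S18.helper1257.t2Z) :
    (IsIntegral (Algebra.adjoin Kbar {heckeAlphaBar Kbar M q x}) (heckeBetaBar Kbar M q x) ∧
      IsIntegral (Algebra.adjoin Kbar {heckeAlphaBar Kbar M q x})
        (heckeAlphaBar Kbar M q x ^ q / heckeBetaBar Kbar M q x) ∧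
      IsIntegral (Algebra.adjoin Kbar {heckeAlphaBar Kbar M q x})
        (heckeBetaBar Kbar M q x ^ q / heckeAlphaBar Kbar M q x)) ∧
    (IsIntegral (Algebra.adjoin Kbar {(heckeAlphaBar Kbar M q x)⁻¹}) (heckeBetaBar Kbar M q x)⁻¹ ∧
      IsIntegral (Algebra.adjoin Kbar {(heckeAlphaBar Kbar M q x)⁻¹})
        (heckeBetaBar Kbar M q x / heckeAlphaBar Kbar M q x ^ q) ∧
      IsIntegral (Algebra.adjoin Kbar {(heckeAlphaBar Kbar M q x)⁻¹})
        (heckeAlphaBar Kbar M q x / heckeBetaBar Kbar M q x ^ q)) := by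
  have : NeZero (M * q) := ⟨Nat.mul_ne_zero (NeZero.ne M) (NeZero.ne q)⟩
  exact cuspOrd_integral_t2 (M * q) q hq hq2 (Nat.mul_dvd_mul_right h2M q)
    (by rw [coe_heckeAlphaBar, hx]) (by rw [coe_heckeBetaBar, coe_heckeAlphaBar])

/-- **CUSPORD, integral package, `r = 3`, degeneracy form** at level `M * q`, `3 ∣ M`. -/
theorem cuspOrd_integral_degeneracy_t3 (M q : ℕ) [NeZero M] [NeZero q] (hq : q.Prime)
    (hq3 : q ≠ 3) (h3M : 3 ∣ M) {x : FN M}
    (hx : (x : LaurentSeries Kbar) = coeffMap (Int.castRingHom Kbar) Fermat.Agent.S18.helper1257.t3Z) :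
    (IsIntegral (Algebra.adjoin Kbar {heckeAlphaBar Kbar M q x}) (heckeBetaBar Kbar M q x) ∧
      IsIntegral (Algebra.adjoin Kbar {heckeAlphaBar Kbar M q x})
        (heckeAlphaBar Kbar M q x ^ q / heckeBetaBar Kbar M q x) ∧
      IsIntegral (Algebra.adjoin Kbar {heckeAlphaBar Kbar M q x})
        (heckeBetaBar Kbar M q x ^ q / heckeAlphaBar Kbar M q x)) ∧
    (IsIntegral (Algebra.adjoin Kbar {(heckeAlphaBar Kbar M q x)⁻¹}) (heckeBetaBar Kbar M q x)⁻¹ ∧
      IsIntegral (Algebra.adjoin Kbar {(heckeAlphaBar Kbar M q x)⁻¹})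
        (heckeBetaBar Kbar M q x / heckeAlphaBar Kbar M q x ^ q) ∧
      IsIntegral (Algebra.adjoin Kbar {(heckeAlphaBar Kbar M q x)⁻¹})
        (heckeAlphaBar Kbar M q x / heckeBetaBar Kbar M q x ^ q)) := by
  have : NeZero (M * q) := ⟨Nat.mul_ne_zero (NeZero.ne M) (NeZero.ne q)⟩
  exact cuspOrd_integral_t3 (M * q) q hq hq3 (Nat.mul_dvd_mul_right h3M q)
    (by rw [coe_heckeAlphaBar, hx]) (by rw [coe_heckeBetaBar, coe_heckeAlphaBar])

end ModularInt

/-! ## Stability of the two chart rings of the generic fibre under `W`, `α^*`, `β^*`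

`icl Kbar[t]` and `icl Kbar[t⁻¹]` are stable under every involution `W` with `W t = t_q`, and the
degeneracy maps `α^*`, `β^*` send `icl Kbar[x]`, `icl Kbar[x⁻¹]` (level `M`) into
`icl Kbar[t]`, `icl Kbar[t⁻¹]` (level `M * q`, `t = α^* x`).  All by "integral over `K[x]` iff
regular wherever `x` is regular". -/

section ChartStable

variable {K F : Type*} [Field K] [Field F] [Algebra K F]

/-- An element integral over `K[x]` is regular wherever `x` is regular. -/
theorem ord_nonneg_of_isIntegral_adjoin (v : Place K F) {x y : F} (hx : 0 ≤ v.ord x)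
    (hy : IsIntegral (Algebra.adjoin K {x}) y) : 0 ≤ v.ord y := by
  have hxm : x ∈ v.toValuationSubring := Fermat.Agent.S24.helper1370.mem_of_ord_nonneg v hx
  have hA : ∀ a : Algebra.adjoin K ({x} : Set F),
      algebraMap (Algebra.adjoin K ({x} : Set F)) F a ∈ v.toValuationSubring := by
    intro a
    have hle : Algebra.adjoin K ({x} : Set F) ≤
        { v.toValuationSubring.toSubring.toSubsemiring with
          algebraMap_mem' := v.algebraMap_mem' } :=
      Algebra.adjoin_le (by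
        intro z hz
        rw [Set.mem_singleton_iff] at hz
        rw [hz]
        exact hxm)
    exact hle a.2
  let _ : Algebra (Algebra.adjoin K ({x} : Set F)) v.toValuationSubring :=
    ((algebraMap (Algebra.adjoin K ({x} : Set F)) F).codRestrict
      v.toValuationSubring.toSubring hA).toAlgebra
  have : IsScalarTower (Algebra.adjoin K ({x} : Set F)) v.toValuationSubring F :=
    IsScalarTower.of_algebraMap_eq fun f => rfl
  exact ord_nonneg_of_isIntegral v hy.tower_top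

/-- Integral over `K[x]` iff regular wherever `x` is regular. -/
theorem isIntegral_adjoin_iff [CharZero K] (x : F) [FiniteDimensional K⟮x⟯ F] (f : F) :
    IsIntegral (Algebra.adjoin K {x}) f ↔ ∀ v : Place K F, 0 ≤ v.ord x → 0 ≤ v.ord f :=
  ⟨fun h v hv => ord_nonneg_of_isIntegral_adjoin v hv h,
    Fermat.Agent.S18.helper4387.isIntegral_of_forall_ord_nonneg x f⟩

/-- Restriction of a place along an integral algebra map: `ord_w (φ f) = e * ord_v f`. -/
theorem exists_restrict_ord_of_isIntegral {F' : Type*} [Field F'] [Algebra K F']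
    (φ : F →ₐ[K] F') (hφ : φ.toRingHom.IsIntegral) (w : Place K F') :
    ∃ (e : ℕ) (v : Place K F), 0 < e ∧ ∀ f : F, w.ord (φ f) = (e : ℤ) * v.ord f := by
  refine ⟨Place.ramificationIndexAlong φ w, w.restrictAlong φ hφ, ?_,
    Place.ord_restrictAlong φ hφ w⟩
  let _ := algebraAlong φ
  have := isScalarTower_along φ
  have := isIntegral_along φ hφ
  exact w.ramificationIndex_pos (F := F)

/-- **Chart rings along an integral algebra map.**  If `φ x` is regular wherever `s` is regular,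
then `φ` maps `icl K[x]` into `icl K[s]`. -/
theorem isIntegral_map_of_ord [CharZero K] {F' : Type*} [Field F'] [Algebra K F']
    (φ : F →ₐ[K] F') (hφ : φ.toRingHom.IsIntegral) (x : F) (s : F') [FiniteDimensional K⟮s⟯ F']
    (h : ∀ P : Place K F', 0 ≤ P.ord s → 0 ≤ P.ord (φ x)) {y : F}
    (hy : IsIntegral (Algebra.adjoin K {x}) y) : IsIntegral (Algebra.adjoin K {s}) (φ y) := by
  refine Fermat.Agent.S18.helper4387.isIntegral_of_forall_ord_nonneg s _ (fun w hw => ?_)
  obtain ⟨e, v, he, hev⟩ := exists_restrict_ord_of_isIntegral φ hφ w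
  have h1 := h w hw
  rw [hev] at h1 ⊢
  have heZ : (0 : ℤ) < e := by exact_mod_cast he
  have h2 : 0 ≤ v.ord x := by
    by_contra hcon
    push Not at hcon
    nlinarith
  exact mul_nonneg heZ.le (ord_nonneg_of_isIntegral_adjoin v h2 hy)

/-- **`W`-stability of the chart ring `icl K[t]`** for an involution `W` with `PairOrd`. -/
theorem isIntegral_apply_of_pairOrd [CharZero K] (W : F ≃ₐ[K] F) (hW : ∀ z, W (W z) = z) (t : F)
    [FiniteDimensional K⟮t⟯ F] {q : ℕ} (h : ∀ P : Place K F, PairOrd q (P.ord t) (P.ord (W t)))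
    {f : F} (hf : IsIntegral (Algebra.adjoin K {t}) f) :
    IsIntegral (Algebra.adjoin K {t}) (W f) := by
  refine Fermat.Agent.S18.helper4387.isIntegral_of_forall_ord_nonneg t _ (fun v hv => ?_)
  rw [ord_apply_eq_ord_smul W hW]
  refine ord_nonneg_of_isIntegral_adjoin (W • v) ?_ hf
  rw [← ord_apply_eq_ord_smul W hW]
  exact (h v).nonneg hv

/-- **`W`-stability of the chart ring `icl K[t⁻¹]`** for an involution `W` with `PairOrd`. -/
theorem isIntegral_apply_inv_of_pairOrd [CharZero K] (W : F ≃ₐ[K] F) (hW : ∀ z, W (W z) = z)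
    (t : F) [FiniteDimensional K⟮t⟯ F] {q : ℕ}
    (h : ∀ P : Place K F, PairOrd q (P.ord t) (P.ord (W t)))
    {f : F} (hf : IsIntegral (Algebra.adjoin K {t⁻¹}) f) :
    IsIntegral (Algebra.adjoin K {t⁻¹}) (W f) := by
  have hA : K⟮t⁻¹⟯ = K⟮t⟯ := adjoin_inv_eq t
  have : FiniteDimensional K⟮t⁻¹⟯ F := by rw [hA]; infer_instance
  refine Fermat.Agent.S18.helper4387.isIntegral_of_forall_ord_nonneg t⁻¹ _ (fun v hv => ?_)
  rw [ord_apply_eq_ord_smul W hW]
  refine ord_nonneg_of_isIntegral_adjoin (W • v) ?_ hf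
  rw [Place.ord_inv] at hv ⊢
  rw [← ord_apply_eq_ord_smul W hW]
  have := (h v).nonpos (by omega)
  omega

end ChartStable

section ChartStableModular

open Fermat.Agent.S24.helper24 Fermat.Agent.S18.helper6381

/-- Generic form of the `α^*`/`β^*`-stability at level `M * q`, from `PairOrd` for
`(α^* x, β^* x)`. -/
theorem chart_stable_of_pairOrd (M q : ℕ) [NeZero M] [NeZero q] {x : FN M}
    [FiniteDimensional Kbar⟮heckeAlphaBar Kbar M q x⟯ (FN (M * q))]
    (h : ∀ P : Place Kbar (FN (M * q)),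
      PairOrd q (P.ord (heckeAlphaBar Kbar M q x)) (P.ord (heckeBetaBar Kbar M q x))) (y : FN M) :
    (IsIntegral (Algebra.adjoin Kbar {x}) y →
      IsIntegral (Algebra.adjoin Kbar {heckeAlphaBar Kbar M q x}) (heckeAlphaBar Kbar M q y) ∧
      IsIntegral (Algebra.adjoin Kbar {heckeAlphaBar Kbar M q x}) (heckeBetaBar Kbar M q y)) ∧
    (IsIntegral (Algebra.adjoin Kbar {x⁻¹}) y →
      IsIntegral (Algebra.adjoin Kbar {(heckeAlphaBar Kbar M q x)⁻¹})
        (heckeAlphaBar Kbar M q y) ∧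
      IsIntegral (Algebra.adjoin Kbar {(heckeAlphaBar Kbar M q x)⁻¹})
        (heckeBetaBar Kbar M q y)) := by
  have hα := Fermat.Agent.S37.helper5162.heckeAlphaBarIntegral M q
  have hβ := Fermat.Agent.S37.helper5162.heckeBetaBarIntegral M q
  have hA : Kbar⟮(heckeAlphaBar Kbar M q x)⁻¹⟯ = Kbar⟮heckeAlphaBar Kbar M q x⟯ :=
    adjoin_inv_eq _
  have : FiniteDimensional Kbar⟮(heckeAlphaBar Kbar M q x)⁻¹⟯ (FN (M * q)) := by
    rw [hA]; infer_instance
  refine ⟨fun hy => ⟨?_, ?_⟩, fun hy => ⟨?_, ?_⟩⟩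
  · exact isIntegral_map_of_ord (heckeAlphaBar Kbar M q) hα x _ (fun P hP => hP) hy
  · exact isIntegral_map_of_ord (heckeBetaBar Kbar M q) hβ x _ (fun P hP => (h P).nonneg hP) hy
  · refine isIntegral_map_of_ord (heckeAlphaBar Kbar M q) hα x⁻¹ _ (fun P hP => ?_) hy
    rw [map_inv₀]
    exact hP
  · refine isIntegral_map_of_ord (heckeBetaBar Kbar M q) hβ x⁻¹ _ (fun P hP => ?_) hy
    rw [map_inv₀, Place.ord_inv]
    rw [Place.ord_inv] at hP
    have := (h P).nonpos (by omega)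
    omega

/-- **`α^*`/`β^*`-stability of the chart rings, `r = 2`**: for `x : F_M` with expansion `t₂`
(`2 ∣ M`), `q ≠ 2` prime, `t := α^* x` at level `M * q`:
`α^*`, `β^*` map `icl Kbar[x]` into `icl Kbar[t]` and `icl Kbar[x⁻¹]` into `icl Kbar[t⁻¹]`. -/
theorem chart_stable_t2 (M q : ℕ) [NeZero M] [NeZero q] (hq : q.Prime) (hq2 : q ≠ 2)
    (h2M : 2 ∣ M) {x : FN M}
    (hx : (x : LaurentSeries Kbar) = coeffMap (Int.castRingHom Kbar) Fermat.Agent.S18.helper1257.t2Z)
    (y : FN M) :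
    (IsIntegral (Algebra.adjoin Kbar {x}) y →
      IsIntegral (Algebra.adjoin Kbar {heckeAlphaBar Kbar M q x}) (heckeAlphaBar Kbar M q y) ∧
      IsIntegral (Algebra.adjoin Kbar {heckeAlphaBar Kbar M q x}) (heckeBetaBar Kbar M q y)) ∧
    (IsIntegral (Algebra.adjoin Kbar {x⁻¹}) y →
      IsIntegral (Algebra.adjoin Kbar {(heckeAlphaBar Kbar M q x)⁻¹})
        (heckeAlphaBar Kbar M q y) ∧
      IsIntegral (Algebra.adjoin Kbar {(heckeAlphaBar Kbar M q x)⁻¹})
        (heckeBetaBar Kbar M q y)) := by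
  have : NeZero (M * q) := ⟨Nat.mul_ne_zero (NeZero.ne M) (NeZero.ne q)⟩
  have hx' : (x : LaurentSeries Kbar) = t2K Kbar := hx
  obtain ⟨-, hfin, -⟩ := hline2_bar (M * q) (h2M.mul_right q) (heckeAlphaBar Kbar M q x)
    (by rw [coe_heckeAlphaBar, hx']; exact t2K_sq Kbar)
    (by rw [coe_heckeAlphaBar, hx']; exact t2K_qExpand Kbar)
  exact chart_stable_of_pairOrd M q (cuspOrd_package_degeneracy_t2 M q hq hq2 h2M hx).2.2.1 y

/-- **`α^*`/`β^*`-stability of the chart rings, `r = 3`.** -/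
theorem chart_stable_t3 (M q : ℕ) [NeZero M] [NeZero q] (hq : q.Prime) (hq3 : q ≠ 3)
    (h3M : 3 ∣ M) {x : FN M}
    (hx : (x : LaurentSeries Kbar) = coeffMap (Int.castRingHom Kbar) Fermat.Agent.S18.helper1257.t3Z)
    (y : FN M) :
    (IsIntegral (Algebra.adjoin Kbar {x}) y →
      IsIntegral (Algebra.adjoin Kbar {heckeAlphaBar Kbar M q x}) (heckeAlphaBar Kbar M q y) ∧
      IsIntegral (Algebra.adjoin Kbar {heckeAlphaBar Kbar M q x}) (heckeBetaBar Kbar M q y)) ∧
    (IsIntegral (Algebra.adjoin Kbar {x⁻¹}) y →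
      IsIntegral (Algebra.adjoin Kbar {(heckeAlphaBar Kbar M q x)⁻¹})
        (heckeAlphaBar Kbar M q y) ∧
      IsIntegral (Algebra.adjoin Kbar {(heckeAlphaBar Kbar M q x)⁻¹})
        (heckeBetaBar Kbar M q y)) := by
  have : NeZero (M * q) := ⟨Nat.mul_ne_zero (NeZero.ne M) (NeZero.ne q)⟩
  have hx' : (x : LaurentSeries Kbar) = t3K Kbar := hx
  obtain ⟨-, hfin, -⟩ := hline3_bar (M * q) (h3M.mul_right q) (heckeAlphaBar Kbar M q x)
    (by rw [coe_heckeAlphaBar, hx']; exact t3K_cube Kbar)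
    (by rw [coe_heckeAlphaBar, hx']; exact t3K_qExpand Kbar)
  exact chart_stable_of_pairOrd M q (cuspOrd_package_degeneracy_t3 M q hq hq3 h3M hx).2.2.1 y

/-- **`W`-stability of both chart rings, `r = 2`, level-general expansion form**: any level `N`
with `2 * q ∣ N`, any involution `W` of `F_N` over `Kbar` with `W t = t(T^q)` (e.g. the
Atkin-Lehner involution `W_q` for `q ∥ N`). -/
theorem chart_stable_W_t2 (N q : ℕ) [NeZero N] [NeZero q] (hq : q.Prime) (hq2 : q ≠ 2)
    (hN : 2 * q ∣ N) (W : FN N ≃ₐ[Kbar] FN N) (hW : ∀ z, W (W z) = z) {t : FN N}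
    (ht : (t : LaurentSeries Kbar) = coeffMap (Int.castRingHom Kbar) Fermat.Agent.S18.helper1257.t2Z)
    (hWt : ((W t : FN N) : LaurentSeries Kbar) = qExpand Kbar q (t : LaurentSeries Kbar))
    (f : FN N) :
    (IsIntegral (Algebra.adjoin Kbar {t}) f → IsIntegral (Algebra.adjoin Kbar {t}) (W f)) ∧
    (IsIntegral (Algebra.adjoin Kbar {t⁻¹}) f → IsIntegral (Algebra.adjoin Kbar {t⁻¹}) (W f)) := by
  obtain ⟨-, -, h, -, -⟩ := cuspOrd_package_t2 N q hq hq2 hN ht hWt
  have ht' : (t : LaurentSeries Kbar) = t2K Kbar := ht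
  obtain ⟨-, hfin, -⟩ := hline2_bar N ((dvd_mul_right 2 q).trans hN) t
    (by rw [ht']; exact t2K_sq Kbar) (by rw [ht']; exact t2K_qExpand Kbar)
  exact ⟨fun hf => isIntegral_apply_of_pairOrd W hW t h hf,
    fun hf => isIntegral_apply_inv_of_pairOrd W hW t h hf⟩

/-- **`W`-stability of both chart rings, `r = 3`, level-general expansion form.** -/
theorem chart_stable_W_t3 (N q : ℕ) [NeZero N] [NeZero q] (hq : q.Prime) (hq3 : q ≠ 3)
    (hN : 3 * q ∣ N) (W : FN N ≃ₐ[Kbar] FN N) (hW : ∀ z, W (W z) = z) {t : FN N}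
    (ht : (t : LaurentSeries Kbar) = coeffMap (Int.castRingHom Kbar) Fermat.Agent.S18.helper1257.t3Z)
    (hWt : ((W t : FN N) : LaurentSeries Kbar) = qExpand Kbar q (t : LaurentSeries Kbar))
    (f : FN N) :
    (IsIntegral (Algebra.adjoin Kbar {t}) f → IsIntegral (Algebra.adjoin Kbar {t}) (W f)) ∧
    (IsIntegral (Algebra.adjoin Kbar {t⁻¹}) f → IsIntegral (Algebra.adjoin Kbar {t⁻¹}) (W f)) := by
  obtain ⟨-, -, h, -, -⟩ := cuspOrd_package_t3 N q hq hq3 hN ht hWt
  have ht' : (t : LaurentSeries Kbar) = t3K Kbar := ht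
  obtain ⟨-, hfin, -⟩ := hline3_bar N ((dvd_mul_right 3 q).trans hN) t
    (by rw [ht']; exact t3K_cube Kbar) (by rw [ht']; exact t3K_qExpand Kbar)
  exact ⟨fun hf => isIntegral_apply_of_pairOrd W hW t h hf,
    fun hf => isIntegral_apply_inv_of_pairOrd W hW t h hf⟩

end ChartStableModular

end Fermat.Agent.S35.helper2974
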