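/-
S35/S34-CUSPUNIT (helper4640, board #1979): the LAURENT HALF of the supplier of (h4)/(K2)
"every node of one chart lies in the other chart" on the S18-native cuspidal charts `t_r`, `1/t_r`
(captain ruling R4(b), team_s35_chat #132; the generic-fibre half is CUSPORD, helper2974).

Setting.  `t` is a function whose `T`-expansion is an INTEGER Laurent series `tZ` that is a unit of
`ℤ((T))` (inverse `sZ`); `tq` is the function with expansion `t(T^q)` (so `tq = β^* t = W_q t` when
`t = α^* t_r`), `q` a prime, `A` a valuation subring of `L` with a residue map `π : A →+* k` onto a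
field of characteristic `q`, `V₁ := gaussF A π N` (landed S18 `helper8991_GaussInst`).  Put

  `g := t ^ q / tq`,   `W g = tq ^ q / t`,   `g⁻¹ = tq / t ^ q`,   `W g⁻¹ = t / tq ^ q`.

* Integer level (`unitG`, `unitH`): the four expansions are the integer series
  `unitG q tZ sZ = tZ^q · sZ(T^q)`, `unitH q tZ sZ = tZ(T^q)^q · sZ`, `unitG q sZ tZ`, `unitH q sZ tZ`,
  and modulo `q` they are `1`, `t̄^(q²-1)`, `1`, `s̄^(q²-1)` (`coeffMap_unitG`, `coeffMap_unitH`).
* Function field level, EXPANSION form (any level `N`, any `W`): `cuspUnit_mem`, `gaussFRed_cuspUnit`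
  (`= 1`), `cuspUnit_inv_mem`, `gaussFRed_cuspUnit_inv` (`= 1`), `cuspUnitW_mem`, `gaussFRed_cuspUnitW`
  (`= t̄^(q²-1)`), `cuspUnitW_inv_mem`, `gaussFRed_cuspUnitW_inv` (`= s̄^(q²-1)`), together with
  `base_mem`, `gaussFRed_base` (`= t̄`), `twist_mem`, `gaussFRed_twist` (`= t̄^q`) and the inverses;
  `valuation_cuspUnit_sub_one_lt`, `valuation_cuspUnit_inv_sub_one_lt` (`g ≡ 1` at `v_∞`).
* For a ring endomorphism `W` with `W t = tq`, `W tq = t` and `V₂ := V₁.comap W`:
  `cuspUnit_mem_comap`, `gaussFRed_map_cuspUnit` etc.: `red g = (1, t̄^(q²-1))`,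
  `red g⁻¹ = (1, s̄^(q²-1))`, `red t = (t̄, t̄^q)`, `red t⁻¹ = (s̄, s̄^q)`.
* The Hauptmoduln: `hauptInv2Z`, `hauptInv3Z` with `t2Z * hauptInv2Z = 1`, `t3Z * hauptInv3Z = 1`,
  and the degeneracy form (`t = α^* x`, `tq = β^* x`, Prelude `heckeAlphaBar`, `heckeBetaBar`).

Consequence used by E3/NODES: if `(P, P')` is a node of the chart off the poles of `t`
(`a(P) = b(P')` for all `(a, b)` in the reduction of the chart ring), then `red t` gives
`t̄(P) = t̄(P')^q` and `red g` gives `1 = t̄(P')^(q²-1)`: no node lies over a zero of `t`.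
-/
import Mathlib
import Fermat.Prelude.Def_ModularCurve_HeckeOperator
import Fermat.Prelude.Thm_ModularCurve_coeffMap_qExpand
import Fermat.Agent.S18.helper8991_GaussInst
import Fermat.Agent.S18.helper1257_HauptFormal
import Fermat.Agent.Lib.helper7516_LaurentFrob

set_option autoImplicit false

open ModularCurve HahnSeries

namespace Fermat.Agent.S35.helper4640

open Fermat.Agent.S18.helper8991 Fermat.Agent.Lib.helper7516

noncomputable section

/-! ## Integer level -/

section IntSeries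

/-- `t(T)^q · s(T^q)`; for `t s = 1` this is the expansion of `t^q / t(T^q)`. -/
def unitG (q : ℕ) [NeZero q] (t s : LaurentSeries ℤ) : LaurentSeries ℤ :=
  t ^ q * qExpand ℤ q s

/-- `t(T^q)^q · s(T)`; for `t s = 1` this is the expansion of `t(T^q)^q / t`. -/
def unitH (q : ℕ) [NeZero q] (t s : LaurentSeries ℤ) : LaurentSeries ℤ :=
  qExpand ℤ q t ^ q * s

theorem swap_eq_one {t s : LaurentSeries ℤ} (h : t * s = 1) : s * t = 1 := by
  rw [mul_comm, h]

theorem qExpand_mul_eq_one (q : ℕ) [NeZero q] {t s : LaurentSeries ℤ} (h : t * s = 1) :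
    qExpand ℤ q t * qExpand ℤ q s = 1 := by
  rw [← map_mul, h, map_one]

theorem unitG_mul_unitG (q : ℕ) [NeZero q] {t s : LaurentSeries ℤ} (h : t * s = 1) :
    unitG q t s * unitG q s t = 1 := by
  have h' := qExpand_mul_eq_one q h
  calc unitG q t s * unitG q s t
      = (t * s) ^ q * (qExpand ℤ q t * qExpand ℤ q s) := by
        unfold unitG
        ring
    _ = 1 := by rw [h, h', one_pow, one_mul]

theorem unitH_mul_unitH (q : ℕ) [NeZero q] {t s : LaurentSeries ℤ} (h : t * s = 1) :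
    unitH q t s * unitH q s t = 1 := by
  have h' := qExpand_mul_eq_one q h
  calc unitH q t s * unitH q s t
      = (qExpand ℤ q t * qExpand ℤ q s) ^ q * (t * s) := by
        unfold unitH
        ring
    _ = 1 := by rw [h, h', one_pow, one_mul]

variable (k : Type*) [CommRing k]

/-- In characteristic `q`, an integer series satisfies `z(T^q) = z^q`. -/
theorem qExpand_intSeries (q : ℕ) [Fact q.Prime] [CharP k q] (z : LaurentSeries ℤ) :
    qExpand k q (coeffMap (Int.castRingHom k) z) = coeffMap (Int.castRingHom k) z ^ q := by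
  have : ExpChar k q := ExpChar.prime (Fact.out : q.Prime)
  have h := qExpand_coeffMap_frobenius q (coeffMap (Int.castRingHom k) z)
  rwa [coeffMap_coeffMap,
    RingHom.ext_int ((frobenius k q).comp (Int.castRingHom k)) (Int.castRingHom k)] at h

/-- **Reduction of `g = t^q / t(T^q)`**: it is `1` modulo `q`. -/
theorem coeffMap_unitG (q : ℕ) [Fact q.Prime] [CharP k q] {t s : LaurentSeries ℤ}
    (h : t * s = 1) : coeffMap (Int.castRingHom k) (unitG q t s) = 1 := by
  rw [unitG, map_mul, map_pow, coeffMap_qExpand, qExpand_intSeries, ← mul_pow, ← map_mul, h,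
    map_one, one_pow]

/-- **Reduction of `W g = t(T^q)^q / t`**: it is `t̄^(q²-1)` modulo `q`. -/
theorem coeffMap_unitH (q : ℕ) [Fact q.Prime] [CharP k q] {t s : LaurentSeries ℤ}
    (h : t * s = 1) :
    coeffMap (Int.castRingHom k) (unitH q t s) = coeffMap (Int.castRingHom k) t ^ (q ^ 2 - 1) := by
  have hts : coeffMap (Int.castRingHom k) t * coeffMap (Int.castRingHom k) s = 1 := by
    rw [← map_mul, h, map_one]
  obtain ⟨m, hm⟩ : ∃ m, q ^ 2 = m + 1 :=
    ⟨q ^ 2 - 1, (Nat.sub_add_cancel (Nat.one_le_pow _ _ (Fact.out : q.Prime).pos)).symm⟩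
  rw [unitH, map_mul, map_pow, coeffMap_qExpand, qExpand_intSeries, ← pow_mul, ← sq, hm,
    Nat.add_sub_cancel, pow_succ, mul_assoc, hts, mul_one]

end IntSeries

/-! ## Integer series in the Gauss valuation ring -/

section Gauss

variable {L : Type*} [Field L] (A : ValuationSubring L) {k : Type*} [Field k] (π : A →+* k)

theorem inc_intSeries (z : LaurentSeries ℤ) :
    inc A (coeffMap (Int.castRingHom A) z) = coeffMap (Int.castRingHom L) z := by
  rw [coeffMap_coeffMap, RingHom.ext_int (A.subtype.comp (Int.castRingHom A)) (Int.castRingHom L)]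

theorem red_intSeries (z : LaurentSeries ℤ) :
    red A π (coeffMap (Int.castRingHom A) z) = coeffMap (Int.castRingHom k) z := by
  rw [coeffMap_coeffMap, RingHom.ext_int (π.comp (Int.castRingHom A)) (Int.castRingHom k)]

variable [Algebra ℚ L] (N : ℕ)

/-- A function whose expansion is an integer series lies in the Gauss valuation ring. -/
theorem mem_gaussF_of_coe_eq {f : ↥(laurentBaseChange L (modularFunctionFieldFull N))}
    {z : LaurentSeries ℤ} (hf : (f : LaurentSeries L) = coeffMap (Int.castRingHom L) z) :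
    f ∈ gaussF A π N := by
  rw [mem_gaussF_iff]
  refine ⟨coeffMap (Int.castRingHom A) z, 1, ?_, ?_⟩
  · rw [map_one]
    exact one_ne_zero
  · rw [map_one, mul_one, hf, inc_intSeries]

/-- ... and its reduction is the same integer series read over the residue field. -/
theorem gaussFRed_of_coe_eq {f : ↥(laurentBaseChange L (modularFunctionFieldFull N))}
    {z : LaurentSeries ℤ} (hf : (f : LaurentSeries L) = coeffMap (Int.castRingHom L) z)
    (hmem : f ∈ gaussF A π N) :
    gaussFRed A π N ⟨f, hmem⟩ = coeffMap (Int.castRingHom k) z := by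
  have hY : red A π (1 : LaurentSeries A) ≠ 0 := by
    rw [map_one]
    exact one_ne_zero
  rw [gaussFRed_eq A π N ⟨f, hmem⟩ (X := coeffMap (Int.castRingHom A) z) (Y := 1) hY
    (by rw [map_one, mul_one, inc_intSeries]; exact hf), map_one, div_one, red_intSeries]

/-- An element of the Gauss ring with reduction `1` is `≡ 1` for the Gauss valuation. -/
theorem valuation_sub_one_lt_of_gaussFRed_eq_one
    {f : ↥(laurentBaseChange L (modularFunctionFieldFull N))} (hmem : f ∈ gaussF A π N)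
    (hred : gaussFRed A π N ⟨f, hmem⟩ = 1) : (gaussF A π N).valuation (f - 1) < 1 := by
  have h1 : f - 1 ∈ gaussF A π N := sub_mem hmem (one_mem _)
  have h2 : gaussFRed A π N ⟨f - 1, h1⟩ = 0 := by
    have h3 : (⟨f - 1, h1⟩ : ↥(gaussF A π N)) = ⟨f, hmem⟩ - 1 := rfl
    rw [h3, map_sub, map_one, hred, sub_self]
  have h4 := (gaussFRed_eq_zero_iff A π N _).mp h2
  exact ((gaussF A π N).valuation_lt_one_iff _).mp h4

/-- Expansion of a quotient of two functions with integer expansions, the denominator being a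
unit of `ℤ((T))`. -/
theorem coe_div_eq {f g : ↥(laurentBaseChange L (modularFunctionFieldFull N))}
    {X Y Y' : LaurentSeries ℤ} (hY : Y * Y' = 1)
    (hf : (f : LaurentSeries L) = coeffMap (Int.castRingHom L) X)
    (hg : (g : LaurentSeries L) = coeffMap (Int.castRingHom L) Y) :
    ((f / g : ↥(laurentBaseChange L (modularFunctionFieldFull N))) : LaurentSeries L)
      = coeffMap (Int.castRingHom L) (X * Y') := by
  have h1 : coeffMap (Int.castRingHom L) Y * coeffMap (Int.castRingHom L) Y' = 1 := by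
    rw [← map_mul, hY, map_one]
  have h2 : coeffMap (Int.castRingHom L) Y' = (coeffMap (Int.castRingHom L) Y)⁻¹ :=
    eq_inv_of_mul_eq_one_right h1
  rw [IntermediateField.coe_div, hf, hg, map_mul, h2, div_eq_mul_inv]

theorem coe_inv_eq {g : ↥(laurentBaseChange L (modularFunctionFieldFull N))}
    {Y Y' : LaurentSeries ℤ} (hY : Y * Y' = 1)
    (hg : (g : LaurentSeries L) = coeffMap (Int.castRingHom L) Y) :
    ((g⁻¹ : ↥(laurentBaseChange L (modularFunctionFieldFull N))) : LaurentSeries L)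
      = coeffMap (Int.castRingHom L) Y' := by
  have h1 : coeffMap (Int.castRingHom L) Y * coeffMap (Int.castRingHom L) Y' = 1 := by
    rw [← map_mul, hY, map_one]
  rw [IntermediateField.coe_inv, hg]
  exact (eq_inv_of_mul_eq_one_right h1).symm

theorem coe_pow_eq {f : ↥(laurentBaseChange L (modularFunctionFieldFull N))}
    {X : LaurentSeries ℤ} (hf : (f : LaurentSeries L) = coeffMap (Int.castRingHom L) X) (n : ℕ) :
    ((f ^ n : ↥(laurentBaseChange L (modularFunctionFieldFull N))) : LaurentSeries L)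
      = coeffMap (Int.castRingHom L) (X ^ n) := by
  rw [IntermediateField.coe_pow, hf, map_pow]

end Gauss

/-! ## The cuspidal unit `g = t ^ q / tq` and its twist, EXPANSION form -/

section Units

variable {L : Type*} [Field L] [Algebra ℚ L] (A : ValuationSubring L) {k : Type*} [Field k]
  (π : A →+* k) (N : ℕ) (q : ℕ) [Fact q.Prime]
  {t tq : ↥(laurentBaseChange L (modularFunctionFieldFull N))} {tZ sZ : LaurentSeries ℤ}

/-- The expansion of `tq` is the integer series `tZ(T^q)`. -/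
theorem coe_twist_eq (ht : (t : LaurentSeries L) = coeffMap (Int.castRingHom L) tZ)
    (htq : (tq : LaurentSeries L) = qExpand L q (t : LaurentSeries L)) :
    (tq : LaurentSeries L) = coeffMap (Int.castRingHom L) (qExpand ℤ q tZ) := by
  rw [htq, ht, coeffMap_qExpand]

/-- Expansion of `g = t ^ q / tq`. -/
theorem coe_cuspUnit (hts : tZ * sZ = 1)
    (ht : (t : LaurentSeries L) = coeffMap (Int.castRingHom L) tZ)
    (htq : (tq : LaurentSeries L) = qExpand L q (t : LaurentSeries L)) :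
    ((t ^ q / tq : ↥(laurentBaseChange L (modularFunctionFieldFull N))) : LaurentSeries L)
      = coeffMap (Int.castRingHom L) (unitG q tZ sZ) :=
  coe_div_eq N (qExpand_mul_eq_one q hts) (coe_pow_eq N ht q) (coe_twist_eq N q ht htq)

/-- Expansion of `g⁻¹ = tq / t ^ q`. -/
theorem coe_cuspUnit_inv (hts : tZ * sZ = 1)
    (ht : (t : LaurentSeries L) = coeffMap (Int.castRingHom L) tZ)
    (htq : (tq : LaurentSeries L) = qExpand L q (t : LaurentSeries L)) :
    ((tq / t ^ q : ↥(laurentBaseChange L (modularFunctionFieldFull N))) : LaurentSeries L)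
      = coeffMap (Int.castRingHom L) (unitG q sZ tZ) := by
  have h1 : tZ ^ q * sZ ^ q = 1 := by rw [← mul_pow, hts, one_pow]
  rw [coe_div_eq N h1 (coe_twist_eq N q ht htq) (coe_pow_eq N ht q), unitG, mul_comm]

/-- Expansion of `W g = tq ^ q / t`. -/
theorem coe_cuspUnitW (hts : tZ * sZ = 1)
    (ht : (t : LaurentSeries L) = coeffMap (Int.castRingHom L) tZ)
    (htq : (tq : LaurentSeries L) = qExpand L q (t : LaurentSeries L)) :
    ((tq ^ q / t : ↥(laurentBaseChange L (modularFunctionFieldFull N))) : LaurentSeries L)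
      = coeffMap (Int.castRingHom L) (unitH q tZ sZ) :=
  coe_div_eq N hts (coe_pow_eq N (coe_twist_eq N q ht htq) q) ht

/-- Expansion of `W g⁻¹ = t / tq ^ q`. -/
theorem coe_cuspUnitW_inv (hts : tZ * sZ = 1)
    (ht : (t : LaurentSeries L) = coeffMap (Int.castRingHom L) tZ)
    (htq : (tq : LaurentSeries L) = qExpand L q (t : LaurentSeries L)) :
    ((t / tq ^ q : ↥(laurentBaseChange L (modularFunctionFieldFull N))) : LaurentSeries L)
      = coeffMap (Int.castRingHom L) (unitH q sZ tZ) := by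
  have h1 : qExpand ℤ q tZ ^ q * qExpand ℤ q sZ ^ q = 1 := by
    rw [← mul_pow, qExpand_mul_eq_one q hts, one_pow]
  rw [coe_div_eq N h1 ht (coe_pow_eq N (coe_twist_eq N q ht htq) q), unitH, mul_comm]

/-! ### Membership in the Gauss valuation ring -/

/-- `t ∈ V₁`. -/
theorem base_mem (ht : (t : LaurentSeries L) = coeffMap (Int.castRingHom L) tZ) :
    t ∈ gaussF A π N := mem_gaussF_of_coe_eq A π N ht

/-- `t⁻¹ ∈ V₁`. -/
theorem base_inv_mem (hts : tZ * sZ = 1)
    (ht : (t : LaurentSeries L) = coeffMap (Int.castRingHom L) tZ) :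
    t⁻¹ ∈ gaussF A π N := mem_gaussF_of_coe_eq A π N (coe_inv_eq N hts ht)

/-- `tq ∈ V₁`. -/
theorem twist_mem (ht : (t : LaurentSeries L) = coeffMap (Int.castRingHom L) tZ)
    (htq : (tq : LaurentSeries L) = qExpand L q (t : LaurentSeries L)) :
    tq ∈ gaussF A π N := mem_gaussF_of_coe_eq A π N (coe_twist_eq N q ht htq)

/-- `tq⁻¹ ∈ V₁`. -/
theorem twist_inv_mem (hts : tZ * sZ = 1)
    (ht : (t : LaurentSeries L) = coeffMap (Int.castRingHom L) tZ)
    (htq : (tq : LaurentSeries L) = qExpand L q (t : LaurentSeries L)) :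
    tq⁻¹ ∈ gaussF A π N :=
  mem_gaussF_of_coe_eq A π N
    (coe_inv_eq N (qExpand_mul_eq_one q hts) (coe_twist_eq N q ht htq))

/-- `g = t ^ q / tq ∈ V₁`. -/
theorem cuspUnit_mem (hts : tZ * sZ = 1)
    (ht : (t : LaurentSeries L) = coeffMap (Int.castRingHom L) tZ)
    (htq : (tq : LaurentSeries L) = qExpand L q (t : LaurentSeries L)) :
    t ^ q / tq ∈ gaussF A π N := mem_gaussF_of_coe_eq A π N (coe_cuspUnit N q hts ht htq)

/-- `g⁻¹ = tq / t ^ q ∈ V₁`. -/
theorem cuspUnit_inv_mem (hts : tZ * sZ = 1)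
    (ht : (t : LaurentSeries L) = coeffMap (Int.castRingHom L) tZ)
    (htq : (tq : LaurentSeries L) = qExpand L q (t : LaurentSeries L)) :
    tq / t ^ q ∈ gaussF A π N := mem_gaussF_of_coe_eq A π N (coe_cuspUnit_inv N q hts ht htq)

/-- `W g = tq ^ q / t ∈ V₁`. -/
theorem cuspUnitW_mem (hts : tZ * sZ = 1)
    (ht : (t : LaurentSeries L) = coeffMap (Int.castRingHom L) tZ)
    (htq : (tq : LaurentSeries L) = qExpand L q (t : LaurentSeries L)) :
    tq ^ q / t ∈ gaussF A π N := mem_gaussF_of_coe_eq A π N (coe_cuspUnitW N q hts ht htq)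

/-- `W g⁻¹ = t / tq ^ q ∈ V₁`. -/
theorem cuspUnitW_inv_mem (hts : tZ * sZ = 1)
    (ht : (t : LaurentSeries L) = coeffMap (Int.castRingHom L) tZ)
    (htq : (tq : LaurentSeries L) = qExpand L q (t : LaurentSeries L)) :
    t / tq ^ q ∈ gaussF A π N := mem_gaussF_of_coe_eq A π N (coe_cuspUnitW_inv N q hts ht htq)

/-! ### The reductions -/

/-- `red t = t̄`. -/
theorem gaussFRed_base (ht : (t : LaurentSeries L) = coeffMap (Int.castRingHom L) tZ)
    (h : t ∈ gaussF A π N) :
    gaussFRed A π N ⟨t, h⟩ = coeffMap (Int.castRingHom k) tZ :=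
  gaussFRed_of_coe_eq A π N ht h

/-- `red t⁻¹ = s̄`. -/
theorem gaussFRed_base_inv (hts : tZ * sZ = 1)
    (ht : (t : LaurentSeries L) = coeffMap (Int.castRingHom L) tZ) (h : t⁻¹ ∈ gaussF A π N) :
    gaussFRed A π N ⟨t⁻¹, h⟩ = coeffMap (Int.castRingHom k) sZ :=
  gaussFRed_of_coe_eq A π N (coe_inv_eq N hts ht) h

variable [CharP k q]

/-- `red tq = t̄ ^ q`. -/
theorem gaussFRed_twist (ht : (t : LaurentSeries L) = coeffMap (Int.castRingHom L) tZ)
    (htq : (tq : LaurentSeries L) = qExpand L q (t : LaurentSeries L)) (h : tq ∈ gaussF A π N) :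
    gaussFRed A π N ⟨tq, h⟩ = coeffMap (Int.castRingHom k) tZ ^ q := by
  rw [gaussFRed_of_coe_eq A π N (coe_twist_eq N q ht htq) h, coeffMap_qExpand,
    qExpand_intSeries]

/-- `red tq⁻¹ = s̄ ^ q`. -/
theorem gaussFRed_twist_inv (hts : tZ * sZ = 1)
    (ht : (t : LaurentSeries L) = coeffMap (Int.castRingHom L) tZ)
    (htq : (tq : LaurentSeries L) = qExpand L q (t : LaurentSeries L))
    (h : tq⁻¹ ∈ gaussF A π N) :
    gaussFRed A π N ⟨tq⁻¹, h⟩ = coeffMap (Int.castRingHom k) sZ ^ q := by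
  rw [gaussFRed_of_coe_eq A π N
    (coe_inv_eq N (qExpand_mul_eq_one q hts) (coe_twist_eq N q ht htq)) h, coeffMap_qExpand,
    qExpand_intSeries]

/-- **`red g = 1`** for `g = t ^ q / tq`. -/
theorem gaussFRed_cuspUnit (hts : tZ * sZ = 1)
    (ht : (t : LaurentSeries L) = coeffMap (Int.castRingHom L) tZ)
    (htq : (tq : LaurentSeries L) = qExpand L q (t : LaurentSeries L))
    (h : t ^ q / tq ∈ gaussF A π N) :
    gaussFRed A π N ⟨t ^ q / tq, h⟩ = 1 := by
  rw [gaussFRed_of_coe_eq A π N (coe_cuspUnit N q hts ht htq) h, coeffMap_unitG k q hts]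

/-- **`red g⁻¹ = 1`** for `g⁻¹ = tq / t ^ q`. -/
theorem gaussFRed_cuspUnit_inv (hts : tZ * sZ = 1)
    (ht : (t : LaurentSeries L) = coeffMap (Int.castRingHom L) tZ)
    (htq : (tq : LaurentSeries L) = qExpand L q (t : LaurentSeries L))
    (h : tq / t ^ q ∈ gaussF A π N) :
    gaussFRed A π N ⟨tq / t ^ q, h⟩ = 1 := by
  rw [gaussFRed_of_coe_eq A π N (coe_cuspUnit_inv N q hts ht htq) h,
    coeffMap_unitG k q (swap_eq_one hts)]

/-- **`red (W g) = t̄ ^ (q² - 1)`** for `W g = tq ^ q / t`. -/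
theorem gaussFRed_cuspUnitW (hts : tZ * sZ = 1)
    (ht : (t : LaurentSeries L) = coeffMap (Int.castRingHom L) tZ)
    (htq : (tq : LaurentSeries L) = qExpand L q (t : LaurentSeries L))
    (h : tq ^ q / t ∈ gaussF A π N) :
    gaussFRed A π N ⟨tq ^ q / t, h⟩ = coeffMap (Int.castRingHom k) tZ ^ (q ^ 2 - 1) := by
  rw [gaussFRed_of_coe_eq A π N (coe_cuspUnitW N q hts ht htq) h, coeffMap_unitH k q hts]

/-- **`red (W g⁻¹) = s̄ ^ (q² - 1)`** for `W g⁻¹ = t / tq ^ q`. -/
theorem gaussFRed_cuspUnitW_inv (hts : tZ * sZ = 1)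
    (ht : (t : LaurentSeries L) = coeffMap (Int.castRingHom L) tZ)
    (htq : (tq : LaurentSeries L) = qExpand L q (t : LaurentSeries L))
    (h : t / tq ^ q ∈ gaussF A π N) :
    gaussFRed A π N ⟨t / tq ^ q, h⟩ = coeffMap (Int.castRingHom k) sZ ^ (q ^ 2 - 1) := by
  rw [gaussFRed_of_coe_eq A π N (coe_cuspUnitW_inv N q hts ht htq) h,
    coeffMap_unitH k q (swap_eq_one hts)]

/-- `g ≡ 1` for the Gauss valuation `v_∞`. -/
theorem valuation_cuspUnit_sub_one_lt (hts : tZ * sZ = 1)
    (ht : (t : LaurentSeries L) = coeffMap (Int.castRingHom L) tZ)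
    (htq : (tq : LaurentSeries L) = qExpand L q (t : LaurentSeries L)) :
    (gaussF A π N).valuation (t ^ q / tq - 1) < 1 :=
  valuation_sub_one_lt_of_gaussFRed_eq_one A π N (cuspUnit_mem A π N q hts ht htq)
    (gaussFRed_cuspUnit A π N q hts ht htq _)

/-- `g⁻¹ ≡ 1` for the Gauss valuation `v_∞`. -/
theorem valuation_cuspUnit_inv_sub_one_lt (hts : tZ * sZ = 1)
    (ht : (t : LaurentSeries L) = coeffMap (Int.castRingHom L) tZ)
    (htq : (tq : LaurentSeries L) = qExpand L q (t : LaurentSeries L)) :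
    (gaussF A π N).valuation (tq / t ^ q - 1) < 1 :=
  valuation_sub_one_lt_of_gaussFRed_eq_one A π N (cuspUnit_inv_mem A π N q hts ht htq)
    (gaussFRed_cuspUnit_inv A π N q hts ht htq _)

/-- **The four units at once** (`g`, `g⁻¹`, `W g`, `W g⁻¹` lie in `V₁`, with reductions
`1`, `1`, `t̄^(q²-1)`, `s̄^(q²-1)`). -/
theorem cuspUnit_package (hts : tZ * sZ = 1)
    (ht : (t : LaurentSeries L) = coeffMap (Int.castRingHom L) tZ)
    (htq : (tq : LaurentSeries L) = qExpand L q (t : LaurentSeries L)) :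
    ∃ (h1 : t ^ q / tq ∈ gaussF A π N) (h2 : tq / t ^ q ∈ gaussF A π N)
      (h3 : tq ^ q / t ∈ gaussF A π N) (h4 : t / tq ^ q ∈ gaussF A π N),
      gaussFRed A π N ⟨t ^ q / tq, h1⟩ = 1 ∧ gaussFRed A π N ⟨tq / t ^ q, h2⟩ = 1 ∧
      gaussFRed A π N ⟨tq ^ q / t, h3⟩ = coeffMap (Int.castRingHom k) tZ ^ (q ^ 2 - 1) ∧
      gaussFRed A π N ⟨t / tq ^ q, h4⟩ = coeffMap (Int.castRingHom k) sZ ^ (q ^ 2 - 1) :=
  ⟨cuspUnit_mem A π N q hts ht htq, cuspUnit_inv_mem A π N q hts ht htq,
    cuspUnitW_mem A π N q hts ht htq, cuspUnitW_inv_mem A π N q hts ht htq,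
    gaussFRed_cuspUnit A π N q hts ht htq _, gaussFRed_cuspUnit_inv A π N q hts ht htq _,
    gaussFRed_cuspUnitW A π N q hts ht htq _, gaussFRed_cuspUnitW_inv A π N q hts ht htq _⟩

end Units

/-! ## The second valuation `V₂ = V₁.comap W`, for any `W` exchanging `t` and `tq` -/

section Comap

variable {L : Type*} [Field L] [Algebra ℚ L] (A : ValuationSubring L) {k : Type*} [Field k]
  (π : A →+* k) (N : ℕ) (q : ℕ) [Fact q.Prime]
  {t tq : ↥(laurentBaseChange L (modularFunctionFieldFull N))} {tZ sZ : LaurentSeries ℤ}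
  (W : ↥(laurentBaseChange L (modularFunctionFieldFull N)) →+*
    ↥(laurentBaseChange L (modularFunctionFieldFull N)))

omit [Fact q.Prime] in
theorem map_cuspUnit (hW1 : W t = tq) (hW2 : W tq = t) : W (t ^ q / tq) = tq ^ q / t := by
  rw [map_div₀, map_pow, hW1, hW2]

omit [Fact q.Prime] in
theorem map_cuspUnit_inv (hW1 : W t = tq) (hW2 : W tq = t) : W (tq / t ^ q) = t / tq ^ q := by
  rw [map_div₀, map_pow, hW1, hW2]

/-- `t ∈ V₂`. -/
theorem base_mem_comap (ht : (t : LaurentSeries L) = coeffMap (Int.castRingHom L) tZ)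
    (htq : (tq : LaurentSeries L) = qExpand L q (t : LaurentSeries L)) (hW1 : W t = tq) :
    t ∈ (gaussF A π N).comap W := by
  rw [ValuationSubring.mem_comap, hW1]
  exact twist_mem A π N q ht htq

/-- `t⁻¹ ∈ V₂`. -/
theorem base_inv_mem_comap (hts : tZ * sZ = 1)
    (ht : (t : LaurentSeries L) = coeffMap (Int.castRingHom L) tZ)
    (htq : (tq : LaurentSeries L) = qExpand L q (t : LaurentSeries L)) (hW1 : W t = tq) :
    t⁻¹ ∈ (gaussF A π N).comap W := by
  rw [ValuationSubring.mem_comap, map_inv₀, hW1]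
  exact twist_inv_mem A π N q hts ht htq

/-- `g ∈ V₂`. -/
theorem cuspUnit_mem_comap (hts : tZ * sZ = 1)
    (ht : (t : LaurentSeries L) = coeffMap (Int.castRingHom L) tZ)
    (htq : (tq : LaurentSeries L) = qExpand L q (t : LaurentSeries L))
    (hW1 : W t = tq) (hW2 : W tq = t) :
    t ^ q / tq ∈ (gaussF A π N).comap W := by
  rw [ValuationSubring.mem_comap, map_cuspUnit N q W hW1 hW2]
  exact cuspUnitW_mem A π N q hts ht htq

/-- `g⁻¹ ∈ V₂`. -/
theorem cuspUnit_inv_mem_comap (hts : tZ * sZ = 1)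
    (ht : (t : LaurentSeries L) = coeffMap (Int.castRingHom L) tZ)
    (htq : (tq : LaurentSeries L) = qExpand L q (t : LaurentSeries L))
    (hW1 : W t = tq) (hW2 : W tq = t) :
    tq / t ^ q ∈ (gaussF A π N).comap W := by
  rw [ValuationSubring.mem_comap, map_cuspUnit_inv N q W hW1 hW2]
  exact cuspUnitW_inv_mem A π N q hts ht htq

variable [CharP k q]

/-- Second component of `red t`: `red (W t) = t̄ ^ q`. -/
theorem gaussFRed_map_base (ht : (t : LaurentSeries L) = coeffMap (Int.castRingHom L) tZ)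
    (htq : (tq : LaurentSeries L) = qExpand L q (t : LaurentSeries L)) (hW1 : W t = tq)
    (h : W t ∈ gaussF A π N) :
    gaussFRed A π N ⟨W t, h⟩ = coeffMap (Int.castRingHom k) tZ ^ q := by
  have h' : tq ∈ gaussF A π N := hW1 ▸ h
  have he : (⟨W t, h⟩ : ↥(gaussF A π N)) = ⟨tq, h'⟩ := Subtype.ext hW1
  rw [he, gaussFRed_twist A π N q ht htq]

/-- Second component of `red t⁻¹`: `red (W t⁻¹) = s̄ ^ q`. -/
theorem gaussFRed_map_base_inv (hts : tZ * sZ = 1)
    (ht : (t : LaurentSeries L) = coeffMap (Int.castRingHom L) tZ)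
    (htq : (tq : LaurentSeries L) = qExpand L q (t : LaurentSeries L)) (hW1 : W t = tq)
    (h : W t⁻¹ ∈ gaussF A π N) :
    gaussFRed A π N ⟨W t⁻¹, h⟩ = coeffMap (Int.castRingHom k) sZ ^ q := by
  have hW : W t⁻¹ = tq⁻¹ := by rw [map_inv₀, hW1]
  have h' : tq⁻¹ ∈ gaussF A π N := hW ▸ h
  have he : (⟨W t⁻¹, h⟩ : ↥(gaussF A π N)) = ⟨tq⁻¹, h'⟩ := Subtype.ext hW
  rw [he, gaussFRed_twist_inv A π N q hts ht htq]

/-- **Second component of `red g`**: `red (W g) = t̄ ^ (q² - 1)`. -/
theorem gaussFRed_map_cuspUnit (hts : tZ * sZ = 1)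
    (ht : (t : LaurentSeries L) = coeffMap (Int.castRingHom L) tZ)
    (htq : (tq : LaurentSeries L) = qExpand L q (t : LaurentSeries L))
    (hW1 : W t = tq) (hW2 : W tq = t) (h : W (t ^ q / tq) ∈ gaussF A π N) :
    gaussFRed A π N ⟨W (t ^ q / tq), h⟩ = coeffMap (Int.castRingHom k) tZ ^ (q ^ 2 - 1) := by
  have hW := map_cuspUnit N q W hW1 hW2
  have h' : tq ^ q / t ∈ gaussF A π N := hW ▸ h
  have he : (⟨W (t ^ q / tq), h⟩ : ↥(gaussF A π N)) = ⟨tq ^ q / t, h'⟩ := Subtype.ext hW
  rw [he, gaussFRed_cuspUnitW A π N q hts ht htq]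

/-- **Second component of `red g⁻¹`**: `red (W g⁻¹) = s̄ ^ (q² - 1)`. -/
theorem gaussFRed_map_cuspUnit_inv (hts : tZ * sZ = 1)
    (ht : (t : LaurentSeries L) = coeffMap (Int.castRingHom L) tZ)
    (htq : (tq : LaurentSeries L) = qExpand L q (t : LaurentSeries L))
    (hW1 : W t = tq) (hW2 : W tq = t) (h : W (tq / t ^ q) ∈ gaussF A π N) :
    gaussFRed A π N ⟨W (tq / t ^ q), h⟩ = coeffMap (Int.castRingHom k) sZ ^ (q ^ 2 - 1) := by
  have hW := map_cuspUnit_inv N q W hW1 hW2
  have h' : t / tq ^ q ∈ gaussF A π N := hW ▸ h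
  have he : (⟨W (tq / t ^ q), h⟩ : ↥(gaussF A π N)) = ⟨t / tq ^ q, h'⟩ := Subtype.ext hW
  rw [he, gaussFRed_cuspUnitW_inv A π N q hts ht htq]

end Comap

/-! ## The Hauptmoduln `t₂`, `t₃` are units of `ℤ((T))` -/

section Haupt

open Fermat.Agent.S18.helper1257

/-- The inverse in `ℤ((T))` of `T⁻¹ · u`, for `u ∈ 1 + T ℤ⟦T⟧`. -/
def invSeries (u : PowerSeries ℤ) : LaurentSeries ℤ :=
  HahnSeries.single (1 : ℤ) (1 : ℤ) * ofZ (u.invOfUnit 1)

theorem single_mul_ofZ_mul_invSeries (u : PowerSeries ℤ)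
    (hu : PowerSeries.constantCoeff u = 1) :
    (HahnSeries.single (-1 : ℤ) (1 : ℤ) * ofZ u) * invSeries u = 1 := by
  have h1 : u * u.invOfUnit 1 = 1 := PowerSeries.mul_invOfUnit _ _ (by rw [hu]; rfl)
  calc (HahnSeries.single (-1 : ℤ) (1 : ℤ) * ofZ u) * invSeries u
      = (HahnSeries.single (-1 : ℤ) (1 : ℤ) * HahnSeries.single (1 : ℤ) (1 : ℤ)) *
          ofZ (u * u.invOfUnit 1) := by
        rw [invSeries, map_mul]
        ring
    _ = 1 := by
        rw [h1, show ofZ (1 : PowerSeries ℤ) = 1 from map_one ofZ, mul_one,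
          HahnSeries.single_mul_single]
        simp

/-- The inverse of the integer Hauptmodul series `t₂`. -/
def hauptInv2Z : LaurentSeries ℤ := invSeries u2Z

/-- The inverse of the integer Hauptmodul series `t₃`. -/
def hauptInv3Z : LaurentSeries ℤ := invSeries u3Z

theorem t2Z_mul_hauptInv2Z : t2Z * hauptInv2Z = 1 := by
  rw [t2Z_eq_single_mul]
  exact single_mul_ofZ_mul_invSeries u2Z constantCoeff_u2Z

theorem t3Z_mul_hauptInv3Z : t3Z * hauptInv3Z = 1 := by
  rw [t3Z_eq_single_mul]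
  exact single_mul_ofZ_mul_invSeries u3Z constantCoeff_u3Z

end Haupt

/-! ## Degeneracy form: `t = α^* x`, `tq = β^* x` at level `M * q` -/

section Degeneracy

variable {L : Type*} [Field L] [Algebra ℚ L] (M q : ℕ) [NeZero M] [NeZero q]

theorem coe_heckeAlphaBar_eq {x : ↥(laurentBaseChange L (modularFunctionFieldFull M))}
    {tZ : LaurentSeries ℤ} (hx : (x : LaurentSeries L) = coeffMap (Int.castRingHom L) tZ) :
    ((heckeAlphaBar L M q x : ↥(laurentBaseChange L (modularFunctionFieldFull (M * q)))) :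
      LaurentSeries L) = coeffMap (Int.castRingHom L) tZ := by
  rw [coe_heckeAlphaBar, hx]

theorem coe_heckeBetaBar_eq (x : ↥(laurentBaseChange L (modularFunctionFieldFull M))) :
    ((heckeBetaBar L M q x : ↥(laurentBaseChange L (modularFunctionFieldFull (M * q)))) :
      LaurentSeries L)
      = qExpand L q ((heckeAlphaBar L M q x :
          ↥(laurentBaseChange L (modularFunctionFieldFull (M * q)))) : LaurentSeries L) := by
  rw [coe_heckeBetaBar, coe_heckeAlphaBar]

/-- **The package in degeneracy form**: for `x` of level `M` with integer unit expansion `tZ`,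
`t := α^* x` and `tq := β^* x` at level `M * q`, residue characteristic `q`. -/
theorem cuspUnit_package_degeneracy (A : ValuationSubring L) {k : Type*} [Field k]
    (π : A →+* k) (M q : ℕ) [NeZero M] [Fact q.Prime] [CharP k q]
    {x : ↥(laurentBaseChange L (modularFunctionFieldFull M))} {tZ sZ : LaurentSeries ℤ}
    (hts : tZ * sZ = 1) (hx : (x : LaurentSeries L) = coeffMap (Int.castRingHom L) tZ) :
    ∃ (h1 : heckeAlphaBar L M q x ^ q / heckeBetaBar L M q x ∈ gaussF A π (M * q))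
      (h2 : heckeBetaBar L M q x / heckeAlphaBar L M q x ^ q ∈ gaussF A π (M * q))
      (h3 : heckeBetaBar L M q x ^ q / heckeAlphaBar L M q x ∈ gaussF A π (M * q))
      (h4 : heckeAlphaBar L M q x / heckeBetaBar L M q x ^ q ∈ gaussF A π (M * q)),
      gaussFRed A π (M * q) ⟨_, h1⟩ = 1 ∧ gaussFRed A π (M * q) ⟨_, h2⟩ = 1 ∧
      gaussFRed A π (M * q) ⟨_, h3⟩ = coeffMap (Int.castRingHom k) tZ ^ (q ^ 2 - 1) ∧
      gaussFRed A π (M * q) ⟨_, h4⟩ = coeffMap (Int.castRingHom k) sZ ^ (q ^ 2 - 1) :=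
  cuspUnit_package A π (M * q) q hts (coe_heckeAlphaBar_eq M q hx) (coe_heckeBetaBar_eq M q x)

end Degeneracy

end

end Fermat.Agent.S35.helper4640
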