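/-
S35/S34-CUSPCHART (helper4640, board #2246): the CHART DATA of the S18-native cuspidal charts
`x = t_r`, `1/t_r` (`r ∈ {2, 3}`) at the auxiliary level, for BOTH Gauss valuations
`V₁ = gaussF A π N` and `V₂ = V₁.comap W` (`W = W_q`), on top of the landed `helper4640_CuspUnit`.

* (G) `gaussElt_of_coe_eq`: a function `t` whose `T`-expansion is an integer Laurent series with
  transcendental reduction is a GAUSS ELEMENT of `(L, A) ⊂ (F, V₁)` (`helper1024.GaussElt`):
  a polynomial in `t` with coefficients in `A` lies in the maximal ideal of `V₁` only if all its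
  coefficients lie in the maximal ideal of `A`.  `gaussElt_comap_of_coe_eq`: the same for
  `V₂ = V₁.comap W`, `W` any ring endomorphism fixing the constants.  Standing-hypothesis forms
  `gaussElt_base`, `gaussElt_base_inv`, `gaussElt_base_comap`, `gaussElt_base_inv_comap`
  (both charts, both valuations), and `valuation_base_eq_one`, `valuation_comap_base_eq_one`,
  `comap_algebraMap_gaussF`, `comap_comap_algebraMap_gaussF` (`V_i ∩ L = A`).
* (W) `coe_atkinLehnerBar_of_coe_eq`: for `t` of level `q * M` whose expansion is that of a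
  function `x` of level `M`, the expansion of `W_q t` is `t(T^q)`: this PRODUCES the hypothesis
  `htq` of `helper4640_CuspUnit` for `tq := W_q t`, `W := helper1219.atkinLehnerBar q M h`.
* (S) `arithmeticGalois_smul_of_coe_eq`, `ord_smul_of_coe_eq`: a function with integer expansion is
  fixed by the arithmetic Galois action, so its pole and zero divisors are Galois stable.
* (H) the instance `t := helper6381.t2L / t3L` (the Hauptmoduln of `X₀(2)`, `X₀(3)` at any level
  divisible by `2`, resp. `3`): all hypotheses discharged.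
-/
import Mathlib
import Fermat.Agent.S35.helper4640_CuspUnit
import Fermat.Agent.S35.helper1024_TwoVal
import Fermat.Agent.S35.helper1219_AtkinLehnerFF
import Fermat.Agent.S18.helper6381_HLineInst
import Fermat.Agent.S24.helper60_DegreeAlg

set_option autoImplicit false

open ModularCurve HahnSeries Polynomial

namespace Fermat.Agent.S35.helper4640

open Fermat.Agent.S18.helper8991 Fermat.Agent.Lib.helper7516

noncomputable section

/-! ## (G) Gauss elements, expansion form -/

section GaussElt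

variable {L : Type*} [Field L] (A : ValuationSubring L) {k : Type*} [Field k] (π : A →+* k)

/-- A polynomial over `L` with coefficients in `A` comes from `A[X]`. -/
theorem exists_map_subtype_eq {p : L[X]} (hp : ∀ i, p.coeff i ∈ A) :
    ∃ P : A[X], P.map A.subtype = p := by
  have h : p ∈ Polynomial.lifts A.subtype := by
    rw [Polynomial.lifts_iff_coeff_lifts]
    intro n
    exact ⟨⟨p.coeff n, hp n⟩, rfl⟩
  exact (Polynomial.mem_lifts p).mp h

theorem inc_comp_C :
    (inc A).comp (HahnSeries.C : A →+* LaurentSeries A)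
      = (algebraMap L (LaurentSeries L)).comp A.subtype :=
  RingHom.ext fun a => by
    rw [RingHom.comp_apply, RingHom.comp_apply, inc_C, Fermat.Agent.S18.helper8991.C_eq_algebraMap]
    rfl

theorem red_comp_C :
    (red A π).comp (HahnSeries.C : A →+* LaurentSeries A)
      = (algebraMap k (LaurentSeries k)).comp π :=
  RingHom.ext fun a => by
    rw [RingHom.comp_apply, RingHom.comp_apply, red_C, Fermat.Agent.S18.helper8991.C_eq_algebraMap]

/-- The integral lift of a polynomial value at an integer series. -/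
theorem inc_eval₂_intSeries (z : LaurentSeries ℤ) (P : A[X]) :
    inc A (P.eval₂ HahnSeries.C (coeffMap (Int.castRingHom A) z))
      = aeval (coeffMap (Int.castRingHom L) z) (P.map A.subtype) := by
  rw [Polynomial.hom_eval₂, inc_intSeries, inc_comp_C, Polynomial.aeval_def,
    Polynomial.eval₂_map]

/-- ... and its reduction. -/
theorem red_eval₂_intSeries (z : LaurentSeries ℤ) (P : A[X]) :
    red A π (P.eval₂ HahnSeries.C (coeffMap (Int.castRingHom A) z))
      = aeval (coeffMap (Int.castRingHom k) z) (P.map π) := by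
  rw [Polynomial.hom_eval₂, red_intSeries, red_comp_C, Polynomial.aeval_def,
    Polynomial.eval₂_map]

variable [Algebra ℚ L] (N : ℕ)
  {t : ↥(laurentBaseChange L (modularFunctionFieldFull N))} {tZ : LaurentSeries ℤ}

theorem coe_aeval_eq (ht : (t : LaurentSeries L) = coeffMap (Int.castRingHom L) tZ) (P : A[X]) :
    ((aeval t (P.map A.subtype) : ↥(laurentBaseChange L (modularFunctionFieldFull N))) :
      LaurentSeries L) = inc A (P.eval₂ HahnSeries.C (coeffMap (Int.castRingHom A) tZ)) := by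
  rw [← IntermediateField.aeval_coe, ht, inc_eval₂_intSeries]

/-- A polynomial with coefficients in `A` in a function with integer expansion lies in `V₁`. -/
theorem aeval_mem_gaussF (ht : (t : LaurentSeries L) = coeffMap (Int.castRingHom L) tZ)
    (P : A[X]) : aeval t (P.map A.subtype) ∈ gaussF A π N := by
  rw [mem_gaussF_iff]
  refine ⟨P.eval₂ HahnSeries.C (coeffMap (Int.castRingHom A) tZ), 1, ?_, ?_⟩
  · rw [map_one]
    exact one_ne_zero
  · rw [map_one, mul_one, coe_aeval_eq A N ht]

/-- ... and its reduction is the reduced polynomial in the reduced series. -/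
theorem gaussFRed_aeval (ht : (t : LaurentSeries L) = coeffMap (Int.castRingHom L) tZ)
    (P : A[X]) (h : aeval t (P.map A.subtype) ∈ gaussF A π N) :
    gaussFRed A π N ⟨aeval t (P.map A.subtype), h⟩
      = aeval (coeffMap (Int.castRingHom k) tZ) (P.map π) := by
  have hY : red A π (1 : LaurentSeries A) ≠ 0 := by
    rw [map_one]
    exact one_ne_zero
  rw [gaussFRed_eq A π N ⟨_, h⟩ (X := P.eval₂ HahnSeries.C (coeffMap (Int.castRingHom A) tZ))
    (Y := 1) hY (by rw [map_one, mul_one]; exact coe_aeval_eq A N ht P), map_one, div_one,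
    red_eval₂_intSeries]

/-- **(G)** A function whose expansion is an integer Laurent series with transcendental reduction
is a Gauss element of `(L, A) ⊂ (F, gaussF A π N)`. -/
theorem gaussElt_of_coe_eq (hπ : ∀ a : A, π a = 0 → a ∈ IsLocalRing.maximalIdeal A)
    (ht : (t : LaurentSeries L) = coeffMap (Int.castRingHom L) tZ)
    (htr : Transcendental k (coeffMap (Int.castRingHom k) tZ)) :
    helper1024.GaussElt A (gaussF A π N) t := by
  refine ⟨mem_gaussF_of_coe_eq A π N ht, fun p hp hnon i => ?_⟩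
  obtain ⟨P, rfl⟩ := exists_map_subtype_eq A hp
  have hmem := aeval_mem_gaussF A π N ht P
  have hred : gaussFRed A π N ⟨_, hmem⟩ = 0 := by
    rw [gaussFRed_eq_zero_iff, ValuationSubring.valuation_lt_one_iff]
    exact hnon
  rw [gaussFRed_aeval A π N ht P hmem] at hred
  have hP0 : P.map π = 0 := by
    by_contra hne
    exact htr ⟨P.map π, hne, hred⟩
  have hi : π (P.coeff i) = 0 := by
    rw [← Polynomial.coeff_map, hP0, Polynomial.coeff_zero]
  rw [Polynomial.coeff_map, ValuationSubring.mem_nonunits_iff_exists_mem_maximalIdeal]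
  exact ⟨(P.coeff i).2, hπ _ hi⟩

end GaussElt

/-! ## The second valuation `V₂ = V₁.comap W` -/

section Comap

/-- Nonunits of a pulled-back valuation subring. -/
theorem mem_nonunits_comap_iff {F : Type*} [Field F] (V : ValuationSubring F) (W : F →+* F)
    (x : F) : x ∈ (V.comap W).nonunits ↔ W x ∈ V.nonunits := by
  rw [ValuationSubring.mem_nonunits_iff_or, ValuationSubring.mem_nonunits_iff_or,
    ValuationSubring.mem_comap, map_inv₀, map_eq_zero]

/-- A ring endomorphism fixing the constants commutes with polynomial evaluation. -/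
theorem map_aeval_of_fix {L F : Type*} [Field L] [Field F] [Algebra L F] (W : F →+* F)
    (hWL : ∀ c : L, W (algebraMap L F c) = algebraMap L F c) (x : F) (p : L[X]) :
    W (aeval x p) = aeval (W x) p := by
  rw [Polynomial.aeval_def, Polynomial.hom_eval₂, Polynomial.aeval_def]
  congr 1
  exact RingHom.ext hWL

/-- An element with inverse in a valuation subring has valuation `1`. -/
theorem valuation_eq_one_of_mem_of_inv_mem {F : Type*} [Field F] (V : ValuationSubring F)
    {x : F} (hx0 : x ≠ 0) (h1 : x ∈ V) (h2 : x⁻¹ ∈ V) : V.valuation x = 1 := by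
  have ha : V.valuation x ≤ 1 := (V.valuation_le_one_iff x).mpr h1
  have hb : V.valuation x⁻¹ ≤ 1 := (V.valuation_le_one_iff _).mpr h2
  have hab : V.valuation x * V.valuation x⁻¹ = 1 := by
    rw [← map_mul, mul_inv_cancel₀ hx0, map_one]
  refine le_antisymm ha ?_
  calc (1 : V.ValueGroup) = V.valuation x * V.valuation x⁻¹ := hab.symm
    _ ≤ V.valuation x * 1 := mul_le_mul' le_rfl hb
    _ = V.valuation x := mul_one _

variable {L : Type*} [Field L] [Algebra ℚ L] (A : ValuationSubring L) {k : Type*} [Field k]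
  (π : A →+* k) (N : ℕ)
  {t : ↥(laurentBaseChange L (modularFunctionFieldFull N))}
  (W : ↥(laurentBaseChange L (modularFunctionFieldFull N)) →+*
    ↥(laurentBaseChange L (modularFunctionFieldFull N)))

/-- **(G) for `V₂`**: if `W` fixes the constants and `W t` has an integer expansion with
transcendental reduction, then `t` is a Gauss element of `(L, A) ⊂ (F, V₁.comap W)`. -/
theorem gaussElt_comap_of_coe_eq (hπ : ∀ a : A, π a = 0 → a ∈ IsLocalRing.maximalIdeal A)
    (hWL : ∀ c : L, W (algebraMap L _ c) = algebraMap L _ c) {wZ : LaurentSeries ℤ}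
    (hW : ((W t : ↥(laurentBaseChange L (modularFunctionFieldFull N))) : LaurentSeries L)
      = coeffMap (Int.castRingHom L) wZ)
    (htr : Transcendental k (coeffMap (Int.castRingHom k) wZ)) :
    helper1024.GaussElt A ((gaussF A π N).comap W) t := by
  have h := gaussElt_of_coe_eq A π N hπ hW htr
  refine ⟨ValuationSubring.mem_comap.mpr h.1, fun p hp hnon i => h.2 p hp ?_ i⟩
  rw [← map_aeval_of_fix W hWL]
  exact (mem_nonunits_comap_iff _ W _).mp hnon

/-- `V₁ ∩ L = A`. -/
theorem comap_algebraMap_gaussF (hπ0 : ∀ a : A, a ∈ IsLocalRing.maximalIdeal A → π a = 0) :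
    (gaussF A π N).comap (algebraMap L ↥(laurentBaseChange L (modularFunctionFieldFull N))) = A := by
  ext c
  rw [ValuationSubring.mem_comap]
  exact algebraMap_mem_gaussF_iff A π N hπ0 c

/-- `V₂ ∩ L = A`. -/
theorem comap_comap_algebraMap_gaussF
    (hπ0 : ∀ a : A, a ∈ IsLocalRing.maximalIdeal A → π a = 0)
    (hWL : ∀ c : L, W (algebraMap L _ c) = algebraMap L _ c) :
    ((gaussF A π N).comap W).comap
      (algebraMap L ↥(laurentBaseChange L (modularFunctionFieldFull N))) = A := by
  ext c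
  rw [ValuationSubring.mem_comap, ValuationSubring.mem_comap, hWL]
  exact algebraMap_mem_gaussF_iff A π N hπ0 c

end Comap

/-! ## Transcendence of the reductions -/

section Transc

variable {k : Type*} [Field k]

theorem transcendental_of_mul_eq_one {x y : LaurentSeries k} (h : x * y = 1)
    (hx : Transcendental k x) : Transcendental k y := by
  have hy : y = x⁻¹ := eq_inv_of_mul_eq_one_right h
  rw [hy]
  exact fun halg => hx (IsAlgebraic.inv_iff.mp halg)

/-- The reduction of the inverse series is transcendental. -/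
theorem transcendental_coeffMap_inv {tZ sZ : LaurentSeries ℤ} (hts : tZ * sZ = 1)
    (htr : Transcendental k (coeffMap (Int.castRingHom k) tZ)) :
    Transcendental k (coeffMap (Int.castRingHom k) sZ) :=
  transcendental_of_mul_eq_one (by rw [← map_mul, hts, map_one]) htr

/-- The reduction of `t(T^q)` is `t̄^q`, transcendental. -/
theorem transcendental_coeffMap_qExpand (q : ℕ) [Fact q.Prime] [CharP k q]
    {tZ : LaurentSeries ℤ} (htr : Transcendental k (coeffMap (Int.castRingHom k) tZ)) :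
    Transcendental k (coeffMap (Int.castRingHom k) (qExpand ℤ q tZ)) := by
  rw [coeffMap_qExpand, qExpand_intSeries]
  exact htr.pow (Fact.out : q.Prime).pos

/-- An integer series whose reduction has a pole has transcendental reduction. -/
theorem transcendental_coeffMap_of_order_neg {tZ : LaurentSeries ℤ}
    (h : (coeffMap (Int.castRingHom k) tZ).order < 0) :
    Transcendental k (coeffMap (Int.castRingHom k) tZ) :=
  Fermat.Agent.S24.helper60.transcendental_of_order_neg _ h

end Transc

/-! ## Both charts, both valuations: the standing hypotheses of `helper4640_CuspUnit` -/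

section Charts

variable {L : Type*} [Field L] [Algebra ℚ L] (A : ValuationSubring L) {k : Type*} [Field k]
  (π : A →+* k) (N : ℕ) (q : ℕ) [Fact q.Prime]
  {t tq : ↥(laurentBaseChange L (modularFunctionFieldFull N))} {tZ sZ : LaurentSeries ℤ}
  (W : ↥(laurentBaseChange L (modularFunctionFieldFull N)) →+*
    ↥(laurentBaseChange L (modularFunctionFieldFull N)))

omit [Fact q.Prime] in
theorem base_ne_zero (hts : tZ * sZ = 1)
    (ht : (t : LaurentSeries L) = coeffMap (Int.castRingHom L) tZ) : t ≠ 0 := by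
  rintro rfl
  have h1 : coeffMap (Int.castRingHom L) tZ * coeffMap (Int.castRingHom L) sZ = 1 := by
    rw [← map_mul, hts, map_one]
  rw [← ht] at h1
  simp at h1

omit [Fact q.Prime] in
/-- **Chart `t`, valuation `V₁`.** -/
theorem gaussElt_base (hπ : ∀ a : A, π a = 0 → a ∈ IsLocalRing.maximalIdeal A)
    (ht : (t : LaurentSeries L) = coeffMap (Int.castRingHom L) tZ)
    (htr : Transcendental k (coeffMap (Int.castRingHom k) tZ)) :
    helper1024.GaussElt A (gaussF A π N) t :=
  gaussElt_of_coe_eq A π N hπ ht htr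

omit [Fact q.Prime] in
/-- **Chart `t⁻¹`, valuation `V₁`.** -/
theorem gaussElt_base_inv (hπ : ∀ a : A, π a = 0 → a ∈ IsLocalRing.maximalIdeal A)
    (hts : tZ * sZ = 1) (ht : (t : LaurentSeries L) = coeffMap (Int.castRingHom L) tZ)
    (htr : Transcendental k (coeffMap (Int.castRingHom k) tZ)) :
    helper1024.GaussElt A (gaussF A π N) t⁻¹ :=
  gaussElt_of_coe_eq A π N hπ (coe_inv_eq N hts ht) (transcendental_coeffMap_inv hts htr)

omit [Fact q.Prime] in
/-- `v₁(t) = 1`. -/
theorem valuation_base_eq_one (hts : tZ * sZ = 1)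
    (ht : (t : LaurentSeries L) = coeffMap (Int.castRingHom L) tZ) :
    (gaussF A π N).valuation t = 1 :=
  valuation_eq_one_of_mem_of_inv_mem _ (base_ne_zero N hts ht) (base_mem A π N ht)
    (base_inv_mem A π N hts ht)

/-- `v₁(tq) = 1`. -/
theorem valuation_twist_eq_one (hts : tZ * sZ = 1)
    (ht : (t : LaurentSeries L) = coeffMap (Int.castRingHom L) tZ)
    (htq : (tq : LaurentSeries L) = qExpand L q (t : LaurentSeries L)) :
    (gaussF A π N).valuation tq = 1 :=
  valuation_eq_one_of_mem_of_inv_mem _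
    (base_ne_zero N (qExpand_mul_eq_one q hts) (coe_twist_eq N q ht htq))
    (twist_mem A π N q ht htq) (twist_inv_mem A π N q hts ht htq)

/-- `v₂(t) = 1` for `V₂ = V₁.comap W`, `W t = tq`. -/
theorem valuation_comap_base_eq_one (hts : tZ * sZ = 1)
    (ht : (t : LaurentSeries L) = coeffMap (Int.castRingHom L) tZ)
    (htq : (tq : LaurentSeries L) = qExpand L q (t : LaurentSeries L)) (hW1 : W t = tq) :
    ((gaussF A π N).comap W).valuation t = 1 :=
  valuation_eq_one_of_mem_of_inv_mem _ (base_ne_zero N hts ht)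
    (base_mem_comap A π N q W ht htq hW1) (base_inv_mem_comap A π N q W hts ht htq hW1)

variable [CharP k q]

/-- **Chart `tq`, valuation `V₁`** (the reduction is `t̄^q`). -/
theorem gaussElt_twist (hπ : ∀ a : A, π a = 0 → a ∈ IsLocalRing.maximalIdeal A)
    (ht : (t : LaurentSeries L) = coeffMap (Int.castRingHom L) tZ)
    (htq : (tq : LaurentSeries L) = qExpand L q (t : LaurentSeries L))
    (htr : Transcendental k (coeffMap (Int.castRingHom k) tZ)) :
    helper1024.GaussElt A (gaussF A π N) tq :=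
  gaussElt_of_coe_eq A π N hπ (coe_twist_eq N q ht htq) (transcendental_coeffMap_qExpand q htr)

/-- **Chart `t`, valuation `V₂ = V₁.comap W`** (`W` fixes the constants, `W t = tq`). -/
theorem gaussElt_base_comap (hπ : ∀ a : A, π a = 0 → a ∈ IsLocalRing.maximalIdeal A)
    (hWL : ∀ c : L, W (algebraMap L _ c) = algebraMap L _ c)
    (ht : (t : LaurentSeries L) = coeffMap (Int.castRingHom L) tZ)
    (htq : (tq : LaurentSeries L) = qExpand L q (t : LaurentSeries L)) (hW1 : W t = tq)
    (htr : Transcendental k (coeffMap (Int.castRingHom k) tZ)) :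
    helper1024.GaussElt A ((gaussF A π N).comap W) t :=
  gaussElt_comap_of_coe_eq A π N W hπ hWL (hW1 ▸ coe_twist_eq N q ht htq)
    (transcendental_coeffMap_qExpand q htr)

/-- **Chart `t⁻¹`, valuation `V₂ = V₁.comap W`.** -/
theorem gaussElt_base_inv_comap (hπ : ∀ a : A, π a = 0 → a ∈ IsLocalRing.maximalIdeal A)
    (hWL : ∀ c : L, W (algebraMap L _ c) = algebraMap L _ c) (hts : tZ * sZ = 1)
    (ht : (t : LaurentSeries L) = coeffMap (Int.castRingHom L) tZ)
    (htq : (tq : LaurentSeries L) = qExpand L q (t : LaurentSeries L)) (hW1 : W t = tq)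
    (htr : Transcendental k (coeffMap (Int.castRingHom k) tZ)) :
    helper1024.GaussElt A ((gaussF A π N).comap W) t⁻¹ := by
  have hW : ((W t⁻¹ : ↥(laurentBaseChange L (modularFunctionFieldFull N))) : LaurentSeries L)
      = coeffMap (Int.castRingHom L) (qExpand ℤ q sZ) := by
    rw [map_inv₀, hW1]
    exact coe_inv_eq N (qExpand_mul_eq_one q hts) (coe_twist_eq N q ht htq)
  exact gaussElt_comap_of_coe_eq A π N W hπ hWL hW
    (transcendental_coeffMap_qExpand q (transcendental_coeffMap_inv hts htr))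

end Charts

/-! ## (S) Galois: functions with integer expansions are fixed by the arithmetic action -/

section Galois

variable {L : Type*} [Field L] [Algebra ℚ L] (N : ℕ)
  {t : ↥(laurentBaseChange L (modularFunctionFieldFull N))} {tZ : LaurentSeries ℤ}

/-- A function with integer expansion is fixed by the arithmetic Galois action. -/
theorem arithmeticGalois_smul_of_coe_eq
    (ht : (t : LaurentSeries L) = coeffMap (Int.castRingHom L) tZ) (σ : L ≃ₐ[ℚ] L) :
    arithmeticGalois (modularFunctionFieldFull N) σ • t = t := by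
  refine Subtype.ext ?_
  rw [coe_arithmeticGalois_smul, ht, coeffMap_coeffMap,
    RingHom.ext_int ((σ : L →+* L).comp (Int.castRingHom L)) (Int.castRingHom L)]

/-- ... hence its order is the same at a place and at its Galois conjugates: the pole divisor and
the zero divisor of `t` are Galois stable. -/
theorem ord_smul_of_coe_eq (ht : (t : LaurentSeries L) = coeffMap (Int.castRingHom L) tZ)
    (σ : L ≃ₐ[ℚ] L)
    (v : AlgebraicCurve.Place L ↥(laurentBaseChange L (modularFunctionFieldFull N))) :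
    (arithmeticGalois (modularFunctionFieldFull N) σ • v).ord t = v.ord t := by
  have h := AlgebraicCurve.SemilinearAut.ord_smul
    (arithmeticGalois (modularFunctionFieldFull N) σ) v t
  rwa [arithmeticGalois_smul_of_coe_eq N ht σ] at h

end Galois

/-! ## (W) The Atkin–Lehner involution produces the hypothesis `htq` -/

section AtkinLehner

open Fermat.Agent.S24.helper24 Fermat.Agent.S35.helper1219

variable (q M : ℕ) [NeZero q] [NeZero M] (h : Nat.Coprime q M)

/-- **(W)** If `t` (level `q * M`) has the expansion of a function `x` of level `M`, then the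
expansion of `W_q t` is `t(T^q)`. -/
theorem coe_atkinLehnerBar_of_coe_eq {t : FN (q * M)} {x : FN M}
    (htx : (t : LaurentSeries Kbar) = (x : LaurentSeries Kbar)) :
    ((atkinLehnerBar q M h t : FN (q * M)) : LaurentSeries Kbar)
      = qExpand Kbar q (t : LaurentSeries Kbar) := by
  have h1 : t = castFN (mul_comm M q) (heckeAlphaBar Kbar M q x) :=
    Subtype.ext (by rw [coe_castFN, coe_heckeAlphaBar, htx])
  have h2 := atkinLehnerBarR_heckeAlphaBar M q h x
  rw [atkinLehnerBarR_apply, ← h1] at h2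
  have h3 := congrArg (fun z : FN (M * q) => (z : LaurentSeries Kbar)) h2
  simp only [coe_castFN, coe_heckeBetaBar] at h3
  rw [h3, htx]

/-- The twin at level `M * q` (`helper1219.atkinLehnerBarR`). -/
theorem coe_atkinLehnerBarR_of_coe_eq {t : FN (M * q)} {x : FN M}
    (htx : (t : LaurentSeries Kbar) = (x : LaurentSeries Kbar)) :
    ((atkinLehnerBarR M q h t : FN (M * q)) : LaurentSeries Kbar)
      = qExpand Kbar q (t : LaurentSeries Kbar) := by
  have h1 : t = heckeAlphaBar Kbar M q x := Subtype.ext (by rw [coe_heckeAlphaBar, htx])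
  rw [h1, atkinLehnerBarR_heckeAlphaBar, coe_heckeBetaBar, coe_heckeAlphaBar]

/-- `W_q` fixes the constants (ring-hom form, the shape of `helper882.gpRingW`). -/
theorem atkinLehnerBar_algebraMap (c : Kbar) :
    ((atkinLehnerBar q M h : FN (q * M) ≃+* FN (q * M)) : FN (q * M) →+* FN (q * M))
      (algebraMap Kbar (FN (q * M)) c) = algebraMap Kbar (FN (q * M)) c :=
  (atkinLehnerBar q M h).commutes c

end AtkinLehner

/-! ## The instance: level `q * M`, `W = W_q = helper1219.atkinLehnerBar q M hc`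

`t : FN (q * M)` has the expansion of a function `x` of level `M`, an integer unit series `tZ`
with transcendental reduction; `V₁ = gaussF A π (q * M)`, `V₂ = V₁.comap W_q` (the shape of
`helper882.gpRing`, `helper882.gpRingW`), residue characteristic `q`. -/

section Instance

open Fermat.Agent.S24.helper24 Fermat.Agent.S35.helper1219

variable (q M : ℕ) [Fact q.Prime] [NeZero M] (hc : Nat.Coprime q M)
  (A : ValuationSubring Kbar) {k : Type*} [Field k] (π : A →+* k)
  {t : FN (q * M)} {x : FN M} {tZ sZ : LaurentSeries ℤ}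

omit [Fact q.Prime] in
/-- `V₂ ∩ ℚ̄ = A`. -/
theorem comap_algebraMap_gaussF_al [NeZero q]
    (hπ0 : ∀ a : A, a ∈ IsLocalRing.maximalIdeal A → π a = 0) :
    ((gaussF A π (q * M)).comap
      ((atkinLehnerBar q M hc : FN (q * M) ≃+* FN (q * M)) : FN (q * M) →+* FN (q * M))).comap
      (algebraMap Kbar (FN (q * M))) = A :=
  comap_comap_algebraMap_gaussF A π (q * M) _ hπ0 (atkinLehnerBar_algebraMap q M hc)

/-- `v₂(t) = 1`. -/
theorem valuation_al_eq_one (hts : tZ * sZ = 1)
    (ht : (t : LaurentSeries Kbar) = coeffMap (Int.castRingHom Kbar) tZ)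
    (htx : (t : LaurentSeries Kbar) = (x : LaurentSeries Kbar)) :
    ((gaussF A π (q * M)).comap
      ((atkinLehnerBar q M hc : FN (q * M) ≃+* FN (q * M)) : FN (q * M) →+* FN (q * M))).valuation
      t = 1 :=
  valuation_comap_base_eq_one A π (q * M) q _ hts ht
    (coe_atkinLehnerBar_of_coe_eq q M hc htx) rfl

variable [CharP k q]

/-- **Chart `t`, valuation `V₂`.** -/
theorem gaussElt_al (hπ : ∀ a : A, π a = 0 → a ∈ IsLocalRing.maximalIdeal A)
    (ht : (t : LaurentSeries Kbar) = coeffMap (Int.castRingHom Kbar) tZ)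
    (htx : (t : LaurentSeries Kbar) = (x : LaurentSeries Kbar))
    (htr : Transcendental k (coeffMap (Int.castRingHom k) tZ)) :
    helper1024.GaussElt A ((gaussF A π (q * M)).comap
      ((atkinLehnerBar q M hc : FN (q * M) ≃+* FN (q * M)) : FN (q * M) →+* FN (q * M))) t :=
  gaussElt_base_comap A π (q * M) q _ hπ (atkinLehnerBar_algebraMap q M hc) ht
    (coe_atkinLehnerBar_of_coe_eq q M hc htx) rfl htr

/-- **Chart `t⁻¹`, valuation `V₂`.** -/
theorem gaussElt_al_inv (hπ : ∀ a : A, π a = 0 → a ∈ IsLocalRing.maximalIdeal A)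
    (hts : tZ * sZ = 1) (ht : (t : LaurentSeries Kbar) = coeffMap (Int.castRingHom Kbar) tZ)
    (htx : (t : LaurentSeries Kbar) = (x : LaurentSeries Kbar))
    (htr : Transcendental k (coeffMap (Int.castRingHom k) tZ)) :
    helper1024.GaussElt A ((gaussF A π (q * M)).comap
      ((atkinLehnerBar q M hc : FN (q * M) ≃+* FN (q * M)) : FN (q * M) →+* FN (q * M))) t⁻¹ :=
  gaussElt_base_inv_comap A π (q * M) q _ hπ (atkinLehnerBar_algebraMap q M hc) hts ht
    (coe_atkinLehnerBar_of_coe_eq q M hc htx) rfl htr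

/-- **The reductions of the chart coordinate**: `red t = (t̄, t̄^q)`, `red t⁻¹ = (s̄, s̄^q)`. -/
theorem gaussFRed_al_base (hts : tZ * sZ = 1)
    (ht : (t : LaurentSeries Kbar) = coeffMap (Int.castRingHom Kbar) tZ)
    (htx : (t : LaurentSeries Kbar) = (x : LaurentSeries Kbar)) :
    ∃ (h1 : t ∈ gaussF A π (q * M)) (h2 : atkinLehnerBar q M hc t ∈ gaussF A π (q * M))
      (h3 : t⁻¹ ∈ gaussF A π (q * M)) (h4 : atkinLehnerBar q M hc t⁻¹ ∈ gaussF A π (q * M)),
      gaussFRed A π (q * M) ⟨_, h1⟩ = coeffMap (Int.castRingHom k) tZ ∧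
      gaussFRed A π (q * M) ⟨_, h2⟩ = coeffMap (Int.castRingHom k) tZ ^ q ∧
      gaussFRed A π (q * M) ⟨_, h3⟩ = coeffMap (Int.castRingHom k) sZ ∧
      gaussFRed A π (q * M) ⟨_, h4⟩ = coeffMap (Int.castRingHom k) sZ ^ q := by
  have htq := coe_atkinLehnerBar_of_coe_eq q M hc htx
  have h4 : atkinLehnerBar q M hc t⁻¹ ∈ gaussF A π (q * M) := by
    rw [map_inv₀]
    exact twist_inv_mem A π (q * M) q hts ht htq
  refine ⟨base_mem A π (q * M) ht, twist_mem A π (q * M) q ht htq,
    base_inv_mem A π (q * M) hts ht, h4, gaussFRed_base A π (q * M) ht _,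
    gaussFRed_twist A π (q * M) q ht htq _, gaussFRed_base_inv A π (q * M) hts ht _, ?_⟩
  exact gaussFRed_map_base_inv A π (q * M) q
    ((atkinLehnerBar q M hc : FN (q * M) ≃+* FN (q * M)) : FN (q * M) →+* FN (q * M))
    hts ht htq rfl h4

/-- **The cuspidal unit `g = t^q / W_q t` in both valuations**: `red g = (1, t̄^(q²-1))`,
`red g⁻¹ = (1, s̄^(q²-1))`. -/
theorem cuspUnit_package_al (hts : tZ * sZ = 1)
    (ht : (t : LaurentSeries Kbar) = coeffMap (Int.castRingHom Kbar) tZ)
    (htx : (t : LaurentSeries Kbar) = (x : LaurentSeries Kbar)) :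
    ∃ (h1 : t ^ q / atkinLehnerBar q M hc t ∈ gaussF A π (q * M))
      (h2 : atkinLehnerBar q M hc (t ^ q / atkinLehnerBar q M hc t) ∈ gaussF A π (q * M))
      (h3 : atkinLehnerBar q M hc t / t ^ q ∈ gaussF A π (q * M))
      (h4 : atkinLehnerBar q M hc (atkinLehnerBar q M hc t / t ^ q) ∈ gaussF A π (q * M)),
      gaussFRed A π (q * M) ⟨_, h1⟩ = 1 ∧
      gaussFRed A π (q * M) ⟨_, h2⟩ = coeffMap (Int.castRingHom k) tZ ^ (q ^ 2 - 1) ∧
      gaussFRed A π (q * M) ⟨_, h3⟩ = 1 ∧
      gaussFRed A π (q * M) ⟨_, h4⟩ = coeffMap (Int.castRingHom k) sZ ^ (q ^ 2 - 1) := by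
  have htq := coe_atkinLehnerBar_of_coe_eq q M hc htx
  have hW2 : ((atkinLehnerBar q M hc : FN (q * M) ≃+* FN (q * M)) : FN (q * M) →+* FN (q * M))
      (atkinLehnerBar q M hc t) = t := atkinLehnerBar_atkinLehnerBar q M hc t
  have h2 := cuspUnit_mem_comap A π (q * M) q
    ((atkinLehnerBar q M hc : FN (q * M) ≃+* FN (q * M)) : FN (q * M) →+* FN (q * M))
    hts ht htq rfl hW2
  have h4 := cuspUnit_inv_mem_comap A π (q * M) q
    ((atkinLehnerBar q M hc : FN (q * M) ≃+* FN (q * M)) : FN (q * M) →+* FN (q * M))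
    hts ht htq rfl hW2
  exact ⟨cuspUnit_mem A π (q * M) q hts ht htq, h2, cuspUnit_inv_mem A π (q * M) q hts ht htq, h4,
    gaussFRed_cuspUnit A π (q * M) q hts ht htq _,
    gaussFRed_map_cuspUnit A π (q * M) q _ hts ht htq rfl hW2 h2,
    gaussFRed_cuspUnit_inv A π (q * M) q hts ht htq _,
    gaussFRed_map_cuspUnit_inv A π (q * M) q _ hts ht htq rfl hW2 h4⟩

end Instance

/-! ## (H) The Hauptmoduln `t₂`, `t₃` (`helper6381.t2L`, `helper6381.t3L`): everything discharged -/

section Haupt

open Fermat.Agent.S24.helper24 Fermat.Agent.S35.helper1219 Fermat.Agent.S18.helper1257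
  Fermat.Agent.S18.helper6381 IntermediateField

/-- The reduction of `t₂` is transcendental over EVERY field (simple pole at the cusp). -/
theorem transcendental_t2K (k : Type*) [Field k] :
    Transcendental k (coeffMap (Int.castRingHom k) t2Z) :=
  transcendental_coeffMap_of_order_neg (by
    have h : (coeffMap (Int.castRingHom k) t2Z).order = -1 := t2K_order k
    rw [h]
    norm_num)

/-- The reduction of `t₃` is transcendental over EVERY field. -/
theorem transcendental_t3K (k : Type*) [Field k] :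
    Transcendental k (coeffMap (Int.castRingHom k) t3Z) :=
  transcendental_coeffMap_of_order_neg (by
    have h : (coeffMap (Int.castRingHom k) t3Z).order = -1 := t3K_order k
    rw [h]
    norm_num)

section AnyLevel

variable (L : Type) [Field L] [Algebra ℚ L] (N : ℕ) [NeZero N]
  (A : ValuationSubring L) {k : Type*} [Field k] (π : A →+* k)

theorem coe_t2L_eq (h2N : 2 ∣ N) :
    ((t2L L N h2N : ↥(laurentBaseChange L (modularFunctionFieldFull N))) : LaurentSeries L)
      = coeffMap (Int.castRingHom L) t2Z := rfl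

theorem coe_t3L_eq (h3N : 3 ∣ N) :
    ((t3L L N h3N : ↥(laurentBaseChange L (modularFunctionFieldFull N))) : LaurentSeries L)
      = coeffMap (Int.castRingHom L) t3Z := rfl

/-- `t₂` is a Gauss element of `V₁` (any level divisible by `2`, any residue characteristic). -/
theorem gaussElt_t2L (hπ : ∀ a : A, π a = 0 → a ∈ IsLocalRing.maximalIdeal A) (h2N : 2 ∣ N) :
    helper1024.GaussElt A (gaussF A π N) (t2L L N h2N) :=
  gaussElt_of_coe_eq A π N hπ (coe_t2L_eq L N h2N) (transcendental_t2K k)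

theorem gaussElt_t2L_inv (hπ : ∀ a : A, π a = 0 → a ∈ IsLocalRing.maximalIdeal A)
    (h2N : 2 ∣ N) : helper1024.GaussElt A (gaussF A π N) (t2L L N h2N)⁻¹ :=
  gaussElt_base_inv A π N hπ t2Z_mul_hauptInv2Z (coe_t2L_eq L N h2N) (transcendental_t2K k)

theorem gaussElt_t3L (hπ : ∀ a : A, π a = 0 → a ∈ IsLocalRing.maximalIdeal A) (h3N : 3 ∣ N) :
    helper1024.GaussElt A (gaussF A π N) (t3L L N h3N) :=
  gaussElt_of_coe_eq A π N hπ (coe_t3L_eq L N h3N) (transcendental_t3K k)

theorem gaussElt_t3L_inv (hπ : ∀ a : A, π a = 0 → a ∈ IsLocalRing.maximalIdeal A)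
    (h3N : 3 ∣ N) : helper1024.GaussElt A (gaussF A π N) (t3L L N h3N)⁻¹ :=
  gaussElt_base_inv A π N hπ t3Z_mul_hauptInv3Z (coe_t3L_eq L N h3N) (transcendental_t3K k)

theorem valuation_t2L_eq_one (h2N : 2 ∣ N) : (gaussF A π N).valuation (t2L L N h2N) = 1 :=
  valuation_base_eq_one A π N t2Z_mul_hauptInv2Z (coe_t2L_eq L N h2N)

theorem valuation_t3L_eq_one (h3N : 3 ∣ N) : (gaussF A π N).valuation (t3L L N h3N) = 1 :=
  valuation_base_eq_one A π N t3Z_mul_hauptInv3Z (coe_t3L_eq L N h3N)

/-- `t₂` is fixed by the arithmetic Galois action. -/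
theorem arithmeticGalois_smul_t2L (h2N : 2 ∣ N) (σ : L ≃ₐ[ℚ] L) :
    arithmeticGalois (modularFunctionFieldFull N) σ • t2L L N h2N = t2L L N h2N :=
  arithmeticGalois_smul_of_coe_eq N (coe_t2L_eq L N h2N) σ

theorem arithmeticGalois_smul_t3L (h3N : 3 ∣ N) (σ : L ≃ₐ[ℚ] L) :
    arithmeticGalois (modularFunctionFieldFull N) σ • t3L L N h3N = t3L L N h3N :=
  arithmeticGalois_smul_of_coe_eq N (coe_t3L_eq L N h3N) σ

/-- The poles and zeros of `t₂` are Galois stable. -/
theorem ord_smul_t2L (h2N : 2 ∣ N) (σ : L ≃ₐ[ℚ] L)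
    (v : AlgebraicCurve.Place L ↥(laurentBaseChange L (modularFunctionFieldFull N))) :
    (arithmeticGalois (modularFunctionFieldFull N) σ • v).ord (t2L L N h2N)
      = v.ord (t2L L N h2N) :=
  ord_smul_of_coe_eq N (coe_t2L_eq L N h2N) σ v

theorem ord_smul_t3L (h3N : 3 ∣ N) (σ : L ≃ₐ[ℚ] L)
    (v : AlgebraicCurve.Place L ↥(laurentBaseChange L (modularFunctionFieldFull N))) :
    (arithmeticGalois (modularFunctionFieldFull N) σ • v).ord (t3L L N h3N)
      = v.ord (t3L L N h3N) :=
  ord_smul_of_coe_eq N (coe_t3L_eq L N h3N) σ v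

end AnyLevel

section Jbar

variable (N : ℕ) [NeZero N]

omit [NeZero N] in
theorem coe_jBar_eq_jqModC : ((jBar N : FN N) : LaurentSeries Kbar) = jqModC Kbar := by
  have h := Fermat.Agent.S18.helper6381.coeffEmb_qExpand_jq Kbar 1
  rw [qExpand_one_apply, qExpand_one_apply] at h
  rw [coe_jBar, h]

/-- **(J)** `j ∈ ℚ̄(t₂)` at every level divisible by `2`. -/
theorem jBar_mem_adjoin_t2L (h2N : 2 ∣ N) : jBar N ∈ Kbar⟮t2L Kbar N h2N⟯ :=
  mem_adjoin_t2L_of_coe_eq_jq Kbar N h2N (jBar N) (coe_jBar_eq_jqModC N)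

/-- **(J)** `j ∈ ℚ̄(t₃)` at every level divisible by `3`. -/
theorem jBar_mem_adjoin_t3L (h3N : 3 ∣ N) : jBar N ∈ Kbar⟮t3L Kbar N h3N⟯ :=
  mem_adjoin_t3L_of_coe_eq_jq Kbar N h3N (jBar N) (coe_jBar_eq_jqModC N)

end Jbar

section LevelQM

variable (q M : ℕ) [Fact q.Prime] [NeZero M] (hc : Nat.Coprime q M)
  (A : ValuationSubring Kbar) {k : Type*} [Field k] (π : A →+* k)

omit [Fact q.Prime] in
/-- **(W) for `t₂`**: the expansion of `W_q t₂` is `t₂(T^q)`. -/
theorem coe_atkinLehnerBar_t2L [NeZero q] (h2 : 2 ∣ M) :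
    ((atkinLehnerBar q M hc (t2L Kbar (q * M) (h2.mul_left q)) : FN (q * M)) :
      LaurentSeries Kbar) = qExpand Kbar q (t2K Kbar) :=
  coe_atkinLehnerBar_of_coe_eq q M hc (x := t2L Kbar M h2) rfl

omit [Fact q.Prime] in
/-- **(W) for `t₃`**. -/
theorem coe_atkinLehnerBar_t3L [NeZero q] (h3 : 3 ∣ M) :
    ((atkinLehnerBar q M hc (t3L Kbar (q * M) (h3.mul_left q)) : FN (q * M)) :
      LaurentSeries Kbar) = qExpand Kbar q (t3K Kbar) :=
  coe_atkinLehnerBar_of_coe_eq q M hc (x := t3L Kbar M h3) rfl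

/-- `v₂(t₂) = 1`. -/
theorem valuation_al_t2L_eq_one (h2 : 2 ∣ M) :
    ((gaussF A π (q * M)).comap
      ((atkinLehnerBar q M hc : FN (q * M) ≃+* FN (q * M)) : FN (q * M) →+* FN (q * M))).valuation
      (t2L Kbar (q * M) (h2.mul_left q)) = 1 :=
  valuation_al_eq_one q M hc A π t2Z_mul_hauptInv2Z (coe_t2L_eq Kbar (q * M) _)
    (x := t2L Kbar M h2) rfl

/-- `v₂(t₃) = 1`. -/
theorem valuation_al_t3L_eq_one (h3 : 3 ∣ M) :
    ((gaussF A π (q * M)).comap
      ((atkinLehnerBar q M hc : FN (q * M) ≃+* FN (q * M)) : FN (q * M) →+* FN (q * M))).valuation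
      (t3L Kbar (q * M) (h3.mul_left q)) = 1 :=
  valuation_al_eq_one q M hc A π t3Z_mul_hauptInv3Z (coe_t3L_eq Kbar (q * M) _)
    (x := t3L Kbar M h3) rfl

variable [CharP k q]

/-- **`t₂` is a Gauss element of `V₂ = V₁.comap W_q`** (level `q * M`, `2 ∣ M`, residue
characteristic `q`). -/
theorem gaussElt_al_t2L (hπ : ∀ a : A, π a = 0 → a ∈ IsLocalRing.maximalIdeal A) (h2 : 2 ∣ M) :
    helper1024.GaussElt A ((gaussF A π (q * M)).comap
      ((atkinLehnerBar q M hc : FN (q * M) ≃+* FN (q * M)) : FN (q * M) →+* FN (q * M)))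
      (t2L Kbar (q * M) (h2.mul_left q)) :=
  gaussElt_al q M hc A π hπ (coe_t2L_eq Kbar (q * M) _) (x := t2L Kbar M h2) rfl
    (transcendental_t2K k)

theorem gaussElt_al_t2L_inv (hπ : ∀ a : A, π a = 0 → a ∈ IsLocalRing.maximalIdeal A)
    (h2 : 2 ∣ M) :
    helper1024.GaussElt A ((gaussF A π (q * M)).comap
      ((atkinLehnerBar q M hc : FN (q * M) ≃+* FN (q * M)) : FN (q * M) →+* FN (q * M)))
      (t2L Kbar (q * M) (h2.mul_left q))⁻¹ :=
  gaussElt_al_inv q M hc A π hπ t2Z_mul_hauptInv2Z (coe_t2L_eq Kbar (q * M) _)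
    (x := t2L Kbar M h2) rfl (transcendental_t2K k)

/-- **`t₃` is a Gauss element of `V₂ = V₁.comap W_q`** (level `q * M`, `3 ∣ M`). -/
theorem gaussElt_al_t3L (hπ : ∀ a : A, π a = 0 → a ∈ IsLocalRing.maximalIdeal A) (h3 : 3 ∣ M) :
    helper1024.GaussElt A ((gaussF A π (q * M)).comap
      ((atkinLehnerBar q M hc : FN (q * M) ≃+* FN (q * M)) : FN (q * M) →+* FN (q * M)))
      (t3L Kbar (q * M) (h3.mul_left q)) :=
  gaussElt_al q M hc A π hπ (coe_t3L_eq Kbar (q * M) _) (x := t3L Kbar M h3) rfl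
    (transcendental_t3K k)

theorem gaussElt_al_t3L_inv (hπ : ∀ a : A, π a = 0 → a ∈ IsLocalRing.maximalIdeal A)
    (h3 : 3 ∣ M) :
    helper1024.GaussElt A ((gaussF A π (q * M)).comap
      ((atkinLehnerBar q M hc : FN (q * M) ≃+* FN (q * M)) : FN (q * M) →+* FN (q * M)))
      (t3L Kbar (q * M) (h3.mul_left q))⁻¹ :=
  gaussElt_al_inv q M hc A π hπ t3Z_mul_hauptInv3Z (coe_t3L_eq Kbar (q * M) _)
    (x := t3L Kbar M h3) rfl (transcendental_t3K k)

/-- **Reductions of the chart coordinate `t₂`**: `(t̄₂, t̄₂^q)` and `(1/t̄₂, 1/t̄₂^q)`. -/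
theorem gaussFRed_al_t2L (h2 : 2 ∣ M) :
    ∃ (h1 : t2L Kbar (q * M) (h2.mul_left q) ∈ gaussF A π (q * M))
      (h2' : atkinLehnerBar q M hc (t2L Kbar (q * M) (h2.mul_left q)) ∈ gaussF A π (q * M))
      (h3 : (t2L Kbar (q * M) (h2.mul_left q))⁻¹ ∈ gaussF A π (q * M))
      (h4 : atkinLehnerBar q M hc (t2L Kbar (q * M) (h2.mul_left q))⁻¹ ∈ gaussF A π (q * M)),
      gaussFRed A π (q * M) ⟨_, h1⟩ = t2K k ∧ gaussFRed A π (q * M) ⟨_, h2'⟩ = t2K k ^ q ∧
      gaussFRed A π (q * M) ⟨_, h3⟩ = coeffMap (Int.castRingHom k) hauptInv2Z ∧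
      gaussFRed A π (q * M) ⟨_, h4⟩ = coeffMap (Int.castRingHom k) hauptInv2Z ^ q :=
  gaussFRed_al_base q M hc A π t2Z_mul_hauptInv2Z (coe_t2L_eq Kbar (q * M) _)
    (x := t2L Kbar M h2) rfl

/-- **Reductions of the chart coordinate `t₃`**. -/
theorem gaussFRed_al_t3L (h3 : 3 ∣ M) :
    ∃ (h1 : t3L Kbar (q * M) (h3.mul_left q) ∈ gaussF A π (q * M))
      (h2' : atkinLehnerBar q M hc (t3L Kbar (q * M) (h3.mul_left q)) ∈ gaussF A π (q * M))
      (h3' : (t3L Kbar (q * M) (h3.mul_left q))⁻¹ ∈ gaussF A π (q * M))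
      (h4 : atkinLehnerBar q M hc (t3L Kbar (q * M) (h3.mul_left q))⁻¹ ∈ gaussF A π (q * M)),
      gaussFRed A π (q * M) ⟨_, h1⟩ = t3K k ∧ gaussFRed A π (q * M) ⟨_, h2'⟩ = t3K k ^ q ∧
      gaussFRed A π (q * M) ⟨_, h3'⟩ = coeffMap (Int.castRingHom k) hauptInv3Z ∧
      gaussFRed A π (q * M) ⟨_, h4⟩ = coeffMap (Int.castRingHom k) hauptInv3Z ^ q :=
  gaussFRed_al_base q M hc A π t3Z_mul_hauptInv3Z (coe_t3L_eq Kbar (q * M) _)
    (x := t3L Kbar M h3) rfl

/-- **The cuspidal unit of the `t₂`-chart**, `g = t₂^q / W_q t₂`: `red g = (1, t̄₂^(q²-1))`,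
`red g⁻¹ = (1, (1/t̄₂)^(q²-1))`. -/
theorem cuspUnit_package_al_t2L (h2 : 2 ∣ M) :
    ∃ (h1 : t2L Kbar (q * M) (h2.mul_left q) ^ q
          / atkinLehnerBar q M hc (t2L Kbar (q * M) (h2.mul_left q)) ∈ gaussF A π (q * M))
      (h2' : atkinLehnerBar q M hc (t2L Kbar (q * M) (h2.mul_left q) ^ q
          / atkinLehnerBar q M hc (t2L Kbar (q * M) (h2.mul_left q))) ∈ gaussF A π (q * M))
      (h3 : atkinLehnerBar q M hc (t2L Kbar (q * M) (h2.mul_left q))
          / t2L Kbar (q * M) (h2.mul_left q) ^ q ∈ gaussF A π (q * M))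
      (h4 : atkinLehnerBar q M hc (atkinLehnerBar q M hc (t2L Kbar (q * M) (h2.mul_left q))
          / t2L Kbar (q * M) (h2.mul_left q) ^ q) ∈ gaussF A π (q * M)),
      gaussFRed A π (q * M) ⟨_, h1⟩ = 1 ∧
      gaussFRed A π (q * M) ⟨_, h2'⟩ = t2K k ^ (q ^ 2 - 1) ∧
      gaussFRed A π (q * M) ⟨_, h3⟩ = 1 ∧
      gaussFRed A π (q * M) ⟨_, h4⟩ = coeffMap (Int.castRingHom k) hauptInv2Z ^ (q ^ 2 - 1) :=
  cuspUnit_package_al q M hc A π t2Z_mul_hauptInv2Z (coe_t2L_eq Kbar (q * M) _)
    (x := t2L Kbar M h2) rfl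

/-- **The cuspidal unit of the `t₃`-chart**. -/
theorem cuspUnit_package_al_t3L (h3 : 3 ∣ M) :
    ∃ (h1 : t3L Kbar (q * M) (h3.mul_left q) ^ q
          / atkinLehnerBar q M hc (t3L Kbar (q * M) (h3.mul_left q)) ∈ gaussF A π (q * M))
      (h2' : atkinLehnerBar q M hc (t3L Kbar (q * M) (h3.mul_left q) ^ q
          / atkinLehnerBar q M hc (t3L Kbar (q * M) (h3.mul_left q))) ∈ gaussF A π (q * M))
      (h3' : atkinLehnerBar q M hc (t3L Kbar (q * M) (h3.mul_left q))
          / t3L Kbar (q * M) (h3.mul_left q) ^ q ∈ gaussF A π (q * M))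
      (h4 : atkinLehnerBar q M hc (atkinLehnerBar q M hc (t3L Kbar (q * M) (h3.mul_left q))
          / t3L Kbar (q * M) (h3.mul_left q) ^ q) ∈ gaussF A π (q * M)),
      gaussFRed A π (q * M) ⟨_, h1⟩ = 1 ∧
      gaussFRed A π (q * M) ⟨_, h2'⟩ = t3K k ^ (q ^ 2 - 1) ∧
      gaussFRed A π (q * M) ⟨_, h3'⟩ = 1 ∧
      gaussFRed A π (q * M) ⟨_, h4⟩ = coeffMap (Int.castRingHom k) hauptInv3Z ^ (q ^ 2 - 1) :=
  cuspUnit_package_al q M hc A π t3Z_mul_hauptInv3Z (coe_t3L_eq Kbar (q * M) _)
    (x := t3L Kbar M h3) rfl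

end LevelQM

end Haupt

end

end Fermat.Agent.S35.helper4640
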