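import Fermat.Agent.S35.helper1928_ResField
import Fermat.Agent.S35.helper882_GaussPairCart
import Fermat.Agent.S35.helper603_TwistedFF
import Fermat.Agent.S37.helper6267_RiemannModular
import Fermat.Agent.S37.helper265_FkPlaces

/-!
# S35/S34 INST-E1 (helper1928): the generic-fibre half of the modular instance

Literal level `q * M`, `q` prime, `gcd(q, M) = 1`, `A ⊂ ℚ̄` a valuation subring above `q`,
`W := helper1219.atkinLehnerBar q M h'`, pair of Gauss valuations
`v := helper882.gpVal A (q * M) W`, `vL := helper882.gpBase A (q * M)`,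
`red := helper882.gpRed A (q * M) W` into `k((T)) × k((T))`, `k` the residue field of `A`,
component function fields `Fk₁ = Fk₂ = modularFunctionFieldFullC k M`, `jj := fibreIncl k M`.

* `GenericInst q M h' A` : the bundle of all hypotheses of
  `helper603.twisted_lattice_of_components` and of `helper2423.torFix_of_nodal` /
  `helper3729.torFrob_of_nodal` that only concern the generic fibre and the pair of valuations
  (`hdegK`, `hRBK`, a place, `hred`, `hconst`, `hcart` for every divisor, `hjj`, `hrange`,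
  `hdeg`, `harch`, `hm`, `hball`, `hopen`, `hVG`);
* `inst_generic` : the bundle holds;
* `twisted_lattice_gp` : `helper603.twisted_lattice_of_components` at the Gauss pair with its
  generic-fibre hypotheses discharged (the special-fibre, chart and conductor hypotheses are
  kept verbatim).
-/

set_option autoImplicit false

noncomputable section

namespace Fermat.Agent.S35.helper1928

open ModularCurve AlgebraicCurve
open Fermat.Agent.S24.helper24
open Fermat.Agent.S18

section InstGeneric

variable (q M : ℕ) [NeZero q] [NeZero M] (h' : Nat.Coprime q M) (A : ValuationSubring Kbar)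

/-- **The generic-fibre half of the modular instance** of the twisted-lattice theorem and of the
integration leaves, at the literal level `q * M`, for the pair of Gauss valuations
`helper882.gpVal A (q * M) (helper1219.atkinLehnerBar q M h')`. -/
structure GenericInst : Prop where
  /-- every place of the generic fibre has degree one -/
  hdegK : ∀ w : Place Kbar (FN (q * M)), w.deg = 1
  /-- weak Riemann inequality on the generic fibre -/
  hRBK : helper981.HasRiemannBound Kbar (FN (q * M))
  /-- the generic fibre has a place -/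
  hP0 : Nonempty (Place Kbar (FN (q * M)))
  /-- the reduction datum of the pair -/
  hred : helper2459.RedDataW (helper882.gpVal A (q * M) (helper1219.atkinLehnerBar q M h'))
    (fun _ => (1 : (helper882.gpRing A (q * M)).ValueGroup)) (helper882.gpBase A (q * M))
    (IsLocalRing.ResidueField A) (helper882.gpRed A (q * M) (helper1219.atkinLehnerBar q M h'))
    (helper882.gpRed A (q * M) (helper1219.atkinLehnerBar q M h'))
  /-- constants reduce to constants -/
  hconst : ∀ c : Kbar, helper882.gpBase A (q * M) c ≤ 1 → ∃ κ : IsLocalRing.ResidueField A,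
    helper882.gpRed A (q * M) (helper1219.atkinLehnerBar q M h') (algebraMap Kbar (FN (q * M)) c) =
      algebraMap (IsLocalRing.ResidueField A)
        (LaurentSeries (IsLocalRing.ResidueField A) × LaurentSeries (IsLocalRing.ResidueField A)) κ
  /-- every Riemann–Roch space is cartesian for the pair, weights `1` -/
  hcart : ∀ D : Divisor Kbar (FN (q * M)),
    helper2459.CartesianW (helper882.gpVal A (q * M) (helper1219.atkinLehnerBar q M h'))
      (fun _ => (1 : (helper882.gpRing A (q * M)).ValueGroup)) (helper882.gpBase A (q * M))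
      (riemannRochSpace D)
  /-- the two expansion embeddings of the component function fields -/
  hjj : Function.Injective (fibreIncl (IsLocalRing.ResidueField A) M)
  /-- the residue fields of the two Gauss valuations are the component function fields -/
  hrange : ∀ f : FN (q * M),
    (∀ i, helper882.gpVal A (q * M) (helper1219.atkinLehnerBar q M h') i f ≤ 1) →
    ∃ y : ↥(modularFunctionFieldFullC (IsLocalRing.ResidueField A) M) ×
        ↥(modularFunctionFieldFullC (IsLocalRing.ResidueField A) M),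
      helper882.gpRed A (q * M) (helper1219.atkinLehnerBar q M h') f =
        fibreIncl (IsLocalRing.ResidueField A) M y
  /-- positivity of the degrees -/
  hdeg : ∀ w : Place Kbar (FN (q * M)), 0 < w.deg
  /-- the common value group is archimedean -/
  harch : ∀ ε κ : (helper882.gpRing A (q * M)).ValueGroup, ε < 1 → κ ≠ 0 → ∃ n : ℕ, ε ^ n < κ
  /-- integers prime to `q` are units for both valuations -/
  hm : ∀ n : ℕ, ¬ q ∣ n → ∀ i,
    helper882.gpVal A (q * M) (helper1219.atkinLehnerBar q M h') i (n : FN (q * M)) = 1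
  /-- the common closed unit ball is `V₁ ∩ V₂` -/
  hball : ∀ x : FN (q * M),
    (∀ i, helper882.gpVal A (q * M) (helper1219.atkinLehnerBar q M h') i x ≤ 1) ↔
      x ∈ helper882.gpRing A (q * M) ∧
        x ∈ helper882.gpRingW A (q * M) (helper1219.atkinLehnerBar q M h')
  /-- the common open unit ball -/
  hopen : ∀ x : FN (q * M),
    (∀ i, helper882.gpVal A (q * M) (helper1219.atkinLehnerBar q M h') i x < 1) ↔
      (helper882.gpRing A (q * M)).valuation x < 1 ∧
        (helper882.gpRingW A (q * M) (helper1219.atkinLehnerBar q M h')).valuation x < 1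
  /-- the value group of both valuations is that of the constants -/
  hVG : ∀ (i : Fin 2) (f : FN (q * M)), f ≠ 0 → ∃ c : Kbar,
    helper882.gpBase A (q * M) c =
      helper882.gpVal A (q * M) (helper1219.atkinLehnerBar q M h') i f

variable {q M}

omit [NeZero q] [NeZero M] in
/-- `¬ q ∣ M` from coprimality, `q` prime. -/
theorem not_dvd_of_coprime_prime (hq : q.Prime) (h' : Nat.Coprime q M) : ¬ q ∣ M :=
  (Nat.Prime.coprime_iff_not_dvd hq).mp h'

variable (q M)

/-- **INST-E1**: the generic-fibre half of the modular instance holds at every literal level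
`q * M`, `q` prime, `gcd(q, M) = 1`, `A` above `q`. -/
theorem inst_generic (hq : q.Prime) (hA : A.LiesOverPrime q) : GenericInst q M h' A := by
  have : Fact q.Prime := ⟨hq⟩
  have hqM : ¬ q ∣ M := not_dvd_of_coprime_prime hq h'
  have hA' : (q : Kbar) ∈ A.nonunits := hA
  have hW : helper1219.atkinLehnerBar q M h' = wAL q M hqM := rfl
  have hdegK : ∀ w : Place Kbar (FN (q * M)), w.deg = 1 :=
    fun w => Fermat.Agent.S37.helper5162.place_deg_eq_one (q * M) w
  have hP0 : Nonempty (Place Kbar (FN (q * M))) :=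
    Fermat.Agent.S37.helper265.nonempty_place (jBar (q * M))
      (Fermat.Agent.S24.helper3176.transcendental_jBar (q * M))
  refine
    { hdegK := hdegK
      hRBK := Fermat.Agent.S37.helper6267.hasRiemannBound_FN (q * M)
      hP0 := hP0
      hred := helper882.gpRedData A (q * M) _
      hconst := ?_
      hcart := ?_
      hjj := fibreIncl_injective _ M
      hrange := ?_
      hdeg := fun w => by rw [hdegK w]; exact one_pos
      harch := helper882.gp_arch A (q * M) hq hA'
      hm := fun n hn i => helper882.gpVal_natCast A (q * M) _ hq hA' hn i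
      hball := helper882.gpVal_le_one_iff A (q * M) _
      hopen := helper882.gpVal_lt_one_iff A (q * M) _
      hVG := helper882.exists_gpBase_eq A (q * M) _ }
  · intro c hc
    have hcA : c ∈ A := (helper882.gpBase_le_one_iff A (q * M) c).mp hc
    refine ⟨IsLocalRing.residue A ⟨c, hcA⟩, Prod.ext ?_ ?_⟩
    · exact helper882.gpRho_algebraMap A (q * M) hcA
    · show helper882.gpRho A (q * M)
        (helper1219.atkinLehnerBar q M h' (algebraMap Kbar (FN (q * M)) c)) = _
      rw [AlgEquiv.commutes]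
      exact helper882.gpRho_algebraMap A (q * M) hcA
  · intro D
    obtain ⟨P₀⟩ := hP0
    have : FiniteDimensional Kbar (riemannRochSpace D) :=
      helper981.finite_riemannRochSpace hdegK P₀ D
    rw [hW]
    exact helper882.gp_cartesianW q M hqM A hA' (riemannRochSpace D)
  · intro f _
    obtain ⟨y, hy⟩ := gpRed_mem_range q M hqM A hA' (helper1219.atkinLehnerBar q M h') f
    exact ⟨y, hy.symm⟩

/-! ### The twisted-lattice theorem at the Gauss pair -/

local notation "kA" => IsLocalRing.ResidueField A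
local notation "FkM" => modularFunctionFieldFullC (IsLocalRing.ResidueField A) M
local notation "vq" => helper882.gpVal A (q * M) (helper1219.atkinLehnerBar q M h')
local notation "redq" => helper882.gpRed A (q * M) (helper1219.atkinLehnerBar q M h')

open Fermat.Agent.S35.helper603 in
/-- **`helper603.twisted_lattice_of_components` at the pair of Gauss valuations of
`F_{q M}`**, generic-fibre hypotheses discharged (`inst_generic`); component function fields
`Fk₁ = Fk₂ = modularFunctionFieldFullC k M`, `jj = fibreIncl k M`.  The special-fibre, chart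
and conductor hypotheses are those of `twisted_lattice_of_components`, verbatim. -/
theorem twisted_lattice_gp (hq : q.Prime) (hA : A.LiesOverPrime q)
    [HasPrincipalDivisors kA FkM]
    (hdegk : ∀ w : Place kA FkM, w.deg = 1)
    (hRBk : helper981.HasRiemannBound kA FkM) (Pk : Place kA FkM)
    {I : Type*} [Fintype I]
    (P Q : I → Place kA FkM) (hP : Function.Injective P) (hQ : Function.Injective Q)
    (Yinf₁ Y0₁ Yinf₂ Y0₂ : Divisor kA FkM)
    (hYinf₁ : 0 ≤ Yinf₁) (hY0₁ : 0 ≤ Y0₁) (hYinf₂ : 0 ≤ Yinf₂) (hY0₂ : 0 ≤ Y0₂)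
    (hdisj₁ : ∀ w : Place kA FkM, Yinf₁ w = 0 ∨ Y0₁ w = 0)
    (hdisj₂ : ∀ w : Place kA FkM, Yinf₂ w = 0 ∨ Y0₂ w = 0)
    (d₁ d₂ : ℕ) (hd₁ : 0 < d₁) (hd₂ : 0 < d₂)
    (hdY₁ : Divisor.degree Yinf₁ = d₁) (hdY0₁ : Divisor.degree Y0₁ = d₁)
    (hdY₂ : Divisor.degree Yinf₂ = d₂) (hdY0₂ : Divisor.degree Y0₂ = d₂)
    (hPY : ∀ i, Yinf₁ (P i) = 0 ∧ Y0₁ (P i) = 0) (hQY : ∀ i, Yinf₂ (Q i) = 0 ∧ Y0₂ (Q i) = 0)
    (E1 E2 : Divisor Kbar (FN (q * M))) (hE1 : 0 ≤ E1) (hE2 : 0 ≤ E2)
    (hdE1 : 0 < Divisor.degree E1)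
    (x : FN (q * M)) (hx0 : x ≠ 0)
    (hxord : ∀ w : Place Kbar (FN (q * M)), w.ord x = E2 w - E1 w)
    (hxv : ∀ i, vq i x = 1)
    (x₁ x₂ : FkM) (hredx : redq x = fibreIncl kA M (x₁, x₂))
    (hx₁ : ∀ w : Place kA FkM, w.ord x₁ = Y0₁ w - Yinf₁ w)
    (hx₂ : ∀ w : Place kA FkM, w.ord x₂ = Y0₂ w - Yinf₂ w)
    (hcont : ∀ a b : ℕ, ∀ f ∈ riemannRochSpace (a • E1 + b • E2), (∀ i, vq i f ≤ 1) →
      ∃ y₁ ∈ riemannRochSpace (a • Yinf₁ + b • Y0₁),
        ∃ y₂ ∈ riemannRochSpace (a • Yinf₂ + b • Y0₂), redq f = fibreIncl kA M (y₁, y₂) ∧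
          ∀ i, valueAt (Q i) (hdegk (Q i)) y₂ = valueAt (P i) (hdegk (P i)) y₁)
    (hK1 : ∀ a : ℕ, ∀ y₁ ∈ riemannRochSpace (a • Yinf₁), ∀ y₂ ∈ riemannRochSpace (a • Yinf₂),
      (∀ i, valueAt (Q i) (hdegk (Q i)) y₂ = valueAt (P i) (hdegk (P i)) y₁) →
      ∃ a' : ℕ, ∃ f ∈ riemannRochSpace (a' • E1), (∀ i, vq i f ≤ 1) ∧
        redq f = fibreIncl kA M (y₁, y₂))
    (hK2 : ∀ b : ℕ, ∀ y₁ ∈ riemannRochSpace (b • Y0₁), ∀ y₂ ∈ riemannRochSpace (b • Y0₂),
      (∀ i, valueAt (Q i) (hdegk (Q i)) y₂ = valueAt (P i) (hdegk (P i)) y₁) →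
      ∃ b' : ℕ, ∃ f ∈ riemannRochSpace (b' • E2), (∀ i, vq i f ≤ 1) ∧
        redq f = fibreIncl kA M (y₁, y₂)) :
    ∃ n₀ : ℕ,
      IsNodalRR (fun a b => pairRR P Q (a • Yinf₁ + b • Y0₁) (a • Yinf₂ + b • Y0₂))
        (fun i => (evalAt P (fun i => hdegk (P i)) i).comp
          (AlgHom.fst kA (nodeRing P) (nodeRing Q)))
        (fun i => (evalAt Q (fun i => hdegk (Q i)) i).comp
          (AlgHom.snd kA (nodeRing P) (nodeRing Q)))
        (d₁ + d₂)
        (helper981.riemannGenus kA FkM + helper981.riemannGenus kA FkM) 2 n₀ ∧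
      Divisor.degree E1 = ((d₁ + d₂ : ℕ) : ℤ) ∧
      helper981.riemannGenus Kbar (FN (q * M)) + 1 =
        helper981.riemannGenus kA FkM + helper981.riemannGenus kA FkM + Fintype.card I ∧
      ∀ n : ℕ, n ≠ 0 → ∀ D0 : Divisor Kbar (FN (q * M)), Divisor.degree D0 = 0 →
        ∀ u : FN (q * M), u ≠ 0 →
        (∀ w : Place Kbar (FN (q * M)), (n : ℤ) * D0 w ≤ w.ord u) → (∀ i, vq i (u - 1) < 1) →
        ∃ c : I → kA, (∀ i, c i ^ n = 1) ∧ ∀ a b : ℕ, n₀ ≤ a + b →
          (∀ f ∈ riemannRochSpace (D0 + a • E1 + b • E2), (∀ i, vq i f ≤ 1) →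
            ∃ y ∈ glued
                (fun i => (evalAt P (fun i => hdegk (P i)) i).comp
                  (AlgHom.fst kA (nodeRing P) (nodeRing Q)))
                (fun i => (evalAt Q (fun i => hdegk (Q i)) i).comp
                  (AlgHom.snd kA (nodeRing P) (nodeRing Q))) c
                (pairRR P Q (a • Yinf₁ + b • Y0₁) (a • Yinf₂ + b • Y0₂)),
              redq f = ((fibreIncl kA M).comp (nodeInclAlg P Q)) y) ∧
          (∀ y ∈ glued
                (fun i => (evalAt P (fun i => hdegk (P i)) i).comp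
                  (AlgHom.fst kA (nodeRing P) (nodeRing Q)))
                (fun i => (evalAt Q (fun i => hdegk (Q i)) i).comp
                  (AlgHom.snd kA (nodeRing P) (nodeRing Q))) c
                (pairRR P Q (a • Yinf₁ + b • Y0₁) (a • Yinf₂ + b • Y0₂)),
            ∃ f ∈ riemannRochSpace (D0 + a • E1 + b • E2),
              (∀ i, vq i f ≤ 1) ∧ redq f = ((fibreIncl kA M).comp (nodeInclAlg P Q)) y) := by
  have h := inst_generic q M h' A hq hA
  obtain ⟨P₀⟩ := h.hP0
  exact twisted_lattice_of_components h.hdegK h.hRBK P₀ _ _ h.hred h.hconst h.hcart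
    (fibreIncl kA M) h.hjj h.hrange hdegk hdegk hRBk hRBk Pk Pk P Q hP hQ Yinf₁ Y0₁ Yinf₂ Y0₂
    hYinf₁ hY0₁ hYinf₂ hY0₂ hdisj₁ hdisj₂ d₁ d₂ hd₁ hd₂ hdY₁ hdY0₁ hdY₂ hdY0₂ hPY hQY
    E1 E2 hE1 hE2 hdE1 x hx0 hxord hxv x₁ x₂ hredx hx₁ hx₂ hcont hK1 hK2

end InstGeneric

end Fermat.Agent.S35.helper1928
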