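/-
S34 level descent of (UNI-FF) (helper1336; STOPGAP copy, lands only if the owners' copy is late):
`Fermat.Agent.S34.helper8267.Stmt_UniDescent` as a corollary of the landed/compiled level
descent package of helper1270 (`S35/helper1270_TorFrobLevel`): the inclusion `FN N → FN N'`
commutes with the coefficientwise Galois action, Kummer elements ascend, and the relation
"quotient = divisor-free element times an `n`-th power" descends by norm + Bezout when
`[FN N' : FN N]` is prime to `n`.
-/
import Fermat.Agent.S34.helper8267_Chain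
import Fermat.Agent.S35.helper1270_TorFrobLevel

set_option autoImplicit false

namespace Fermat.Agent.S35.helper1336

open AlgebraicCurve ModularCurve
open Fermat.Agent.S29.helper8217 Fermat.Agent.S34.helper584 Fermat.Agent.S35.helper1270

local notation "Qb" => AlgebraicClosure ℚ

/-- **Descent of (UNI-FF) along `N ∣ N'`** when `[FN N' : FN N]` is prime to `n`. -/
theorem stmt_UniFF_descent {N N' : ℕ} [NeZero N] [NeZero N'] (hdvd : N ∣ N') {n : ℕ}
    (hn : n ≠ 0)
    (hcop : Nat.Coprime
      ((modularFunctionFieldBar N).relfinrank (modularFunctionFieldBar N')) n)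
    (τ : Qb ≃ₐ[ℚ] Qb) (H : Stmt_UniFF N' n τ) : Stmt_UniFF N n τ := by
  intro u hu
  have hfin := finiteAlong_levelIncl hdvd
  have hK : IsKummer Qb n (levelIncl hdvd u) := by
    letI := algebraAlong (levelIncl hdvd)
    haveI := isScalarTower_along (levelIncl hdvd)
    haveI : FiniteDimensional (modularFunctionFieldBar N) (modularFunctionFieldBar N') := hfin
    exact hu.algebraMap
  obtain ⟨w, c, hw, hc, hcv, hrel⟩ := H (levelIncl hdvd u) hK
  rw [levelIncl_arithmeticGalois, levelIncl_arithmeticGalois, ← map_mul, ← map_pow] at hrel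
  exact kummerRel_descentAlong (levelIncl hdvd) hfin hn
    (by rw [finrankAlong_levelIncl]; exact hcop)
    (fun f hf h => const_of_ord_eq_zero N' f hf h) ⟨w, c, hw, hc, hcv, hrel⟩

/-- **The level descent of S34** in the captain's shape (`helper8267_Chain`). -/
theorem stmt_UniDescent : Fermat.Agent.S34.helper8267.Stmt_UniDescent := by
  intro q M p hq hp hqp hcop hM0 H A hA τ hτ m
  haveI : NeZero q := ⟨hq.ne_zero⟩
  haveI : NeZero M := ⟨hM0⟩
  have haux : Fermat.Agent.S34.helper8267.auxPrime p q = auxPrime p q := rfl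
  have hL0 : Nat.lcm M (auxPrime p q) ≠ 0 :=
    Nat.lcm_ne_zero hM0 (auxPrime_prime p q).ne_zero
  haveI : NeZero (q * M) := ⟨mul_ne_zero hq.ne_zero hM0⟩
  haveI : NeZero (q * Nat.lcm M (auxPrime p q)) := ⟨mul_ne_zero hq.ne_zero hL0⟩
  rw [haux] at H
  exact stmt_UniFF_descent (Nat.mul_dvd_mul_left q (Nat.dvd_lcm_left M (auxPrime p q)))
    (pow_ne_zero m hp.ne_zero) (coprime_relfinrank_aux q M hq hp hqp m) τ (H A hA τ hτ m)

end Fermat.Agent.S35.helper1336
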