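/-
S35-TORFROB-DESC (helper1270): the sub-leaf `helper2039.Stmt_TorFrobDesc` of the S35 Spec,
unconditionally.

`Stmt_TorFrobDesc : Stmt_TorFrobAux → Stmt_TorFrob`: the statement (TORFROB) "`σ² = q²` on the
toric part `K^∞ ⊓ W_q K^∞` of `J₀(M)[lam^k]`", known at the levels divisible by an auxiliary
prime `r ∈ {2, 3}`, `r ≠ q`, holds at every level `M` with `q ∥ M`.

Proof: pass to the function-field form (`helper1687.smul_eq_nsmul_on_tor_iff_ff`), go up to the
level `lcm(M, r)` with `r = auxPrime lam q` (`[F_{lcm(M, r)} : F_M] ∈ {1, r + 1}` is prime to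
`lam`), where the Gauss ring, the Atkin-Lehner involution and the coefficientwise Galois action
restrict to those of level `M`, and come back by `helper1270.kummerClass_descentAlong`
(norm + Bezout + constants lemma).

* `atkinLehnerBar_levelIncl'` : `helper1073.atkinLehnerBar` is compatible with the level;
* `tor_descent` : "`g = e` on `K^∞_n ⊓ K^0_n`" descends along `M ∣ M'`, `[F_{M'} : F_M]` prime
  to `n`;
* `stmt_TorFrobDesc` : the Spec leaf; `stmt_TorFrob_of_aux'` : (TORFROB) from (TORFROB-AUX);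
* `stmt_TorFix_of_aux` : the same descent for the S34 twin `helper2039.Stmt_TorFix`.
-/
import Fermat.Agent.S35.helper2039_Spec
import Fermat.Agent.S35.helper1270_TorFrobLevel

set_option autoImplicit false
set_option linter.style.haveILetI false

noncomputable section

namespace Fermat.Agent.S35.helper1270

open ModularCurve AlgebraicCurve
open Fermat.Agent.S24.helper24
open Fermat.Agent.S29.helper8217

local notation "GQ" => (AlgebraicClosure ℚ ≃ₐ[ℚ] AlgebraicClosure ℚ)

/-! ### The Atkin-Lehner involution of `helper1073` at two levels -/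

open Fermat.Agent.S35.helper1073 in
/-- **`W_q` is compatible with the level** (`helper1073.atkinLehnerBar`): for `M ∣ M'`, both
exactly divisible by the prime `q`, the Atkin-Lehner involutions of `FN M` and `FN M'` agree on
the smaller field. -/
theorem atkinLehnerBar_levelIncl' (M M' q : ℕ) [NeZero M] [NeZero M'] (hdvd : M ∣ M')
    (hq : q.Prime) (hqM : q ∣ M) (hq2 : ¬ q ^ 2 ∣ M) (hqM' : q ∣ M') (hq2' : ¬ q ^ 2 ∣ M')
    (x : FN M) :
    atkinLehnerBar M' q hq hqM' hq2' (levelIncl hdvd x)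
      = levelIncl hdvd (atkinLehnerBar M q hq hqM hq2 x) := by
  have hh : ((atkinLehnerBar M' q hq hqM' hq2' : FN M' ≃+* FN M') : FN M' →+* FN M').comp
        (levelIncl hdvd : FN M →+* FN M')
      = (levelIncl hdvd : FN M →+* FN M').comp
        ((atkinLehnerBar M q hq hqM hq2 : FN M ≃+* FN M) : FN M →+* FN M) := by
    refine Fermat.Agent.S24.helper3176.ringHom_ext_of_gen M ?_ ?_
    · intro c
      show atkinLehnerBar M' q hq hqM' hq2' (levelIncl hdvd (algebraMap Kbar (FN M) c))
        = levelIncl hdvd (atkinLehnerBar M q hq hqM hq2 (algebraMap Kbar (FN M) c))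
      rw [AlgHom.commutes, AlgEquiv.commutes, AlgEquiv.commutes, AlgHom.commutes]
    · intro d _ hd
      show atkinLehnerBar M' q hq hqM' hq2' (levelIncl hdvd (jBarD M d hd))
        = levelIncl hdvd (atkinLehnerBar M q hq hqM hq2 (jBarD M d hd))
      haveI : NeZero (wIdx q d) := ⟨wIdx_ne_zero hq (NeZero.ne d)⟩
      rw [levelIncl_jBarD, atkinLehnerBar_jBarD M' q hq hqM' hq2' d (hd.trans hdvd),
        atkinLehnerBar_jBarD M q hq hqM hq2 d hd, levelIncl_jBarD]
  exact congrArg (fun f : FN M →+* FN M' => f x) hh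

/-! ### Descent of "`g = e` on the toric part" -/

open Fermat.Agent.S35.helper1687 Fermat.Agent.S35.helper1073 in
/-- **Descent of "`g` acts as `e` on `K^∞_n ⊓ K^0_n`"** along `M ∣ M'` (both exactly divisible
by `q`) when `[F_{M'} : F_M]` is prime to `n`. -/
theorem tor_descent (M M' q : ℕ) [NeZero M] [NeZero M'] (hdvd : M ∣ M')
    (hq : q.Prime) (hqM : q ∣ M) (hq2 : ¬ q ^ 2 ∣ M) (hqM' : q ∣ M') (hq2' : ¬ q ^ 2 ∣ M')
    {n : ℕ} (hn : n ≠ 0)
    (hcop : Nat.Coprime
      ((modularFunctionFieldBar M).relfinrank (modularFunctionFieldBar M')) n)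
    (A : ValuationSubring Kbar) (g : GQ) (e : ℕ)
    (H : ∀ y : JZero M', y ∈ kInfty A M' n →
      y ∈ kZero A M' n (atkinLehnerBar M' q hq hqM' hq2') → g • y = e • y) :
    ∀ y : JZero M, y ∈ kInfty A M n →
      y ∈ kZero A M n (atkinLehnerBar M q hq hqM hq2) → g • y = e • y := by
  rw [smul_eq_nsmul_on_tor_iff_ff hn] at H ⊢
  exact kummerClass_descentAlong (K := Kbar) (levelIncl hdvd) (finiteAlong_levelIncl hdvd) hn
    (by rw [finrankAlong_levelIncl]; exact hcop) (const_of_ord_eq_zero M')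
    (fun h => (Fermat.Agent.S18.helper8991.gaussF A (IsLocalRing.residue A) M).valuation
      (h - 1) < 1)
    (fun h => (Fermat.Agent.S18.helper8991.gaussF A (IsLocalRing.residue A) M).valuation
      ((atkinLehnerBar M q hq hqM hq2).symm h - 1) < 1)
    (fun h => (Fermat.Agent.S18.helper8991.gaussF A (IsLocalRing.residue A) M').valuation
      (h - 1) < 1)
    (fun h => (Fermat.Agent.S18.helper8991.gaussF A (IsLocalRing.residue A) M').valuation
      ((atkinLehnerBar M' q hq hqM' hq2').symm h - 1) < 1)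
    (fun h h1 => by
      rw [← map_one (levelIncl hdvd), ← map_sub]
      exact (gaussV_valuation_levelIncl_lt_one_iff hdvd A _).mpr h1)
    (fun h h2 => by
      rw [atkinLehnerBar_symm] at h2 ⊢
      rw [atkinLehnerBar_levelIncl' M M' q hdvd hq hqM hq2 hqM' hq2',
        ← map_one (levelIncl hdvd), ← map_sub]
      exact (gaussV_valuation_levelIncl_lt_one_iff hdvd A _).mpr h2)
    (fun h => arithmeticGalois (modularFunctionFieldFull M) g • h)
    (fun h => arithmeticGalois (modularFunctionFieldFull M') g • h)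
    (fun x => levelIncl_arithmeticGalois hdvd g x) e H

/-! ### The auxiliary level `lcm(M, r)` -/

/-- `q` still divides the auxiliary level exactly. -/
theorem not_sq_dvd_lcm_prime {M q r : ℕ} (hq : q.Prime) (hr : r.Prime) (hrq : r ≠ q)
    (hq2 : ¬ q ^ 2 ∣ M) : ¬ q ^ 2 ∣ M.lcm r := by
  intro hd
  have h1 : q ^ 2 ∣ M * r := hd.trans (Nat.lcm_dvd_mul M r)
  have hc : Nat.Coprime (q ^ 2) r :=
    Nat.Coprime.pow_left 2 ((Nat.coprime_primes hq hr).mpr fun h => hrq h.symm)
  exact hq2 (hc.dvd_of_dvd_mul_right h1)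

/-- The degree of the auxiliary level `lcm(M, r)`, `r = auxPrime lam q`, over the level `M` is
prime to every power of `lam`. -/
theorem coprime_relfinrank_lcm_auxPrime (M : ℕ) [NeZero M] {lam q : ℕ} (hlam : lam.Prime)
    (hql : q ≠ lam) (k : ℕ) :
    Nat.Coprime
      ((modularFunctionFieldBar M).relfinrank
        (modularFunctionFieldBar (M.lcm (auxPrime lam q)))) (lam ^ k) := by
  rw [Fermat.Agent.S18.helper2557.relfinrank_bar_lcm_prime M (auxPrime_prime lam q)]
  split_ifs
  · exact Nat.coprime_one_left _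
  · exact Nat.Coprime.pow_right k (coprime_auxPrime_succ hlam hql)

/-! ### The Spec leaves -/

open Fermat.Agent.S35.helper2039 in
/-- **S35-TORFROB-DESC**: the sub-leaf `Stmt_TorFrobDesc` of the S35 Spec.  (TORFROB) at the
levels divisible by an auxiliary prime `r ∈ {2, 3}`, `r ≠ q`, gives (TORFROB) at every level. -/
theorem stmt_TorFrobDesc : Stmt_TorFrobDesc := by
  intro hAux M _ q hq hqM hq2 lam hlam hlamq k A hA σ hσ y hy1 hy2
  have hr : (auxPrime lam q).Prime := auxPrime_prime lam q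
  have hrq : auxPrime lam q ≠ q := auxPrime_ne hq (Ne.symm hlamq)
  haveI : NeZero (M.lcm (auxPrime lam q)) := ⟨Nat.lcm_ne_zero (NeZero.ne M) hr.ne_zero⟩
  have hqM' : q ∣ M.lcm (auxPrime lam q) := hqM.trans (Nat.dvd_lcm_left M _)
  have hq2' : ¬ q ^ 2 ∣ M.lcm (auxPrime lam q) := not_sq_dvd_lcm_prime hq hr hrq hq2
  have key := tor_descent M (M.lcm (auxPrime lam q)) q (Nat.dvd_lcm_left M _) hq hqM hq2 hqM'
    hq2' (pow_ne_zero k hlam.ne_zero)
    (coprime_relfinrank_lcm_auxPrime M hlam (Ne.symm hlamq) k) A (σ * σ) (q ^ 2)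
    (fun y' h1 h2 => by
      rw [mul_smul]
      exact hAux (M.lcm (auxPrime lam q)) q hq hqM' hq2' (auxPrime lam q)
        (auxPrime_eq_two_or_three lam q) hrq (Nat.dvd_lcm_right M _) lam hlam hlamq k A hA σ hσ
        y' h1 h2)
    y hy1 hy2
  rw [mul_smul] at key
  exact key

open Fermat.Agent.S35.helper2039 in
/-- **(TORFROB) from (TORFROB-AUX)**, unconditionally. -/
theorem stmt_TorFrob_of_aux' (h : Stmt_TorFrobAux) : Stmt_TorFrob := stmt_TorFrobDesc h

open Fermat.Agent.S35.helper2039 in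
/-- **The same descent for the S34 twin (TORFIX)**: if the inertia group of `A ∣ q` acts
trivially on the toric part at the levels divisible by an auxiliary prime `r ∈ {2, 3}`, `r ≠ q`,
then `helper2039.Stmt_TorFix` holds. -/
theorem stmt_TorFix_of_aux
    (hAux : ∀ (M : ℕ) [NeZero M] (q : ℕ) (hq : q.Prime) (hqM : q ∣ M) (hq2 : ¬ q ^ 2 ∣ M)
      (r : ℕ) (_hr : r = 2 ∨ r = 3) (_hrq : r ≠ q) (_hrM : r ∣ M)
      (lam : ℕ) (_hlam : lam.Prime) (_hlamq : lam ≠ q) (k : ℕ)
      (A : ValuationSubring Kbar) (_hA : A.LiesOverPrime q) (τ : GQ)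
      (_hτ : τ ∈ A.inertiaSubgroupIn ℚ) (y : JZero M),
      y ∈ Fermat.Agent.S35.helper1687.kInfty A M (lam ^ k) →
      y ∈ Fermat.Agent.S35.helper1687.kZero A M (lam ^ k)
          (Fermat.Agent.S35.helper1073.atkinLehnerBar M q hq hqM hq2) →
      τ • y = y) : Stmt_TorFix := by
  intro M _ q hq hqM hq2 lam hlam hlamq k A hA τ hτ y hy1 hy2
  have hr : (auxPrime lam q).Prime := auxPrime_prime lam q
  have hrq : auxPrime lam q ≠ q := auxPrime_ne hq (Ne.symm hlamq)
  haveI : NeZero (M.lcm (auxPrime lam q)) := ⟨Nat.lcm_ne_zero (NeZero.ne M) hr.ne_zero⟩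
  have hqM' : q ∣ M.lcm (auxPrime lam q) := hqM.trans (Nat.dvd_lcm_left M _)
  have hq2' : ¬ q ^ 2 ∣ M.lcm (auxPrime lam q) := not_sq_dvd_lcm_prime hq hr hrq hq2
  have key := tor_descent M (M.lcm (auxPrime lam q)) q (Nat.dvd_lcm_left M _) hq hqM hq2 hqM'
    hq2' (pow_ne_zero k hlam.ne_zero)
    (coprime_relfinrank_lcm_auxPrime M hlam (Ne.symm hlamq) k) A τ 1
    (fun y' h1 h2 => by
      rw [one_smul]
      exact hAux (M.lcm (auxPrime lam q)) q hq hqM' hq2' (auxPrime lam q)
        (auxPrime_eq_two_or_three lam q) hrq (Nat.dvd_lcm_right M _) lam hlam hlamq k A hA τ hτ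
        y' h1 h2)
    y hy1 hy2
  rw [one_smul] at key
  exact key

end Fermat.Agent.S35.helper1270
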