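/-
S35/S34 geometry module, E3 instantiation: THE CHART DIVISORS `E1`, `E2` (helper2974;
captain ruling R5 (6), "Q2 of #241").

For a function `x` of a function field `F / K` with principal divisors:

* `poleDiv K x`, `zeroDiv K x : Divisor K F`, the pole divisor `(x)_∞` and the zero divisor
  `(x)_0`, with the pointwise formulas `poleDiv K x w = max 0 (-(w.ord x))`,
  `zeroDiv K x w = max 0 (w.ord x)` (`rfl`), effective, disjoint,
  `w.ord x = zeroDiv K x w - poleDiv K x w`, of the same degree, compatible with powers and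
  inverses, unique (`eq_poleDiv_zeroDiv_of_ord`), of degree `[F : K(x)]` for `K` algebraically
  closed (`degree_poleDiv_eq_finrank`);
* stability under every semilinear automorphism fixing `x`
  (`poleDiv_smul_of_fixed`, `zeroDiv_smul_of_fixed`, `smul_poleDiv_of_fixed`);
* `mem_rr_chart_iff`: `f ∈ L(a • (x)_∞ + b • (x)_0)` iff `f * x ^ b` is regular wherever `x` is
  and `f * x⁻¹ ^ a` is regular wherever `x⁻¹` is; in characteristic zero this is integrality
  over `K[x]` resp. `K[x⁻¹]` (`mem_rr_chart_iff_isIntegral`);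
* modular instance (any level `N`): a function whose `q`-expansion has integer coefficients is
  fixed by `arithmeticGalois g` for every `g` (`arithmeticGalois_smul_of_coe_int`), so its
  pole and zero divisors are stable under the whole Galois group; a pole at the cusp `∞` gives
  `0 < degree (poleDiv x)`; bundles `chartDiv_package`, `chartDiv_package_t2`,
  `chartDiv_package_t3` in the binder shapes of `helper2423.Stmt_NodalAt` and
  `helper603.twisted_lattice_of_components`.
-/
import Mathlib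
import Fermat.Prelude.Def_ModularCurve_ArithmeticGalois
import Fermat.Prelude.Def_AlgebraicCurve_Repartitions
import Fermat.Agent.S18.helper4307_PlacesAnyChar
import Fermat.Agent.S35.helper2974_CuspOrd

set_option autoImplicit false

noncomputable section

namespace Fermat.Agent.S35.helper2974

open AlgebraicCurve ModularCurve IntermediateField

/-! ## Pole and zero divisors -/

section ChartDiv

variable {K F : Type*} [Field K] [Field F] [Algebra K F]

/-- A function has only finitely many zeros and poles. -/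
theorem finite_ord_ne_zero [HasPrincipalDivisors K F] (x : F) :
    {w : Place K F | w.ord x ≠ 0}.Finite := by
  rcases eq_or_ne x 0 with rfl | hx
  · have : {w : Place K F | w.ord (0 : F) ≠ 0} = ∅ := by
      ext w
      simp [Place.ord_zero]
    rw [this]
    exact Set.finite_empty
  · obtain ⟨D, hD, -⟩ := HasPrincipalDivisors.exists_divisor (K := K) x hx
    refine D.support.finite_toSet.subset (fun w hw => ?_)
    rw [Finset.mem_coe, Finsupp.mem_support_iff, hD w]
    exact hw

variable [HasPrincipalDivisors K F]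

variable (K) in
/-- The pole divisor `(x)_∞` of a function `x`. -/
def poleDiv (x : F) : Divisor K F :=
  Finsupp.ofSupportFinite (fun w : Place K F => max 0 (-(w.ord x)))
    ((finite_ord_ne_zero x).subset (fun w hw => by
      rw [Function.mem_support] at hw
      show w.ord x ≠ 0
      intro h0
      apply hw
      rw [h0]
      simp))

variable (K) in
/-- The zero divisor `(x)_0` of a function `x`. -/
def zeroDiv (x : F) : Divisor K F :=
  Finsupp.ofSupportFinite (fun w : Place K F => max 0 (w.ord x))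
    ((finite_ord_ne_zero x).subset (fun w hw => by
      rw [Function.mem_support] at hw
      show w.ord x ≠ 0
      intro h0
      apply hw
      rw [h0]
      simp))

theorem poleDiv_apply (x : F) (w : Place K F) : poleDiv K x w = max 0 (-(w.ord x)) := rfl

theorem zeroDiv_apply (x : F) (w : Place K F) : zeroDiv K x w = max 0 (w.ord x) := rfl

theorem poleDiv_apply_nonneg (x : F) (w : Place K F) : 0 ≤ poleDiv K x w := le_max_left _ _

theorem zeroDiv_apply_nonneg (x : F) (w : Place K F) : 0 ≤ zeroDiv K x w := le_max_left _ _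

theorem poleDiv_nonneg (x : F) : 0 ≤ poleDiv K x :=
  Finsupp.le_def.mpr fun w => poleDiv_apply_nonneg x w

theorem zeroDiv_nonneg (x : F) : 0 ≤ zeroDiv K x :=
  Finsupp.le_def.mpr fun w => zeroDiv_apply_nonneg x w

theorem poleDiv_of_ord_nonneg {x : F} {w : Place K F} (h : 0 ≤ w.ord x) : poleDiv K x w = 0 := by
  rw [poleDiv_apply]
  exact max_eq_left (by omega)

theorem poleDiv_of_ord_nonpos {x : F} {w : Place K F} (h : w.ord x ≤ 0) :
    poleDiv K x w = -(w.ord x) := by
  rw [poleDiv_apply]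
  exact max_eq_right (by omega)

theorem zeroDiv_of_ord_nonneg {x : F} {w : Place K F} (h : 0 ≤ w.ord x) :
    zeroDiv K x w = w.ord x := by
  rw [zeroDiv_apply]
  exact max_eq_right h

theorem zeroDiv_of_ord_nonpos {x : F} {w : Place K F} (h : w.ord x ≤ 0) : zeroDiv K x w = 0 := by
  rw [zeroDiv_apply]
  exact max_eq_left h

/-- `div x = (x)_0 - (x)_∞`, pointwise (the binder `hxord` of
`helper603.twisted_lattice_of_components`). -/
theorem ord_eq_zeroDiv_sub_poleDiv (x : F) (w : Place K F) :
    w.ord x = zeroDiv K x w - poleDiv K x w := by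
  rcases le_total 0 (w.ord x) with h | h
  · rw [zeroDiv_of_ord_nonneg h, poleDiv_of_ord_nonneg h, sub_zero]
  · rw [zeroDiv_of_ord_nonpos h, poleDiv_of_ord_nonpos h]
    ring

/-- The pole divisor and the zero divisor have disjoint supports. -/
theorem poleDiv_eq_zero_or_zeroDiv_eq_zero (x : F) (w : Place K F) :
    poleDiv K x w = 0 ∨ zeroDiv K x w = 0 := by
  rcases le_total 0 (w.ord x) with h | h
  · exact Or.inl (poleDiv_of_ord_nonneg h)
  · exact Or.inr (zeroDiv_of_ord_nonpos h)

theorem poleDiv_pos_iff {x : F} {w : Place K F} : 0 < poleDiv K x w ↔ w.ord x < 0 := by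
  rw [poleDiv_apply]
  constructor
  · intro h
    by_contra hcon
    rw [max_eq_left (by omega)] at h
    exact lt_irrefl _ h
  · intro h
    exact lt_max_of_lt_right (by omega)

theorem zeroDiv_pos_iff {x : F} {w : Place K F} : 0 < zeroDiv K x w ↔ 0 < w.ord x := by
  rw [zeroDiv_apply]
  constructor
  · intro h
    by_contra hcon
    rw [max_eq_left (by omega)] at h
    exact lt_irrefl _ h
  · intro h
    exact lt_max_of_lt_right h

theorem poleDiv_eq_zero_iff {x : F} {w : Place K F} : poleDiv K x w = 0 ↔ 0 ≤ w.ord x := by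
  constructor
  · intro h
    by_contra hcon
    have := (poleDiv_pos_iff (K := K) (x := x) (w := w)).mpr (by omega)
    omega
  · exact poleDiv_of_ord_nonneg

theorem zeroDiv_eq_zero_iff {x : F} {w : Place K F} : zeroDiv K x w = 0 ↔ w.ord x ≤ 0 := by
  constructor
  · intro h
    by_contra hcon
    have := (zeroDiv_pos_iff (K := K) (x := x) (w := w)).mpr (by omega)
    omega
  · exact zeroDiv_of_ord_nonpos

/-- Uniqueness, formula form (`helper4307.exists_zero_pole_divisors`, `helper6292.IsPoleDivisor`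
shape). -/
theorem eq_poleDiv_of_apply {E : Divisor K F} {x : F}
    (h : ∀ w : Place K F, E w = max 0 (-(w.ord x))) : E = poleDiv K x :=
  Finsupp.ext fun w => by rw [h w, poleDiv_apply]

theorem eq_zeroDiv_of_apply {E : Divisor K F} {x : F}
    (h : ∀ w : Place K F, E w = max 0 (w.ord x)) : E = zeroDiv K x :=
  Finsupp.ext fun w => by rw [h w, zeroDiv_apply]

/-- Uniqueness, in the binder shape of `helper603.twisted_lattice_of_components`: effective
disjoint divisors `E1`, `E2` with `ord x = E2 - E1` are the pole and the zero divisor of `x`. -/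
theorem eq_poleDiv_zeroDiv_of_ord {E1 E2 : Divisor K F} {x : F}
    (h1 : ∀ w : Place K F, 0 ≤ E1 w) (h2 : ∀ w : Place K F, 0 ≤ E2 w)
    (hd : ∀ w : Place K F, E1 w = 0 ∨ E2 w = 0)
    (hord : ∀ w : Place K F, w.ord x = E2 w - E1 w) :
    E1 = poleDiv K x ∧ E2 = zeroDiv K x := by
  refine ⟨eq_poleDiv_of_apply fun w => ?_, eq_zeroDiv_of_apply fun w => ?_⟩
  · have a1 := h1 w
    have a2 := h2 w
    have a3 := hord w
    rcases hd w with h | h
    · rw [h, max_eq_left (by omega)]
    · rw [max_eq_right (by omega)]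
      omega
  · have a1 := h1 w
    have a2 := h2 w
    have a3 := hord w
    rcases hd w with h | h
    · rw [max_eq_right (by omega)]
      omega
    · rw [h, max_eq_left (by omega)]

theorem poleDiv_inv (x : F) : poleDiv K x⁻¹ = zeroDiv K x :=
  Finsupp.ext fun w => by rw [poleDiv_apply, zeroDiv_apply, Place.ord_inv, neg_neg]

theorem zeroDiv_inv (x : F) : zeroDiv K x⁻¹ = poleDiv K x :=
  Finsupp.ext fun w => by rw [poleDiv_apply, zeroDiv_apply, Place.ord_inv]

theorem max_zero_natCast_mul (n : ℕ) (a : ℤ) : max 0 ((n : ℤ) * a) = (n : ℤ) * max 0 a := by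
  have hn : (0 : ℤ) ≤ n := Int.natCast_nonneg n
  rcases le_total 0 a with h | h
  · rw [max_eq_right h, max_eq_right (mul_nonneg hn h)]
  · rw [max_eq_left h, max_eq_left (mul_nonpos_of_nonneg_of_nonpos hn h), mul_zero]

/-- `(x ^ n)_∞ = n • (x)_∞` (e.g. `Yinf₂ = q • Yinf₁` for the second component `t̄ ^ q`). -/
theorem poleDiv_pow (x : F) (n : ℕ) : poleDiv K (x ^ n) = n • poleDiv K x :=
  Finsupp.ext fun w => by
    rw [Finsupp.smul_apply, poleDiv_apply, poleDiv_apply,
      Fermat.Agent.S24.helper1370.ord_pow, nsmul_eq_mul, ← max_zero_natCast_mul, mul_neg]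

/-- `(x ^ n)_0 = n • (x)_0`. -/
theorem zeroDiv_pow (x : F) (n : ℕ) : zeroDiv K (x ^ n) = n • zeroDiv K x :=
  Finsupp.ext fun w => by
    rw [Finsupp.smul_apply, zeroDiv_apply, zeroDiv_apply,
      Fermat.Agent.S24.helper1370.ord_pow, nsmul_eq_mul, ← max_zero_natCast_mul]

/-- `deg (x)_0 = deg (x)_∞`. -/
theorem degree_zeroDiv {x : F} (hx : x ≠ 0) :
    Divisor.degree (zeroDiv K x) = Divisor.degree (poleDiv K x) := by
  obtain ⟨D, hD, hD0⟩ := HasPrincipalDivisors.exists_divisor (K := K) x hx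
  have hDE : D = zeroDiv K x - poleDiv K x := Finsupp.ext fun w => by
    rw [hD w, Finsupp.sub_apply]
    exact ord_eq_zeroDiv_sub_poleDiv x w
  rw [hDE, map_sub] at hD0
  linarith

omit [HasPrincipalDivisors K F] in
/-- The degree of an effective divisor dominates each of its terms. -/
theorem apply_mul_deg_le_degree {D : Divisor K F} (hD : ∀ w : Place K F, 0 ≤ D w)
    (w : Place K F) : D w * (w.deg : ℤ) ≤ Divisor.degree D := by
  classical
  have hdeg : Divisor.degree D = D.sum fun v n => n * (v.deg : ℤ) := by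
    simp [Divisor.degree, Finsupp.liftAddHom_apply]
  rw [hdeg, Finsupp.sum]
  by_cases hw : w ∈ D.support
  · exact Finset.single_le_sum (f := fun v => D v * (v.deg : ℤ))
      (fun v _ => mul_nonneg (hD v) (Int.natCast_nonneg _)) hw
  · rw [Finsupp.notMem_support_iff.mp hw, zero_mul]
    exact Finset.sum_nonneg fun v _ => mul_nonneg (hD v) (Int.natCast_nonneg _)

/-- A function with a pole (at a place of positive degree) has a pole divisor of positive
degree: the hypothesis `hdE1` of `helper603.twisted_lattice_of_components`. -/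
theorem degree_poleDiv_pos {x : F} {w : Place K F} (hw : w.ord x < 0) (hdeg : 0 < w.deg) :
    0 < Divisor.degree (poleDiv K x) := by
  have h1 := apply_mul_deg_le_degree (poleDiv_apply_nonneg (K := K) x) w
  have h2 : 0 < poleDiv K x w := poleDiv_pos_iff.mpr hw
  have h3 : (0 : ℤ) < (w.deg : ℤ) := by exact_mod_cast hdeg
  have h4 : 0 < poleDiv K x w * (w.deg : ℤ) := mul_pos h2 h3
  omega

/-- For `K` algebraically closed and `x` transcendental with `F / K(x)` finite (any
characteristic): `deg (x)_∞ = [F : K(x)]`. -/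
theorem degree_poleDiv_eq_finrank [IsAlgClosed K] (x : F) (hx : Transcendental K x)
    [FiniteDimensional K⟮x⟯ F] :
    Divisor.degree (poleDiv K x) = (Module.finrank K⟮x⟯ F : ℤ) := by
  obtain ⟨X0, Xinf, -, hXinf, -, -, -, -, -, hd⟩ :=
    Fermat.Agent.S18.helper4307.exists_zero_pole_divisors x hx
  rw [← eq_poleDiv_of_apply hXinf]
  exact hd

/-- For `K` algebraically closed and `x` transcendental with `F / K(x)` finite (any
characteristic): `deg (x)_0 = [F : K(x)]`. -/
theorem degree_zeroDiv_eq_finrank [IsAlgClosed K] (x : F) (hx : Transcendental K x)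
    [FiniteDimensional K⟮x⟯ F] :
    Divisor.degree (zeroDiv K x) = (Module.finrank K⟮x⟯ F : ℤ) := by
  obtain ⟨X0, Xinf, hX0, -, -, -, -, -, hd, -⟩ :=
    Fermat.Agent.S18.helper4307.exists_zero_pole_divisors x hx
  rw [← eq_zeroDiv_of_apply hX0]
  exact hd

/-! ### Semilinear automorphisms -/

theorem poleDiv_smul_smul (g : SemilinearAut K F) (x : F) (w : Place K F) :
    poleDiv K (g • x) (g • w) = poleDiv K x w := by
  rw [poleDiv_apply, poleDiv_apply, SemilinearAut.ord_smul]

theorem zeroDiv_smul_smul (g : SemilinearAut K F) (x : F) (w : Place K F) :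
    zeroDiv K (g • x) (g • w) = zeroDiv K x w := by
  rw [zeroDiv_apply, zeroDiv_apply, SemilinearAut.ord_smul]

/-- The pole divisor of a function fixed by a semilinear automorphism `g` is `g`-stable. -/
theorem poleDiv_smul_of_fixed (g : SemilinearAut K F) {x : F} (hx : g • x = x)
    (w : Place K F) : poleDiv K x (g • w) = poleDiv K x w := by
  have h := poleDiv_smul_smul g x w
  rwa [hx] at h

/-- The zero divisor of a function fixed by a semilinear automorphism `g` is `g`-stable. -/
theorem zeroDiv_smul_of_fixed (g : SemilinearAut K F) {x : F} (hx : g • x = x)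
    (w : Place K F) : zeroDiv K x (g • w) = zeroDiv K x w := by
  have h := zeroDiv_smul_smul g x w
  rwa [hx] at h

theorem smul_poleDiv (g : SemilinearAut K F) (x : F) : g • poleDiv K x = poleDiv K (g • x) :=
  Finsupp.ext fun w => by
    rw [SemilinearAut.divisor_smul_apply]
    have h := poleDiv_smul_smul g x (g⁻¹ • w)
    rw [smul_inv_smul] at h
    exact h.symm

theorem smul_zeroDiv (g : SemilinearAut K F) (x : F) : g • zeroDiv K x = zeroDiv K (g • x) :=
  Finsupp.ext fun w => by
    rw [SemilinearAut.divisor_smul_apply]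
    have h := zeroDiv_smul_smul g x (g⁻¹ • w)
    rw [smul_inv_smul] at h
    exact h.symm

theorem smul_poleDiv_of_fixed (g : SemilinearAut K F) {x : F} (hx : g • x = x) :
    g • poleDiv K x = poleDiv K x := by rw [smul_poleDiv, hx]

theorem smul_zeroDiv_of_fixed (g : SemilinearAut K F) {x : F} (hx : g • x = x) :
    g • zeroDiv K x = zeroDiv K x := by rw [smul_zeroDiv, hx]

/-- `K`-automorphisms: `(σ x)_∞ (σ • w) = (x)_∞ w`. -/
theorem poleDiv_algEquiv (σ : F ≃ₐ[K] F) (x : F) (w : Place K F) :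
    poleDiv K (σ x) (σ • w) = poleDiv K x w := by
  rw [poleDiv_apply, poleDiv_apply, Place.ord_smul]

theorem zeroDiv_algEquiv (σ : F ≃ₐ[K] F) (x : F) (w : Place K F) :
    zeroDiv K (σ x) (σ • w) = zeroDiv K x w := by
  rw [zeroDiv_apply, zeroDiv_apply, Place.ord_smul]

/-! ### The spaces `L(a • (x)_∞ + b • (x)_0)` -/

theorem chartDiv_apply (x : F) (a b : ℕ) (w : Place K F) :
    (a • poleDiv K x + b • zeroDiv K x) w = (a : ℤ) * poleDiv K x w + (b : ℤ) * zeroDiv K x w := by
  simp [Finsupp.add_apply, Finsupp.smul_apply]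

/-- **Chart description of `L(a • (x)_∞ + b • (x)_0)`**: `f * x ^ b` is regular wherever `x` is
regular and `f * x⁻¹ ^ a` is regular wherever `x⁻¹` is regular. -/
theorem mem_rr_chart_iff {x : F} (hx : x ≠ 0) (a b : ℕ) (f : F) :
    f ∈ riemannRochSpace (a • poleDiv K x + b • zeroDiv K x) ↔
      (∀ w : Place K F, 0 ≤ w.ord x → 0 ≤ w.ord (f * x ^ b)) ∧
      (∀ w : Place K F, w.ord x ≤ 0 → 0 ≤ w.ord (f * x⁻¹ ^ a)) := by
  rw [mem_riemannRochSpace_iff]
  rcases eq_or_ne f 0 with rfl | hf
  · simp [Place.ord_zero]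
  have hxb : x ^ b ≠ 0 := pow_ne_zero b hx
  have hxa : x⁻¹ ^ a ≠ 0 := pow_ne_zero a (inv_ne_zero hx)
  constructor
  · intro h
    refine ⟨fun w hw => ?_, fun w hw => ?_⟩
    · have h1 := (h w).resolve_left hf
      rw [chartDiv_apply, poleDiv_of_ord_nonneg hw, zeroDiv_of_ord_nonneg hw] at h1
      rw [w.ord_mul hf hxb, Fermat.Agent.S24.helper1370.ord_pow]
      linarith
    · have h1 := (h w).resolve_left hf
      rw [chartDiv_apply, poleDiv_of_ord_nonpos hw, zeroDiv_of_ord_nonpos hw] at h1
      rw [w.ord_mul hf hxa, Fermat.Agent.S24.helper1370.ord_pow, Place.ord_inv]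
      linarith
  · rintro ⟨h1, h2⟩ w
    refine Or.inr ?_
    rw [chartDiv_apply]
    rcases le_total 0 (w.ord x) with hw | hw
    · have h := h1 w hw
      rw [w.ord_mul hf hxb, Fermat.Agent.S24.helper1370.ord_pow] at h
      rw [poleDiv_of_ord_nonneg hw, zeroDiv_of_ord_nonneg hw]
      linarith
    · have h := h2 w hw
      rw [w.ord_mul hf hxa, Fermat.Agent.S24.helper1370.ord_pow, Place.ord_inv] at h
      rw [poleDiv_of_ord_nonpos hw, zeroDiv_of_ord_nonpos hw]
      linarith

/-- **Chart integrality of `L(a • (x)_∞ + b • (x)_0)`** (characteristic zero): `f * x ^ b` is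
integral over `K[x]` and `f * x⁻¹ ^ a` is integral over `K[x⁻¹]`. -/
theorem mem_rr_chart_iff_isIntegral [CharZero K] {x : F} (hx : x ≠ 0) [FiniteDimensional K⟮x⟯ F]
    (a b : ℕ) (f : F) :
    f ∈ riemannRochSpace (a • poleDiv K x + b • zeroDiv K x) ↔
      IsIntegral (Algebra.adjoin K {x}) (f * x ^ b) ∧
      IsIntegral (Algebra.adjoin K {x⁻¹}) (f * x⁻¹ ^ a) := by
  have hA : K⟮x⁻¹⟯ = K⟮x⟯ := adjoin_inv_eq x
  have : FiniteDimensional K⟮x⁻¹⟯ F := by rw [hA]; infer_instance
  rw [mem_rr_chart_iff hx, isIntegral_adjoin_iff x, isIntegral_adjoin_iff x⁻¹]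
  refine and_congr Iff.rfl (forall_congr' fun w => ?_)
  rw [Place.ord_inv]
  constructor
  · intro h hw
    exact h (by omega)
  · intro h hw
    exact h (by omega)

/-- A function regular wherever `x` is regular lies in `L(a • (x)_∞)` for some `a` (the shape
of the conclusions of `hK1` in `helper603.twisted_lattice_of_components`). -/
theorem exists_mem_rr_poleDiv {x f : F} (h : ∀ w : Place K F, 0 ≤ w.ord x → 0 ≤ w.ord f) :
    ∃ a : ℕ, f ∈ riemannRochSpace (a • poleDiv K x) := by
  classical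
  refine ⟨∑ w ∈ (finite_ord_ne_zero (K := K) f).toFinset, (w.ord f).natAbs, ?_⟩
  rw [mem_riemannRochSpace_iff]
  intro w
  rcases eq_or_ne f 0 with rfl | hf
  · exact Or.inl rfl
  refine Or.inr ?_
  rw [Finsupp.smul_apply, nsmul_eq_mul]
  rcases le_or_gt 0 (w.ord x) with hw | hw
  · rw [poleDiv_of_ord_nonneg hw, mul_zero, neg_zero]
    exact h w hw
  · have h2 : 1 ≤ poleDiv K x w := poleDiv_pos_iff.mpr hw
    by_cases hwS : w.ord f = 0
    · rw [hwS, neg_nonpos]
      exact mul_nonneg (Nat.cast_nonneg _) (by omega)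
    · have hmem : w ∈ (finite_ord_ne_zero (K := K) f).toFinset := by
        rw [Set.Finite.mem_toFinset]
        exact hwS
      have h1 : (w.ord f).natAbs ≤ ∑ w ∈ (finite_ord_ne_zero (K := K) f).toFinset,
          (w.ord f).natAbs :=
        Finset.single_le_sum (f := fun w : Place K F => (w.ord f).natAbs)
          (fun _ _ => Nat.zero_le _) hmem
      have h3 : ((w.ord f).natAbs : ℤ) ≤ ((∑ w ∈ (finite_ord_ne_zero (K := K) f).toFinset,
          (w.ord f).natAbs : ℕ) : ℤ) := by exact_mod_cast h1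
      have h4 : -((w.ord f).natAbs : ℤ) ≤ w.ord f := by omega
      have h5 : ((∑ w ∈ (finite_ord_ne_zero (K := K) f).toFinset, (w.ord f).natAbs : ℕ) : ℤ)
          ≤ ((∑ w ∈ (finite_ord_ne_zero (K := K) f).toFinset, (w.ord f).natAbs : ℕ) : ℤ)
            * poleDiv K x w := le_mul_of_one_le_right (Nat.cast_nonneg _) h2
      linarith

/-- `f ∈ L(a • (x)_∞)` for some `a` iff `f` is regular wherever `x` is regular. -/
theorem exists_mem_rr_poleDiv_iff (x f : F) :
    (∃ a : ℕ, f ∈ riemannRochSpace (a • poleDiv K x)) ↔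
      ∀ w : Place K F, 0 ≤ w.ord x → 0 ≤ w.ord f := by
  refine ⟨?_, exists_mem_rr_poleDiv⟩
  rintro ⟨a, ha⟩ w hw
  rw [mem_riemannRochSpace_iff] at ha
  rcases ha w with rfl | h
  · rw [Place.ord_zero]
  · rw [Finsupp.smul_apply, poleDiv_of_ord_nonneg hw, smul_zero, neg_zero] at h
    exact h

/-- `f ∈ L(b • (x)_0)` for some `b` iff `f` is regular wherever `x⁻¹` is regular. -/
theorem exists_mem_rr_zeroDiv_iff (x f : F) :
    (∃ b : ℕ, f ∈ riemannRochSpace (b • zeroDiv K x)) ↔
      ∀ w : Place K F, w.ord x ≤ 0 → 0 ≤ w.ord f := by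
  rw [← poleDiv_inv, exists_mem_rr_poleDiv_iff]
  refine forall_congr' fun w => ?_
  rw [Place.ord_inv]
  constructor
  · intro h hw
    exact h (by omega)
  · intro h hw
    exact h (by omega)

/-- Characteristic zero: `⋃_a L(a • (x)_∞)` is the integral closure of `K[x]` (chart ring off
the poles of `x`). -/
theorem exists_mem_rr_poleDiv_iff_isIntegral [CharZero K] (x : F) [FiniteDimensional K⟮x⟯ F]
    (f : F) :
    (∃ a : ℕ, f ∈ riemannRochSpace (a • poleDiv K x)) ↔ IsIntegral (Algebra.adjoin K {x}) f := by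
  rw [exists_mem_rr_poleDiv_iff, isIntegral_adjoin_iff x]

/-- Characteristic zero: `⋃_b L(b • (x)_0)` is the integral closure of `K[x⁻¹]` (chart ring off
the zeros of `x`). -/
theorem exists_mem_rr_zeroDiv_iff_isIntegral [CharZero K] (x : F) [FiniteDimensional K⟮x⟯ F]
    (f : F) :
    (∃ b : ℕ, f ∈ riemannRochSpace (b • zeroDiv K x)) ↔
      IsIntegral (Algebra.adjoin K {x⁻¹}) f := by
  have hA : K⟮x⁻¹⟯ = K⟮x⟯ := adjoin_inv_eq x
  have : FiniteDimensional K⟮x⁻¹⟯ F := by rw [hA]; infer_instance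
  rw [← poleDiv_inv, exists_mem_rr_poleDiv_iff_isIntegral x⁻¹]

end ChartDiv

/-! ## The modular function fields -/

section ModularDiv

local notation "Qb" => AlgebraicClosure ℚ

/-- **(S)** A modular function whose `q`-expansion has integer coefficients is fixed by the
arithmetic Galois action. -/
theorem arithmeticGalois_smul_of_coe_int (N : ℕ) {x : modularFunctionFieldBar N}
    {tZ : LaurentSeries ℤ} (hx : (x : LaurentSeries Qb) = coeffMap (Int.castRingHom Qb) tZ)
    (g : Qb ≃ₐ[ℚ] Qb) : arithmeticGalois (modularFunctionFieldFull N) g • x = x := by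
  apply Subtype.ext
  rw [coe_arithmeticGalois_smul, hx, coeffMap_coeffMap]
  exact coeffMap_congr (RingHom.ext fun n => by simp) _

/-- A modular function with a pole at the cusp `∞` has a pole divisor of positive degree. -/
theorem degree_poleDiv_pos_of_order_neg (N : ℕ) [NeZero N] {x : modularFunctionFieldBar N}
    (hx : (x : LaurentSeries Qb).order < 0) : 0 < Divisor.degree (poleDiv Qb x) := by
  have hx0 : x ≠ 0 := by
    rintro rfl
    simp at hx
  have h1 := Fermat.Agent.S18.helper1040.isCuspInf_cuspInf N x hx0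
  refine degree_poleDiv_pos (w := Fermat.Agent.S18.helper1040.cuspInf N) (by rw [h1]; exact hx) ?_
  rw [Fermat.Agent.S29.helper36.place_deg_eq_one_L (AlgebraicClosure ℚ) N]
  exact Nat.one_pos

/-- **The chart divisors of a function with integer `q`-expansion and a pole at `∞`**, at any
level `N`: `E1 := poleDiv Qb x`, `E2 := zeroDiv Qb x` are effective, disjoint, stable under
`arithmeticGalois g` for EVERY `g`, `0 < deg E1` and `ord x = E2 - E1`. -/
theorem chartDiv_package (N : ℕ) [NeZero N] {x : modularFunctionFieldBar N}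
    {tZ : LaurentSeries ℤ} (hx : (x : LaurentSeries Qb) = coeffMap (Int.castRingHom Qb) tZ)
    (hord : (coeffMap (Int.castRingHom Qb) tZ).order < 0) :
    x ≠ 0 ∧
    (∀ w : Place Qb (modularFunctionFieldBar N), 0 ≤ poleDiv Qb x w) ∧
    (∀ w : Place Qb (modularFunctionFieldBar N), 0 ≤ zeroDiv Qb x w) ∧
    (∀ w : Place Qb (modularFunctionFieldBar N), poleDiv Qb x w = 0 ∨ zeroDiv Qb x w = 0) ∧
    (∀ (g : Qb ≃ₐ[ℚ] Qb) (w : Place Qb (modularFunctionFieldBar N)),
      poleDiv Qb x (arithmeticGalois (modularFunctionFieldFull N) g • w) = poleDiv Qb x w) ∧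
    (∀ (g : Qb ≃ₐ[ℚ] Qb) (w : Place Qb (modularFunctionFieldBar N)),
      zeroDiv Qb x (arithmeticGalois (modularFunctionFieldFull N) g • w) = zeroDiv Qb x w) ∧
    (∀ (g : Qb ≃ₐ[ℚ] Qb) (w : Place Qb (modularFunctionFieldBar N)), 0 < poleDiv Qb x w →
      0 < poleDiv Qb x (arithmeticGalois (modularFunctionFieldFull N) g • w)) ∧
    (∀ (g : Qb ≃ₐ[ℚ] Qb) (w : Place Qb (modularFunctionFieldBar N)), 0 < zeroDiv Qb x w →
      0 < zeroDiv Qb x (arithmeticGalois (modularFunctionFieldFull N) g • w)) ∧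
    0 ≤ poleDiv Qb x ∧ 0 ≤ zeroDiv Qb x ∧
    0 < Divisor.degree (poleDiv Qb x) ∧
    Divisor.degree (zeroDiv Qb x) = Divisor.degree (poleDiv Qb x) ∧
    ∀ w : Place Qb (modularFunctionFieldBar N), w.ord x = zeroDiv Qb x w - poleDiv Qb x w := by
  have hx0 : x ≠ 0 := by
    rintro rfl
    rw [← hx] at hord
    simp at hord
  have hS := arithmeticGalois_smul_of_coe_int N hx
  have hP : ∀ (g : Qb ≃ₐ[ℚ] Qb) (w : Place Qb (modularFunctionFieldBar N)),
      poleDiv Qb x (arithmeticGalois (modularFunctionFieldFull N) g • w) = poleDiv Qb x w :=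
    fun g w => poleDiv_smul_of_fixed _ (hS g) w
  have hZ : ∀ (g : Qb ≃ₐ[ℚ] Qb) (w : Place Qb (modularFunctionFieldBar N)),
      zeroDiv Qb x (arithmeticGalois (modularFunctionFieldFull N) g • w) = zeroDiv Qb x w :=
    fun g w => zeroDiv_smul_of_fixed _ (hS g) w
  refine ⟨hx0, poleDiv_apply_nonneg x, zeroDiv_apply_nonneg x,
    poleDiv_eq_zero_or_zeroDiv_eq_zero x, hP, hZ, fun g w h => by rw [hP g w]; exact h,
    fun g w h => by rw [hZ g w]; exact h, poleDiv_nonneg x, zeroDiv_nonneg x,
    degree_poleDiv_pos_of_order_neg N (by rw [hx]; exact hord), degree_zeroDiv hx0,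
    ord_eq_zeroDiv_sub_poleDiv x⟩

open Fermat.Agent.S18.helper6381 in
theorem order_t2Z_neg :
    (coeffMap (Int.castRingHom Qb) Fermat.Agent.S18.helper1257.t2Z).order < 0 := by
  have h : (coeffMap (Int.castRingHom Qb) Fermat.Agent.S18.helper1257.t2Z).order = -1 :=
    t2K_order Qb
  rw [h]
  norm_num

open Fermat.Agent.S18.helper6381 in
theorem order_t3Z_neg :
    (coeffMap (Int.castRingHom Qb) Fermat.Agent.S18.helper1257.t3Z).order < 0 := by
  have h : (coeffMap (Int.castRingHom Qb) Fermat.Agent.S18.helper1257.t3Z).order = -1 :=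
    t3K_order Qb
  rw [h]
  norm_num

/-- **The chart divisors of the Hauptmodul `t₂`** viewed at any level `N`
(`chartDiv_package` at `tZ = t2Z`). -/
theorem chartDiv_package_t2 (N : ℕ) [NeZero N] {x : modularFunctionFieldBar N}
    (hx : (x : LaurentSeries Qb)
      = coeffMap (Int.castRingHom Qb) Fermat.Agent.S18.helper1257.t2Z) :
    x ≠ 0 ∧
    (∀ w : Place Qb (modularFunctionFieldBar N), 0 ≤ poleDiv Qb x w) ∧
    (∀ w : Place Qb (modularFunctionFieldBar N), 0 ≤ zeroDiv Qb x w) ∧
    (∀ w : Place Qb (modularFunctionFieldBar N), poleDiv Qb x w = 0 ∨ zeroDiv Qb x w = 0) ∧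
    (∀ (g : Qb ≃ₐ[ℚ] Qb) (w : Place Qb (modularFunctionFieldBar N)),
      poleDiv Qb x (arithmeticGalois (modularFunctionFieldFull N) g • w) = poleDiv Qb x w) ∧
    (∀ (g : Qb ≃ₐ[ℚ] Qb) (w : Place Qb (modularFunctionFieldBar N)),
      zeroDiv Qb x (arithmeticGalois (modularFunctionFieldFull N) g • w) = zeroDiv Qb x w) ∧
    (∀ (g : Qb ≃ₐ[ℚ] Qb) (w : Place Qb (modularFunctionFieldBar N)), 0 < poleDiv Qb x w →
      0 < poleDiv Qb x (arithmeticGalois (modularFunctionFieldFull N) g • w)) ∧
    (∀ (g : Qb ≃ₐ[ℚ] Qb) (w : Place Qb (modularFunctionFieldBar N)), 0 < zeroDiv Qb x w →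
      0 < zeroDiv Qb x (arithmeticGalois (modularFunctionFieldFull N) g • w)) ∧
    0 ≤ poleDiv Qb x ∧ 0 ≤ zeroDiv Qb x ∧
    0 < Divisor.degree (poleDiv Qb x) ∧
    Divisor.degree (zeroDiv Qb x) = Divisor.degree (poleDiv Qb x) ∧
    ∀ w : Place Qb (modularFunctionFieldBar N), w.ord x = zeroDiv Qb x w - poleDiv Qb x w :=
  chartDiv_package N hx order_t2Z_neg

/-- **The chart divisors of the Hauptmodul `t₃`** viewed at any level `N`
(`chartDiv_package` at `tZ = t3Z`). -/
theorem chartDiv_package_t3 (N : ℕ) [NeZero N] {x : modularFunctionFieldBar N}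
    (hx : (x : LaurentSeries Qb)
      = coeffMap (Int.castRingHom Qb) Fermat.Agent.S18.helper1257.t3Z) :
    x ≠ 0 ∧
    (∀ w : Place Qb (modularFunctionFieldBar N), 0 ≤ poleDiv Qb x w) ∧
    (∀ w : Place Qb (modularFunctionFieldBar N), 0 ≤ zeroDiv Qb x w) ∧
    (∀ w : Place Qb (modularFunctionFieldBar N), poleDiv Qb x w = 0 ∨ zeroDiv Qb x w = 0) ∧
    (∀ (g : Qb ≃ₐ[ℚ] Qb) (w : Place Qb (modularFunctionFieldBar N)),
      poleDiv Qb x (arithmeticGalois (modularFunctionFieldFull N) g • w) = poleDiv Qb x w) ∧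
    (∀ (g : Qb ≃ₐ[ℚ] Qb) (w : Place Qb (modularFunctionFieldBar N)),
      zeroDiv Qb x (arithmeticGalois (modularFunctionFieldFull N) g • w) = zeroDiv Qb x w) ∧
    (∀ (g : Qb ≃ₐ[ℚ] Qb) (w : Place Qb (modularFunctionFieldBar N)), 0 < poleDiv Qb x w →
      0 < poleDiv Qb x (arithmeticGalois (modularFunctionFieldFull N) g • w)) ∧
    (∀ (g : Qb ≃ₐ[ℚ] Qb) (w : Place Qb (modularFunctionFieldBar N)), 0 < zeroDiv Qb x w →
      0 < zeroDiv Qb x (arithmeticGalois (modularFunctionFieldFull N) g • w)) ∧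
    0 ≤ poleDiv Qb x ∧ 0 ≤ zeroDiv Qb x ∧
    0 < Divisor.degree (poleDiv Qb x) ∧
    Divisor.degree (zeroDiv Qb x) = Divisor.degree (poleDiv Qb x) ∧
    ∀ w : Place Qb (modularFunctionFieldBar N), w.ord x = zeroDiv Qb x w - poleDiv Qb x w :=
  chartDiv_package N hx order_t3Z_neg

open Fermat.Agent.S18.helper6381 in
/-- **The line `Qb(t₂) ⊆ F_N`** (`2 ∣ N`): `t₂` is transcendental, `F_N` is finite over
`Qb(t₂)` of degree `ψ(N) / 3`, and this degree is the degree of the two chart divisors. -/
theorem chartDiv_line_t2 (N : ℕ) [NeZero N] (h2N : 2 ∣ N) {x : modularFunctionFieldBar N}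
    (hx : (x : LaurentSeries Qb)
      = coeffMap (Int.castRingHom Qb) Fermat.Agent.S18.helper1257.t2Z) :
    Transcendental Qb x ∧ FiniteDimensional Qb⟮x⟯ (modularFunctionFieldBar N) ∧
    3 * Module.finrank Qb⟮x⟯ (modularFunctionFieldBar N) = dedekindPsi N ∧
    Divisor.degree (poleDiv Qb x) = (Module.finrank Qb⟮x⟯ (modularFunctionFieldBar N) : ℤ) ∧
    Divisor.degree (zeroDiv Qb x) = (Module.finrank Qb⟮x⟯ (modularFunctionFieldBar N) : ℤ) := by
  have hx' : (x : LaurentSeries Qb) = t2K Qb := hx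
  obtain ⟨htr, hfin, hdeg⟩ := hline2_bar N h2N x (by rw [hx']; exact t2K_sq Qb)
    (by rw [hx']; exact t2K_qExpand Qb)
  exact ⟨htr, hfin, hdeg, degree_poleDiv_eq_finrank x htr, degree_zeroDiv_eq_finrank x htr⟩

open Fermat.Agent.S18.helper6381 in
/-- **The line `Qb(t₃) ⊆ F_N`** (`3 ∣ N`): `t₃` is transcendental, `F_N` is finite over
`Qb(t₃)` of degree `ψ(N) / 4`, and this degree is the degree of the two chart divisors. -/
theorem chartDiv_line_t3 (N : ℕ) [NeZero N] (h3N : 3 ∣ N) {x : modularFunctionFieldBar N}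
    (hx : (x : LaurentSeries Qb)
      = coeffMap (Int.castRingHom Qb) Fermat.Agent.S18.helper1257.t3Z) :
    Transcendental Qb x ∧ FiniteDimensional Qb⟮x⟯ (modularFunctionFieldBar N) ∧
    4 * Module.finrank Qb⟮x⟯ (modularFunctionFieldBar N) = dedekindPsi N ∧
    Divisor.degree (poleDiv Qb x) = (Module.finrank Qb⟮x⟯ (modularFunctionFieldBar N) : ℤ) ∧
    Divisor.degree (zeroDiv Qb x) = (Module.finrank Qb⟮x⟯ (modularFunctionFieldBar N) : ℤ) := by
  have hx' : (x : LaurentSeries Qb) = t3K Qb := hx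
  obtain ⟨htr, hfin, hdeg⟩ := hline3_bar N h3N x (by rw [hx']; exact t3K_cube Qb)
    (by rw [hx']; exact t3K_qExpand Qb)
  exact ⟨htr, hfin, hdeg, degree_poleDiv_eq_finrank x htr, degree_zeroDiv_eq_finrank x htr⟩

end ModularDiv

end Fermat.Agent.S35.helper2974
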