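/-
S35, final composition, PRE-FLIGHT (captain helper2039): the chart / node package
`helper2039.Stmt_ChartNodesFrob` from its three suppliers in their announced shapes:
the chart front (`helper3729.chart_front_t2/_t3`), the reduction containment
(`helper3028.hRR_t2L_lit/_t3L_lit`) and the node tail (`helper2736.kron_nodes_t2/_t3`).
-/
import Fermat.Agent.S35.helper2039_NodalFrobInst
import Fermat.Agent.S35.helper2974_ChartDiv

set_option autoImplicit false

namespace Fermat.Agent.S35.helper2039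

open AlgebraicCurve ModularCurve HahnSeries
open Fermat.Agent.S35.helper1219
open Fermat.Agent.S35.helper603 (valueAt)
open Fermat.Agent.S35.helper882 (gpVal gpBase gpRed gpRing)
open Fermat.Agent.S35.helper1928 (fibreIncl)
open Fermat.Agent.S35.helper2974 (poleDiv zeroDiv)

local notation "Qb" => AlgebraicClosure ℚ
local notation "GQ" => (AlgebraicClosure ℚ ≃ₐ[ℚ] AlgebraicClosure ℚ)

noncomputable section

/-- **The chart / node package of S35 from its three parts** (generic in the chart function `x`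
and its reduction `x₁`; `x₂ := x₁ ^ q`). -/
theorem stmt_ChartNodesFrob_of_parts {q M : ℕ} [NeZero q] [NeZero M] (h' : Nat.Coprime q M)
    (A : ValuationSubring Qb)
    [HasPrincipalDivisors Qb (modularFunctionFieldBar (q * M))]
    [HasPrincipalDivisors (IsLocalRing.ResidueField A)
      ↥(modularFunctionFieldFullC (IsLocalRing.ResidueField A) M)]
    (x : modularFunctionFieldBar (q * M))
    (x₁ : ↥(modularFunctionFieldFullC (IsLocalRing.ResidueField A) M))
    -- the chart front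
    (hfront : Transcendental Qb x ∧
      FiniteDimensional (IntermediateField.adjoin Qb {x}) (modularFunctionFieldBar (q * M)) ∧
      (∀ g : GQ, arithmeticGalois (modularFunctionFieldFull (q * M)) g • x = x) ∧
      (∀ i, gpVal A (q * M) (atkinLehnerBar q M h') i x = 1) ∧
      Transcendental (IsLocalRing.ResidueField A) x₁ ∧
      FiniteDimensional (IntermediateField.adjoin (IsLocalRing.ResidueField A) {x₁})
        ↥(modularFunctionFieldFullC (IsLocalRing.ResidueField A) M) ∧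
      Transcendental (IsLocalRing.ResidueField A) (x₁ ^ q) ∧
      FiniteDimensional (IntermediateField.adjoin (IsLocalRing.ResidueField A) {x₁ ^ q})
        ↥(modularFunctionFieldFullC (IsLocalRing.ResidueField A) M) ∧
      gpRed A (q * M) (atkinLehnerBar q M h') x =
        fibreIncl (IsLocalRing.ResidueField A) M (x₁, x₁ ^ q) ∧
      (∀ n : ℤ, ((x₁ : LaurentSeries (IsLocalRing.ResidueField A)).coeff n) ^ q =
        (x₁ : LaurentSeries (IsLocalRing.ResidueField A)).coeff n))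
    -- the reduction containment
    (hRR : ∀ (E1 E2 : Divisor Qb (modularFunctionFieldBar (q * M))), 0 ≤ E1 → 0 ≤ E2 →
      (∀ w : Place Qb (modularFunctionFieldBar (q * M)), E1 w = 0 ∨ E2 w = 0) →
      (∀ w : Place Qb (modularFunctionFieldBar (q * M)), w.ord x = E2 w - E1 w) →
      ∀ (Yinf₁ Y0₁ Yinf₂ Y0₂ : Divisor (IsLocalRing.ResidueField A)
        ↥(modularFunctionFieldFullC (IsLocalRing.ResidueField A) M)),
      0 ≤ Yinf₁ → 0 ≤ Y0₁ → 0 ≤ Yinf₂ → 0 ≤ Y0₂ →
      (∀ w, w.ord x₁ = Y0₁ w - Yinf₁ w) → (∀ w, w.ord (x₁ ^ q) = Y0₂ w - Yinf₂ w) →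
      ∀ a b : ℕ, ∀ f ∈ riemannRochSpace (a • E1 + b • E2),
        (∀ i, gpVal A (q * M) (atkinLehnerBar q M h') i f ≤ 1) →
        ∃ y₁ ∈ riemannRochSpace (a • Yinf₁ + b • Y0₁),
          ∃ y₂ ∈ riemannRochSpace (a • Yinf₂ + b • Y0₂),
            gpRed A (q * M) (atkinLehnerBar q M h') f =
              fibreIncl (IsLocalRing.ResidueField A) M (y₁, y₂))
    -- the node tail
    (hKron : ∀ hdegk : (∀ w : Place (IsLocalRing.ResidueField A)
        ↥(modularFunctionFieldFullC (IsLocalRing.ResidueField A) M), w.deg = 1),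
      ∃ (I : Type) (_ : Fintype I)
        (P Q : I → Place (IsLocalRing.ResidueField A)
          ↥(modularFunctionFieldFullC (IsLocalRing.ResidueField A) M)),
        Function.Injective P ∧ Function.Injective Q ∧
        (∀ i, (P i).ord x₁ = 0) ∧ (∀ i, (Q i).ord (x₁ ^ q) = 0) ∧
        (∀ i, ∀ u u' : ↥(modularFunctionFieldFullC (IsLocalRing.ResidueField A) M),
          u ∈ Fermat.Agent.S35.helper825.chartAlg (IsLocalRing.ResidueField A) x₁ →
          (u' : LaurentSeries (IsLocalRing.ResidueField A)) =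
            qExpand (IsLocalRing.ResidueField A) q
              (u : LaurentSeries (IsLocalRing.ResidueField A)) →
          valueAt (P i) (hdegk (P i)) u' = valueAt (Q i) (hdegk (Q i)) u ∧
            valueAt (Q i) (hdegk (Q i)) u' = valueAt (P i) (hdegk (P i)) u) ∧
        ∀ (E1 E2 : Divisor Qb (modularFunctionFieldBar (q * M)))
          (Yinf₁ Y0₁ Yinf₂ Y0₂ : Divisor (IsLocalRing.ResidueField A)
            ↥(modularFunctionFieldFullC (IsLocalRing.ResidueField A) M)),
          (∀ w, E1 w = max 0 (-(w.ord x))) → (∀ w, E2 w = max 0 (w.ord x)) →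
          (∀ w, Yinf₁ w = max 0 (-(w.ord x₁))) → (∀ w, Y0₁ w = max 0 (w.ord x₁)) →
          (∀ w, Yinf₂ w = max 0 (-(w.ord (x₁ ^ q)))) → (∀ w, Y0₂ w = max 0 (w.ord (x₁ ^ q))) →
          (∀ a : ℕ, ∀ f ∈ riemannRochSpace (a • E1),
            (∀ i, gpVal A (q * M) (atkinLehnerBar q M h') i f ≤ 1) →
            ∀ y₁ ∈ riemannRochSpace (a • Yinf₁), ∀ y₂ ∈ riemannRochSpace (a • Yinf₂),
              gpRed A (q * M) (atkinLehnerBar q M h') f =
                fibreIncl (IsLocalRing.ResidueField A) M (y₁, y₂) →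
              ∀ i, valueAt (Q i) (hdegk (Q i)) y₂ = valueAt (P i) (hdegk (P i)) y₁) ∧
          (∀ a : ℕ, ∀ y₁ ∈ riemannRochSpace (a • Yinf₁), ∀ y₂ ∈ riemannRochSpace (a • Yinf₂),
            (∀ i, valueAt (Q i) (hdegk (Q i)) y₂ = valueAt (P i) (hdegk (P i)) y₁) →
            ∃ a' : ℕ, ∃ f ∈ riemannRochSpace (a' • E1),
              (∀ i, gpVal A (q * M) (atkinLehnerBar q M h') i f ≤ 1) ∧
                gpRed A (q * M) (atkinLehnerBar q M h') f =
                  fibreIncl (IsLocalRing.ResidueField A) M (y₁, y₂)) ∧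
          (∀ b : ℕ, ∀ y₁ ∈ riemannRochSpace (b • Y0₁), ∀ y₂ ∈ riemannRochSpace (b • Y0₂),
            (∀ i, valueAt (Q i) (hdegk (Q i)) y₂ = valueAt (P i) (hdegk (P i)) y₁) →
            ∃ b' : ℕ, ∃ f ∈ riemannRochSpace (b' • E2),
              (∀ i, gpVal A (q * M) (atkinLehnerBar q M h') i f ≤ 1) ∧
                gpRed A (q * M) (atkinLehnerBar q M h') f =
                  fibreIncl (IsLocalRing.ResidueField A) M (y₁, y₂))) :
    Stmt_ChartNodesFrob q M h' A := by
  intro hdegk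
  obtain ⟨hxtr, hxfin, hxgal, hxv, hx₁tr, hx₁fin, hx₂tr, hx₂fin, hredx, hx₁Fq⟩ := hfront
  obtain ⟨I, iI, P, Q, hP, hQ, hPx, hQx, hFROB, htail⟩ := hKron hdegk
  refine ⟨x, x₁, x₁ ^ q, I, iI, P, Q, hxtr, hxfin, hxgal, hxv, hx₁tr, hx₁fin, hx₂tr, hx₂fin,
    hredx, hP, hQ, hPx, hQx, rfl, hx₁Fq, hFROB, ?_⟩
  intro E1 E2 Yinf₁ Y0₁ Yinf₂ Y0₂ hE1f hE2f hYinf₁f hY0₁f hYinf₂f hY0₂f
  obtain ⟨hnode, hK1, hK2⟩ := htail E1 E2 Yinf₁ Y0₁ Yinf₂ Y0₂ hE1f hE2f hYinf₁f hY0₁f hYinf₂f
    hY0₂f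
  have e1 : E1 = poleDiv Qb x := helper2974.eq_poleDiv_of_apply hE1f
  have e2 : E2 = zeroDiv Qb x := helper2974.eq_zeroDiv_of_apply hE2f
  have e3 : Yinf₁ = poleDiv (IsLocalRing.ResidueField A) x₁ :=
    helper2974.eq_poleDiv_of_apply hYinf₁f
  have e4 : Y0₁ = zeroDiv (IsLocalRing.ResidueField A) x₁ :=
    helper2974.eq_zeroDiv_of_apply hY0₁f
  have e5 : Yinf₂ = poleDiv (IsLocalRing.ResidueField A) (x₁ ^ q) :=
    helper2974.eq_poleDiv_of_apply hYinf₂f
  have e6 : Y0₂ = zeroDiv (IsLocalRing.ResidueField A) (x₁ ^ q) :=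
    helper2974.eq_zeroDiv_of_apply hY0₂f
  refine ⟨?_, hnode, hK1, hK2⟩
  subst e1 e2 e3 e4 e5 e6
  exact hRR _ _ (helper2974.poleDiv_nonneg x) (helper2974.zeroDiv_nonneg x)
    (helper2974.poleDiv_eq_zero_or_zeroDiv_eq_zero x)
    (helper2974.ord_eq_zeroDiv_sub_poleDiv x) _ _ _ _
    (helper2974.poleDiv_nonneg x₁) (helper2974.zeroDiv_nonneg x₁)
    (helper2974.poleDiv_nonneg (x₁ ^ q)) (helper2974.zeroDiv_nonneg (x₁ ^ q))
    (helper2974.ord_eq_zeroDiv_sub_poleDiv x₁) (helper2974.ord_eq_zeroDiv_sub_poleDiv (x₁ ^ q))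

end

end Fermat.Agent.S35.helper2039
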