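/-
S35, final composition, PRE-FLIGHT 2 (captain helper2039): the chart / node package at the
Hauptmodul charts `t_2`, `t_3` from the node tail alone.
-/
import Fermat.Agent.S35.helper2039_ChartNodesFrobAll
import Fermat.Agent.S35.helper3729_ChartFront
import Fermat.Agent.S35.helper3028_HContGp

set_option autoImplicit false
set_option synthInstance.maxHeartbeats 400000
set_option maxHeartbeats 1000000

namespace Fermat.Agent.S35.helper2039

open AlgebraicCurve ModularCurve HahnSeries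
open Fermat.Agent.S35.helper1219
open Fermat.Agent.S35.helper603 (valueAt)
open Fermat.Agent.S35.helper882 (gpVal gpBase gpRed gpRing)
open Fermat.Agent.S35.helper1928 (fibreIncl)
open Fermat.Agent.S18.helper6381 (t2L t3L t2F t3F)

local notation "Qb" => AlgebraicClosure ℚ
local notation "GQ" => (AlgebraicClosure ℚ ≃ₐ[ℚ] AlgebraicClosure ℚ)

noncomputable section

/-- The node tail of `Stmt_ChartNodesFrob` for a chart `(x, x₁)` (with `x₂ := x₁ ^ q`). -/
def NodeTail {q M : ℕ} [NeZero q] [NeZero M] (h' : Nat.Coprime q M)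
    (A : ValuationSubring Qb)
    (x : modularFunctionFieldBar (q * M))
    (x₁ : ↥(modularFunctionFieldFullC (IsLocalRing.ResidueField A) M)) : Prop :=
  ∀ hdegk : (∀ w : Place (IsLocalRing.ResidueField A)
        ↥(modularFunctionFieldFullC (IsLocalRing.ResidueField A) M), w.deg = 1),
      ∃ (I : Type) (_ : Fintype I)
        (P Q : I → Place (IsLocalRing.ResidueField A)
          ↥(modularFunctionFieldFullC (IsLocalRing.ResidueField A) M)),
        Function.Injective P ∧ Function.Injective Q ∧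
        (∀ i, (P i).ord x₁ = 0) ∧ (∀ i, (Q i).ord (x₁ ^ q) = 0) ∧
        (∀ i, ∀ u u' : ↥(modularFunctionFieldFullC (IsLocalRing.ResidueField A) M),
          u ∈ Fermat.Agent.S35.helper825.chartAlg (IsLocalRing.ResidueField A) x₁ →
          (u' : LaurentSeries (IsLocalRing.ResidueField A)) =
            qExpand (IsLocalRing.ResidueField A) q
              (u : LaurentSeries (IsLocalRing.ResidueField A)) →
          valueAt (P i) (hdegk (P i)) u' = valueAt (Q i) (hdegk (Q i)) u ∧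
            valueAt (Q i) (hdegk (Q i)) u' = valueAt (P i) (hdegk (P i)) u) ∧
        ∀ (E1 E2 : Divisor Qb (modularFunctionFieldBar (q * M)))
          (Yinf₁ Y0₁ Yinf₂ Y0₂ : Divisor (IsLocalRing.ResidueField A)
            ↥(modularFunctionFieldFullC (IsLocalRing.ResidueField A) M)),
          (∀ w, E1 w = max 0 (-(w.ord x))) → (∀ w, E2 w = max 0 (w.ord x)) →
          (∀ w, Yinf₁ w = max 0 (-(w.ord x₁))) → (∀ w, Y0₁ w = max 0 (w.ord x₁)) →
          (∀ w, Yinf₂ w = max 0 (-(w.ord (x₁ ^ q)))) → (∀ w, Y0₂ w = max 0 (w.ord (x₁ ^ q))) →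
          (∀ a : ℕ, ∀ f ∈ riemannRochSpace (a • E1),
            (∀ i, gpVal A (q * M) (atkinLehnerBar q M h') i f ≤ 1) →
            ∀ y₁ ∈ riemannRochSpace (a • Yinf₁), ∀ y₂ ∈ riemannRochSpace (a • Yinf₂),
              gpRed A (q * M) (atkinLehnerBar q M h') f =
                fibreIncl (IsLocalRing.ResidueField A) M (y₁, y₂) →
              ∀ i, valueAt (Q i) (hdegk (Q i)) y₂ = valueAt (P i) (hdegk (P i)) y₁) ∧
          (∀ a : ℕ, ∀ y₁ ∈ riemannRochSpace (a • Yinf₁), ∀ y₂ ∈ riemannRochSpace (a • Yinf₂),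
            (∀ i, valueAt (Q i) (hdegk (Q i)) y₂ = valueAt (P i) (hdegk (P i)) y₁) →
            ∃ a' : ℕ, ∃ f ∈ riemannRochSpace (a' • E1),
              (∀ i, gpVal A (q * M) (atkinLehnerBar q M h') i f ≤ 1) ∧
                gpRed A (q * M) (atkinLehnerBar q M h') f =
                  fibreIncl (IsLocalRing.ResidueField A) M (y₁, y₂)) ∧
          (∀ b : ℕ, ∀ y₁ ∈ riemannRochSpace (b • Y0₁), ∀ y₂ ∈ riemannRochSpace (b • Y0₂),
            (∀ i, valueAt (Q i) (hdegk (Q i)) y₂ = valueAt (P i) (hdegk (P i)) y₁) →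
            ∃ b' : ℕ, ∃ f ∈ riemannRochSpace (b' • E2),
              (∀ i, gpVal A (q * M) (atkinLehnerBar q M h') i f ≤ 1) ∧
                gpRed A (q * M) (atkinLehnerBar q M h') f =
                  fibreIncl (IsLocalRing.ResidueField A) M (y₁, y₂))

/-- The chart / node package at `t_2` from the node tail. -/
theorem stmt_ChartNodesFrob_t2_of_tail (q M : ℕ) [NeZero q] [NeZero M] (h' : Nat.Coprime q M)
    (hq : q.Prime) (A : ValuationSubring Qb) (hA : A.LiesOverPrime q) (h2 : 2 ∣ M)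
    (hNk : ∀ p : ℕ, p.Prime → p ∣ M → (p : IsLocalRing.ResidueField A) ≠ 0)
    (hT : NodeTail h' A (t2L Qb (q * M) (h2.mul_left q))
      (t2F (IsLocalRing.ResidueField A) M h2 hNk)) :
    Stmt_ChartNodesFrob q M h' A := by
  haveI : Fact q.Prime := ⟨hq⟩
  have hqM : ¬ q ∣ M := (Nat.Prime.coprime_iff_not_dvd hq).mp h'
  haveI : NeZero (q * M) := ⟨mul_ne_zero hq.ne_zero (NeZero.ne M)⟩
  haveI := Fermat.Agent.S37.helper5162.hasPrincipalDivisors_FN (q * M)
  haveI := Fermat.Agent.Lib.helper6879.isAlgClosed_residueField A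
  have hNk' := Fermat.Agent.S18.helper4307.natCast_ne_zero_residue M hq hqM A hA
  haveI := Fermat.Agent.S18.helper4307.hasPrincipalDivisors_fullC (IsLocalRing.ResidueField A) M hNk'
  exact stmt_ChartNodesFrob_of_parts h' A _ _
    (Fermat.Agent.S35.helper3729.chart_front_t2 q M h' hq A hA h2 hNk)
    (fun E1 E2 hE1 hE2 hdisj hxord Yinf₁ Y0₁ Yinf₂ Y0₂ hYinf₁ hY0₁ hYinf₂ hY0₂ hordx₁ hordx₂ =>
      Fermat.Agent.S35.helper3028.hRR_t2L_lit q M h' A hq hA h2 E1 E2 hE1 hE2 hdisj hxord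
        _ rfl Yinf₁ Y0₁ Yinf₂ Y0₂ hYinf₁ hY0₁ hYinf₂ hY0₂ hordx₁ hordx₂)
    hT

/-- The chart / node package at `t_3` from the node tail. -/
theorem stmt_ChartNodesFrob_t3_of_tail (q M : ℕ) [NeZero q] [NeZero M] (h' : Nat.Coprime q M)
    (hq : q.Prime) (A : ValuationSubring Qb) (hA : A.LiesOverPrime q) (h3 : 3 ∣ M)
    (hNk : ∀ p : ℕ, p.Prime → p ∣ M → (p : IsLocalRing.ResidueField A) ≠ 0)
    (hT : NodeTail h' A (t3L Qb (q * M) (h3.mul_left q))
      (t3F (IsLocalRing.ResidueField A) M h3 hNk)) :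
    Stmt_ChartNodesFrob q M h' A := by
  haveI : Fact q.Prime := ⟨hq⟩
  have hqM : ¬ q ∣ M := (Nat.Prime.coprime_iff_not_dvd hq).mp h'
  haveI : NeZero (q * M) := ⟨mul_ne_zero hq.ne_zero (NeZero.ne M)⟩
  haveI := Fermat.Agent.S37.helper5162.hasPrincipalDivisors_FN (q * M)
  haveI := Fermat.Agent.Lib.helper6879.isAlgClosed_residueField A
  have hNk' := Fermat.Agent.S18.helper4307.natCast_ne_zero_residue M hq hqM A hA
  haveI := Fermat.Agent.S18.helper4307.hasPrincipalDivisors_fullC (IsLocalRing.ResidueField A) M hNk'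
  exact stmt_ChartNodesFrob_of_parts h' A _ _
    (Fermat.Agent.S35.helper3729.chart_front_t3 q M h' hq A hA h3 hNk)
    (fun E1 E2 hE1 hE2 hdisj hxord Yinf₁ Y0₁ Yinf₂ Y0₂ hYinf₁ hY0₁ hYinf₂ hY0₂ hordx₁ hordx₂ =>
      Fermat.Agent.S35.helper3028.hRR_t3L_lit q M h' A hq hA h3 E1 E2 hE1 hE2 hdisj hxord
        _ rfl Yinf₁ Y0₁ Yinf₂ Y0₂ hYinf₁ hY0₁ hYinf₂ hY0₂ hordx₁ hordx₂)
    hT

/-- **The open leaf of S35 from the node tails at `t_2` and `t_3`.** -/
theorem stmt_ChartNodesFrobGeom_of_tails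
    (hT2 : ∀ (q M : ℕ) [NeZero q] [NeZero M] (h' : Nat.Coprime q M) (_ : q.Prime) (_ : 2 ≠ q)
      (A : ValuationSubring Qb) (_ : A.LiesOverPrime q) (h2 : 2 ∣ M)
      (hNk : ∀ p : ℕ, p.Prime → p ∣ M → (p : IsLocalRing.ResidueField A) ≠ 0),
      NodeTail h' A (t2L Qb (q * M) (h2.mul_left q)) (t2F (IsLocalRing.ResidueField A) M h2 hNk))
    (hT3 : ∀ (q M : ℕ) [NeZero q] [NeZero M] (h' : Nat.Coprime q M) (_ : q.Prime) (_ : 3 ≠ q)
      (A : ValuationSubring Qb) (_ : A.LiesOverPrime q) (h3 : 3 ∣ M)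
      (hNk : ∀ p : ℕ, p.Prime → p ∣ M → (p : IsLocalRing.ResidueField A) ≠ 0),
      NodeTail h' A (t3L Qb (q * M) (h3.mul_left q)) (t3F (IsLocalRing.ResidueField A) M h3 hNk)) :
    Stmt_ChartNodesFrobGeom := by
  intro q M r _ _ h' hq hr hrq hrM A hA
  have hNk := Fermat.Agent.S35.helper3729.chartFront_hNk q M hq h' A hA
  rcases hr with rfl | rfl
  · exact stmt_ChartNodesFrob_t2_of_tail q M h' hq A hA hrM hNk
      (hT2 q M h' hq hrq A hA hrM hNk)
  · exact stmt_ChartNodesFrob_t3_of_tail q M h' hq A hA hrM hNk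
      (hT3 q M h' hq hrq A hA hrM hNk)

end

end Fermat.Agent.S35.helper2039
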