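/-
S35, final composition (captain helper2039, backup copy): the one geometric leaf
`helper2039.Stmt_ChartNodesFrobGeom` from the node tails `helper2736.kron_nodes_t2/_t3`.
-/
import Fermat.Agent.S35.helper2039_ChartNodesFrobInst2
import Fermat.Agent.S35.helper2736_KronW

set_option autoImplicit false
set_option synthInstance.maxHeartbeats 400000
set_option maxHeartbeats 1000000

namespace Fermat.Agent.S35.helper2039

/-- **The one geometric leaf of S35** (backup copy of `helper3729.stmt_ChartNodesFrobGeom`). -/
theorem stmt_ChartNodesFrobGeom_backup : Stmt_ChartNodesFrobGeom :=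
  stmt_ChartNodesFrobGeom_of_tails
    (fun q M _ _ h' hq hq2 A hA h2 hNk hdegk =>
      Fermat.Agent.S35.helper2736.kron_nodes_t2 A q M h' hq (Ne.symm hq2) hA h2 hNk hdegk)
    (fun q M _ _ h' hq hq3 A hA h3 hNk hdegk =>
      Fermat.Agent.S35.helper2736.kron_nodes_t3 A q M h' hq (Ne.symm hq3) hA h3 hNk hdegk)

end Fermat.Agent.S35.helper2039
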