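/-
helper3346 — S35, final wiring of the lattice clause (LP2, captain ruling R5), part 1.

`exists_tower`: the compatible tower of level maps `ι n : Λ → J₀(M)[lam ^ n]` (kernel
`lam ^ n • Λ`, `lam • ι (n + 1) = ι n`), equivariant for the Hecke operators `T_ℓ` (`ℓ ∤ M`) AND
for an arbitrary family of extra operator pairs `(b k, B k)` (intended: `U_q`, `W_q` at the primes
`q ∥ M`), as soon as every extra pair is compatible with the canonical Kummer correspondence
`corrAt M hn` at every single modulus `n ≠ 0`.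

Everything is produced from landed material: the unconditional analytic Kummer dictionary
(`S31.helper2756.multSpec_all`), (K5) on `JZero` (`kummerCorr_JZero`), finiteness of the torsion
(`S29.helper288`), and Kőnig's lemma (`S30.helper30.exists_compatible_family`).
-/
import Fermat.Agent.S30.helper30_LatticeLevel
import Fermat.Agent.S31.helper2756_MultMer

set_option autoImplicit false

namespace Fermat.Agent.S35.helper3346

open ModularCurve AlgebraicCurve CongruenceSubgroup
open Fermat.Agent.S31.helper2756 Fermat.Agent.S31.helper6356 Fermat.Agent.S30.helper30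

/-- The canonical Kummer correspondence on `J₀(M)` at modulus `n ≠ 0`: the concrete multiplier
relation `MultMer M n ζ_n` (`ζ_n = exp (2πi/n)`). -/
theorem corrAt (M : ℕ) [NeZero M] {n : ℕ} (hn : n ≠ 0) :
    KummerCorr n (RelJ (N := M) n (MultMer M n (zetaU n))) :=
  kummerCorr_JZero hn (multSpec_all hn (zetaU_isPrimitiveRoot hn))

/-- **The tower of level maps with extra operators.** -/
theorem exists_tower (M : ℕ) [NeZero M] (lam : ℕ) (hlam : lam ≠ 0) (S : Set ℕ)
    {κ : Type} (b : κ → Module.End ℤ (Lam M)) (B : κ → JZero M →+ JZero M)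
    (hC : ∀ (k : κ) (n : ℕ) (hn : n ≠ 0),
      (corrAt M hn).Compat (b k) (AddMonoidHom.toIntLinearMap (B k))) :
    ∃ ι : ℕ → Lam M →+ JZero M,
      (∀ (n : ℕ) (x : Lam M), lam ^ n • ι n x = 0) ∧
      (∀ (n : ℕ) (x : Lam M), ι n x = 0 → ∃ y : Lam M, x = lam ^ n • y) ∧
      (∀ (n : ℕ) (x : Lam M), lam • ι (n + 1) x = ι n x) ∧
      (∀ (ℓ : ℕ) (hℓ : ℓ.Prime) (hℓM : ¬ ℓ ∣ M) (hℓS : ℓ ∉ S) (n : ℕ) (x : Lam M),
        ι n (heckeLatticeHom M S (CuspForm.heckeAlgebra.T hℓ hℓM hℓS) x) =
          heckeOperatorBar M ⟨ℓ, hℓ⟩ (ι n x)) ∧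
      (∀ (k : κ) (n : ℕ) (x : Lam M), ι n (b k x) = B k (ι n x)) := by
  let I : Type := {ℓ : ℕ // ℓ.Prime ∧ ¬ ℓ ∣ M ∧ ℓ ∉ S} ⊕ κ
  let t : I → Lam M →+ Lam M := fun i =>
    match i with
    | Sum.inl i => (heckeLatticeHom M S
        (CuspForm.heckeAlgebra.T i.2.1 i.2.2.1 i.2.2.2)).toAddMonoidHom
    | Sum.inr k => (b k).toAddMonoidHom
  let τ : I → JZero M →+ JZero M := fun i =>
    match i with
    | Sum.inl i => (heckeOperatorBar M ⟨i.1, i.2.1⟩).toAddMonoidHom
    | Sum.inr k => B k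
  have hΛ : ∀ x : Lam M, lam • x = 0 → x = 0 := by
    intro x hx
    apply Subtype.ext
    refine AddMonoidHom.ext fun γ => ?_
    have h1 : lam • (x : Additive (Gamma0 M) →+ ℤ) γ = 0 := by
      have := congrArg (fun y : Lam M => (y : Additive (Gamma0 M) →+ ℤ) γ) hx
      simpa using this
    rcases smul_eq_zero.mp h1 with h2 | h2
    · exact absurd h2 hlam
    · simpa using h2
  have hne : ∀ k, (levelSet lam t τ k).Nonempty := by
    intro k
    cases k with
    | zero => exact ⟨0, zero_mem_levelSet lam t τ⟩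
    | succ k =>
      have hn : lam ^ (k + 1) ≠ 0 := pow_ne_zero (k + 1) hlam
      refine ⟨(corrAt M hn).iota, (corrAt M hn).nsmul_iota,
        fun x hx => ((corrAt M hn).iota_eq_zero_iff x).1 hx, ?_⟩
      rintro (i | k') x
      · have : NeZero i.1 := ⟨i.2.1.ne_zero⟩
        exact compat_hecke hn (multSpec_all hn (zetaU_isPrimitiveRoot hn)) i.1 i.2.1 i.2.2.1
          (Fermat.Agent.S37.helper8426.heckeInputsAlong M i.1)
          (heckeLatticeHom M S (CuspForm.heckeAlgebra.T i.2.1 i.2.2.1 i.2.2.2))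
          (coe_heckeLatticeHom_T M S i.2.1 i.2.2.1 i.2.2.2) x
      · exact hC k' _ hn x
  obtain ⟨ι, hι, hcompat⟩ := exists_compatible_family hΛ t τ
    (fun k => Fermat.Agent.S29.helper288.finite_torsion_JZero M (pow_ne_zero k hlam)) hne
  refine ⟨ι, fun n x => (hι n).1 x, fun n x => (hι n).2.1 x, ?_, ?_, ?_⟩
  · intro n x
    exact congrArg (fun f : Lam M →+ JZero M => f x) (hcompat n)
  · intro ℓ hℓ hℓM hℓS n x
    exact (hι n).2.2 (Sum.inl ⟨ℓ, hℓ, hℓM, hℓS⟩) x
  · intro k n x
    exact (hι n).2.2 (Sum.inr k) x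

end Fermat.Agent.S35.helper3346
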