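import Fermat.Agent.S35.helper3346_UNormMer
import Fermat.Agent.S35.helper2106_UqBridge
import Fermat.Agent.S29.helper288_FinTorsion

/-!
# S35 / OCCNEW (G3), leaf (E-U): adapters (helper3346)

The analytic form of the `U_q`-norm `helper3346.evM_uNorm` restated

* for the landed evaluation `Fermat.Agent.S29.helper288.evMer` (the one used by the landed
  multiplier relation `Fermat.Agent.S31.helper2756.MultMer`), and
* for the landed multiplicative operator `Fermat.Agent.S35.helper2106.uNorm`
  (`uPic_kummerPic : uPic M q (kummerPic Kbar n u) = kummerPic Kbar n (uNorm M q u)`).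

`evMer288_eq : helper288.evMer N = helper504.evMer N` (the two landed analytic models of the
function field coincide).
-/

set_option autoImplicit false
set_option linter.unusedSectionVars false

open Complex UpperHalfPlane ModularCurve AlgebraicCurve CongruenceSubgroup
open scoped MatrixGroups Manifold

noncomputable section

namespace Fermat.Agent.S35.helper3346

open Fermat.Agent.S24.helper24 Fermat.Agent.S24
open Fermat.Agent.S16.helper2138 Fermat.Agent.S29.helper2982
open Fermat.Agent.S29.helper2122

/-- The generators have the same image in the two landed analytic models. -/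
theorem Jd_eq_jd (d : ℕ) [NeZero d] : helper6180.Jd d = helper504.jd d := by
  funext τ
  rw [helper6180.Jd_apply, helper504.jd_apply]
  show jFun (ofComplex ((d : ℂ) * (τ : ℂ))) = jFun (helper504.hpt d 0 1 τ)
  congr 1
  apply UpperHalfPlane.ext
  rw [helper6180.coe_ofComplex_mul d (NeZero.pos d) τ, helper504.coe_hpt]
  push_cast
  ring

/-- **The landed analytic models `helper6180.ev` and `helper504.evFun` of `A_N` coincide.** -/
theorem ev6180_eq_evFun (N : ℕ) (a : helper3176.AN N) :
    helper6180.ev N a = helper504.evFun N a := by
  induction a using helper504.AN_induction with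
  | gen d hd => rw [helper6180.ev_jBarD, helper504.evFun_jBarD, Jd_eq_jd]
  | const c =>
      rw [helper6180.ev_algebraMap, helper504.evFun_algebraMap]
      rfl
  | add x y hx hy => rw [helper6180.ev_add, map_add, hx, hy]
  | mul x y hx hy => rw [helper6180.ev_mul, map_mul, hx, hy]

/-- **The landed evaluations `helper288.evMer` and `helper504.evMer` of the function field in
`helper580.Mer` coincide.** -/
theorem evMer288_eq (N : ℕ) :
    Fermat.Agent.S29.helper288.evMer N = helper504.evMer N := by
  apply helper3176.ringHom_ext_of_AN
  intro a
  rw [Fermat.Agent.S29.helper288.evMer_coe, helper504.evMer_coe]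
  congr 1
  exact helper580.Hol.ext fun τ => congrFun (ev6180_eq_evFun N a) τ

theorem evMer288_apply (N : ℕ) (f : FN N) :
    Fermat.Agent.S29.helper288.evMer N f = helper504.evMer N f := by
  rw [evMer288_eq]

theorem evM_eq_evMer288 (N : ℕ) (f : FN N) :
    evM N f = merEquiv.symm (Fermat.Agent.S29.helper288.evMer N f) := by
  rw [evMer288_apply, evM_apply]

section UNorm

variable (M q : ℕ) [NeZero M] [NeZero q] (hq : q.Prime) (hqM : q ∣ M)
  (hpos : ∀ j : ZMod q, 0 < ((corrU M q hqM).α j).det.val)

include hq in
/-- **(E-U)** for the landed `helper288.evMer` and the landed `helper8217.normAlong`. -/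
theorem evMer288_normAlong (u : FN M) :
    merEquiv.symm (Fermat.Agent.S29.helper288.evMer M
        (Fermat.Agent.S29.helper8217.normAlong (heckeBetaBar Kbar M q)
          (heckeAlphaBar Kbar M q u)))
      = cpMer (corrU M q hqM) hpos
          (merEquiv.symm (Fermat.Agent.S29.helper288.evMer M u)) := by
  rw [← evM_eq_evMer288, ← evM_eq_evMer288]
  exact evM_uNorm M q hq hqM hpos u

include hq in
/-- **(E-U)** for the landed `helper288.evMer` and the landed `helper2106.uNorm`:
`ev (U_q u)(τ) = ∏_{j mod q} (ev u)((τ + j)/q)`. -/
theorem evMer288_uNorm (u : FN M) :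
    merEquiv.symm (Fermat.Agent.S29.helper288.evMer M (helper2106.uNorm M q u))
      = cpMer (corrU M q hqM) hpos
          (merEquiv.symm (Fermat.Agent.S29.helper288.evMer M u)) :=
  evMer288_normAlong M q hq hqM hpos u

include hq in
/-- **(E-U)** for `evM` and the landed `helper2106.uNorm`. -/
theorem evM_uNorm2106 (u : FN M) :
    evM M (helper2106.uNorm M q u) = cpMer (corrU M q hqM) hpos (evM M u) :=
  evM_uNorm M q hq hqM hpos u

end UNorm

end Fermat.Agent.S35.helper3346
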