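/-
helper3346 — S35, final wiring of the lattice clause (LP2, captain ruling R5), part 2:
level-wise compatibility of the Kummer maps with operators given by a coset correspondence.

* `multMer_of_cpMer` : if the analytic evaluation of `v` is the coset product (`cpMer C`) of the
  evaluation of `u`, then a multiplier `ζ ^ ψ` of `u` gives the multiplier `ζ ^ (C.op ℤ ψ)` of `v`
  (any correspondence `C` on `Γ₀(N)`, any modulus `n`, any `ζ`).
* `compat_of_cpMer` : the generic operator compatibility on the canonical Kummer correspondence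
  `corrAt N hn`: a function-level operator `hfun` realising `X` on Kummer classes and whose
  evaluation is the coset product of `C`, and a lattice operator `T` restricting `C.op ℤ`, satisfy
  `ι_n (T ψ) = X (ι_n ψ)`.
* `compat_U` : the instance `U_q` (`q` prime, `q ∣ M`): `T = helper6356.latU M q`,
  `X = helper1687.uOp M q` (the canonical `U_q` on `J₀(M)`), through the landed analytic norm
  formula (E-U) `evMer288_uNorm`.
-/
import Fermat.Agent.S35.helper3346_LatTower
import Fermat.Agent.S35.helper3346_UNorm288
import Fermat.Agent.S35.helper1687_UqCong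

set_option autoImplicit false

open UpperHalfPlane CongruenceSubgroup Matrix.SpecialLinearGroup
open scoped MatrixGroups Manifold

namespace Fermat.Agent.S35.helper3346

open ModularCurve AlgebraicCurve
open Fermat.Agent.S24 Fermat.Agent.S24.helper24
open Fermat.Agent.S16.helper2138 Fermat.Agent.S29.helper2982
open Fermat.Agent.S29.helper8217 Fermat.Agent.S31.helper2756 Fermat.Agent.S31.helper6356

section Generic

variable {N : ℕ} {n : ℕ} {ζ : ℂˣ} {ι : Type} [Fintype ι] (C : Corr (Gamma0 N) ι)
  (hpos : ∀ i, 0 < (C.α i).det.val)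

/-- **Multiplier law for an operator whose evaluation is a coset product.** -/
theorem multMer_of_cpMer {u v : FN N}
    (hev : Fermat.Agent.S29.helper2122.merEquiv.symm (Fermat.Agent.S29.helper288.evMer N v)
      = cpMer C hpos
          (Fermat.Agent.S29.helper2122.merEquiv.symm (Fermat.Agent.S29.helper288.evMer N u)))
    {ψ : Additive (Gamma0 N) →+ ℤ} (h : MultMer N n ζ u ψ) :
    MultMer N n ζ v (C.op ℤ ψ) := by
  obtain ⟨W, hW, hγ⟩ := h
  set e := Fermat.Agent.S29.helper2122.merEquiv with he
  have hχ : ∀ γ : Gamma0 N, helper182.pullMer (γ : SL(2, ℤ)) (e.symm W)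
      = Fermat.Agent.S29.helper3343.constM
          (((zpowChar ζ ψ γ : ℂˣ)) : ℂ) * e.symm W := by
    intro γ
    rw [← Fermat.Agent.S29.helper2122.merEquiv_symm_pull, hγ γ, map_mul,
      Fermat.Agent.S29.helper2122.merEquiv_symm_algebraMap_complex]
    rfl
  have hpow : e.symm W ^ n = e.symm (Fermat.Agent.S29.helper288.evMer N u) := by
    rw [← map_pow, hW]
  have hT := pullMer_cpMer C hpos hχ
  rw [transfer_zpowChar] at hT
  refine ⟨e (cpMer C hpos (e.symm W)), ?_, fun γ => ?_⟩
  · rw [← map_pow, ← map_pow, hpow, ← hev, RingEquiv.apply_symm_apply]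
  · rw [← Fermat.Agent.S29.helper2122.merEquiv_pullMer, hT γ, map_mul,
      Fermat.Agent.S29.helper2122.merEquiv_constM]
    rfl

variable [NeZero N]

/-- **Generic operator compatibility** on the canonical Kummer correspondence. -/
theorem compat_of_cpMer (hn : n ≠ 0)
    (hfun : FN N → FN N) (X : JZero N →+ JZero N)
    (hK : ∀ u : FN N, IsKummer Kbar n u →
      IsKummer Kbar n (hfun u) ∧ X (kummerClass Kbar n u) = kummerClass Kbar n (hfun u))
    (hev : ∀ u : FN N,
      Fermat.Agent.S29.helper2122.merEquiv.symm (Fermat.Agent.S29.helper288.evMer N (hfun u))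
        = cpMer C hpos
            (Fermat.Agent.S29.helper2122.merEquiv.symm (Fermat.Agent.S29.helper288.evMer N u)))
    (T : Module.End ℤ (Lam N))
    (hT : ∀ ψ : Lam N, ((T ψ : Lam N) : Additive (Gamma0 N) →+ ℤ) =
      C.op ℤ (ψ : Additive (Gamma0 N) →+ ℤ)) :
    (corrAt N hn).Compat T (AddMonoidHom.toIntLinearMap X) := by
  intro ψ
  obtain ⟨u, hu, hMu, hx⟩ := (corrAt N hn).iota_spec ψ
  obtain ⟨hk, hX⟩ := hK u hu
  refine (corrAt N hn).iota_eq_of ⟨hfun u, hk, ?_, ?_⟩
  · rw [hT ψ]
    exact multMer_of_cpMer C hpos (hev u) hMu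
  · rw [← hX, hx]
    rfl

end Generic

section U

variable (M q : ℕ) [NeZero M] [Fact q.Prime] (hqM : q ∣ M)

/-- **(CU)** `ι_n (u_q ψ) = U_q (ι_n ψ)` at every modulus `n ≠ 0`, for the coset-transfer
operator `latU M q` on the lattice and the canonical operator `helper1687.uOp M q` on `J₀(M)`. -/
theorem compat_U {n : ℕ} (hn : n ≠ 0) :
    (corrAt M hn).Compat (latU M q hqM) (AddMonoidHom.toIntLinearMap (helper1687.uOp M q)) := by
  haveI : NeZero q := ⟨(Fact.out : q.Prime).ne_zero⟩
  have hpos : ∀ j : ZMod q, 0 < ((corrU M q hqM).α j).det.val := by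
    intro j
    rw [corrU_α]
    exact ModularForm.det_heckeMatrix_pos q j.val
  exact compat_of_cpMer (corrU M q hqM) hpos hn (helper1687.uFun M q) (helper1687.uOp M q)
    (fun u hu => helper1687.uOp_kummerClass hn hu)
    (fun u => evMer288_uNorm M q Fact.out hqM hpos u)
    (latU M q hqM) (fun ψ => rfl)

end U

end Fermat.Agent.S35.helper3346
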