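import Mathlib
import Fermat.Prelude.Def_CuspForm_HeckeAlgebra
import Fermat.Prelude.Def_CuspForm_Newforms
import Fermat.Agent.S49.helper19_NormEigen
import Fermat.Agent.S49.helper2389_Lift
import Fermat.Agent.S21.helper21_Assembly
import Fermat.Agent.S29.helper7617_Integrality

/-!
# S35-NEWQ-B: a good eigensystem that is seen at a lower level occurs there

The `W_q`-free half of "newform ⟹ `q`-new" (route #2739 (4), captain's split #10 item 2).

* `exists_normalizedEigenform_of_eigen`: a NONZERO weight-2 cusp form `h` on `Γ₀(M')` which is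
  an eigenvector of the good Hecke operators `T_ℓ` (`ℓ ∤ M'`, `ℓ` in an arbitrary set `P` of
  primes) with eigenvalues `a ℓ` produces a NORMALIZED EIGENFORM of level `M'` whose `ℓ`-th
  `q`-coefficient is `a ℓ` for all those `ℓ` (common eigenvector of the full commutative Hecke
  algebra of level `M'` inside the finite-dimensional stable joint eigenspace, then normalise).
* `goodEigensystemOccursAt_of_eigen`: for `g` of level `M` and `M' ∣ M`, such an `h` with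
  `a ℓ = a_ℓ(g)`, `ℓ ∤ M`, gives `CuspForm.GoodEigensystemOccursAt g M'`.
* `eq_zero_of_isNewform_of_eigen`: if `g` is a newform (Prelude `IsNewform`) of level `M` and
  `M' ∣ M`, `M' ≠ M`, then every such `h` is `0`.
* `map_eq_zero_of_isNewform`: every `ℂ`-linear map `L : S₂(Γ₀(N)) → S₂(Γ₀(M'))` commuting with
  the good Hecke operators `T_ℓ`, `ℓ ∤ N`, kills every newform of level `N` (`M' ∣ N`, `M' ≠ N`).
  Typical `L`: the trace `f ↦ f + U_q(W_q f)` to level `N / q` and `f ↦ Tr(W_q f)`.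
-/

set_option autoImplicit false

open CongruenceSubgroup ModularFormClass

namespace Fermat.Agent.S35.helper1159

/-- A nonzero joint eigenvector at level `M'` of the good Hecke operators `T_ℓ`
(`ℓ ∤ M'`, `P ℓ`) gives a normalized eigenform of level `M'` with the same eigenvalues. -/
theorem exists_normalizedEigenform_of_eigen {M' : ℕ} [NeZero M'] (P : ℕ → Prop) (a : ℕ → ℂ)
    (h : CuspForm (Gamma0 M') 2) (hh : h ≠ 0)
    (heig : ∀ (ℓ : ℕ) (hℓ : ℓ.Prime) (hℓM' : ¬ ℓ ∣ M'), P ℓ →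
      CuspForm.heckeTLin 2 hℓ hℓM' h = a ℓ • h) :
    ∃ f : CuspForm (Gamma0 M') 2, f.IsNormalizedEigenform ∧
      ∀ ℓ : ℕ, ℓ.Prime → ¬ ℓ ∣ M' → P ℓ → qCoeff f ℓ = a ℓ := by
  classical
  have : Module.Finite ℂ (CuspForm (Gamma0 M') 2) :=
    Fermat.Agent.S21.helper21.finite_cuspForm M'
  let E : Submodule ℂ (CuspForm (Gamma0 M') 2) :=
    { carrier := {x | ∀ (ℓ : ℕ) (hℓ : ℓ.Prime) (hℓM' : ¬ ℓ ∣ M'), P ℓ →
        CuspForm.heckeTLin 2 hℓ hℓM' x = a ℓ • x}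
      add_mem' := by
        intro x y hx hy ℓ hℓ hℓM' hP
        rw [map_add, hx ℓ hℓ hℓM' hP, hy ℓ hℓ hℓM' hP, smul_add]
      zero_mem' := by
        intro ℓ hℓ hℓM' hP
        rw [map_zero, smul_zero]
      smul_mem' := by
        intro c x hx ℓ hℓ hℓM' hP
        rw [map_smul, hx ℓ hℓ hℓM' hP, smul_comm] }
  have hE : E ≠ ⊥ := by
    intro hbot
    have hmem : h ∈ E := heig
    rw [hbot, Submodule.mem_bot] at hmem
    exact hh hmem
  let ρ : CuspForm.heckeAlgebra M' 2 ∅ →+* Module.End ℂ (CuspForm (Gamma0 M') 2) :=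
    (CuspForm.heckeAlgebra M' 2 ∅).val.toRingHom
  have hstab : ∀ r, ∀ x ∈ E, ρ r x ∈ E := by
    intro r x hx ℓ hℓ hℓM' hP
    have hcomm : CuspForm.heckeTLin 2 hℓ hℓM' * (r : Module.End ℂ (CuspForm (Gamma0 M') 2)) =
        (r : Module.End ℂ (CuspForm (Gamma0 M') 2)) * CuspForm.heckeTLin 2 hℓ hℓM' :=
      congrArg Subtype.val
        (mul_comm (CuspForm.heckeAlgebra.T hℓ hℓM' (Set.notMem_empty ℓ) :
          CuspForm.heckeAlgebra M' 2 ∅) r)
    have h1 := congrArg (fun T : Module.End ℂ (CuspForm (Gamma0 M') 2) => T x) hcomm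
    simp only [Module.End.mul_apply] at h1
    show CuspForm.heckeTLin 2 hℓ hℓM' ((r : Module.End ℂ (CuspForm (Gamma0 M') 2)) x) =
      a ℓ • (r : Module.End ℂ (CuspForm (Gamma0 M') 2)) x
    rw [h1, hx ℓ hℓ hℓM' hP, map_smul]
  obtain ⟨v, hvE, hv0, hv⟩ :=
    Fermat.Agent.S49.helper2389.exists_common_eigenvector ρ _ E rfl hE hstab
  choose χ hχ using hv
  obtain ⟨f, hf, hfc⟩ := Fermat.Agent.S49.helper19.exists_normalized_eigenform v hv0 χ hχ
  refine ⟨f, hf, fun ℓ hℓ hℓM' hP => ?_⟩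
  rw [hfc ℓ hℓ hℓM']
  have h1 : CuspForm.heckeTLin 2 hℓ hℓM' v =
      χ (CuspForm.heckeAlgebra.T hℓ hℓM' (Set.notMem_empty ℓ)) • v :=
    hχ (CuspForm.heckeAlgebra.T hℓ hℓM' (Set.notMem_empty ℓ))
  have h2 : CuspForm.heckeTLin 2 hℓ hℓM' v = a ℓ • v := hvE ℓ hℓ hℓM' hP
  exact smul_left_injective ℂ hv0 (h1.symm.trans h2)

/-- **NEWQ-B.** If a NONZERO cusp form `h` of level `M' ∣ M` has the good Hecke eigenvalues of
`g` (level `M`), i.e. `T_ℓ h = a_ℓ(g) h` for all primes `ℓ ∤ M`, then the good eigensystem of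
`g` occurs at level `M'`. -/
theorem goodEigensystemOccursAt_of_eigen {M M' : ℕ} [NeZero M'] (hdvd : M' ∣ M)
    (g : CuspForm (Gamma0 M) 2) (h : CuspForm (Gamma0 M') 2) (hh : h ≠ 0)
    (heig : ∀ (ℓ : ℕ) (hℓ : ℓ.Prime) (_ : ¬ ℓ ∣ M) (hℓM' : ¬ ℓ ∣ M'),
      CuspForm.heckeTLin 2 hℓ hℓM' h = qCoeff g ℓ • h) :
    CuspForm.GoodEigensystemOccursAt g M' := by
  obtain ⟨f, hf, hfc⟩ := exists_normalizedEigenform_of_eigen (fun ℓ => ¬ ℓ ∣ M)
    (fun ℓ => qCoeff g ℓ) h hh (fun ℓ hℓ hℓM' hℓM => heig ℓ hℓ hℓM hℓM')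
  exact ⟨f, hf, fun ℓ hℓ hℓM => hfc ℓ hℓ (fun hd => hℓM (hd.trans hdvd)) hℓM⟩

/-- **NEWQ-B, newform form.** A newform of level `M` has no nonzero "shadow" at a proper
divisor level: a cusp form `h` of level `M' ∣ M`, `M' ≠ M`, with `T_ℓ h = a_ℓ(g) h` for all
primes `ℓ ∤ M` vanishes. -/
theorem eq_zero_of_isNewform_of_eigen {M M' : ℕ} [NeZero M'] (hdvd : M' ∣ M) (hne : M' ≠ M)
    {g : CuspForm (Gamma0 M) 2} (hg : g.IsNewform) (h : CuspForm (Gamma0 M') 2)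
    (heig : ∀ (ℓ : ℕ) (hℓ : ℓ.Prime) (_ : ¬ ℓ ∣ M) (hℓM' : ¬ ℓ ∣ M'),
      CuspForm.heckeTLin 2 hℓ hℓM' h = qCoeff g ℓ • h) :
    h = 0 := by
  by_contra hh
  exact hg.2 M' hdvd hne (goodEigensystemOccursAt_of_eigen hdvd g h hh heig)

/-- **NEWQ-B, map form.** A `ℂ`-linear map from level `N` to a proper divisor level `M'` that
commutes with the good Hecke operators `T_ℓ` (`ℓ ∤ N`) kills every newform of level `N`. -/
theorem map_eq_zero_of_isNewform {N M' : ℕ} [NeZero M'] (hdvd : M' ∣ N) (hne : M' ≠ N)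
    (L : CuspForm (Gamma0 N) 2 →ₗ[ℂ] CuspForm (Gamma0 M') 2)
    (hL : ∀ (ℓ : ℕ) (hℓ : ℓ.Prime) (hℓN : ¬ ℓ ∣ N) (hℓM' : ¬ ℓ ∣ M')
      (f : CuspForm (Gamma0 N) 2),
      L (CuspForm.heckeTLin 2 hℓ hℓN f) = CuspForm.heckeTLin 2 hℓ hℓM' (L f))
    {g : CuspForm (Gamma0 N) 2} (hg : g.IsNewform) : L g = 0 := by
  refine eq_zero_of_isNewform_of_eigen hdvd hne hg (L g) (fun ℓ hℓ hℓN hℓM' => ?_)
  rw [← hL ℓ hℓ hℓN hℓM' g, Fermat.Agent.S29.helper7617.heckeTLin_apply_eq_smul hg.1 hℓ hℓN,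
    map_smul]

/-- Variant of `map_eq_zero_of_isNewform` for a map that is only known to intertwine the
Hecke operators on the newform itself and to be homogeneous there (no linearity needed). -/
theorem apply_eq_zero_of_isNewform {N M' : ℕ} [NeZero M'] (hdvd : M' ∣ N) (hne : M' ≠ N)
    (L : CuspForm (Gamma0 N) 2 → CuspForm (Gamma0 M') 2)
    {g : CuspForm (Gamma0 N) 2} (hg : g.IsNewform)
    (hsmul : ∀ c : ℂ, L (c • g) = c • L g)
    (hL : ∀ (ℓ : ℕ) (hℓ : ℓ.Prime) (hℓN : ¬ ℓ ∣ N) (hℓM' : ¬ ℓ ∣ M'),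
      L (CuspForm.heckeTLin 2 hℓ hℓN g) = CuspForm.heckeTLin 2 hℓ hℓM' (L g)) : L g = 0 := by
  refine eq_zero_of_isNewform_of_eigen hdvd hne hg (L g) (fun ℓ hℓ hℓN hℓM' => ?_)
  rw [← hL ℓ hℓ hℓN hℓM', Fermat.Agent.S29.helper7617.heckeTLin_apply_eq_smul hg.1 hℓ hℓN,
    hsmul]

end Fermat.Agent.S35.helper1159
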