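/-
helper1462 — S35-NEWQ-A (board #1511, captain split `team_s35_chat` #10 item 2).

Atkin–Lehner operator `W_q` on `S₂(Γ₀(q·M1))` for `q ∥ q·M1`, the trace to level `M1`
as `f + U_q (f ∣ W_q)`, commutation with the Prelude Hecke operators `T_ℓ` (`ℓ ∤ q·M1`),
and the `q`-new subspace.
-/
import Mathlib
import Fermat.Prelude.Def_ModularForm_HeckeOperatorForms
import Fermat.Prelude.Thm_ModularFormClass_heckeT_heckeU_comm
import Fermat.Prelude.Thm_CongruenceSubgroup_one_mem_strictPeriods_Gamma0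

set_option autoImplicit false

noncomputable section

namespace Fermat.Agent.S35.helper1462

open scoped MatrixGroups ModularForm Pointwise
open UpperHalfPlane ModularForm CongruenceSubgroup Matrix.SpecialLinearGroup

/-! ### Generic weight-2 slash lemmas -/

theorem val_mapGL_apply (γ : SL(2, ℤ)) (i j : Fin 2) :
    ((mapGL ℝ γ : GL (Fin 2) ℝ) : Matrix (Fin 2) (Fin 2) ℝ) i j = ((γ i j : ℤ) : ℝ) := by
  rw [Matrix.SpecialLinearGroup.mapGL_coe_matrix, Matrix.SpecialLinearGroup.map_apply_coe]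
  simp

/-- In weight `2` the slash action only depends on the matrix up to a nonzero real scalar. -/
theorem slash_eq_of_smul {A B : GL (Fin 2) ℝ} (hA : 0 < (A.det : ℝ)) (c : ℝ) (hc : c ≠ 0)
    (h : ∀ i j, (B : Matrix (Fin 2) (Fin 2) ℝ) i j = c * (A : Matrix (Fin 2) (Fin 2) ℝ) i j)
    (f : ℍ → ℂ) : f ∣[(2 : ℤ)] B = f ∣[(2 : ℤ)] A := by
  have hdetA : (A.det : ℝ) = A 0 0 * A 1 1 - A 0 1 * A 1 0 := by
    rw [Matrix.GeneralLinearGroup.val_det_apply, Matrix.det_fin_two]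
  have hdetB : (B.det : ℝ) = c ^ 2 * (A.det : ℝ) := by
    rw [hdetA, Matrix.GeneralLinearGroup.val_det_apply, Matrix.det_fin_two, h, h, h, h]
    ring
  have hB : 0 < (B.det : ℝ) := by
    rw [hdetB]; positivity
  have hcC : (c : ℂ) ≠ 0 := by exact_mod_cast hc
  ext τ
  have hden : UpperHalfPlane.denom B τ = c * UpperHalfPlane.denom A τ := by
    simp only [UpperHalfPlane.denom, h]
    push_cast
    ring
  have hnum : UpperHalfPlane.num B τ = c * UpperHalfPlane.num A τ := by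
    simp only [UpperHalfPlane.num, h]
    push_cast
    ring
  have hdenA : UpperHalfPlane.denom A τ ≠ 0 := UpperHalfPlane.denom_ne_zero A τ
  have hsmul : B • τ = A • τ := by
    apply UpperHalfPlane.ext
    rw [UpperHalfPlane.coe_smul_of_det_pos hB, UpperHalfPlane.coe_smul_of_det_pos hA, hden, hnum]
    field_simp
  rw [ModularForm.slash_apply, ModularForm.slash_apply, UpperHalfPlane.σ, if_pos hB,
    UpperHalfPlane.σ, if_pos hA, hsmul, hden, hdetB]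
  simp only [ContinuousAlgEquiv.refl_apply]
  rw [abs_mul, abs_of_pos hA, abs_of_nonneg (sq_nonneg c)]
  push_cast
  simp only [zpow_neg, zpow_ofNat]
  field_simp

/-- Master lemma: if `B = c • (γ * A)` with `γ ∈ Γ₀(N)`, then `f ∣ B = f ∣ A` for every
`Γ₀(N)`-invariant function `f` (weight `2`). -/
theorem slash_eq_of_Gamma0_mul {N : ℕ} {f : ℍ → ℂ}
    (hf : ∀ γ ∈ Gamma0 N, f ∣[(2 : ℤ)] (mapGL ℝ γ : GL (Fin 2) ℝ) = f)
    {A B : GL (Fin 2) ℝ} (hA : 0 < (A.det : ℝ)) (γ : SL(2, ℤ)) (hγ : γ ∈ Gamma0 N)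
    (c : ℝ) (hc : c ≠ 0)
    (h : ∀ i j, (B : Matrix (Fin 2) (Fin 2) ℝ) i j =
      c * ((γ i 0 : ℤ) * (A : Matrix (Fin 2) (Fin 2) ℝ) 0 j +
        (γ i 1 : ℤ) * (A : Matrix (Fin 2) (Fin 2) ℝ) 1 j)) :
    f ∣[(2 : ℤ)] B = f ∣[(2 : ℤ)] A := by
  have hdet : 0 < ((mapGL ℝ γ * A : GL (Fin 2) ℝ).det : ℝ) := by
    rw [map_mul, Units.val_mul]
    have : ((mapGL ℝ γ : GL (Fin 2) ℝ).det : ℝ) = 1 := by
      simp
    rw [this, one_mul]
    exact hA
  rw [slash_eq_of_smul hdet c hc (B := B) (A := mapGL ℝ γ * A), SlashAction.slash_mul, hf γ hγ]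
  intro i j
  rw [h, Matrix.GeneralLinearGroup.coe_mul, Matrix.mul_apply, Fin.sum_univ_two, val_mapGL_apply,
    val_mapGL_apply]

/-! ### Small helpers for `SL(2,ℤ)` and `Γ₀(N)` -/

/-- An element of `SL(2,ℤ)` from its four entries. -/
def mkSL (a b c d : ℤ) (h : a * d - b * c = 1) : SL(2, ℤ) :=
  ⟨!![a, b; c, d], by rw [Matrix.det_fin_two_of]; exact h⟩

@[simp] theorem mkSL_apply_zero_zero (a b c d : ℤ) (h : a * d - b * c = 1) :
    (mkSL a b c d h) 0 0 = a := rfl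

@[simp] theorem mkSL_apply_zero_one (a b c d : ℤ) (h : a * d - b * c = 1) :
    (mkSL a b c d h) 0 1 = b := rfl

@[simp] theorem mkSL_apply_one_zero (a b c d : ℤ) (h : a * d - b * c = 1) :
    (mkSL a b c d h) 1 0 = c := rfl

@[simp] theorem mkSL_apply_one_one (a b c d : ℤ) (h : a * d - b * c = 1) :
    (mkSL a b c d h) 1 1 = d := rfl

theorem mem_Gamma0_iff_dvd {N : ℕ} (γ : SL(2, ℤ)) : γ ∈ Gamma0 N ↔ (N : ℤ) ∣ γ 1 0 := by
  rw [Gamma0_mem, ZMod.intCast_zmod_eq_zero_iff_dvd]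

theorem SL_det_eq (γ : SL(2, ℤ)) : γ 0 0 * γ 1 1 - γ 0 1 * γ 1 0 = 1 := by
  have h := Matrix.SpecialLinearGroup.det_coe γ
  rwa [Matrix.det_fin_two] at h

/-! ### The Atkin–Lehner matrix `W_q = (q x, y; q M1 z, q w)` -/

/-- The Atkin–Lehner matrix `(q x, y; q M1 z, q w)` in `GL(2,ℝ)` (junk value `1` if its determinant
vanishes).  It is used with `q x w - M1 y z = 1`, so that its determinant is `q`. -/
def atkinGL (q M1 : ℕ) (x y z w : ℤ) : GL (Fin 2) ℝ :=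
  if h : (q : ℝ) * x * ((q : ℝ) * w) - (y : ℝ) * ((q : ℝ) * M1 * z) ≠ 0 then
    Matrix.GeneralLinearGroup.mkOfDetNeZero
      !![(q : ℝ) * x, (y : ℝ); (q : ℝ) * M1 * z, (q : ℝ) * w]
      (by rwa [Matrix.det_fin_two_of])
  else 1

section atkin

variable {q M1 : ℕ} {x y z w : ℤ}

theorem atkin_det_cast (hdet : (q : ℤ) * x * w - (M1 : ℤ) * y * z = 1) :
    (q : ℝ) * x * w - (M1 : ℝ) * y * z = 1 := by
  exact_mod_cast congrArg (Int.cast : ℤ → ℝ) hdet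

theorem val_atkinGL (hq : q ≠ 0) (hdet : (q : ℤ) * x * w - (M1 : ℤ) * y * z = 1) :
    ((atkinGL q M1 x y z w : GL (Fin 2) ℝ) : Matrix (Fin 2) (Fin 2) ℝ) =
      !![(q : ℝ) * x, (y : ℝ); (q : ℝ) * M1 * z, (q : ℝ) * w] := by
  have hq' : (q : ℝ) ≠ 0 := by exact_mod_cast hq
  have h : (q : ℝ) * x * ((q : ℝ) * w) - (y : ℝ) * ((q : ℝ) * M1 * z) ≠ 0 := by
    have := atkin_det_cast hdet
    rw [show (q : ℝ) * x * ((q : ℝ) * w) - (y : ℝ) * ((q : ℝ) * M1 * z) =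
      q * ((q : ℝ) * x * w - (M1 : ℝ) * y * z) by ring, this, mul_one]
    exact hq'
  rw [atkinGL, dif_pos h]
  rfl

theorem det_atkinGL (hq : q ≠ 0) (hdet : (q : ℤ) * x * w - (M1 : ℤ) * y * z = 1) :
    ((atkinGL q M1 x y z w).det : ℝ) = q := by
  rw [Matrix.GeneralLinearGroup.val_det_apply, val_atkinGL hq hdet, Matrix.det_fin_two_of]
  linear_combination (q : ℝ) * atkin_det_cast hdet

theorem det_atkinGL_pos (hq : q ≠ 0) (hdet : (q : ℤ) * x * w - (M1 : ℤ) * y * z = 1) :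
    0 < ((atkinGL q M1 x y z w).det : ℝ) := by
  rw [det_atkinGL hq hdet]; exact_mod_cast Nat.pos_of_ne_zero hq

theorem atkinGL_apply (hq : q ≠ 0) (hdet : (q : ℤ) * x * w - (M1 : ℤ) * y * z = 1) :
    ((atkinGL q M1 x y z w : GL (Fin 2) ℝ) : Matrix (Fin 2) (Fin 2) ℝ) 0 0 = (q : ℝ) * x ∧
    ((atkinGL q M1 x y z w : GL (Fin 2) ℝ) : Matrix (Fin 2) (Fin 2) ℝ) 0 1 = (y : ℝ) ∧
    ((atkinGL q M1 x y z w : GL (Fin 2) ℝ) : Matrix (Fin 2) (Fin 2) ℝ) 1 0 = (q : ℝ) * M1 * z ∧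
    ((atkinGL q M1 x y z w : GL (Fin 2) ℝ) : Matrix (Fin 2) (Fin 2) ℝ) 1 1 = (q : ℝ) * w := by
  rw [val_atkinGL hq hdet]
  simp

/-- The conjugate `W γ W⁻¹` of an element of `Γ₀(q M1)`. -/
def atkinConj (q M1 : ℕ) (x y z w : ℤ) (hdet : (q : ℤ) * x * w - (M1 : ℤ) * y * z = 1)
    (γ : SL(2, ℤ)) (c' : ℤ) (hc : γ 1 0 = (q : ℤ) * M1 * c') : SL(2, ℤ) :=
  mkSL (q * x * w * γ 0 0 + w * y * q * M1 * c' - q * M1 * x * z * γ 0 1 - M1 * y * z * γ 1 1)
    (-x * y * γ 0 0 - y ^ 2 * M1 * c' + q * x ^ 2 * γ 0 1 + x * y * γ 1 1)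
    (q * M1 * (z * w * γ 0 0 + q * w ^ 2 * c' - M1 * z ^ 2 * γ 0 1 - w * z * γ 1 1))
    (-M1 * z * y * γ 0 0 - w * y * q * M1 * c' + q * M1 * x * z * γ 0 1 + q * x * w * γ 1 1)
    (by
      have hγ := SL_det_eq γ
      rw [hc] at hγ
      linear_combination
        (((q : ℤ) * x * w - (M1 : ℤ) * y * z + 1) *
          (γ 0 0 * γ 1 1 - γ 0 1 * ((q : ℤ) * M1 * c'))) * hdet + hγ)

theorem atkinConj_mem (hdet : (q : ℤ) * x * w - (M1 : ℤ) * y * z = 1)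
    (γ : SL(2, ℤ)) (c' : ℤ) (hc : γ 1 0 = (q : ℤ) * M1 * c') :
    atkinConj q M1 x y z w hdet γ c' hc ∈ Gamma0 (q * M1) := by
  rw [mem_Gamma0_iff_dvd]
  simp only [atkinConj, mkSL_apply_one_zero]
  exact ⟨_, by push_cast; rfl⟩

theorem atkinGL_mul_mapGL (hq : q ≠ 0) (hdet : (q : ℤ) * x * w - (M1 : ℤ) * y * z = 1)
    (γ : SL(2, ℤ)) (c' : ℤ) (hc : γ 1 0 = (q : ℤ) * M1 * c') :
    atkinGL q M1 x y z w * mapGL ℝ γ =
      mapGL ℝ (atkinConj q M1 x y z w hdet γ c' hc) * atkinGL q M1 x y z w := by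
  apply Matrix.GeneralLinearGroup.ext
  intro i j
  rw [Matrix.GeneralLinearGroup.coe_mul, Matrix.GeneralLinearGroup.coe_mul,
    Matrix.mul_apply, Matrix.mul_apply, Fin.sum_univ_two, Fin.sum_univ_two]
  simp only [val_mapGL_apply]
  obtain ⟨h00, h01, h10, h11⟩ := atkinGL_apply (M1 := M1) (x := x) (y := y) (z := z) (w := w) hq hdet
  have hc' : ((γ 1 0 : ℤ) : ℝ) = (q : ℝ) * M1 * c' := by
    exact_mod_cast congrArg (Int.cast : ℤ → ℝ) hc
  have hd := atkin_det_cast hdet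
  fin_cases i <;> fin_cases j <;>
    simp only [atkinConj, mkSL_apply_zero_zero, mkSL_apply_zero_one, mkSL_apply_one_zero,
      mkSL_apply_one_one, h00, h01, h10, h11, hc', Fin.zero_eta, Fin.mk_one] <;> push_cast
  · linear_combination (-((q : ℝ) * x * γ 0 0 + y * ((q : ℝ) * M1 * c'))) * hd
  · linear_combination (-((q : ℝ) * x * γ 0 1 + y * γ 1 1)) * hd
  · linear_combination (-((q : ℝ) * M1 * z * γ 0 0 + (q : ℝ) * w * ((q : ℝ) * M1 * c'))) * hd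
  · linear_combination (-((q : ℝ) * M1 * z * γ 0 1 + (q : ℝ) * w * γ 1 1)) * hd

/-- `Γ₀(q M1)` is normalised by `W`. -/
theorem Gamma0_le_conj_atkin (hq : q ≠ 0) (hdet : (q : ℤ) * x * w - (M1 : ℤ) * y * z = 1) :
    ((Gamma0 (q * M1) : Subgroup SL(2, ℤ)).map (mapGL ℝ)) ≤
      ConjAct.toConjAct (atkinGL q M1 x y z w)⁻¹ •
        ((Gamma0 (q * M1) : Subgroup SL(2, ℤ)).map (mapGL ℝ)) := by
  rintro g ⟨γ, hγ, rfl⟩
  rw [map_inv, Subgroup.mem_inv_pointwise_smul_iff, ConjAct.toConjAct_smul]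
  have hγ' : γ ∈ Gamma0 (q * M1) := hγ
  obtain ⟨c', hc⟩ : ((q * M1 : ℕ) : ℤ) ∣ γ 1 0 := (mem_Gamma0_iff_dvd γ).mp hγ'
  have hc2 : γ 1 0 = (q : ℤ) * M1 * c' := by rw [hc]; push_cast; ring
  rw [atkinGL_mul_mapGL hq hdet γ c' hc2, mul_inv_cancel_right]
  exact Subgroup.mem_map_of_mem _ (atkinConj_mem hdet γ c' hc2)

/-- The slash of a `Γ₀(q M1)`-invariant function by `W` is again `Γ₀(q M1)`-invariant. -/
theorem slash_atkinGL_invariant (hq : q ≠ 0) (hdet : (q : ℤ) * x * w - (M1 : ℤ) * y * z = 1)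
    {f : ℍ → ℂ} (hf : ∀ γ ∈ Gamma0 (q * M1), f ∣[(2 : ℤ)] (mapGL ℝ γ : GL (Fin 2) ℝ) = f)
    (γ : SL(2, ℤ)) (hγ : γ ∈ Gamma0 (q * M1)) :
    (f ∣[(2 : ℤ)] atkinGL q M1 x y z w) ∣[(2 : ℤ)] (mapGL ℝ γ : GL (Fin 2) ℝ) =
      f ∣[(2 : ℤ)] atkinGL q M1 x y z w := by
  obtain ⟨c', hc⟩ : ((q * M1 : ℕ) : ℤ) ∣ γ 1 0 := (mem_Gamma0_iff_dvd γ).mp hγ
  have hc2 : γ 1 0 = (q : ℤ) * M1 * c' := by rw [hc]; push_cast; ring
  rw [← SlashAction.slash_mul, atkinGL_mul_mapGL hq hdet γ c' hc2, SlashAction.slash_mul,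
    hf _ (atkinConj_mem hdet γ c' hc2)]

/-- `W² = q • γ₀` with `γ₀ ∈ Γ₀(q M1)`: the matrix `γ₀`. -/
def atkinSq (q M1 : ℕ) (x y z w : ℤ) (hdet : (q : ℤ) * x * w - (M1 : ℤ) * y * z = 1) : SL(2, ℤ) :=
  mkSL (q * x ^ 2 + M1 * y * z) (y * (x + w)) (q * M1 * (z * (x + w))) (M1 * y * z + q * w ^ 2)
    (by linear_combination ((q : ℤ) * x * w - (M1 : ℤ) * y * z + 1) * hdet)

theorem atkinSq_mem (hdet : (q : ℤ) * x * w - (M1 : ℤ) * y * z = 1) :
    atkinSq q M1 x y z w hdet ∈ Gamma0 (q * M1) := by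
  rw [mem_Gamma0_iff_dvd]
  simp only [atkinSq, mkSL_apply_one_zero]
  exact ⟨_, by push_cast; rfl⟩

/-- `W_q` is an involution on `Γ₀(q M1)`-invariant functions (weight `2`). -/
theorem slash_atkinGL_atkinGL (hq : q ≠ 0) (hdet : (q : ℤ) * x * w - (M1 : ℤ) * y * z = 1)
    {f : ℍ → ℂ} (hf : ∀ γ ∈ Gamma0 (q * M1), f ∣[(2 : ℤ)] (mapGL ℝ γ : GL (Fin 2) ℝ) = f) :
    (f ∣[(2 : ℤ)] atkinGL q M1 x y z w) ∣[(2 : ℤ)] atkinGL q M1 x y z w = f := by
  have hq' : (q : ℝ) ≠ 0 := by exact_mod_cast hq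
  rw [← SlashAction.slash_mul]
  have h1 : f ∣[(2 : ℤ)] (atkinGL q M1 x y z w * atkinGL q M1 x y z w) =
      f ∣[(2 : ℤ)] (1 : GL (Fin 2) ℝ) := by
    refine slash_eq_of_Gamma0_mul hf (by simp) (atkinSq q M1 x y z w hdet) (atkinSq_mem hdet)
      (q : ℝ) hq' ?_
    intro i j
    rw [Matrix.GeneralLinearGroup.coe_mul, Matrix.mul_apply, Fin.sum_univ_two]
    obtain ⟨h00, h01, h10, h11⟩ :=
      atkinGL_apply (M1 := M1) (x := x) (y := y) (z := z) (w := w) hq hdet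
    fin_cases i <;> fin_cases j <;>
      simp only [atkinSq, mkSL_apply_zero_zero, mkSL_apply_zero_one, mkSL_apply_one_zero,
        mkSL_apply_one_one, h00, h01, h10, h11, Fin.zero_eta, Fin.mk_one, Units.val_one,
        Matrix.one_apply_eq, Matrix.one_apply_ne, ne_eq, one_ne_zero, zero_ne_one,
        not_false_eq_true, mul_one, mul_zero, add_zero, zero_add] <;> push_cast <;> ring
  rw [h1, SlashAction.slash_one]

/-- Independence of the choice of `(x, y, z, w)`: the matrix `W' W⁻¹ ∈ Γ₀(q M1)`. -/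
def atkinChange (q M1 : ℕ) (x y z w x' y' z' w' : ℤ)
    (hdet : (q : ℤ) * x * w - (M1 : ℤ) * y * z = 1)
    (hdet' : (q : ℤ) * x' * w' - (M1 : ℤ) * y' * z' = 1) : SL(2, ℤ) :=
  mkSL (q * x' * w - M1 * y' * z) (x * y' - x' * y) (q * M1 * (z' * w - w' * z))
    (q * w' * x - M1 * z' * y)
    (by linear_combination ((q : ℤ) * x' * w' - (M1 : ℤ) * y' * z') * hdet + hdet')

theorem atkinChange_mem {x' y' z' w' : ℤ} (hdet : (q : ℤ) * x * w - (M1 : ℤ) * y * z = 1)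
    (hdet' : (q : ℤ) * x' * w' - (M1 : ℤ) * y' * z' = 1) :
    atkinChange q M1 x y z w x' y' z' w' hdet hdet' ∈ Gamma0 (q * M1) := by
  rw [mem_Gamma0_iff_dvd]
  simp only [atkinChange, mkSL_apply_one_zero]
  exact ⟨_, by push_cast; rfl⟩

/-- The operator `f ↦ f ∣ W_q` on `Γ₀(q M1)`-invariant functions does not depend on the choice of
the matrix `W_q`. -/
theorem slash_atkinGL_eq_of_det {x' y' z' w' : ℤ} (hq : q ≠ 0)
    (hdet : (q : ℤ) * x * w - (M1 : ℤ) * y * z = 1)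
    (hdet' : (q : ℤ) * x' * w' - (M1 : ℤ) * y' * z' = 1)
    {f : ℍ → ℂ} (hf : ∀ γ ∈ Gamma0 (q * M1), f ∣[(2 : ℤ)] (mapGL ℝ γ : GL (Fin 2) ℝ) = f) :
    f ∣[(2 : ℤ)] atkinGL q M1 x' y' z' w' = f ∣[(2 : ℤ)] atkinGL q M1 x y z w := by
  refine slash_eq_of_Gamma0_mul hf (det_atkinGL_pos hq hdet)
    (atkinChange q M1 x y z w x' y' z' w' hdet hdet') (atkinChange_mem hdet hdet') 1 one_ne_zero ?_
  intro i j
  obtain ⟨h00, h01, h10, h11⟩ :=
    atkinGL_apply (M1 := M1) (x := x) (y := y) (z := z) (w := w) hq hdet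
  obtain ⟨h00', h01', h10', h11'⟩ :=
    atkinGL_apply (M1 := M1) (x := x') (y := y') (z := z') (w := w') hq hdet'
  have hd := atkin_det_cast hdet
  fin_cases i <;> fin_cases j <;>
    simp only [atkinChange, mkSL_apply_zero_zero, mkSL_apply_zero_one, mkSL_apply_one_zero,
      mkSL_apply_one_one, h00, h01, h10, h11, h00', h01', h10', h11', Fin.zero_eta, Fin.mk_one,
      one_mul] <;> push_cast
  · linear_combination (-((q : ℝ) * x')) * hd
  · linear_combination (-(y' : ℝ)) * hd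
  · linear_combination (-((q : ℝ) * M1 * z')) * hd
  · linear_combination (-((q : ℝ) * w')) * hd

theorem σ_atkinGL (hq : q ≠ 0) (hdet : (q : ℤ) * x * w - (M1 : ℤ) * y * z = 1) :
    UpperHalfPlane.σ (atkinGL q M1 x y z w) = .refl ℝ ℂ := by
  rw [UpperHalfPlane.σ, if_pos (det_atkinGL_pos hq hdet)]

theorem cuspForm_slash_eq {N : ℕ} (F : CuspForm (Gamma0 N) 2) (γ : SL(2, ℤ)) (hγ : γ ∈ Gamma0 N) :
    ⇑F ∣[(2 : ℤ)] (mapGL ℝ γ : GL (Fin 2) ℝ) = ⇑F :=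
  SlashInvariantFormClass.slash_action_eq F _ (Subgroup.mem_map_of_mem (mapGL ℝ) hγ)

/-- The Atkin–Lehner translate `F ∣[2] W_q` of a cusp form of level `Γ₀(q M1)`, as a cusp form of
the same level. -/
def atkinForm (hq : q ≠ 0) (hdet : (q : ℤ) * x * w - (M1 : ℤ) * y * z = 1)
    (F : CuspForm (Gamma0 (q * M1)) 2) : CuspForm (Gamma0 (q * M1)) 2 where
  toFun := ⇑F ∣[(2 : ℤ)] atkinGL q M1 x y z w
  slash_action_eq' γ hγ :=
    (CuspForm.translate F (atkinGL q M1 x y z w)).slash_action_eq' γ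
      (Gamma0_le_conj_atkin hq hdet hγ)
  holo' := (CuspForm.translate F (atkinGL q M1 x y z w)).holo'
  zero_at_cusps' hc :=
    (CuspForm.translate F (atkinGL q M1 x y z w)).zero_at_cusps'
      (hc.mono (Gamma0_le_conj_atkin hq hdet))

@[simp] theorem coe_atkinForm (hq : q ≠ 0) (hdet : (q : ℤ) * x * w - (M1 : ℤ) * y * z = 1)
    (F : CuspForm (Gamma0 (q * M1)) 2) :
    ⇑(atkinForm hq hdet F) = ⇑F ∣[(2 : ℤ)] atkinGL q M1 x y z w := rfl

/-- `F ↦ F ∣[2] W_q` as a `ℂ`-linear endomorphism of `S₂(Γ₀(q M1))`. -/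
def atkinLin (hq : q ≠ 0) (hdet : (q : ℤ) * x * w - (M1 : ℤ) * y * z = 1) :
    CuspForm (Gamma0 (q * M1)) 2 →ₗ[ℂ] CuspForm (Gamma0 (q * M1)) 2 where
  toFun := atkinForm hq hdet
  map_add' F G := DFunLike.coe_injective <| by
    show ⇑(F + G) ∣[(2 : ℤ)] atkinGL q M1 x y z w =
      ⇑F ∣[(2 : ℤ)] atkinGL q M1 x y z w + ⇑G ∣[(2 : ℤ)] atkinGL q M1 x y z w
    rw [FunLike.coe_add, SlashAction.add_slash]
  map_smul' c F := DFunLike.coe_injective <| by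
    show ⇑(c • F) ∣[(2 : ℤ)] atkinGL q M1 x y z w = c • (⇑F ∣[(2 : ℤ)] atkinGL q M1 x y z w)
    rw [FunLike.coe_smul, ModularForm.smul_slash, σ_atkinGL hq hdet,
      ContinuousAlgEquiv.refl_apply]

@[simp] theorem coe_atkinLin (hq : q ≠ 0) (hdet : (q : ℤ) * x * w - (M1 : ℤ) * y * z = 1)
    (F : CuspForm (Gamma0 (q * M1)) 2) :
    ⇑(atkinLin hq hdet F) = ⇑F ∣[(2 : ℤ)] atkinGL q M1 x y z w := rfl

theorem atkinLin_atkinLin (hq : q ≠ 0) (hdet : (q : ℤ) * x * w - (M1 : ℤ) * y * z = 1)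
    (F : CuspForm (Gamma0 (q * M1)) 2) : atkinLin hq hdet (atkinLin hq hdet F) = F :=
  DFunLike.coe_injective <| by
    rw [coe_atkinLin, coe_atkinLin]
    exact slash_atkinGL_atkinGL hq hdet (cuspForm_slash_eq F)

theorem atkinLin_eq_of_det {x' y' z' w' : ℤ} (hq : q ≠ 0)
    (hdet : (q : ℤ) * x * w - (M1 : ℤ) * y * z = 1)
    (hdet' : (q : ℤ) * x' * w' - (M1 : ℤ) * y' * z' = 1) :
    atkinLin hq hdet' = atkinLin hq hdet :=
  LinearMap.ext fun F => DFunLike.coe_injective <| by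
    rw [coe_atkinLin, coe_atkinLin]
    exact slash_atkinGL_eq_of_det hq hdet hdet' (cuspForm_slash_eq F)

/-! ### `W (1 j; 0 q) = q • δ_j` with `δ_j ∈ Γ₀(M1)` -/

/-- `δ_j = (x, x j + y; M1 z, M1 z j + q w) ∈ Γ₀(M1)`. -/
def atkinRep (q M1 : ℕ) (x y z w : ℤ) (hdet : (q : ℤ) * x * w - (M1 : ℤ) * y * z = 1) (j : ℕ) :
    SL(2, ℤ) :=
  mkSL x (x * j + y) (M1 * z) (M1 * z * j + q * w) (by linear_combination hdet)

theorem atkinRep_mem (hdet : (q : ℤ) * x * w - (M1 : ℤ) * y * z = 1) (j : ℕ) :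
    atkinRep q M1 x y z w hdet j ∈ Gamma0 M1 := by
  rw [mem_Gamma0_iff_dvd]
  simp only [atkinRep, mkSL_apply_one_zero]
  exact ⟨_, rfl⟩

theorem slash_atkinGL_heckeMatrix (hq : q ≠ 0) (hdet : (q : ℤ) * x * w - (M1 : ℤ) * y * z = 1)
    (f : ℍ → ℂ) (j : ℕ) :
    (f ∣[(2 : ℤ)] atkinGL q M1 x y z w) ∣[(2 : ℤ)] heckeMatrix q j =
      f ∣[(2 : ℤ)] (mapGL ℝ (atkinRep q M1 x y z w hdet j) : GL (Fin 2) ℝ) := by
  have hq' : (q : ℝ) ≠ 0 := by exact_mod_cast hq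
  rw [← SlashAction.slash_mul]
  refine slash_eq_of_smul (by simp) (q : ℝ) hq' ?_ f
  intro i k
  rw [Matrix.GeneralLinearGroup.coe_mul, Matrix.mul_apply, Fin.sum_univ_two, val_mapGL_apply,
    val_heckeMatrix hq]
  obtain ⟨h00, h01, h10, h11⟩ :=
    atkinGL_apply (M1 := M1) (x := x) (y := y) (z := z) (w := w) hq hdet
  fin_cases i <;> fin_cases k <;>
    simp [atkinRep, h00, h01, h10, h11] <;> ring

theorem heckeU_slash_atkinGL (hq : q ≠ 0) (hdet : (q : ℤ) * x * w - (M1 : ℤ) * y * z = 1)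
    (f : ℍ → ℂ) :
    heckeU 2 q (f ∣[(2 : ℤ)] atkinGL q M1 x y z w) =
      ∑ j ∈ Finset.range q, f ∣[(2 : ℤ)] (mapGL ℝ (atkinRep q M1 x y z w hdet j) : GL (Fin 2) ℝ) := by
  rw [heckeU_def]
  exact Finset.sum_congr rfl fun j _ => slash_atkinGL_heckeMatrix hq hdet f j

end atkin

/-! ### Coset representatives of `Γ₀(q M1)` in `Γ₀(M1)` -/

theorem SL_mul_apply (a b : SL(2, ℤ)) (i j : Fin 2) :
    (a * b) i j = a i 0 * b 0 j + a i 1 * b 1 j := by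
  rw [Matrix.SpecialLinearGroup.coe_mul, Matrix.mul_apply, Fin.sum_univ_two]

theorem SL_inv_apply (a : SL(2, ℤ)) :
    (a⁻¹) 0 0 = a 1 1 ∧ (a⁻¹) 0 1 = -a 0 1 ∧ (a⁻¹) 1 0 = -a 1 0 ∧ (a⁻¹) 1 1 = a 0 0 := by
  rw [Matrix.SpecialLinearGroup.coe_inv, Matrix.adjugate_fin_two]
  simp

theorem isFiniteRelIndex_Gamma0 (N M : ℕ) [NeZero N] :
    ((Gamma0 N : Subgroup SL(2, ℤ)).map (mapGL ℝ)).IsFiniteRelIndex
      ((Gamma0 M : Subgroup SL(2, ℤ)).map (mapGL ℝ)) :=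
  Subgroup.isFiniteRelIndex_of_le_right _ (Subgroup.map_le_range _ _)

/-- The quotient `Γ₀(M1) ⧸ Γ₀(q M1)` used by Mathlib's trace. -/
abbrev LevelQuot (q M1 : ℕ) : Type :=
  ((Gamma0 M1 : Subgroup SL(2, ℤ)).map (mapGL ℝ)) ⧸
    (((Gamma0 (q * M1) : Subgroup SL(2, ℤ)).map (mapGL ℝ)).subgroupOf
      ((Gamma0 M1 : Subgroup SL(2, ℤ)).map (mapGL ℝ)))

/-- The class of an element of `Γ₀(M1)` in `Γ₀(M1) ⧸ Γ₀(q M1)`. -/
def toQuot (q M1 : ℕ) (g : SL(2, ℤ)) (hg : g ∈ Gamma0 M1) : LevelQuot q M1 :=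
  QuotientGroup.mk ⟨mapGL ℝ g, Subgroup.mem_map_of_mem _ hg⟩

theorem toQuot_eq_iff (q M1 : ℕ) (g₁ g₂ : SL(2, ℤ)) (h₁ : g₁ ∈ Gamma0 M1) (h₂ : g₂ ∈ Gamma0 M1) :
    toQuot q M1 g₁ h₁ = toQuot q M1 g₂ h₂ ↔ g₁⁻¹ * g₂ ∈ Gamma0 (q * M1) := by
  rw [toQuot, toQuot, QuotientGroup.eq, Subgroup.mem_subgroupOf]
  simp only [Subgroup.coe_mul, InvMemClass.coe_inv]
  rw [← map_inv, ← map_mul]
  exact Subgroup.mem_map_iff_mem Matrix.SpecialLinearGroup.mapGL_injective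

theorem toQuot_surjective (q M1 : ℕ) (c : LevelQuot q M1) :
    ∃ (g : SL(2, ℤ)) (hg : g ∈ Gamma0 M1), toQuot q M1 g hg = c := by
  induction c using QuotientGroup.induction_on with
  | H h =>
    obtain ⟨g, hg, hgh⟩ := h.2
    refine ⟨g, hg, ?_⟩
    rw [toQuot]
    congr 1
    exact Subtype.ext hgh

theorem quotientFunc_toQuot {q M1 : ℕ} (F : CuspForm (Gamma0 (q * M1)) 2) (g : SL(2, ℤ))
    (hg : g ∈ Gamma0 M1) :
    SlashInvariantForm.quotientFunc F (toQuot q M1 g hg) =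
      ⇑F ∣[(2 : ℤ)] (mapGL ℝ g⁻¹ : GL (Fin 2) ℝ) := by
  rw [toQuot]
  erw [SlashInvariantForm.quotientFunc_mk]
  rw [map_inv]

section cosets

variable {q M1 : ℕ} {x y z w : ℤ}

/-- Coset representatives of `Γ₀(q M1)` in `Γ₀(M1)` (left cosets `g Γ₀(q M1)`): `1` and the
inverses of the `δ_j`, `j < q`. -/
def cosetRep (hdet : (q : ℤ) * x * w - (M1 : ℤ) * y * z = 1) : Option (Fin q) → SL(2, ℤ)
  | none => 1
  | some j => (atkinRep q M1 x y z w hdet (j : ℕ))⁻¹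

theorem cosetRep_mem (hdet : (q : ℤ) * x * w - (M1 : ℤ) * y * z = 1) (o : Option (Fin q)) :
    cosetRep hdet o ∈ Gamma0 M1 := by
  rcases o with _ | j
  · exact Subgroup.one_mem _
  · exact Subgroup.inv_mem _ (atkinRep_mem hdet _)

theorem not_dvd_of_det (hq : 1 < q) (hdet : (q : ℤ) * x * w - (M1 : ℤ) * y * z = 1) :
    ¬ (q : ℤ) ∣ (M1 : ℤ) * z := by
  intro h
  have h1 : (q : ℤ) ∣ 1 := by
    have h2 : (q : ℤ) ∣ (q : ℤ) * x * w - (M1 : ℤ) * y * z :=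
      dvd_sub (Dvd.intro _ (by ring : (q : ℤ) * (x * w) = (q : ℤ) * x * w))
        (by
          obtain ⟨t, ht⟩ := h
          exact ⟨t * y, by linear_combination y * ht⟩)
    rwa [hdet] at h2
  have h3 := Int.le_of_dvd one_pos h1
  omega

theorem cosetRep_injective (hq : 1 < q)
    (hdet : (q : ℤ) * x * w - (M1 : ℤ) * y * z = 1) :
    Function.Injective (fun o : Option (Fin q) =>
      toQuot q M1 (cosetRep hdet o) (cosetRep_mem hdet o)) := by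
  intro o₁ o₂ h
  rw [toQuot_eq_iff, mem_Gamma0_iff_dvd] at h
  rcases o₁ with _ | i <;> rcases o₂ with _ | j
  · rfl
  · exfalso
    simp only [cosetRep, inv_one, one_mul] at h
    rw [(SL_inv_apply _).2.2.1] at h
    simp only [atkinRep, mkSL_apply_one_zero] at h
    apply not_dvd_of_det hq hdet
    obtain ⟨t, ht⟩ := h
    push_cast at ht
    exact ⟨-((M1 : ℤ) * t), by linear_combination -ht⟩
  · exfalso
    simp only [cosetRep, inv_inv, mul_one] at h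
    simp only [atkinRep, mkSL_apply_one_zero] at h
    apply not_dvd_of_det hq hdet
    obtain ⟨t, ht⟩ := h
    push_cast at ht
    exact ⟨(M1 : ℤ) * t, by linear_combination ht⟩
  · simp only [cosetRep, inv_inv] at h
    rw [SL_mul_apply, (SL_inv_apply _).1, (SL_inv_apply _).2.2.1] at h
    simp only [atkinRep, mkSL_apply_one_zero, mkSL_apply_one_one] at h
    -- `q M1 ∣ M1² z² (j - i)`
    obtain ⟨t, ht⟩ := h
    push_cast at ht
    have h1 : (q : ℤ) ∣ (j : ℤ) - (i : ℤ) := by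
      have h3 : ((M1 : ℤ) * y * z) ^ 2 * ((j : ℤ) - i) = (q : ℤ) * (t * y ^ 2 * M1) := by
        linear_combination (y ^ 2) * ht
      have h4 : ((M1 : ℤ) * y * z) ^ 2 = 1 + (q : ℤ) * (x * w * ((q : ℤ) * x * w - 2)) := by
        have : (M1 : ℤ) * y * z = (q : ℤ) * x * w - 1 := by linear_combination -hdet
        rw [this]; ring
      rw [h4] at h3
      exact ⟨t * y ^ 2 * M1 - x * w * ((q : ℤ) * x * w - 2) * ((j : ℤ) - i), by
        linear_combination h3⟩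
    have hij : (i : ℕ) = (j : ℕ) := by
      have h5 : ((i : ℕ) : ℤ) ≡ ((j : ℕ) : ℤ) [ZMOD (q : ℤ)] := Int.modEq_iff_dvd.mpr h1
      exact Nat.ModEq.eq_of_lt_of_lt (Int.natCast_modEq_iff.mp h5) i.2 j.2
    exact congrArg some (Fin.ext hij)

theorem cosetRep_surjective (hq : q.Prime)
    (hdet : (q : ℤ) * x * w - (M1 : ℤ) * y * z = 1) :
    Function.Surjective (fun o : Option (Fin q) =>
      toQuot q M1 (cosetRep hdet o) (cosetRep_mem hdet o)) := by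
  have : Fact q.Prime := ⟨hq⟩
  have : NeZero q := ⟨hq.ne_zero⟩
  intro c
  obtain ⟨g, hg, rfl⟩ := toQuot_surjective q M1 c
  obtain ⟨c₁, hc₁⟩ : (M1 : ℤ) ∣ g 1 0 := (mem_Gamma0_iff_dvd g).mp hg
  by_cases hdiv : (q : ℤ) ∣ g 1 0
  · refine ⟨none, ?_⟩
    show toQuot q M1 (cosetRep hdet none) (cosetRep_mem hdet none) = toQuot q M1 g hg
    rw [toQuot_eq_iff, mem_Gamma0_iff_dvd]
    simp only [cosetRep, inv_one, one_mul]
    have hcop : IsCoprime (q : ℤ) (M1 : ℤ) := ⟨x * w, -(y * z), by linear_combination hdet⟩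
    have := hcop.mul_dvd hdiv ⟨c₁, hc₁⟩
    exact_mod_cast this
  · have hne : ((g 1 0 : ℤ) : ZMod q) ≠ 0 := by
      rwa [Ne, ZMod.intCast_zmod_eq_zero_iff_dvd]
    let j : ZMod q := -((g 0 0 : ℤ) : ZMod q) * (((g 1 0 : ℤ) : ZMod q))⁻¹
    obtain ⟨e, he⟩ : (q : ℤ) ∣ g 0 0 + g 1 0 * (j.val : ℤ) := by
      rw [← ZMod.intCast_zmod_eq_zero_iff_dvd]
      push_cast
      rw [ZMod.natCast_zmod_val]
      show ((g 0 0 : ℤ) : ZMod q) + ((g 1 0 : ℤ) : ZMod q) *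
        (-((g 0 0 : ℤ) : ZMod q) * (((g 1 0 : ℤ) : ZMod q))⁻¹) = 0
      field_simp
      ring
    refine ⟨some ⟨j.val, ZMod.val_lt j⟩, ?_⟩
    show toQuot q M1 (cosetRep hdet (some ⟨j.val, ZMod.val_lt j⟩)) (cosetRep_mem hdet _) =
      toQuot q M1 g hg
    rw [toQuot_eq_iff, mem_Gamma0_iff_dvd]
    simp only [cosetRep, inv_inv]
    rw [SL_mul_apply]
    simp only [atkinRep, mkSL_apply_one_zero, mkSL_apply_one_one]
    refine ⟨z * e + w * c₁, ?_⟩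
    push_cast
    rw [hc₁] at he ⊢
    linear_combination ((M1 : ℤ) * z) * he

/-- The explicit coset system `{1} ∪ {δ_j⁻¹ : j < q}` of `Γ₀(q M1)` in `Γ₀(M1)`, as an equivalence
with the quotient used by Mathlib's trace. -/
def cosetEquiv (hq : q.Prime) (hdet : (q : ℤ) * x * w - (M1 : ℤ) * y * z = 1) :
    Option (Fin q) ≃ LevelQuot q M1 :=
  Equiv.ofBijective
    (fun o : Option (Fin q) => toQuot q M1 (cosetRep hdet o) (cosetRep_mem hdet o))
    ⟨cosetRep_injective hq.one_lt hdet, cosetRep_surjective hq hdet⟩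

theorem cosetEquiv_apply (hq : q.Prime) (hdet : (q : ℤ) * x * w - (M1 : ℤ) * y * z = 1)
    (o : Option (Fin q)) :
    cosetEquiv hq hdet o = toQuot q M1 (cosetRep hdet o) (cosetRep_mem hdet o) := rfl

theorem sum_levelQuot_eq (hq : q.Prime) (hdet : (q : ℤ) * x * w - (M1 : ℤ) * y * z = 1)
    {A : Type*} [AddCommMonoid A] [Fintype (LevelQuot q M1)] (φ : LevelQuot q M1 → A) :
    ∑ c, φ c = φ (cosetEquiv hq hdet none) + ∑ j : Fin q, φ (cosetEquiv hq hdet (some j)) := by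
  rw [← (cosetEquiv hq hdet).sum_comp, Fintype.sum_option]

theorem card_levelQuot (hq : q.Prime) (hdet : (q : ℤ) * x * w - (M1 : ℤ) * y * z = 1) :
    Nat.card (LevelQuot q M1) = q + 1 := by
  rw [← Nat.card_congr (cosetEquiv hq hdet)]
  simp

/-- **Explicit trace formula.**  The Mathlib trace from level `Γ₀(q M1)` to level `Γ₀(M1)` of a
weight-2 cusp form is `F + U_q (F ∣ W_q)`. -/
theorem coe_trace_eq (hq : q.Prime) (hdet : (q : ℤ) * x * w - (M1 : ℤ) * y * z = 1)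
    [((Gamma0 (q * M1) : Subgroup SL(2, ℤ)).map (mapGL ℝ)).IsFiniteRelIndex
      ((Gamma0 M1 : Subgroup SL(2, ℤ)).map (mapGL ℝ))]
    (F : CuspForm (Gamma0 (q * M1)) 2) :
    (⇑(CuspForm.trace ((Gamma0 M1 : Subgroup SL(2, ℤ)).map (mapGL ℝ)) F) : ℍ → ℂ) =
      ⇑F + heckeU 2 q (⇑F ∣[(2 : ℤ)] atkinGL q M1 x y z w) := by
  rw [CuspForm.coe_trace]
  let : Fintype (LevelQuot q M1) := Fintype.ofFinite _
  rw [sum_levelQuot_eq hq hdet, cosetEquiv_apply, quotientFunc_toQuot]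
  simp_rw [cosetEquiv_apply, quotientFunc_toQuot]
  rw [heckeU_slash_atkinGL hq.ne_zero hdet,
    ← Fin.sum_univ_eq_sum_range (fun j => ⇑F ∣[(2 : ℤ)]
      (mapGL ℝ (atkinRep q M1 x y z w hdet j) : GL (Fin 2) ℝ)) q]
  simp [cosetRep]

end cosets

/-! ### Coset representatives for `T_ℓ` -/

/-- The `ℓ + 1` matrices defining the Prelude `heckeT`. -/
def tRep (ℓ : ℕ) : Option (Fin ℓ) → GL (Fin 2) ℝ
  | none => heckeDiagMatrix ℓ
  | some j => heckeMatrix ℓ (j : ℕ)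

theorem heckeT_eq_sum_tRep (k : ℤ) (ℓ : ℕ) (f : ℍ → ℂ) :
    heckeT k ℓ f = ∑ o : Option (Fin ℓ), f ∣[k] tRep ℓ o := by
  rw [Fintype.sum_option, heckeT_def, add_comm]
  congr 1
  exact (Fin.sum_univ_eq_sum_range (fun j => f ∣[k] heckeMatrix ℓ j) ℓ).symm

/-- An element of `GL(2,ℝ)` with integer entries (junk value `1` if the determinant vanishes). -/
def intGL (a b c d : ℤ) : GL (Fin 2) ℝ :=
  if h : (a : ℝ) * d - (b : ℝ) * c ≠ 0 then
    Matrix.GeneralLinearGroup.mkOfDetNeZero !![(a : ℝ), (b : ℝ); (c : ℝ), (d : ℝ)]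
      (by rwa [Matrix.det_fin_two_of])
  else 1

theorem val_intGL {a b c d : ℤ} (h : a * d - b * c ≠ 0) :
    ((intGL a b c d : GL (Fin 2) ℝ) : Matrix (Fin 2) (Fin 2) ℝ) =
      !![(a : ℝ), (b : ℝ); (c : ℝ), (d : ℝ)] := by
  have h' : (a : ℝ) * d - (b : ℝ) * c ≠ 0 := by exact_mod_cast h
  rw [intGL, dif_pos h']
  rfl

theorem intGL_apply {a b c d : ℤ} (h : a * d - b * c ≠ 0) :
    ((intGL a b c d : GL (Fin 2) ℝ) : Matrix (Fin 2) (Fin 2) ℝ) 0 0 = (a : ℝ) ∧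
    ((intGL a b c d : GL (Fin 2) ℝ) : Matrix (Fin 2) (Fin 2) ℝ) 0 1 = (b : ℝ) ∧
    ((intGL a b c d : GL (Fin 2) ℝ) : Matrix (Fin 2) (Fin 2) ℝ) 1 0 = (c : ℝ) ∧
    ((intGL a b c d : GL (Fin 2) ℝ) : Matrix (Fin 2) (Fin 2) ℝ) 1 1 = (d : ℝ) := by
  rw [val_intGL h]
  simp

theorem tRep_apply {ℓ : ℕ} (hℓ : ℓ ≠ 0) (o : Option (Fin ℓ)) :
    ∃ a b d : ℤ, a * d = ℓ ∧
      ((tRep ℓ o : GL (Fin 2) ℝ) : Matrix (Fin 2) (Fin 2) ℝ) 0 0 = (a : ℝ) ∧
      ((tRep ℓ o : GL (Fin 2) ℝ) : Matrix (Fin 2) (Fin 2) ℝ) 0 1 = (b : ℝ) ∧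
      ((tRep ℓ o : GL (Fin 2) ℝ) : Matrix (Fin 2) (Fin 2) ℝ) 1 0 = 0 ∧
      ((tRep ℓ o : GL (Fin 2) ℝ) : Matrix (Fin 2) (Fin 2) ℝ) 1 1 = (d : ℝ) := by
  rcases o with _ | j
  · refine ⟨ℓ, 0, 1, by ring, ?_⟩
    simp [tRep, val_heckeDiagMatrix hℓ]
  · refine ⟨1, (j : ℕ), ℓ, by ring, ?_⟩
    simp [tRep, val_heckeMatrix hℓ]

/-- Completeness: every integer matrix of determinant `ℓ` with lower left entry divisible by `N`
is `γ * t` with `γ ∈ Γ₀(N)` and `t` one of the `ℓ + 1` standard representatives. -/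
theorem exists_tRep_of_det {N ℓ : ℕ} (hℓ : ℓ.Prime) (hℓN : ¬ ℓ ∣ N) (a b c d : ℤ)
    (hdet : a * d - b * c = ℓ) (hc : (N : ℤ) ∣ c) :
    ∃ (o : Option (Fin ℓ)) (γ : SL(2, ℤ)), γ ∈ Gamma0 N ∧
      intGL a b c d = mapGL ℝ γ * tRep ℓ o := by
  have : Fact ℓ.Prime := ⟨hℓ⟩
  have : NeZero ℓ := ⟨hℓ.ne_zero⟩
  have hℓ0 : (ℓ : ℤ) ≠ 0 := by exact_mod_cast hℓ.ne_zero
  have hne : a * d - b * c ≠ 0 := by rw [hdet]; exact hℓ0
  obtain ⟨i00, i01, i10, i11⟩ := intGL_apply hne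
  by_cases hcase : (ℓ : ℤ) ∣ a ∧ (ℓ : ℤ) ∣ c
  · obtain ⟨⟨a', ha'⟩, ⟨c', hc'⟩⟩ := hcase
    have hdet' : a' * d - b * c' = 1 := by
      have : (ℓ : ℤ) * (a' * d - b * c') = (ℓ : ℤ) * 1 := by
        rw [ha', hc'] at hdet; linear_combination hdet
      exact mul_left_cancel₀ hℓ0 this
    have hNc' : (N : ℤ) ∣ c' := by
      have hcop : IsCoprime (N : ℤ) (ℓ : ℤ) :=
        Nat.isCoprime_iff_coprime.mpr ((Nat.Prime.coprime_iff_not_dvd hℓ).mpr hℓN).symm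
      exact hcop.dvd_of_dvd_mul_left (hc' ▸ hc)
    refine ⟨none, mkSL a' b c' d hdet', (mem_Gamma0_iff_dvd _).mpr hNc', ?_⟩
    apply Matrix.GeneralLinearGroup.ext
    intro i j
    rw [Matrix.GeneralLinearGroup.coe_mul, Matrix.mul_apply, Fin.sum_univ_two, val_mapGL_apply,
      val_mapGL_apply]
    have ha'R : (a : ℝ) = ℓ * a' := by exact_mod_cast congrArg (Int.cast : ℤ → ℝ) ha'
    have hc'R : (c : ℝ) = ℓ * c' := by exact_mod_cast congrArg (Int.cast : ℤ → ℝ) hc'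
    fin_cases i <;> fin_cases j <;>
      simp [tRep, val_heckeDiagMatrix hℓ.ne_zero, i00, i01, i10, i11]
    · linear_combination ha'R
    · linear_combination hc'R
  · -- there is `j` with `ℓ ∣ b - a j` and `ℓ ∣ d - c j`
    obtain ⟨j, ⟨e₁, he₁⟩, ⟨e₂, he₂⟩⟩ : ∃ j : ZMod ℓ, (ℓ : ℤ) ∣ b - a * (j.val : ℤ) ∧
        (ℓ : ℤ) ∣ d - c * (j.val : ℤ) := by
      have hdetZ : (a : ZMod ℓ) * d - b * c = 0 := by
        have := congrArg (Int.cast : ℤ → ZMod ℓ) hdet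
        push_cast at this
        rw [this]
        exact ZMod.natCast_self ℓ
      by_cases ha : (ℓ : ℤ) ∣ a
      · have hc0 : ((c : ℤ) : ZMod ℓ) ≠ 0 := by
          rw [Ne, ZMod.intCast_zmod_eq_zero_iff_dvd]
          exact fun h => hcase ⟨ha, h⟩
        have ha0 : ((a : ℤ) : ZMod ℓ) = 0 := (ZMod.intCast_zmod_eq_zero_iff_dvd _ _).mpr ha
        have hb0 : ((b : ℤ) : ZMod ℓ) = 0 := by
          rw [ha0, zero_mul, zero_sub, neg_eq_zero] at hdetZ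
          exact (mul_eq_zero.mp hdetZ).resolve_right hc0
        refine ⟨(d : ZMod ℓ) * (c : ZMod ℓ)⁻¹, ?_, ?_⟩
        · rw [← ZMod.intCast_zmod_eq_zero_iff_dvd]
          push_cast
          rw [ZMod.natCast_zmod_val, ha0, hb0]
          ring
        · rw [← ZMod.intCast_zmod_eq_zero_iff_dvd]
          push_cast
          rw [ZMod.natCast_zmod_val]
          field_simp
          ring
      · have ha0 : ((a : ℤ) : ZMod ℓ) ≠ 0 := by
          rwa [Ne, ZMod.intCast_zmod_eq_zero_iff_dvd]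
        refine ⟨(b : ZMod ℓ) * (a : ZMod ℓ)⁻¹, ?_, ?_⟩
        · rw [← ZMod.intCast_zmod_eq_zero_iff_dvd]
          push_cast
          rw [ZMod.natCast_zmod_val]
          field_simp
          ring
        · rw [← ZMod.intCast_zmod_eq_zero_iff_dvd]
          push_cast
          rw [ZMod.natCast_zmod_val]
          have h1 : (a : ZMod ℓ) * ((d : ZMod ℓ) - c * (b * (a : ZMod ℓ)⁻¹)) = 0 := by
            field_simp
            linear_combination hdetZ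
          exact (mul_eq_zero.mp h1).resolve_left ha0
    have hdet' : a * e₂ - e₁ * c = 1 := by
      have : (ℓ : ℤ) * (a * e₂ - e₁ * c) = (ℓ : ℤ) * 1 := by
        linear_combination hdet - a * he₂ + c * he₁
      exact mul_left_cancel₀ hℓ0 this
    refine ⟨some ⟨j.val, ZMod.val_lt j⟩, mkSL a e₁ c e₂ hdet', (mem_Gamma0_iff_dvd _).mpr hc, ?_⟩
    apply Matrix.GeneralLinearGroup.ext
    intro i k
    rw [Matrix.GeneralLinearGroup.coe_mul, Matrix.mul_apply, Fin.sum_univ_two, val_mapGL_apply,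
      val_mapGL_apply]
    have he₁' : (b : ℝ) - a * (j.val : ℝ) = ℓ * e₁ := by exact_mod_cast congrArg (Int.cast : ℤ → ℝ) he₁
    have he₂' : (d : ℝ) - c * (j.val : ℝ) = ℓ * e₂ := by exact_mod_cast congrArg (Int.cast : ℤ → ℝ) he₂
    fin_cases i <;> fin_cases k <;>
      simp [tRep, val_heckeMatrix hℓ.ne_zero, i00, i01, i10, i11, -ZMod.natCast_val]
    · linear_combination he₁'
    · linear_combination he₂'

/-- Irredundancy of the standard representatives for `T_ℓ`. -/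
theorem tRep_eq_of_mul {ℓ : ℕ} (hℓ : 1 < ℓ) (o o' : Option (Fin ℓ)) (γ : SL(2, ℤ))
    (h : tRep ℓ o' = mapGL ℝ γ * tRep ℓ o) : o = o' := by
  have hℓ0 : ℓ ≠ 0 := by omega
  have key : ∀ i k, ((tRep ℓ o' : GL (Fin 2) ℝ) : Matrix (Fin 2) (Fin 2) ℝ) i k =
      ((γ i 0 : ℤ) : ℝ) * ((tRep ℓ o : GL (Fin 2) ℝ) : Matrix (Fin 2) (Fin 2) ℝ) 0 k +
        ((γ i 1 : ℤ) : ℝ) * ((tRep ℓ o : GL (Fin 2) ℝ) : Matrix (Fin 2) (Fin 2) ℝ) 1 k := by
    intro i k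
    rw [h, Matrix.GeneralLinearGroup.coe_mul, Matrix.mul_apply, Fin.sum_univ_two, val_mapGL_apply,
      val_mapGL_apply]
  rcases o with _ | j <;> rcases o' with _ | j'
  · rfl
  · exfalso
    have h00 := key 0 0
    simp only [tRep, val_heckeMatrix hℓ0, val_heckeDiagMatrix hℓ0, Matrix.of_apply,
      Matrix.cons_val_zero, Matrix.cons_val_one, Matrix.cons_val', Matrix.cons_val_fin_one,
      mul_zero, add_zero] at h00
    have h00' : (1 : ℤ) = γ 0 0 * ℓ := by exact_mod_cast h00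
    have h1 : (ℓ : ℤ) ∣ 1 := ⟨γ 0 0, by linear_combination h00'⟩
    have := Int.le_of_dvd one_pos h1
    omega
  · exfalso
    have h10 := key 1 0
    have h11 := key 1 1
    simp only [tRep, val_heckeMatrix hℓ0, val_heckeDiagMatrix hℓ0, Matrix.of_apply,
      Matrix.cons_val_zero, Matrix.cons_val_one, Matrix.cons_val', Matrix.cons_val_fin_one,
      mul_zero, add_zero, mul_one] at h10 h11
    have h10' : (0 : ℤ) = γ 1 0 := by exact_mod_cast h10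
    have h11' : (1 : ℤ) = γ 1 0 * (j : ℕ) + γ 1 1 * ℓ := by exact_mod_cast h11
    rw [← h10', zero_mul, zero_add] at h11'
    have h1 : (ℓ : ℤ) ∣ 1 := ⟨γ 1 1, by linear_combination h11'⟩
    have := Int.le_of_dvd one_pos h1
    omega
  · have h00 := key 0 0
    have h01 := key 0 1
    simp only [tRep, val_heckeMatrix hℓ0, Matrix.of_apply,
      Matrix.cons_val_zero, Matrix.cons_val_one, Matrix.cons_val', Matrix.cons_val_fin_one,
      mul_zero, add_zero, mul_one] at h00 h01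
    have h00' : (1 : ℤ) = γ 0 0 := by exact_mod_cast h00
    have h01' : ((j' : ℕ) : ℤ) = γ 0 0 * (j : ℕ) + γ 0 1 * ℓ := by exact_mod_cast h01
    rw [← h00', one_mul] at h01'
    have h1 : (ℓ : ℤ) ∣ ((j' : ℕ) : ℤ) - ((j : ℕ) : ℤ) := ⟨γ 0 1, by linear_combination h01'⟩
    have hij : (j : ℕ) = (j' : ℕ) := by
      have h5 : ((j : ℕ) : ℤ) ≡ ((j' : ℕ) : ℤ) [ZMOD (ℓ : ℤ)] := Int.modEq_iff_dvd.mpr h1
      exact Nat.ModEq.eq_of_lt_of_lt (Int.natCast_modEq_iff.mp h5) j.2 j'.2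
    exact congrArg some (Fin.ext hij)

section atkinHecke

variable {q M1 : ℕ} {x y z w : ℤ}

/-- Moving an upper triangular integer matrix across `W`: `T W = W B` with `B` integral of the
same determinant and lower left entry divisible by `q M1`. -/
theorem mul_atkinGL_eq (hq : q ≠ 0) (hdet : (q : ℤ) * x * w - (M1 : ℤ) * y * z = 1)
    (T : GL (Fin 2) ℝ) (a b d : ℤ) (had : a * d ≠ 0)
    (h00 : (T : Matrix (Fin 2) (Fin 2) ℝ) 0 0 = (a : ℝ))
    (h01 : (T : Matrix (Fin 2) (Fin 2) ℝ) 0 1 = (b : ℝ))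
    (h10 : (T : Matrix (Fin 2) (Fin 2) ℝ) 1 0 = 0)
    (h11 : (T : Matrix (Fin 2) (Fin 2) ℝ) 1 1 = (d : ℝ)) :
    (q * x * w * a + q * M1 * w * z * b - M1 * y * z * d) *
        (-M1 * y * z * a - q * M1 * w * z * b + q * x * w * d) -
      (w * y * a + q * w ^ 2 * b - w * y * d) *
        (q * M1 * (-x * z * a - M1 * z ^ 2 * b + x * z * d)) = a * d ∧
    T * atkinGL q M1 x y z w = atkinGL q M1 x y z w *
      intGL (q * x * w * a + q * M1 * w * z * b - M1 * y * z * d)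
        (w * y * a + q * w ^ 2 * b - w * y * d)
        (q * M1 * (-x * z * a - M1 * z ^ 2 * b + x * z * d))
        (-M1 * y * z * a - q * M1 * w * z * b + q * x * w * d) := by
  have hB : (q * x * w * a + q * M1 * w * z * b - M1 * y * z * d) *
        (-M1 * y * z * a - q * M1 * w * z * b + q * x * w * d) -
      (w * y * a + q * w ^ 2 * b - w * y * d) *
        (q * M1 * (-x * z * a - M1 * z ^ 2 * b + x * z * d)) = a * d := by
    linear_combination (a * d * ((q : ℤ) * x * w - (M1 : ℤ) * y * z + 1)) * hdet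
  refine ⟨hB, ?_⟩
  have hne : (q * x * w * a + q * M1 * w * z * b - M1 * y * z * d) *
        (-M1 * y * z * a - q * M1 * w * z * b + q * x * w * d) -
      (w * y * a + q * w ^ 2 * b - w * y * d) *
        (q * M1 * (-x * z * a - M1 * z ^ 2 * b + x * z * d)) ≠ 0 := by rw [hB]; exact had
  obtain ⟨i00, i01, i10, i11⟩ := intGL_apply hne
  obtain ⟨w00, w01, w10, w11⟩ :=
    atkinGL_apply (M1 := M1) (x := x) (y := y) (z := z) (w := w) hq hdet
  have hd := atkin_det_cast hdet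
  apply Matrix.GeneralLinearGroup.ext
  intro i k
  rw [Matrix.GeneralLinearGroup.coe_mul, Matrix.GeneralLinearGroup.coe_mul,
    Matrix.mul_apply, Matrix.mul_apply, Fin.sum_univ_two, Fin.sum_univ_two]
  fin_cases i <;> fin_cases k <;>
    simp only [h00, h01, h10, h11, i00, i01, i10, i11, w00, w01, w10, w11, Fin.zero_eta,
      Fin.mk_one] <;> push_cast
  · linear_combination (-((a : ℝ) * ((q : ℝ) * x) + (b : ℝ) * ((q : ℝ) * M1 * z))) * hd
  · linear_combination (-((a : ℝ) * y + (b : ℝ) * ((q : ℝ) * w))) * hd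
  · linear_combination (-((d : ℝ) * ((q : ℝ) * M1 * z))) * hd
  · linear_combination (-((d : ℝ) * ((q : ℝ) * w))) * hd

/-- **`T_ℓ` commutes with `W_q`** on `Γ₀(q M1)`-invariant functions, for primes `ℓ ∤ q M1`. -/
theorem heckeT_slash_atkinGL {ℓ : ℕ} (hℓ : ℓ.Prime) (hℓN : ¬ ℓ ∣ q * M1) (hq : q ≠ 0)
    (hdet : (q : ℤ) * x * w - (M1 : ℤ) * y * z = 1)
    {f : ℍ → ℂ} (hf : ∀ γ ∈ Gamma0 (q * M1), f ∣[(2 : ℤ)] (mapGL ℝ γ : GL (Fin 2) ℝ) = f) :
    heckeT 2 ℓ f ∣[(2 : ℤ)] atkinGL q M1 x y z w =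
      heckeT 2 ℓ (f ∣[(2 : ℤ)] atkinGL q M1 x y z w) := by
  have step : ∀ o : Option (Fin ℓ), ∃ (o' : Option (Fin ℓ)) (γ : SL(2, ℤ)),
      γ ∈ Gamma0 (q * M1) ∧
      tRep ℓ o * atkinGL q M1 x y z w =
        atkinGL q M1 x y z w * (mapGL ℝ γ * tRep ℓ o') := by
    intro o
    obtain ⟨a, b, d, had, t00, t01, t10, t11⟩ := tRep_apply hℓ.ne_zero o
    have had' : a * d ≠ 0 := by rw [had]; exact_mod_cast hℓ.ne_zero
    obtain ⟨hB, hTW⟩ := mul_atkinGL_eq hq hdet (tRep ℓ o) a b d had' t00 t01 t10 t11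
    obtain ⟨o', γ, hγ, hBγ⟩ := exists_tRep_of_det hℓ hℓN _ _ _ _ (hB.trans had)
      (⟨-x * z * a - M1 * z ^ 2 * b + x * z * d, by push_cast; ring⟩ :
        ((q * M1 : ℕ) : ℤ) ∣ q * M1 * (-x * z * a - M1 * z ^ 2 * b + x * z * d))
    exact ⟨o', γ, hγ, by rw [hTW, hBγ]⟩
  choose σ γ hγ hσ using step
  have hσinj : Function.Injective σ := by
    intro o₁ o₂ h12
    have h1 := hσ o₁
    have h2 := hσ o₂
    rw [← h12] at h2
    obtain ⟨c', hc⟩ := (mem_Gamma0_iff_dvd (γ o₂ * (γ o₁)⁻¹)).mp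
      (mul_mem (hγ o₂) (inv_mem (hγ o₁)))
    have hc2 : (γ o₂ * (γ o₁)⁻¹) 1 0 = (q : ℤ) * M1 * c' := by rw [hc]; push_cast; ring
    have hconj := atkinGL_mul_mapGL hq hdet (γ o₂ * (γ o₁)⁻¹) c' hc2
    have h3 : tRep ℓ o₂ = mapGL ℝ (atkinConj q M1 x y z w hdet (γ o₂ * (γ o₁)⁻¹) c' hc2) *
        tRep ℓ o₁ := by
      apply mul_right_cancel (b := atkinGL q M1 x y z w)
      rw [h2, mul_assoc (mapGL ℝ _) (tRep ℓ o₁), h1, ← mul_assoc (mapGL ℝ _), ← hconj, map_mul,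
        map_inv]
      simp only [mul_assoc, inv_mul_cancel_left]
    exact tRep_eq_of_mul hℓ.one_lt o₁ o₂ _ h3
  have hσbij : Function.Bijective σ := Finite.injective_iff_bijective.mp hσinj
  rw [heckeT_eq_sum_tRep, heckeT_eq_sum_tRep, SlashAction.sum_slash]
  rw [← (Equiv.ofBijective σ hσbij).sum_comp
    (fun o => (f ∣[(2 : ℤ)] atkinGL q M1 x y z w) ∣[(2 : ℤ)] tRep ℓ o)]
  refine Finset.sum_congr rfl fun o _ => ?_
  rw [← SlashAction.slash_mul, hσ o, SlashAction.slash_mul, SlashAction.slash_mul,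
    slash_atkinGL_invariant hq hdet hf _ (hγ o)]
  rfl

end atkinHecke

/-! ### The canonical operators `wq`, `trq` and the `q`-new subspace -/

section final

variable {q M1 : ℕ}

theorem canon_det (hcop : Nat.Coprime q M1) :
    (q : ℤ) * Nat.gcdA q M1 * 1 - (M1 : ℤ) * 1 * (-Nat.gcdB q M1) = 1 := by
  have h := Nat.gcd_eq_gcd_ab q M1
  rw [hcop] at h
  push_cast at h
  linarith

theorem ne_zero_of_prime_coprime (hq : q.Prime) (hcop : Nat.Coprime q M1) : M1 ≠ 0 := by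
  rintro rfl
  rw [Nat.coprime_zero_right] at hcop
  exact hq.one_lt.ne' hcop

theorem mul_ne_zero_of_prime_coprime (hq : q.Prime) (hcop : Nat.Coprime q M1) : q * M1 ≠ 0 :=
  Nat.mul_ne_zero hq.ne_zero (ne_zero_of_prime_coprime hq hcop)

/-- The canonical Atkin–Lehner matrix `W_q = (q x, 1; -q M1 z', q)` with `q x + M1 z' = 1`
(`x = Nat.gcdA q M1`, `z' = Nat.gcdB q M1`). -/
def wqGL (q M1 : ℕ) : GL (Fin 2) ℝ := atkinGL q M1 (Nat.gcdA q M1) 1 (-Nat.gcdB q M1) 1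

/-- **The Atkin–Lehner operator `W_q`** on `S₂(Γ₀(q M1))`, `gcd(q, M1) = 1`. -/
def wq (hq : q ≠ 0) (hcop : Nat.Coprime q M1) :
    CuspForm (Gamma0 (q * M1)) 2 →ₗ[ℂ] CuspForm (Gamma0 (q * M1)) 2 :=
  atkinLin hq (canon_det hcop)

theorem coe_wq (hq : q ≠ 0) (hcop : Nat.Coprime q M1) (F : CuspForm (Gamma0 (q * M1)) 2) :
    ⇑(wq hq hcop F) = ⇑F ∣[(2 : ℤ)] wqGL q M1 := rfl

/-- `wq` can be computed with any matrix `(q x, y; q M1 z, q w)` with `q x w - M1 y z = 1`. -/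
theorem wq_eq_atkinLin (hq : q ≠ 0) (hcop : Nat.Coprime q M1) {x y z w : ℤ}
    (hdet : (q : ℤ) * x * w - (M1 : ℤ) * y * z = 1) : wq hq hcop = atkinLin hq hdet :=
  atkinLin_eq_of_det hq hdet (canon_det hcop)

theorem coe_wq_eq (hq : q ≠ 0) (hcop : Nat.Coprime q M1) {x y z w : ℤ}
    (hdet : (q : ℤ) * x * w - (M1 : ℤ) * y * z = 1) (F : CuspForm (Gamma0 (q * M1)) 2) :
    ⇑(wq hq hcop F) = ⇑F ∣[(2 : ℤ)] atkinGL q M1 x y z w := by
  rw [wq_eq_atkinLin hq hcop hdet]; rfl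

/-- `W_q` is an involution. -/
theorem wq_wq (hq : q ≠ 0) (hcop : Nat.Coprime q M1) (F : CuspForm (Gamma0 (q * M1)) 2) :
    wq hq hcop (wq hq hcop F) = F :=
  atkinLin_atkinLin hq (canon_det hcop) F

theorem wq_comp_wq (hq : q ≠ 0) (hcop : Nat.Coprime q M1) :
    (wq hq hcop).comp (wq hq hcop) = LinearMap.id :=
  LinearMap.ext fun F => wq_wq hq hcop F

/-- **`W_q` commutes with `T_ℓ`** for primes `ℓ ∤ q M1`. -/
theorem wq_heckeTLin (hq : q ≠ 0) (hcop : Nat.Coprime q M1) {ℓ : ℕ} (hℓ : ℓ.Prime)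
    (hℓN : ¬ ℓ ∣ q * M1) (F : CuspForm (Gamma0 (q * M1)) 2) :
    wq hq hcop (CuspForm.heckeTLin 2 hℓ hℓN F) = CuspForm.heckeTLin 2 hℓ hℓN (wq hq hcop F) :=
  DFunLike.coe_injective <| by
    rw [coe_wq, CuspForm.coe_heckeTLin_apply, CuspForm.coe_heckeTLin_apply, coe_wq]
    exact heckeT_slash_atkinGL hℓ hℓN hq (canon_det hcop) (cuspForm_slash_eq F)

/-- **The trace** `S₂(Γ₀(q M1)) → S₂(Γ₀(M1))` (Mathlib's `CuspForm.trace`), as a linear map. -/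
def trq (hq : q.Prime) (hcop : Nat.Coprime q M1) :
    CuspForm (Gamma0 (q * M1)) 2 →ₗ[ℂ] CuspForm (Gamma0 M1) 2 :=
  haveI : NeZero (q * M1) := ⟨mul_ne_zero_of_prime_coprime hq hcop⟩
  haveI := isFiniteRelIndex_Gamma0 (q * M1) M1
  { toFun := fun F => CuspForm.trace ((Gamma0 M1 : Subgroup SL(2, ℤ)).map (mapGL ℝ)) F
    map_add' := fun F G => DFunLike.coe_injective <| by
      rw [FunLike.coe_add, coe_trace_eq hq (canon_det hcop), coe_trace_eq hq (canon_det hcop),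
        coe_trace_eq hq (canon_det hcop), FunLike.coe_add, SlashAction.add_slash, heckeU_add]
      abel
    map_smul' := fun c F => DFunLike.coe_injective <| by
      rw [RingHom.id_apply, FunLike.coe_smul, coe_trace_eq hq (canon_det hcop),
        coe_trace_eq hq (canon_det hcop), FunLike.coe_smul, ModularForm.smul_slash,
        σ_atkinGL hq.ne_zero (canon_det hcop), ContinuousAlgEquiv.refl_apply, heckeU_smul,
        smul_add] }

/-- **Trace formula**: `Tr F = F + U_q (F ∣ W_q)` as functions on the upper half plane. -/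
theorem coe_trq (hq : q.Prime) (hcop : Nat.Coprime q M1) (F : CuspForm (Gamma0 (q * M1)) 2) :
    ⇑(trq hq hcop F) = ⇑F + heckeU 2 q ⇑(wq hq.ne_zero hcop F) := by
  have : NeZero (q * M1) := ⟨mul_ne_zero_of_prime_coprime hq hcop⟩
  have := isFiniteRelIndex_Gamma0 (q * M1) M1
  exact coe_trace_eq hq (canon_det hcop) F

theorem coe_trq_heckeULin (hq : q.Prime) (hcop : Nat.Coprime q M1) [NeZero (q * M1)]
    (F : CuspForm (Gamma0 (q * M1)) 2) :
    ⇑(trq hq hcop F) =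
      ⇑(F + CuspForm.heckeULin 2 (dvd_mul_right q M1) (wq hq.ne_zero hcop F)) := by
  rw [coe_trq, FunLike.coe_add, CuspForm.coe_heckeULin_apply]

/-- **The trace commutes with `T_ℓ`** for primes `ℓ ∤ q M1`. -/
theorem trq_heckeTLin (hq : q.Prime) (hcop : Nat.Coprime q M1) {ℓ : ℕ} (hℓ : ℓ.Prime)
    (hℓN : ¬ ℓ ∣ q * M1) (hℓM1 : ¬ ℓ ∣ M1) (F : CuspForm (Gamma0 (q * M1)) 2) :
    trq hq hcop (CuspForm.heckeTLin 2 hℓ hℓN F) = CuspForm.heckeTLin 2 hℓ hℓM1 (trq hq hcop F) :=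
  DFunLike.coe_injective <| by
    have hcopℓ : Nat.Coprime ℓ q :=
      (Nat.Prime.coprime_iff_not_dvd hℓ).mpr fun h => hℓN (Dvd.dvd.mul_right h M1)
    rw [coe_trq, CuspForm.coe_heckeTLin_apply, CuspForm.coe_heckeTLin_apply, coe_trq,
      wq_heckeTLin, CuspForm.coe_heckeTLin_apply, heckeT_add,
      ModularFormClass.heckeT_heckeU_comm (wq hq.ne_zero hcop F)
        (one_mem_strictPeriods_Gamma0 (q * M1)) hcopℓ]

/-- **The `q`-new subspace** of `S₂(Γ₀(q M1))`: the common kernel of the two degeneracy traces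
`Tr` and `Tr ∘ W_q` to level `M1`. -/
def qNew (hq : q.Prime) (hcop : Nat.Coprime q M1) :
    Submodule ℂ (CuspForm (Gamma0 (q * M1)) 2) :=
  LinearMap.ker (trq hq hcop) ⊓ LinearMap.ker ((trq hq hcop).comp (wq hq.ne_zero hcop))

theorem mem_qNew_iff_trq (hq : q.Prime) (hcop : Nat.Coprime q M1)
    (F : CuspForm (Gamma0 (q * M1)) 2) :
    F ∈ qNew hq hcop ↔ trq hq hcop F = 0 ∧ trq hq hcop (wq hq.ne_zero hcop F) = 0 := by
  rw [qNew, Submodule.mem_inf, LinearMap.mem_ker, LinearMap.mem_ker, LinearMap.comp_apply]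

theorem trq_eq_zero_iff (hq : q.Prime) (hcop : Nat.Coprime q M1) [NeZero (q * M1)]
    (F : CuspForm (Gamma0 (q * M1)) 2) :
    trq hq hcop F = 0 ↔
      CuspForm.heckeULin 2 (dvd_mul_right q M1) (wq hq.ne_zero hcop F) = -F := by
  rw [eq_neg_iff_add_eq_zero, add_comm]
  constructor
  · intro h
    apply DFunLike.coe_injective
    rw [← coe_trq_heckeULin hq hcop, h]
    rfl
  · intro h
    apply DFunLike.coe_injective
    rw [coe_trq_heckeULin hq hcop, h]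
    rfl

/-- **Characterisation of the `q`-new subspace**: `U_q (W_q F) = -F` and `U_q F = -(W_q F)`. -/
theorem mem_qNew_iff (hq : q.Prime) (hcop : Nat.Coprime q M1) [NeZero (q * M1)]
    (F : CuspForm (Gamma0 (q * M1)) 2) :
    F ∈ qNew hq hcop ↔
      CuspForm.heckeULin 2 (dvd_mul_right q M1) (wq hq.ne_zero hcop F) = -F ∧
      CuspForm.heckeULin 2 (dvd_mul_right q M1) F = -(wq hq.ne_zero hcop F) := by
  rw [mem_qNew_iff_trq, trq_eq_zero_iff, trq_eq_zero_iff, wq_wq]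

/-- The `q`-new subspace is stable under `T_ℓ`, `ℓ ∤ q M1`. -/
theorem heckeTLin_mem_qNew (hq : q.Prime) (hcop : Nat.Coprime q M1) {ℓ : ℕ} (hℓ : ℓ.Prime)
    (hℓN : ¬ ℓ ∣ q * M1) {F : CuspForm (Gamma0 (q * M1)) 2} (hF : F ∈ qNew hq hcop) :
    CuspForm.heckeTLin 2 hℓ hℓN F ∈ qNew hq hcop := by
  have hℓM1 : ¬ ℓ ∣ M1 := fun h => hℓN (Dvd.dvd.mul_left h q)
  rw [mem_qNew_iff_trq] at hF ⊢
  refine ⟨?_, ?_⟩
  · rw [trq_heckeTLin hq hcop hℓ hℓN hℓM1, hF.1, map_zero]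
  · rw [wq_heckeTLin, trq_heckeTLin hq hcop hℓ hℓN hℓM1, hF.2, map_zero]

/-- The `q`-new subspace is stable under `W_q`. -/
theorem wq_mem_qNew (hq : q.Prime) (hcop : Nat.Coprime q M1)
    {F : CuspForm (Gamma0 (q * M1)) 2} (hF : F ∈ qNew hq hcop) :
    wq hq.ne_zero hcop F ∈ qNew hq hcop := by
  rw [mem_qNew_iff_trq] at hF ⊢
  exact ⟨hF.2, by rw [wq_wq]; exact hF.1⟩

/-- The `q`-new subspace is stable under `U_q`. -/
theorem heckeULin_mem_qNew (hq : q.Prime) (hcop : Nat.Coprime q M1) [NeZero (q * M1)]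
    {F : CuspForm (Gamma0 (q * M1)) 2} (hF : F ∈ qNew hq hcop) :
    CuspForm.heckeULin 2 (dvd_mul_right q M1) F ∈ qNew hq hcop := by
  rw [((mem_qNew_iff hq hcop F).mp hF).2]
  exact neg_mem (wq_mem_qNew hq hcop hF)

/-- `U_q² = 1` on the `q`-new subspace. -/
theorem heckeULin_heckeULin_of_mem_qNew (hq : q.Prime) (hcop : Nat.Coprime q M1)
    [NeZero (q * M1)] {F : CuspForm (Gamma0 (q * M1)) 2} (hF : F ∈ qNew hq hcop) :
    CuspForm.heckeULin 2 (dvd_mul_right q M1) (CuspForm.heckeULin 2 (dvd_mul_right q M1) F) = F := by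
  obtain ⟨h1, h2⟩ := (mem_qNew_iff hq hcop F).mp hF
  rw [h2, map_neg, h1, neg_neg]

/-- Dimension count: `dim S₂(Γ₀(q M1)) ≤ dim (q-new) + 2 dim S₂(Γ₀(M1))`. -/
theorem finrank_le_finrank_qNew_add (hq : q.Prime) (hcop : Nat.Coprime q M1)
    [Module.Finite ℂ (CuspForm (Gamma0 (q * M1)) 2)] [Module.Finite ℂ (CuspForm (Gamma0 M1) 2)] :
    Module.finrank ℂ (CuspForm (Gamma0 (q * M1)) 2) ≤
      Module.finrank ℂ (qNew hq hcop) + 2 * Module.finrank ℂ (CuspForm (Gamma0 M1) 2) := by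
  have hker : qNew hq hcop =
      LinearMap.ker ((trq hq hcop).prod ((trq hq hcop).comp (wq hq.ne_zero hcop))) := by
    rw [LinearMap.ker_prod]; rfl
  have h1 := LinearMap.finrank_range_add_finrank_ker
    ((trq hq hcop).prod ((trq hq hcop).comp (wq hq.ne_zero hcop)))
  have h2 : Module.finrank ℂ (LinearMap.range
      ((trq hq hcop).prod ((trq hq hcop).comp (wq hq.ne_zero hcop)))) ≤
      Module.finrank ℂ (CuspForm (Gamma0 M1) 2 × CuspForm (Gamma0 M1) 2) :=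
    Submodule.finrank_le _
  rw [Module.finrank_prod] at h2
  rw [hker]
  omega

end final

end Fermat.Agent.S35.helper1462
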