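/-
helper1462 — S35-NEWQ glue (board #1511): NEWQ-A (`helper1462_NewQ`) + NEWQ-B (`helper1159_NewQB`).

A Prelude newform `g` of level `q * M1` (`q` prime, `q ∤ M1`) is `q`-new:
`U_q (W_q g) = -g` and `U_q g = -(W_q g)`; consequently `W_q g = -a_q(g) • g` and `a_q(g)² = 1`.
-/
import Mathlib
import Fermat.Prelude.Def_CuspForm_Newforms
import Fermat.Agent.S35.helper1462_NewQ
import Fermat.Agent.S35.helper1159_NewQB

set_option autoImplicit false

namespace Fermat.Agent.S35.helper1462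

open CongruenceSubgroup ModularFormClass

variable {q M1 : ℕ}

theorem ne_mul_of_prime_coprime (hq : q.Prime) (hcop : Nat.Coprime q M1) : M1 ≠ q * M1 := by
  have hM1 := ne_zero_of_prime_coprime hq hcop
  have h1 := hq.one_lt
  intro h
  have h2 : 1 * M1 < q * M1 := Nat.mul_lt_mul_of_pos_right h1 (Nat.pos_of_ne_zero hM1)
  omega

/-- The trace to level `M1` of a newform of level `q M1` vanishes. -/
theorem trq_eq_zero_of_isNewform (hq : q.Prime) (hcop : Nat.Coprime q M1)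
    {g : CuspForm (Gamma0 (q * M1)) 2} (hg : g.IsNewform) : trq hq hcop g = 0 := by
  have : NeZero M1 := ⟨ne_zero_of_prime_coprime hq hcop⟩
  exact Fermat.Agent.S35.helper1159.map_eq_zero_of_isNewform (Dvd.intro_left q rfl)
    (ne_mul_of_prime_coprime hq hcop) (trq hq hcop)
    (fun ℓ hℓ hℓN hℓM1 f => trq_heckeTLin hq hcop hℓ hℓN hℓM1 f) hg

/-- The trace to level `M1` of the Atkin–Lehner translate of a newform of level `q M1`
vanishes. -/
theorem trq_wq_eq_zero_of_isNewform (hq : q.Prime) (hcop : Nat.Coprime q M1)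
    {g : CuspForm (Gamma0 (q * M1)) 2} (hg : g.IsNewform) :
    trq hq hcop (wq hq.ne_zero hcop g) = 0 := by
  have : NeZero M1 := ⟨ne_zero_of_prime_coprime hq hcop⟩
  exact Fermat.Agent.S35.helper1159.map_eq_zero_of_isNewform (Dvd.intro_left q rfl)
    (ne_mul_of_prime_coprime hq hcop) ((trq hq hcop).comp (wq hq.ne_zero hcop))
    (fun ℓ hℓ hℓN hℓM1 f => by
      rw [LinearMap.comp_apply, LinearMap.comp_apply, wq_heckeTLin,
        trq_heckeTLin hq hcop hℓ hℓN hℓM1]) hg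

/-- **Newform ⇒ `q`-new.** -/
theorem mem_qNew_of_isNewform (hq : q.Prime) (hcop : Nat.Coprime q M1)
    {g : CuspForm (Gamma0 (q * M1)) 2} (hg : g.IsNewform) : g ∈ qNew hq hcop :=
  (mem_qNew_iff_trq hq hcop g).mpr
    ⟨trq_eq_zero_of_isNewform hq hcop hg, trq_wq_eq_zero_of_isNewform hq hcop hg⟩

/-- **`U_q (W_q g) = -g`** for a newform `g` of level `q M1`, `q ∥ q M1`. -/
theorem heckeULin_wq_of_isNewform (hq : q.Prime) (hcop : Nat.Coprime q M1) [NeZero (q * M1)]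
    {g : CuspForm (Gamma0 (q * M1)) 2} (hg : g.IsNewform) :
    CuspForm.heckeULin 2 (dvd_mul_right q M1) (wq hq.ne_zero hcop g) = -g :=
  ((mem_qNew_iff hq hcop g).mp (mem_qNew_of_isNewform hq hcop hg)).1

/-- **`U_q g = -(W_q g)`** for a newform `g` of level `q M1`, `q ∥ q M1`. -/
theorem heckeULin_of_isNewform (hq : q.Prime) (hcop : Nat.Coprime q M1) [NeZero (q * M1)]
    {g : CuspForm (Gamma0 (q * M1)) 2} (hg : g.IsNewform) :
    CuspForm.heckeULin 2 (dvd_mul_right q M1) g = -(wq hq.ne_zero hcop g) :=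
  ((mem_qNew_iff hq hcop g).mp (mem_qNew_of_isNewform hq hcop hg)).2

/-- `W_q g = -a_q(g) • g` for a newform `g` of level `q M1`, `q ∥ q M1`. -/
theorem wq_eq_smul_of_isNewform (hq : q.Prime) (hcop : Nat.Coprime q M1)
    {g : CuspForm (Gamma0 (q * M1)) 2} (hg : g.IsNewform) :
    wq hq.ne_zero hcop g = (-qCoeff g q) • g := by
  have : NeZero (q * M1) := ⟨mul_ne_zero_of_prime_coprime hq hcop⟩
  have h1 := heckeULin_of_isNewform hq hcop hg
  rw [Fermat.Agent.S29.helper7617.heckeULin_apply_eq_smul hg.1 hq (dvd_mul_right q M1)] at h1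
  rw [neg_smul, h1, neg_neg]

/-- **`a_q(g)² = 1`** for a newform `g` of level `q M1` with `q ∥ q M1`. -/
theorem qCoeff_sq_eq_one_of_isNewform (hq : q.Prime) (hcop : Nat.Coprime q M1)
    {g : CuspForm (Gamma0 (q * M1)) 2} (hg : g.IsNewform) : qCoeff g q ^ 2 = 1 := by
  have : NeZero (q * M1) := ⟨mul_ne_zero_of_prime_coprime hq hcop⟩
  have h1 := heckeULin_wq_of_isNewform hq hcop hg
  rw [wq_eq_smul_of_isNewform hq hcop hg, map_smul,
    Fermat.Agent.S29.helper7617.heckeULin_apply_eq_smul hg.1 hq (dvd_mul_right q M1),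
    smul_smul] at h1
  have h2 : (qCoeff g q ^ 2 - 1) • g = 0 := by
    rw [sub_smul, one_smul, sub_eq_zero]
    have h3 : (qCoeff g q ^ 2) • g = -((-qCoeff g q * qCoeff g q) • g) := by
      rw [← neg_smul]; congr 1; ring
    rw [h3, h1, neg_neg]
  rcases smul_eq_zero.mp h2 with h | h
  · exact sub_eq_zero.mp h
  · exact absurd h hg.ne_zero

/-! ### General level `M = q * M1` (no literal product in the types)

The statements below are function-level and are stated for an arbitrary level `M` together with a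
proof `hM : M = q * M1`, and for ANY `W : GL (Fin 2) ℝ` whose matrix is
`(q x, y; M z, q w)` with `q x w - M1 y z = 1`.  They are meant for consumers that need `W_q` for
several primes `q ∥ M` simultaneously at the one level `M`. -/

section general

open scoped MatrixGroups ModularForm
open UpperHalfPlane ModularForm Matrix.SpecialLinearGroup

variable {M q M1 : ℕ} {x y z w : ℤ}

theorem coprime_of_det (hdet : (q : ℤ) * x * w - (M1 : ℤ) * y * z = 1) : Nat.Coprime q M1 := by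
  have h : IsCoprime (q : ℤ) (M1 : ℤ) := ⟨x * w, -(y * z), by linear_combination hdet⟩
  exact Nat.isCoprime_iff_coprime.mp h

/-- A `GL(2,ℝ)` element with matrix `(q x, y; q M1 z, q w)` is `atkinGL q M1 x y z w`. -/
theorem eq_atkinGL_of_val (hq : q ≠ 0) (hdet : (q : ℤ) * x * w - (M1 : ℤ) * y * z = 1)
    (W : GL (Fin 2) ℝ)
    (hW : (W : Matrix (Fin 2) (Fin 2) ℝ) =
      !![(q : ℝ) * x, (y : ℝ); ((q * M1 : ℕ) : ℝ) * z, (q : ℝ) * w]) :
    W = atkinGL q M1 x y z w := by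
  apply Matrix.GeneralLinearGroup.ext
  intro i j
  rw [hW, val_atkinGL hq hdet]
  push_cast
  rfl

/-- `W_q` preserves `Γ₀(M)`-invariance (general level). -/
theorem slash_invariant_of_val (hM : M = q * M1) (hq : q ≠ 0)
    (hdet : (q : ℤ) * x * w - (M1 : ℤ) * y * z = 1) (W : GL (Fin 2) ℝ)
    (hW : (W : Matrix (Fin 2) (Fin 2) ℝ) = !![(q : ℝ) * x, (y : ℝ); (M : ℝ) * z, (q : ℝ) * w])
    {f : ℍ → ℂ} (hf : ∀ γ ∈ Gamma0 M, f ∣[(2 : ℤ)] (mapGL ℝ γ : GL (Fin 2) ℝ) = f)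
    (γ : SL(2, ℤ)) (hγ : γ ∈ Gamma0 M) :
    (f ∣[(2 : ℤ)] W) ∣[(2 : ℤ)] (mapGL ℝ γ : GL (Fin 2) ℝ) = f ∣[(2 : ℤ)] W := by
  subst hM
  rw [eq_atkinGL_of_val hq hdet W hW]
  exact slash_atkinGL_invariant hq hdet hf γ hγ

/-- `W_q` is an involution on `Γ₀(M)`-invariant functions (general level). -/
theorem slash_slash_of_val (hM : M = q * M1) (hq : q ≠ 0)
    (hdet : (q : ℤ) * x * w - (M1 : ℤ) * y * z = 1) (W : GL (Fin 2) ℝ)
    (hW : (W : Matrix (Fin 2) (Fin 2) ℝ) = !![(q : ℝ) * x, (y : ℝ); (M : ℝ) * z, (q : ℝ) * w])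
    {f : ℍ → ℂ} (hf : ∀ γ ∈ Gamma0 M, f ∣[(2 : ℤ)] (mapGL ℝ γ : GL (Fin 2) ℝ) = f) :
    (f ∣[(2 : ℤ)] W) ∣[(2 : ℤ)] W = f := by
  subst hM
  rw [eq_atkinGL_of_val hq hdet W hW]
  exact slash_atkinGL_atkinGL hq hdet hf

/-- Two admissible matrices define the same operator `W_q` (general level). -/
theorem slash_eq_slash_of_val (hM : M = q * M1) (hq : q ≠ 0)
    (hdet : (q : ℤ) * x * w - (M1 : ℤ) * y * z = 1) (W : GL (Fin 2) ℝ)
    (hW : (W : Matrix (Fin 2) (Fin 2) ℝ) = !![(q : ℝ) * x, (y : ℝ); (M : ℝ) * z, (q : ℝ) * w])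
    {x' y' z' w' : ℤ} (hdet' : (q : ℤ) * x' * w' - (M1 : ℤ) * y' * z' = 1) (W' : GL (Fin 2) ℝ)
    (hW' : (W' : Matrix (Fin 2) (Fin 2) ℝ) =
      !![(q : ℝ) * x', (y' : ℝ); (M : ℝ) * z', (q : ℝ) * w'])
    {f : ℍ → ℂ} (hf : ∀ γ ∈ Gamma0 M, f ∣[(2 : ℤ)] (mapGL ℝ γ : GL (Fin 2) ℝ) = f) :
    f ∣[(2 : ℤ)] W' = f ∣[(2 : ℤ)] W := by
  subst hM
  rw [eq_atkinGL_of_val hq hdet W hW, eq_atkinGL_of_val hq hdet' W' hW']
  exact slash_atkinGL_eq_of_det hq hdet hdet' hf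

/-- **`T_ℓ` commutes with `W_q`** on `Γ₀(M)`-invariant functions, `ℓ ∤ M` (general level). -/
theorem heckeT_slash_of_val (hM : M = q * M1) (hq : q ≠ 0)
    (hdet : (q : ℤ) * x * w - (M1 : ℤ) * y * z = 1) (W : GL (Fin 2) ℝ)
    (hW : (W : Matrix (Fin 2) (Fin 2) ℝ) = !![(q : ℝ) * x, (y : ℝ); (M : ℝ) * z, (q : ℝ) * w])
    {ℓ : ℕ} (hℓ : ℓ.Prime) (hℓM : ¬ ℓ ∣ M)
    {f : ℍ → ℂ} (hf : ∀ γ ∈ Gamma0 M, f ∣[(2 : ℤ)] (mapGL ℝ γ : GL (Fin 2) ℝ) = f) :
    heckeT 2 ℓ f ∣[(2 : ℤ)] W = heckeT 2 ℓ (f ∣[(2 : ℤ)] W) := by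
  subst hM
  rw [eq_atkinGL_of_val hq hdet W hW]
  exact heckeT_slash_atkinGL hℓ hℓM hq hdet hf

/-- **Newform ⇒ `q`-new, general level, function form.**  For a Prelude newform `g` of level
`M = q * M1` (`q` prime) and any `W` with matrix `(q x, y; M z, q w)`, `q x w - M1 y z = 1`:
`U_q (g ∣ W) = -g` and `U_q g = -(g ∣ W)`. -/
theorem heckeU_slash_of_isNewform_of_val (hM : M = q * M1) (hq : q.Prime)
    (hdet : (q : ℤ) * x * w - (M1 : ℤ) * y * z = 1) (W : GL (Fin 2) ℝ)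
    (hW : (W : Matrix (Fin 2) (Fin 2) ℝ) = !![(q : ℝ) * x, (y : ℝ); (M : ℝ) * z, (q : ℝ) * w])
    {g : CuspForm (Gamma0 M) 2} (hg : g.IsNewform) :
    heckeU 2 q (⇑g ∣[(2 : ℤ)] W) = -⇑g ∧ heckeU 2 q ⇑g = -(⇑g ∣[(2 : ℤ)] W) := by
  subst hM
  have hcop := coprime_of_det hdet
  have : NeZero (q * M1) := ⟨mul_ne_zero_of_prime_coprime hq hcop⟩
  rw [eq_atkinGL_of_val hq.ne_zero hdet W hW, ← coe_wq_eq hq.ne_zero hcop hdet g]
  refine ⟨?_, ?_⟩
  · have h := heckeULin_wq_of_isNewform hq hcop hg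
    have h2 := congrArg (fun F : CuspForm (Gamma0 (q * M1)) 2 => (⇑F : ℍ → ℂ)) h
    exact h2
  · have h := heckeULin_of_isNewform hq hcop hg
    have h2 := congrArg (fun F : CuspForm (Gamma0 (q * M1)) 2 => (⇑F : ℍ → ℂ)) h
    exact h2

/-- `g ∣ W = -a_q(g) • g` for a newform `g` of level `M = q * M1` (general level). -/
theorem slash_eq_smul_of_isNewform_of_val (hM : M = q * M1) (hq : q.Prime)
    (hdet : (q : ℤ) * x * w - (M1 : ℤ) * y * z = 1) (W : GL (Fin 2) ℝ)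
    (hW : (W : Matrix (Fin 2) (Fin 2) ℝ) = !![(q : ℝ) * x, (y : ℝ); (M : ℝ) * z, (q : ℝ) * w])
    {g : CuspForm (Gamma0 M) 2} (hg : g.IsNewform) :
    ⇑g ∣[(2 : ℤ)] W = (-qCoeff g q) • ⇑g := by
  subst hM
  have hcop := coprime_of_det hdet
  rw [eq_atkinGL_of_val hq.ne_zero hdet W hW, ← coe_wq_eq hq.ne_zero hcop hdet g,
    wq_eq_smul_of_isNewform hq hcop hg]
  rfl

/-- **`a_q(g)² = 1`** for a Prelude newform `g` of level `M` and a prime `q ∥ M`
(the `q ∥ N` half of the Prelude `CuspForm.NewformBadPrimeCoeff`). -/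
theorem qCoeff_sq_eq_one_of_isNewform_of_dvd (hq : q.Prime) (hqM : q ∣ M) (hq2 : ¬ q ^ 2 ∣ M)
    {g : CuspForm (Gamma0 M) 2} (hg : g.IsNewform) : qCoeff g q ^ 2 = 1 := by
  obtain ⟨M1, rfl⟩ := hqM
  have hcop : Nat.Coprime q M1 := by
    rw [Nat.Prime.coprime_iff_not_dvd hq]
    rintro ⟨t, rfl⟩
    exact hq2 ⟨t, by ring⟩
  exact qCoeff_sq_eq_one_of_isNewform hq hcop hg

end general

end Fermat.Agent.S35.helper1462
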