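/-
helper3353 — S35, leaf OCC-PER (layer (G2) of item (G)): the lattice / period side of the
occurrence of the `q`-new part.

* Part A: one-coset correspondences.  `Normalizes Γ w`, `corrOne`, `conjHom w hw A` =
  conjugation by a normalising matrix on `Hom(Γ, A)` (an instance of the landed S16 coset-transfer
  operators `helper2138.Corr.op`).
* Part B: the Atkin–Lehner matrix `W_Q = [[Q x, y], [N, Q]]` (`Q x - (N / Q) y = 1`) normalises
  `Γ₀(N)`; the operator `wLin` on `S₂(Γ₀(N))` (`f ↦ f ∣[2] W_Q`), the operator `heckeHomW` on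
  `Hom(Γ₀(N), A)`, period-map equivariance, commutation with the Prelude involution, the lattice
  operator `latW` on the integral parabolic homs (`S31.helper6356.Lam N`).
* Part F (Mathlib only): specialisation of a common kernel of a family of matrices / of a common
  eigenvector of a family of (non-commuting) lattice operators from a field `L ⊇ R₀` to any domain
  `O` along any ring homomorphism `R₀ → O` (`exists_eigen_specialize`).
* Part G: `exists_eigen_cocycle` — a simultaneous eigenform of operators `T i` on `S₂(Γ₀(N))`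
  gives a nonzero simultaneous eigenvector in `O ⊗[ℤ] Lam N` of lattice operators `t i`
  corresponding to the `T i` under the Eichler–Shimura isomorphism.
* Part H: `exists_qnew_cocycle` — the `q`-new eigen-cocycle: `T_l y = φ (a l) • y`,
  `(U_q + W_q) y = 0`, `(U_q W_q + 1) y = 0` for all `q` in a set of primes exactly dividing `N`.
-/
import Fermat.Agent.S31.helper6356_LatticeHom
import Fermat.Agent.S16.helper262_PeriodHeckeHom

set_option autoImplicit false

open CongruenceSubgroup ModularCurve ModularCurve.Period UpperHalfPlane Matrix.SpecialLinearGroup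
open scoped MatrixGroups ModularForm TensorProduct

namespace Fermat.Agent.S35.helper3353

open Fermat.Agent.S16.helper2138 Fermat.Agent.S31.helper6356

noncomputable section

/-! ### Part A: one-coset correspondences -/

section OneCoset

variable {Γ : Subgroup SL(2, ℤ)}

/-- `w` normalises `Γ` from the left: for every `γ ∈ Γ` there is `γ' ∈ Γ` with `w γ = γ' w`. -/
def Normalizes (Γ : Subgroup SL(2, ℤ)) (w : GL (Fin 2) ℝ) : Prop :=
  ∀ γ : Γ, ∃ γ' : Γ, w * mapGL ℝ (γ : SL(2, ℤ)) = mapGL ℝ (γ' : SL(2, ℤ)) * w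

/-- The one-coset correspondence attached to a normalising element. -/
def corrOne (w : GL (Fin 2) ℝ) (hw : Normalizes Γ w) : Corr Γ Unit where
  α := fun _ => w
  ex := fun _ γ => ⟨(), hw γ⟩
  inj := fun _ _ _ _ => rfl

/-- Conjugation by a normalising element on `Hom(Γ, A)`: `φ ↦ (γ ↦ φ (w γ w⁻¹))`. -/
def conjHom (w : GL (Fin 2) ℝ) (hw : Normalizes Γ w) (A : Type*) [AddCommGroup A]
    (φ : Additive Γ →+ A) : Additive Γ →+ A :=
  (corrOne w hw).op A φ

/-- Defining property of `conjHom`: if `w γ = γ' w` then `(conjHom φ) γ = φ γ'`. -/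
theorem conjHom_apply_of_rel (w : GL (Fin 2) ℝ) (hw : Normalizes Γ w) (A : Type*)
    [AddCommGroup A] (φ : Additive Γ →+ A) {γ γ' : Γ}
    (h : w * mapGL ℝ (γ : SL(2, ℤ)) = mapGL ℝ (γ' : SL(2, ℤ)) * w) :
    conjHom w hw A φ (Additive.ofMul γ) = φ (Additive.ofMul γ') := by
  have h2 := ((corrOne w hw).uniq (i := ()) (j := ()) (γ := γ) (h := γ') h).2
  show ∑ i : Unit, φ (Additive.ofMul ((corrOne w hw).g i γ)) = _
  rw [Fintype.sum_unique, h2]

theorem conjHom_comp (w : GL (Fin 2) ℝ) (hw : Normalizes Γ w) {A B : Type*} [AddCommGroup A]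
    [AddCommGroup B] (f : A →+ B) (φ : Additive Γ →+ A) :
    conjHom w hw B (f.comp φ) = f.comp (conjHom w hw A φ) :=
  (corrOne w hw).op_comp f φ

end OneCoset

/-! ### Part B: integer matrices as elements of `GL (Fin 2) ℝ` -/

section IntGL

/-- An integer matrix with nonzero determinant, as an element of `GL (Fin 2) ℝ`. -/
def intGL (W : Matrix (Fin 2) (Fin 2) ℤ) (hW : W.det ≠ 0) : GL (Fin 2) ℝ :=
  Matrix.GeneralLinearGroup.mkOfDetNeZero (W.map (Int.cast : ℤ → ℝ)) (by
    have h := (Int.castRingHom ℝ).map_det W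
    rw [RingHom.mapMatrix_apply] at h
    rw [show (W.map (Int.cast : ℤ → ℝ)) = W.map (Int.castRingHom ℝ) from rfl, ← h,
      eq_intCast]
    exact_mod_cast hW)

@[simp] theorem intGL_val (W : Matrix (Fin 2) (Fin 2) ℤ) (hW : W.det ≠ 0) :
    ((intGL W hW : GL (Fin 2) ℝ) : Matrix (Fin 2) (Fin 2) ℝ) = W.map (Int.cast : ℤ → ℝ) := rfl

theorem intGL_det (W : Matrix (Fin 2) (Fin 2) ℤ) (hW : W.det ≠ 0) :
    ((intGL W hW).det : ℝˣ).val = ((W.det : ℤ) : ℝ) := by
  rw [Matrix.GeneralLinearGroup.val_det_apply, intGL_val]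
  have h := (Int.castRingHom ℝ).map_det W
  rw [RingHom.mapMatrix_apply] at h
  exact h.symm

/-- An integer matrix relation `W γ = γ' W` gives the relation in `GL (Fin 2) ℝ`. -/
theorem intGL_mul_mapGL (W : Matrix (Fin 2) (Fin 2) ℤ) (hW : W.det ≠ 0) (γ γ' : SL(2, ℤ))
    (hrel : W * (γ : Matrix (Fin 2) (Fin 2) ℤ) = (γ' : Matrix (Fin 2) (Fin 2) ℤ) * W) :
    intGL W hW * mapGL ℝ γ = mapGL ℝ γ' * intGL W hW := by
  apply Units.ext
  have h := congrArg (fun M : Matrix (Fin 2) (Fin 2) ℤ => M.map (Int.cast : ℤ → ℝ)) hrel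
  simp only [Matrix.map_mul_intCast] at h
  rw [Units.val_mul, Units.val_mul, intGL_val]
  exact h

end IntGL

/-! ### Part C: the Atkin–Lehner matrix normalises `Γ₀(N)` -/

section AtkinLehner

/-- Bezout data for an exact divisor `Q ∥ N`: `N = Q * N'` and `Q x - N' y = 1`. -/
structure ALData (N Q : ℕ) where
  /-- the cofactor `N / Q` -/
  N' : ℕ
  /-- Bezout coefficient of `Q` -/
  x : ℤ
  /-- Bezout coefficient of `N / Q` -/
  y : ℤ
  hN : N = Q * N'
  bez : (Q : ℤ) * x - (N' : ℤ) * y = 1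

theorem nonempty_ALData {N Q : ℕ} (hQ : Q ∣ N) (hcop : Nat.Coprime Q (N / Q)) :
    Nonempty (ALData N Q) := by
  obtain ⟨a, b, hab⟩ := Nat.isCoprime_iff_coprime.mpr hcop
  exact ⟨⟨N / Q, a, -b, (Nat.mul_div_cancel' hQ).symm, by linear_combination hab⟩⟩

variable {N Q : ℕ}

namespace ALData

variable (d : ALData N Q)

/-- The integer Atkin–Lehner matrix `[[Q x, y], [N, Q]]`. -/
def mat : Matrix (Fin 2) (Fin 2) ℤ := !![(Q : ℤ) * d.x, d.y; (N : ℤ), (Q : ℤ)]

theorem natCast_N : (N : ℤ) = (Q : ℤ) * (d.N' : ℤ) := by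
  exact_mod_cast congrArg (Nat.cast : ℕ → ℤ) d.hN

theorem det_mat : d.mat.det = (Q : ℤ) := by
  rw [mat, Matrix.det_fin_two_of, d.natCast_N]
  linear_combination (Q : ℤ) * d.bez

include d in
theorem Q_ne_zero [NeZero N] : Q ≠ 0 := by
  intro h
  have h1 := d.hN
  simp only [h, zero_mul] at h1
  exact NeZero.ne N h1

theorem det_mat_ne_zero [NeZero N] : d.mat.det ≠ 0 := by
  rw [d.det_mat]
  exact_mod_cast d.Q_ne_zero

/-- The Atkin–Lehner matrix in `GL (Fin 2) ℝ`. -/
def gl [NeZero N] : GL (Fin 2) ℝ := intGL d.mat d.det_mat_ne_zero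

theorem det_gl_pos [NeZero N] : 0 < (d.gl.det : ℝˣ).val := by
  rw [gl, intGL_det, d.det_mat]
  exact_mod_cast Nat.pos_of_ne_zero d.Q_ne_zero

/-- The integer relation `W γ = γ' W`, entrywise form. -/
theorem exists_conj_aux (a b e c' : ℤ) (hdet : a * e - b * ((N : ℤ) * c') = 1) :
    ∃ M' : Matrix (Fin 2) (Fin 2) ℤ, M'.det = 1 ∧ (N : ℤ) ∣ M' 1 0 ∧
      d.mat * !![a, b; (N : ℤ) * c', e] = M' * d.mat := by
  have hN := d.natCast_N
  have hbez := d.bez
  refine ⟨!![(Q : ℤ) * d.x * a + d.y * (Q * d.N' * c') - d.N' * (Q * d.x * b) - d.N' * (d.y * e),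
        -(d.x * a * d.y) - d.y ^ 2 * d.N' * c' + Q * d.x ^ 2 * b + d.x * d.y * e;
      (N : ℤ) * (a + Q * c' - d.N' * b - e),
        -(d.N' * a * d.y) - Q * d.N' * c' * d.y + Q * d.N' * b * d.x + Q * e * d.x], ?_, ?_, ?_⟩
  · rw [Matrix.det_fin_two_of, hN]
    rw [hN] at hdet
    linear_combination ((Q : ℤ) * d.x - d.N' * d.y) ^ 2 * hdet
      + ((Q : ℤ) * d.x - d.N' * d.y + 1) * hbez
  · exact Dvd.intro _ rfl
  · rw [mat, hN]
    ext i j
    fin_cases i <;> fin_cases j
    · simp [Matrix.mul_apply, Fin.sum_univ_two]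
      linear_combination (-((Q : ℤ) * d.x * a + d.y * (Q * d.N' * c'))) * hbez
    · simp [Matrix.mul_apply, Fin.sum_univ_two]
      linear_combination (-((Q : ℤ) * d.x * b + d.y * e)) * hbez
    · simp [Matrix.mul_apply, Fin.sum_univ_two]
      linear_combination (-((Q : ℤ) * d.N' * a + Q * (Q * d.N' * c'))) * hbez
    · simp [Matrix.mul_apply, Fin.sum_univ_two]
      linear_combination (-((Q : ℤ) * d.N' * b + Q * e)) * hbez

/-- The integer relation `W γ = γ' W` with `γ' ∈ Γ₀(N)`. -/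
theorem exists_conj (γ : Gamma0 N) : ∃ γ' : Gamma0 N,
    d.mat * ((γ : SL(2, ℤ)) : Matrix (Fin 2) (Fin 2) ℤ)
      = ((γ' : SL(2, ℤ)) : Matrix (Fin 2) (Fin 2) ℤ) * d.mat := by
  obtain ⟨c', hc'⟩ := mem_Gamma0_iff_dvd.mp γ.2
  have hdet := det_SL (γ : SL(2, ℤ))
  rw [hc'] at hdet
  obtain ⟨M', hM', hdvd, hrel⟩ := d.exists_conj_aux _ _ _ c' hdet
  refine ⟨⟨⟨M', hM'⟩, mem_Gamma0_iff_dvd.mpr hdvd⟩, ?_⟩
  have hγ : ((γ : SL(2, ℤ)) : Matrix (Fin 2) (Fin 2) ℤ)
      = !![(γ : SL(2, ℤ)) 0 0, (γ : SL(2, ℤ)) 0 1; (N : ℤ) * c', (γ : SL(2, ℤ)) 1 1] := by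
    rw [← hc']
    exact Matrix.eta_fin_two _
  rw [hγ]
  exact hrel

/-- The Atkin–Lehner matrix normalises `Γ₀(N)`. -/
theorem normalizes [NeZero N] : Normalizes (Gamma0 N) d.gl := by
  intro γ
  obtain ⟨γ', hγ'⟩ := d.exists_conj γ
  exact ⟨γ', intGL_mul_mapGL d.mat d.det_mat_ne_zero _ _ hγ'⟩

end ALData

end AtkinLehner

/-! ### Part D: slash by a normalising matrix on cusp forms, and the period map -/

section Forms

open ConjAct Pointwise in
/-- The image of `Γ` in `GL (Fin 2) ℝ` is contained in its conjugate by a normalising `w`. -/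
theorem le_conj_of_normalizes {Γ : Subgroup SL(2, ℤ)} {w : GL (Fin 2) ℝ}
    (hw : Normalizes Γ w) :
    (Γ.map (mapGL ℝ) : Subgroup (GL (Fin 2) ℝ)) ≤
      ConjAct.toConjAct w⁻¹ • (Γ.map (mapGL ℝ) : Subgroup (GL (Fin 2) ℝ)) := by
  rintro _ ⟨γ, hγ, rfl⟩
  rw [map_inv, Subgroup.mem_inv_pointwise_smul_iff, ConjAct.toConjAct_smul]
  obtain ⟨γ', hγ'⟩ := hw ⟨γ, hγ⟩
  refine ⟨γ', γ'.2, ?_⟩
  have h : w * mapGL ℝ γ = mapGL ℝ (γ' : SL(2, ℤ)) * w := hγ'
  rw [h, mul_inv_cancel_right]

variable (N : ℕ) [NeZero N]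

/-- Slash by a normalising matrix of positive determinant, as a linear endomorphism of
`S₂(Γ₀(N))`. -/
def slashLin (w : GL (Fin 2) ℝ) (hw : Normalizes (Gamma0 N) w) (hdet : 0 < (w.det : ℝˣ).val) :
    S2 N →ₗ[ℂ] S2 N where
  toFun f :=
    { toFun := ⇑f ∣[(2 : ℤ)] w
      slash_action_eq' := fun γ hγ =>
        (CuspForm.translate f w).slash_action_eq' γ (le_conj_of_normalizes hw hγ)
      holo' := (CuspForm.translate f w).holo'
      zero_at_cusps' := fun hc =>
        (CuspForm.translate f w).zero_at_cusps' (hc.mono (le_conj_of_normalizes hw)) }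
  map_add' f g := DFunLike.coe_injective (by
    show (⇑f + ⇑g) ∣[(2 : ℤ)] w = ⇑f ∣[(2 : ℤ)] w + ⇑g ∣[(2 : ℤ)] w
    rw [SlashAction.add_slash])
  map_smul' c f := DFunLike.coe_injective (by
    show (⇑(c • f)) ∣[(2 : ℤ)] w = c • (⇑f ∣[(2 : ℤ)] w)
    have hσ : UpperHalfPlane.σ w = ContinuousAlgEquiv.refl ℝ ℂ := by
      rw [UpperHalfPlane.σ, if_pos hdet]
    rw [show (⇑(c • f) : ℍ → ℂ) = c • ⇑f from rfl, ModularForm.smul_slash, hσ,
      ContinuousAlgEquiv.refl_apply])

omit [NeZero N] in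
@[simp] theorem coe_slashLin (w : GL (Fin 2) ℝ) (hw : Normalizes (Gamma0 N) w)
    (hdet : 0 < (w.det : ℝˣ).val) (f : S2 N) :
    ⇑(slashLin N w hw hdet f) = ⇑f ∣[(2 : ℤ)] w := rfl

/-- **Period-map equivariance** for the slash by a normalising matrix:
`periodMap (f ∣[2] w) = conjHom w (periodMap f)`. -/
theorem periodMap_slashLin (w : GL (Fin 2) ℝ) (hw : Normalizes (Gamma0 N) w)
    (hdet : 0 < (w.det : ℝˣ).val) (f : S2 N) :
    periodMap N (slashLin N w hw hdet f) = conjHom w hw ℂ (periodMap N f) := by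
  refine AddMonoidHom.ext fun γ' => ?_
  obtain ⟨γ, rfl⟩ : ∃ γ : Gamma0 N, Additive.ofMul γ = γ' := ⟨Additive.toMul γ', rfl⟩
  obtain ⟨δ, hδ⟩ := hw γ
  rw [conjHom_apply_of_rel w hw ℂ (periodMap N f) hδ]
  have h := Fermat.Agent.S16.helper262.periodMap_eq_sum_of_reps_mul N (X := Unit) (fun _ => w)
    (fun _ => hdet) id Function.bijective_id γ (fun _ => δ) (fun _ => hδ) f
    (slashLin N w hw hdet f) (by rw [coe_slashLin, Fintype.sum_unique])
  rw [h, Fintype.sum_unique]

end Forms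

/-! ### Part E: the Atkin–Lehner operator on forms, on `Hom(Γ₀(N), A)` and on the lattice -/

section Lattice

variable (N : ℕ) [NeZero N] {Q : ℕ} (d : ALData N Q)

/-- The Atkin–Lehner operator `W_Q` on `Hom(Γ₀(N), A)`: `φ ↦ (γ ↦ φ (W γ W⁻¹))`. -/
def heckeHomW (A : Type*) [AddCommGroup A] (φ : Additive (Gamma0 N) →+ A) :
    Additive (Gamma0 N) →+ A :=
  conjHom d.gl d.normalizes A φ

/-- The Atkin–Lehner operator `W_Q` on `S₂(Γ₀(N))`: `f ↦ f ∣[2] W`. -/
def wLin : S2 N →ₗ[ℂ] S2 N := slashLin N d.gl d.normalizes d.det_gl_pos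

@[simp] theorem coe_wLin (f : S2 N) : ⇑(wLin N d f) = ⇑f ∣[(2 : ℤ)] d.gl := rfl

/-- **Period-map equivariance for `W_Q`.** -/
theorem periodMap_wLin (f : S2 N) :
    periodMap N (wLin N d f) = heckeHomW N d ℂ (periodMap N f) :=
  periodMap_slashLin N d.gl d.normalizes d.det_gl_pos f

/-- Naturality of `W_Q` in the coefficients. -/
theorem heckeHomW_comp {A B : Type*} [AddCommGroup A] [AddCommGroup B] (f : A →+ B)
    (φ : Additive (Gamma0 N) →+ A) :
    heckeHomW N d B (f.comp φ) = f.comp (heckeHomW N d A φ) :=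
  conjHom_comp d.gl d.normalizes f φ

/-- `ε W ε⁻¹ = τ W` with `τ ∈ Γ₀(N)`, `ε = diag(1, -1)`. -/
theorem eps_gl_conj : ∃ τ : Gamma0 N,
    epsGL * d.gl * epsGL⁻¹ = mapGL ℝ (τ : SL(2, ℤ)) * d.gl := by
  have hdet : (!![(Q : ℤ) * d.x + d.N' * d.y, -2 * d.x * d.y;
      -2 * (N : ℤ), d.N' * d.y + (Q : ℤ) * d.x] : Matrix (Fin 2) (Fin 2) ℤ).det = 1 := by
    rw [Matrix.det_fin_two_of, d.natCast_N]
    linear_combination ((Q : ℤ) * d.x - d.N' * d.y + 1) * d.bez
  obtain ⟨τ, hτ⟩ : ∃ τ : SL(2, ℤ), (τ : Matrix (Fin 2) (Fin 2) ℤ) =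
      !![(Q : ℤ) * d.x + d.N' * d.y, -2 * d.x * d.y;
        -2 * (N : ℤ), d.N' * d.y + (Q : ℤ) * d.x] := ⟨⟨_, hdet⟩, rfl⟩
  refine ⟨⟨τ, mem_Gamma0_iff_dvd.mpr (by rw [hτ]; exact Dvd.intro_left (-2) rfl)⟩, ?_⟩
  have hbezR : (Q : ℝ) * (d.x : ℝ) - (d.N' : ℝ) * (d.y : ℝ) = 1 := by exact_mod_cast d.bez
  have hNR : (N : ℝ) = (Q : ℝ) * (d.N' : ℝ) := by exact_mod_cast d.hN
  rw [epsGL_inv]
  apply Matrix.GeneralLinearGroup.ext
  intro i j
  simp only [Matrix.GeneralLinearGroup.coe_mul, Matrix.mul_apply, Fin.sum_univ_two, mapGL_val,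
    epsGL_val, ALData.gl, intGL_val, ALData.mat, hτ]
  fin_cases i <;> fin_cases j
  · simp
    rw [hNR]
    linear_combination (-((Q : ℝ) * d.x)) * hbezR
  · simp
    linear_combination ((d.y : ℝ)) * hbezR
  · simp
    rw [hNR]
    linear_combination ((Q : ℝ) * d.N') * hbezR
  · simp
    rw [hNR]
    linear_combination (-(Q : ℝ)) * hbezR

/-- `W_Q` on `Hom(Γ₀(N), A)` commutes with the Prelude involution. -/
theorem heckeHomW_charInvolution (R : Type*) [Semiring R] (A : Type*) [AddCommGroup A]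
    [Module R A] (φ : Additive (Gamma0 N) →+ A) :
    heckeHomW N d A (charInvolution N R A φ) = charInvolution N R A (heckeHomW N d A φ) :=
  (corrOne d.gl d.normalizes).op_conj (jConjGamma0 N) (jConjGamma0_jConjGamma0 N) epsGL
    (mapGL_jConj N) (fun _ => let ⟨τ, hτ⟩ := eps_gl_conj N d; ⟨(), τ, hτ⟩) A φ

/-- `W_Q` transported to the complex parabolic homs is the conjugation operator. -/
theorem coe_conjEnd_wLin (w : Wpar N) :
    ((conjEnd N (wLin N d) w : Wpar N) : Additive (Gamma0 N) →+ ℂ) = heckeHomW N d ℂ w :=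
  coe_conjEnd_of N _ ((corrOne d.gl d.normalizes).opLin ℂ ℂ)
    (fun f => periodMap_wLin N d f)
    (fun φ => heckeHomW_charInvolution N d ℂ ℂ φ) w

/-- `W_Q` preserves the complex parabolic homs. -/
theorem heckeHomW_mem_parabolicHoms_complex {φ : Additive (Gamma0 N) →+ ℂ}
    (hφ : φ ∈ parabolicHoms ℂ (Gamma0 N) ℂ) :
    heckeHomW N d ℂ φ ∈ parabolicHoms ℂ (Gamma0 N) ℂ := by
  have h := coe_conjEnd_wLin N d ⟨φ, hφ⟩
  rw [← h]
  exact Subtype.property _

theorem toC_heckeHomW (ψ : Additive (Gamma0 N) →+ ℤ) :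
    toC (Gamma0 N) (heckeHomW N d ℤ ψ) = heckeHomW N d ℂ (toC (Gamma0 N) ψ) :=
  (heckeHomW_comp N d (Int.castAddHom ℂ) ψ).symm

/-- `W_Q` preserves the integral parabolic homs. -/
theorem heckeHomW_mem_parabolicHoms {ψ : Additive (Gamma0 N) →+ ℤ}
    (hψ : ψ ∈ parabolicHoms ℤ (Gamma0 N) ℤ) :
    heckeHomW N d ℤ ψ ∈ parabolicHoms ℤ (Gamma0 N) ℤ := by
  rw [← toC_mem_parabolicHoms_iff, toC_heckeHomW]
  exact heckeHomW_mem_parabolicHoms_complex N d (toC_mem_parabolicHoms_iff.mpr hψ)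

/-- The Atkin–Lehner operator `W_Q` on the lattice of integral parabolic homs. -/
def latW : Module.End ℤ (Lam N) :=
  ((corrOne d.gl d.normalizes).opLin ℤ ℤ).restrict
    (fun _ hψ => heckeHomW_mem_parabolicHoms N d hψ)

@[simp] theorem coe_latW (ψ : Lam N) :
    ((latW N d ψ : Lam N) : Additive (Gamma0 N) →+ ℤ) = heckeHomW N d ℤ ψ := rfl

theorem jLam_latW (ψ : Lam N) :
    jLam N (latW N d ψ) = conjEnd N (wLin N d) (jLam N ψ) := by
  apply Subtype.ext
  rw [coe_conjEnd_wLin, coe_jLam, coe_jLam, coe_latW, toC_heckeHomW]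

end Lattice

/-! ### Part F: specialisation of a common kernel / of an eigenvector (Mathlib only) -/

section Specialise

open scoped Matrix

/-- **Specialisation of a common kernel** (matrix form, fields).  `B i` square matrices over a
commutative ring `R₀`; if their images over a field `L ⊇ R₀` have a common nonzero kernel vector,
then so do their images over any field `K` under any ring homomorphism `φ : R₀ → K`. -/
theorem exists_common_kernel_map {n : ℕ} {R₀ L K : Type*} [CommRing R₀] [Field L] [Field K]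
    (ι₀ : R₀ →+* L) (hι₀ : Function.Injective ι₀) (φ : R₀ →+* K)
    {I : Type*} (B : I → Matrix (Fin n) (Fin n) R₀)
    (hL : ∃ v : Fin n → L, v ≠ 0 ∧ ∀ i, (B i).map ι₀ *ᵥ v = 0) :
    ∃ w : Fin n → K, w ≠ 0 ∧ ∀ i, (B i).map φ *ᵥ w = 0 := by
  classical
  obtain ⟨v, hv0, hv⟩ := hL
  -- every `n`-tuple of rows has determinant zero
  have hdet : ∀ r : Fin n → I × Fin n,
      (Matrix.of fun j => B (r j).1 (r j).2 : Matrix (Fin n) (Fin n) R₀).det = 0 := by
    intro r
    apply hι₀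
    rw [map_zero, RingHom.map_det]
    apply Matrix.exists_mulVec_eq_zero_iff.mp
    refine ⟨v, hv0, ?_⟩
    funext j
    have h := congrFun (hv (r j).1) (r j).2
    simpa [Matrix.mulVec, dotProduct] using h
  set rows : Set (Fin n → K) := Set.range fun p : I × Fin n => fun j => φ (B p.1 p.2 j) with hrows
  have hlt : Submodule.span K rows < ⊤ := by
    rw [lt_top_iff_ne_top]
    intro htop
    obtain ⟨b, hb, hspan, hli⟩ := exists_linearIndependent K rows
    rw [htop] at hspan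
    let bas : Module.Basis b K (Fin n → K) :=
      Module.Basis.mk hli (by rw [Subtype.range_coe]; exact hspan.ge)
    have : Fintype b := FiniteDimensional.fintypeBasisIndex bas
    have hcard : Fintype.card b = n := by
      rw [← Module.finrank_eq_card_basis bas, Module.finrank_fin_fun]
    let e : Fin n ≃ b := (Fintype.equivFinOfCardEq hcard).symm
    have hrow : ∀ j : Fin n, ∃ p : I × Fin n,
        (fun j' => φ (B p.1 p.2 j')) = ((e j : b) : Fin n → K) := fun j => hb (e j).2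
    choose r hr using hrow
    have hM : (Matrix.of fun j => B (r j).1 (r j).2 : Matrix (Fin n) (Fin n) R₀).map φ
        = Matrix.of fun j => ((e j : b) : Fin n → K) := by
      ext j j'
      simpa using congrFun (hr j) j'
    have hli' : LinearIndependent K
        (Matrix.of fun j => ((e j : b) : Fin n → K) : Matrix (Fin n) (Fin n) K).row :=
      hli.comp e e.injective
    have hunit := Matrix.linearIndependent_rows_iff_isUnit.mp hli'
    have hdet' := (Matrix.isUnit_iff_isUnit_det _).mp hunit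
    rw [← hM, ← RingHom.mapMatrix_apply, ← RingHom.map_det, hdet r, map_zero] at hdet'
    exact not_isUnit_zero hdet'
  obtain ⟨f, hf0, hf⟩ := Submodule.exists_le_ker_of_lt_top _ hlt
  refine ⟨fun j => f (fun j' => if j = j' then 1 else 0), ?_, fun i => ?_⟩
  · intro h0
    apply hf0
    refine LinearMap.ext fun x => ?_
    rw [f.pi_apply_eq_sum_univ x]
    simp only [LinearMap.zero_apply]
    refine Finset.sum_eq_zero fun j _ => ?_
    rw [show f (fun j' => if j = j' then 1 else 0) = 0 from congrFun h0 j, smul_zero]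
  · funext k
    have hmem : (fun j => φ (B i k j)) ∈ Submodule.span K rows :=
      Submodule.subset_span ⟨(i, k), rfl⟩
    have h0 : f (fun j => φ (B i k j)) = 0 := hf hmem
    rw [f.pi_apply_eq_sum_univ] at h0
    simpa [Matrix.mulVec, dotProduct] using h0

/-- **Specialisation of a common kernel** (matrix form, domain target).  As
`exists_common_kernel_map`, with values in an arbitrary domain `O`; `φ : R₀ → O` need not be
injective. -/
theorem exists_common_kernel_map_domain {n : ℕ} {R₀ L O : Type*} [CommRing R₀] [Field L]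
    [CommRing O] [IsDomain O]
    (ι₀ : R₀ →+* L) (hι₀ : Function.Injective ι₀) (φ : R₀ →+* O)
    {I : Type*} (B : I → Matrix (Fin n) (Fin n) R₀)
    (hL : ∃ v : Fin n → L, v ≠ 0 ∧ ∀ i, (B i).map ι₀ *ᵥ v = 0) :
    ∃ w : Fin n → O, w ≠ 0 ∧ ∀ i, (B i).map φ *ᵥ w = 0 := by
  obtain ⟨w, hw0, hw⟩ := exists_common_kernel_map ι₀ hι₀
    ((algebraMap O (FractionRing O)).comp φ) B hL
  obtain ⟨d, hd⟩ := IsLocalization.exist_integer_multiples_of_finite (nonZeroDivisors O) w
  choose w' hw' using hd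
  have hd0 : algebraMap O (FractionRing O) (d : O) ≠ 0 := by
    intro h
    exact nonZeroDivisors.ne_zero d.2 (IsFractionRing.injective O (FractionRing O)
      (by rw [h, map_zero]))
  have hw'' : ∀ j, algebraMap O (FractionRing O) (w' j)
      = algebraMap O (FractionRing O) (d : O) * w j := by
    intro j
    rw [hw' j, Algebra.smul_def]
  refine ⟨w', ?_, fun i => ?_⟩
  · intro h0
    apply hw0
    funext j
    have h := hw'' j
    rw [h0, Pi.zero_apply, map_zero] at h
    rcases mul_eq_zero.mp h.symm with h1 | h1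
    · exact absurd h1 hd0
    · exact h1
  · funext k
    apply IsFractionRing.injective O (FractionRing O)
    have h := congrFun (hw i) k
    simp only [Matrix.mulVec, dotProduct, Matrix.map_apply, RingHom.comp_apply,
      Pi.zero_apply] at h ⊢
    rw [map_zero, map_sum]
    have h2 : ∀ j, algebraMap O (FractionRing O) (φ (B i k j) * w' j)
        = algebraMap O (FractionRing O) (d : O)
          * (algebraMap O (FractionRing O) (φ (B i k j)) * w j) := by
      intro j
      rw [map_mul, hw'' j]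
      ring
    rw [Finset.sum_congr rfl fun j _ => h2 j, ← Finset.mul_sum, h, mul_zero]

variable {Λ : Type*} [AddCommGroup Λ]

/-- Matrix form of `t ⊗ 1 - ψ a` in the base-changed basis. -/
theorem mulVec_repr_baseChange {n : ℕ} (b : Module.Basis (Fin n) ℤ Λ) {R₀ A : Type*}
    [CommRing R₀] [CommRing A] (ψ : R₀ →+* A) (t : Module.End ℤ Λ) (a : R₀) (y : A ⊗[ℤ] Λ) :
    (((LinearMap.toMatrix b b t).map (Int.castRingHom R₀)
        - a • (1 : Matrix (Fin n) (Fin n) R₀)).map ψ) *ᵥ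
          ⇑((Algebra.TensorProduct.basis A b).repr y)
      = ⇑((Algebra.TensorProduct.basis A b).repr (t.baseChange A y - ψ a • y)) := by
  have h1 : ((LinearMap.toMatrix b b t).map (Int.castRingHom R₀)
        - a • (1 : Matrix (Fin n) (Fin n) R₀)).map ψ
      = LinearMap.toMatrix (Algebra.TensorProduct.basis A b) (Algebra.TensorProduct.basis A b)
          (t.baseChange A) - ψ a • (1 : Matrix (Fin n) (Fin n) A) := by
    rw [LinearMap.toMatrix_baseChange]
    ext i j
    by_cases hij : i = j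
    · subst hij
      simp
    · simp [hij]
  rw [h1, Matrix.sub_mulVec, LinearMap.toMatrix_mulVec_repr, Matrix.smul_mulVec, Matrix.one_mulVec,
    map_sub, map_smul]
  rfl

variable [Module.Free ℤ Λ] [Module.Finite ℤ Λ]

/-- **Specialisation of an eigenvector.**  `Λ` a finite free `ℤ`-module with operators `t i`
(not assumed to commute), `a i` elements of a commutative ring `R₀` embedded in a field `L`.  If
`L ⊗ Λ` contains a nonzero vector `y` with `t i y = a i • y` for all `i`, then for every ring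
homomorphism `φ` from `R₀` to a domain `O` (not assumed injective) `O ⊗ Λ` contains a nonzero
vector with `t i y = φ (a i) • y` for all `i`. -/
theorem exists_eigen_specialize {R₀ L O : Type*} [CommRing R₀] [Field L] [CommRing O]
    [IsDomain O] (ι₀ : R₀ →+* L) (hι₀ : Function.Injective ι₀) (φ : R₀ →+* O)
    {I : Type*} (t : I → Module.End ℤ Λ) (a : I → R₀)
    (hL : ∃ y : L ⊗[ℤ] Λ, y ≠ 0 ∧ ∀ i, (t i).baseChange L y = ι₀ (a i) • y) :
    ∃ y : O ⊗[ℤ] Λ, y ≠ 0 ∧ ∀ i, (t i).baseChange O y = φ (a i) • y := by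
  classical
  obtain ⟨y, hy0, hy⟩ := hL
  set n := Module.finrank ℤ Λ
  let b : Module.Basis (Fin n) ℤ Λ := Module.finBasis ℤ Λ
  let B : I → Matrix (Fin n) (Fin n) R₀ := fun i =>
    (LinearMap.toMatrix b b (t i)).map (Int.castRingHom R₀) - a i • (1 : Matrix (Fin n) (Fin n) R₀)
  have hv : ∃ v : Fin n → L, v ≠ 0 ∧ ∀ i, (B i).map ι₀ *ᵥ v = 0 := by
    refine ⟨⇑((Algebra.TensorProduct.basis L b).repr y), ?_, fun i => ?_⟩
    · intro h0
      apply hy0
      apply (Algebra.TensorProduct.basis L b).repr.injective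
      rw [map_zero]
      exact DFunLike.coe_injective h0
    · rw [mulVec_repr_baseChange b ι₀ (t i) (a i) y, hy i, sub_self, map_zero]
      rfl
  obtain ⟨w, hw0, hw⟩ := exists_common_kernel_map_domain ι₀ hι₀ φ B hv
  refine ⟨(Algebra.TensorProduct.basis O b).equivFun.symm w, ?_, fun i => ?_⟩
  · intro h0
    apply hw0
    have := congrArg (Algebra.TensorProduct.basis O b).equivFun h0
    rwa [LinearEquiv.apply_symm_apply, map_zero] at this
  · have h := mulVec_repr_baseChange b φ (t i) (a i)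
      ((Algebra.TensorProduct.basis O b).equivFun.symm w)
    have h2 : ⇑((Algebra.TensorProduct.basis O b).repr
        ((Algebra.TensorProduct.basis O b).equivFun.symm w)) = w := by
      rw [← Module.Basis.equivFun_apply, LinearEquiv.apply_symm_apply]
    rw [h2, hw i] at h
    have h3 : (Algebra.TensorProduct.basis O b).repr
        ((t i).baseChange O ((Algebra.TensorProduct.basis O b).equivFun.symm w)
          - φ (a i) • (Algebra.TensorProduct.basis O b).equivFun.symm w) = 0 :=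
      DFunLike.coe_injective h.symm
    exact sub_eq_zero.mp
      ((Algebra.TensorProduct.basis O b).repr.injective (by rw [h3, map_zero]))

end Specialise

/-! ### Part G: from an eigenform to an eigen-cocycle -/

section Transfer

variable (N : ℕ) [NeZero N]

/-- The comparison map `ℂ ⊗[ℤ] Lam N → Wpar N`, `c ⊗ ψ ↦ c • ψ`. -/
def tensorToPar : ℂ ⊗[ℤ] Lam N →ₗ[ℂ] Wpar N :=
  LinearMap.liftBaseChange ℂ (jLam N).toIntLinearMap

omit [NeZero N] in
@[simp] theorem tensorToPar_tmul (c : ℂ) (ψ : Lam N) :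
    tensorToPar N (c ⊗ₜ[ℤ] ψ) = c • jLam N ψ := by
  simp [tensorToPar]

theorem tensorToPar_surjective : Function.Surjective (tensorToPar N) := by
  rw [← LinearMap.range_eq_top, eq_top_iff, ← span_range_jLam N, Submodule.span_le]
  rintro _ ⟨ψ, rfl⟩
  exact ⟨1 ⊗ₜ ψ, by simp⟩

omit [NeZero N] in
/-- Equivariance of the comparison map. -/
theorem tensorToPar_baseChange (t : Module.End ℤ (Lam N)) (T : Module.End ℂ (Wpar N))
    (h : ∀ ψ, jLam N (t ψ) = T (jLam N ψ)) (y : ℂ ⊗[ℤ] Lam N) :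
    tensorToPar N (t.baseChange ℂ y) = T (tensorToPar N y) := by
  induction y using TensorProduct.induction_on with
  | zero => simp
  | tmul c ψ => simp [h]
  | add y₁ y₂ h₁ h₂ => simp only [map_add, h₁, h₂]

/-- The comparison map is injective: a `ℤ`-basis of the lattice stays linearly independent over
`ℂ`. -/
theorem tensorToPar_injective : Function.Injective (tensorToPar N) := by
  classical
  rw [injective_iff_map_eq_zero]
  intro y hy
  set n := Module.finrank ℤ (Lam N)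
  let b : Module.Basis (Fin n) ℤ (Lam N) := Module.finBasis ℤ (Lam N)
  let bC : Module.Basis (Fin n) ℂ (ℂ ⊗[ℤ] Lam N) := Algebra.TensorProduct.basis ℂ b
  by_contra hy0
  have hv0 : (⇑(bC.repr y) : Fin n → ℂ) ≠ 0 := by
    intro h0
    apply hy0
    apply bC.repr.injective
    rw [map_zero]
    exact DFunLike.coe_injective h0
  have hrel : ∀ γ : Additive (Gamma0 N),
      ∑ k, bC.repr y k * ((((b k : Lam N) : Additive (Gamma0 N) →+ ℤ) γ : ℤ) : ℂ) = 0 := by
    intro γ
    have h2 : tensorToPar N y = ∑ k, bC.repr y k • jLam N (b k) := by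
      conv_lhs => rw [← bC.sum_repr y]
      rw [map_sum]
      refine Finset.sum_congr rfl fun k _ => ?_
      rw [map_smul, Algebra.TensorProduct.basis_apply, tensorToPar_tmul, one_smul]
    rw [hy] at h2
    have h3 := congrArg (fun w : Wpar N => (w : Additive (Gamma0 N) →+ ℂ) γ) h2
    simp only [Submodule.coe_sum, Submodule.coe_smul, coe_jLam, AddMonoidHom.finsetSum_apply,
      AddMonoidHom.smul_apply, toC_apply, smul_eq_mul] at h3
    exact h3.symm
  obtain ⟨w, hw0, hw⟩ := exists_common_kernel_map_domain (Int.castRingHom ℂ)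
    Int.cast_injective (RingHom.id ℤ)
    (fun γ : Additive (Gamma0 N) => (Matrix.of fun (_ : Fin n) (k : Fin n) =>
      ((b k : Lam N) : Additive (Gamma0 N) →+ ℤ) γ : Matrix (Fin n) (Fin n) ℤ))
    ⟨⇑(bC.repr y), hv0, fun γ => by
      funext j
      have h := hrel γ
      simp only [Matrix.mulVec, dotProduct, Matrix.map_apply, Matrix.of_apply, Pi.zero_apply,
        eq_intCast]
      rw [← h]
      exact Finset.sum_congr rfl fun k _ => mul_comm _ _⟩
  obtain ⟨j, -⟩ := Function.ne_iff.mp hw0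
  have hsum : ∑ k, w k • b k = 0 := by
    apply Subtype.ext
    refine AddMonoidHom.ext fun γ => ?_
    have h := congrFun (hw γ) j
    simp only [Matrix.mulVec, dotProduct, Matrix.map_apply, Matrix.of_apply, Pi.zero_apply,
      RingHom.id_apply] at h
    simp only [Submodule.coe_sum, Submodule.coe_smul, AddMonoidHom.finsetSum_apply,
      AddMonoidHom.smul_apply, smul_eq_mul, Submodule.coe_zero, AddMonoidHom.zero_apply]
    rw [← h]
    exact Finset.sum_congr rfl fun k _ => mul_comm _ _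
  exact hw0 (funext (Fintype.linearIndependent_iff.mp b.linearIndependent w hsum))

/-- **From an eigenform to an eigen-cocycle.**  `t i` operators on the lattice `Lam N` of integral
parabolic homs, `T i` operators on `S₂(Γ₀(N))` corresponding to them under the Eichler–Shimura
isomorphism (`jLam (t i ψ) = conjEnd (T i) (jLam ψ)`); `g ≠ 0` a simultaneous eigenvector of the
`T i` with eigenvalues `ι₀ (a i)`, `a i` in a ring `R₀ ⊆ ℂ`.  Then for every ring homomorphism
`φ : R₀ → O` to a domain there is a nonzero `y : O ⊗[ℤ] Lam N` with `t i y = φ (a i) • y` for all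
`i`.  The operators need not commute and `φ` need not be injective. -/
theorem exists_eigen_cocycle {I : Type*} (t : I → Module.End ℤ (Lam N))
    (T : I → Module.End ℂ (S2 N))
    (hcompat : ∀ i ψ, jLam N (t i ψ) = conjEnd N (T i) (jLam N ψ))
    (g : S2 N) (hg0 : g ≠ 0)
    {R₀ : Type*} [CommRing R₀] (ι₀ : R₀ →+* ℂ) (hι₀ : Function.Injective ι₀) (a : I → R₀)
    (hg : ∀ i, T i g = ι₀ (a i) • g)
    {O : Type*} [CommRing O] [IsDomain O] (φ : R₀ →+* O) :
    ∃ y : O ⊗[ℤ] Lam N, y ≠ 0 ∧ ∀ i, (t i).baseChange O y = φ (a i) • y := by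
  apply exists_eigen_specialize ι₀ hι₀ φ t a
  obtain ⟨y, hy⟩ := tensorToPar_surjective N (esEquiv N (g, 0))
  refine ⟨y, ?_, fun i => ?_⟩
  · rintro rfl
    rw [map_zero] at hy
    have h1 : esEquiv N (g, 0) = esEquiv N 0 := by rw [← hy, map_zero]
    exact hg0 (congrArg Prod.fst ((esEquiv N).injective h1))
  · apply tensorToPar_injective N
    rw [tensorToPar_baseChange N (t i) (conjEnd N (T i)) (hcompat i), map_smul, hy,
      conjEnd_esEquiv, hg i, map_zero, ← map_smul]
    congr 1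
    ext <;> simp

end Transfer

/-! ### Part H: the `q`-new eigen-cocycle -/

section QNew

variable (N : ℕ) [NeZero N]

omit [NeZero N] in
/-- Bezout data exist for a prime exactly dividing the level. -/
theorem nonempty_ALData_of_prime {q : ℕ} (hq : q.Prime) (hqN : q ∣ N) (hq2 : ¬ q ^ 2 ∣ N) :
    Nonempty (ALData N q) := by
  apply nonempty_ALData hqN
  rw [Nat.Prime.coprime_iff_not_dvd hq]
  rintro ⟨k, hk⟩
  exact hq2 ⟨k, by rw [← Nat.mul_div_cancel' hqN, hk]; ring⟩

/-- **The `q`-new eigen-cocycle** (layer (G2) of the occurrence step of S35).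
`g ≠ 0` a cusp form of weight two on `Γ₀(N)` with `T_l g = a l • g` for the primes `l ∤ N`,
`l ∉ S` (`a l` in a subring `R₀ ⊆ ℂ`), and with `U_q (W_q g) = -g`, `U_q g = -(W_q g)` for the
primes `q` of a set `QQ` of primes exactly dividing `N`.  Then for EVERY ring homomorphism
`φ : R₀ → O` to a domain there is a nonzero `y : O ⊗[ℤ] Lam N` in the lattice of integral
parabolic homs with `T_l y = φ (a l) • y` for all good `l`, and `(U_q + W_q) y = 0`,
`(U_q W_q + 1) y = 0` for all `q ∈ QQ` simultaneously. -/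
theorem exists_qnew_cocycle (S : Set ℕ) (g : S2 N) (hg0 : g ≠ 0)
    (R₀ : Subring ℂ) (a : ℕ → R₀)
    (hT : ∀ (l : ℕ) (hl : l.Prime) (hlN : ¬ l ∣ N), l ∉ S →
      CuspForm.heckeTLin 2 hl hlN g = (a l : ℂ) • g)
    (QQ : Set ℕ) (hQQ : ∀ q ∈ QQ, q.Prime ∧ q ∣ N) (d : ∀ q, q ∈ QQ → ALData N q)
    (hUW : ∀ (q : ℕ) (hq : q ∈ QQ),
      CuspForm.heckeULin 2 (hQQ q hq).2 (wLin N (d q hq) g) = -g ∧
      CuspForm.heckeULin 2 (hQQ q hq).2 g = -(wLin N (d q hq) g))
    {O : Type*} [CommRing O] [IsDomain O] (φ : R₀ →+* O) :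
    ∃ y : O ⊗[ℤ] Lam N, y ≠ 0 ∧
      (∀ (l : ℕ) (hl : l.Prime) (hlN : ¬ l ∣ N), l ∉ S →
        (@latT N _ l ⟨hl⟩ hlN).baseChange O y = φ (a l) • y) ∧
      ∀ (q : ℕ) (hq : q ∈ QQ),
        (@latU N _ q ⟨(hQQ q hq).1⟩ (hQQ q hq).2 + latW N (d q hq)).baseChange O y = 0 ∧
        (@latU N _ q ⟨(hQQ q hq).1⟩ (hQQ q hq).2 * latW N (d q hq) + 1).baseChange O y = 0 := by
  classical
  let I : Type := {l : ℕ // l.Prime ∧ ¬ l ∣ N ∧ l ∉ S} ⊕ ({q : ℕ // q ∈ QQ} ⊕ {q : ℕ // q ∈ QQ})
  let t : I → Module.End ℤ (Lam N) := fun i =>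
    match i with
    | Sum.inl l => @latT N _ l.1 ⟨l.2.1⟩ l.2.2.1
    | Sum.inr (Sum.inl q) =>
        @latU N _ q.1 ⟨(hQQ q.1 q.2).1⟩ (hQQ q.1 q.2).2 + latW N (d q.1 q.2)
    | Sum.inr (Sum.inr q) =>
        @latU N _ q.1 ⟨(hQQ q.1 q.2).1⟩ (hQQ q.1 q.2).2 * latW N (d q.1 q.2) + 1
  let T : I → Module.End ℂ (S2 N) := fun i =>
    match i with
    | Sum.inl l => CuspForm.heckeTLin 2 l.2.1 l.2.2.1
    | Sum.inr (Sum.inl q) => CuspForm.heckeULin 2 (hQQ q.1 q.2).2 + wLin N (d q.1 q.2)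
    | Sum.inr (Sum.inr q) => CuspForm.heckeULin 2 (hQQ q.1 q.2).2 * wLin N (d q.1 q.2) + 1
  let a' : I → R₀ := fun i =>
    match i with
    | Sum.inl l => a l.1
    | Sum.inr _ => 0
  have hcompat : ∀ i ψ, jLam N (t i ψ) = conjEnd N (T i) (jLam N ψ) := by
    rintro (l | q | q) ψ
    · have : Fact l.1.Prime := ⟨l.2.1⟩
      exact jLam_latT N l.1 l.2.2.1 ψ
    · have : Fact q.1.Prime := ⟨(hQQ q.1 q.2).1⟩
      show jLam N ((latU N q.1 (hQQ q.1 q.2).2 + latW N (d q.1 q.2)) ψ)
        = conjEnd N (CuspForm.heckeULin 2 (hQQ q.1 q.2).2 + wLin N (d q.1 q.2)) (jLam N ψ)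
      rw [LinearMap.add_apply, map_add, map_add, LinearMap.add_apply, jLam_latU, jLam_latW]
    · have : Fact q.1.Prime := ⟨(hQQ q.1 q.2).1⟩
      show jLam N ((latU N q.1 (hQQ q.1 q.2).2 * latW N (d q.1 q.2) + 1) ψ)
        = conjEnd N (CuspForm.heckeULin 2 (hQQ q.1 q.2).2 * wLin N (d q.1 q.2) + 1) (jLam N ψ)
      rw [LinearMap.add_apply, Module.End.mul_apply, Module.End.one_apply, map_add, map_add,
        map_mul, map_one, LinearMap.add_apply, Module.End.mul_apply, Module.End.one_apply,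
        jLam_latU, jLam_latW]
  have hg : ∀ i, T i g = (R₀.subtype (a' i)) • g := by
    rintro (l | q | q)
    · exact hT l.1 l.2.1 l.2.2.1 l.2.2.2
    · show (CuspForm.heckeULin 2 (hQQ q.1 q.2).2 + wLin N (d q.1 q.2)) g
        = (R₀.subtype (0 : R₀)) • g
      rw [map_zero, zero_smul, LinearMap.add_apply, (hUW q.1 q.2).2, neg_add_cancel]
    · show (CuspForm.heckeULin 2 (hQQ q.1 q.2).2 * wLin N (d q.1 q.2) + 1) g
        = (R₀.subtype (0 : R₀)) • g
      rw [map_zero, zero_smul, LinearMap.add_apply, Module.End.mul_apply, Module.End.one_apply,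
        (hUW q.1 q.2).1, neg_add_cancel]
  obtain ⟨y, hy0, hy⟩ := exists_eigen_cocycle N t T hcompat g hg0 R₀.subtype
    Subtype.val_injective a' hg φ
  refine ⟨y, hy0, fun l hl hlN hlS => hy (Sum.inl ⟨l, hl, hlN, hlS⟩), fun q hq => ⟨?_, ?_⟩⟩
  · have h := hy (Sum.inr (Sum.inl ⟨q, hq⟩))
    rw [show φ (a' (Sum.inr (Sum.inl ⟨q, hq⟩))) = 0 from map_zero φ, zero_smul] at h
    exact h
  · have h := hy (Sum.inr (Sum.inr ⟨q, hq⟩))
    rw [show φ (a' (Sum.inr (Sum.inr ⟨q, hq⟩))) = 0 from map_zero φ, zero_smul] at h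
    exact h

end QNew

/-! ### Part I: independence of the Bezout data; total families -/

section Canonical

variable (N : ℕ) [NeZero N] {Q : ℕ}

/-- Two Atkin–Lehner matrices for the same `Q ∥ N` differ by a translation `T ^ k ∈ Γ₀(N)`. -/
theorem ALData.gl_eq_T_zpow_mul (d d' : ALData N Q) :
    d'.gl = mapGL ℝ (ModularGroup.T ^ (d.x * d'.y - d'.x * d.y)) * d.gl := by
  have hQ : 0 < Q := Nat.pos_of_ne_zero d.Q_ne_zero
  have hN' : d'.N' = d.N' := Nat.eq_of_mul_eq_mul_left hQ (d'.hN.symm.trans d.hN)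
  have hbez := d.bez
  have hbez' := d'.bez
  rw [hN'] at hbez'
  have hbR : (Q : ℝ) * d.x - d.N' * d.y = 1 := by exact_mod_cast hbez
  have hbR' : (Q : ℝ) * d'.x - d.N' * d'.y = 1 := by exact_mod_cast hbez'
  have hNR : (N : ℝ) = Q * d.N' := by exact_mod_cast d.hN
  apply Matrix.GeneralLinearGroup.ext
  intro i j
  simp only [Matrix.GeneralLinearGroup.coe_mul, Matrix.mul_apply, Fin.sum_univ_two, mapGL_val,
    ALData.gl, intGL_val, ALData.mat, ModularGroup.coe_T_zpow]
  fin_cases i <;> fin_cases j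
  · simp
    rw [hNR]
    linear_combination (-(Q : ℝ) * d'.x) * hbR + ((Q : ℝ) * d.x) * hbR'
  · simp
    linear_combination (-(d'.y : ℝ)) * hbR + (d.y : ℝ) * hbR'
  · simp
  · simp

/-- The Atkin–Lehner operator on `Hom(Γ₀(N), A)` does not depend on the Bezout data. -/
theorem heckeHomW_eq (d d' : ALData N Q) (A : Type*) [AddCommGroup A]
    (φ : Additive (Gamma0 N) →+ A) : heckeHomW N d' A φ = heckeHomW N d A φ := by
  refine AddMonoidHom.ext fun γ0 => ?_
  obtain ⟨γ, rfl⟩ : ∃ γ : Gamma0 N, Additive.ofMul γ = γ0 := ⟨Additive.toMul γ0, rfl⟩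
  obtain ⟨γ', hγ'⟩ := d.normalizes γ
  set τ : Gamma0 N := ⟨ModularGroup.T ^ (d.x * d'.y - d'.x * d.y), T_zpow_mem_Gamma0 N _⟩ with hτ
  have h' : d'.gl * mapGL ℝ (γ : SL(2, ℤ))
      = mapGL ℝ ((τ * γ' * τ⁻¹ : Gamma0 N) : SL(2, ℤ)) * d'.gl := by
    rw [ALData.gl_eq_T_zpow_mul N d d', mul_assoc, hγ']
    simp only [Subgroup.coe_mul, Subgroup.coe_inv, map_mul, map_inv, hτ]
    group
  rw [heckeHomW, heckeHomW, conjHom_apply_of_rel _ _ A φ h', conjHom_apply_of_rel _ _ A φ hγ',
    ofMul_mul, ofMul_mul, ofMul_inv, map_add, map_add, map_neg]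
  abel

/-- The lattice operator `W_Q` does not depend on the Bezout data. -/
theorem latW_eq (d d' : ALData N Q) : latW N d' = latW N d :=
  LinearMap.ext fun ψ => Subtype.ext (heckeHomW_eq N d d' ℤ ψ)

/-- Characterisation of `latW`: any endomorphism of the lattice acting by `ψ ↦ ψ ∘ conj(W)`. -/
theorem eq_latW_of_conj (d : ALData N Q) (w : Module.End ℤ (Lam N))
    (h : ∀ (ψ : Lam N) (γ γ' : Gamma0 N),
      d.gl * mapGL ℝ (γ : SL(2, ℤ)) = mapGL ℝ (γ' : SL(2, ℤ)) * d.gl →
        ((w ψ : Lam N) : Additive (Gamma0 N) →+ ℤ) (Additive.ofMul γ)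
          = (ψ : Additive (Gamma0 N) →+ ℤ) (Additive.ofMul γ')) :
    w = latW N d := by
  refine LinearMap.ext fun ψ => Subtype.ext (AddMonoidHom.ext fun γ0 => ?_)
  obtain ⟨γ, rfl⟩ : ∃ γ : Gamma0 N, Additive.ofMul γ = γ0 := ⟨Additive.toMul γ0, rfl⟩
  obtain ⟨γ', hγ'⟩ := d.normalizes γ
  rw [h ψ γ γ' hγ', coe_latW, heckeHomW, conjHom_apply_of_rel _ _ ℤ _ hγ']

open Classical in
/-- The total family `l ↦ T_l` on the lattice (junk value `0` unless `l` is a prime not dividing
`N`). -/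
def latTAll (l : ℕ) : Module.End ℤ (Lam N) :=
  if h : l.Prime ∧ ¬ l ∣ N then @latT N _ l ⟨h.1⟩ h.2 else 0

open Classical in
/-- The total family `q ↦ U_q` on the lattice (junk value `0` unless `q` is a prime dividing
`N`). -/
def latUAll (q : ℕ) : Module.End ℤ (Lam N) :=
  if h : q.Prime ∧ q ∣ N then @latU N _ q ⟨h.1⟩ h.2 else 0

open Classical in
/-- The total family `q ↦ W_q` on the lattice (junk value `1` unless `q ∥ N`). -/
def latWAll (q : ℕ) : Module.End ℤ (Lam N) :=
  if h : Nonempty (ALData N q) then latW N h.some else 1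

theorem latTAll_eq {l : ℕ} (hl : l.Prime) (hlN : ¬ l ∣ N) :
    latTAll N l = @latT N _ l ⟨hl⟩ hlN := by
  unfold latTAll
  rw [dif_pos ⟨hl, hlN⟩]

theorem latUAll_eq {q : ℕ} (hq : q.Prime) (hqN : q ∣ N) :
    latUAll N q = @latU N _ q ⟨hq⟩ hqN := by
  unfold latUAll
  rw [dif_pos ⟨hq, hqN⟩]

theorem latWAll_eq {q : ℕ} (d : ALData N q) : latWAll N q = latW N d := by
  unfold latWAll
  rw [dif_pos ⟨d⟩]
  exact latW_eq N d _

end Canonical

end

end Fermat.Agent.S35.helper3353
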