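/-
helper3353 — S35, leaf OCC-PER, final form (the (occ) clause of `helper1989.Stmt_UWOps`).

For a Prelude newform `g` of level `M`, a character `chig` of the Hecke algebra with
`chig (T_ℓ) = a_ℓ(g)` and ANY ring homomorphism `iota : chig.range →+* O'` to a domain, there is
a nonzero `y : O' ⊗[ℤ] Lam M` in the lattice of integral parabolic homs with

* `T_ℓ y = iota (chig T_ℓ) • y` for all primes `ℓ ∤ M`, `ℓ ∉ S`,
* `(U_q + W_q) y = 0` and `U_q (W_q y) + y = 0` for all primes `q` exactly dividing `M`,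

for the total lattice families `latTAll M`, `latUAll M`, `latWAll M` of `helper3353_Occ`.
-/
import Fermat.Agent.S35.helper3353_Occ
import Fermat.Agent.S35.helper1462_NewQGlue
import Fermat.Agent.S29.helper7617_Integrality
import Fermat.Prelude.Def_CuspForm_HeckeAlgebra

set_option autoImplicit false

open CongruenceSubgroup ModularCurve UpperHalfPlane Matrix.SpecialLinearGroup
open scoped MatrixGroups ModularForm TensorProduct

namespace Fermat.Agent.S35.helper3353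

open Fermat.Agent.S31.helper6356

noncomputable section

section Newform

variable (M : ℕ) [NeZero M]

/-- **A newform is `q`-new, in the vocabulary of `wLin`**: for a Prelude newform `g` of level
`M`, a prime `q` dividing `M` and Bezout data `d : ALData M q` (so `q ∥ M`):
`U_q (W_q g) = -g` and `U_q g = -(W_q g)`. -/
theorem heckeULin_wLin_of_isNewform {q : ℕ} (hq : q.Prime) (hqM : q ∣ M) (d : ALData M q)
    {g : CuspForm (Gamma0 M) 2} (hg : g.IsNewform) :
    CuspForm.heckeULin 2 hqM (wLin M d g) = -g ∧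
      CuspForm.heckeULin 2 hqM g = -(wLin M d g) := by
  have hdet : (q : ℤ) * d.x * 1 - (d.N' : ℤ) * d.y * 1 = 1 := by
    have := d.bez
    linarith
  have hW : ((d.gl : GL (Fin 2) ℝ) : Matrix (Fin 2) (Fin 2) ℝ)
      = !![(q : ℝ) * ((d.x : ℤ) : ℝ), ((d.y : ℤ) : ℝ); (M : ℝ) * ((1 : ℤ) : ℝ),
          (q : ℝ) * ((1 : ℤ) : ℝ)] := by
    ext i j
    fin_cases i <;> fin_cases j <;> simp [ALData.gl, ALData.mat]
  have h := Fermat.Agent.S35.helper1462.heckeU_slash_of_isNewform_of_val d.hN hq hdet d.gl hW hg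
  refine ⟨DFunLike.coe_injective ?_, DFunLike.coe_injective ?_⟩
  · exact h.1
  · exact h.2

/-- **The (occ) clause of `helper1989.Stmt_UWOps`** for the lattice `Λ = Lam M` of integral
parabolic homs with the total families `t = latTAll M`, `u = latUAll M`, `w = latWAll M`.
For a Prelude newform `g` of level `M`, a character `chig` of the Hecke algebra away from `S`
with `chig (T_ℓ) = a_ℓ(g)` and ANY ring homomorphism `iota : chig.range →+* O'` to a domain `O'`,
there is a nonzero `y : O' ⊗[ℤ] Lam M` with `t_ℓ y = iota (chig T_ℓ) • y` for the good primes and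
`(u_q + w_q) y = 0`, `u_q (w_q y) + y = 0` for every prime `q` exactly dividing `M`. -/
theorem exists_newform_cocycle {g : CuspForm (Gamma0 M) 2} (hg : g.IsNewform) (S : Set ℕ)
    {O' : Type*} [CommRing O'] [IsDomain O']
    (chig : CuspForm.heckeAlgebra M 2 S →+* ℂ)
    (hchig : ∀ (ℓ : ℕ) (hℓ : ℓ.Prime) (hℓM : ¬ ℓ ∣ M) (hℓS : ℓ ∉ S),
      chig (CuspForm.heckeAlgebra.T hℓ hℓM hℓS) = ModularFormClass.qCoeff g ℓ)
    (iota : chig.range →+* O') :
    ∃ y : O' ⊗[ℤ] Lam M, y ≠ 0 ∧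
      (∀ (ℓ : ℕ) (hℓ : ℓ.Prime) (hℓM : ¬ ℓ ∣ M) (hℓS : ℓ ∉ S),
        (latTAll M ℓ).baseChange O' y
          = (iota.comp chig.rangeRestrict) (CuspForm.heckeAlgebra.T hℓ hℓM hℓS) • y) ∧
      (∀ q : ℕ, q.Prime → q ∣ M → ¬ q ^ 2 ∣ M →
        (latUAll M q).baseChange O' y + (latWAll M q).baseChange O' y = 0 ∧
        (latUAll M q).baseChange O' ((latWAll M q).baseChange O' y) + y = 0) := by
  classical
  let a : ℕ → chig.range := fun ℓ =>
    if h : ℓ.Prime ∧ ¬ ℓ ∣ M ∧ ℓ ∉ S then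
      chig.rangeRestrict (CuspForm.heckeAlgebra.T h.1 h.2.1 h.2.2)
    else 0
  have ha : ∀ (ℓ : ℕ) (hℓ : ℓ.Prime) (hℓM : ¬ ℓ ∣ M) (hℓS : ℓ ∉ S),
      a ℓ = chig.rangeRestrict (CuspForm.heckeAlgebra.T hℓ hℓM hℓS) :=
    fun ℓ hℓ hℓM hℓS => dif_pos ⟨hℓ, hℓM, hℓS⟩
  have hT : ∀ (l : ℕ) (hl : l.Prime) (hlN : ¬ l ∣ M), l ∉ S →
      CuspForm.heckeTLin 2 hl hlN g = ((a l : chig.range) : ℂ) • g := by
    intro l hl hlN hlS
    rw [ha l hl hlN hlS, RingHom.coe_rangeRestrict, hchig l hl hlN hlS]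
    exact Fermat.Agent.S29.helper7617.heckeTLin_apply_eq_smul hg.1 hl hlN
  let QQ : Set ℕ := {q | q.Prime ∧ q ∣ M ∧ ¬ q ^ 2 ∣ M}
  have hQQ : ∀ q ∈ QQ, q.Prime ∧ q ∣ M := fun q hq => ⟨hq.1, hq.2.1⟩
  let d : ∀ q, q ∈ QQ → ALData M q := fun q hq =>
    (nonempty_ALData_of_prime M hq.1 hq.2.1 hq.2.2).some
  obtain ⟨y, hy0, hyT, hyQ⟩ := exists_qnew_cocycle M S g hg.ne_zero chig.range a hT QQ hQQ d
    (fun q hq => heckeULin_wLin_of_isNewform M hq.1 hq.2.1 (d q hq) hg) iota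
  refine ⟨y, hy0, ?_, ?_⟩
  · intro ℓ hℓ hℓM hℓS
    rw [latTAll_eq M hℓ hℓM, hyT ℓ hℓ hℓM hℓS, ha ℓ hℓ hℓM hℓS]
    rfl
  · intro q hq hqM hq2
    have hqQ : q ∈ QQ := ⟨hq, hqM, hq2⟩
    obtain ⟨h1, h2⟩ := hyQ q hqQ
    rw [latUAll_eq M hq hqM, latWAll_eq M (d q hqQ)]
    refine ⟨?_, ?_⟩
    · rw [LinearMap.baseChange_add, LinearMap.add_apply] at h1
      exact h1
    · rw [LinearMap.baseChange_add, LinearMap.baseChange_mul, LinearMap.baseChange_one,
        LinearMap.add_apply, Module.End.mul_apply, Module.End.one_apply] at h2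
      exact h2

end Newform

end

end Fermat.Agent.S35.helper3353
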