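/-
helper3346 — S35, FINAL WIRING of the lattice leaf (LP2, captain ruling R5):

    theorem stmt_LatUW : Fermat.Agent.S35.helper2039.Stmt_LatUW

(the lattice clause of `helper1989.Stmt_UWOps` for the canonical operators `uJ`, `wJ` of the
Spec), UNCONDITIONALLY, from landed modules:

* lattice `Λ = Lam M` (integral parabolic homs, `S31/helper6356`), total operator families
  `latTAll M`, `latUAll M`, `latWAll M` and the occurrence clause `exists_newform_cocycle`
  (`S35/helper3353_Occ`, `_OccNew`);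
* the tower `ι n` with the extra operator pairs (`exists_tower`, part 1) from the level-wise
  compatibilities
  - (CU) `compat_U` (part 2; analytic norm formula (E-U)),
  - (CW) `compat_W` (this file): `ι_n (w_q ψ) = W_q (ι_n ψ)` for the Atkin–Lehner operator
    `latW M d` on the lattice and the canonical `wJ M q` on `J₀(M)`.

New in this file:

* `jd_gl_smul` : `j(e · W τ) = j(wIdx q e · τ)` for the Atkin–Lehner matrix
  `W = d.gl = [[q x, y], [M, q]]` of Bezout data `d : ALData M q` and every `e ∣ M`;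
* `evM_atkinLehnerBar` (**(E-W) at general level**): the analytic form of the Atkin–Lehner
  automorphism `helper1073.atkinLehnerBar M q` of `ℚ̄(X₀(M))`:
  `ev (W_q a)(τ) = (ev a)(W τ)`;
* `compat_W`, `stmt_LatUW`.
-/
import Fermat.Agent.S35.helper3346_LatCompat
import Fermat.Agent.S35.helper3353_OccNew
import Fermat.Agent.S35.helper2039_Spec

set_option autoImplicit false
set_option linter.style.haveILetI false
set_option linter.unusedSectionVars false

open UpperHalfPlane CongruenceSubgroup Matrix.SpecialLinearGroup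
open scoped MatrixGroups Manifold TensorProduct

namespace Fermat.Agent.S35.helper3346

open ModularCurve AlgebraicCurve
open Fermat.Agent.S24 Fermat.Agent.S24.helper24 Fermat.Agent.S24.helper504
open Fermat.Agent.S16.helper2138 Fermat.Agent.S29.helper2982
open Fermat.Agent.S29.helper8217 Fermat.Agent.S31.helper2756 Fermat.Agent.S31.helper6356
open Fermat.Agent.S35.helper3353 (ALData)
open Fermat.Agent.S35.helper1073 (wIdx)

/-! ### The Atkin–Lehner matrix on the generators `j(e τ)` -/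

section Matrix

variable {M q : ℕ} [NeZero M] (d : ALData M q)

/-- The Möbius action of the Atkin–Lehner matrix `[[q x, y], [M, q]]`. -/
theorem coe_gl_smul (τ : ℍ) :
    ((d.gl • τ : ℍ) : ℂ)
      = ((q : ℂ) * (d.x : ℂ) * τ + (d.y : ℂ)) / ((M : ℂ) * τ + (q : ℂ)) := by
  rw [UpperHalfPlane.coe_smul_of_det_pos d.det_gl_pos]
  simp [UpperHalfPlane.num, UpperHalfPlane.denom, ALData.gl, ALData.mat]

theorem jd_congr {a b : ℕ} [NeZero a] [NeZero b] (h : a = b) : jd a = jd b := by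
  subst h
  rfl

/-- `q ∤ e`: `j(e · W τ) = j(e q τ)`. -/
theorem jd_gl_smul_of_not_dvd (hq : q.Prime) (e : ℕ) [NeZero e] [NeZero (e * q)] (he : e ∣ M)
    (hqe : ¬ q ∣ e) (τ : ℍ) : jd e (d.gl • τ) = jd (e * q) τ := by
  have hcop : Nat.Coprime e q :=
    Nat.Coprime.symm ((Nat.Prime.coprime_iff_not_dvd hq).mpr hqe)
  have heN' : e ∣ d.N' := by
    have h1 : e ∣ q * d.N' := d.hN ▸ he
    exact hcop.dvd_of_dvd_mul_left h1
  obtain ⟨c, hc⟩ := heN'
  have hbez : (q : ℤ) * d.x - ((e : ℤ) * (c : ℤ)) * d.y = 1 := by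
    have := d.bez
    rw [hc] at this
    push_cast at this
    exact this
  have hdet : (!![d.x, (e : ℤ) * d.y; (c : ℤ), (q : ℤ)] : Matrix (Fin 2) (Fin 2) ℤ).det = 1 := by
    rw [Matrix.det_fin_two_of]
    linear_combination hbez
  have hM : (M : ℂ) = (q : ℂ) * ((e : ℂ) * (c : ℂ)) := by
    have := d.hN
    rw [hc] at this
    exact_mod_cast congrArg (Nat.cast : ℕ → ℂ) this
  obtain ⟨γ, hγ⟩ : ∃ γ : SL(2, ℤ), (γ : Matrix (Fin 2) (Fin 2) ℤ)
      = !![d.x, (e : ℤ) * d.y; (c : ℤ), (q : ℤ)] := ⟨⟨_, hdet⟩, rfl⟩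
  have h : hpt e 0 1 (d.gl • τ) = γ • hpt (e * q) 0 1 τ := by
    apply UpperHalfPlane.ext
    rw [UpperHalfPlane.coe_specialLinearGroup_apply, coe_hpt, coe_hpt, coe_gl_smul, hM, hγ]
    simp only [Matrix.of_apply, Matrix.cons_val', Matrix.cons_val_zero, Matrix.cons_val_one,
      Matrix.cons_val_fin_one, Nat.cast_zero, Nat.cast_one, add_zero, div_one, eq_intCast,
      Int.cast_mul, Int.cast_natCast, Nat.cast_mul, Complex.ofReal_intCast,
      Complex.ofReal_mul, Complex.ofReal_natCast]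
    ring
  rw [jd_apply, jd_apply, h, jFun_smul]

/-- `q ∣ e = e' q`: `j(e' q · W τ) = j(e' τ)`. -/
theorem jd_gl_smul_of_mul (hq : q.Prime) (e' : ℕ) [NeZero e'] [NeZero (e' * q)]
    (he : e' * q ∣ M) (τ : ℍ) : jd (e' * q) (d.gl • τ) = jd e' τ := by
  have heN' : e' ∣ d.N' := by
    have h1 : q * e' ∣ q * d.N' := by
      rw [mul_comm q e']
      exact d.hN ▸ he
    exact Nat.dvd_of_mul_dvd_mul_left hq.pos h1
  obtain ⟨c, hc⟩ := heN'
  have hbez : (q : ℤ) * d.x - ((e' : ℤ) * (c : ℤ)) * d.y = 1 := by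
    have := d.bez
    rw [hc] at this
    push_cast at this
    exact this
  have hdet : (!![(q : ℤ) * d.x, (e' : ℤ) * d.y; (c : ℤ), 1] :
      Matrix (Fin 2) (Fin 2) ℤ).det = 1 := by
    rw [Matrix.det_fin_two_of]
    linear_combination hbez
  have hM : (M : ℂ) = (q : ℂ) * ((e' : ℂ) * (c : ℂ)) := by
    have := d.hN
    rw [hc] at this
    exact_mod_cast congrArg (Nat.cast : ℕ → ℂ) this
  have hq0 : (q : ℂ) ≠ 0 := Nat.cast_ne_zero.mpr hq.ne_zero
  obtain ⟨γ, hγ⟩ : ∃ γ : SL(2, ℤ), (γ : Matrix (Fin 2) (Fin 2) ℤ)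
      = !![(q : ℤ) * d.x, (e' : ℤ) * d.y; (c : ℤ), 1] := ⟨⟨_, hdet⟩, rfl⟩
  have h : hpt (e' * q) 0 1 (d.gl • τ) = γ • hpt e' 0 1 τ := by
    apply UpperHalfPlane.ext
    rw [UpperHalfPlane.coe_specialLinearGroup_apply, coe_hpt, coe_hpt, coe_gl_smul, hM, hγ]
    simp only [Matrix.of_apply, Matrix.cons_val', Matrix.cons_val_zero, Matrix.cons_val_one,
      Matrix.cons_val_fin_one, Nat.cast_zero, Nat.cast_one, add_zero, div_one, eq_intCast,
      Int.cast_mul, Int.cast_natCast, Nat.cast_mul, Complex.ofReal_intCast,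
      Complex.ofReal_mul, Complex.ofReal_natCast, Int.cast_one, Complex.ofReal_one]
    have e1 : (q : ℂ) * ((e' : ℂ) * (c : ℂ)) * (τ : ℂ) + (q : ℂ)
        = (q : ℂ) * ((c : ℂ) * ((e' : ℂ) * (τ : ℂ)) + 1) := by ring
    rw [e1]
    calc (e' : ℂ) * (q : ℂ) * (((q : ℂ) * (d.x : ℂ) * (τ : ℂ) + (d.y : ℂ)) /
            ((q : ℂ) * ((c : ℂ) * ((e' : ℂ) * (τ : ℂ)) + 1)))
        = (e' : ℂ) * ((q : ℂ) * ((q : ℂ) * (d.x : ℂ) * (τ : ℂ) + (d.y : ℂ)) /
            ((q : ℂ) * ((c : ℂ) * ((e' : ℂ) * (τ : ℂ)) + 1))) := by ring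
      _ = (e' : ℂ) * (((q : ℂ) * (d.x : ℂ) * (τ : ℂ) + (d.y : ℂ)) /
            ((c : ℂ) * ((e' : ℂ) * (τ : ℂ)) + 1)) := by rw [mul_div_mul_left _ _ hq0]
      _ = _ := by ring
  rw [jd_apply, jd_apply, h, jFun_smul]

/-- **`j(e · W τ) = j(wIdx q e · τ)`** for every `e ∣ M`. -/
theorem jd_gl_smul (hq : q.Prime) (e : ℕ) [NeZero e] [NeZero (wIdx q e)] (he : e ∣ M) (τ : ℍ) :
    jd e (d.gl • τ) = jd (wIdx q e) τ := by
  by_cases hqe : q ∣ e
  · obtain ⟨e', rfl⟩ := hqe
    have he'0 : e' ≠ 0 := by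
      rintro rfl
      exact NeZero.ne (q * 0) (mul_zero q)
    haveI : NeZero e' := ⟨he'0⟩
    haveI : NeZero (e' * q) := ⟨Nat.mul_ne_zero he'0 hq.ne_zero⟩
    have hw : wIdx q (q * e') = e' := by
      rw [mul_comm]
      exact Fermat.Agent.S35.helper1073.wIdx_mul_self hq.pos e'
    have he' : e' * q ∣ M := by
      rw [mul_comm]
      exact he
    rw [congrFun (jd_congr hw) τ, congrFun (jd_congr (mul_comm q e')) (d.gl • τ)]
    exact jd_gl_smul_of_mul d hq e' he' τ
  · haveI : NeZero (e * q) := ⟨Nat.mul_ne_zero (NeZero.ne e) hq.ne_zero⟩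
    rw [congrFun (jd_congr (Fermat.Agent.S35.helper1073.wIdx_of_not_dvd hqe)) τ]
    exact jd_gl_smul_of_not_dvd d hq e he hqe τ

end Matrix

/-! ### (E-W) at general level and (CW) -/

section W

variable {M q : ℕ} [NeZero M] (hq : q.Prime) (hqM : q ∣ M) (hq2 : ¬ q ^ 2 ∣ M) (d : ALData M q)

/-- **(E-W), general level.**  The analytic form of the Atkin–Lehner automorphism of the
function field of `X₀(M)`: `ev (W_q a)(τ) = (ev a)(W τ)`, `W = [[q x, y], [M, q]]`. -/
theorem evM_atkinLehnerBar (a : FN M) :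
    evM M (Fermat.Agent.S35.helper1073.atkinLehnerBar M q hq hqM hq2 a)
      = pullGLMer d.gl d.det_gl_pos (evM M a) := by
  have key : (evM M).comp
      (Fermat.Agent.S35.helper1073.atkinLehnerHom M q hq hqM hq2 : FN M →+* FN M)
      = (pullGLMer d.gl d.det_gl_pos).comp (evM M) := by
    apply helper3176.ringHom_ext_of_gen M
    · intro c
      show evM M (Fermat.Agent.S35.helper1073.atkinLehnerHom M q hq hqM hq2
          (algebraMap Kbar (FN M) c))
        = pullGLMer d.gl d.det_gl_pos (evM M (algebraMap Kbar (FN M) c))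
      rw [AlgHom.commutes, evM_algebraMap, pullGLMer_constM]
    · intro e _ he
      haveI : NeZero (wIdx q e) :=
        ⟨Fermat.Agent.S35.helper1073.wIdx_ne_zero hq (NeZero.ne e)⟩
      show evM M (Fermat.Agent.S35.helper1073.atkinLehnerHom M q hq hqM hq2 (jBarD M e he))
        = pullGLMer d.gl d.det_gl_pos (evM M (jBarD M e he))
      rw [← Fermat.Agent.S35.helper1073.atkinLehnerBar_apply,
        Fermat.Agent.S35.helper1073.atkinLehnerBar_jBarD M q hq hqM hq2 e he, evM_jBarD,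
        evM_jBarD, pullGLMer_algebraMap]
      refine congrArg (algebraMap helper182.Hol helper182.Mer)
        (Subtype.ext (funext fun τ => ?_))
      exact (jd_gl_smul d hq e he τ).symm
  exact congrArg (fun φ : FN M →+* helper182.Mer => φ a) key

include hq hqM hq2 in
/-- **(CW)** `ι_n (w_q ψ) = W_q (ι_n ψ)` at every modulus `n ≠ 0`, for the Atkin–Lehner operator
`helper3353.latW M d` on the lattice and the canonical operator `helper2039.wJ M q` on
`J₀(M)`. -/
theorem compat_W {n : ℕ} (hn : n ≠ 0) :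
    (corrAt M hn).Compat (Fermat.Agent.S35.helper3353.latW M d)
      (AddMonoidHom.toIntLinearMap (Fermat.Agent.S35.helper2039.wJ M q)) := by
  have hpos : ∀ i : Unit,
      0 < ((Fermat.Agent.S35.helper3353.corrOne d.gl d.normalizes).α i).det.val :=
    fun _ => d.det_gl_pos
  refine compat_of_cpMer (Fermat.Agent.S35.helper3353.corrOne d.gl d.normalizes)
    hpos hn
    (fun u => Fermat.Agent.S35.helper1073.atkinLehnerBar M q hq hqM hq2 u)
    (Fermat.Agent.S35.helper2039.wJ M q) ?_ ?_ (Fermat.Agent.S35.helper3353.latW M d)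
    (fun ψ => rfl)
  · intro u hu
    refine ⟨(isKummer_smul_iff
      (Fermat.Agent.S35.helper1073.atkinLehnerSemi M q hq hqM hq2)).mpr hu, ?_⟩
    rw [Fermat.Agent.S35.helper2039.wJ_apply M q hq hqM hq2, smul_kummerClass]
    rfl
  · intro u
    rw [← evM_eq_evMer288, ← evM_eq_evMer288, evM_atkinLehnerBar hq hqM hq2 d, cpMer_apply]
    simp only [Finset.univ_unique, Finset.prod_singleton]
    rfl

end W

/-! ### The lattice leaf -/

open Fermat.Agent.S35.helper1989 (BadPrime) in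
/-- **(LATUW)**, the lattice leaf of S35 — unconditional. -/
theorem stmt_LatUW : Fermat.Agent.S35.helper2039.Stmt_LatUW := by
  intro M _ lam _ S hlamS hMS
  have hlam : lam ≠ 0 := (Fact.out : lam.Prime).ne_zero
  let κ : Type := {q : ℕ // BadPrime lam M q} × Bool
  let b : κ → Module.End ℤ (Lam M) := fun k =>
    if k.2 then Fermat.Agent.S35.helper3353.latWAll M k.1.1
    else Fermat.Agent.S35.helper3353.latUAll M k.1.1
  let B : κ → JZero M →+ JZero M := fun k =>
    if k.2 then Fermat.Agent.S35.helper2039.wJ M k.1.1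
    else Fermat.Agent.S35.helper2039.uJ M k.1.1
  have hC : ∀ (k : κ) (n : ℕ) (hn : n ≠ 0),
      (corrAt M hn).Compat (b k) (AddMonoidHom.toIntLinearMap (B k)) := by
    rintro ⟨⟨q, hbad⟩, c⟩ n hn
    cases c
    · haveI : Fact q.Prime := ⟨hbad.1⟩
      haveI : NeZero q := ⟨hbad.1.ne_zero⟩
      show (corrAt M hn).Compat (Fermat.Agent.S35.helper3353.latUAll M q)
        (AddMonoidHom.toIntLinearMap (Fermat.Agent.S35.helper2039.uJ M q))
      rw [Fermat.Agent.S35.helper3353.latUAll_eq M hbad.1 hbad.2.2.1,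
        Fermat.Agent.S35.helper2039.uJ_eq]
      exact compat_U M q hbad.2.2.1 hn
    · obtain ⟨d⟩ := Fermat.Agent.S35.helper3353.nonempty_ALData_of_prime M hbad.1 hbad.2.2.1
        hbad.2.2.2
      show (corrAt M hn).Compat (Fermat.Agent.S35.helper3353.latWAll M q)
        (AddMonoidHom.toIntLinearMap (Fermat.Agent.S35.helper2039.wJ M q))
      rw [Fermat.Agent.S35.helper3353.latWAll_eq M d]
      exact compat_W hbad.1 hbad.2.2.1 hbad.2.2.2 d hn
  obtain ⟨ι, h1, h2, h3, h4, h5⟩ := exists_tower M lam hlam (↑S : Set ℕ) b B hC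
  refine ⟨Lam M, inferInstance, inferInstance, inferInstance,
    Fermat.Agent.S35.helper3353.latTAll M, Fermat.Agent.S35.helper3353.latUAll M,
    Fermat.Agent.S35.helper3353.latWAll M, ι, h1, h2, h3, ?_, ?_, ?_, ?_⟩
  · intro ℓ hℓ hℓM hℓS n x
    have hℓS' : ℓ ∉ (↑S : Set ℕ) := by exact_mod_cast hℓS
    have e : Fermat.Agent.S35.helper3353.latTAll M ℓ
        = heckeLatticeHom M (↑S : Set ℕ) (CuspForm.heckeAlgebra.T hℓ hℓM hℓS') := by
      rw [Fermat.Agent.S35.helper3353.latTAll_eq M hℓ hℓM]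
      haveI : Fact ℓ.Prime := ⟨hℓ⟩
      exact (heckeLatticeHom_T M (↑S : Set ℕ) hℓM hℓS').symm
    rw [e]
    exact h4 ℓ hℓ hℓM hℓS' n x
  · intro q hbad n x
    exact h5 (⟨q, hbad⟩, false) n x
  · intro q hbad n x
    exact h5 (⟨q, hbad⟩, true) n x
  · intro g hg O' _ _ _ _ _ _ _ chig hchig iota
    obtain ⟨y, hy0, hyT, hyQ⟩ :=
      Fermat.Agent.S35.helper3353.exists_newform_cocycle M hg (↑S : Set ℕ) chig hchig iota
    exact ⟨y, hy0, hyT, fun q hq => hyQ q hq.1 hq.2.2.1 hq.2.2.2⟩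

end Fermat.Agent.S35.helper3346
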