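/-
S35-FINAL (helper2039, captain S35): the frozen statement S35 from the ONE geometric leaf
`Fermat.Agent.S35.helper2039.Stmt_NodalFrobGeom` (the package of the shared geometry module at
the auxiliary levels; `helper2039_NodalFrob.lean`).

  frozen S35 ⟸ `Stmt_TorFrobAux` (`helper2039_Top.result_of_torFrobAux`)
             ⟸ `Stmt_NodalFrobGeom` (`stmt_TorFrobAux_of_nodalFrobAt`).

The final `Fermat/Agent/S35.lean` is
  `theorem result … := Fermat.Agent.S35.helper2039.result_of_nodalFrob <proof of Stmt_NodalFrobGeom>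
     hg lam S O' hlamO' chig hchig iota hlamS hMS`.
-/
import Fermat.Agent.S35.helper2039_Top
import Fermat.Agent.S35.helper2039_NodalFrob

set_option autoImplicit false

namespace Fermat.Agent.S35.helper2039

open Polynomial in
/-- **The frozen statement S35 from the geometric leaf `Stmt_NodalFrobGeom` alone.**  The binder
list after `hGeo` and the conclusion are the frozen statement's, verbatim. -/
theorem result_of_nodalFrob (hGeo : Stmt_NodalFrobGeom)
    {M : ℕ} [NeZero M] {g : CuspForm (CongruenceSubgroup.Gamma0 M) 2} (hg : g.IsNewform)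
    (lam : ℕ) [Fact lam.Prime]
    (S : Finset ℕ)
    (O' : Type) [CommRing O'] [IsDomain O'] [IsDiscreteValuationRing O']
    [IsAdicComplete (IsLocalRing.maximalIdeal O') O'] [Finite (IsLocalRing.ResidueField O')]
    [CharZero O'] (hlamO' : (lam : O') ∈ IsLocalRing.maximalIdeal O')
    (chig : CuspForm.heckeAlgebra M 2 (↑S : Set ℕ) →+* ℂ)
    (hchig : ∀ (ℓ : ℕ) (hℓ : ℓ.Prime) (hℓM : ¬ ℓ ∣ M) (hℓS : ℓ ∉ (↑S : Set ℕ)),
      chig (CuspForm.heckeAlgebra.T hℓ hℓM hℓS) = ModularFormClass.qCoeff g ℓ)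
    (iota : chig.range →+* O')
    (hlamS : lam ∈ S) (hMS : ∀ q : ℕ, q.Prime → q ∣ M → q ∈ S)
    :
    ∃ (O'' : Type) (_ : CommRing O'') (_ : IsDomain O'') (_ : IsDiscreteValuationRing O'')
      (_ : IsAdicComplete (IsLocalRing.maximalIdeal O'') O'') (_ : Finite (IsLocalRing.ResidueField O''))
      (_ : CharZero O'') (_ : Algebra O' O'') (_ : Module.Finite O' O'') (_ : IsLocalHom (algebraMap O' O'')),
      Function.Injective (algebraMap O' O'') ∧
      ∃ ρ : GaloisRepAdic O'',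
        (∀ (ℓ : ℕ) (hℓ : ℓ.Prime) (hℓM : ¬ ℓ ∣ M) (hℓS : ℓ ∉ (↑S : Set ℕ)),
          ∀ A : ValuationSubring (AlgebraicClosure ℚ), A.LiesOverPrime ℓ →
            ∀ σ : AlgebraicClosure ℚ ≃ₐ[ℚ] AlgebraicClosure ℚ, A.IsFrobeniusAt σ ℓ →
              LinearMap.charpoly (ρ.ρ σ) =
                X ^ 2 - C (algebraMap O' O'' ((iota.comp chig.rangeRestrict) (CuspForm.heckeAlgebra.T hℓ hℓM hℓS))) * X
                  + C ((ℓ : O''))) ∧
        (∀ q : ℕ, q.Prime → q ≠ lam → q ∣ M → ¬ q ^ 2 ∣ M →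
          ∀ A : ValuationSubring (AlgebraicClosure ℚ), A.LiesOverPrime q →
            ∀ σ : AlgebraicClosure ℚ ≃ₐ[ℚ] AlgebraicClosure ℚ, A.IsFrobeniusAt σ q →
              LinearMap.charpoly (ρ.ρ σ) = X ^ 2 - C ((q : O'') + 1) * X + C ((q : O'')) ∨
              LinearMap.charpoly (ρ.ρ σ) = X ^ 2 + C ((q : O'') + 1) * X + C ((q : O''))) :=
  result_of_torFrobAux (stmt_TorFrobAux_of_nodalFrobAt hGeo)
    hg lam S O' hlamO' chig hchig iota hlamS hMS

end Fermat.Agent.S35.helper2039
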