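/-
S35-FINAL, chart form (helper2039, captain S35): the frozen statement S35 from the chart / node
package `Fermat.Agent.S35.helper2039.Stmt_ChartNodesFrobGeom` of the shared geometry module
(`helper2039_NodalFrobInst.lean`): at every auxiliary level `q * M` (`q ∤ M`, `r ∣ M`,
`r ∈ {2, 3}`, `r ≠ q`) and every place `A` over `q`, a chart function `x` (Galois-fixed, a unit for
both Gauss valuations, reduction `(x₁, x₁ ^ q)`, `x₁` with `𝔽_q`-coefficients), nodes `P i`,
`Q i` off the zeros and poles with the graph property, the reduction containment `hRR`, the node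
conditions `hnode` and the Kronecker conductor `hK1`, `hK2` in the two charts.

  frozen S35 ⟸ `Stmt_NodalFrobGeom` (`helper2039_Final.result_of_nodalFrob`)
             ⟸ `Stmt_ChartNodesFrobGeom` (`stmt_NodalFrobGeom_of_chartNodesFrob`).

The final `Fermat/Agent/S35.lean` is
  `theorem result … := Fermat.Agent.S35.helper2039.result_of_chartNodesFrob
     <proof of Stmt_ChartNodesFrobGeom> hg lam S O' hlamO' chig hchig iota hlamS hMS`.
-/
import Fermat.Agent.S35.helper2039_Final
import Fermat.Agent.S35.helper2039_NodalFrobInst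

set_option autoImplicit false

namespace Fermat.Agent.S35.helper2039

open Polynomial in
/-- **The frozen statement S35 from the chart / node package `Stmt_ChartNodesFrobGeom` alone.**
The binder list after `hC` and the conclusion are the frozen statement's, verbatim. -/
theorem result_of_chartNodesFrob (hC : Stmt_ChartNodesFrobGeom)
    {M : ℕ} [NeZero M] {g : CuspForm (CongruenceSubgroup.Gamma0 M) 2} (hg : g.IsNewform)
    (lam : ℕ) [Fact lam.Prime]
    (S : Finset ℕ)
    (O' : Type) [CommRing O'] [IsDomain O'] [IsDiscreteValuationRing O']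
    [IsAdicComplete (IsLocalRing.maximalIdeal O') O'] [Finite (IsLocalRing.ResidueField O')]
    [CharZero O'] (hlamO' : (lam : O') ∈ IsLocalRing.maximalIdeal O')
    (chig : CuspForm.heckeAlgebra M 2 (↑S : Set ℕ) →+* ℂ)
    (hchig : ∀ (ℓ : ℕ) (hℓ : ℓ.Prime) (hℓM : ¬ ℓ ∣ M) (hℓS : ℓ ∉ (↑S : Set ℕ)),
      chig (CuspForm.heckeAlgebra.T hℓ hℓM hℓS) = ModularFormClass.qCoeff g ℓ)
    (iota : chig.range →+* O')
    (hlamS : lam ∈ S) (hMS : ∀ q : ℕ, q.Prime → q ∣ M → q ∈ S)
    :
    ∃ (O'' : Type) (_ : CommRing O'') (_ : IsDomain O'') (_ : IsDiscreteValuationRing O'')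
      (_ : IsAdicComplete (IsLocalRing.maximalIdeal O'') O'') (_ : Finite (IsLocalRing.ResidueField O''))
      (_ : CharZero O'') (_ : Algebra O' O'') (_ : Module.Finite O' O'') (_ : IsLocalHom (algebraMap O' O'')),
      Function.Injective (algebraMap O' O'') ∧
      ∃ ρ : GaloisRepAdic O'',
        (∀ (ℓ : ℕ) (hℓ : ℓ.Prime) (hℓM : ¬ ℓ ∣ M) (hℓS : ℓ ∉ (↑S : Set ℕ)),
          ∀ A : ValuationSubring (AlgebraicClosure ℚ), A.LiesOverPrime ℓ →
            ∀ σ : AlgebraicClosure ℚ ≃ₐ[ℚ] AlgebraicClosure ℚ, A.IsFrobeniusAt σ ℓ →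
              LinearMap.charpoly (ρ.ρ σ) =
                X ^ 2 - C (algebraMap O' O'' ((iota.comp chig.rangeRestrict) (CuspForm.heckeAlgebra.T hℓ hℓM hℓS))) * X
                  + C ((ℓ : O''))) ∧
        (∀ q : ℕ, q.Prime → q ≠ lam → q ∣ M → ¬ q ^ 2 ∣ M →
          ∀ A : ValuationSubring (AlgebraicClosure ℚ), A.LiesOverPrime q →
            ∀ σ : AlgebraicClosure ℚ ≃ₐ[ℚ] AlgebraicClosure ℚ, A.IsFrobeniusAt σ q →
              LinearMap.charpoly (ρ.ρ σ) = X ^ 2 - C ((q : O'') + 1) * X + C ((q : O'')) ∨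
              LinearMap.charpoly (ρ.ρ σ) = X ^ 2 + C ((q : O'') + 1) * X + C ((q : O''))) :=
  result_of_nodalFrob (stmt_NodalFrobGeom_of_chartNodesFrob hC)
    hg lam S O' hlamO' chig hchig iota hlamS hMS

end Fermat.Agent.S35.helper2039
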