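/-
S35/S36/S33 brick MULTIVAL (helper1024): finitely many valuation rings of a finite field extension
lying over the same valuation ring, with residue degrees adding up to the degree.
The n-valuation generalisation of `helper1024_TwoVal`.  No rank-one hypothesis.
-/
import Mathlib
import Fermat.Agent.S35.helper1024_TwoVal

set_option autoImplicit false

namespace Fermat.Agent.S35.helper1024

open Polynomial

/-! ## Part A: approximation for finitely many pairwise incomparable valuation rings -/

section MultiApprox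

variable {F : Type*} [Field F]

/-- If `a ^ s ≡ 1` and `a ^ s' ≡ 1` with `s, s'` coprime, then `a ≡ 1`. -/
theorem val_sub_one_lt_of_pow_coprime (V : ValuationSubring F) {a : F}
    (ha : V.valuation a = 1) {s s' : ℕ} (hcop : Nat.Coprime s s')
    (h1 : V.valuation (a ^ s - 1) < 1) (h2 : V.valuation (a ^ s' - 1) < 1) :
    V.valuation (a - 1) < 1 := by
  have ha0 : a ≠ 0 := by
    rintro rfl
    rw [map_zero] at ha
    exact zero_ne_one ha
  have hs : (Units.mk0 a ha0) ^ s ∈ V.principalUnitGroup := by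
    rw [ValuationSubring.mem_principalUnitGroup_iff, Units.val_pow_eq_pow_val, Units.val_mk0]
    exact h1
  have hs' : (Units.mk0 a ha0) ^ s' ∈ V.principalUnitGroup := by
    rw [ValuationSubring.mem_principalUnitGroup_iff, Units.val_pow_eq_pow_val, Units.val_mk0]
    exact h2
  have hbez : (1 : ℤ) = s * Nat.gcdA s s' + s' * Nat.gcdB s s' := by
    have := Nat.gcd_eq_gcd_ab s s'
    rw [Nat.Coprime.gcd_eq_one hcop] at this
    exact_mod_cast this
  have hmem : Units.mk0 a ha0 ∈ V.principalUnitGroup := by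
    have h : Units.mk0 a ha0 = ((Units.mk0 a ha0) ^ s) ^ (Nat.gcdA s s') *
        ((Units.mk0 a ha0) ^ s') ^ (Nat.gcdB s s') := by
      rw [← zpow_natCast, ← zpow_natCast, ← zpow_mul, ← zpow_mul, ← zpow_add, ← hbez, zpow_one]
    rw [h]
    exact Subgroup.mul_mem _ (Subgroup.zpow_mem _ hs _) (Subgroup.zpow_mem _ hs' _)
  have := (ValuationSubring.mem_principalUnitGroup_iff V _).mp hmem
  rwa [Units.val_mk0] at this

/-- If `a ≡ 1` then `1 + a + ⋯ + a ^ (s-1) ≡ s`. -/
theorem val_geomSum_sub_natCast_lt (V : ValuationSubring F) {a : F}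
    (h : V.valuation (a - 1) < 1) (s : ℕ) :
    V.valuation (∑ k ∈ Finset.range s, a ^ k - (s : F)) < 1 := by
  have ha : V.valuation a ≤ 1 := by
    have : a = (a - 1) + 1 := by ring
    rw [this]
    exact V.valuation.map_add_le h.le (le_of_eq (map_one _))
  have hsum : ∑ k ∈ Finset.range s, a ^ k - (s : F) = ∑ k ∈ Finset.range s, (a ^ k - 1) := by
    rw [Finset.sum_sub_distrib, Finset.sum_const, Finset.card_range, nsmul_eq_mul, mul_one]
  rw [hsum]
  refine V.valuation.map_sum_lt one_ne_zero fun k _ => ?_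
  rw [← mul_geom_sum, map_mul]
  have h2 : V.valuation (∑ i ∈ Finset.range k, a ^ i) ≤ 1 :=
    V.valuation.map_sum_le fun i _ => by
      rw [map_pow]
      exact pow_le_one' ha i
  calc V.valuation (a - 1) * V.valuation (∑ i ∈ Finset.range k, a ^ i)
      ≤ V.valuation (a - 1) * 1 := mul_le_mul' le_rfl h2
    _ = V.valuation (a - 1) := mul_one _
    _ < 1 := h

/-- For a unit `a`, at most one prime `s` makes `1 + a + ⋯ + a ^ (s-1)` a non-unit. -/
theorem bad_prime_unique (V : ValuationSubring F) {a : F} (ha : V.valuation a = 1) {s s' : ℕ}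
    (hs : s.Prime) (hs' : s'.Prime) (hne : s ≠ s')
    (h1 : V.valuation (∑ k ∈ Finset.range s, a ^ k) < 1)
    (h2 : V.valuation (∑ k ∈ Finset.range s', a ^ k) < 1) : False := by
  have ha1 : V.valuation (a - 1) ≤ 1 := V.valuation.map_sub_le ha.le (le_of_eq (map_one _))
  have hp : ∀ n : ℕ, V.valuation (∑ k ∈ Finset.range n, a ^ k) < 1 →
      V.valuation (a ^ n - 1) < 1 := by
    intro n hn
    rw [← mul_geom_sum, map_mul]
    calc V.valuation (a - 1) * V.valuation (∑ k ∈ Finset.range n, a ^ k)
        ≤ 1 * V.valuation (∑ k ∈ Finset.range n, a ^ k) := mul_le_mul' ha1 le_rfl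
      _ = V.valuation (∑ k ∈ Finset.range n, a ^ k) := one_mul _
      _ < 1 := hn
  have hcop : Nat.Coprime s s' := (Nat.coprime_primes hs hs').mpr hne
  have hlt := val_sub_one_lt_of_pow_coprime V ha hcop (hp s h1) (hp s' h2)
  have hcast : ∀ n : ℕ, V.valuation (∑ k ∈ Finset.range n, a ^ k) < 1 →
      V.valuation (n : F) < 1 := by
    intro n hn
    have : (n : F) = ∑ k ∈ Finset.range n, a ^ k - (∑ k ∈ Finset.range n, a ^ k - (n : F)) := by
      ring
    rw [this]
    exact V.valuation.map_sub_lt hn (val_geomSum_sub_natCast_lt V hlt n)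
  have hbez : (1 : ℤ) = s * Nat.gcdA s s' + s' * Nat.gcdB s s' := by
    have := Nat.gcd_eq_gcd_ab s s'
    rw [Nat.Coprime.gcd_eq_one hcop] at this
    exact_mod_cast this
  have hbezF : (1 : F) = (s : F) * ((Nat.gcdA s s' : ℤ) : F) + (s' : F) * ((Nat.gcdB s s' : ℤ) : F) := by
    have := congrArg (Int.cast : ℤ → F) hbez
    push_cast at this
    exact this
  have hone : V.valuation (1 : F) < 1 := by
    rw [hbezF]
    refine V.valuation.map_add_lt ?_ ?_
    · rw [map_mul]
      calc V.valuation (s : F) * V.valuation ((Nat.gcdA s s' : ℤ) : F)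
          ≤ V.valuation (s : F) * 1 := mul_le_mul' le_rfl (val_intCast_le_one V _)
        _ = V.valuation (s : F) := mul_one _
        _ < 1 := hcast s h1
    · rw [map_mul]
      calc V.valuation (s' : F) * V.valuation ((Nat.gcdB s s' : ℤ) : F)
          ≤ V.valuation (s' : F) * 1 := mul_le_mul' le_rfl (val_intCast_le_one V _)
        _ = V.valuation (s' : F) := mul_one _
        _ < 1 := hcast s' h2
  rw [map_one] at hone
  exact lt_irrefl _ hone

variable {ι : Type*} [Finite ι] (V : ι → ValuationSubring F)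

/-- A prime `s` such that `1 + a + ⋯ + a ^ (s-1)` is a unit wherever `a` is a unit. -/
theorem exists_good_prime (a : F) :
    ∃ s : ℕ, s.Prime ∧ ∀ i, (V i).valuation a = 1 →
      (V i).valuation (∑ k ∈ Finset.range s, a ^ k) = 1 := by
  have hsub : ∀ i, {s : ℕ | s.Prime ∧ (V i).valuation a = 1 ∧
      (V i).valuation (∑ k ∈ Finset.range s, a ^ k) < 1}.Subsingleton := by
    intro i s hs s' hs'
    by_contra hne
    exact bad_prime_unique (V i) hs.2.1 hs.1 hs'.1 hne hs.2.2 hs'.2.2
  have hfin : (⋃ i, {s : ℕ | s.Prime ∧ (V i).valuation a = 1 ∧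
      (V i).valuation (∑ k ∈ Finset.range s, a ^ k) < 1}).Finite :=
    Set.finite_iUnion fun i => (hsub i).finite
  obtain ⟨s, hs, hsn⟩ := Nat.infinite_setOfPred_prime.exists_notMem_finite hfin
  refine ⟨s, hs, fun i hi => ?_⟩
  have hle : (V i).valuation (∑ k ∈ Finset.range s, a ^ k) ≤ 1 :=
    (V i).valuation.map_sum_le fun k _ => by
      rw [map_pow, hi, one_pow]
  refine le_antisymm hle (not_lt.mp fun hlt => hsn ?_)
  exact Set.mem_iUnion.mpr ⟨i, hs, hi, hlt⟩

/-- **Nagata's trick.**  For any `a` there is `u` with `u, a u ∈ ⋂ V i`, which is a unit of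
`V i` when `a ∈ V i` and lies in the maximal ideal of `V i` when `a ∉ V i`. -/
theorem exists_nagata (a : F) :
    ∃ u : F, (∀ i, u ∈ V i) ∧ (∀ i, a * u ∈ V i) ∧ (∀ i, a ∈ V i → (V i).valuation u = 1) ∧
      (∀ i, a ∉ V i → (V i).valuation u < 1) := by
  obtain ⟨s, hs, hgood⟩ := exists_good_prime V a
  obtain ⟨n, rfl⟩ : ∃ n, s = n + 1 := ⟨s - 1, (Nat.succ_pred_eq_of_pos hs.pos).symm⟩
  have hn : n ≠ 0 := by
    rintro rfl
    exact Nat.not_prime_one hs
  have key : ∀ i, ((V i).valuation a ≤ 1 → (V i).valuation (∑ k ∈ Finset.range (n + 1), a ^ k) = 1) ∧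
      (1 < (V i).valuation a →
        (V i).valuation (∑ k ∈ Finset.range (n + 1), a ^ k) = (V i).valuation a ^ n) := by
    intro i
    constructor
    · intro hle
      rcases hle.lt_or_eq with hlt | heq
      · rw [Finset.sum_range_succ', pow_zero]
        have h1 : (V i).valuation (∑ k ∈ Finset.range n, a ^ (k + 1)) < 1 :=
          (V i).valuation.map_sum_lt one_ne_zero fun k _ => by
            rw [map_pow]
            exact pow_lt_one₀ zero_le hlt (Nat.succ_ne_zero k)
        rw [(V i).valuation.map_add_eq_of_lt_right (by rw [map_one]; exact h1), map_one]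
      · exact hgood i heq
    · intro hgt
      rw [Finset.sum_range_succ]
      have hpos : 0 < (V i).valuation a := zero_lt_one.trans hgt
      have h1 : (V i).valuation (∑ k ∈ Finset.range n, a ^ k) < (V i).valuation a ^ n :=
        (V i).valuation.map_sum_lt (pow_ne_zero _ hpos.ne') fun k hk => by
          rw [map_pow]
          exact pow_lt_pow_right₀ hgt (Finset.mem_range.mp hk)
      rw [(V i).valuation.map_add_eq_of_lt_right (by rw [map_pow]; exact h1), map_pow]
  refine ⟨(∑ k ∈ Finset.range (n + 1), a ^ k)⁻¹, fun i => ?_, fun i => ?_, fun i hi => ?_,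
    fun i hi => ?_⟩
  · rw [← (V i).valuation_le_one_iff, map_inv₀]
    rcases le_or_gt ((V i).valuation a) 1 with hle | hgt
    · rw [(key i).1 hle, inv_one]
    · rw [(key i).2 hgt]
      exact (inv_lt_one_of_one_lt₀ (one_lt_pow₀ hgt hn)).le
  · rw [← (V i).valuation_le_one_iff, map_mul, map_inv₀]
    rcases le_or_gt ((V i).valuation a) 1 with hle | hgt
    · rw [(key i).1 hle, inv_one, mul_one]
      exact hle
    · rw [(key i).2 hgt, mul_inv_le_iff₀ (pow_pos (zero_lt_one.trans hgt) _), one_mul]
      exact le_self_pow₀ hgt.le hn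
  · rw [map_inv₀, (key i).1 ((V i).valuation_le_one_iff _ |>.mpr hi), inv_one]
  · have hgt : 1 < (V i).valuation a := by
      rw [← not_le, (V i).valuation_le_one_iff]
      exact hi
    rw [map_inv₀, (key i).2 hgt]
    exact inv_lt_one_of_one_lt₀ (one_lt_pow₀ hgt hn)

/-- An element of `⋂ V k` which is a unit at `V i` and a non-unit at `V j`. -/
theorem exists_unit_at_nonunit_at (hV : ∀ i j, i ≠ j → ¬ V i ≤ V j) (i j : ι) (hij : i ≠ j) :
    ∃ y : F, (∀ k, y ∈ V k) ∧ (V i).valuation y = 1 ∧ (V j).valuation y < 1 := by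
  obtain ⟨x, hx₁, hx₂⟩ := exists_unit_nonunit (V i) (V j) (hV i j hij)
  have hx0 : x ≠ 0 := by
    rintro rfl
    rw [map_zero] at hx₁
    exact zero_ne_one hx₁
  obtain ⟨u, hu, -, hu1, hu2⟩ := exists_nagata V x⁻¹
  refine ⟨u, hu, hu1 i ?_, hu2 j ?_⟩
  · rw [← (V i).valuation_le_one_iff, map_inv₀, hx₁, inv_one]
  · rw [← (V j).valuation_le_one_iff, map_inv₀, not_le]
    have hpos : 0 < (V j).valuation x := by
      rw [pos_iff_ne_zero, ne_eq, map_eq_zero]
      exact hx0
    exact (one_lt_inv₀ hpos).mpr hx₂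

/-- An element of `⋂ V k` which is a unit at `V i` and a non-unit at all the other `V j`. -/
theorem exists_sel (hV : ∀ i j, i ≠ j → ¬ V i ≤ V j) (i : ι) :
    ∃ y : F, (∀ k, y ∈ V k) ∧ (V i).valuation y = 1 ∧ ∀ j, j ≠ i → (V j).valuation y < 1 := by
  classical
  cases nonempty_fintype ι
  choose y hyB hy1 hy2 using
    fun j : {j // j ≠ i} => exists_unit_at_nonunit_at V hV i j.1 (Ne.symm j.2)
  refine ⟨∏ j : {j // j ≠ i}, y j, fun k => prod_mem fun j _ => hyB j k, ?_, fun j hj => ?_⟩
  · rw [map_prod]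
    exact Finset.prod_eq_one fun j _ => hy1 j
  · rw [map_prod, ← Finset.mul_prod_erase Finset.univ _
      (Finset.mem_univ (⟨j, hj⟩ : {j // j ≠ i}))]
    calc (V j).valuation (y ⟨j, hj⟩) *
          ∏ x ∈ Finset.univ.erase (⟨j, hj⟩ : {j // j ≠ i}), (V j).valuation (y x)
        ≤ (V j).valuation (y ⟨j, hj⟩) * 1 :=
          mul_le_mul' le_rfl (Finset.prod_le_one' fun k _ =>
            ((V j).valuation_le_one_iff _).mpr (hyB k j))
      _ = (V j).valuation (y ⟨j, hj⟩) := mul_one _
      _ < 1 := hy2 ⟨j, hj⟩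

/-- **Idempotent-like family**: `e i ∈ ⋂ V k`, `e i ≡ 1` at `V i`, `e i ≡ 0` at the others. -/
theorem exists_idems (hV : ∀ i j, i ≠ j → ¬ V i ≤ V j) :
    ∃ e : ι → F, (∀ i k, e i ∈ V k) ∧ (∀ i, (V i).valuation (e i - 1) < 1) ∧
      (∀ i j, j ≠ i → (V j).valuation (e i) < 1) := by
  classical
  cases nonempty_fintype ι
  choose y hyB hy1 hy2 using exists_sel V hV
  have hrest : ∀ j, (V j).valuation (∑ k ∈ Finset.univ.erase j, y k) < 1 := fun j =>
    (V j).valuation.map_sum_lt one_ne_zero fun k hk => hy2 k j (Finset.ne_of_mem_erase hk).symm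
  have hsplit : ∀ j, ∑ k, y k = y j + ∑ k ∈ Finset.univ.erase j, y k := fun j =>
    (Finset.add_sum_erase Finset.univ y (Finset.mem_univ j)).symm
  have hs : ∀ j, (V j).valuation (∑ k, y k) = 1 := by
    intro j
    rw [hsplit j, (V j).valuation.map_add_eq_of_lt_left (by rw [hy1]; exact hrest j), hy1]
  refine ⟨fun i => y i / ∑ k, y k, fun i k => ?_, fun i => ?_, fun i j hj => ?_⟩
  · rw [← (V k).valuation_le_one_iff, map_div₀, hs, div_one]
    exact ((V k).valuation_le_one_iff _).mpr (hyB i k)
  · have hne : ∑ k, y k ≠ 0 := by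
      intro h0
      have := hs i
      rw [h0, map_zero] at this
      exact zero_ne_one this
    have h1 : y i / ∑ k, y k - 1 = -((∑ k ∈ Finset.univ.erase i, y k) / ∑ k, y k) := by
      have h2 : y i = ∑ k, y k - ∑ k ∈ Finset.univ.erase i, y k := by
        rw [hsplit i]; ring
      rw [eq_neg_iff_add_eq_zero, div_sub_one hne, ← add_div]
      rw [show y i - ∑ k, y k + ∑ k ∈ Finset.univ.erase i, y k = 0 by rw [h2]; ring, zero_div]
    rw [h1, Valuation.map_neg, map_div₀, hs, div_one]
    exact hrest i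
  · show (V j).valuation (y i / ∑ k, y k) < 1
    rw [map_div₀, hs, div_one]
    exact hy2 i j hj

/-- **Lifting**: an element of `V i` is congruent modulo the maximal ideal of `V i` to an
element of `⋂ V k`. -/
theorem exists_lift_family (hV : ∀ i j, i ≠ j → ¬ V i ≤ V j) (i : ι) (r : F) (hr : r ∈ V i) :
    ∃ w : F, (∀ k, w ∈ V k) ∧ (V i).valuation (w - r) < 1 := by
  obtain ⟨e, heB, he1, he2⟩ := exists_idems V hV
  obtain ⟨u, huB, hruB, hu1, -⟩ := exists_nagata V r
  have hui : (V i).valuation u = 1 := hu1 i hr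
  have h1e : (V i).valuation (1 - e i) < 1 := by
    rw [Valuation.map_sub_swap]; exact he1 i
  have hdiff : (V i).valuation ((1 - e i) * (1 - u)) < 1 := by
    rw [map_mul]
    calc (V i).valuation (1 - e i) * (V i).valuation (1 - u)
        ≤ (V i).valuation (1 - e i) * 1 :=
          mul_le_mul' le_rfl ((V i).valuation.map_sub_le (le_of_eq (map_one _)) hui.le)
      _ = (V i).valuation (1 - e i) := mul_one _
      _ < 1 := h1e
  have hu'k : ∀ k, (V k).valuation (u * e i + (1 - e i)) = 1 := by
    intro k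
    by_cases hk : k = i
    · subst hk
      have : u * e k + (1 - e k) = u + (1 - e k) * (1 - u) := by ring
      rw [this, (V k).valuation.map_add_eq_of_lt_left (by rw [hui]; exact hdiff), hui]
    · have : u * e i + (1 - e i) = 1 + (u - 1) * e i := by ring
      rw [this]
      apply (V k).valuation.map_one_add_of_lt
      rw [map_mul]
      calc (V k).valuation (u - 1) * (V k).valuation (e i)
          ≤ 1 * (V k).valuation (e i) :=
            mul_le_mul' ((V k).valuation.map_sub_le
              (((V k).valuation_le_one_iff _).mpr (huB k)) (le_of_eq (map_one _))) le_rfl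
        _ = (V k).valuation (e i) := one_mul _
        _ < 1 := he2 i k hk
  have hu'0 : u * e i + (1 - e i) ≠ 0 := by
    intro h0
    have := hu'k i
    rw [h0, map_zero] at this
    exact zero_ne_one this
  refine ⟨r * u / (u * e i + (1 - e i)), fun k => ?_, ?_⟩
  · rw [← (V k).valuation_le_one_iff, map_div₀, hu'k, div_one]
    exact ((V k).valuation_le_one_iff _).mpr (hruB k)
  · have : r * u / (u * e i + (1 - e i)) - r =
        -(r * ((1 - e i) * (1 - u)) / (u * e i + (1 - e i))) := by
      field_simp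
      ring
    rw [this, Valuation.map_neg, map_div₀, hu'k, div_one, map_mul]
    calc (V i).valuation r * (V i).valuation ((1 - e i) * (1 - u))
        ≤ 1 * (V i).valuation ((1 - e i) * (1 - u)) :=
          mul_le_mul' (((V i).valuation_le_one_iff _).mpr hr) le_rfl
      _ = (V i).valuation ((1 - e i) * (1 - u)) := one_mul _
      _ < 1 := hdiff

/-- **Approximation (M1).**  For pairwise incomparable valuation rings `V i` the map
`⋂ V i → ∏ κ_i` is surjective. -/
theorem exists_approx_family (hV : ∀ i j, i ≠ j → ¬ V i ≤ V j) (r : ι → F)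
    (hr : ∀ i, r i ∈ V i) :
    ∃ z : F, (∀ i, z ∈ V i) ∧ ∀ i, z - r i ∈ (V i).nonunits := by
  classical
  cases nonempty_fintype ι
  obtain ⟨e, heB, he1, he2⟩ := exists_idems V hV
  choose w hwB hw using fun i => exists_lift_family V hV i (r i) (hr i)
  have hz : ∀ i, (V i).valuation (∑ k, e k * w k - r i) < 1 := by
    intro i
    have : ∑ k, e k * w k - r i =
        e i * (w i - r i) + (e i - 1) * r i + ∑ k ∈ Finset.univ.erase i, e k * w k := by
      rw [← Finset.add_sum_erase Finset.univ _ (Finset.mem_univ i)]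
      ring
    rw [this]
    refine (V i).valuation.map_add_lt ((V i).valuation.map_add_lt ?_ ?_) ?_
    · rw [map_mul]
      calc (V i).valuation (e i) * (V i).valuation (w i - r i)
          ≤ 1 * (V i).valuation (w i - r i) :=
            mul_le_mul' (((V i).valuation_le_one_iff _).mpr (heB i i)) le_rfl
        _ = (V i).valuation (w i - r i) := one_mul _
        _ < 1 := hw i
    · rw [map_mul]
      calc (V i).valuation (e i - 1) * (V i).valuation (r i)
          ≤ (V i).valuation (e i - 1) * 1 :=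
            mul_le_mul' le_rfl (((V i).valuation_le_one_iff _).mpr (hr i))
        _ = (V i).valuation (e i - 1) := mul_one _
        _ < 1 := he1 i
    · refine (V i).valuation.map_sum_lt one_ne_zero fun k hk => ?_
      rw [map_mul]
      calc (V i).valuation (e k) * (V i).valuation (w k)
          ≤ (V i).valuation (e k) * 1 :=
            mul_le_mul' le_rfl (((V i).valuation_le_one_iff _).mpr (hwB k i))
        _ = (V i).valuation (e k) := mul_one _
        _ < 1 := he2 k i (Finset.ne_of_mem_erase hk).symm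
  refine ⟨∑ k, e k * w k, fun i => ?_, fun i => (ValuationSubring.mem_nonunits_iff _).mpr (hz i)⟩
  exact sum_mem fun k _ => (V i).mul_mem _ _ (heB k i) (hwB k i)

end MultiApprox

/-! ## Part B: cartesian families for general balls and for finitely many valuation rings -/

section CartFor

variable {E F : Type*} [Field E] [Field F] [Algebra E F]

/-- The closed unit ball `⋂ V i` of a family of valuation rings. -/
def mBall {ι : Type*} (V : ι → ValuationSubring F) : Set F := {a | ∀ i, a ∈ V i}

/-- The open unit ball `⋂ m_i` of a family of valuation rings. -/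
def mOpenBall {ι : Type*} (V : ι → ValuationSubring F) : Set F :=
  {a | ∀ i, a ∈ (V i).nonunits}

theorem mem_mBall_iff {ι : Type*} {V : ι → ValuationSubring F} {a : F} :
    a ∈ mBall V ↔ ∀ i, a ∈ V i := Iff.rfl

theorem mem_mOpenBall_iff {ι : Type*} {V : ι → ValuationSubring F} {a : F} :
    a ∈ mOpenBall V ↔ ∀ i, a ∈ (V i).nonunits := Iff.rfl

theorem mOpenBall_subset_mBall {ι : Type*} (V : ι → ValuationSubring F) :
    mOpenBall V ⊆ mBall V := fun _ ha i => (V i).nonunits_subset (ha i)

/-- **Cartesian family** for a closed ball `B` and an open ball `B₀` (arbitrary sets):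
coefficients of a combination are in `V₀` (resp. in its maximal ideal) exactly when the
combination is in `B` (resp. in `B₀`). -/
structure IsCartFor (V₀ : ValuationSubring E) (B B₀ : Set F) {κ : Type*} [Fintype κ]
    (e : κ → F) : Prop where
  closed_iff : ∀ a : κ → E, ∑ k, a k • e k ∈ B ↔ ∀ k, a k ∈ V₀
  open_iff : ∀ a : κ → E, ∑ k, a k • e k ∈ B₀ ↔ ∀ k, a k ∈ V₀.nonunits

variable {V₀ : ValuationSubring E} {B B₀ : Set F} {κ : Type*} [Fintype κ] {e : κ → F}

theorem isCartFor_iff_isCartesian {V₁ V₂ : ValuationSubring F} {f : F} :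
    IsCartFor V₀ (twBall V₁ V₂ f) (twOpenBall V₁ V₂ f) e ↔ IsCartesian V₀ V₁ V₂ f e :=
  ⟨fun h => ⟨h.closed_iff, h.open_iff⟩, fun h => ⟨h.closed_iff, h.open_iff⟩⟩

theorem IsCartFor.mem (he : IsCartFor V₀ B B₀ e) (k : κ) : e k ∈ B := by
  classical
  have h := (he.closed_iff (Pi.single k 1)).mpr (fun j => by
    by_cases hj : j = k
    · subst hj; rw [Pi.single_eq_same]; exact V₀.one_mem
    · rw [Pi.single_eq_of_ne hj]; exact V₀.zero_mem)
  rw [Finset.sum_eq_single k] at h
  · rwa [Pi.single_eq_same, one_smul] at h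
  · intro j _ hj
    rw [Pi.single_eq_of_ne hj, zero_smul]
  · intro h; exact absurd (Finset.mem_univ _) h

theorem IsCartFor.zero_mem_open (he : IsCartFor V₀ B B₀ e) : (0 : F) ∈ B₀ := by
  have := (he.open_iff (fun _ => 0)).mpr (fun _ => zero_mem _)
  simpa using this

/-- A cartesian family is linearly independent. -/
theorem IsCartFor.linearIndependent (he : IsCartFor V₀ B B₀ e) : LinearIndependent E e := by
  rw [Fintype.linearIndependent_iff]
  intro g hg k
  by_contra hk
  have h0 : ∑ i, ((g k)⁻¹ * g i) • e i = 0 := by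
    have : ∑ i, ((g k)⁻¹ * g i) • e i = (g k)⁻¹ • ∑ i, g i • e i := by
      rw [Finset.smul_sum]
      exact Finset.sum_congr rfl fun i _ => (mul_smul _ _ _)
    rw [this, hg, smul_zero]
  have hmem : ∑ i, ((g k)⁻¹ * g i) • e i ∈ B₀ := by
    rw [h0]
    exact he.zero_mem_open
  have h1 := (he.open_iff _).mp hmem k
  rw [inv_mul_cancel₀ hk] at h1
  exact one_notMem_nonunits V₀ h1

/-- Coordinates of an element of the span: closed ball. -/
theorem IsCartFor.exists_coeff (he : IsCartFor V₀ B B₀ e)
    (hspan : Submodule.span E (Set.range e) = ⊤) {z : F} (hz : z ∈ B) :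
    ∃ a : κ → E, (∀ k, a k ∈ V₀) ∧ z = ∑ k, a k • e k := by
  have hz' : z ∈ Submodule.span E (Set.range e) := by rw [hspan]; exact Submodule.mem_top
  obtain ⟨a, rfl⟩ := (Submodule.mem_span_range_iff_exists_fun E).mp hz'
  exact ⟨a, (he.closed_iff a).mp hz, rfl⟩

/-- Coordinates of an element of the span: open ball. -/
theorem IsCartFor.exists_coeff_open (he : IsCartFor V₀ B B₀ e)
    (hspan : Submodule.span E (Set.range e) = ⊤) {z : F} (hz : z ∈ B₀) :
    ∃ a : κ → E, (∀ k, a k ∈ V₀.nonunits) ∧ z = ∑ k, a k • e k := by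
  have hz' : z ∈ Submodule.span E (Set.range e) := by rw [hspan]; exact Submodule.mem_top
  obtain ⟨a, rfl⟩ := (Submodule.mem_span_range_iff_exists_fun E).mp hz'
  exact ⟨a, (he.open_iff a).mp hz, rfl⟩

/-- A cartesian family of the right cardinality spans. -/
theorem IsCartFor.span_eq_top [FiniteDimensional E F] (he : IsCartFor V₀ B B₀ e)
    (hcard : Fintype.card κ = Module.finrank E F) : Submodule.span E (Set.range e) = ⊤ :=
  he.linearIndependent.span_eq_top_of_card_eq_finrank' hcard

/-- `Finsupp` form of the closed-ball criterion. -/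
theorem IsCartFor.linearCombination_mem_iff (he : IsCartFor V₀ B B₀ e) (c : κ →₀ E) :
    Finsupp.linearCombination E e c ∈ B ↔ ∀ k, c k ∈ V₀ := by
  rw [Finsupp.linearCombination_apply,
    Finsupp.sum_fintype c (fun i a => a • e i) (fun i => zero_smul _ _)]
  exact he.closed_iff c

/-- `Finsupp` form of the open-ball criterion. -/
theorem IsCartFor.linearCombination_mem_open_iff (he : IsCartFor V₀ B B₀ e) (c : κ →₀ E) :
    Finsupp.linearCombination E e c ∈ B₀ ↔ ∀ k, V₀.valuation (c k) < 1 := by
  rw [Finsupp.linearCombination_apply,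
    Finsupp.sum_fintype c (fun i a => a • e i) (fun i => zero_smul _ _)]
  rw [he.open_iff c]
  exact forall_congr' fun k => ValuationSubring.mem_nonunits_iff _

/-- Transport of a cartesian family along multiplication by a fixed element. -/
theorem IsCartFor.mul_left (he : IsCartFor V₀ B B₀ e) (g : F) {B' B₀' : Set F}
    (hB : ∀ z, g * z ∈ B' ↔ z ∈ B) (hB₀ : ∀ z, g * z ∈ B₀' ↔ z ∈ B₀) :
    IsCartFor V₀ B' B₀' (fun k => g * e k) := by
  have hsum : ∀ a : κ → E, ∑ k, a k • (g * e k) = g * ∑ k, a k • e k := by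
    intro a
    rw [Finset.mul_sum]
    exact Finset.sum_congr rfl fun k _ => by rw [mul_smul_comm]
  exact ⟨fun a => by rw [hsum, hB, he.closed_iff], fun a => by rw [hsum, hB₀, he.open_iff]⟩

/-- Reindexing a cartesian family. -/
theorem IsCartFor.reindex (he : IsCartFor V₀ B B₀ e) {κ' : Type*} [Fintype κ'] (φ : κ' ≃ κ) :
    IsCartFor V₀ B B₀ (e ∘ φ) := by
  have hsum : ∀ a : κ' → E, ∑ k, a k • (e ∘ φ) k = ∑ k, (a ∘ φ.symm) k • e k := by
    intro a
    rw [← φ.sum_comp]
    exact Finset.sum_congr rfl fun k _ => by simp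
  constructor
  · intro a
    rw [hsum, he.closed_iff]
    exact ⟨fun h k => by simpa using h (φ k), fun h k => h _⟩
  · intro a
    rw [hsum, he.open_iff]
    exact ⟨fun h k => by simpa using h (φ k), fun h k => h _⟩

end CartFor

/-! ### Joint residual independence and the cartesian core for `n` valuation rings -/

section MultiCore

variable {E F : Type*} [Field E] [Field F] [Algebra E F]
variable {V₀ : ValuationSubring E} {ι : Type*} {V : ι → ValuationSubring F}

/-- **Joint residual independence** of a finite family `b` at the valuation rings `V i`,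
`i ∈ S`: the `b k` lie in all of them, and a combination with coefficients in `V₀` which lies in
ALL the maximal ideals `m_i`, `i ∈ S`, has all its coefficients in `m₀`.  (For `S = {i}` this is
`ResIndep V₀ (V i) b`; for a group `S` of valuation rings it says that the residues of the `b k`
in `∏_{i ∈ S} κ_i` are independent over the residue field of `V₀`.) -/
def JResIndep (V₀ : ValuationSubring E) (V : ι → ValuationSubring F) (S : Set ι)
    {κ : Type*} [Fintype κ] (b : κ → F) : Prop :=
  (∀ k, ∀ i ∈ S, b k ∈ V i) ∧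
    ∀ a : κ → E, (∀ k, a k ∈ V₀) → (∀ i ∈ S, ∑ k, a k • b k ∈ (V i).nonunits) →
      ∀ k, a k ∈ V₀.nonunits

theorem jResIndep_singleton_iff {κ : Type*} [Fintype κ] {b : κ → F} (i : ι) :
    JResIndep V₀ V {i} b ↔ ResIndep V₀ (V i) b := by
  constructor
  · rintro ⟨h1, h2⟩
    exact ⟨fun k => h1 k i rfl, fun a ha hs => h2 a ha (fun j hj => by
      rw [Set.mem_singleton_iff.mp hj]; exact hs)⟩
  · rintro ⟨h1, h2⟩
    exact ⟨fun k j hj => by rw [Set.mem_singleton_iff.mp hj]; exact h1 k,
      fun a ha hs => h2 a ha (hs i rfl)⟩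

/-- Joint residual independence only depends on the residues. -/
theorem JResIndep.congr {S : Set ι} (h : ∀ i ∈ S, (V i).comap (algebraMap E F) = V₀)
    {κ : Type*} [Fintype κ] {b b' : κ → F} (hb : JResIndep V₀ V S b)
    (hbb' : ∀ k, ∀ i ∈ S, b' k - b k ∈ (V i).nonunits) : JResIndep V₀ V S b' := by
  refine ⟨fun k i hi => ?_, fun a ha hsum => hb.2 a ha fun i hi => ?_⟩
  · have : b' k = (b' k - b k) + b k := by ring
    rw [this]
    exact (V i).add_mem _ _ ((V i).nonunits_subset (hbb' k i hi)) (hb.1 k i hi)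
  · have : ∑ k, a k • b k = ∑ k, a k • b' k - ∑ k, a k • (b' k - b k) := by
      rw [← Finset.sum_sub_distrib]
      refine Finset.sum_congr rfl fun k _ => ?_
      rw [smul_sub]
      ring
    rw [this]
    exact sub_mem (hsum i hi)
      (sum_smul_mem_nonunits_right (h i hi) _ (fun k _ => ha k) (fun k _ => hbb' k i hi))

/-- Joint residual independence for a larger set of valuation rings. -/
theorem JResIndep.mono {S T : Set ι} (hST : S ⊆ T) {κ : Type*} [Fintype κ] {b : κ → F}
    (hb : JResIndep V₀ V S b) (hT : ∀ k, ∀ i ∈ T, b k ∈ V i) : JResIndep V₀ V T b :=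
  ⟨hT, fun a ha hs => hb.2 a ha fun i hi => hs i (hST hi)⟩

/-- **Cartesian core for `n` valuation rings (M2).**  The valuation rings `V i` over `V₀` are
grouped by `g : ι → σ`; for each group `s` the family `b s` is jointly residually independent at
the group and lies in the maximal ideals of all the `V i` outside the group.  Then the family
`(b s k)_{s, k}` is cartesian for `(⋂ V i, ⋂ m_i)`. -/
theorem mcart_core {σ : Type*} [Fintype σ] (hV₀ : ∀ i, (V i).comap (algebraMap E F) = V₀)
    (g : ι → σ) {κ : σ → Type*} [∀ s, Fintype (κ s)] {b : ∀ s, κ s → F}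
    (hb : ∀ s, JResIndep V₀ V {i | g i = s} (b s))
    (hb' : ∀ s k i, g i ≠ s → b s k ∈ (V i).nonunits) :
    IsCartFor V₀ (mBall V) (mOpenBall V) (fun p : Σ s, κ s => b p.1 p.2) := by
  classical
  have hmem : ∀ (p : Σ s, κ s) (i : ι), b p.1 p.2 ∈ V i := by
    intro p i
    by_cases hi : g i = p.1
    · exact (hb p.1).1 p.2 i hi
    · exact (V i).nonunits_subset (hb' p.1 p.2 i hi)
  -- open ball, integral coefficients
  have hopen : ∀ a : (Σ s, κ s) → E, (∀ p, a p ∈ V₀) →
      ∑ p, a p • b p.1 p.2 ∈ mOpenBall V → ∀ p, a p ∈ V₀.nonunits := by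
    intro a ha hs p
    obtain ⟨s, k⟩ := p
    refine (hb s).2 (fun k => a ⟨s, k⟩) (fun k => ha _) (fun i hi => ?_) k
    have hsplit : ∑ p, a p • b p.1 p.2 =
        ∑ k, a ⟨s, k⟩ • b s k + ∑ s' ∈ Finset.univ.erase s, ∑ k, a ⟨s', k⟩ • b s' k := by
      rw [Fintype.sum_sigma]
      exact (Finset.add_sum_erase Finset.univ (fun s' => ∑ k, a ⟨s', k⟩ • b s' k)
        (Finset.mem_univ s)).symm
    have : ∑ k, a ⟨s, k⟩ • b s k =
        ∑ p, a p • b p.1 p.2 - ∑ s' ∈ Finset.univ.erase s, ∑ k, a ⟨s', k⟩ • b s' k := by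
      rw [hsplit]; ring
    rw [this]
    refine sub_mem (hs i) (sum_mem fun s' hs' => sum_mem fun k _ => ?_)
    refine smul_mem_nonunits_right (hV₀ i) (ha _) (hb' s' k i ?_)
    rw [show g i = s from hi]
    exact (Finset.ne_of_mem_erase hs').symm
  -- closed ball forces integral coefficients
  have hclosed : ∀ a : (Σ s, κ s) → E, ∑ p, a p • b p.1 p.2 ∈ mBall V → ∀ p, a p ∈ V₀ := by
    intro a hs
    by_contra hcon
    have hne : (Finset.univ : Finset (Σ s, κ s)).Nonempty := by
      by_contra hemp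
      rw [Finset.not_nonempty_iff_eq_empty, Finset.univ_eq_empty_iff] at hemp
      exact hcon fun p => (hemp.false p).elim
    obtain ⟨p₀, -, hp₀⟩ := Finset.exists_max_image Finset.univ
      (fun p : Σ s, κ s => V₀.valuation (a p)) hne
    have hd1 : 1 < V₀.valuation (a p₀) := by
      by_contra hle
      rw [not_lt] at hle
      exact hcon fun p =>
        (V₀.valuation_le_one_iff _).mp ((hp₀ p (Finset.mem_univ _)).trans hle)
    have hdpos : 0 < V₀.valuation (a p₀) := zero_lt_one.trans hd1
    have hd0 : a p₀ ≠ 0 := by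
      intro h0
      rw [h0, map_zero] at hdpos
      exact lt_irrefl _ hdpos
    have hdinv : (a p₀)⁻¹ ∈ V₀.nonunits := by
      rw [ValuationSubring.mem_nonunits_iff, map_inv₀]
      exact inv_lt_one_of_one_lt₀ hd1
    have hsm : ∑ p, ((a p₀)⁻¹ * a p) • b p.1 p.2 = (a p₀)⁻¹ • ∑ p, a p • b p.1 p.2 := by
      rw [Finset.smul_sum]
      exact Finset.sum_congr rfl fun p _ => (mul_smul _ _ _)
    have hmem' : ∑ p, ((a p₀)⁻¹ * a p) • b p.1 p.2 ∈ mOpenBall V := by
      rw [hsm]
      exact fun i => smul_mem_nonunits_left (hV₀ i) hdinv (hs i)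
    have hres := hopen (fun p => (a p₀)⁻¹ * a p) (fun p => by
      rw [← V₀.valuation_le_one_iff, map_mul, map_inv₀, inv_mul_le_iff₀ hdpos, mul_one]
      exact hp₀ p (Finset.mem_univ _)) hmem' p₀
    rw [inv_mul_cancel₀ hd0] at hres
    exact one_notMem_nonunits V₀ hres
  constructor
  · intro a
    exact ⟨hclosed a, fun ha i => sum_mem fun p _ => smul_mem_of_comap (hV₀ i) (ha p) (hmem p i)⟩
  · intro a
    exact ⟨fun hs => hopen a (hclosed a (mOpenBall_subset_mBall V hs)) hs,
      fun ha i => sum_mem fun p _ => smul_mem_nonunits_left (hV₀ i) (ha p) (hmem p i)⟩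

/-- **Existence of cartesian families for `n` valuation rings (M2).**  From jointly residually
independent families `β s` at the groups of a finite family of pairwise incomparable valuation
rings over `V₀` one gets a cartesian family for `(⋂ V i, ⋂ m_i)`, indexed by `Σ s, κ s`, whose
`s`-th part lifts `β s` at the group `s` and is small at all the other valuation rings. -/
theorem exists_isCartFor [Finite ι] {σ : Type*} [Fintype σ]
    (hV₀ : ∀ i, (V i).comap (algebraMap E F) = V₀) (hV : ∀ i j, i ≠ j → ¬ V i ≤ V j)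
    (g : ι → σ) {κ : σ → Type*} [∀ s, Fintype (κ s)] {β : ∀ s, κ s → F}
    (hβ : ∀ s, JResIndep V₀ V {i | g i = s} (β s)) :
    ∃ b : ∀ s, κ s → F,
      IsCartFor V₀ (mBall V) (mOpenBall V) (fun p : Σ s, κ s => b p.1 p.2) ∧
      (∀ s k i, g i = s → b s k - β s k ∈ (V i).nonunits) ∧
      (∀ s k i, g i ≠ s → b s k ∈ (V i).nonunits) := by
  classical
  have hex : ∀ s (k : κ s), ∃ z : F, (∀ i, z ∈ V i) ∧
      ∀ i, z - (if g i = s then β s k else 0) ∈ (V i).nonunits := fun s k =>
    exists_approx_family V hV (fun i => if g i = s then β s k else 0) (fun i => by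
      by_cases hi : g i = s
      · simp only [hi, if_true]
        exact (hβ s).1 k i hi
      · simp only [hi, if_false]
        exact zero_mem _)
  choose b hbB hb using hex
  have hb1 : ∀ s k i, g i = s → b s k - β s k ∈ (V i).nonunits := by
    intro s k i hi
    have := hb s k i
    rwa [if_pos hi] at this
  have hb2 : ∀ s k i, g i ≠ s → b s k ∈ (V i).nonunits := by
    intro s k i hi
    have := hb s k i
    rwa [if_neg hi, sub_zero] at this
  exact ⟨b, mcart_core hV₀ g (fun s => (hβ s).congr (fun i _ => hV₀ i) (fun k i hi => hb1 s k i hi))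
    hb2, hb1, hb2⟩

end MultiCore

/-! ## Part C: consequences of a cartesian basis for `(⋂ V i, ⋂ m_i)` -/

section MultiConsequences

variable {E F : Type*} [Field E] [Field F] [Algebra E F]
variable {V₀ : ValuationSubring E} {ι : Type*} {V : ι → ValuationSubring F}
variable {κ : Type*} [Fintype κ] {e : κ → F}

/-- Every nonzero element is, up to a scalar of `E`, an element of `⋂ V i` which is a unit at
some `V i`. -/
theorem IsCartFor.exists_scale (he : IsCartFor V₀ (mBall V) (mOpenBall V) e)
    (hspan : Submodule.span E (Set.range e) = ⊤) (z : F) (hz : z ≠ 0) :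
    ∃ d : E, d ≠ 0 ∧ (∀ i, (V i).valuation (z / algebraMap E F d) ≤ 1) ∧
      ∃ i, (V i).valuation (z / algebraMap E F d) = 1 := by
  classical
  have hz' : z ∈ Submodule.span E (Set.range e) := by rw [hspan]; exact Submodule.mem_top
  obtain ⟨a, rfl⟩ := (Submodule.mem_span_range_iff_exists_fun E).mp hz'
  obtain ⟨k₁, hk₁⟩ : ∃ k, a k ≠ 0 := by
    by_contra hcon
    push Not at hcon
    exact hz (Finset.sum_eq_zero fun k _ => by rw [hcon k, zero_smul])
  obtain ⟨k₀, -, hk₀⟩ := Finset.exists_max_image Finset.univ (fun k => V₀.valuation (a k))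
    ⟨k₁, Finset.mem_univ _⟩
  have hdpos : 0 < V₀.valuation (a k₀) := by
    have h1 : 0 < V₀.valuation (a k₁) := by
      rw [pos_iff_ne_zero, ne_eq, map_eq_zero]
      exact hk₁
    exact h1.trans_le (hk₀ k₁ (Finset.mem_univ _))
  have hd0 : a k₀ ≠ 0 := by
    intro h0
    rw [h0, map_zero] at hdpos
    exact lt_irrefl _ hdpos
  have hsm : (∑ k, a k • e k) / algebraMap E F (a k₀) = ∑ k, ((a k₀)⁻¹ * a k) • e k := by
    rw [div_eq_inv_mul, ← map_inv₀, ← Algebra.smul_def, Finset.smul_sum]
    exact Finset.sum_congr rfl fun i _ => (mul_smul _ _ _).symm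
  have hcl : ∑ k, ((a k₀)⁻¹ * a k) • e k ∈ mBall V := (he.closed_iff _).mpr fun k => by
    rw [← V₀.valuation_le_one_iff, map_mul, map_inv₀, inv_mul_le_iff₀ hdpos, mul_one]
    exact hk₀ k (Finset.mem_univ _)
  have hop : ∑ k, ((a k₀)⁻¹ * a k) • e k ∉ mOpenBall V := fun h => by
    have := (he.open_iff _).mp h k₀
    rw [inv_mul_cancel₀ hd0] at this
    exact one_notMem_nonunits V₀ this
  refine ⟨a k₀, hd0, fun i => ?_, ?_⟩
  · rw [hsm]; exact ((V i).valuation_le_one_iff _).mpr (hcl i)
  · rw [hsm]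
    by_contra hcon
    push Not at hcon
    exact hop fun i => (ValuationSubring.mem_nonunits_iff _).mpr
      (lt_of_le_of_ne (((V i).valuation_le_one_iff _).mpr (hcl i)) (hcon i))

section Basis

variable [DecidableEq κ]

/-- **(M3, integrality of the multiplication matrix)** For `z ∈ ⋂ V i` the matrix of
multiplication by `z` in a cartesian basis has entries in `V₀`. -/
theorem IsCartFor.leftMulMatrix_mem (𝔟 : Module.Basis κ E F)
    (he : IsCartFor V₀ (mBall V) (mOpenBall V) 𝔟) {z : F} (hz : z ∈ mBall V) (l k : κ) :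
    Algebra.leftMulMatrix 𝔟 z l k ∈ V₀ := by
  rw [Algebra.leftMulMatrix_eq_repr_mul]
  have hmem : z * 𝔟 k ∈ mBall V := fun i => (V i).mul_mem _ _ (hz i) (he.mem k i)
  have := (he.closed_iff (fun l => 𝔟.repr (z * 𝔟 k) l)).mp (by rw [𝔟.sum_repr]; exact hmem)
  exact this l

/-- **(M3)** For `z ∈ ⋂ V i` the characteristic polynomial of multiplication by `z` has
coefficients in `V₀`. -/
theorem IsCartFor.charpoly_coeff_mem (𝔟 : Module.Basis κ E F)
    (he : IsCartFor V₀ (mBall V) (mOpenBall V) 𝔟) {z : F} (hz : z ∈ mBall V) (i : ℕ) :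
    (Algebra.leftMulMatrix 𝔟 z).charpoly.coeff i ∈ V₀ := by
  let M₀ : Matrix κ κ V₀ :=
    fun l k => ⟨Algebra.leftMulMatrix 𝔟 z l k, he.leftMulMatrix_mem 𝔟 hz l k⟩
  have hM : Algebra.leftMulMatrix 𝔟 z = M₀.map V₀.subtype := by
    ext l k
    rfl
  rw [hM, Matrix.charpoly_map, Polynomial.coeff_map]
  exact (M₀.charpoly.coeff i).2

/-- `⋂ V i` is contained in every valuation ring lying over `V₀` (it is integral over `V₀`). -/
theorem IsCartFor.mem_of_comap (𝔟 : Module.Basis κ E F)
    (he : IsCartFor V₀ (mBall V) (mOpenBall V) 𝔟)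
    {W : ValuationSubring F} (hW : W.comap (algebraMap E F) = V₀) {z : F} (hz : z ∈ mBall V) :
    z ∈ W := by
  refine mem_of_monic_root hW (Matrix.charpoly_monic (Algebra.leftMulMatrix 𝔟 z))
    (he.charpoly_coeff_mem 𝔟 hz) ?_
  apply Algebra.leftMulMatrix_injective 𝔟
  rw [map_zero, ← Polynomial.aeval_algHom_apply, Matrix.aeval_self_charpoly]

end Basis

/-- **(M3, no further extension)**: pairwise incomparable valuation rings `V i` over `V₀`
admitting a cartesian basis for `(⋂ V i, ⋂ m_i)` are ALL the valuation rings of `F` lying over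
`V₀`. -/
theorem IsCartFor.exists_eq_of_comap [Finite ι] [Algebra.IsAlgebraic E F]
    (𝔟 : Module.Basis κ E F) (he : IsCartFor V₀ (mBall V) (mOpenBall V) 𝔟)
    (hV₀ : ∀ i, (V i).comap (algebraMap E F) = V₀) (hV : ∀ i j, i ≠ j → ¬ V i ≤ V j)
    {W : ValuationSubring F} (hW : W.comap (algebraMap E F) = V₀) : ∃ i, W = V i := by
  classical
  cases nonempty_fintype ι
  have hB : ∀ s, s ∈ mBall V → s ∈ W := fun s hs => he.mem_of_comap 𝔟 hW hs
  have hm : ∀ s, s ∈ mOpenBall V → s ∈ W.nonunits := by
    intro s hs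
    obtain ⟨a, ha, rfl⟩ := he.exists_coeff_open 𝔟.span_eq hs
    exact sum_smul_mem_nonunits_left hW _ (fun k _ => ha k) (fun k _ => hB _ (he.mem k))
  obtain ⟨e₀, heB, he1, he2⟩ := exists_idems V hV
  have hsum : ∑ i, e₀ i - 1 ∈ mOpenBall V := by
    intro k
    rw [ValuationSubring.mem_nonunits_iff]
    have : ∑ i, e₀ i - 1 = (e₀ k - 1) + ∑ i ∈ Finset.univ.erase k, e₀ i := by
      rw [← Finset.add_sum_erase Finset.univ _ (Finset.mem_univ k)]; ring
    rw [this]
    exact (V k).valuation.map_add_lt (he1 k) ((V k).valuation.map_sum_lt one_ne_zero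
      fun i hi => he2 i k (Finset.ne_of_mem_erase hi).symm)
  have hsumW := (ValuationSubring.mem_nonunits_iff _).mp (hm _ hsum)
  obtain ⟨i₁, hi₁⟩ : ∃ i₁, W.valuation (e₀ i₁) = 1 := by
    by_contra hcon
    push Not at hcon
    have hlt : ∀ i, W.valuation (e₀ i) < 1 := fun i =>
      lt_of_le_of_ne ((W.valuation_le_one_iff _).mpr (hB _ (heB i))) (hcon i)
    have h1 : W.valuation (∑ i, e₀ i) < 1 :=
      W.valuation.map_sum_lt one_ne_zero fun i _ => hlt i
    have h2 : W.valuation (∑ i, e₀ i + -(∑ i, e₀ i - 1)) < 1 :=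
      W.valuation.map_add_lt h1 (by rw [Valuation.map_neg]; exact hsumW)
    rw [show ∑ i, e₀ i + -(∑ i, e₀ i - 1) = 1 by ring, map_one] at h2
    exact lt_irrefl _ h2
  refine ⟨i₁, (eq_of_le_of_comap_eq (hV₀ i₁) hW ?_).symm⟩
  have hprod : e₀ i₁ * (e₀ i₁ - 1) ∈ mOpenBall V := by
    intro k
    rw [ValuationSubring.mem_nonunits_iff, map_mul]
    by_cases hk : k = i₁
    · subst hk
      calc (V k).valuation (e₀ k) * (V k).valuation (e₀ k - 1)
          ≤ 1 * (V k).valuation (e₀ k - 1) :=
            mul_le_mul' (((V k).valuation_le_one_iff _).mpr (heB k k)) le_rfl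
        _ = (V k).valuation (e₀ k - 1) := one_mul _
        _ < 1 := he1 k
    · calc (V k).valuation (e₀ i₁) * (V k).valuation (e₀ i₁ - 1)
          ≤ (V k).valuation (e₀ i₁) * 1 :=
            mul_le_mul' le_rfl ((V k).valuation.map_sub_le
              (((V k).valuation_le_one_iff _).mpr (heB i₁ k)) (le_of_eq (map_one _)))
        _ = (V k).valuation (e₀ i₁) := mul_one _
        _ < 1 := he2 i₁ k hk
  have he1W : W.valuation (e₀ i₁ - 1) < 1 := by
    have := (ValuationSubring.mem_nonunits_iff _).mp (hm _ hprod)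
    rwa [map_mul, hi₁, one_mul] at this
  intro u hu
  obtain ⟨t, htB, hutB, ht1, -⟩ := exists_nagata V u
  have hti : (V i₁).valuation t = 1 := ht1 i₁ hu
  have h1e : (V i₁).valuation (1 - e₀ i₁) < 1 := by
    rw [Valuation.map_sub_swap]; exact he1 i₁
  have hdiff : (V i₁).valuation ((1 - e₀ i₁) * (1 - t)) < 1 := by
    rw [map_mul]
    calc (V i₁).valuation (1 - e₀ i₁) * (V i₁).valuation (1 - t)
        ≤ (V i₁).valuation (1 - e₀ i₁) * 1 :=
          mul_le_mul' le_rfl ((V i₁).valuation.map_sub_le (le_of_eq (map_one _)) hti.le)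
      _ = (V i₁).valuation (1 - e₀ i₁) := mul_one _
      _ < 1 := h1e
  have ht'k : ∀ k, (V k).valuation (t * e₀ i₁ + (1 - e₀ i₁)) = 1 := by
    intro k
    by_cases hk : k = i₁
    · subst hk
      have : t * e₀ k + (1 - e₀ k) = t + (1 - e₀ k) * (1 - t) := by ring
      rw [this, (V k).valuation.map_add_eq_of_lt_left (by rw [hti]; exact hdiff), hti]
    · have : t * e₀ i₁ + (1 - e₀ i₁) = 1 + (t - 1) * e₀ i₁ := by ring
      rw [this]
      apply (V k).valuation.map_one_add_of_lt
      rw [map_mul]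
      calc (V k).valuation (t - 1) * (V k).valuation (e₀ i₁)
          ≤ 1 * (V k).valuation (e₀ i₁) :=
            mul_le_mul' ((V k).valuation.map_sub_le
              (((V k).valuation_le_one_iff _).mpr (htB k)) (le_of_eq (map_one _))) le_rfl
        _ = (V k).valuation (e₀ i₁) := one_mul _
        _ < 1 := he2 i₁ k hk
  have ht'W1 : W.valuation (t * e₀ i₁ + (1 - e₀ i₁)) ≤ 1 :=
    (W.valuation_le_one_iff _).mpr
      (hB _ fun k => ((V k).valuation_le_one_iff _).mp (ht'k k).le)
  have ht'W2 : W.valuation (t * e₀ i₁ + (1 - e₀ i₁))⁻¹ ≤ 1 :=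
    (W.valuation_le_one_iff _).mpr
      (hB _ fun k => ((V k).valuation_le_one_iff _).mp (by rw [map_inv₀, ht'k k, inv_one]))
  have ht'0 : t * e₀ i₁ + (1 - e₀ i₁) ≠ 0 := by
    intro h0
    have := ht'k i₁
    rw [h0, map_zero] at this
    exact zero_ne_one this
  have ht'W : W.valuation (t * e₀ i₁ + (1 - e₀ i₁)) = 1 := by
    refine le_antisymm ht'W1 ?_
    rw [map_inv₀] at ht'W2
    have hpos : 0 < W.valuation (t * e₀ i₁ + (1 - e₀ i₁)) := by
      rw [pos_iff_ne_zero, ne_eq, map_eq_zero]; exact ht'0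
    exact (inv_le_one₀ hpos).mp ht'W2
  have htW : W.valuation t = 1 := by
    have hd : W.valuation ((t - 1) * (1 - e₀ i₁)) < 1 := by
      rw [map_mul]
      calc W.valuation (t - 1) * W.valuation (1 - e₀ i₁)
          ≤ 1 * W.valuation (1 - e₀ i₁) :=
            mul_le_mul' (W.valuation.map_sub_le ((W.valuation_le_one_iff _).mpr (hB _ htB))
              (le_of_eq (map_one _))) le_rfl
        _ = W.valuation (1 - e₀ i₁) := one_mul _
        _ < 1 := by rw [Valuation.map_sub_swap]; exact he1W
    have : t = (t * e₀ i₁ + (1 - e₀ i₁)) + (t - 1) * (1 - e₀ i₁) := by ring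
    rw [this, W.valuation.map_add_eq_of_lt_left (by rw [ht'W]; exact hd), ht'W]
  have ht0 : t ≠ 0 := by
    rintro rfl
    rw [map_zero] at htW
    exact zero_ne_one htW
  rw [← W.valuation_le_one_iff]
  have hu_eq : u = u * t / t := by field_simp
  rw [hu_eq, map_div₀, htW, div_one]
  exact (W.valuation_le_one_iff _).mpr (hB _ hutB)

end MultiConsequences

/-! ## Part D: value groups in algebraic extensions, archimedean property, twists -/

section ValueGroups

variable {E F : Type*} [Field E] [Field F] [Algebra E F]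
variable {V₀ : ValuationSubring E}

/-- In an algebraic extension some power of every nonzero element has the valuation of an
element of the base field (two terms of maximal valuation in a polynomial relation). -/
theorem exists_pow_val_eq [Algebra.IsAlgebraic E F] (W : ValuationSubring F) {x : F}
    (hx : x ≠ 0) :
    ∃ (m : ℕ) (c : E), 0 < m ∧ c ≠ 0 ∧ W.valuation (x ^ m) = W.valuation (algebraMap E F c) := by
  classical
  obtain ⟨P, hP0, hPx⟩ := (Algebra.IsAlgebraic.isAlgebraic (R := E) x)
  set T : ℕ → W.ValueGroup := fun i => W.valuation (algebraMap E F (P.coeff i)) * W.valuation x ^ i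
    with hT
  have hxv : W.valuation x ≠ 0 := by rw [ne_eq, map_eq_zero]; exact hx
  have hTterm : ∀ i, W.valuation (P.coeff i • x ^ i) = T i := by
    intro i
    rw [Algebra.smul_def, map_mul, map_pow]
  obtain ⟨i₀, hi₀, hmax⟩ := Finset.exists_max_image (Finset.range (P.natDegree + 1)) T
    ⟨P.natDegree, Finset.self_mem_range_succ _⟩
  have hlead : T P.natDegree ≠ 0 := by
    rw [hT]
    refine mul_ne_zero ?_ (pow_ne_zero _ hxv)
    rw [ne_eq, map_eq_zero, map_eq_zero]
    exact Polynomial.leadingCoeff_ne_zero.mpr hP0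
  have hT0 : T i₀ ≠ 0 := by
    intro h0
    have := hmax P.natDegree (Finset.self_mem_range_succ _)
    rw [h0] at this
    exact hlead (le_antisymm this zero_le)
  obtain ⟨i₁, hi₁, hne, heq⟩ : ∃ i₁ ∈ Finset.range (P.natDegree + 1), i₁ ≠ i₀ ∧ T i₁ = T i₀ := by
    by_contra hcon
    push Not at hcon
    have hlt : ∀ i ∈ (Finset.range (P.natDegree + 1)).erase i₀, T i < T i₀ := by
      intro i hi
      have hi' := Finset.mem_of_mem_erase hi
      exact lt_of_le_of_ne (hmax i hi') (hcon i hi' (Finset.ne_of_mem_erase hi))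
    have hsum : W.valuation (∑ i ∈ (Finset.range (P.natDegree + 1)).erase i₀, P.coeff i • x ^ i)
        < T i₀ :=
      W.valuation.map_sum_lt hT0 fun i hi => by rw [hTterm]; exact hlt i hi
    rw [Polynomial.aeval_eq_sum_range, ← Finset.add_sum_erase _ _ hi₀] at hPx
    have h1 := W.valuation.map_add_eq_of_lt_left (x := P.coeff i₀ • x ^ i₀)
      (y := ∑ i ∈ (Finset.range (P.natDegree + 1)).erase i₀, P.coeff i • x ^ i)
      (by rw [hTterm]; exact hsum)
    rw [hPx, map_zero, hTterm] at h1
    exact hT0 h1.symm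
  have hT1 : T i₁ ≠ 0 := by rw [heq]; exact hT0
  have hc : ∀ i, T i ≠ 0 → P.coeff i ≠ 0 := by
    intro i hi h0
    apply hi
    rw [hT]
    simp only [h0, map_zero, zero_mul]
  -- the two indices, ordered
  have key : ∀ lo hi : ℕ, lo < hi → T lo = T hi → T lo ≠ 0 → T hi ≠ 0 →
      ∃ (m : ℕ) (c : E), 0 < m ∧ c ≠ 0 ∧
        W.valuation (x ^ m) = W.valuation (algebraMap E F c) := by
    intro lo hi hlt hTeq hlo hhi
    have hclo := hc lo hlo
    have hchi := hc hi hhi
    refine ⟨hi - lo, P.coeff lo / P.coeff hi, Nat.sub_pos_of_lt hlt, div_ne_zero hclo hchi, ?_⟩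
    have hvhi : W.valuation (algebraMap E F (P.coeff hi)) ≠ 0 := by
      rw [ne_eq, map_eq_zero, map_eq_zero]; exact hchi
    have h1 : W.valuation (algebraMap E F (P.coeff lo)) * W.valuation x ^ lo =
        W.valuation (algebraMap E F (P.coeff hi)) * W.valuation x ^ (hi - lo) *
          W.valuation x ^ lo := by
      rw [mul_assoc, ← pow_add, Nat.sub_add_cancel hlt.le]
      exact hTeq
    have h2 := mul_right_cancel₀ (pow_ne_zero lo hxv) h1
    rw [map_pow, map_div₀, map_div₀, h2, mul_div_cancel_left₀ _ hvhi]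
  rcases lt_or_gt_of_ne hne with h | h
  · exact key i₁ i₀ h heq hT1 hT0
  · exact key i₀ i₁ h heq.symm hT0 hT1

/-- **(M4) `e = 1` for divisible value groups.**  If the value group of `V₀` is divisible, every
valuation ring of an algebraic extension lying over `V₀` has the value group of `V₀`. -/
theorem exists_val_eq_of_divisible [Algebra.IsAlgebraic E F] {W : ValuationSubring F}
    (hW : W.comap (algebraMap E F) = V₀)
    (hdiv : ∀ (c : E) (m : ℕ), c ≠ 0 → 0 < m → ∃ b : E, V₀.valuation (c / b ^ m) = 1)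
    (x : F) (hx : x ≠ 0) : ∃ a : E, a ≠ 0 ∧ W.valuation (x / algebraMap E F a) = 1 := by
  obtain ⟨m, c, hm, hc0, hmc⟩ := exists_pow_val_eq (E := E) W hx
  obtain ⟨b, hb⟩ := hdiv c m hc0 hm
  have hb0 : b ≠ 0 := by
    rintro rfl
    rw [zero_pow hm.ne', div_zero, map_zero] at hb
    exact zero_ne_one hb
  have hbF : W.valuation (algebraMap E F b) ≠ 0 := by
    rw [ne_eq, map_eq_zero, map_eq_zero]; exact hb0
  have h1 : W.valuation (algebraMap E F (c / b ^ m)) = 1 := (val_eq_one_iff_of_comap hW _).mpr hb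
  rw [map_div₀, map_div₀, map_pow, map_pow, div_eq_one_iff_eq (pow_ne_zero _ hbF)] at h1
  refine ⟨b, hb0, ?_⟩
  have h2 : W.valuation (x / algebraMap E F b) ^ m = 1 := by
    rw [map_div₀, div_pow, ← map_pow, hmc, h1, div_self (pow_ne_zero _ hbF)]
  rcases lt_trichotomy (W.valuation (x / algebraMap E F b)) 1 with h | h | h
  · exact absurd h2 (pow_lt_one₀ zero_le h hm.ne').ne
  · exact h
  · exact absurd h2 (one_lt_pow₀ h hm.ne').ne'

/-- The archimedean property passes to valuation rings of algebraic extensions. -/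
theorem isArch_of_comap [Algebra.IsAlgebraic E F] {W : ValuationSubring F}
    (hW : W.comap (algebraMap E F) = V₀) (harch : IsArch V₀) : IsArch W := by
  intro a ham ha0 d hd0
  obtain ⟨p, c, hp, hc0, hpc⟩ := exists_pow_val_eq (E := E) W ha0
  obtain ⟨p', c', hp', hc'0, hpc'⟩ := exists_pow_val_eq (E := E) W hd0
  have hav : W.valuation a < 1 := (ValuationSubring.mem_nonunits_iff _).mp ham
  have hcm : c ∈ V₀.nonunits := by
    rw [← mem_nonunits_iff_of_comap hW, ValuationSubring.mem_nonunits_iff, ← hpc, map_pow]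
    exact pow_lt_one₀ zero_le hav hp.ne'
  obtain ⟨K, hK⟩ := harch c hcm hc0 c' hc'0
  have hK' : W.valuation (algebraMap E F (c ^ K / c')) ≤ 1 :=
    (val_le_one_iff_of_comap hW _).mpr ((V₀.valuation_le_one_iff _).mpr hK)
  have hc'F : W.valuation (algebraMap E F c') ≠ 0 := by
    rw [ne_eq, map_eq_zero, map_eq_zero]; exact hc'0
  have hdv : W.valuation d ≠ 0 := by rw [ne_eq, map_eq_zero]; exact hd0
  rw [map_div₀, map_div₀, map_pow, map_pow, ← hpc, ← hpc', map_pow, map_pow,
    div_le_one₀ (pow_pos (zero_lt_iff.mpr hdv) _)] at hK'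
  refine ⟨p * K, ?_⟩
  rw [← W.valuation_le_one_iff, map_div₀, map_pow, div_le_one₀ (zero_lt_iff.mpr hdv), pow_mul]
  rcases le_or_gt 1 (W.valuation d) with h | h
  · exact (pow_le_one₀ zero_le (pow_le_one₀ zero_le hav.le)).trans h
  · exact hK'.trans (pow_le_of_le_one zero_le h.le hp'.ne')

end ValueGroups

section Twist

variable {E F : Type*} [Field E] [Field F] [Algebra E F]
variable {V₀ : ValuationSubring E} {ι : Type*} {V : ι → ValuationSubring F}

/-- The twisted closed ball `{a | ∀ i, |a|_i ≤ |f i|_i}`. -/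
def mBallTw (V : ι → ValuationSubring F) (f : ι → F) : Set F := {a | ∀ i, a / f i ∈ V i}

/-- The twisted open ball `{a | ∀ i, |a|_i < |f i|_i}`. -/
def mOpenBallTw (V : ι → ValuationSubring F) (f : ι → F) : Set F :=
  {a | ∀ i, a / f i ∈ (V i).nonunits}

theorem mem_mBallTw_iff {f : ι → F} {a : F} : a ∈ mBallTw V f ↔ ∀ i, a / f i ∈ V i := Iff.rfl

theorem mem_mOpenBallTw_iff {f : ι → F} {a : F} :
    a ∈ mOpenBallTw V f ↔ ∀ i, a / f i ∈ (V i).nonunits := Iff.rfl

theorem mBallTw_one : mBallTw V (fun _ => 1) = mBall V := by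
  ext a; simp [mBallTw, mBall]

theorem mOpenBallTw_one : mOpenBallTw V (fun _ => 1) = mOpenBall V := by
  ext a; simp [mOpenBallTw, mOpenBall]

/-- **Simultaneous twist.**  For pairwise incomparable archimedean valuation rings and nonzero
`f i` there is one element `g` with `|g|_i = |f i|_i` for all `i`. -/
theorem exists_twist [Finite ι] (hV : ∀ i j, i ≠ j → ¬ V i ≤ V j) (harch : ∀ i, IsArch (V i))
    (f : ι → F) (hf : ∀ i, f i ≠ 0) : ∃ g : F, g ≠ 0 ∧ ∀ i, (V i).valuation (g / f i) = 1 := by
  classical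
  cases nonempty_fintype ι
  rcases isEmpty_or_nonempty ι with hι | ⟨⟨j₀⟩⟩
  · exact ⟨1, one_ne_zero, fun i => isEmptyElim i⟩
  obtain ⟨e, heB, he1, he2⟩ := exists_idems V hV
  have hei : ∀ i, (V i).valuation (e i) = 1 := by
    intro i
    have : e i = 1 + (e i - 1) := by ring
    rw [this]
    exact (V i).valuation.map_one_add_of_lt (he1 i)
  have he0 : ∀ i, e i ≠ 0 := by
    intro i h0
    have := hei i
    rw [h0, map_zero] at this
    exact zero_ne_one this
  have hK : ∀ i j, ∃ K : ℕ, i ≠ j → e i ^ K / (f j / f i) ∈ V j := by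
    intro i j
    by_cases hij : i = j
    · exact ⟨0, fun h => absurd hij h⟩
    · obtain ⟨K, hK⟩ := harch j (e i) ((ValuationSubring.mem_nonunits_iff _).mpr
        (he2 i j (Ne.symm hij))) (he0 i) (f j / f i) (div_ne_zero (hf j) (hf i))
      exact ⟨K, fun _ => hK⟩
  choose K hK using hK
  set N : ℕ := ∑ i, ∑ j, (K i j + 1) with hN
  have hKN : ∀ i j, K i j + 1 ≤ N := by
    intro i j
    rw [hN]
    exact (Finset.single_le_sum (f := fun j => K i j + 1) (fun _ _ => Nat.zero_le _)
      (Finset.mem_univ j)).trans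
      (Finset.single_le_sum (f := fun i => ∑ j, (K i j + 1)) (fun _ _ => Nat.zero_le _)
        (Finset.mem_univ i))
  have hsmall : ∀ i j, i ≠ j → (V j).valuation (f i * e i ^ N / f j) < 1 := by
    intro i j hij
    have hsplit : f i * e i ^ N / f j = e i ^ K i j / (f j / f i) * e i ^ (N - K i j) := by
      have hpow : e i ^ N = e i ^ K i j * e i ^ (N - K i j) := by
        rw [← pow_add, Nat.add_sub_cancel' ((Nat.le_succ _).trans (hKN i j))]
      rw [hpow]
      have := hf i
      have := hf j
      field_simp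
    rw [hsplit, map_mul, map_pow]
    have hlt : (V j).valuation (e i) ^ (N - K i j) < 1 :=
      pow_lt_one₀ zero_le (he2 i j (Ne.symm hij))
        (Nat.sub_ne_zero_of_lt (Nat.lt_of_succ_le (hKN i j)))
    calc (V j).valuation (e i ^ K i j / (f j / f i)) * (V j).valuation (e i) ^ (N - K i j)
        ≤ 1 * (V j).valuation (e i) ^ (N - K i j) :=
          mul_le_mul' (((V j).valuation_le_one_iff _).mpr (hK i j hij)) le_rfl
      _ = (V j).valuation (e i) ^ (N - K i j) := one_mul _
      _ < 1 := hlt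
  have hval : ∀ j, (V j).valuation ((∑ i, f i * e i ^ N) / f j) = 1 := by
    intro j
    have hsplit : (∑ i, f i * e i ^ N) / f j =
        e j ^ N + ∑ i ∈ Finset.univ.erase j, f i * e i ^ N / f j := by
      rw [Finset.sum_div, ← Finset.add_sum_erase Finset.univ _ (Finset.mem_univ j),
        mul_div_assoc, mul_comm, div_mul_cancel₀ _ (hf j)]
    have h1 : (V j).valuation (e j ^ N) = 1 := by rw [map_pow, hei, one_pow]
    rw [hsplit, (V j).valuation.map_add_eq_of_lt_left, h1]
    rw [h1]
    exact (V j).valuation.map_sum_lt one_ne_zero fun i hi =>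
      hsmall i j (Finset.ne_of_mem_erase hi)
  refine ⟨∑ i, f i * e i ^ N, ?_, hval⟩
  intro h0
  have := hval j₀
  rw [h0, zero_div, map_zero] at this
  exact zero_ne_one this

theorem mul_mem_mBallTw_iff {f : ι → F} {g : F} (hg : ∀ i, (V i).valuation (g / f i) = 1)
    (z : F) : g * z ∈ mBallTw V f ↔ z ∈ mBall V := by
  refine forall_congr' fun i => ?_
  rw [← (V i).valuation_le_one_iff, ← (V i).valuation_le_one_iff,
    show g * z / f i = g / f i * z by ring, map_mul, hg i, one_mul]

theorem mul_mem_mOpenBallTw_iff {f : ι → F} {g : F} (hg : ∀ i, (V i).valuation (g / f i) = 1)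
    (z : F) : g * z ∈ mOpenBallTw V f ↔ z ∈ mOpenBall V := by
  refine forall_congr' fun i => ?_
  rw [ValuationSubring.mem_nonunits_iff, ValuationSubring.mem_nonunits_iff,
    show g * z / f i = g / f i * z by ring, map_mul, hg i, one_mul]

/-- A cartesian family for the untwisted balls, multiplied by a simultaneous twist `g`, is
cartesian for the twisted balls. -/
theorem IsCartFor.twist {κ : Type*} [Fintype κ] {e : κ → F}
    (he : IsCartFor V₀ (mBall V) (mOpenBall V) e) {f : ι → F} {g : F}
    (hg : ∀ i, (V i).valuation (g / f i) = 1) :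
    IsCartFor V₀ (mBallTw V f) (mOpenBallTw V f) (fun k => g * e k) :=
  he.mul_left g (mul_mem_mBallTw_iff hg) (mul_mem_mOpenBallTw_iff hg)

/-- Scaling by a unit of `V₀` preserves the twisted closed ball. -/
theorem smul_mem_mBallTw_iff (hV₀ : ∀ i, (V i).comap (algebraMap E F) = V₀) {f : ι → F} {u : E}
    (hu : V₀.valuation u = 1) (z : F) : u • z ∈ mBallTw V f ↔ z ∈ mBallTw V f := by
  refine forall_congr' fun i => ?_
  rw [smul_div_assoc, Algebra.smul_def, ← (V i).valuation_le_one_iff,
    ← (V i).valuation_le_one_iff, map_mul, (val_eq_one_iff_of_comap (hV₀ i) u).mpr hu, one_mul]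

/-- Scaling by a unit of `V₀` preserves the twisted open ball. -/
theorem smul_mem_mOpenBallTw_iff (hV₀ : ∀ i, (V i).comap (algebraMap E F) = V₀) {f : ι → F}
    {u : E} (hu : V₀.valuation u = 1) (z : F) :
    u • z ∈ mOpenBallTw V f ↔ z ∈ mOpenBallTw V f := by
  refine forall_congr' fun i => ?_
  rw [smul_div_assoc, Algebra.smul_def, ValuationSubring.mem_nonunits_iff,
    ValuationSubring.mem_nonunits_iff, map_mul, (val_eq_one_iff_of_comap (hV₀ i) u).mpr hu,
    one_mul]

end Twist

/-! ## Part E: constants — the tower `L ⊂ E = L(x) ⊂ F` for general balls -/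

section MultiTower

variable {L E F : Type*} [Field L] [Field E] [Field F] [Algebra L E] [Algebra E F] [Algebra L F]
  [IsScalarTower L E F]
variable {A : ValuationSubring L} {V₀ : ValuationSubring E} {B B₀ : Set F}
variable {κ : Type*} [Fintype κ] {e : κ → F} {x : E}

/-- Closed ball, constants: the double family `x ^ n • e k` is orthonormal over `(L, A)`. -/
theorem IsCartFor.tower_mem_iff (he : IsCartFor V₀ B B₀ e)
    (hA : V₀.comap (algebraMap L E) = A) (hx : GaussElt A V₀ x) (c : (ℕ × κ) →₀ L) :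
    Finsupp.linearCombination L (towerFamily x e) c ∈ B ↔ ∀ p, c p ∈ A := by
  rw [linearCombination_towerFamily, he.closed_iff]
  constructor
  · intro h p
    have := (hx.aeval_mem_iff hA _).mp (h p.2) p.1
    rwa [coeff_towerPoly] at this
  · intro h k
    exact (hx.aeval_mem_iff hA _).mpr fun n => by rw [coeff_towerPoly]; exact h (n, k)

/-- Open ball, constants. -/
theorem IsCartFor.tower_mem_open_iff (he : IsCartFor V₀ B B₀ e)
    (hA : V₀.comap (algebraMap L E) = A) (hx : GaussElt A V₀ x) (c : (ℕ × κ) →₀ L) :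
    Finsupp.linearCombination L (towerFamily x e) c ∈ B₀ ↔ ∀ p, A.valuation (c p) < 1 := by
  rw [linearCombination_towerFamily, he.open_iff]
  constructor
  · intro h p
    have := (hx.aeval_mem_nonunits_iff hA _).mp (h p.2) p.1
    rw [coeff_towerPoly] at this
    exact (ValuationSubring.mem_nonunits_iff _).mp this
  · intro h k
    exact (hx.aeval_mem_nonunits_iff hA _).mpr fun n => by
      rw [coeff_towerPoly]
      exact (ValuationSubring.mem_nonunits_iff _).mpr (h (n, k))

theorem IsCartFor.tower_linearIndependent (he : IsCartFor V₀ B B₀ e)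
    (hA : V₀.comap (algebraMap L E) = A) (hx : GaussElt A V₀ x) :
    LinearIndependent L (towerFamily x e) :=
  linearIndependent_of_open_iff A _ _ (he.tower_mem_open_iff hA hx)

/-- **Consumer form for general balls.**  Tower `L ⊂ E = L(x) ⊂ F`, `x` a Gauss element for
`(L, A)`, `e` a cartesian `E`-basis of `F` for balls `B`, `B₀` which are stable under the units
of `V₀`.  For every finite-dimensional `L`-subspace `W` of `F` there is an `L`-linearly
independent family `ê` whose span contains `W` and which is orthonormal over `(L, A)` for `B` and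
`B₀`: exactly the input of `Fermat.Agent.S18.helper9056.exists_orthonormal_basis_closed_open`. -/
theorem IsCartFor.exists_tower_family (he : IsCartFor V₀ B B₀ e)
    (hspan : Submodule.span E (Set.range e) = ⊤)
    (hB : ∀ u : E, V₀.valuation u = 1 → ∀ z : F, u • z ∈ B ↔ z ∈ B)
    (hB₀ : ∀ u : E, V₀.valuation u = 1 → ∀ z : F, u • z ∈ B₀ ↔ z ∈ B₀)
    (hA : V₀.comap (algebraMap L E) = A) (hx : GaussElt A V₀ x)
    (hgen : ∀ a : E, ∃ p q : L[X], aeval x q ≠ 0 ∧ a * aeval x q = aeval x p)
    (W : Submodule L F) [FiniteDimensional L W] :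
    ∃ ê : ℕ × κ → F, LinearIndependent L ê ∧ W ≤ Submodule.span L (Set.range ê) ∧
      (∀ c : (ℕ × κ) →₀ L, Finsupp.linearCombination L ê c ∈ B ↔ ∀ p, c p ∈ A) ∧
      (∀ c : (ℕ × κ) →₀ L, Finsupp.linearCombination L ê c ∈ B₀ ↔
        ∀ p, A.valuation (c p) < 1) := by
  obtain ⟨q, hq, hqW⟩ := exists_denominator_submodule (L := L) hgen hspan W
  have hq0 : q ≠ 0 := by rintro rfl; exact hq (map_zero _)
  obtain ⟨d, hd0, hd⟩ := hx.exists_unit_scale hA hq0
  set u : E := aeval x (C d⁻¹ * q) with hu
  have hu0 : u ≠ 0 := by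
    intro h0
    rw [h0, map_zero] at hd
    exact zero_ne_one hd
  have huinv : V₀.valuation u⁻¹ = 1 := by rw [map_inv₀, hd, inv_one]
  have hlc : ∀ c : (ℕ × κ) →₀ L,
      Finsupp.linearCombination L (fun p => u⁻¹ • towerFamily x e p) c =
        u⁻¹ • Finsupp.linearCombination L (towerFamily x e) c := by
    intro c
    rw [Finsupp.linearCombination_apply, Finsupp.linearCombination_apply, Finsupp.sum,
      Finsupp.sum, Finset.smul_sum]
    exact Finset.sum_congr rfl fun p _ => smul_comm _ _ _
  have horth : ∀ c : (ℕ × κ) →₀ L,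
      Finsupp.linearCombination L (fun p => u⁻¹ • towerFamily x e p) c ∈ B ↔
        ∀ p, c p ∈ A := by
    intro c
    rw [hlc, hB _ huinv]
    exact he.tower_mem_iff hA hx c
  have horth₀ : ∀ c : (ℕ × κ) →₀ L,
      Finsupp.linearCombination L (fun p => u⁻¹ • towerFamily x e p) c ∈ B₀ ↔
        ∀ p, A.valuation (c p) < 1 := by
    intro c
    rw [hlc, hB₀ _ huinv]
    exact he.tower_mem_open_iff hA hx c
  refine ⟨fun p => u⁻¹ • towerFamily x e p, linearIndependent_of_open_iff A _ _ horth₀, ?_,
    horth, horth₀⟩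
  intro z hz
  have h1 : u • z ∈ Submodule.span L (Set.range (towerFamily x e)) := by
    have : u • z = d⁻¹ • (aeval x q • z) := by
      rw [hu, map_mul, Polynomial.aeval_C, mul_smul, algebraMap_smul]
    rw [this]
    exact Submodule.smul_mem _ _ (hqW z hz)
  have h2 : ∀ y ∈ Submodule.span L (Set.range (towerFamily x e)),
      u⁻¹ • y ∈ Submodule.span L (Set.range fun p => u⁻¹ • towerFamily x e p) := by
    intro y hy
    induction hy using Submodule.span_induction with
    | mem y hy =>
      obtain ⟨p, rfl⟩ := hy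
      exact Submodule.subset_span ⟨p, rfl⟩
    | zero => rw [smul_zero]; exact Submodule.zero_mem _
    | add a b _ _ ha hb => rw [smul_add]; exact Submodule.add_mem _ ha hb
    | smul l a _ ha =>
      rw [smul_comm]
      exact Submodule.smul_mem _ _ ha
  have h3 := h2 _ h1
  rwa [smul_smul, inv_mul_cancel₀ hu0, one_smul] at h3

end MultiTower

/-! ## Part F: the packaged theorems -/

section MultiMain

variable {E F : Type*} [Field E] [Field F] [Algebra E F] [FiniteDimensional E F]
variable {V₀ : ValuationSubring E} {ι : Type*} [Finite ι] {V : ι → ValuationSubring F}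

omit [Finite ι] in
/-- Pairwise distinct valuation rings of an algebraic extension over the same valuation ring are
pairwise incomparable. -/
theorem not_le_of_injective (hV₀ : ∀ i, (V i).comap (algebraMap E F) = V₀)
    (hinj : Function.Injective V) (i j : ι) (hij : i ≠ j) : ¬ V i ≤ V j :=
  not_le_of_comap_eq (hV₀ i) (hV₀ j) fun h => hij (hinj h)

/-- **Cartesian basis for `n` valuation rings, grouped form (M2).**  Pairwise distinct valuation
rings `V i` of `F` over `V₀`, grouped by `g : ι → σ`; for each group a jointly residually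
independent family `β s`; if the total number of elements is `[F : E]`, then `F` has an
`E`-basis `𝔟` indexed by `Σ s, κ s` which is cartesian for `(⋂ V i, ⋂ m_i)`: its `s`-th part
lifts `β s` at the group `s` and is small at all the other valuation rings. -/
theorem exists_cartesian_basis_groups {σ : Type*} [Fintype σ]
    (hV₀ : ∀ i, (V i).comap (algebraMap E F) = V₀) (hinj : Function.Injective V)
    (g : ι → σ) {κ : σ → Type*} [∀ s, Fintype (κ s)] {β : ∀ s, κ s → F}
    (hβ : ∀ s, JResIndep V₀ V {i | g i = s} (β s))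
    (hcard : ∑ s, Fintype.card (κ s) = Module.finrank E F) :
    ∃ 𝔟 : Module.Basis (Σ s, κ s) E F, IsCartFor V₀ (mBall V) (mOpenBall V) 𝔟 ∧
      (∀ s k i, g i = s → 𝔟 ⟨s, k⟩ - β s k ∈ (V i).nonunits) ∧
      (∀ s k i, g i ≠ s → 𝔟 ⟨s, k⟩ ∈ (V i).nonunits) := by
  obtain ⟨b, he, p1, p2⟩ := exists_isCartFor hV₀ (not_le_of_injective hV₀ hinj) g hβ
  have hsp := he.span_eq_top (by rw [Fintype.card_sigma, hcard])
  refine ⟨Module.Basis.mk he.linearIndependent hsp.ge, ?_, ?_, ?_⟩
  · rw [Module.Basis.coe_mk]; exact he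
  · intro s k i hi; rw [Module.Basis.coe_mk]; exact p1 s k i hi
  · intro s k i hi; rw [Module.Basis.coe_mk]; exact p2 s k i hi

/-- **Cartesian basis for `n` valuation rings (M2)**: one residually independent family per
valuation ring, `∑ i, #(κ i) = [F : E]`. -/
theorem exists_cartesian_basis_family [Fintype ι]
    (hV₀ : ∀ i, (V i).comap (algebraMap E F) = V₀) (hinj : Function.Injective V)
    {κ : ι → Type*} [∀ i, Fintype (κ i)] {β : ∀ i, κ i → F}
    (hβ : ∀ i, ResIndep V₀ (V i) (β i))
    (hcard : ∑ i, Fintype.card (κ i) = Module.finrank E F) :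
    ∃ 𝔟 : Module.Basis (Σ i, κ i) E F, IsCartFor V₀ (mBall V) (mOpenBall V) 𝔟 ∧
      (∀ i k, 𝔟 ⟨i, k⟩ - β i k ∈ (V i).nonunits) ∧
      (∀ i k j, j ≠ i → 𝔟 ⟨i, k⟩ ∈ (V j).nonunits) := by
  obtain ⟨𝔟, he, p1, p2⟩ := exists_cartesian_basis_groups hV₀ hinj id
    (fun s => by
      have : {i : ι | id i = s} = {s} := by ext i; simp
      rw [this]
      exact (jResIndep_singleton_iff s).mpr (hβ s)) hcard
  exact ⟨𝔟, he, fun i k => p1 i k i rfl, fun i k j hj => p2 i k j hj⟩

/-- **`n`-valuation package (M3).**  Under the hypotheses of `exists_cartesian_basis_groups`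
the `V i` are ALL the valuation rings of `F` over `V₀`, and `⋂ V i` is contained in each of
them (it is the integral closure of `V₀`). -/
theorem multiVal_package {σ : Type*} [Fintype σ]
    (hV₀ : ∀ i, (V i).comap (algebraMap E F) = V₀) (hinj : Function.Injective V)
    (g : ι → σ) {κ : σ → Type*} [∀ s, Fintype (κ s)] {β : ∀ s, κ s → F}
    (hβ : ∀ s, JResIndep V₀ V {i | g i = s} (β s))
    (hcard : ∑ s, Fintype.card (κ s) = Module.finrank E F) :
    ∀ W : ValuationSubring F, W.comap (algebraMap E F) = V₀ → ∃ i, W = V i := by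
  obtain ⟨𝔟, he, -⟩ := exists_cartesian_basis_groups hV₀ hinj g hβ hcard
  exact fun W hW => he.exists_eq_of_comap 𝔟 hV₀ (not_le_of_injective hV₀ hinj) hW

end MultiMain

end Fermat.Agent.S35.helper1024
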