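/-
S35/S36/S33 geometry module, brick MULTIVAL (helper1024), consumer forms:
cartesian bases of finite-dimensional subspaces of constants for the (twisted) max-norm of a
finite family of valuation rings, in the shapes consumed by

* `Fermat.Agent.S18.helper9056.exists_orthonormal_basis_closed_open` (closed/open ball form), and
* `Fermat.Agent.S35.helper2459.CartesianW` (the hypothesis `hcart` of the multi-valuation Kummer
  core `helper2459.kummer_core_special_fibreW` / `helper1788.isPrincipal_of_countW`).

Main statements: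

* `IsCartFor.exists_basis_submodule` : general balls stable under the units of `V₀`;
* `exists_cartesian_basis_submodule_multi` : twisted balls of a family of valuation rings;
* `cartesianW_of_isCartFor` : from a cartesian `E`-basis to `helper2459.CartesianW`;
* `cartesianW_of_multiVal_groups`, `cartesianW_of_multiVal` : all-in-one forms, from (jointly)
  residually independent families with `∑ #κ = [F : E]` over an archimedean base.
-/
import Mathlib
import Fermat.Agent.S18.helper9056_Cartesian
import Fermat.Agent.S35.helper2459_KummerMultiSF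
import Fermat.Agent.S35.helper1024_MultiVal

set_option autoImplicit false

namespace Fermat.Agent.S35.helper1024

open Polynomial

section Consumer

variable {L E F : Type*} [Field L] [Field E] [Field F] [Algebra L E] [Algebra E F] [Algebra L F]
  [IsScalarTower L E F]
variable {A : ValuationSubring L} {V₀ : ValuationSubring E}

/-- **Cartesian bases of subspaces of "sections", general balls.**  Tower `L ⊂ E = L(x) ⊂ F`,
`x` a Gauss element for `(L, A)`, `e` a cartesian `E`-basis of `F` for balls `B`, `B₀` stable
under the units of `V₀`.  Then every finite-dimensional `L`-subspace `W` of `F` has an `L`-basis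
`b` such that a combination `∑ c i • b i` lies in `B` (in `B₀`) iff all `c i` lie in `A` (in the
maximal ideal of `A`). -/
theorem IsCartFor.exists_basis_submodule {B B₀ : Set F} {κ : Type*} [Fintype κ] {e : κ → F}
    {x : E} (he : IsCartFor V₀ B B₀ e) (hspan : Submodule.span E (Set.range e) = ⊤)
    (hB : ∀ u : E, V₀.valuation u = 1 → ∀ z : F, u • z ∈ B ↔ z ∈ B)
    (hB₀ : ∀ u : E, V₀.valuation u = 1 → ∀ z : F, u • z ∈ B₀ ↔ z ∈ B₀)
    (hA : V₀.comap (algebraMap L E) = A) (hx : GaussElt A V₀ x)
    (hgen : ∀ a : E, ∃ p q : L[X], aeval x q ≠ 0 ∧ a * aeval x q = aeval x p)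
    (W : Submodule L F) [FiniteDimensional L W] :
    ∃ b : Fin (Module.finrank L W) → F,
      LinearIndependent L b ∧ Submodule.span L (Set.range b) = W ∧
      (∀ c : Fin (Module.finrank L W) → L, (∑ i, c i • b i ∈ B ↔ ∀ i, c i ∈ A)) ∧
      (∀ c : Fin (Module.finrank L W) → L,
        (∑ i, c i • b i ∈ B₀ ↔ ∀ i, A.valuation (c i) < 1)) := by
  obtain ⟨ê, hli, hW, horth, horth₀⟩ := he.exists_tower_family hspan hB hB₀ hA hx hgen W
  exact Fermat.Agent.S18.helper9056.exists_orthonormal_basis_closed_open A _ _ ê hli horth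
    horth₀ W hW

/-- Multiplying a spanning family by a nonzero element gives a spanning family. -/
theorem span_mul_left_eq_top {κ : Type*} {e : κ → F}
    (hspan : Submodule.span E (Set.range e) = ⊤) {g : F} (hg0 : g ≠ 0) :
    Submodule.span E (Set.range fun k => g * e k) = ⊤ := by
  have h1 : Submodule.span E (Set.range fun k => g * e k) =
      (Submodule.span E (Set.range e)).map (LinearMap.mulLeft E g) := by
    rw [Submodule.map_span, ← Set.range_comp]
    rfl
  rw [h1, hspan, Submodule.map_top, LinearMap.range_eq_top]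
  intro z
  exact ⟨z / g, by rw [LinearMap.mulLeft_apply, mul_div_cancel₀ z hg0]⟩

/-- **Cartesian bases of subspaces of "sections", twisted multi-valuation norm.**
`e` a cartesian `E`-basis of `F` for `(⋂ V i, ⋂ m_i)`, `g` a simultaneous twist for the `f i`.
Every finite-dimensional `L`-subspace `W` of `F` has an `L`-basis `b` such that
`∑ c i • b i` lies in the twisted closed (open) ball `{a | ∀ i, |a|_i ≤ |f i|_i}`
(`<`) iff all `c i` lie in `A` (in the maximal ideal of `A`). -/
theorem exists_cartesian_basis_submodule_multi {ι : Type*} {V : ι → ValuationSubring F}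
    {κ : Type*} [Fintype κ] {e : κ → F} {x : E}
    (he : IsCartFor V₀ (mBall V) (mOpenBall V) e) (hspan : Submodule.span E (Set.range e) = ⊤)
    (hV₀ : ∀ i, (V i).comap (algebraMap E F) = V₀)
    (hA : V₀.comap (algebraMap L E) = A) (hx : GaussElt A V₀ x)
    (hgen : ∀ a : E, ∃ p q : L[X], aeval x q ≠ 0 ∧ a * aeval x q = aeval x p)
    {f : ι → F} {g : F} (hg0 : g ≠ 0) (hg : ∀ i, (V i).valuation (g / f i) = 1)
    (W : Submodule L F) [FiniteDimensional L W] :
    ∃ b : Fin (Module.finrank L W) → F,
      LinearIndependent L b ∧ Submodule.span L (Set.range b) = W ∧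
      (∀ c : Fin (Module.finrank L W) → L, (∑ i, c i • b i ∈ mBallTw V f ↔ ∀ i, c i ∈ A)) ∧
      (∀ c : Fin (Module.finrank L W) → L,
        (∑ i, c i • b i ∈ mOpenBallTw V f ↔ ∀ i, A.valuation (c i) < 1)) :=
  (he.twist hg).exists_basis_submodule (span_mul_left_eq_top hspan hg0)
    (fun _ hu z => smul_mem_mBallTw_iff hV₀ hu z)
    (fun _ hu z => smul_mem_mOpenBallTw_iff hV₀ hu z) hA hx hgen W

end Consumer

section KummerSupply

variable {L E F : Type*} [Field L] [Field E] [Field F] [Algebra L E] [Algebra E F] [Algebra L F]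
  [IsScalarTower L E F]
variable {Γ₀ : Type*} [LinearOrderedCommGroupWithZero Γ₀]

/-- A valuation with unit ball `V` is `< 1` exactly on the maximal ideal of `V`. -/
theorem lt_one_iff_mem_nonunits {K : Type*} [Field K] {v : Valuation K Γ₀}
    {V : ValuationSubring K} (hv : ∀ a, v a ≤ 1 ↔ a ∈ V) (a : K) :
    v a < 1 ↔ a ∈ V.nonunits := by
  have hV : v.valuationSubring = V := by
    ext a
    rw [Valuation.mem_valuationSubring_iff]
    exact hv a
  subst hV
  rw [ValuationSubring.mem_nonunits_iff]
  exact (Valuation.isEquiv_valuation_valuationSubring v).lt_one_iff_lt_one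

variable {A : ValuationSubring L} {V₀ : ValuationSubring E} {ι : Type*}
  {V : ι → ValuationSubring F}

/-- **From a cartesian `E`-basis to `helper2459.CartesianW`.**  `v i` valuations of `F` with a
common value group and unit balls `V i`, restricting to `vL` on the constants; `e` a cartesian
`E`-basis of `F` for `(⋂ V i, ⋂ m_i)`, `x` a Gauss element with `E = L(x)`, `g` a simultaneous
twist for the `f i`.  Then every finite-dimensional `L`-subspace of `F` is `CartesianW` for the
weights `v i (f i)`. -/
theorem cartesianW_of_isCartFor (vL : Valuation L Γ₀) (v : ι → Valuation F Γ₀)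
    (hv : ∀ i a, v i a ≤ 1 ↔ a ∈ V i)
    (hL : ∀ (i : ι) (c : L), v i (algebraMap L F c) = vL c)
    {κ : Type*} [Fintype κ] {e : κ → F} {x : E}
    (he : IsCartFor V₀ (mBall V) (mOpenBall V) e) (hspan : Submodule.span E (Set.range e) = ⊤)
    (hV₀ : ∀ i, (V i).comap (algebraMap E F) = V₀)
    (hA : V₀.comap (algebraMap L E) = A) (hx : GaussElt A V₀ x)
    (hgen : ∀ a : E, ∃ p q : L[X], aeval x q ≠ 0 ∧ a * aeval x q = aeval x p)
    {f : ι → F} (hf : ∀ i, f i ≠ 0) {g : F} (hg0 : g ≠ 0)
    (hg : ∀ i, (V i).valuation (g / f i) = 1)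
    (W : Submodule L F) [FiniteDimensional L W] :
    helper2459.CartesianW v (fun i => v i (f i)) vL W := by
  classical
  obtain ⟨b, -, hsp, hcl, hop⟩ :=
    exists_cartesian_basis_submodule_multi he hspan hV₀ hA hx hgen hg0 hg W
  have hfpos : ∀ i, 0 < v i (f i) := fun i =>
    zero_lt_iff.mpr ((Valuation.ne_zero_iff _).mpr (hf i))
  have hsmul : ∀ (i : ι) (c : L) (z : F), v i (c • z) = vL c * v i z := by
    intro i c z
    rw [Algebra.smul_def, map_mul, hL]
  refine ⟨Module.finrank L W, b, fun j => ?_, fun j i => ?_, fun c r hr j => ?_, hsp⟩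
  · rw [← hsp]
    exact Submodule.subset_span ⟨j, rfl⟩
  · have h1 := (hcl (Pi.single j 1)).mpr (fun j' => by
      by_cases hj : j' = j
      · subst hj
        rw [Pi.single_eq_same]
        exact A.one_mem
      · rw [Pi.single_eq_of_ne hj]
        exact A.zero_mem) i
    rw [Finset.sum_eq_single j, Pi.single_eq_same, one_smul] at h1
    · have h2 := (hv i _).mpr h1
      rwa [map_div₀, div_le_one₀ (hfpos i)] at h2
    · intro j' _ hj
      rw [Pi.single_eq_of_ne hj, zero_smul]
    · intro hj
      exact absurd (Finset.mem_univ _) hj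
  · by_contra hcon
    rw [not_le] at hcon
    obtain ⟨j₀, -, hj₀⟩ := Finset.exists_max_image Finset.univ (fun j => vL (c j))
      ⟨j, Finset.mem_univ j⟩
    have hlt : r < vL (c j₀) := hcon.trans_le (hj₀ j (Finset.mem_univ j))
    have hpos : 0 < vL (c j₀) := lt_of_le_of_lt zero_le hlt
    have hc0 : c j₀ ≠ 0 := by
      intro h0
      rw [h0, map_zero] at hpos
      exact lt_irrefl _ hpos
    have hsum : ∑ j, ((c j₀)⁻¹ * c j) • b j = (c j₀)⁻¹ • ∑ j, c j • b j := by
      rw [Finset.smul_sum]
      exact Finset.sum_congr rfl fun j _ => mul_smul _ _ _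
    have hmem : ∑ j, ((c j₀)⁻¹ * c j) • b j ∈ mOpenBallTw V f := by
      intro i
      rw [← lt_one_iff_mem_nonunits (hv i), hsum, map_div₀, hsmul, map_inv₀,
        div_lt_one₀ (hfpos i)]
      calc (vL (c j₀))⁻¹ * v i (∑ j, c j • b j) ≤ (vL (c j₀))⁻¹ * (r * v i (f i)) :=
            mul_le_mul' le_rfl (hr i)
        _ = (vL (c j₀))⁻¹ * r * v i (f i) := (mul_assoc _ _ _).symm
        _ < 1 * v i (f i) := by
            refine mul_lt_mul_of_pos_right ?_ (hfpos i)
            rw [inv_mul_lt_iff₀ hpos, mul_one]
            exact hlt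
        _ = v i (f i) := one_mul _
    have h1 := (hop _).mp hmem j₀
    rw [inv_mul_cancel₀ hc0, map_one] at h1
    exact lt_irrefl _ h1

variable [FiniteDimensional E F] [Finite ι]

/-- **Multi-valuation supply for the Kummer core, grouped form.**  Valuations `v i` of `F`
(finitely many, common value group, pairwise distinct unit balls `V i`), all restricting to the
Gauss valuation ring `V₀` of `E = L(x)` over the archimedean valuation ring `A` of the constant
field `L`; the `V i` are grouped by `g`, each group carries a jointly residually independent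
family, and the total number of elements is `[F : E]`.  Then every finite-dimensional
`L`-subspace `W` of `F` is `helper2459.CartesianW` for ANY weights `v i (f i)`, `f i ≠ 0`. -/
theorem cartesianW_of_multiVal_groups (vL : Valuation L Γ₀) (v : ι → Valuation F Γ₀)
    (hv : ∀ i a, v i a ≤ 1 ↔ a ∈ V i)
    (hL : ∀ (i : ι) (c : L), v i (algebraMap L F c) = vL c)
    (hV₀ : ∀ i, (V i).comap (algebraMap E F) = V₀) (hinj : Function.Injective V)
    (hA : V₀.comap (algebraMap L E) = A) {x : E} (hx : GaussElt A V₀ x)
    (hgen : ∀ a : E, ∃ p q : L[X], aeval x q ≠ 0 ∧ a * aeval x q = aeval x p)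
    (harch : IsArch A)
    {σ : Type*} [Fintype σ] (gr : ι → σ) {κ : σ → Type*} [∀ s, Fintype (κ s)]
    {β : ∀ s, κ s → F} (hβ : ∀ s, JResIndep V₀ V {i | gr i = s} (β s))
    (hcard : ∑ s, Fintype.card (κ s) = Module.finrank E F)
    (f : ι → F) (hf : ∀ i, f i ≠ 0) (W : Submodule L F) [FiniteDimensional L W] :
    helper2459.CartesianW v (fun i => v i (f i)) vL W := by
  obtain ⟨𝔟, he, -⟩ := exists_cartesian_basis_groups hV₀ hinj gr hβ hcard
  have harch₀ : IsArch V₀ := hx.isArch hA hgen harch
  obtain ⟨g, hg0, hg⟩ := exists_twist (not_le_of_injective hV₀ hinj)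
    (fun i => isArch_of_comap (hV₀ i) harch₀) f hf
  exact cartesianW_of_isCartFor vL v hv hL he 𝔟.span_eq hV₀ hA hx hgen hf hg0 hg W

/-- **Multi-valuation supply for the Kummer core**: one residually independent family per
valuation, `∑ i, #(κ i) = [F : E]` (the generalisation of `helper882.cartesianW_of_twoVal` from
two valuations to a finite family). -/
theorem cartesianW_of_multiVal [Fintype ι] (vL : Valuation L Γ₀) (v : ι → Valuation F Γ₀)
    (hv : ∀ i a, v i a ≤ 1 ↔ a ∈ V i)
    (hL : ∀ (i : ι) (c : L), v i (algebraMap L F c) = vL c)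
    (hV₀ : ∀ i, (V i).comap (algebraMap E F) = V₀) (hinj : Function.Injective V)
    (hA : V₀.comap (algebraMap L E) = A) {x : E} (hx : GaussElt A V₀ x)
    (hgen : ∀ a : E, ∃ p q : L[X], aeval x q ≠ 0 ∧ a * aeval x q = aeval x p)
    (harch : IsArch A)
    {κ : ι → Type*} [∀ i, Fintype (κ i)] {β : ∀ i, κ i → F}
    (hβ : ∀ i, ResIndep V₀ (V i) (β i))
    (hcard : ∑ i, Fintype.card (κ i) = Module.finrank E F)
    (f : ι → F) (hf : ∀ i, f i ≠ 0) (W : Submodule L F) [FiniteDimensional L W] :
    helper2459.CartesianW v (fun i => v i (f i)) vL W :=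
  cartesianW_of_multiVal_groups vL v hv hL hV₀ hinj hA hx hgen harch id
    (fun s => by
      have : {i : ι | id i = s} = {s} := by ext i; simp
      rw [this]
      exact (jResIndep_singleton_iff s).mpr (hβ s)) hcard f hf W

end KummerSupply

end Fermat.Agent.S35.helper1024
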