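/-
S35/S34 geometry module, brick TWOVAL (helper1024), consumer form (T5):
cartesian bases of finite-dimensional subspaces of constants for the twisted two-valuation balls.

Combines `helper1024_TwoVal` (two valuation rings over a Gauss valuation ring) with the pivot
lemma `Fermat.Agent.S18.helper9056.exists_orthonormal_basis_closed_open`.
-/
import Mathlib
import Fermat.Agent.S18.helper9056_Cartesian
import Fermat.Agent.S35.helper1024_TwoVal

set_option autoImplicit false

namespace Fermat.Agent.S35.helper1024

open Polynomial

section

variable {L E F : Type*} [Field L] [Field E] [Field F] [Algebra L E] [Algebra E F] [Algebra L F]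
  [IsScalarTower L E F]
variable {A : ValuationSubring L} {V₀ : ValuationSubring E} {V₁ V₂ : ValuationSubring F}

/-- **(T5) Cartesian bases of subspaces of "sections", twisted two-valuation norm.**
Tower `L ⊂ E = L(x) ⊂ F`; `A` a valuation ring of the constant field `L`, `V₀` a valuation ring
of `E` over `A` for which `x` is a Gauss element; `e` a cartesian `E`-basis of `F` for the twisted
balls of `V₁, V₂` (from `exists_cartesian_basis`).  Then every finite-dimensional `L`-subspace `W`
of `F` has an `L`-basis `b` such that a combination `∑ c i • b i` lies in the twisted closed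
(open) ball iff all `c i` lie in `A` (in the maximal ideal of `A`).  Hence `W ∩ ball` is a free
`A`-module of rank `dim W` whose reduction has dimension `dim W`. -/
theorem exists_cartesian_basis_submodule {ι : Type*} [Fintype ι] {f : F} {e : ι → F} {x : E}
    (he : IsCartesian V₀ V₁ V₂ f e) (hspan : Submodule.span E (Set.range e) = ⊤)
    (h₁ : V₁.comap (algebraMap E F) = V₀) (h₂ : V₂.comap (algebraMap E F) = V₀)
    (hA : V₀.comap (algebraMap L E) = A) (hx : GaussElt A V₀ x)
    (hgen : ∀ a : E, ∃ p q : L[X], aeval x q ≠ 0 ∧ a * aeval x q = aeval x p)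
    (W : Submodule L F) [FiniteDimensional L W] :
    ∃ b : Fin (Module.finrank L W) → F,
      LinearIndependent L b ∧ Submodule.span L (Set.range b) = W ∧
      (∀ c : Fin (Module.finrank L W) → L,
        (∑ i, c i • b i ∈ twBall V₁ V₂ f ↔ ∀ i, c i ∈ A)) ∧
      (∀ c : Fin (Module.finrank L W) → L,
        (∑ i, c i • b i ∈ twOpenBall V₁ V₂ f ↔ ∀ i, A.valuation (c i) < 1)) := by
  obtain ⟨ê, hli, hW, horth, horth₀⟩ := exists_tower_family he hspan h₁ h₂ hA hx hgen W
  exact Fermat.Agent.S18.helper9056.exists_orthonormal_basis_closed_open A _ _ ê hli horth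
    horth₀ W hW

end

end Fermat.Agent.S35.helper1024
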