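import Fermat.Agent.S35.helper1219_AtkinLehnerFF

/-!
# Atkin–Lehner involutions `W_Q` for Hall divisors, level-general, and the degeneracy maps

For a level `N` and a Hall divisor `Q ∥ N` (`Q ∣ N`, `gcd (Q, N / Q) = 1`) this file gives
the Atkin–Lehner involution as a `ℚ̄`-algebra automorphism of the function field `FN N`
**without any product decomposition of the level in the type** (so no level casts for the
consumer):

* `atkinLehnerHall N Q hQ hcop : FN N ≃ₐ[Kbar] FN N`;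
* `atkinLehnerHall_jBarD` : `W_Q (j(t^d)) = j(t^(hallIdx Q d))` for every `d ∣ N`, where
  `hallIdx Q d = (Q / gcd Q d) * (d / gcd Q d)`;
* involution, uniqueness on generators, commutation with the arithmetic Galois action;
* bridges to `atkinLehnerBar`, `atkinLehnerBarR`, `atkinLehnerAt`;
* **compatibility with the Prelude degeneracy maps** `α = heckeAlphaBar Kbar N q`,
  `β = heckeBetaBar Kbar N q : FN N → FN (N * q)`:
  - `q` prime to `Q` :        `W_Q^(Nq) ∘ α = α ∘ W_Q^(N)`,   `W_Q^(Nq) ∘ β = β ∘ W_Q^(N)`;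
  - `q` prime to `N / Q` :    `W_(Qq)^(Nq) ∘ α = β ∘ W_Q^(N)`, `W_(Qq)^(Nq) ∘ β = α ∘ W_Q^(N)`
  (e.g. `W_(q^2)` at level `q^2 M'` against `W_q` at level `q M'`).
-/

set_option autoImplicit false

open ModularCurve AlgebraicCurve

namespace Fermat.Agent.S35.helper1219

open Fermat.Agent.S24.helper24 Fermat.Agent.S24.helper504 Fermat.Agent.S24

noncomputable section

/-! ## The index map -/

/-- The index map of `W_Q`: `W_Q (j(t^d)) = j(t^(hallIdx Q d))`. -/
def hallIdx (Q d : ℕ) : ℕ := Q / Nat.gcd Q d * (d / Nat.gcd Q d)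

theorem hallIdx_def (Q d : ℕ) : hallIdx Q d = Q / Nat.gcd Q d * (d / Nat.gcd Q d) := rfl

theorem neZero_of_dvd_level {N Q : ℕ} [NeZero N] (hQ : Q ∣ N) : NeZero Q :=
  ⟨fun h => NeZero.ne N (by rw [h] at hQ; exact Nat.eq_zero_of_zero_dvd hQ)⟩

/-- For a Hall divisor `Q ∥ N` and `d ∣ N`, the prime-to-`Q` part `d / gcd Q d` divides
`N / Q`. -/
theorem div_gcd_dvd_div {N Q d : ℕ} (hN : N ≠ 0) (hQ : Q ∣ N) (hd : d ∣ N) :
    d / Nat.gcd Q d ∣ N / Q := by
  have hd0 : d ≠ 0 := fun h => hN (by rw [h] at hd; exact Nat.eq_zero_of_zero_dvd hd)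
  have hg0 : 0 < Nat.gcd Q d := Nat.gcd_pos_of_pos_right Q (Nat.pos_of_ne_zero hd0)
  have hcop : Nat.Coprime (d / Nat.gcd Q d) (Q / Nat.gcd Q d) :=
    (Nat.coprime_div_gcd_div_gcd hg0).symm
  have h1 : Nat.gcd Q d * (d / Nat.gcd Q d) ∣
      Nat.gcd Q d * (Q / Nat.gcd Q d * (N / Q)) := by
    rw [Nat.mul_div_cancel' (Nat.gcd_dvd_right Q d), ← mul_assoc,
      Nat.mul_div_cancel' (Nat.gcd_dvd_left Q d), Nat.mul_div_cancel' hQ]
    exact hd
  exact hcop.dvd_of_dvd_mul_left (Nat.dvd_of_mul_dvd_mul_left hg0 h1)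

theorem hallIdx_dvd {N Q d : ℕ} (hN : N ≠ 0) (hQ : Q ∣ N) (hd : d ∣ N) : hallIdx Q d ∣ N := by
  have h1 : Q / Nat.gcd Q d ∣ Q := Nat.div_dvd_of_dvd (Nat.gcd_dvd_left Q d)
  have h2 := Nat.mul_dvd_mul h1 (div_gcd_dvd_div hN hQ hd)
  rwa [Nat.mul_div_cancel' hQ] at h2

theorem hallIdx_ne_zero {Q d : ℕ} (hQ : Q ≠ 0) (hd : d ≠ 0) : hallIdx Q d ≠ 0 := by
  have h1 : Q / Nat.gcd Q d ≠ 0 := by
    intro h
    apply hQ
    rw [← Nat.mul_div_cancel' (Nat.gcd_dvd_left Q d), h, mul_zero]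
  have h2 : d / Nat.gcd Q d ≠ 0 := by
    intro h
    apply hd
    rw [← Nat.mul_div_cancel' (Nat.gcd_dvd_right Q d), h, mul_zero]
  exact Nat.mul_ne_zero h1 h2

theorem neZero_hallIdx (Q d : ℕ) [NeZero Q] [NeZero d] : NeZero (hallIdx Q d) :=
  ⟨hallIdx_ne_zero (NeZero.ne Q) (NeZero.ne d)⟩

@[simp] theorem hallIdx_one_left (d : ℕ) : hallIdx 1 d = d := by
  simp [hallIdx]

/-- `hallIdx Q` is an involution on the divisors of `N` (`Q ∥ N`). -/
theorem hallIdx_hallIdx {N Q d : ℕ} (hN : N ≠ 0) (hQ : Q ∣ N) (hcop : Nat.Coprime Q (N / Q))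
    (hd : d ∣ N) : hallIdx Q (hallIdx Q d) = d := by
  have hd0 : d ≠ 0 := fun h => hN (by rw [h] at hd; exact Nat.eq_zero_of_zero_dvd hd)
  have hQ0 : Q ≠ 0 := fun h => hN (by rw [h] at hQ; exact Nat.eq_zero_of_zero_dvd hQ)
  have hg0 : 0 < Nat.gcd Q d := Nat.gcd_pos_of_pos_right Q (Nat.pos_of_ne_zero hd0)
  have hf0 : Q / Nat.gcd Q d ≠ 0 := by
    intro h
    apply hQ0
    rw [← Nat.mul_div_cancel' (Nat.gcd_dvd_left Q d), h, mul_zero]
  have hm : Nat.Coprime (d / Nat.gcd Q d) Q :=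
    (hcop.coprime_dvd_right (div_gcd_dvd_div hN hQ hd)).symm
  have hgcd : Nat.gcd Q (hallIdx Q d) = Q / Nat.gcd Q d := by
    rw [hallIdx_def, Nat.Coprime.gcd_mul_right_cancel_right _ hm]
    exact Nat.gcd_eq_right (Nat.div_dvd_of_dvd (Nat.gcd_dvd_left Q d))
  rw [hallIdx_def, hgcd, hallIdx_def, Nat.mul_div_cancel_left _ (Nat.pos_of_ne_zero hf0),
    Nat.div_div_self (Nat.gcd_dvd_left Q d) hQ0, Nat.mul_div_cancel' (Nat.gcd_dvd_right Q d)]

/-- `hallIdx Q (d q) = hallIdx Q d * q` for `q` prime to `Q`. -/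
theorem hallIdx_mul_right_of_coprime {Q d q : ℕ} (hq : Nat.Coprime q Q) :
    hallIdx Q (d * q) = hallIdx Q d * q := by
  rw [hallIdx_def, hallIdx_def, Nat.Coprime.gcd_mul_right_cancel_right d hq, mul_assoc,
    Nat.div_mul_right_comm (Nat.gcd_dvd_right Q d)]

/-- For `Q ∥ N`, `d ∣ N` and `q` prime to `N / Q`: `gcd (Q q, d) = gcd (Q, d)`. -/
theorem gcd_mul_right_eq_of_hall {N Q d q : ℕ} (hN : N ≠ 0) (hQ : Q ∣ N)
    (hcop : Nat.Coprime Q (N / Q)) (hq : Nat.Coprime q (N / Q)) (hd : d ∣ N) :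
    Nat.gcd (Q * q) d = Nat.gcd Q d := by
  have hm : Nat.Coprime (d / Nat.gcd Q d) (Q * q) :=
    (Nat.Coprime.mul_left hcop hq).symm.coprime_dvd_left (div_gcd_dvd_div hN hQ hd)
  conv_lhs => rw [← Nat.mul_div_cancel' (Nat.gcd_dvd_right Q d)]
  rw [Nat.Coprime.gcd_mul_right_cancel_right _ hm]
  exact Nat.gcd_eq_right ((Nat.gcd_dvd_left Q d).trans (Dvd.intro q rfl))

/-- `hallIdx (Q q) d = hallIdx Q d * q` for `Q ∥ N`, `d ∣ N`, `q` prime to `N / Q`. -/
theorem hallIdx_mul_left_of_hall {N Q d q : ℕ} (hN : N ≠ 0) (hQ : Q ∣ N)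
    (hcop : Nat.Coprime Q (N / Q)) (hq : Nat.Coprime q (N / Q)) (hd : d ∣ N) :
    hallIdx (Q * q) d = hallIdx Q d * q := by
  rw [hallIdx_def, hallIdx_def, gcd_mul_right_eq_of_hall hN hQ hcop hq hd,
    ← Nat.div_mul_right_comm (Nat.gcd_dvd_left Q d), mul_right_comm]

/-- `Q q ∥ N q` when `Q ∥ N` and `q` is prime to `N / Q`. -/
theorem hall_mul_dvd {N Q : ℕ} (hQ : Q ∣ N) (q : ℕ) : Q * q ∣ N * q :=
  Nat.mul_dvd_mul_right hQ q

theorem hall_mul_coprime {N Q q : ℕ} (hq0 : q ≠ 0)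
    (hcop : Nat.Coprime Q (N / Q)) (hq : Nat.Coprime q (N / Q)) :
    Nat.Coprime (Q * q) (N * q / (Q * q)) := by
  rw [Nat.mul_div_mul_right _ _ (Nat.pos_of_ne_zero hq0)]
  exact Nat.Coprime.mul_left hcop hq

/-- `Q ∥ N q` when `Q ∥ N` and `q` is prime to `Q`. -/
theorem hall_coprime_mul {N Q q : ℕ} (hQ : Q ∣ N) (hcop : Nat.Coprime Q (N / Q))
    (hq : Nat.Coprime q Q) : Nat.Coprime Q (N * q / Q) := by
  rw [← Nat.div_mul_right_comm hQ]
  exact Nat.Coprime.mul_right hcop hq.symm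

/-! ## The generator formula at the product level -/

/-- `W_Q (j(t^d)) = j(t^(hallIdx Q d))` at the level `Q * M`. -/
theorem atkinLehnerBar_jBarD_hall (Q M : ℕ) [NeZero Q] [NeZero M] (h : Nat.Coprime Q M)
    (d : ℕ) [NeZero d] [NeZero (hallIdx Q d)] (hd : d ∣ Q * M) (hd' : hallIdx Q d ∣ Q * M) :
    atkinLehnerBar Q M h (jBarD (Q * M) d hd) = jBarD (Q * M) (hallIdx Q d) hd' := by
  have hN : Q * M ≠ 0 := Nat.mul_ne_zero (NeZero.ne Q) (NeZero.ne M)
  have h1 : d / Nat.gcd Q d ∣ M := by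
    have := div_gcd_dvd_div hN (Dvd.intro M rfl) hd
    rwa [Nat.mul_div_cancel_left _ (Nat.pos_of_ne_zero (NeZero.ne Q))] at this
  exact atkinLehnerBar_jBarD_of_eq Q M h hd hd' (e := Nat.gcd Q d) (f := Q / Nat.gcd Q d)
    (d := d / Nat.gcd Q d) (m := M / (d / Nat.gcd Q d))
    (Nat.mul_div_cancel' (Nat.gcd_dvd_left Q d)).symm (Nat.mul_div_cancel' h1).symm
    (Nat.mul_div_cancel' (Nat.gcd_dvd_right Q d)).symm rfl

/-! ## The level-general involution -/

section Hall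

variable (N Q : ℕ) [NeZero N] (hQ : Q ∣ N) (hcop : Nat.Coprime Q (N / Q))

/-- **The Atkin–Lehner involution `W_Q` of `FN N` for a Hall divisor `Q ∥ N`** (level-general:
no product decomposition of the level in the type). -/
def atkinLehnerHall : FN N ≃ₐ[Kbar] FN N :=
  ((castFN (Nat.mul_div_cancel' hQ).symm).trans
    (@atkinLehnerBar Q (N / Q) (neZero_of_dvd_level hQ) (neZero_div_of_dvd hQ) hcop)).trans
    (castFN (Nat.mul_div_cancel' hQ))

theorem atkinLehnerHall_apply (z : FN N) :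
    atkinLehnerHall N Q hQ hcop z
      = castFN (Nat.mul_div_cancel' hQ)
          (@atkinLehnerBar Q (N / Q) (neZero_of_dvd_level hQ) (neZero_div_of_dvd hQ) hcop
            (castFN (Nat.mul_div_cancel' hQ).symm z)) := rfl

theorem atkinLehnerHall_atkinLehnerHall (z : FN N) :
    atkinLehnerHall N Q hQ hcop (atkinLehnerHall N Q hQ hcop z) = z := by
  rw [atkinLehnerHall_apply, atkinLehnerHall_apply, castFN_castFN]
  have := @atkinLehnerBar_atkinLehnerBar Q (N / Q) (neZero_of_dvd_level hQ)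
    (neZero_div_of_dvd hQ) hcop
  rw [this, castFN_castFN]

theorem atkinLehnerHall_symm :
    (atkinLehnerHall N Q hQ hcop).symm = atkinLehnerHall N Q hQ hcop :=
  AlgEquiv.ext fun z => by
    rw [AlgEquiv.symm_apply_eq, atkinLehnerHall_atkinLehnerHall]

/-- **`W_Q (j(t^d)) = j(t^(hallIdx Q d))`** for every `d ∣ N`. -/
theorem atkinLehnerHall_jBarD (d : ℕ) [NeZero d] [NeZero (hallIdx Q d)] (hd : d ∣ N)
    (hd' : hallIdx Q d ∣ N) :
    atkinLehnerHall N Q hQ hcop (jBarD N d hd) = jBarD N (hallIdx Q d) hd' := by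
  have hNe : Q * (N / Q) = N := Nat.mul_div_cancel' hQ
  have e1 : d ∣ Q * (N / Q) := hNe.symm ▸ hd
  have e2 : hallIdx Q d ∣ Q * (N / Q) := hNe.symm ▸ hd'
  have := @atkinLehnerBar_jBarD_hall Q (N / Q) (neZero_of_dvd_level hQ) (neZero_div_of_dvd hQ)
    hcop d _ _ e1 e2
  rw [atkinLehnerHall_apply, castFN_jBarD hNe.symm d hd e1, this, castFN_jBarD]

/-- `W_Q (j) = j(t^Q)`. -/
theorem atkinLehnerHall_jBar [NeZero Q] :
    atkinLehnerHall N Q hQ hcop (jBar N) = jBarD N Q hQ := by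
  have h1 : hallIdx Q 1 = Q := by simp [hallIdx]
  have : NeZero (hallIdx Q 1) := ⟨by rw [h1]; exact NeZero.ne Q⟩
  have h2 : hallIdx Q 1 ∣ N := by rw [h1]; exact hQ
  have h3 := atkinLehnerHall_jBarD N Q hQ hcop 1 (one_dvd N) h2
  rw [jBarD_congr N h1 h2 hQ] at h3
  exact h3

/-- `W_Q (j(t^Q)) = j`. -/
theorem atkinLehnerHall_jBarD_self [NeZero Q] :
    atkinLehnerHall N Q hQ hcop (jBarD N Q hQ) = jBar N := by
  rw [← atkinLehnerHall_jBar N Q hQ hcop, atkinLehnerHall_atkinLehnerHall]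

/-- Uniqueness: a `ℚ̄`-algebra endomorphism with the generator formula of `W_Q` is `W_Q`. -/
theorem eq_atkinLehnerHall_of_jBarD (Φ : FN N →ₐ[Kbar] FN N)
    (hΦ : ∀ (d : ℕ) [NeZero d] [NeZero (hallIdx Q d)] (hd : d ∣ N) (hd' : hallIdx Q d ∣ N),
      Φ (jBarD N d hd) = jBarD N (hallIdx Q d) hd') (z : FN N) :
    Φ z = atkinLehnerHall N Q hQ hcop z := by
  refine algHom_eq_of_jBarD Φ ((atkinLehnerHall N Q hQ hcop : FN N ≃ₐ[Kbar] FN N) :
    FN N →ₐ[Kbar] FN N) ?_ z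
  intro d _ hd
  show Φ (jBarD N d hd) = atkinLehnerHall N Q hQ hcop (jBarD N d hd)
  have : NeZero Q := neZero_of_dvd_level hQ
  have : NeZero (hallIdx Q d) := neZero_hallIdx Q d
  have hd' : hallIdx Q d ∣ N := hallIdx_dvd (NeZero.ne N) hQ hd
  rw [hΦ d hd hd', atkinLehnerHall_jBarD N Q hQ hcop d hd hd']

/-- `W_Q` (level-general) is defined over `ℚ`. -/
theorem atkinLehnerHall_arithmeticRingAut (σ : Kbar ≃ₐ[ℚ] Kbar) (z : FN N) :
    atkinLehnerHall N Q hQ hcop (arithmeticRingAut (modularFunctionFieldFull N) σ z)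
      = arithmeticRingAut (modularFunctionFieldFull N) σ (atkinLehnerHall N Q hQ hcop z) := by
  have := @atkinLehnerBar_arithmeticRingAut Q (N / Q) (neZero_of_dvd_level hQ)
    (neZero_div_of_dvd hQ) hcop σ
  rw [atkinLehnerHall_apply, atkinLehnerHall_apply, castFN_arithmeticRingAut, this,
    castFN_arithmeticRingAut]

/-- `W_Q` (level-general) commutes with the arithmetic Galois action (`•` form). -/
theorem atkinLehnerHall_arithmeticGalois_smul (σ : Kbar ≃ₐ[ℚ] Kbar) (z : FN N) :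
    atkinLehnerHall N Q hQ hcop (arithmeticGalois (modularFunctionFieldFull N) σ • z)
      = arithmeticGalois (modularFunctionFieldFull N) σ • atkinLehnerHall N Q hQ hcop z :=
  atkinLehnerHall_arithmeticRingAut N Q hQ hcop σ z

/-- `W_Q` (level-general) intertwines the arithmetic Galois action with itself. -/
theorem atkinLehnerHall_intertwines (σ : Kbar ≃ₐ[ℚ] Kbar) :
    SemilinearAut.IntertwinesAlong
      ((atkinLehnerHall N Q hQ hcop : FN N ≃+* FN N) : FN N →+* FN N)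
      (arithmeticGalois (modularFunctionFieldFull N) σ)
      (arithmeticGalois (modularFunctionFieldFull N) σ) := fun z =>
  (atkinLehnerHall_arithmeticRingAut N Q hQ hcop σ z).symm

end Hall

/-! ## Bridges to the other forms -/

/-- At the product level `Q * M` the level-general `W_Q` is `atkinLehnerBar Q M`. -/
theorem atkinLehnerHall_eq_atkinLehnerBar (Q M : ℕ) [NeZero Q] [NeZero M] (h : Nat.Coprime Q M)
    (hQ : Q ∣ Q * M) (hcop : Nat.Coprime Q (Q * M / Q)) (z : FN (Q * M)) :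
    atkinLehnerHall (Q * M) Q hQ hcop z = atkinLehnerBar Q M h z := by
  refine (eq_atkinLehnerHall_of_jBarD (Q * M) Q hQ hcop
    ((atkinLehnerBar Q M h : FN (Q * M) ≃ₐ[Kbar] FN (Q * M)) : FN (Q * M) →ₐ[Kbar] FN (Q * M))
    ?_ z).symm
  intro d _ _ hd hd'
  exact atkinLehnerBar_jBarD_hall Q M h d hd hd'

/-- At the product level `M * Q` the level-general `W_Q` is `atkinLehnerBarR M Q`. -/
theorem atkinLehnerHall_eq_atkinLehnerBarR (M Q : ℕ) [NeZero M] [NeZero Q] (h : Nat.Coprime Q M)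
    (hQ : Q ∣ M * Q) (hcop : Nat.Coprime Q (M * Q / Q)) (z : FN (M * Q)) :
    atkinLehnerHall (M * Q) Q hQ hcop z = atkinLehnerBarR M Q h z := by
  refine (eq_atkinLehnerHall_of_jBarD (M * Q) Q hQ hcop
    ((atkinLehnerBarR M Q h : FN (M * Q) ≃ₐ[Kbar] FN (M * Q)) : FN (M * Q) →ₐ[Kbar] FN (M * Q))
    ?_ z).symm
  intro d _ _ hd hd'
  show atkinLehnerBarR M Q h (jBarD (M * Q) d hd) = jBarD (M * Q) (hallIdx Q d) hd'
  have e1 : d ∣ Q * M := (mul_comm M Q) ▸ hd
  have e2 : hallIdx Q d ∣ Q * M := (mul_comm M Q) ▸ hd'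
  rw [atkinLehnerBarR_apply, castFN_jBarD (mul_comm M Q) d hd e1,
    atkinLehnerBar_jBarD_hall Q M h d e1 e2, castFN_jBarD]

/-- For a prime `q ∥ M` the level-general `W_q` is `atkinLehnerAt M q`. -/
theorem atkinLehnerHall_eq_atkinLehnerAt (M q : ℕ) [NeZero M] [NeZero q] (hq : q.Prime)
    (hqM : q ∣ M) (hq2 : ¬ q ^ 2 ∣ M) (hcop : Nat.Coprime q (M / q)) (z : FN M) :
    atkinLehnerHall M q hqM hcop z = atkinLehnerAt M q hq hqM hq2 z := rfl

/-- `W_1` is the identity. -/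
theorem atkinLehnerHall_one (N : ℕ) [NeZero N] (hQ : 1 ∣ N) (hcop : Nat.Coprime 1 (N / 1))
    (z : FN N) : atkinLehnerHall N 1 hQ hcop z = z := by
  refine (eq_atkinLehnerHall_of_jBarD N 1 hQ hcop (AlgHom.id Kbar (FN N)) ?_ z).symm
  intro d _ _ hd hd'
  exact jBarD_congr N (hallIdx_one_left d).symm hd hd'

theorem hallIdx_self_of_dvd {N d : ℕ} (hd : d ∣ N) (hd0 : d ≠ 0) : hallIdx N d = N / d := by
  rw [hallIdx_def, Nat.gcd_eq_right hd, Nat.div_self (Nat.pos_of_ne_zero hd0), mul_one]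

/-- `W_N` (the full level as Hall divisor) is the Fricke involution of `helper6887`. -/
theorem atkinLehnerHall_self_eq_frickeBar (N : ℕ) [NeZero N] (hQ : N ∣ N)
    (hcop : Nat.Coprime N (N / N)) (z : FN N) :
    atkinLehnerHall N N hQ hcop z = Fermat.Agent.S37.helper6887.frickeBar N z := by
  refine (eq_atkinLehnerHall_of_jBarD N N hQ hcop
    ((Fermat.Agent.S37.helper6887.frickeBar N : FN N ≃ₐ[Kbar] FN N) : FN N →ₐ[Kbar] FN N)
    ?_ z).symm
  intro d _ _ hd hd'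
  show Fermat.Agent.S37.helper6887.frickeBar N (jBarD N d hd) = jBarD N (hallIdx N d) hd'
  obtain ⟨e, he⟩ := id hd
  have he0 : e ≠ 0 := fun h => NeZero.ne N (by rw [he, h, mul_zero])
  have : NeZero e := ⟨he0⟩
  have hidx : hallIdx N d = e := by
    rw [hallIdx_self_of_dvd hd (NeZero.ne d), he,
      Nat.mul_div_cancel_left _ (Nat.pos_of_ne_zero (NeZero.ne d))]
  rw [Fermat.Agent.S37.helper6887.frickeBar_jBarD N d e he.symm]
  exact jBarD_congr N hidx.symm _ _

/-! ## Compatibility with the degeneracy maps `α, β : FN N → FN (N * q)` -/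

section Degeneracy

variable (N Q : ℕ) [NeZero N] (hQ : Q ∣ N) (hcop : Nat.Coprime Q (N / Q))
variable (q : ℕ) [NeZero q]

/-- **`W_Q^(N q) ∘ α = α ∘ W_Q^(N)`** for `Q ∥ N` and `Q ∥ N q`. -/
theorem atkinLehnerHall_heckeAlphaBar_of_coprime (hQ' : Q ∣ N * q)
    (hcop' : Nat.Coprime Q (N * q / Q)) (z : FN N) :
    atkinLehnerHall (N * q) Q hQ' hcop' (heckeAlphaBar Kbar N q z)
      = heckeAlphaBar Kbar N q (atkinLehnerHall N Q hQ hcop z) := by
  have key : (((atkinLehnerHall (N * q) Q hQ' hcop' : FN (N * q) ≃ₐ[Kbar] FN (N * q)) :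
        FN (N * q) →ₐ[Kbar] FN (N * q)).comp (heckeAlphaBar Kbar N q) : FN N →+* FN (N * q))
      = (((heckeAlphaBar Kbar N q).comp
          ((atkinLehnerHall N Q hQ hcop : FN N ≃ₐ[Kbar] FN N) : FN N →ₐ[Kbar] FN N)) :
          FN N →+* FN (N * q)) := by
    apply helper3176.ringHom_ext_of_gen N
    · intro c
      show atkinLehnerHall (N * q) Q hQ' hcop' (heckeAlphaBar Kbar N q (algebraMap Kbar (FN N) c))
        = heckeAlphaBar Kbar N q (atkinLehnerHall N Q hQ hcop (algebraMap Kbar (FN N) c))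
      rw [AlgHom.commutes, AlgEquiv.commutes, AlgEquiv.commutes, AlgHom.commutes]
    · intro d _ hd
      show atkinLehnerHall (N * q) Q hQ' hcop' (heckeAlphaBar Kbar N q (jBarD N d hd))
        = heckeAlphaBar Kbar N q (atkinLehnerHall N Q hQ hcop (jBarD N d hd))
      have : NeZero Q := neZero_of_dvd_level hQ
      have : NeZero (hallIdx Q d) := neZero_hallIdx Q d
      have hd' : hallIdx Q d ∣ N := hallIdx_dvd (NeZero.ne N) hQ hd
      rw [Fermat.Agent.S37.helper6887.heckeAlphaBar_jBarD,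
        atkinLehnerHall_jBarD N Q hQ hcop d hd hd',
        Fermat.Agent.S37.helper6887.heckeAlphaBar_jBarD,
        atkinLehnerHall_jBarD (N * q) Q hQ' hcop' d (hd.mul_right q) (hd'.mul_right q)]
  exact congrArg (fun f : FN N →+* FN (N * q) => f z) key

/-- **`W_Q^(N q) ∘ β = β ∘ W_Q^(N)`** for `Q ∥ N` and `q` prime to `Q`. -/
theorem atkinLehnerHall_heckeBetaBar_of_coprime (hq : Nat.Coprime q Q) (hQ' : Q ∣ N * q)
    (hcop' : Nat.Coprime Q (N * q / Q)) (z : FN N) :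
    atkinLehnerHall (N * q) Q hQ' hcop' (heckeBetaBar Kbar N q z)
      = heckeBetaBar Kbar N q (atkinLehnerHall N Q hQ hcop z) := by
  have key : (((atkinLehnerHall (N * q) Q hQ' hcop' : FN (N * q) ≃ₐ[Kbar] FN (N * q)) :
        FN (N * q) →ₐ[Kbar] FN (N * q)).comp (heckeBetaBar Kbar N q) : FN N →+* FN (N * q))
      = (((heckeBetaBar Kbar N q).comp
          ((atkinLehnerHall N Q hQ hcop : FN N ≃ₐ[Kbar] FN N) : FN N →ₐ[Kbar] FN N)) :
          FN N →+* FN (N * q)) := by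
    apply helper3176.ringHom_ext_of_gen N
    · intro c
      show atkinLehnerHall (N * q) Q hQ' hcop' (heckeBetaBar Kbar N q (algebraMap Kbar (FN N) c))
        = heckeBetaBar Kbar N q (atkinLehnerHall N Q hQ hcop (algebraMap Kbar (FN N) c))
      rw [AlgHom.commutes, AlgEquiv.commutes, AlgEquiv.commutes, AlgHom.commutes]
    · intro d _ hd
      show atkinLehnerHall (N * q) Q hQ' hcop' (heckeBetaBar Kbar N q (jBarD N d hd))
        = heckeBetaBar Kbar N q (atkinLehnerHall N Q hQ hcop (jBarD N d hd))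
      have : NeZero Q := neZero_of_dvd_level hQ
      have : NeZero (hallIdx Q d) := neZero_hallIdx Q d
      have : NeZero (d * q) := ⟨Nat.mul_ne_zero (NeZero.ne d) (NeZero.ne q)⟩
      have : NeZero (hallIdx Q d * q) :=
        ⟨Nat.mul_ne_zero (NeZero.ne (hallIdx Q d)) (NeZero.ne q)⟩
      have hd' : hallIdx Q d ∣ N := hallIdx_dvd (NeZero.ne N) hQ hd
      have hidx : hallIdx Q (d * q) = hallIdx Q d * q := hallIdx_mul_right_of_coprime hq
      have : NeZero (hallIdx Q (d * q)) := ⟨by rw [hidx]; exact NeZero.ne _⟩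
      have hdq' : hallIdx Q (d * q) ∣ N * q := by
        rw [hidx]; exact Nat.mul_dvd_mul_right hd' q
      rw [Fermat.Agent.S37.helper6887.heckeBetaBar_jBarD,
        atkinLehnerHall_jBarD N Q hQ hcop d hd hd',
        Fermat.Agent.S37.helper6887.heckeBetaBar_jBarD,
        atkinLehnerHall_jBarD (N * q) Q hQ' hcop' (d * q) (Nat.mul_dvd_mul_right hd q) hdq']
      exact jBarD_congr (N * q) hidx _ _
  exact congrArg (fun f : FN N →+* FN (N * q) => f z) key

/-- **`W_(Q q)^(N q) ∘ α = β ∘ W_Q^(N)`** for `Q ∥ N` and `q` prime to `N / Q`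
(so that `Q q ∥ N q`). -/
theorem atkinLehnerHall_mul_heckeAlphaBar (hq : Nat.Coprime q (N / Q)) (hQ' : Q * q ∣ N * q)
    (hcop' : Nat.Coprime (Q * q) (N * q / (Q * q))) (z : FN N) :
    atkinLehnerHall (N * q) (Q * q) hQ' hcop' (heckeAlphaBar Kbar N q z)
      = heckeBetaBar Kbar N q (atkinLehnerHall N Q hQ hcop z) := by
  have key : (((atkinLehnerHall (N * q) (Q * q) hQ' hcop' : FN (N * q) ≃ₐ[Kbar] FN (N * q)) :
        FN (N * q) →ₐ[Kbar] FN (N * q)).comp (heckeAlphaBar Kbar N q) : FN N →+* FN (N * q))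
      = (((heckeBetaBar Kbar N q).comp
          ((atkinLehnerHall N Q hQ hcop : FN N ≃ₐ[Kbar] FN N) : FN N →ₐ[Kbar] FN N)) :
          FN N →+* FN (N * q)) := by
    apply helper3176.ringHom_ext_of_gen N
    · intro c
      show atkinLehnerHall (N * q) (Q * q) hQ' hcop'
          (heckeAlphaBar Kbar N q (algebraMap Kbar (FN N) c))
        = heckeBetaBar Kbar N q (atkinLehnerHall N Q hQ hcop (algebraMap Kbar (FN N) c))
      rw [AlgHom.commutes, AlgEquiv.commutes, AlgEquiv.commutes, AlgHom.commutes]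
    · intro d _ hd
      show atkinLehnerHall (N * q) (Q * q) hQ' hcop' (heckeAlphaBar Kbar N q (jBarD N d hd))
        = heckeBetaBar Kbar N q (atkinLehnerHall N Q hQ hcop (jBarD N d hd))
      have : NeZero Q := neZero_of_dvd_level hQ
      have : NeZero (hallIdx Q d) := neZero_hallIdx Q d
      have : NeZero (hallIdx Q d * q) :=
        ⟨Nat.mul_ne_zero (NeZero.ne (hallIdx Q d)) (NeZero.ne q)⟩
      have hd' : hallIdx Q d ∣ N := hallIdx_dvd (NeZero.ne N) hQ hd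
      have hidx : hallIdx (Q * q) d = hallIdx Q d * q :=
        hallIdx_mul_left_of_hall (NeZero.ne N) hQ hcop hq hd
      have : NeZero (hallIdx (Q * q) d) := ⟨by rw [hidx]; exact NeZero.ne _⟩
      have hdq' : hallIdx (Q * q) d ∣ N * q := by
        rw [hidx]; exact Nat.mul_dvd_mul_right hd' q
      rw [Fermat.Agent.S37.helper6887.heckeAlphaBar_jBarD,
        atkinLehnerHall_jBarD N Q hQ hcop d hd hd',
        Fermat.Agent.S37.helper6887.heckeBetaBar_jBarD,
        atkinLehnerHall_jBarD (N * q) (Q * q) hQ' hcop' d (hd.mul_right q) hdq']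
      exact jBarD_congr (N * q) hidx _ _
  exact congrArg (fun f : FN N →+* FN (N * q) => f z) key

/-- **`W_(Q q)^(N q) ∘ β = α ∘ W_Q^(N)`** for `Q ∥ N` and `q` prime to `N / Q`. -/
theorem atkinLehnerHall_mul_heckeBetaBar (hq : Nat.Coprime q (N / Q)) (hQ' : Q * q ∣ N * q)
    (hcop' : Nat.Coprime (Q * q) (N * q / (Q * q))) (z : FN N) :
    atkinLehnerHall (N * q) (Q * q) hQ' hcop' (heckeBetaBar Kbar N q z)
      = heckeAlphaBar Kbar N q (atkinLehnerHall N Q hQ hcop z) := by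
  have h1 := atkinLehnerHall_mul_heckeAlphaBar N Q hQ hcop q hq hQ' hcop'
    (atkinLehnerHall N Q hQ hcop z)
  rw [atkinLehnerHall_atkinLehnerHall] at h1
  rw [← h1, atkinLehnerHall_atkinLehnerHall]

end Degeneracy

end

end Fermat.Agent.S35.helper1219
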