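import Fermat.Agent.S35.helper1251_ConnVal
import Fermat.Agent.S35.helper4121_KummerIdem

/-!
# KC-IDEM at `Qbar`: the two-chart Kummer core from seeds, connectedness discharged

`Fermat.Agent.S35.helper4121.kummer_of_seeds` takes the two-chart Čech connectedness `CechConn` of
every finite extension `L` of `F` as a hypothesis.  For a valuation subring `A` of
`AlgebraicClosure ℚ` over a prime `ℓ` it is `two_chart_idempotent_val` (CONNVAL), which holds for
ANY field over `AlgebraicClosure ℚ` with a transcendental coordinate.  Hence the Kummer core from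
seeds holds with no hypothesis besides `ℓ ∤ n`.

* `cechConn_ratBar` : `CechConn A (algebraMap F L x)` for every field `L` over `F`;
* `isUnit_natCast_of_not_dvd`, `exists_primitiveRoot_valuationSubring` : `n` is a unit of `A` and
  `A` contains a primitive `n`-th root of unity;
* `kummer_of_seeds_ratBar` : the Kummer core;
* `kummer_core_ratBar` : the same with one non-unit (shape consumed by CHARTINT).
-/

set_option autoImplicit false

namespace Fermat.Agent.S35.helper1251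

open Polynomial Fermat.Agent.S35.helper4121

universe u

local notation "Qb" => AlgebraicClosure ℚ

/-- `CechConn` of helper4121 from (V1), for every field `L` over a field `F` over `Qbar`. -/
theorem cechConn_ratBar {F : Type*} [Field F] [Algebra Qb F] (A : ValuationSubring Qb) {ℓ : ℕ}
    (hℓ : ℓ.Prime) (hℓA : A.LiesOverPrime ℓ) (x : F) (hx : Transcendental Qb x)
    (L : Type*) [Field L] [Algebra F L] [Algebra A L] [IsScalarTower A F L] :
    CechConn A (algebraMap F L x) := by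
  let _ : Algebra Qb L := ((algebraMap F L).comp (algebraMap Qb F)).toAlgebra
  have : IsScalarTower Qb F L := IsScalarTower.of_algebraMap_eq (fun _ => rfl)
  have : IsScalarTower A Qb L := IsScalarTower.of_algebraMap_eq (fun a => by
    rw [IsScalarTower.algebraMap_apply A F L, IsScalarTower.algebraMap_apply A Qb F,
      ← IsScalarTower.algebraMap_apply Qb F L])
  have ht : Transcendental Qb (algebraMap F L x) :=
    (transcendental_algebraMap_iff (algebraMap F L).injective).mpr hx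
  intro a b ha hb ha2 hb2 hab
  obtain ⟨c₁, y₁, hc₁, hy₁, e₁⟩ := ha2
  obtain ⟨c₂, y₂, hc₂, hy₂, e₂⟩ := hb2
  obtain ⟨c₃, y₃, hc₃, hy₃, e₃⟩ := hab
  obtain ⟨π, hπ, h⟩ := two_chart_idempotent_val (A := A) (K := Qb) (F := L) Subtype.val_injective
    (fun z => (A.mem_or_inv_mem z).imp (fun h => ⟨⟨z, h⟩, rfl⟩) (fun h => ⟨⟨z⁻¹, h⟩, rfl⟩))
    isAlgebraic_rat_algebraicClosure hℓ (not_isUnit_natCast_of_mem_nonunits A hℓA)
    (algebraMap F L x) ht mem_range_of_isAlgebraic_of_isAlgClosed ha hb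
    ⟨c₁, hc₁, y₁, hy₁, e₁⟩ ⟨c₂, hc₂, y₂, hy₂, e₂⟩ ⟨c₃, hc₃, y₃, hy₃, e₃⟩
  rcases h with ⟨⟨y, hy, e⟩, ⟨y', hy', e'⟩⟩ | ⟨⟨y, hy, e⟩, ⟨y', hy', e'⟩⟩
  · exact Or.inl ⟨⟨π, y, hπ, hy, e⟩, ⟨π, y', hπ, hy', e'⟩⟩
  · exact Or.inr ⟨⟨π, y, hπ, hy, e⟩, ⟨π, y', hπ, hy', e'⟩⟩

/-- Units of a valuation subring over `ℓ`: integers prime to `ℓ`. -/
theorem isUnit_natCast_of_not_dvd (A : ValuationSubring Qb) {ℓ : ℕ} (hℓ : ℓ.Prime)
    (hℓA : A.LiesOverPrime ℓ) {n : ℕ} (hn : ¬ ℓ ∣ n) : IsUnit ((n : ℕ) : A) := by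
  by_contra hu
  have h1 : ((n : ℕ) : A) ∈ IsLocalRing.maximalIdeal A := (IsLocalRing.mem_maximalIdeal _).mpr hu
  have h2 : ((ℓ : ℕ) : A) ∈ IsLocalRing.maximalIdeal A :=
    (IsLocalRing.mem_maximalIdeal _).mpr (not_isUnit_natCast_of_mem_nonunits A hℓA)
  have hcop : IsCoprime (n : ℤ) (ℓ : ℤ) :=
    Nat.isCoprime_iff_coprime.mpr ((Nat.Prime.coprime_iff_not_dvd hℓ).mpr hn).symm
  obtain ⟨a, b, hab⟩ := hcop
  have h3 : (1 : A) ∈ IsLocalRing.maximalIdeal A := by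
    have : (1 : A) = (a : A) * ((n : ℕ) : A) + (b : A) * ((ℓ : ℕ) : A) := by
      have := congrArg (Int.cast : ℤ → A) hab
      push_cast at this
      exact this.symm
    rw [this]
    exact Ideal.add_mem _ (Ideal.mul_mem_left _ _ h1) (Ideal.mul_mem_left _ _ h2)
  exact (IsLocalRing.maximalIdeal.isMaximal A).ne_top ((Ideal.eq_top_iff_one _).mpr h3)

/-- A valuation subring of `Qbar` contains a primitive `n`-th root of unity (`n ≠ 0`). -/
theorem exists_primitiveRoot_valuationSubring (A : ValuationSubring Qb) {n : ℕ} (hn : n ≠ 0) :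
    ∃ ω : A, IsPrimitiveRoot ω n := by
  have : NeZero n := ⟨hn⟩
  obtain ⟨ω, hω⟩ := HasEnoughRootsOfUnity.exists_primitiveRoot Qb n
  have hmem : ω ∈ A := by
    rcases A.mem_or_inv_mem ω with h | h
    · exact h
    · have h1 : ω = ω⁻¹ ^ (n - 1) := by
        have h0 : ω ≠ 0 := hω.ne_zero hn
        have h2 : ω ^ n = 1 := hω.pow_eq_one
        have h3 : ω * ω ^ (n - 1) = 1 := by
          rw [← pow_succ', Nat.sub_add_cancel (Nat.pos_of_ne_zero hn), h2]
        rw [inv_pow]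
        exact eq_inv_of_mul_eq_one_left h3
      rw [h1]
      exact pow_mem h _
  exact ⟨⟨ω, hmem⟩, IsPrimitiveRoot.of_map_of_injective (f := A.subtype) hω Subtype.val_injective⟩

/-- **KC-IDEM at `Qbar`**: helper4121's `kummer_of_seeds` with the connectedness hypothesis
discharged by CONNVAL. -/
theorem kummer_of_seeds_ratBar {F : Type u} [Field F] [Algebra Qb F] (A : ValuationSubring Qb)
    {ℓ : ℕ} (hℓ : ℓ.Prime) (hℓA : A.LiesOverPrime ℓ) (x : F) (hx : Transcendental Qb x)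
    (n : ℕ) (hn : ¬ ℓ ∣ n) (g a₀ b₀ : F)
    (hs1 : SmallIn A ({x} : Set F) (a₀ ^ n * g - 1))
    (hs2 : SmallIn A ({x⁻¹} : Set F) (b₀ ^ n * g - 1))
    (hs3 : ∃ (c : A) (s₀ : F), ¬ IsUnit c ∧ a₀ - b₀ = c • s₀ ∧
      IsIntegral (Algebra.adjoin A ({x, x⁻¹} : Set F)) (s₀ ^ n * g)) :
    ∃ V : F, V ^ n = g := by
  have hn0 : n ≠ 0 := by
    rintro rfl
    exact hn (dvd_zero _)
  obtain ⟨ω, hω⟩ := exists_primitiveRoot_valuationSubring A hn0
  have hxA : Transcendental A x := hx.restrictScalars (R := A) Subtype.val_injective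
  exact kummer_of_seeds x hxA n (isUnit_natCast_of_not_dvd A hℓ hℓA hn) ω hω
    (fun L _ _ _ _ _ => cechConn_ratBar A hℓ hℓA x hx L) g a₀ b₀ hs1 hs2 hs3

/-- **KC-IDEM at `Qbar`, one non-unit form** (the hypothesis `hK` of
`helper2459.hKC_of_gauss` / `hKC_of_seeds` verbatim, with `A0 := A`): seeds `a`, `b` with
`a ^ n * g ≡ 1` on the chart `icl A[x]`, `b ^ n * g ≡ 1` on the chart `icl A[x⁻¹]` modulo one
non-unit `c ≠ 0` of `A`, and `(a - b) ^ n * g ∈ c ^ n • icl A[x, x⁻¹]`, force `g` to be an `n`-th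
power. -/
theorem kummer_core_ratBar {F : Type u} [Field F] [Algebra Qb F] (A : ValuationSubring Qb)
    {ℓ : ℕ} (hℓ : ℓ.Prime) (hℓA : A.LiesOverPrime ℓ) (x : F) (hx : Transcendental Qb x)
    (n : ℕ) (hn : ¬ ℓ ∣ n) (g a b : F) (c : A) (_hg : g ≠ 0) (hc : ¬ IsUnit c)
    (hc0 : algebraMap A F c ≠ 0)
    (h1 : ∃ y, IsIntegral (Algebra.adjoin A ({x} : Set F)) y ∧ a ^ n * g - 1 = c • y)
    (h2 : ∃ y, IsIntegral (Algebra.adjoin A ({x⁻¹} : Set F)) y ∧ b ^ n * g - 1 = c • y)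
    (h3 : ∃ y, IsIntegral (Algebra.adjoin A ({x, x⁻¹} : Set F)) y ∧
      (a - b) ^ n * g = c ^ n • y) :
    ∃ w : F, w ^ n = g := by
  obtain ⟨y₁, hy₁, e₁⟩ := h1
  obtain ⟨y₂, hy₂, e₂⟩ := h2
  obtain ⟨y₃, hy₃, e₃⟩ := h3
  refine kummer_of_seeds_ratBar A hℓ hℓA x hx n hn g a b ⟨c, y₁, hc, hy₁, e₁⟩ ⟨c, y₂, hc, hy₂, e₂⟩
    ⟨c, (algebraMap A F c)⁻¹ * (a - b), hc, ?_, ?_⟩
  · rw [Algebra.smul_def, ← mul_assoc, mul_inv_cancel₀ hc0, one_mul]
  · have h4 : ((algebraMap A F c)⁻¹ * (a - b)) ^ n * g = y₃ := by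
      rw [mul_pow, mul_assoc, e₃, Algebra.smul_def, map_pow, ← mul_assoc, ← mul_pow,
        inv_mul_cancel₀ hc0, one_pow, one_mul]
    rw [h4]
    exact hy₃

end Fermat.Agent.S35.helper1251
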