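import Mathlib
import Fermat.Agent.S30.helper1094_E1
import Fermat.Agent.S30.helper501_Occ
import Fermat.Agent.S30.helper767_TateFin
import Fermat.Agent.S30.helper54_Final
import Fermat.Agent.S35.helper1307_CoreQ

/-!
# S35: the Q-version of the S30 glue `JDatum → EigenDatum` (helper1307)

`helper1307_CoreQ` reduces the frozen statement S35 to `Stmt_EigenQ`: an S30 eigen-datum on
which every Frobenius lift `σ` at a prime `q ≠ p` exactly dividing the level satisfies
`(σ² - 1)(σ² - q²) = 0`.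

This file provides the abstract (geometry-free) step in exactly the shape of the S30 interface
`helper1094.JDatum`:

* `JDatumQ` : `helper1094.JDatum` (an abstract abelian group `J` with a Galois action, operators
  `τ ℓ`, finite `p`-torsion, open stabilisers, trivial inertia and the Eichler–Shimura relation on
  `p`-power torsion, a lattice with a faithful ring action and level-wise equivariant injections)
  together with ONE more clause on the `p`-power torsion of `J`:
  `σ² (σ² x - q² x) - (σ² x - q² x) = 0` for Frobenius lifts `σ` at `q ∥ N`, `q ≠ p`;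
* `eigenDatumQ_of_jDatumQ` : `JDatumQ → EigenDatumQ`, unconditional
  (Tate module, base change, eigen-lattice; the quartic identity is transported through all
  three steps; uses the landed S30 leaves `helper767.tateModule_finite_of_finite` and
  `helper501.exists_eigenvector_tateModule_of_pred`);
* `Stmt_JQ`, `stmt_EigenQ_of`, `result_of_jq` : the frozen statement S35 from `Stmt_JQ` ALONE
  (every newform eigensystem has a `JDatumQ`).

Intended instance: `J :=` the q-new SUBGROUP of `J₀(M)`,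
`{x | U_q x = - W_q x ∧ U_q (W_q x) = - x for all q ∥ M, q ≠ p}`, on whose `p`-power torsion the
identity holds unconditionally (`(σ - U_q) x ∈ Tor` and `(σ² - q²) Tor = 0`), with the lattice
`Λ' :=` the same kernel in the cocycle lattice.
-/

set_option autoImplicit false

open scoped TensorProduct

namespace Fermat.Agent.S35.helper1307

open Fermat.Agent.S30.helper54 Fermat.Agent.Lib.helper4786 Fermat.Agent.Lib.helper9377
  Fermat.Agent.S30.helper4204 Fermat.Agent.S30.helper1094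

/-! ### Transport of the quartic identity -/

section Transport

variable {O : Type*} [CommRing O]
variable {M : Type*} [AddCommGroup M] [Module O M]
variable {ι : Type*}

/-- A quartic relation `(ρ g ² - c)(ρ g ² - d) = 0` on `M` restricts to the eigen-lattice. -/
theorem eigRep_quartic {G : Type*} [Monoid G] (σ : ι → Module.End O M) (a : ι → O)
    (ρ : G →* Module.End O M) (hρ : ∀ g i, Commute (ρ g) (σ i)) {g : G} {c d : O}
    (h : (ρ g * ρ g - c • (1 : Module.End O M)) * (ρ g * ρ g - d • (1 : Module.End O M)) = 0) :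
    (eigRep σ a ρ hρ g * eigRep σ a ρ hρ g - c • (1 : Module.End O (eigenLattice σ a))) *
      (eigRep σ a ρ hρ g * eigRep σ a ρ hρ g - d • (1 : Module.End O (eigenLattice σ a))) = 0 := by
  refine LinearMap.ext fun x => Subtype.ext ?_
  have h1 := congrArg (fun f : Module.End O M => f (x : M)) h
  simp only [LinearMap.sub_apply, Module.End.mul_apply, LinearMap.smul_apply,
    Module.End.one_apply, LinearMap.zero_apply] at h1
  simp only [LinearMap.sub_apply, Module.End.mul_apply, LinearMap.smul_apply,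
    Module.End.one_apply, LinearMap.zero_apply, Submodule.coe_sub, Submodule.coe_smul, coe_eigRep,
    Submodule.coe_zero]
  exact h1

end Transport

section BaseChange

universe u

variable {R : Type*} [CommRing R]
variable {O : Type u} [CommRing O] [Algebra R O]
variable {T : Type u} [AddCommGroup T] [Module R T]
variable {ι : Type*}

/-- A quartic relation on `T` passes to the base change. -/
theorem baseChange_quartic {f : Module.End R T} {c d : R}
    (h : (f * f - c • (1 : Module.End R T)) * (f * f - d • (1 : Module.End R T)) = 0) :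
    (f.baseChange O * f.baseChange O - algebraMap R O c • (1 : Module.End O (O ⊗[R] T))) *
      (f.baseChange O * f.baseChange O - algebraMap R O d • (1 : Module.End O (O ⊗[R] T))) = 0 := by
  have h1 := congrArg (fun k : Module.End R T => k.baseChange O) h
  simp only [LinearMap.baseChange_sub, LinearMap.baseChange_mul, LinearMap.baseChange_smul,
    LinearMap.baseChange_one, LinearMap.baseChange_zero] at h1
  have e : ∀ r : R, r • (1 : Module.End O (O ⊗[R] T)) = algebraMap R O r • (1 : Module.End O (O ⊗[R] T)) :=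
    fun r => (algebraMap_smul O r (1 : Module.End O (O ⊗[R] T))).symm
  rw [e c, e d] at h1
  exact h1

/-- **Eigen-lattice package with the quartic clause.**  The statement of
`helper4204.exists_eigenLattice_rep` with one more inherited property. -/
theorem exists_eigenLattice_repQ [IsDomain O] [IsPrincipalIdealRing O]
    [Module.Free R T] [Module.Finite R T] {G : Type*} [Monoid G]
    (ρ : G →* Module.End R T) (τ : ι → Module.End R T) (hcomm : ∀ g i, Commute (ρ g) (τ i))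
    (a : ι → O) (π : R) (hπ : algebraMap R O π ≠ 0) :
    ∃ (M : Type u) (_ : AddCommGroup M) (_ : Module O M) (_ : Module.Free O M)
      (_ : Module.Finite O M) (ρ' : G →* Module.End O M),
      (Nontrivial M ↔ ∃ x : O ⊗[R] T, x ≠ 0 ∧ ∀ i, (τ i).baseChange O x = a i • x) ∧
      (∀ g, ρ g = 1 → ρ' g = 1) ∧
      (∀ g i (c : R), ρ g * ρ g - τ i * ρ g + c • (1 : Module.End R T) = 0 →
        ρ' g * ρ' g - a i • ρ' g + algebraMap R O c • (1 : Module.End O M) = 0) ∧
      (∀ g (n : ℕ), (∀ t : T, ∃ y : T, ρ g t - t = π ^ n • y) →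
        ∀ I : Ideal O, algebraMap R O π ∈ I → ∀ v : M, ρ' g v - v ∈ (I ^ n) • (⊤ : Submodule O M)) ∧
      (∀ g (c d : R),
        (ρ g * ρ g - c • (1 : Module.End R T)) * (ρ g * ρ g - d • (1 : Module.End R T)) = 0 →
        (ρ' g * ρ' g - algebraMap R O c • (1 : Module.End O M)) *
          (ρ' g * ρ' g - algebraMap R O d • (1 : Module.End O M)) = 0) := by
  set σ : ι → Module.End O (O ⊗[R] T) := fun i => (τ i).baseChange O with hσ
  have hc : ∀ g i, Commute (baseChangeRep O ρ g) (σ i) := fun g i => commute_baseChange (hcomm g i)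
  refine ⟨eigenLattice σ a, inferInstance, inferInstance, inferInstance, inferInstance,
    eigRep σ a (baseChangeRep O ρ) hc, nontrivial_eigenLattice_iff, ?_, ?_, ?_, ?_⟩
  · intro g hg
    exact eigRep_eq_one σ a _ hc (by rw [baseChangeRep_apply, hg, LinearMap.baseChange_one])
  · intro g i c h
    exact eigRep_quadratic σ a _ hc (i := i) (baseChange_quadratic h)
  · intro g n h I hI v
    exact eigRep_sub_mem σ a _ hc hπ (fun x => exists_baseChange_sub_eq_smul h x) I hI v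
  · intro g c d h
    exact eigRep_quartic σ a _ hc (baseChange_quartic h)

end BaseChange

/-! ### The interface -/

/-- **Abstract Jacobian datum with the bad-prime identity**: the S30 interface
`helper1094.JDatum` together with the quartic relation `(σ² - 1)(σ² - q²) = 0` on the `p`-power
torsion, for Frobenius lifts `σ` at the primes `q ≠ p` exactly dividing `N`. -/
def JDatumQ (p N : ℕ) (S : Finset ℕ) (𝒪' : Type) [CommRing 𝒪'] (a : ℕ → 𝒪') : Prop :=
  ∃ (J : Type) (_ : AddCommGroup J) (_ : DistribMulAction Gal J) (τ : ℕ → J →+ J),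
    -- (fin) finitely many `p`-torsion points
    Set.Finite {x : J | p • x = 0} ∧
    -- (lev) open stabilisers on `p`-power torsion
    (∀ x : J, (∃ n : ℕ, p ^ n • x = 0) →
      ∃ L : IntermediateField ℚ (AlgebraicClosure ℚ), FiniteDimensional ℚ L ∧
        ∀ σ : Gal, (∀ y ∈ L, σ y = y) → σ • x = x) ∧
    -- (comm) the operators commute with the Galois action
    (∀ ℓ : ℕ, ℓ.Prime → ¬ ℓ ∣ N → ℓ ∉ S → ∀ (σ : Gal) (x : J), σ • τ ℓ x = τ ℓ (σ • x)) ∧
    -- (unr) inertia at `q ∤ N p` acts trivially on `p`-power torsion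
    (∀ q : ℕ, q.Prime → ¬ q ∣ N → q ≠ p →
      ∀ A : ValuationSubring (AlgebraicClosure ℚ), A.LiesOverPrime q →
        ∀ σ ∈ A.inertiaSubgroupIn ℚ, ∀ x : J, (∃ n : ℕ, p ^ n • x = 0) → σ • x = x) ∧
    -- (frob) Eichler–Shimura relation on `p`-power torsion
    (∀ ℓ : ℕ, ℓ.Prime → ¬ ℓ ∣ N → ℓ ∉ S →
      ∀ A : ValuationSubring (AlgebraicClosure ℚ), A.LiesOverPrime ℓ →
        ∀ σ : Gal, A.IsFrobeniusAt σ ℓ → ∀ x : J, (∃ n : ℕ, p ^ n • x = 0) →
          σ • σ • x - τ ℓ (σ • x) + ℓ • x = 0) ∧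
    -- (quartic) `(σ² - 1)(σ² - q²) = 0` on `p`-power torsion, at the primes `q ∥ N`, `q ≠ p`
    (∀ q : ℕ, q.Prime → q ≠ p → q ∣ N → ¬ q ^ 2 ∣ N →
      ∀ A : ValuationSubring (AlgebraicClosure ℚ), A.LiesOverPrime q →
        ∀ σ : Gal, A.IsFrobeniusAt σ q → ∀ x : J, (∃ n : ℕ, p ^ n • x = 0) →
          σ • σ • (σ • σ • x - q ^ 2 • x) - (σ • σ • x - q ^ 2 • x) = 0) ∧
    -- (occ) a lattice with a faithful ring action and level-wise equivariant injections
    ∃ (Λ : Type) (_ : AddCommGroup Λ) (_ : Module.Free ℤ Λ) (_ : Module.Finite ℤ Λ)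
      (R : Type) (_ : CommRing R) (_ : Module R Λ) (t : ℕ → R) (χ : R →+* 𝒪')
      (ι : ℕ → Λ →+ J),
      (∀ r : R, (∀ x : Λ, r • x = 0) → r = 0) ∧
      (∀ ℓ : ℕ, ℓ.Prime → ¬ ℓ ∣ N → ℓ ∉ S → χ (t ℓ) = a ℓ) ∧
      (∀ (n : ℕ) (x : Λ), p ^ n • ι n x = 0) ∧
      (∀ (n : ℕ) (x : Λ), ι n x = 0 → ∃ y : Λ, x = p ^ n • y) ∧
      (∀ (n : ℕ) (x : Λ), p • ι (n + 1) x = ι n x) ∧
      (∀ ℓ : ℕ, ℓ.Prime → ¬ ℓ ∣ N → ℓ ∉ S → ∀ (n : ℕ) (x : Λ), ι n (t ℓ • x) = τ ℓ (ι n x))

/-- A `JDatumQ` is in particular an S30 `JDatum`. -/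
theorem JDatumQ.jDatum {p N : ℕ} {S : Finset ℕ} {𝒪' : Type} [CommRing 𝒪'] {a : ℕ → 𝒪'}
    (h : JDatumQ p N S 𝒪' a) : JDatum p N S 𝒪' a := by
  obtain ⟨J, i1, i2, τ, hfin, hlev, hcomm, hunr, hfrob, -, hocc⟩ := h
  exact ⟨J, i1, i2, τ, hfin, hlev, hcomm, hunr, hfrob, hocc⟩

/-! ### The glue -/

/-- **E1-Q**: an abstract Jacobian datum with the bad-prime identity gives an eigen-datum with
the bad-prime identity. -/
theorem eigenDatumQ_of_jDatumQ
    (p : ℕ) [Fact p.Prime] (N : ℕ) (S : Finset ℕ)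
    (𝒪' : Type) [CommRing 𝒪'] [IsDomain 𝒪'] [IsDiscreteValuationRing 𝒪']
    [IsAdicComplete (IsLocalRing.maximalIdeal 𝒪') 𝒪'] [Finite (IsLocalRing.ResidueField 𝒪')]
    [CharZero 𝒪'] (hp𝒪' : (p : 𝒪') ∈ IsLocalRing.maximalIdeal 𝒪') (a : ℕ → 𝒪')
    (hJ : JDatumQ p N S 𝒪' a) : EigenDatumQ p N S 𝒪' a := by
  obtain ⟨J, iJ1, iJ2, τ, hfin, hlev, hcomm, hunr, hfrob, hquartJ, Λ, iΛ1, iΛ2, iΛ3, R, iR1, iR2, t,
    χ, ι, hfaith, hχ, hι1, hι2, hι3, hι4⟩ := hJ
  have hp : p.Prime := Fact.out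
  -- the `ℤ_p`-algebra structures
  let alg𝒪 : Algebra ℤ_[p] 𝒪' := padicIntAlgebra p 𝒪' hp𝒪'
  -- the Tate module
  have hTfin : Module.Finite ℤ_[p] (tateModule J p) :=
    Fermat.Agent.S30.helper767.tateModule_finite_of_finite J p hfin
  have hTtf : Module.IsTorsionFree ℤ_[p] (tateModule J p) :=
    Fermat.Agent.S30.helper1094.tateModule_isTorsionFree J p
  have hTfree : Module.Free ℤ_[p] (tateModule J p) := Module.free_of_finite_type_torsion_free'
  -- the actions
  let ρ : Gal →* Module.End ℤ_[p] (tateModule J p) := tateRep J p Gal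
  let ι' : Type := {ℓ : ℕ // ℓ.Prime ∧ ¬ ℓ ∣ N ∧ ℓ ∉ S}
  let τ' : ι' → Module.End ℤ_[p] (tateModule J p) := fun i => tateEnd J p (τ i.1)
  have hc : ∀ g i, Commute (ρ g) (τ' i) := by
    intro g i
    show ρ g * τ' i = τ' i * ρ g
    ext x n
    exact hcomm i.1 i.2.1 i.2.2.1 i.2.2.2 g (x.1 n)
  have hp0 : algebraMap ℤ_[p] 𝒪' (p : ℤ_[p]) ≠ 0 := by
    rw [map_natCast]
    exact Nat.cast_ne_zero.2 hp.ne_zero
  obtain ⟨M, iM1, iM2, iM3, iM4, ρ', hnt, h1, hq, hcg, hq4⟩ :=
    exists_eigenLattice_repQ (O := 𝒪') ρ τ' hc (fun i => a i.1) (p : ℤ_[p]) hp0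
  refine ⟨M, iM1, iM2, iM3, iM4, ρ', ?_, ?_, ?_, ?_, ?_⟩
  · -- nontriviality: occurrence
    rw [hnt]
    exact Fermat.Agent.S30.helper501.exists_eigenvector_tateModule_of_pred p hfaith
      (algebraMap_padicIntAlgebra_injective p 𝒪' hp𝒪') χ
      (fun ℓ : ℕ => ℓ.Prime ∧ ¬ ℓ ∣ N ∧ ℓ ∉ S) a t τ ι
      (fun ℓ h => hχ ℓ h.1 h.2.1 h.2.2) hι1 hι2 hι3 (fun ℓ h n x => hι4 ℓ h.1 h.2.1 h.2.2 n x)
  · -- continuity
    intro n
    obtain ⟨L, hL, hLσ⟩ := exists_common_level {x : J | p ^ n • x = 0}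
      (finite_pow_torsion p hfin n) (fun x hx => hlev x ⟨n, hx⟩)
    refine ⟨L, hL, fun σ hσ v => ?_⟩
    refine hcg σ n (fun x => ?_) (IsLocalRing.maximalIdeal 𝒪') (by rw [map_natCast]; exact hp𝒪') v
    refine (tateModule.apply_eq_zero_iff (ρ σ x - x) n).mp ?_
    show σ • x.1 n - x.1 n = 0
    rw [hLσ σ hσ (x.1 n) (tateModule.pow_smul_apply x n), sub_self]
  · -- unramified
    intro q hq' hqN hqp A hA σ hσ
    exact h1 σ (tateRep_eq_one_of_forall σ fun x hx => hunr q hq' hqN hqp A hA σ hσ x hx)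
  · -- Frobenius
    intro ℓ hℓ hℓN hℓS A hA σ hσ
    have hrel : ρ σ * ρ σ - τ' ⟨ℓ, hℓ, hℓN, hℓS⟩ * ρ σ
        + (ℓ : ℤ_[p]) • (1 : Module.End ℤ_[p] (tateModule J p)) = 0 := by
      ext x n
      have h2 := hfrob ℓ hℓ hℓN hℓS A hA σ hσ (x.1 n) ⟨n, tateModule.pow_smul_apply x n⟩
      rw [LinearMap.add_apply, LinearMap.sub_apply, LinearMap.smul_apply, Module.End.one_apply]
      show (σ • σ • x.1 n - τ ℓ (σ • x.1 n)) + ((ℓ : ℤ_[p]) • x).1 n = 0
      rw [tateModule.natCast_smul_apply]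
      exact h2
    have := hq σ ⟨ℓ, hℓ, hℓN, hℓS⟩ (ℓ : ℤ_[p]) hrel
    rw [map_natCast] at this
    exact this
  · -- the quartic identity at the primes exactly dividing the level
    intro q hq' hqp hqN hqN2 A hA σ hσ
    have hquart : (ρ σ * ρ σ - (1 : ℤ_[p]) • (1 : Module.End ℤ_[p] (tateModule J p))) *
        (ρ σ * ρ σ - ((q ^ 2 : ℕ) : ℤ_[p]) • (1 : Module.End ℤ_[p] (tateModule J p))) = 0 := by
      ext x n
      have h2 := hquartJ q hq' hqp hqN hqN2 A hA σ hσ (x.1 n) ⟨n, tateModule.pow_smul_apply x n⟩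
      simp only [Module.End.mul_apply, LinearMap.sub_apply, LinearMap.smul_apply,
        Module.End.one_apply, one_smul]
      show σ • σ • (σ • σ • x.1 n - (((q ^ 2 : ℕ) : ℤ_[p]) • x).1 n)
          - (σ • σ • x.1 n - (((q ^ 2 : ℕ) : ℤ_[p]) • x).1 n) = 0
      rw [tateModule.natCast_smul_apply]
      exact h2
    have := hq4 σ (1 : ℤ_[p]) ((q ^ 2 : ℕ) : ℤ_[p]) hquart
    rw [map_one, one_smul, map_natCast, Nat.cast_pow] at this
    exact this

/-! ### The frozen statement -/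

/-- **Geometric side of S35, abstract form**: the eigensystem of a newform has an abstract
Jacobian datum with the bad-prime identity. -/
def Stmt_JQ : Prop :=
  ∀ {M : ℕ} [NeZero M] {g : CuspForm (CongruenceSubgroup.Gamma0 M) 2} (_hg : g.IsNewform)
    (lam : ℕ) [Fact lam.Prime] (S : Finset ℕ)
    (O' : Type) [CommRing O'] [IsDomain O'] [IsDiscreteValuationRing O']
    [IsAdicComplete (IsLocalRing.maximalIdeal O') O'] [Finite (IsLocalRing.ResidueField O')]
    [CharZero O'] (_hlamO' : (lam : O') ∈ IsLocalRing.maximalIdeal O')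
    (chig : CuspForm.heckeAlgebra M 2 (↑S : Set ℕ) →+* ℂ)
    (_hchig : ∀ (ℓ : ℕ) (hℓ : ℓ.Prime) (hℓM : ¬ ℓ ∣ M) (hℓS : ℓ ∉ (↑S : Set ℕ)),
      chig (CuspForm.heckeAlgebra.T hℓ hℓM hℓS) = ModularFormClass.qCoeff g ℓ)
    (iota : chig.range →+* O')
    (_hlamS : lam ∈ S) (_hMS : ∀ q : ℕ, q.Prime → q ∣ M → q ∈ S),
    JDatumQ lam M S O' (eigenvalue (iota.comp chig.rangeRestrict))

/-- `Stmt_EigenQ` from `Stmt_JQ`. -/
theorem stmt_EigenQ_of (hJ : Stmt_JQ) : Stmt_EigenQ := by
  intro M _ g hg lam _ S O' _ _ _ _ _ _ hlamO' chig hchig iota hlamS hMS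
  exact eigenDatumQ_of_jDatumQ lam M S O' hlamO' _
    (hJ hg lam S O' hlamO' chig hchig iota hlamS hMS)

open Polynomial in
/-- **The frozen statement S35 from `Stmt_JQ` alone** (generator-Chebotarev is the landed
`helper54.stmt_GenCheb`). -/
theorem result_of_jq (hJ : Stmt_JQ)
    {M : ℕ} [NeZero M] {g : CuspForm (CongruenceSubgroup.Gamma0 M) 2} (hg : g.IsNewform)
    (lam : ℕ) [Fact lam.Prime]
    (S : Finset ℕ)
    (O' : Type) [CommRing O'] [IsDomain O'] [IsDiscreteValuationRing O']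
    [IsAdicComplete (IsLocalRing.maximalIdeal O') O'] [Finite (IsLocalRing.ResidueField O')]
    [CharZero O'] (hlamO' : (lam : O') ∈ IsLocalRing.maximalIdeal O')
    (chig : CuspForm.heckeAlgebra M 2 (↑S : Set ℕ) →+* ℂ)
    (hchig : ∀ (ℓ : ℕ) (hℓ : ℓ.Prime) (hℓM : ¬ ℓ ∣ M) (hℓS : ℓ ∉ (↑S : Set ℕ)),
      chig (CuspForm.heckeAlgebra.T hℓ hℓM hℓS) = ModularFormClass.qCoeff g ℓ)
    (iota : chig.range →+* O')
    (hlamS : lam ∈ S) (hMS : ∀ q : ℕ, q.Prime → q ∣ M → q ∈ S)
    :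
    ∃ (O'' : Type) (_ : CommRing O'') (_ : IsDomain O'') (_ : IsDiscreteValuationRing O'')
      (_ : IsAdicComplete (IsLocalRing.maximalIdeal O'') O'') (_ : Finite (IsLocalRing.ResidueField O''))
      (_ : CharZero O'') (_ : Algebra O' O'') (_ : Module.Finite O' O'') (_ : IsLocalHom (algebraMap O' O'')),
      Function.Injective (algebraMap O' O'') ∧
      ∃ ρ : GaloisRepAdic O'',
        (∀ (ℓ : ℕ) (hℓ : ℓ.Prime) (hℓM : ¬ ℓ ∣ M) (hℓS : ℓ ∉ (↑S : Set ℕ)),
          ∀ A : ValuationSubring (AlgebraicClosure ℚ), A.LiesOverPrime ℓ →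
            ∀ σ : AlgebraicClosure ℚ ≃ₐ[ℚ] AlgebraicClosure ℚ, A.IsFrobeniusAt σ ℓ →
              LinearMap.charpoly (ρ.ρ σ) =
                X ^ 2 - C (algebraMap O' O'' ((iota.comp chig.rangeRestrict) (CuspForm.heckeAlgebra.T hℓ hℓM hℓS))) * X
                  + C ((ℓ : O''))) ∧
        (∀ q : ℕ, q.Prime → q ≠ lam → q ∣ M → ¬ q ^ 2 ∣ M →
          ∀ A : ValuationSubring (AlgebraicClosure ℚ), A.LiesOverPrime q →
            ∀ σ : AlgebraicClosure ℚ ≃ₐ[ℚ] AlgebraicClosure ℚ, A.IsFrobeniusAt σ q →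
              LinearMap.charpoly (ρ.ρ σ) = X ^ 2 - C ((q : O'') + 1) * X + C ((q : O'')) ∨
              LinearMap.charpoly (ρ.ρ σ) = X ^ 2 + C ((q : O'') + 1) * X + C ((q : O''))) :=
  result_of (stmt_EigenQ_of hJ) stmt_GenCheb hg lam S O' hlamO' chig hchig iota hlamS hMS

end Fermat.Agent.S35.helper1307
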