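import Fermat.Agent.S35.helper1687_UqCong
import Fermat.Agent.S34.helper584_UniInst
import Fermat.Agent.S29.helper36_FunctionFieldL
import Fermat.Agent.S35.helper1073_AtkinLehnerSwap
import Fermat.Agent.S35.helper1219_GaussWitness

/-!
# S35/S34-COMMONREP (helper1687): common representatives on `K^∞_n ⊓ K^0_n`

The Spec of S35 (`helper2039.Stmt_TorFrob`, and its S34 twin `Stmt_TorFix`) quantifies over the
classes `y ∈ kInfty A M n ⊓ kZero A M n W`, i.e. classes with ONE REPRESENTATIVE PER VALUATION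
(`h₁ ≡ 1` at `v_∞`, `h₂ ≡ 1` at `v_0 = v_∞ ∘ W⁻¹`).  The geometry module (E5) concludes for ONE
`n`-Kummer function `h ≡ 1` at BOTH valuations.  This file is the adapter.

* `exists_approx_of_arch` : strong approximation for two valuations (Mathlib only);
* `exists_common_rep` : every `y ∈ kInfty ⊓ kZero W` is the class of one `n`-Kummer `h` with
  `v (h - 1) < 1` and `v (W.symm h - 1) < 1`, `v` the valuation of the Gauss ring
  `helper8991.gaussF A (residue A) M`;
* `smul_eq_nsmul_on_tor_of_element`, `torFrob_of_element`, `torFix_of_element` : the class form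
  of "`g` acts as `e` on `K^∞_n ⊓ K^0_n`" from the element form;
* `torFrob_atkinLehner_of_element`, `torFix_atkinLehner_of_element` : the instance
  `W = helper1073.atkinLehnerBar M q` (witnesses `j - j_q^q`, `j_q - j^q` of helper1219), in the
  shape of the instances of `helper2039.Stmt_TorFrob` / `Stmt_TorFix`.
-/

set_option autoImplicit false

open ModularCurve AlgebraicCurve HahnSeries

namespace Fermat.Agent.S35.helper1687

noncomputable section

local notation "Kbar" => AlgebraicClosure ℚ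
local notation "GQ" => (AlgebraicClosure ℚ ≃ₐ[ℚ] AlgebraicClosure ℚ)

/-! ### Strong approximation for two valuations -/

section Approx

variable {F Γ₁ Γ₂ : Type*} [Field F] [LinearOrderedCommGroupWithZero Γ₁]
  [LinearOrderedCommGroupWithZero Γ₂]

/-- **Strong approximation for two valuations.**  Let `b` be a unit for `v₁` and small for `v₂`,
`c` small for `v₁` and a unit for `v₂`, and assume that the powers of `c` (resp. `b`) become
arbitrarily small for `v₁` (resp. `v₂`).  Then for `d, f ≠ 0` there is `g` with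
`v₁ (g - d) < v₁ d` and `v₂ (g - f) < v₂ f`. -/
theorem exists_approx_of_arch (v₁ : Valuation F Γ₁) (v₂ : Valuation F Γ₂) (b c : F)
    (hb₁ : v₁ b = 1) (hb₂ : v₂ b < 1) (hc₁ : v₁ c < 1) (hc₂ : v₂ c = 1)
    (harch₁ : ∀ x : F, x ≠ 0 → ∃ k : ℕ, v₁ (c ^ k / x) < 1)
    (harch₂ : ∀ x : F, x ≠ 0 → ∃ k : ℕ, v₂ (b ^ k / x) < 1)
    (d f : F) (hd : d ≠ 0) (hf : f ≠ 0) :
    ∃ g : F, v₁ (g - d) < v₁ d ∧ v₂ (g - f) < v₂ f := by
  have hd₁ : 0 < v₁ d := zero_lt_iff.mpr ((Valuation.ne_zero_iff _).mpr hd)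
  have hf₂ : 0 < v₂ f := zero_lt_iff.mpr ((Valuation.ne_zero_iff _).mpr hf)
  rcases eq_or_ne f d with rfl | hfd
  · exact ⟨f, by rw [sub_self, map_zero]; exact hd₁, by rw [sub_self, map_zero]; exact hf₂⟩
  have hx : f - d ≠ 0 := sub_ne_zero.mpr hfd
  have hx' : d - f ≠ 0 := sub_ne_zero.mpr (Ne.symm hfd)
  obtain ⟨k₁, hk₁⟩ := harch₁ (d / (f - d)) (div_ne_zero hd hx)
  obtain ⟨k₂, hk₂⟩ := harch₂ (f / (d - f)) (div_ne_zero hf hx')
  -- the exponent
  obtain ⟨N, hN⟩ : ∃ N : ℕ, N = max k₁ k₂ + 1 := ⟨_, rfl⟩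
  have hN1 : k₁ ≤ N := by rw [hN]; exact (le_max_left _ _).trans (Nat.le_succ _)
  have hN2 : k₂ ≤ N := by rw [hN]; exact (le_max_right _ _).trans (Nat.le_succ _)
  have hN0 : N ≠ 0 := by rw [hN]; exact Nat.succ_ne_zero _
  have hcN : v₁ (c ^ N) < 1 := by
    rw [map_pow]
    exact pow_lt_one₀ zero_le hc₁ hN0
  have hbN : v₂ (b ^ N) < 1 := by
    rw [map_pow]
    exact pow_lt_one₀ zero_le hb₂ hN0
  have hD₁ : v₁ (b ^ N + c ^ N) = 1 := by
    have h1 : v₁ (b ^ N) = 1 := by rw [map_pow, hb₁, one_pow]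
    rw [Valuation.map_add_eq_of_lt_left _ (by rw [h1]; exact hcN), h1]
  have hD₂ : v₂ (b ^ N + c ^ N) = 1 := by
    have h1 : v₂ (c ^ N) = 1 := by rw [map_pow, hc₂, one_pow]
    rw [Valuation.map_add_eq_of_lt_right _ (by rw [h1]; exact hbN), h1]
  have hD0 : b ^ N + c ^ N ≠ 0 := by
    intro h0
    rw [h0, map_zero] at hD₁
    exact zero_ne_one hD₁
  -- the two estimates
  have e₁ : v₁ (c ^ N * (f - d)) < v₁ d := by
    have h1 : v₁ (c ^ k₁ * (f - d)) < v₁ d := by
      have h2 : c ^ k₁ / (d / (f - d)) = c ^ k₁ * (f - d) / d := by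
        field_simp
      rw [h2, map_div₀, div_lt_one₀ hd₁] at hk₁
      exact hk₁
    refine lt_of_le_of_lt ?_ h1
    rw [map_mul, map_mul, map_pow, map_pow]
    exact mul_le_mul_left (pow_le_pow_of_le_one zero_le hc₁.le hN1) _
  have e₂ : v₂ (b ^ N * (d - f)) < v₂ f := by
    have h1 : v₂ (b ^ k₂ * (d - f)) < v₂ f := by
      have h2 : b ^ k₂ / (f / (d - f)) = b ^ k₂ * (d - f) / f := by
        field_simp
      rw [h2, map_div₀, div_lt_one₀ hf₂] at hk₂
      exact hk₂
    refine lt_of_le_of_lt ?_ h1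
    rw [map_mul, map_mul, map_pow, map_pow]
    exact mul_le_mul_left (pow_le_pow_of_le_one zero_le hb₂.le hN2) _
  refine ⟨(d * b ^ N + f * c ^ N) / (b ^ N + c ^ N), ?_, ?_⟩
  · have h1 : (d * b ^ N + f * c ^ N) / (b ^ N + c ^ N) - d
        = c ^ N * (f - d) / (b ^ N + c ^ N) := by
      field_simp
      ring
    rw [h1, map_div₀, hD₁, div_one]
    exact e₁
  · have h1 : (d * b ^ N + f * c ^ N) / (b ^ N + c ^ N) - f
        = b ^ N * (d - f) / (b ^ N + c ^ N) := by
      field_simp
      ring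
    rw [h1, map_div₀, hD₂, div_one]
    exact e₂

end Approx

/-! ### Elements congruent to `1` for a valuation -/

section OneUnits

variable {F Γ : Type*} [Field F] [LinearOrderedCommGroupWithZero Γ] (v : Valuation F Γ)

theorem val_eq_one_of_sub_one_lt {x : F} (hx : v (x - 1) < 1) : v x = 1 := by
  have e : x = 1 + (x - 1) := by ring
  rw [e, Valuation.map_add_eq_of_lt_left _ (by rw [map_one]; exact hx), map_one]

theorem ne_zero_of_sub_one_lt {x : F} (hx : v (x - 1) < 1) : x ≠ 0 := by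
  rintro rfl
  have h := val_eq_one_of_sub_one_lt v hx
  rw [map_zero] at h
  exact zero_ne_one h

theorem val_mul_sub_one_lt {x y : F} (hx : v (x - 1) < 1) (hy : v (y - 1) < 1) :
    v (x * y - 1) < 1 := by
  have e : x * y - 1 = (x - 1) * y + (y - 1) := by ring
  rw [e]
  refine Valuation.map_add_lt _ ?_ hy
  rw [map_mul, val_eq_one_of_sub_one_lt v hy, mul_one]
  exact hx

theorem val_inv_sub_one_lt {x : F} (hx : v (x - 1) < 1) : v (x⁻¹ - 1) < 1 := by
  have h0 := ne_zero_of_sub_one_lt v hx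
  have e : x⁻¹ - 1 = -((x - 1) / x) := by
    field_simp
    ring
  rw [e, Valuation.map_neg, map_div₀, val_eq_one_of_sub_one_lt v hx, div_one]
  exact hx

theorem val_div_sub_one_lt {x y : F} (hx : v (x - 1) < 1) (hy : v (y - 1) < 1) :
    v (x / y - 1) < 1 := by
  rw [div_eq_mul_inv]
  exact val_mul_sub_one_lt v hx (val_inv_sub_one_lt v hy)

theorem val_pow_sub_one_lt {x : F} (hx : v (x - 1) < 1) (n : ℕ) : v (x ^ n - 1) < 1 := by
  induction n with
  | zero => rw [pow_zero, sub_self, map_zero]; exact zero_lt_one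
  | succ n ih => rw [pow_succ]; exact val_mul_sub_one_lt v ih hx

/-- `v (g - f) < v f` means `g / f ≡ 1`. -/
theorem val_div_sub_one_lt_of_sub_lt {f g : F} (hf : f ≠ 0) (h : v (g - f) < v f) :
    v (g / f - 1) < 1 := by
  have e : g / f - 1 = (g - f) / f := by
    field_simp
  rw [e, map_div₀, div_lt_one₀ (zero_lt_iff.mpr ((Valuation.ne_zero_iff _).mpr hf))]
  exact h

end OneUnits

/-! ### Common representatives -/

section CommonRep

open Fermat.Agent.S29.helper8217

variable {A : ValuationSubring Kbar} {M n : ℕ} [NeZero M]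

/-- **Common representative.**  `q` a prime, `A` a valuation subring of `ℚ̄` over `q`,
`V = gaussF A (residue A) M` the Gauss ring of `F_M`, `W` a `ℚ̄`-automorphism of `F_M` with
witnesses `b`, `c` that `V` and its `W`-twin are distinct.  Then every class of
`K^∞_n ⊓ K^0_n` is the class of ONE `n`-Kummer function `h` with `h ≡ 1` at `V` and
`W⁻¹ h ≡ 1` at `V`. -/
theorem exists_common_rep {q : ℕ} (hq : q.Prime) (hA : A.LiesOverPrime q) (hn : n ≠ 0)
    (W : modularFunctionFieldBar M ≃ₐ[Kbar] modularFunctionFieldBar M)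
    (b c : modularFunctionFieldBar M)
    (hb₁ : (Fermat.Agent.S18.helper8991.gaussF A (IsLocalRing.residue A) M).valuation b = 1)
    (hb₂ : (Fermat.Agent.S18.helper8991.gaussF A (IsLocalRing.residue A) M).valuation
      (W.symm b) < 1)
    (hc₁ : (Fermat.Agent.S18.helper8991.gaussF A (IsLocalRing.residue A) M).valuation c < 1)
    (hc₂ : (Fermat.Agent.S18.helper8991.gaussF A (IsLocalRing.residue A) M).valuation
      (W.symm c) = 1)
    {y : JZero M} (hy₁ : y ∈ kInfty A M n) (hy₂ : y ∈ kZero A M n W) :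
    ∃ h : modularFunctionFieldBar M, IsKummer Kbar n h ∧
      (Fermat.Agent.S18.helper8991.gaussF A (IsLocalRing.residue A) M).valuation (h - 1) < 1 ∧
      (Fermat.Agent.S18.helper8991.gaussF A (IsLocalRing.residue A) M).valuation
        (W.symm h - 1) < 1 ∧
      kummerClass Kbar n h = y := by
  obtain ⟨h₁, hk₁, ho₁, rfl⟩ := hy₁
  obtain ⟨h₂, hk₂, ho₂, hcl⟩ := mem_kZero_iff_exists.mp hy₂
  rw [isOneAt_iff_valuation] at ho₁ ho₂
  obtain ⟨w, c₁, hw, hc₁0, hc₁v, hrel⟩ := (kummerClass_eq_iff hn hk₁ hk₂).mp hcl.symm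
  -- the divisor-free factor is an `n`-th power of a constant
  obtain ⟨a, rfl⟩ := Fermat.Agent.S29.helper36.exists_algebraMap_eq_of_ord_eq_zero Kbar M hc₁v
  have ha : a ≠ 0 := by
    rintro rfl
    exact hc₁0 (map_zero _)
  obtain ⟨d₀, hd₀⟩ := IsAlgClosed.exists_pow_nat_eq a (Nat.pos_of_ne_zero hn)
  have hd₀0 : d₀ ≠ 0 := by
    rintro rfl
    rw [zero_pow hn] at hd₀
    exact ha hd₀.symm
  obtain ⟨f, hf⟩ : ∃ f : modularFunctionFieldBar M,
      f = algebraMap Kbar (modularFunctionFieldBar M) d₀ * w := ⟨_, rfl⟩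
  have hf0 : f ≠ 0 := by
    rw [hf]
    exact mul_ne_zero ((map_ne_zero _).mpr hd₀0) hw
  have hrel' : h₁ = h₂ * f ^ n := by
    rw [hrel, hf, mul_pow, ← map_pow, hd₀]
  -- the two valuations
  obtain ⟨Wr, hWr⟩ : ∃ Wr : modularFunctionFieldBar M →+* modularFunctionFieldBar M,
      ∀ x, Wr x = W.symm x :=
    ⟨((W.symm : modularFunctionFieldBar M ≃+* modularFunctionFieldBar M) :
      modularFunctionFieldBar M →+* modularFunctionFieldBar M), fun _ => rfl⟩
  obtain ⟨v₁, hv₁⟩ : ∃ v₁, v₁ =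
      (Fermat.Agent.S18.helper8991.gaussF A (IsLocalRing.residue A) M).valuation := ⟨_, rfl⟩
  obtain ⟨v₂, hv₂⟩ : ∃ v₂, v₂ = v₁.comap Wr := ⟨_, rfl⟩
  have hv₂a : ∀ x, v₂ x = v₁ (W.symm x) := by
    intro x
    rw [hv₂, Valuation.comap_apply, hWr]
  rw [← hv₁] at ho₁ ho₂ hb₁ hb₂ hc₁ hc₂ ⊢
  obtain ⟨g, hg₁, hg₂⟩ := exists_approx_of_arch v₁ v₂ b c hb₁ (by rw [hv₂a]; exact hb₂) hc₁
    (by rw [hv₂a]; exact hc₂)
    (fun x hx => by
      rw [hv₁]
      exact Fermat.Agent.S34.helper584.gaussV_arch hq A hA M (by rw [← hv₁]; exact hc₁) hx)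
    (fun x hx => by
      obtain ⟨k, hk⟩ := Fermat.Agent.S34.helper584.gaussV_arch hq A hA M
        (by rw [← hv₁]; exact hb₂) ((map_ne_zero W.symm).mpr hx)
      refine ⟨k, ?_⟩
      rw [hv₂a, map_div₀, map_pow, hv₁]
      exact hk)
    1 f one_ne_zero hf0
  rw [map_one] at hg₁
  have hg0 : g ≠ 0 := ne_zero_of_sub_one_lt v₁ hg₁
  have hgf : v₂ (f / g - 1) < 1 := by
    have h1 := val_inv_sub_one_lt v₂ (val_div_sub_one_lt_of_sub_lt v₂ hf0 hg₂)
    rwa [inv_div] at h1
  have ho₂' : v₂ (h₂ - 1) < 1 := by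
    rw [hv₂a, map_sub, map_one]
    exact ho₂
  refine ⟨h₁ / g ^ n, hk₁.div (isKummer_pow_self n hg0), ?_, ?_, ?_⟩
  · exact val_div_sub_one_lt v₁ ho₁ (val_pow_sub_one_lt v₁ hg₁ n)
  · have e : h₁ / g ^ n = h₂ * (f / g) ^ n := by
      rw [hrel', div_pow, mul_div_assoc]
    have h1 := val_mul_sub_one_lt v₂ ho₂' (val_pow_sub_one_lt v₂ hgf n)
    rw [← e, hv₂a, map_sub, map_one] at h1
    exact h1
  · rw [kummerClass_div hk₁ (isKummer_pow_self n hg0), kummerClass_pow_self hn hg0, sub_zero]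

/-- **Class form from element form**: if `g • h = h ^ e` up to a divisor-free element times an
`n`-th power for every `n`-Kummer `h` with `h ≡ 1` and `W⁻¹ h ≡ 1` at the Gauss ring, then `g`
acts as `e` on `K^∞_n ⊓ K^0_n`. -/
theorem smul_eq_nsmul_on_tor_of_element {q : ℕ} (hq : q.Prime) (hA : A.LiesOverPrime q)
    (hn : n ≠ 0) (W : modularFunctionFieldBar M ≃ₐ[Kbar] modularFunctionFieldBar M)
    (b c : modularFunctionFieldBar M)
    (hb₁ : (Fermat.Agent.S18.helper8991.gaussF A (IsLocalRing.residue A) M).valuation b = 1)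
    (hb₂ : (Fermat.Agent.S18.helper8991.gaussF A (IsLocalRing.residue A) M).valuation
      (W.symm b) < 1)
    (hc₁ : (Fermat.Agent.S18.helper8991.gaussF A (IsLocalRing.residue A) M).valuation c < 1)
    (hc₂ : (Fermat.Agent.S18.helper8991.gaussF A (IsLocalRing.residue A) M).valuation
      (W.symm c) = 1)
    (g : GQ) (e : ℕ)
    (H : ∀ h : modularFunctionFieldBar M, IsKummer Kbar n h →
      (Fermat.Agent.S18.helper8991.gaussF A (IsLocalRing.residue A) M).valuation (h - 1) < 1 →
      (Fermat.Agent.S18.helper8991.gaussF A (IsLocalRing.residue A) M).valuation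
        (W.symm h - 1) < 1 →
      ∃ w c : modularFunctionFieldBar M, w ≠ 0 ∧ c ≠ 0 ∧
        (∀ v : Place Kbar (modularFunctionFieldBar M), v.ord c = 0) ∧
        arithmeticGalois (modularFunctionFieldFull M) g • h = h ^ e * (c * w ^ n))
    (y : JZero M) (hy₁ : y ∈ kInfty A M n) (hy₂ : y ∈ kZero A M n W) : g • y = e • y := by
  obtain ⟨h, hk, h1, h2, rfl⟩ := exists_common_rep hq hA hn W b c hb₁ hb₂ hc₁ hc₂ hy₁ hy₂
  rw [galois_smul_kummerClass, ← kummerClass_pow hk]
  exact (kummerClass_eq_iff hn ((isKummer_smul_iff _).mpr hk) (hk.pow e)).mpr (H h hk h1 h2)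

end CommonRep

/-! ### The instance `W = W_q` (Atkin–Lehner), in the shape of the Spec leaves -/

section AtkinLehner

open Fermat.Agent.S29.helper8217

variable (M : ℕ) [NeZero M] (q : ℕ) (hq : q.Prime) (hqM : q ∣ M) (hq2 : ¬ q ^ 2 ∣ M)

/-- The witnesses `b = j - j_q ^ q`, `c = j_q - j ^ q` (Kronecker) for the Atkin–Lehner
automorphism `W_q = helper1073.atkinLehnerBar M q` and the Gauss ring of `A ∣ q`. -/
theorem exists_witness_atkinLehnerBar (A : ValuationSubring Kbar) (hA : A.LiesOverPrime q) :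
    ∃ b c : modularFunctionFieldBar M,
      (Fermat.Agent.S18.helper8991.gaussF A (IsLocalRing.residue A) M).valuation b = 1 ∧
      (Fermat.Agent.S18.helper8991.gaussF A (IsLocalRing.residue A) M).valuation
        ((Fermat.Agent.S35.helper1073.atkinLehnerBar M q hq hqM hq2).symm b) < 1 ∧
      (Fermat.Agent.S18.helper8991.gaussF A (IsLocalRing.residue A) M).valuation c < 1 ∧
      (Fermat.Agent.S18.helper8991.gaussF A (IsLocalRing.residue A) M).valuation
        ((Fermat.Agent.S35.helper1073.atkinLehnerBar M q hq hqM hq2).symm c) = 1 := by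
  have : NeZero q := ⟨hq.ne_zero⟩
  have : Fact q.Prime := ⟨hq⟩
  have : CharP (IsLocalRing.ResidueField A) q :=
    Fermat.Agent.Lib.helper6879.charP_residueField hq A hA
  have hW1 := Fermat.Agent.S35.helper1073.atkinLehnerBar_jBar M q hq hqM hq2
  have hW2 := Fermat.Agent.S35.helper1073.atkinLehnerBar_jBarD_self M q hq hqM hq2
  refine ⟨Fermat.Agent.S35.helper1219.kronWitness M q hqM,
    Fermat.Agent.S35.helper1219.kronWitness' M q hqM, ?_, ?_, ?_, ?_⟩
  · exact Fermat.Agent.S35.helper1219.valuation_kronWitness A (IsLocalRing.residue A) M q hqM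
  · rw [Fermat.Agent.S35.helper1073.atkinLehnerBar_symm,
      Fermat.Agent.S35.helper1219.W_kronWitness M q hqM _ hW1 hW2]
    exact Fermat.Agent.S35.helper1219.valuation_kronWitness'_lt_one A (IsLocalRing.residue A) M q
      hqM
  · exact Fermat.Agent.S35.helper1219.valuation_kronWitness'_lt_one A (IsLocalRing.residue A) M q
      hqM
  · rw [Fermat.Agent.S35.helper1073.atkinLehnerBar_symm,
      Fermat.Agent.S35.helper1219.W_kronWitness' M q hqM _ hW1 hW2]
    exact Fermat.Agent.S35.helper1219.valuation_kronWitness A (IsLocalRing.residue A) M q hqM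

/-- Every class of `K^∞_n ⊓ W_q K^∞_n` is the class of ONE `n`-Kummer function `h` with
`h ≡ 1` and `W_q h ≡ 1` at the Gauss ring of `A ∣ q`. -/
theorem exists_common_rep_atkinLehner {n : ℕ} (hn : n ≠ 0) (A : ValuationSubring Kbar)
    (hA : A.LiesOverPrime q) {y : JZero M} (hy₁ : y ∈ kInfty A M n)
    (hy₂ : y ∈ kZero A M n (Fermat.Agent.S35.helper1073.atkinLehnerBar M q hq hqM hq2)) :
    ∃ h : modularFunctionFieldBar M, IsKummer Kbar n h ∧
      (Fermat.Agent.S18.helper8991.gaussF A (IsLocalRing.residue A) M).valuation (h - 1) < 1 ∧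
      (Fermat.Agent.S18.helper8991.gaussF A (IsLocalRing.residue A) M).valuation
        (Fermat.Agent.S35.helper1073.atkinLehnerBar M q hq hqM hq2 h - 1) < 1 ∧
      kummerClass Kbar n h = y := by
  obtain ⟨b, c, hb₁, hb₂, hc₁, hc₂⟩ := exists_witness_atkinLehnerBar M q hq hqM hq2 A hA
  exact exists_common_rep hq hA hn _ b c hb₁ hb₂ hc₁ hc₂ hy₁ hy₂

/-- **Class form from element form, `W = W_q`** (hypothesis in the shape of
`S34.helper584.Stmt_TorFix`: `v (h - 1) < 1`, `v (W_q h - 1) < 1`). -/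
theorem smul_eq_nsmul_on_tor_atkinLehner_of_element {n : ℕ} (hn : n ≠ 0)
    (A : ValuationSubring Kbar) (hA : A.LiesOverPrime q) (g : GQ) (e : ℕ)
    (H : ∀ h : modularFunctionFieldBar M, IsKummer Kbar n h →
      (Fermat.Agent.S18.helper8991.gaussF A (IsLocalRing.residue A) M).valuation (h - 1) < 1 →
      (Fermat.Agent.S18.helper8991.gaussF A (IsLocalRing.residue A) M).valuation
        (Fermat.Agent.S35.helper1073.atkinLehnerBar M q hq hqM hq2 h - 1) < 1 →
      ∃ w c : modularFunctionFieldBar M, w ≠ 0 ∧ c ≠ 0 ∧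
        (∀ v : Place Kbar (modularFunctionFieldBar M), v.ord c = 0) ∧
        arithmeticGalois (modularFunctionFieldFull M) g • h = h ^ e * (c * w ^ n))
    (y : JZero M) (hy₁ : y ∈ kInfty A M n)
    (hy₂ : y ∈ kZero A M n (Fermat.Agent.S35.helper1073.atkinLehnerBar M q hq hqM hq2)) :
    g • y = e • y := by
  obtain ⟨b, c, hb₁, hb₂, hc₁, hc₂⟩ := exists_witness_atkinLehnerBar M q hq hqM hq2 A hA
  exact smul_eq_nsmul_on_tor_of_element hq hA hn _ b c hb₁ hb₂ hc₁ hc₂ g e H y hy₁ hy₂

/-- **Class form from element form, `W = W_q`, two-ring shape** (hypothesis in the shape of the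
conclusions of the geometry module E5: `V₁ = gaussF A (residue A) M`,
`V₂ = V₁.comap W_q` (`= helper882.gpRingW = helper1219.gaussFW`), `h ≡ 1` for both). -/
theorem smul_eq_nsmul_on_tor_atkinLehner_of_comap {n : ℕ} (hn : n ≠ 0)
    (A : ValuationSubring Kbar) (hA : A.LiesOverPrime q) (g : GQ) (e : ℕ)
    (H : ∀ h : modularFunctionFieldBar M, IsKummer Kbar n h →
      (Fermat.Agent.S18.helper8991.gaussF A (IsLocalRing.residue A) M).valuation (h - 1) < 1 →
      ((Fermat.Agent.S18.helper8991.gaussF A (IsLocalRing.residue A) M).comap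
        ((Fermat.Agent.S35.helper1073.atkinLehnerBar M q hq hqM hq2 :
          modularFunctionFieldBar M ≃+* modularFunctionFieldBar M) :
          modularFunctionFieldBar M →+* modularFunctionFieldBar M)).valuation (h - 1) < 1 →
      ∃ w c : modularFunctionFieldBar M, w ≠ 0 ∧ c ≠ 0 ∧
        (∀ v : Place Kbar (modularFunctionFieldBar M), v.ord c = 0) ∧
        arithmeticGalois (modularFunctionFieldFull M) g • h = h ^ e * (c * w ^ n))
    (y : JZero M) (hy₁ : y ∈ kInfty A M n)
    (hy₂ : y ∈ kZero A M n (Fermat.Agent.S35.helper1073.atkinLehnerBar M q hq hqM hq2)) :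
    g • y = e • y := by
  refine smul_eq_nsmul_on_tor_atkinLehner_of_element M q hq hqM hq2 hn A hA g e
    (fun h hk h1 h2 => H h hk h1 ?_) y hy₁ hy₂
  rw [Fermat.Agent.S35.helper1219.valuation_comap_lt_one_iff]
  have e1 : ((Fermat.Agent.S35.helper1073.atkinLehnerBar M q hq hqM hq2 :
      modularFunctionFieldBar M ≃+* modularFunctionFieldBar M) :
      modularFunctionFieldBar M →+* modularFunctionFieldBar M) (h - 1)
      = Fermat.Agent.S35.helper1073.atkinLehnerBar M q hq hqM hq2 h - 1 := by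
    rw [map_sub, map_one]
    rfl
  rw [e1]
  exact h2

/-- **(TORFROB), class form (an instance of `helper2039.Stmt_TorFrob`) from the element form**:
`(σ σ) • h = h ^ (q ^ 2)` up to a divisor-free element times an `n`-th power, for every
`n`-Kummer `h ≡ 1` at both Gauss rings. -/
theorem torFrob_atkinLehner_of_element {n : ℕ} (hn : n ≠ 0)
    (A : ValuationSubring Kbar) (hA : A.LiesOverPrime q) (σ : GQ)
    (H : ∀ h : modularFunctionFieldBar M, IsKummer Kbar n h →
      (Fermat.Agent.S18.helper8991.gaussF A (IsLocalRing.residue A) M).valuation (h - 1) < 1 →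
      (Fermat.Agent.S18.helper8991.gaussF A (IsLocalRing.residue A) M).valuation
        (Fermat.Agent.S35.helper1073.atkinLehnerBar M q hq hqM hq2 h - 1) < 1 →
      ∃ w c : modularFunctionFieldBar M, w ≠ 0 ∧ c ≠ 0 ∧
        (∀ v : Place Kbar (modularFunctionFieldBar M), v.ord c = 0) ∧
        arithmeticGalois (modularFunctionFieldFull M) (σ * σ) • h = h ^ (q ^ 2) * (c * w ^ n))
    (y : JZero M) (hy₁ : y ∈ kInfty A M n)
    (hy₂ : y ∈ kZero A M n (Fermat.Agent.S35.helper1073.atkinLehnerBar M q hq hqM hq2)) :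
    σ • σ • y = q ^ 2 • y := by
  rw [← mul_smul]
  exact smul_eq_nsmul_on_tor_atkinLehner_of_element M q hq hqM hq2 hn A hA (σ * σ) (q ^ 2) H y
    hy₁ hy₂

/-- (TORFROB), class form from the two-ring element form (`V₂ = V₁.comap W_q`). -/
theorem torFrob_atkinLehner_of_comap {n : ℕ} (hn : n ≠ 0)
    (A : ValuationSubring Kbar) (hA : A.LiesOverPrime q) (σ : GQ)
    (H : ∀ h : modularFunctionFieldBar M, IsKummer Kbar n h →
      (Fermat.Agent.S18.helper8991.gaussF A (IsLocalRing.residue A) M).valuation (h - 1) < 1 →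
      ((Fermat.Agent.S18.helper8991.gaussF A (IsLocalRing.residue A) M).comap
        ((Fermat.Agent.S35.helper1073.atkinLehnerBar M q hq hqM hq2 :
          modularFunctionFieldBar M ≃+* modularFunctionFieldBar M) :
          modularFunctionFieldBar M →+* modularFunctionFieldBar M)).valuation (h - 1) < 1 →
      ∃ w c : modularFunctionFieldBar M, w ≠ 0 ∧ c ≠ 0 ∧
        (∀ v : Place Kbar (modularFunctionFieldBar M), v.ord c = 0) ∧
        arithmeticGalois (modularFunctionFieldFull M) (σ * σ) • h = h ^ (q ^ 2) * (c * w ^ n))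
    (y : JZero M) (hy₁ : y ∈ kInfty A M n)
    (hy₂ : y ∈ kZero A M n (Fermat.Agent.S35.helper1073.atkinLehnerBar M q hq hqM hq2)) :
    σ • σ • y = q ^ 2 • y := by
  rw [← mul_smul]
  exact smul_eq_nsmul_on_tor_atkinLehner_of_comap M q hq hqM hq2 hn A hA (σ * σ) (q ^ 2) H y
    hy₁ hy₂

/-- **(TORFIX), class form (an instance of `helper2039.Stmt_TorFix`) from the element form**
`S34.helper584.Stmt_TorFix M n A W_q τ`. -/
theorem torFix_atkinLehner_of_element {n : ℕ} (hn : n ≠ 0)
    (A : ValuationSubring Kbar) (hA : A.LiesOverPrime q) (τ : GQ)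
    (H : Fermat.Agent.S34.helper584.Stmt_TorFix M n A
      (Fermat.Agent.S35.helper1073.atkinLehnerBar M q hq hqM hq2) τ)
    (y : JZero M) (hy₁ : y ∈ kInfty A M n)
    (hy₂ : y ∈ kZero A M n (Fermat.Agent.S35.helper1073.atkinLehnerBar M q hq hqM hq2)) :
    τ • y = y := by
  have h1 := smul_eq_nsmul_on_tor_atkinLehner_of_element M q hq hqM hq2 hn A hA τ 1
    (fun h hk h1 h2 => by
      obtain ⟨w, c, hw, hc, hcv, hrel⟩ := H h hk h1 h2
      exact ⟨w, c, hw, hc, hcv, by rw [pow_one]; exact hrel⟩) y hy₁ hy₂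
  rwa [one_smul] at h1

/-- (TORFIX), class form from the two-ring element form (`V₂ = V₁.comap W_q`). -/
theorem torFix_atkinLehner_of_comap {n : ℕ} (hn : n ≠ 0)
    (A : ValuationSubring Kbar) (hA : A.LiesOverPrime q) (τ : GQ)
    (H : ∀ h : modularFunctionFieldBar M, IsKummer Kbar n h →
      (Fermat.Agent.S18.helper8991.gaussF A (IsLocalRing.residue A) M).valuation (h - 1) < 1 →
      ((Fermat.Agent.S18.helper8991.gaussF A (IsLocalRing.residue A) M).comap
        ((Fermat.Agent.S35.helper1073.atkinLehnerBar M q hq hqM hq2 :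
          modularFunctionFieldBar M ≃+* modularFunctionFieldBar M) :
          modularFunctionFieldBar M →+* modularFunctionFieldBar M)).valuation (h - 1) < 1 →
      ∃ w c : modularFunctionFieldBar M, w ≠ 0 ∧ c ≠ 0 ∧
        (∀ v : Place Kbar (modularFunctionFieldBar M), v.ord c = 0) ∧
        arithmeticGalois (modularFunctionFieldFull M) τ • h = h * (c * w ^ n))
    (y : JZero M) (hy₁ : y ∈ kInfty A M n)
    (hy₂ : y ∈ kZero A M n (Fermat.Agent.S35.helper1073.atkinLehnerBar M q hq hqM hq2)) :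
    τ • y = y := by
  have h1 := smul_eq_nsmul_on_tor_atkinLehner_of_comap M q hq hqM hq2 hn A hA τ 1
    (fun h hk h1 h2 => by
      obtain ⟨w, c, hw, hc, hcv, hrel⟩ := H h hk h1 h2
      exact ⟨w, c, hw, hc, hcv, by rw [pow_one]; exact hrel⟩) y hy₁ hy₂
  rwa [one_smul] at h1

/-- (TORFROB), class form from the two-ring element form, with the semilinear automorphism
written as the product `arithmeticGalois σ * arithmeticGalois σ` (the `τ` of
`helper3729.torFrob_of_nodal` / `torFrob_of_glued`). -/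
theorem torFrob_atkinLehner_of_comap_mul {n : ℕ} (hn : n ≠ 0)
    (A : ValuationSubring Kbar) (hA : A.LiesOverPrime q) (σ : GQ)
    (H : ∀ h : modularFunctionFieldBar M, IsKummer Kbar n h →
      (Fermat.Agent.S18.helper8991.gaussF A (IsLocalRing.residue A) M).valuation (h - 1) < 1 →
      ((Fermat.Agent.S18.helper8991.gaussF A (IsLocalRing.residue A) M).comap
        ((Fermat.Agent.S35.helper1073.atkinLehnerBar M q hq hqM hq2 :
          modularFunctionFieldBar M ≃+* modularFunctionFieldBar M) :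
          modularFunctionFieldBar M →+* modularFunctionFieldBar M)).valuation (h - 1) < 1 →
      ∃ w c : modularFunctionFieldBar M, w ≠ 0 ∧ c ≠ 0 ∧
        (∀ v : Place Kbar (modularFunctionFieldBar M), v.ord c = 0) ∧
        (arithmeticGalois (modularFunctionFieldFull M) σ *
          arithmeticGalois (modularFunctionFieldFull M) σ) • h = h ^ (q ^ 2) * (c * w ^ n))
    (y : JZero M) (hy₁ : y ∈ kInfty A M n)
    (hy₂ : y ∈ kZero A M n (Fermat.Agent.S35.helper1073.atkinLehnerBar M q hq hqM hq2)) :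
    σ • σ • y = q ^ 2 • y :=
  torFrob_atkinLehner_of_comap M q hq hqM hq2 hn A hA σ
    (fun h hk h1 h2 => by rw [map_mul]; exact H h hk h1 h2) y hy₁ hy₂

/-- (TORFROB), class form from the two-ring element form, iterated-action shape
`arithmeticGalois σ • arithmeticGalois σ • h`. -/
theorem torFrob_atkinLehner_of_comap_smul {n : ℕ} (hn : n ≠ 0)
    (A : ValuationSubring Kbar) (hA : A.LiesOverPrime q) (σ : GQ)
    (H : ∀ h : modularFunctionFieldBar M, IsKummer Kbar n h →
      (Fermat.Agent.S18.helper8991.gaussF A (IsLocalRing.residue A) M).valuation (h - 1) < 1 →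
      ((Fermat.Agent.S18.helper8991.gaussF A (IsLocalRing.residue A) M).comap
        ((Fermat.Agent.S35.helper1073.atkinLehnerBar M q hq hqM hq2 :
          modularFunctionFieldBar M ≃+* modularFunctionFieldBar M) :
          modularFunctionFieldBar M →+* modularFunctionFieldBar M)).valuation (h - 1) < 1 →
      ∃ w c : modularFunctionFieldBar M, w ≠ 0 ∧ c ≠ 0 ∧
        (∀ v : Place Kbar (modularFunctionFieldBar M), v.ord c = 0) ∧
        arithmeticGalois (modularFunctionFieldFull M) σ •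
          arithmeticGalois (modularFunctionFieldFull M) σ • h = h ^ (q ^ 2) * (c * w ^ n))
    (y : JZero M) (hy₁ : y ∈ kInfty A M n)
    (hy₂ : y ∈ kZero A M n (Fermat.Agent.S35.helper1073.atkinLehnerBar M q hq hqM hq2)) :
    σ • σ • y = q ^ 2 • y :=
  torFrob_atkinLehner_of_comap M q hq hqM hq2 hn A hA σ
    (fun h hk h1 h2 => by rw [map_mul, mul_smul]; exact H h hk h1 h2) y hy₁ hy₂

end AtkinLehner

end

end Fermat.Agent.S35.helper1687
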