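import Fermat.Agent.S34.helper2423_NodalInst
import Fermat.Agent.S35.helper1928_InstGeneric
import Fermat.Agent.S35.helper2974_ChartDiv

/-!
# S35/S34 geometry module: the chart / node package with an EXPLICIT chart (helper1928)

`S34.helper2423.Stmt_ChartNodes q M h' A` hides the chart function `x`, its reductions `x₁`, `x₂`
and the nodes `P`, `Q` behind existential quantifiers.  Consumers outside S34/S35 (S33: seeds on
the `t_2`-chart at the modulus `n = q ^ m`) need them explicitly.

* `ChartNodesAt q M h' A hdegk x x₁ x₂ P Q` : the body of `Stmt_ChartNodes`, verbatim, as a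
  predicate on `x`, `x₁`, `x₂`, `P`, `Q`;
* `stmt_ChartNodes_iff` : `Stmt_ChartNodes` is the existential closure of `ChartNodesAt`
  (`Iff.rfl`);
* `twisted_lattice_of_chartNodesAt` : the conclusion of
  `helper603.twisted_lattice_of_components` at the pair of Gauss valuations of `F_{q M}`, for
  the pole / zero divisors of the explicit `x`, `x₁`, `x₂` (any divisors with the pointwise
  formulas `E1 w = max 0 (-(w.ord x))`, …), for EVERY modulus `n ≠ 0` (no coprimality with `q`).
-/

set_option autoImplicit false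

noncomputable section

namespace Fermat.Agent.S35.helper1928

open AlgebraicCurve ModularCurve
open Fermat.Agent.S24.helper24
open Fermat.Agent.S18
open Fermat.Agent.S35.helper1219
open Fermat.Agent.S35.helper603 (valueAt nodeRing evalAt pairRR glued nodeInclAlg IsNodalRR)
open Fermat.Agent.S35.helper882 (gpVal gpBase gpRed gpRing)

section ChartNodesAt

variable (q M : ℕ) [NeZero q] [NeZero M] (h' : Nat.Coprime q M) (A : ValuationSubring Kbar)

local notation "kA" => IsLocalRing.ResidueField A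
local notation "FkM" => modularFunctionFieldFullC (IsLocalRing.ResidueField A) M

/-- **The chart / node package at the level `q * M` for an explicit chart function `x`, explicit
reductions `x₁`, `x₂` and explicit nodes `P i`, `Q i`**: the body of
`S34.helper2423.Stmt_ChartNodes`, verbatim. -/
def ChartNodesAt
    (hdegk : ∀ w : Place (IsLocalRing.ResidueField A)
      ↥(modularFunctionFieldFullC (IsLocalRing.ResidueField A) M), w.deg = 1)
    (x : modularFunctionFieldBar (q * M))
    (x₁ x₂ : ↥(modularFunctionFieldFullC (IsLocalRing.ResidueField A) M))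
    {I : Type}
    (P Q : I → Place (IsLocalRing.ResidueField A)
      ↥(modularFunctionFieldFullC (IsLocalRing.ResidueField A) M)) : Prop :=
    Transcendental Kbar x ∧
    FiniteDimensional (IntermediateField.adjoin Kbar {x}) (modularFunctionFieldBar (q * M)) ∧
    (∀ τ ∈ A.inertiaSubgroupIn ℚ,
      arithmeticGalois (modularFunctionFieldFull (q * M)) τ • x = x) ∧
    (∀ i, gpVal A (q * M) (atkinLehnerBar q M h') i x = 1) ∧
    Transcendental (IsLocalRing.ResidueField A) x₁ ∧
    FiniteDimensional (IntermediateField.adjoin (IsLocalRing.ResidueField A) {x₁})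
      ↥(modularFunctionFieldFullC (IsLocalRing.ResidueField A) M) ∧
    Transcendental (IsLocalRing.ResidueField A) x₂ ∧
    FiniteDimensional (IntermediateField.adjoin (IsLocalRing.ResidueField A) {x₂})
      ↥(modularFunctionFieldFullC (IsLocalRing.ResidueField A) M) ∧
    gpRed A (q * M) (atkinLehnerBar q M h') x =
      fibreIncl (IsLocalRing.ResidueField A) M (x₁, x₂) ∧
    Function.Injective P ∧ Function.Injective Q ∧
    (∀ i, (P i).ord x₁ = 0) ∧ (∀ i, (Q i).ord x₂ = 0) ∧
    ∀ (E1 E2 : Divisor Kbar (modularFunctionFieldBar (q * M)))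
      (Yinf₁ Y0₁ Yinf₂ Y0₂ : Divisor (IsLocalRing.ResidueField A)
        ↥(modularFunctionFieldFullC (IsLocalRing.ResidueField A) M)),
      (∀ w, E1 w = max 0 (-(w.ord x))) → (∀ w, E2 w = max 0 (w.ord x)) →
      (∀ w, Yinf₁ w = max 0 (-(w.ord x₁))) → (∀ w, Y0₁ w = max 0 (w.ord x₁)) →
      (∀ w, Yinf₂ w = max 0 (-(w.ord x₂))) → (∀ w, Y0₂ w = max 0 (w.ord x₂)) →
      (∀ a b : ℕ, ∀ f ∈ riemannRochSpace (a • E1 + b • E2),
        (∀ i, gpVal A (q * M) (atkinLehnerBar q M h') i f ≤ 1) →
        ∃ y₁ ∈ riemannRochSpace (a • Yinf₁ + b • Y0₁),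
          ∃ y₂ ∈ riemannRochSpace (a • Yinf₂ + b • Y0₂),
            gpRed A (q * M) (atkinLehnerBar q M h') f =
              fibreIncl (IsLocalRing.ResidueField A) M (y₁, y₂)) ∧
      (∀ a : ℕ, ∀ f ∈ riemannRochSpace (a • E1),
        (∀ i, gpVal A (q * M) (atkinLehnerBar q M h') i f ≤ 1) →
        ∀ y₁ ∈ riemannRochSpace (a • Yinf₁), ∀ y₂ ∈ riemannRochSpace (a • Yinf₂),
          gpRed A (q * M) (atkinLehnerBar q M h') f =
            fibreIncl (IsLocalRing.ResidueField A) M (y₁, y₂) →
          ∀ i, valueAt (Q i) (hdegk (Q i)) y₂ = valueAt (P i) (hdegk (P i)) y₁) ∧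
      (∀ a : ℕ, ∀ y₁ ∈ riemannRochSpace (a • Yinf₁), ∀ y₂ ∈ riemannRochSpace (a • Yinf₂),
        (∀ i, valueAt (Q i) (hdegk (Q i)) y₂ = valueAt (P i) (hdegk (P i)) y₁) →
        ∃ a' : ℕ, ∃ f ∈ riemannRochSpace (a' • E1),
          (∀ i, gpVal A (q * M) (atkinLehnerBar q M h') i f ≤ 1) ∧
            gpRed A (q * M) (atkinLehnerBar q M h') f =
              fibreIncl (IsLocalRing.ResidueField A) M (y₁, y₂)) ∧
      (∀ b : ℕ, ∀ y₁ ∈ riemannRochSpace (b • Y0₁), ∀ y₂ ∈ riemannRochSpace (b • Y0₂),
        (∀ i, valueAt (Q i) (hdegk (Q i)) y₂ = valueAt (P i) (hdegk (P i)) y₁) →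
        ∃ b' : ℕ, ∃ f ∈ riemannRochSpace (b' • E2),
          (∀ i, gpVal A (q * M) (atkinLehnerBar q M h') i f ≤ 1) ∧
            gpRed A (q * M) (atkinLehnerBar q M h') f =
              fibreIncl (IsLocalRing.ResidueField A) M (y₁, y₂))

/-- `S34.helper2423.Stmt_ChartNodes` is the existential closure of `ChartNodesAt`. -/
theorem stmt_ChartNodes_iff :
    Fermat.Agent.S34.helper2423.Stmt_ChartNodes q M h' A ↔
      ∀ hdegk : (∀ w : Place (IsLocalRing.ResidueField A)
          ↥(modularFunctionFieldFullC (IsLocalRing.ResidueField A) M), w.deg = 1),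
        ∃ (x : modularFunctionFieldBar (q * M))
          (x₁ x₂ : ↥(modularFunctionFieldFullC (IsLocalRing.ResidueField A) M))
          (I : Type) (_ : Fintype I)
          (P Q : I → Place (IsLocalRing.ResidueField A)
            ↥(modularFunctionFieldFullC (IsLocalRing.ResidueField A) M)),
          ChartNodesAt q M h' A hdegk x x₁ x₂ P Q :=
  Iff.rfl

variable {q M}

open Fermat.Agent.S35.helper603 Fermat.Agent.S35.helper2974 in
/-- **The twisted-lattice theorem at the pair of Gauss valuations of `F_{q M}` for an explicit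
chart** (`helper603.twisted_lattice_of_components` with the generic-fibre and special-fibre
hypotheses discharged and the chart / node hypotheses supplied by `ChartNodesAt`).

`E1 = poleDiv x`, `E2 = zeroDiv x` are the pole / zero divisors of the explicit chart function
`x` (`helper2974.poleDiv_apply`, `zeroDiv_apply` : `E1 w = max 0 (-(w.ord x))`,
`E2 w = max 0 (w.ord x)`, by `rfl`), and likewise for the reductions `x₁`, `x₂`.  The modulus
`n ≠ 0` is arbitrary (it may be a power of the residue characteristic `q`). -/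
theorem twisted_lattice_of_chartNodesAt (hq : q.Prime) (hA : A.LiesOverPrime q)
    [HasPrincipalDivisors kA FkM]
    (hdegk : ∀ w : Place kA FkM, w.deg = 1)
    (x : modularFunctionFieldBar (q * M)) (x₁ x₂ : FkM) {I : Type} [Fintype I]
    (P Q : I → Place kA FkM)
    (hC : ChartNodesAt q M h' A hdegk x x₁ x₂ P Q) :
    ∃ n₀ : ℕ,
      IsNodalRR (fun a b => pairRR P Q (a • poleDiv kA x₁ + b • zeroDiv kA x₁)
          (a • poleDiv kA x₂ + b • zeroDiv kA x₂))
        (fun i => (evalAt P (fun i => hdegk (P i)) i).comp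
          (AlgHom.fst kA (nodeRing P) (nodeRing Q)))
        (fun i => (evalAt Q (fun i => hdegk (Q i)) i).comp
          (AlgHom.snd kA (nodeRing P) (nodeRing Q)))
        (Module.finrank (IntermediateField.adjoin kA {x₁}) FkM +
          Module.finrank (IntermediateField.adjoin kA {x₂}) FkM)
        (helper981.riemannGenus kA FkM + helper981.riemannGenus kA FkM) 2 n₀ ∧
      Divisor.degree (poleDiv Kbar x) =
        ((Module.finrank (IntermediateField.adjoin kA {x₁}) FkM +
          Module.finrank (IntermediateField.adjoin kA {x₂}) FkM : ℕ) : ℤ) ∧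
      helper981.riemannGenus Kbar (modularFunctionFieldBar (q * M)) + 1 =
        helper981.riemannGenus kA FkM + helper981.riemannGenus kA FkM + Fintype.card I ∧
      ∀ n : ℕ, n ≠ 0 → ∀ D0 : Divisor Kbar (modularFunctionFieldBar (q * M)),
        Divisor.degree D0 = 0 → ∀ u : modularFunctionFieldBar (q * M), u ≠ 0 →
        (∀ w : Place Kbar (modularFunctionFieldBar (q * M)), (n : ℤ) * D0 w ≤ w.ord u) →
        (∀ i, gpVal A (q * M) (atkinLehnerBar q M h') i (u - 1) < 1) →
        ∃ c : I → kA, (∀ i, c i ^ n = 1) ∧ ∀ a b : ℕ, n₀ ≤ a + b →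
          (∀ f ∈ riemannRochSpace (D0 + a • poleDiv Kbar x + b • zeroDiv Kbar x),
            (∀ i, gpVal A (q * M) (atkinLehnerBar q M h') i f ≤ 1) →
            ∃ y ∈ glued
                (fun i => (evalAt P (fun i => hdegk (P i)) i).comp
                  (AlgHom.fst kA (nodeRing P) (nodeRing Q)))
                (fun i => (evalAt Q (fun i => hdegk (Q i)) i).comp
                  (AlgHom.snd kA (nodeRing P) (nodeRing Q))) c
                (pairRR P Q (a • poleDiv kA x₁ + b • zeroDiv kA x₁)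
                  (a • poleDiv kA x₂ + b • zeroDiv kA x₂)),
              gpRed A (q * M) (atkinLehnerBar q M h') f =
                ((fibreIncl kA M).comp (nodeInclAlg P Q)) y) ∧
          (∀ y ∈ glued
                (fun i => (evalAt P (fun i => hdegk (P i)) i).comp
                  (AlgHom.fst kA (nodeRing P) (nodeRing Q)))
                (fun i => (evalAt Q (fun i => hdegk (Q i)) i).comp
                  (AlgHom.snd kA (nodeRing P) (nodeRing Q))) c
                (pairRR P Q (a • poleDiv kA x₁ + b • zeroDiv kA x₁)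
                  (a • poleDiv kA x₂ + b • zeroDiv kA x₂)),
            ∃ f ∈ riemannRochSpace (D0 + a • poleDiv Kbar x + b • zeroDiv Kbar x),
              (∀ i, gpVal A (q * M) (atkinLehnerBar q M h') i f ≤ 1) ∧
                gpRed A (q * M) (atkinLehnerBar q M h') f =
                  ((fibreIncl kA M).comp (nodeInclAlg P Q)) y) := by
  classical
  have hqM : ¬ q ∣ M := not_dvd_of_coprime_prime hq h'
  have := Fermat.Agent.Lib.helper6879.isAlgClosed_residueField A
  have hNk := helper4307.natCast_ne_zero_residue M hq hqM A hA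
  obtain ⟨P₁⟩ :=
    Fermat.Agent.S37.helper265.nonempty_place_fullC (IsLocalRing.ResidueField A) M hNk
  have hRBk :=
    Fermat.Agent.S37.helper265.hasRiemannBound_fullC (IsLocalRing.ResidueField A) M hNk
  obtain ⟨hxtr, hxfin, -, hxv, hx₁tr, hx₁fin, hx₂tr, hx₂fin, hredx, hP, hQ, hPx, hQx, hpack⟩ :=
    hC
  obtain ⟨hRR, hnode, hK1, hK2⟩ := hpack (poleDiv Kbar x) (zeroDiv Kbar x)
    (poleDiv (IsLocalRing.ResidueField A) x₁) (zeroDiv (IsLocalRing.ResidueField A) x₁)
    (poleDiv (IsLocalRing.ResidueField A) x₂) (zeroDiv (IsLocalRing.ResidueField A) x₂)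
    (fun _ => rfl) (fun _ => rfl) (fun _ => rfl) (fun _ => rfl) (fun _ => rfl) (fun _ => rfl)
  have hx0 : x ≠ 0 := fun h0 => hxtr (h0 ▸ isAlgebraic_zero)
  have hx₁0 : x₁ ≠ 0 := fun h0 => hx₁tr (h0 ▸ isAlgebraic_zero)
  have hx₂0 : x₂ ≠ 0 := fun h0 => hx₂tr (h0 ▸ isAlgebraic_zero)
  have hPY : ∀ i, poleDiv (IsLocalRing.ResidueField A) x₁ (P i) = 0 ∧
      zeroDiv (IsLocalRing.ResidueField A) x₁ (P i) = 0 := fun i =>
    ⟨poleDiv_of_ord_nonneg (hPx i).ge, zeroDiv_of_ord_nonpos (hPx i).le⟩
  have hQY : ∀ i, poleDiv (IsLocalRing.ResidueField A) x₂ (Q i) = 0 ∧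
      zeroDiv (IsLocalRing.ResidueField A) x₂ (Q i) = 0 := fun i =>
    ⟨poleDiv_of_ord_nonneg (hQx i).ge, zeroDiv_of_ord_nonpos (hQx i).le⟩
  have hcont := hcont_of_chart
    (gpVal A (q * M) (atkinLehnerBar q M h')) (gpBase A (q * M))
    (Fermat.Agent.S35.helper882.gpRedData A (q * M) (atkinLehnerBar q M h'))
    (fibreIncl (IsLocalRing.ResidueField A) M) P Q (fun i => hdegk (P i)) (fun i => hdegk (Q i))
    (poleDiv (IsLocalRing.ResidueField A) x₁) (zeroDiv (IsLocalRing.ResidueField A) x₁)
    (poleDiv (IsLocalRing.ResidueField A) x₂) (zeroDiv (IsLocalRing.ResidueField A) x₂)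
    (zeroDiv_nonneg x₁) (zeroDiv_nonneg x₂) hPY hQY (poleDiv Kbar x) (zeroDiv Kbar x)
    (zeroDiv_nonneg x) x hx0 (ord_eq_zeroDiv_sub_poleDiv x) hxv x₁ x₂ hx₁0 hx₂0
    hredx (ord_eq_zeroDiv_sub_poleDiv x₁) (ord_eq_zeroDiv_sub_poleDiv x₂) hRR hnode
  have hd₁ : 0 < Module.finrank (IntermediateField.adjoin (IsLocalRing.ResidueField A) {x₁})
      ↥(modularFunctionFieldFullC (IsLocalRing.ResidueField A) M) := Module.finrank_pos
  have hd₂ : 0 < Module.finrank (IntermediateField.adjoin (IsLocalRing.ResidueField A) {x₂})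
      ↥(modularFunctionFieldFullC (IsLocalRing.ResidueField A) M) := Module.finrank_pos
  have hdE1 : 0 < Divisor.degree (poleDiv Kbar x) := by
    rw [degree_poleDiv_eq_finrank x hxtr]
    exact_mod_cast (Module.finrank_pos :
      0 < Module.finrank (IntermediateField.adjoin Kbar {x}) (modularFunctionFieldBar (q * M)))
  exact twisted_lattice_gp q M h' A hq hA hdegk hRBk P₁ P Q hP hQ
    (poleDiv (IsLocalRing.ResidueField A) x₁) (zeroDiv (IsLocalRing.ResidueField A) x₁)
    (poleDiv (IsLocalRing.ResidueField A) x₂) (zeroDiv (IsLocalRing.ResidueField A) x₂)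
    (poleDiv_nonneg x₁) (zeroDiv_nonneg x₁) (poleDiv_nonneg x₂) (zeroDiv_nonneg x₂)
    (poleDiv_eq_zero_or_zeroDiv_eq_zero x₁) (poleDiv_eq_zero_or_zeroDiv_eq_zero x₂) _ _ hd₁ hd₂
    (degree_poleDiv_eq_finrank x₁ hx₁tr) (degree_zeroDiv_eq_finrank x₁ hx₁tr)
    (degree_poleDiv_eq_finrank x₂ hx₂tr) (degree_zeroDiv_eq_finrank x₂ hx₂tr) hPY hQY
    (poleDiv Kbar x) (zeroDiv Kbar x) (poleDiv_nonneg x) (zeroDiv_nonneg x) hdE1 x hx0
    (ord_eq_zeroDiv_sub_poleDiv x) hxv x₁ x₂ hredx (ord_eq_zeroDiv_sub_poleDiv x₁)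
    (ord_eq_zeroDiv_sub_poleDiv x₂) hcont hK1 hK2

end ChartNodesAt

end Fermat.Agent.S35.helper1928
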