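import Fermat.Agent.S35.helper1928_ChartNodesT2
import Fermat.Agent.S35.helper2736_KronW

/-!
# S35/S34 geometry module: the chart / node package at the explicit charts `t₂`, `t₃`,
# unconditionally (helper1928)

`helper1928_ChartNodesT2` (chart front matter + `hRR` + node tail ⟹ `ChartNodesAt`) composed with
the landed Kronecker node package `helper2736.kron_nodes_t2/_t3`:

* `FrobNodesAt q A hdegk x₁ P Q` : the Frobenius clause (d) of
  `helper2039.Stmt_ChartNodesFrob` for explicit nodes;
* `chartNodes_t2`, `chartNodes_t3` : nodes `P`, `Q` with the Frobenius clause and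
  `ChartNodesAt q M h' A hdegk (t_r) (t̄_r) (t̄_r ^ q) P Q` — the chart EXPLICIT, no hypothesis
  beyond `q` prime, `q.Coprime M`, `r ∣ M`, `A` over `q`.

With `twisted_lattice_of_chartNodesAt` this is the conclusion of
`helper603.twisted_lattice_of_components` on the `t_r`-charts for every modulus `n ≠ 0`.
-/

set_option autoImplicit false

noncomputable section

namespace Fermat.Agent.S35.helper1928

open AlgebraicCurve ModularCurve
open Fermat.Agent.S24.helper24
open Fermat.Agent.S18
open Fermat.Agent.S35.helper1219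
open Fermat.Agent.S35.helper603 (valueAt)
open Fermat.Agent.S18.helper6381 (t2L t3L t2F t3F)

section ChartNodesKron

variable {q M : ℕ} [NeZero q] [NeZero M] (h' : Nat.Coprime q M) (A : ValuationSubring Kbar)

local notation "kA" => IsLocalRing.ResidueField A
local notation "FkM" => modularFunctionFieldFullC (IsLocalRing.ResidueField A) M

/-- **The Frobenius clause at explicit nodes** (clause (d) of
`helper2039.Stmt_ChartNodesFrob`): for `u` in the chart ring of `x₁` and `u'` with expansion
`u(T^q)`, the values of `u'` at `P i`, `Q i` are the values of `u` at `Q i`, `P i`. -/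
def FrobNodesAt (q : ℕ) [NeZero q] {M : ℕ} [NeZero M] (A : ValuationSubring Kbar)
    (hdegk : ∀ w : Place (IsLocalRing.ResidueField A)
      ↥(modularFunctionFieldFullC (IsLocalRing.ResidueField A) M), w.deg = 1)
    (x₁ : ↥(modularFunctionFieldFullC (IsLocalRing.ResidueField A) M)) {I : Type}
    (P Q : I → Place (IsLocalRing.ResidueField A)
      ↥(modularFunctionFieldFullC (IsLocalRing.ResidueField A) M)) : Prop :=
  ∀ i, ∀ u u' : ↥(modularFunctionFieldFullC (IsLocalRing.ResidueField A) M),
    u ∈ Fermat.Agent.S35.helper825.chartAlg (IsLocalRing.ResidueField A) x₁ →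
    (u' : LaurentSeries (IsLocalRing.ResidueField A)) =
      qExpand (IsLocalRing.ResidueField A) q (u : LaurentSeries (IsLocalRing.ResidueField A)) →
    valueAt (P i) (hdegk (P i)) u' = valueAt (Q i) (hdegk (Q i)) u ∧
      valueAt (Q i) (hdegk (Q i)) u' = valueAt (P i) (hdegk (P i)) u

/-- **The chart / node package at the explicit chart `t₂`** (`2 ∣ M`), unconditionally. -/
theorem chartNodes_t2 (hq : q.Prime) (hA : A.LiesOverPrime q) (h2 : 2 ∣ M)
    (hNk : ∀ p : ℕ, p.Prime → p ∣ M → (p : kA) ≠ 0)
    (hdegk : ∀ w : Place kA FkM, w.deg = 1) :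
    ∃ (I : Type) (_ : Fintype I) (P Q : I → Place kA FkM),
      FrobNodesAt q A hdegk (t2F kA M h2 hNk) P Q ∧
      ChartNodesAt q M h' A hdegk (t2L Kbar (q * M) (h2.mul_left q))
        (t2F kA M h2 hNk) (t2F kA M h2 hNk ^ q) P Q := by
  have hq2 : q ≠ 2 := by
    rintro rfl
    exact absurd (Nat.Coprime.eq_one_of_dvd h' h2) (by norm_num)
  exact exists_chartNodesAt_t2 h' A hq hA h2 hNk hdegk
    (Fermat.Agent.S35.helper2736.kron_nodes_t2 A q M h' hq hq2 hA h2 hNk hdegk)

/-- **The chart / node package at the explicit chart `t₃`** (`3 ∣ M`), unconditionally. -/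
theorem chartNodes_t3 (hq : q.Prime) (hA : A.LiesOverPrime q) (h3 : 3 ∣ M)
    (hNk : ∀ p : ℕ, p.Prime → p ∣ M → (p : kA) ≠ 0)
    (hdegk : ∀ w : Place kA FkM, w.deg = 1) :
    ∃ (I : Type) (_ : Fintype I) (P Q : I → Place kA FkM),
      FrobNodesAt q A hdegk (t3F kA M h3 hNk) P Q ∧
      ChartNodesAt q M h' A hdegk (t3L Kbar (q * M) (h3.mul_left q))
        (t3F kA M h3 hNk) (t3F kA M h3 hNk ^ q) P Q := by
  have hq3 : q ≠ 3 := by
    rintro rfl
    exact absurd (Nat.Coprime.eq_one_of_dvd h' h3) (by norm_num)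
  exact exists_chartNodesAt_t3 h' A hq hA h3 hNk hdegk
    (Fermat.Agent.S35.helper2736.kron_nodes_t3 A q M h' hq hq3 hA h3 hNk hdegk)

end ChartNodesKron

end Fermat.Agent.S35.helper1928
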