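import Fermat.Agent.S35.helper1928_ChartNodesAt
import Fermat.Agent.S35.helper3729_ChartFront
import Fermat.Agent.S35.helper3028_HContGp

/-!
# S35/S34 geometry module: the chart / node package at the EXPLICIT charts `t₂`, `t₃` (helper1928)

`ChartNodesAt q M h' A hdegk x x₁ x₂ P Q` (`helper1928_ChartNodesAt`) at
`x := t2L Qb (q * M) _`, `x₁ := t2F k M h2 hNk`, `x₂ := x₁ ^ q` (and the `t₃` twin), assembled
from the landed chart front matter (`helper3729.chart_front_t2`), the landed `hRR`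
(`helper3028.hRR_t2L_lit`) and the NODE TAIL `NodeTailAt` (nodes `P`, `Q` with the three
Riemann–Roch clauses `hnode`, `hK1`, `hK2`), which is what the Kronecker congruence supplies.

* `NodeTailAt q M h' A hdegk x x₁ x₂ P Q` : the tail of `ChartNodesAt` without `hRR`;
* `chartNodesAt_of_parts` : front + `hRR` + tail give `ChartNodesAt` (any chart);
* `chartNodesAt_t2`, `chartNodesAt_t3` : the two Hauptmodul charts;
* `nodeTailAt_of_chartNodesAt` : the converse projection.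

With `twisted_lattice_of_chartNodesAt` this gives the conclusion of
`helper603.twisted_lattice_of_components` at these charts (every modulus `n ≠ 0`).
-/

set_option autoImplicit false

noncomputable section

namespace Fermat.Agent.S35.helper1928

open AlgebraicCurve ModularCurve
open Fermat.Agent.S24.helper24
open Fermat.Agent.S18
open Fermat.Agent.S35.helper1219
open Fermat.Agent.S35.helper603 (valueAt nodeRing evalAt pairRR glued nodeInclAlg IsNodalRR)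
open Fermat.Agent.S35.helper882 (gpVal gpBase gpRed gpRing)
open Fermat.Agent.S18.helper6381 (t2L t3L t2F t3F)

section ChartNodesT

variable (q M : ℕ) [NeZero q] [NeZero M] (h' : Nat.Coprime q M) (A : ValuationSubring Kbar)

local notation "kA" => IsLocalRing.ResidueField A
local notation "FkM" => modularFunctionFieldFullC (IsLocalRing.ResidueField A) M

/-- **The node tail of the chart / node package** for an explicit chart `x` with reductions
`x₁`, `x₂` and explicit nodes `P i`, `Q i`: the conjuncts of `ChartNodesAt` after the nine chart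
conjuncts, without the clause `hRR`. -/
def NodeTailAt
    (hdegk : ∀ w : Place (IsLocalRing.ResidueField A)
      ↥(modularFunctionFieldFullC (IsLocalRing.ResidueField A) M), w.deg = 1)
    (x : modularFunctionFieldBar (q * M))
    (x₁ x₂ : ↥(modularFunctionFieldFullC (IsLocalRing.ResidueField A) M))
    {I : Type}
    (P Q : I → Place (IsLocalRing.ResidueField A)
      ↥(modularFunctionFieldFullC (IsLocalRing.ResidueField A) M)) : Prop :=
    Function.Injective P ∧ Function.Injective Q ∧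
    (∀ i, (P i).ord x₁ = 0) ∧ (∀ i, (Q i).ord x₂ = 0) ∧
    ∀ (E1 E2 : Divisor Kbar (modularFunctionFieldBar (q * M)))
      (Yinf₁ Y0₁ Yinf₂ Y0₂ : Divisor (IsLocalRing.ResidueField A)
        ↥(modularFunctionFieldFullC (IsLocalRing.ResidueField A) M)),
      (∀ w, E1 w = max 0 (-(w.ord x))) → (∀ w, E2 w = max 0 (w.ord x)) →
      (∀ w, Yinf₁ w = max 0 (-(w.ord x₁))) → (∀ w, Y0₁ w = max 0 (w.ord x₁)) →
      (∀ w, Yinf₂ w = max 0 (-(w.ord x₂))) → (∀ w, Y0₂ w = max 0 (w.ord x₂)) →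
      (∀ a : ℕ, ∀ f ∈ riemannRochSpace (a • E1),
        (∀ i, gpVal A (q * M) (atkinLehnerBar q M h') i f ≤ 1) →
        ∀ y₁ ∈ riemannRochSpace (a • Yinf₁), ∀ y₂ ∈ riemannRochSpace (a • Yinf₂),
          gpRed A (q * M) (atkinLehnerBar q M h') f =
            fibreIncl (IsLocalRing.ResidueField A) M (y₁, y₂) →
          ∀ i, valueAt (Q i) (hdegk (Q i)) y₂ = valueAt (P i) (hdegk (P i)) y₁) ∧
      (∀ a : ℕ, ∀ y₁ ∈ riemannRochSpace (a • Yinf₁), ∀ y₂ ∈ riemannRochSpace (a • Yinf₂),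
        (∀ i, valueAt (Q i) (hdegk (Q i)) y₂ = valueAt (P i) (hdegk (P i)) y₁) →
        ∃ a' : ℕ, ∃ f ∈ riemannRochSpace (a' • E1),
          (∀ i, gpVal A (q * M) (atkinLehnerBar q M h') i f ≤ 1) ∧
            gpRed A (q * M) (atkinLehnerBar q M h') f =
              fibreIncl (IsLocalRing.ResidueField A) M (y₁, y₂)) ∧
      (∀ b : ℕ, ∀ y₁ ∈ riemannRochSpace (b • Y0₁), ∀ y₂ ∈ riemannRochSpace (b • Y0₂),
        (∀ i, valueAt (Q i) (hdegk (Q i)) y₂ = valueAt (P i) (hdegk (P i)) y₁) →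
        ∃ b' : ℕ, ∃ f ∈ riemannRochSpace (b' • E2),
          (∀ i, gpVal A (q * M) (atkinLehnerBar q M h') i f ≤ 1) ∧
            gpRed A (q * M) (atkinLehnerBar q M h') f =
              fibreIncl (IsLocalRing.ResidueField A) M (y₁, y₂))

variable {q M}

/-- **Assembly of the chart / node package** from the nine chart conjuncts, the clause `hRR`
and the node tail. -/
theorem chartNodesAt_of_parts
    (hdegk : ∀ w : Place kA FkM, w.deg = 1)
    (x : modularFunctionFieldBar (q * M)) (x₁ x₂ : FkM) {I : Type} (P Q : I → Place kA FkM)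
    (hxtr : Transcendental Kbar x)
    (hxfin : FiniteDimensional (IntermediateField.adjoin Kbar {x})
      (modularFunctionFieldBar (q * M)))
    (hxgal : ∀ τ ∈ A.inertiaSubgroupIn ℚ,
      arithmeticGalois (modularFunctionFieldFull (q * M)) τ • x = x)
    (hxv : ∀ i, gpVal A (q * M) (atkinLehnerBar q M h') i x = 1)
    (hx₁tr : Transcendental kA x₁)
    (hx₁fin : FiniteDimensional (IntermediateField.adjoin kA {x₁}) FkM)
    (hx₂tr : Transcendental kA x₂)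
    (hx₂fin : FiniteDimensional (IntermediateField.adjoin kA {x₂}) FkM)
    (hredx : gpRed A (q * M) (atkinLehnerBar q M h') x = fibreIncl kA M (x₁, x₂))
    (hRR : ∀ (E1 E2 : Divisor Kbar (modularFunctionFieldBar (q * M)))
      (Yinf₁ Y0₁ Yinf₂ Y0₂ : Divisor kA FkM),
      (∀ w, E1 w = max 0 (-(w.ord x))) → (∀ w, E2 w = max 0 (w.ord x)) →
      (∀ w, Yinf₁ w = max 0 (-(w.ord x₁))) → (∀ w, Y0₁ w = max 0 (w.ord x₁)) →
      (∀ w, Yinf₂ w = max 0 (-(w.ord x₂))) → (∀ w, Y0₂ w = max 0 (w.ord x₂)) →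
      ∀ a b : ℕ, ∀ f ∈ riemannRochSpace (a • E1 + b • E2),
        (∀ i, gpVal A (q * M) (atkinLehnerBar q M h') i f ≤ 1) →
        ∃ y₁ ∈ riemannRochSpace (a • Yinf₁ + b • Y0₁),
          ∃ y₂ ∈ riemannRochSpace (a • Yinf₂ + b • Y0₂),
            gpRed A (q * M) (atkinLehnerBar q M h') f = fibreIncl kA M (y₁, y₂))
    (htail : NodeTailAt q M h' A hdegk x x₁ x₂ P Q) :
    ChartNodesAt q M h' A hdegk x x₁ x₂ P Q := by
  obtain ⟨hP, hQ, hPx, hQx, ht⟩ := htail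
  refine ⟨hxtr, hxfin, hxgal, hxv, hx₁tr, hx₁fin, hx₂tr, hx₂fin, hredx, hP, hQ, hPx, hQx, ?_⟩
  intro E1 E2 Yinf₁ Y0₁ Yinf₂ Y0₂ hE1 hE2 hYinf₁ hY0₁ hYinf₂ hY0₂
  obtain ⟨hnode, hK1, hK2⟩ := ht E1 E2 Yinf₁ Y0₁ Yinf₂ Y0₂ hE1 hE2 hYinf₁ hY0₁ hYinf₂ hY0₂
  exact ⟨hRR E1 E2 Yinf₁ Y0₁ Yinf₂ Y0₂ hE1 hE2 hYinf₁ hY0₁ hYinf₂ hY0₂, hnode, hK1, hK2⟩

/-- The node tail of a chart / node package. -/
theorem nodeTailAt_of_chartNodesAt
    (hdegk : ∀ w : Place kA FkM, w.deg = 1)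
    (x : modularFunctionFieldBar (q * M)) (x₁ x₂ : FkM) {I : Type} (P Q : I → Place kA FkM)
    (hC : ChartNodesAt q M h' A hdegk x x₁ x₂ P Q) :
    NodeTailAt q M h' A hdegk x x₁ x₂ P Q := by
  obtain ⟨-, -, -, -, -, -, -, -, -, hP, hQ, hPx, hQx, hpack⟩ := hC
  refine ⟨hP, hQ, hPx, hQx, ?_⟩
  intro E1 E2 Yinf₁ Y0₁ Yinf₂ Y0₂ hE1 hE2 hYinf₁ hY0₁ hYinf₂ hY0₂
  exact (hpack E1 E2 Yinf₁ Y0₁ Yinf₂ Y0₂ hE1 hE2 hYinf₁ hY0₁ hYinf₂ hY0₂).2

open Fermat.Agent.S35.helper2974 in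
/-- **The chart / node package at the chart `t₂`** (`2 ∣ M`), from the node tail. -/
theorem chartNodesAt_t2 (hq : q.Prime) (hA : A.LiesOverPrime q) (h2 : 2 ∣ M)
    (hNk : ∀ p : ℕ, p.Prime → p ∣ M → (p : kA) ≠ 0)
    (hdegk : ∀ w : Place kA FkM, w.deg = 1) {I : Type} (P Q : I → Place kA FkM)
    (htail : NodeTailAt q M h' A hdegk (t2L Kbar (q * M) (h2.mul_left q))
      (t2F kA M h2 hNk) (t2F kA M h2 hNk ^ q) P Q) :
    ChartNodesAt q M h' A hdegk (t2L Kbar (q * M) (h2.mul_left q))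
      (t2F kA M h2 hNk) (t2F kA M h2 hNk ^ q) P Q := by
  have := Fermat.Agent.Lib.helper6879.isAlgClosed_residueField A
  have := helper4307.hasPrincipalDivisors_fullC (IsLocalRing.ResidueField A) M hNk
  obtain ⟨hxtr, hxfin, hxgal, hxv, hx₁tr, hx₁fin, hx₂tr, hx₂fin, hredx, -⟩ :=
    Fermat.Agent.S35.helper3729.chart_front_t2 q M h' hq A hA h2 hNk
  refine chartNodesAt_of_parts h' A hdegk _ _ _ P Q hxtr hxfin (fun τ _ => hxgal τ) hxv
    hx₁tr hx₁fin hx₂tr hx₂fin hredx ?_ htail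
  intro E1 E2 Yinf₁ Y0₁ Yinf₂ Y0₂ hE1 hE2 hYinf₁ hY0₁ hYinf₂ hY0₂
  obtain rfl := eq_poleDiv_of_apply hE1
  obtain rfl := eq_zeroDiv_of_apply hE2
  obtain rfl := eq_poleDiv_of_apply hYinf₁
  obtain rfl := eq_zeroDiv_of_apply hY0₁
  obtain rfl := eq_poleDiv_of_apply hYinf₂
  obtain rfl := eq_zeroDiv_of_apply hY0₂
  exact Fermat.Agent.S35.helper3028.hRR_t2L_lit q M h' A hq hA h2 _ _
    (poleDiv_nonneg _) (zeroDiv_nonneg _) (poleDiv_eq_zero_or_zeroDiv_eq_zero _)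
    (ord_eq_zeroDiv_sub_poleDiv _) (t2F kA M h2 hNk) rfl _ _ _ _
    (poleDiv_nonneg _) (zeroDiv_nonneg _) (poleDiv_nonneg _) (zeroDiv_nonneg _)
    (ord_eq_zeroDiv_sub_poleDiv _) (ord_eq_zeroDiv_sub_poleDiv _)

open Fermat.Agent.S35.helper2974 in
/-- **The chart / node package at the chart `t₃`** (`3 ∣ M`), from the node tail. -/
theorem chartNodesAt_t3 (hq : q.Prime) (hA : A.LiesOverPrime q) (h3 : 3 ∣ M)
    (hNk : ∀ p : ℕ, p.Prime → p ∣ M → (p : kA) ≠ 0)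
    (hdegk : ∀ w : Place kA FkM, w.deg = 1) {I : Type} (P Q : I → Place kA FkM)
    (htail : NodeTailAt q M h' A hdegk (t3L Kbar (q * M) (h3.mul_left q))
      (t3F kA M h3 hNk) (t3F kA M h3 hNk ^ q) P Q) :
    ChartNodesAt q M h' A hdegk (t3L Kbar (q * M) (h3.mul_left q))
      (t3F kA M h3 hNk) (t3F kA M h3 hNk ^ q) P Q := by
  have := Fermat.Agent.Lib.helper6879.isAlgClosed_residueField A
  have := helper4307.hasPrincipalDivisors_fullC (IsLocalRing.ResidueField A) M hNk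
  obtain ⟨hxtr, hxfin, hxgal, hxv, hx₁tr, hx₁fin, hx₂tr, hx₂fin, hredx, -⟩ :=
    Fermat.Agent.S35.helper3729.chart_front_t3 q M h' hq A hA h3 hNk
  refine chartNodesAt_of_parts h' A hdegk _ _ _ P Q hxtr hxfin (fun τ _ => hxgal τ) hxv
    hx₁tr hx₁fin hx₂tr hx₂fin hredx ?_ htail
  intro E1 E2 Yinf₁ Y0₁ Yinf₂ Y0₂ hE1 hE2 hYinf₁ hY0₁ hYinf₂ hY0₂
  obtain rfl := eq_poleDiv_of_apply hE1
  obtain rfl := eq_zeroDiv_of_apply hE2
  obtain rfl := eq_poleDiv_of_apply hYinf₁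
  obtain rfl := eq_zeroDiv_of_apply hY0₁
  obtain rfl := eq_poleDiv_of_apply hYinf₂
  obtain rfl := eq_zeroDiv_of_apply hY0₂
  exact Fermat.Agent.S35.helper3028.hRR_t3L_lit q M h' A hq hA h3 _ _
    (poleDiv_nonneg _) (zeroDiv_nonneg _) (poleDiv_eq_zero_or_zeroDiv_eq_zero _)
    (ord_eq_zeroDiv_sub_poleDiv _) (t3F kA M h3 hNk) rfl _ _ _ _
    (poleDiv_nonneg _) (zeroDiv_nonneg _) (poleDiv_nonneg _) (zeroDiv_nonneg _)
    (ord_eq_zeroDiv_sub_poleDiv _) (ord_eq_zeroDiv_sub_poleDiv _)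

/-- **The chart / node package at the chart `t_2`, existential form**: from the nodes and the
three clauses `hnode`, `hK1`, `hK2` in the shape supplied by the Kronecker congruence
(`∃ I _ P Q, Injective P ∧ Injective Q ∧ ord = 0 ∧ ord = 0 ∧ D I P Q ∧ ∀ E1 .., .. → hnode ∧ hK1 ∧
hK2`, with ANY extra clause `D I P Q`, e.g. the Frobenius clause), the package with the chart
explicit; the extra clause is kept. -/
theorem exists_chartNodesAt_t2 (hq : q.Prime) (hA : A.LiesOverPrime q) (h2 : 2 ∣ M)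
    (hNk : ∀ p : ℕ, p.Prime → p ∣ M → (p : kA) ≠ 0)
    (hdegk : ∀ w : Place kA FkM, w.deg = 1)
    {D : ∀ I : Type, (I → Place kA FkM) → (I → Place kA FkM) → Prop}
    (hkn : ∃ (I : Type) (_ : Fintype I) (P Q : I → Place kA FkM),
      Function.Injective P ∧ Function.Injective Q ∧
      (∀ i, (P i).ord (t2F kA M h2 hNk) = 0) ∧ (∀ i, (Q i).ord (t2F kA M h2 hNk ^ q) = 0) ∧
      D I P Q ∧
      ∀ (E1 E2 : Divisor Kbar (modularFunctionFieldBar (q * M)))
        (Yinf₁ Y0₁ Yinf₂ Y0₂ : Divisor kA FkM),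
        (∀ w, E1 w = max 0 (-(w.ord (t2L Kbar (q * M) (h2.mul_left q))))) →
        (∀ w, E2 w = max 0 (w.ord (t2L Kbar (q * M) (h2.mul_left q)))) →
        (∀ w, Yinf₁ w = max 0 (-(w.ord (t2F kA M h2 hNk)))) →
        (∀ w, Y0₁ w = max 0 (w.ord (t2F kA M h2 hNk))) →
        (∀ w, Yinf₂ w = max 0 (-(w.ord (t2F kA M h2 hNk ^ q)))) →
        (∀ w, Y0₂ w = max 0 (w.ord (t2F kA M h2 hNk ^ q))) →
        (∀ a : ℕ, ∀ f ∈ riemannRochSpace (a • E1),
          (∀ i, gpVal A (q * M) (atkinLehnerBar q M h') i f ≤ 1) →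
          ∀ y₁ ∈ riemannRochSpace (a • Yinf₁), ∀ y₂ ∈ riemannRochSpace (a • Yinf₂),
            gpRed A (q * M) (atkinLehnerBar q M h') f = fibreIncl kA M (y₁, y₂) →
            ∀ i, valueAt (Q i) (hdegk (Q i)) y₂ = valueAt (P i) (hdegk (P i)) y₁) ∧
        (∀ a : ℕ, ∀ y₁ ∈ riemannRochSpace (a • Yinf₁), ∀ y₂ ∈ riemannRochSpace (a • Yinf₂),
          (∀ i, valueAt (Q i) (hdegk (Q i)) y₂ = valueAt (P i) (hdegk (P i)) y₁) →
          ∃ a' : ℕ, ∃ f ∈ riemannRochSpace (a' • E1),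
            (∀ i, gpVal A (q * M) (atkinLehnerBar q M h') i f ≤ 1) ∧
              gpRed A (q * M) (atkinLehnerBar q M h') f = fibreIncl kA M (y₁, y₂)) ∧
        (∀ b : ℕ, ∀ y₁ ∈ riemannRochSpace (b • Y0₁), ∀ y₂ ∈ riemannRochSpace (b • Y0₂),
          (∀ i, valueAt (Q i) (hdegk (Q i)) y₂ = valueAt (P i) (hdegk (P i)) y₁) →
          ∃ b' : ℕ, ∃ f ∈ riemannRochSpace (b' • E2),
            (∀ i, gpVal A (q * M) (atkinLehnerBar q M h') i f ≤ 1) ∧
              gpRed A (q * M) (atkinLehnerBar q M h') f = fibreIncl kA M (y₁, y₂))) :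
    ∃ (I : Type) (_ : Fintype I) (P Q : I → Place kA FkM), D I P Q ∧
      ChartNodesAt q M h' A hdegk (t2L Kbar (q * M) (h2.mul_left q))
        (t2F kA M h2 hNk) (t2F kA M h2 hNk ^ q) P Q := by
  obtain ⟨I, hI, P, Q, hP, hQ, hPx, hQx, hD, ht⟩ := hkn
  exact ⟨I, hI, P, Q, hD, chartNodesAt_t2 h' A hq hA h2 hNk hdegk P Q ⟨hP, hQ, hPx, hQx, ht⟩⟩

/-- **The chart / node package at the chart `t_3`, existential form**: from the nodes and the
three clauses `hnode`, `hK1`, `hK2` in the shape supplied by the Kronecker congruence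
(`∃ I _ P Q, Injective P ∧ Injective Q ∧ ord = 0 ∧ ord = 0 ∧ D I P Q ∧ ∀ E1 .., .. → hnode ∧ hK1 ∧
hK2`, with ANY extra clause `D I P Q`, e.g. the Frobenius clause), the package with the chart
explicit; the extra clause is kept. -/
theorem exists_chartNodesAt_t3 (hq : q.Prime) (hA : A.LiesOverPrime q) (h3 : 3 ∣ M)
    (hNk : ∀ p : ℕ, p.Prime → p ∣ M → (p : kA) ≠ 0)
    (hdegk : ∀ w : Place kA FkM, w.deg = 1)
    {D : ∀ I : Type, (I → Place kA FkM) → (I → Place kA FkM) → Prop}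
    (hkn : ∃ (I : Type) (_ : Fintype I) (P Q : I → Place kA FkM),
      Function.Injective P ∧ Function.Injective Q ∧
      (∀ i, (P i).ord (t3F kA M h3 hNk) = 0) ∧ (∀ i, (Q i).ord (t3F kA M h3 hNk ^ q) = 0) ∧
      D I P Q ∧
      ∀ (E1 E2 : Divisor Kbar (modularFunctionFieldBar (q * M)))
        (Yinf₁ Y0₁ Yinf₂ Y0₂ : Divisor kA FkM),
        (∀ w, E1 w = max 0 (-(w.ord (t3L Kbar (q * M) (h3.mul_left q))))) →
        (∀ w, E2 w = max 0 (w.ord (t3L Kbar (q * M) (h3.mul_left q)))) →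
        (∀ w, Yinf₁ w = max 0 (-(w.ord (t3F kA M h3 hNk)))) →
        (∀ w, Y0₁ w = max 0 (w.ord (t3F kA M h3 hNk))) →
        (∀ w, Yinf₂ w = max 0 (-(w.ord (t3F kA M h3 hNk ^ q)))) →
        (∀ w, Y0₂ w = max 0 (w.ord (t3F kA M h3 hNk ^ q))) →
        (∀ a : ℕ, ∀ f ∈ riemannRochSpace (a • E1),
          (∀ i, gpVal A (q * M) (atkinLehnerBar q M h') i f ≤ 1) →
          ∀ y₁ ∈ riemannRochSpace (a • Yinf₁), ∀ y₂ ∈ riemannRochSpace (a • Yinf₂),
            gpRed A (q * M) (atkinLehnerBar q M h') f = fibreIncl kA M (y₁, y₂) →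
            ∀ i, valueAt (Q i) (hdegk (Q i)) y₂ = valueAt (P i) (hdegk (P i)) y₁) ∧
        (∀ a : ℕ, ∀ y₁ ∈ riemannRochSpace (a • Yinf₁), ∀ y₂ ∈ riemannRochSpace (a • Yinf₂),
          (∀ i, valueAt (Q i) (hdegk (Q i)) y₂ = valueAt (P i) (hdegk (P i)) y₁) →
          ∃ a' : ℕ, ∃ f ∈ riemannRochSpace (a' • E1),
            (∀ i, gpVal A (q * M) (atkinLehnerBar q M h') i f ≤ 1) ∧
              gpRed A (q * M) (atkinLehnerBar q M h') f = fibreIncl kA M (y₁, y₂)) ∧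
        (∀ b : ℕ, ∀ y₁ ∈ riemannRochSpace (b • Y0₁), ∀ y₂ ∈ riemannRochSpace (b • Y0₂),
          (∀ i, valueAt (Q i) (hdegk (Q i)) y₂ = valueAt (P i) (hdegk (P i)) y₁) →
          ∃ b' : ℕ, ∃ f ∈ riemannRochSpace (b' • E2),
            (∀ i, gpVal A (q * M) (atkinLehnerBar q M h') i f ≤ 1) ∧
              gpRed A (q * M) (atkinLehnerBar q M h') f = fibreIncl kA M (y₁, y₂))) :
    ∃ (I : Type) (_ : Fintype I) (P Q : I → Place kA FkM), D I P Q ∧
      ChartNodesAt q M h' A hdegk (t3L Kbar (q * M) (h3.mul_left q))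
        (t3F kA M h3 hNk) (t3F kA M h3 hNk ^ q) P Q := by
  obtain ⟨I, hI, P, Q, hP, hQ, hPx, hQx, hD, ht⟩ := hkn
  exact ⟨I, hI, P, Q, hD, chartNodesAt_t3 h' A hq hA h3 hNk hdegk P Q ⟨hP, hQ, hPx, hQx, ht⟩⟩

end ChartNodesT

end Fermat.Agent.S35.helper1928
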