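/-
S35/S34 two-valuation kit, adapters (helper882).

* `cartesianW_of_twoVal`, `cartesianW_of_twoVal_ref` : the two-valuation cartesian theorem (T5) of
  `helper882_TwoValKit` in the vocabulary of the landed multi-valuation Kummer core supply
  `helper2459.CartesianW` (hypotheses `hcart`, `hcart12`, `hcart1`, `hcart2` of
  `helper2459.kummer_core_special_fibreW` / `kummer_core_gluedW`).
* `isOrtho_of_resIndep`, `notLE_of_not_le` : from the `ValuationSubring` inputs of
  `helper1024_TwoVal` (`ResIndep`, incomparability) to the `Valuation` inputs of the kit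
  (`helper1733.IsOrtho`, `NotLE`), for any valuation whose unit ball is the given subring
  (e.g. `V.valuation`, or `V.valuation.comap w` for `V.comap w`).
-/
import Mathlib
import Fermat.Agent.S35.helper882_TwoValKit
import Fermat.Agent.S35.helper2459_KummerMultiSF
import Fermat.Agent.S35.helper1024_TwoVal

set_option autoImplicit false

namespace Fermat.Agent.S35.helper882

open Fermat.Agent.S18.helper1733

section KummerSupply

variable {F : Type*} [Field F] {Γ₀ : Type*} [LinearOrderedCommGroupWithZero Γ₀]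
  {L : Type*} [Field L] [Algebra L F] {x : F}

/-- **(T5) in `CartesianW` form, reference-element weights** `w i = v i a₀`: no rank
hypothesis. -/
theorem cartesianW_of_twoVal_ref (vL : Valuation L Γ₀) (v : Fin 2 → Valuation F Γ₀)
    (hL : ∀ (i : Fin 2) (c : L), v i (algebraMap L F c) = vL c)
    (hx : ∀ i, ResTranscendental (v i) L x)
    (h₁ : NotLE (v 0) (v 1)) (h₂ : NotLE (v 1) (v 0))
    [FiniteDimensional (IntermediateField.adjoin L {x}) F]
    {ι₁ ι₂ : Type*} [Fintype ι₁] [Fintype ι₂] {e₁ : ι₁ → F} {e₂ : ι₂ → F}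
    (he₁ : IsOrtho (v 0) (IntermediateField.adjoin L {x}) e₁)
    (he₂ : IsOrtho (v 1) (IntermediateField.adjoin L {x}) e₂)
    (hcard : Fintype.card ι₁ + Fintype.card ι₂
      = Module.finrank (IntermediateField.adjoin L {x}) F)
    {a₀ : F} (ha₀ : a₀ ≠ 0) (W : Submodule L F) [FiniteDimensional L W] :
    helper2459.CartesianW v (fun i => v i a₀) vL W := by
  obtain ⟨n, e, heW, hspan, hle, horth⟩ :=
    exists_orthonormal_family vL v hL hx h₁ h₂ he₁ he₂ hcard ha₀ W
  exact ⟨n, e, heW, hle, horth,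
    le_antisymm (Submodule.span_le.mpr (by rintro _ ⟨j, rfl⟩; exact heW j)) hspan⟩

/-- **(T5) in `CartesianW` form, independent twists** `w i = v i (f i)` (the weights produced by
`helper2459.RedDataW.of_pi`), for archimedean valuations. -/
theorem cartesianW_of_twoVal (vL : Valuation L Γ₀) (v : Fin 2 → Valuation F Γ₀)
    (hL : ∀ (i : Fin 2) (c : L), v i (algebraMap L F c) = vL c)
    (hx : ∀ i, ResTranscendental (v i) L x)
    (h₁ : NotLE (v 0) (v 1)) (h₂ : NotLE (v 1) (v 0)) (hpow : ∀ i, PowSmall (v i))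
    [FiniteDimensional (IntermediateField.adjoin L {x}) F]
    {ι₁ ι₂ : Type*} [Fintype ι₁] [Fintype ι₂] {e₁ : ι₁ → F} {e₂ : ι₂ → F}
    (he₁ : IsOrtho (v 0) (IntermediateField.adjoin L {x}) e₁)
    (he₂ : IsOrtho (v 1) (IntermediateField.adjoin L {x}) e₂)
    (hcard : Fintype.card ι₁ + Fintype.card ι₂
      = Module.finrank (IntermediateField.adjoin L {x}) F)
    (f : Fin 2 → F) (hf : ∀ i, f i ≠ 0) (W : Submodule L F) [FiniteDimensional L W] :
    helper2459.CartesianW v (fun i => v i (f i)) vL W := by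
  obtain ⟨a₀, ha₀, ha1, ha2⟩ := exists_map_eq_and_eq h₁ h₂ (hpow 0) (hpow 1) (hf 0) (hf 1)
  have hw : (fun i => v i (f i)) = fun i => v i a₀ := by
    funext i
    fin_cases i
    · exact ha1.symm
    · exact ha2.symm
  rw [hw]
  exact cartesianW_of_twoVal_ref vL v hL hx h₁ h₂ he₁ he₂ hcard ha₀ W

end KummerSupply

section FromSubrings

variable {E F : Type*} [Field E] [Field F] [Algebra E F]
  {Γ₀ : Type*} [LinearOrderedCommGroupWithZero Γ₀]

/-- Incomparability of valuation subrings gives `NotLE` for any valuations with these unit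
balls. -/
theorem notLE_of_not_le {Γ₁ Γ₂ : Type*} [LinearOrderedCommGroupWithZero Γ₁]
    [LinearOrderedCommGroupWithZero Γ₂] {v₁ : Valuation F Γ₁} {v₂ : Valuation F Γ₂}
    {V₁ V₂ : ValuationSubring F} (hv₁ : ∀ a, v₁ a ≤ 1 ↔ a ∈ V₁) (hv₂ : ∀ a, v₂ a ≤ 1 ↔ a ∈ V₂)
    (h : ¬ V₁ ≤ V₂) : NotLE v₁ v₂ := by
  obtain ⟨a, ha1, ha2⟩ := SetLike.not_le_iff_exists.mp h
  exact ⟨a, (hv₁ a).mpr ha1, not_le.mp fun hle => ha2 ((hv₂ a).mp hle)⟩

/-- A valuation with unit ball `V` has value one exactly on the units of `V`. -/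
theorem map_eq_one_of_mem_of_notMem_nonunits {v : Valuation F Γ₀} {V : ValuationSubring F}
    (hv : ∀ a, v a ≤ 1 ↔ a ∈ V) {a : F} (ha : a ∈ V) (ha' : a ∉ V.nonunits) : v a = 1 := by
  refine le_antisymm ((hv a).mpr ha) ?_
  have h1 : ¬ V.valuation a < 1 := fun h => ha' (V.mem_nonunits_iff.mpr h)
  have h2 : V.valuation a = 1 :=
    le_antisymm ((V.valuation_le_one_iff a).mpr ha) (not_lt.mp h1)
  have ha0 : a ≠ 0 := by
    rintro rfl
    rw [map_zero] at h2
    exact zero_ne_one h2
  have h3 : a⁻¹ ∈ V := by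
    rw [← V.valuation_le_one_iff, map_inv₀, h2, inv_one]
  have h4 := (hv a⁻¹).mpr h3
  rw [map_inv₀] at h4
  have hva0 : v a ≠ 0 := (Valuation.ne_zero_iff _).mpr ha0
  exact (inv_le_one₀ (zero_lt_iff.mpr hva0)).mp h4

/-- **`ResIndep` gives `IsOrtho`.** A family whose residues are independent over the residue
field of `V₀ = V ∩ E` (element-wise form of `helper1024`) is orthonormal over `E` for every
valuation with unit ball `V`. -/
theorem isOrtho_of_resIndep {v : Valuation F Γ₀} {V : ValuationSubring F}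
    (hv : ∀ a, v a ≤ 1 ↔ a ∈ V) {V₀ : ValuationSubring E}
    (h : V.comap (algebraMap E F) = V₀) {ι : Type*} [Fintype ι] {b : ι → F}
    (hb : helper1024.ResIndep V₀ V b) : IsOrtho v E b := by
  classical
  have hmem : ∀ a : E, a ∈ V₀ ↔ v (algebraMap E F a) ≤ 1 := by
    intro a
    rw [hv, ← h]
    rfl
  refine isOrtho_of_fintype (fun k => (hv _).mpr (hb.1 k)) fun c k => ?_
  obtain ⟨m, -, hmax⟩ := Finset.univ.exists_max_image (fun i => v (algebraMap E F (c i)))
    ⟨k, Finset.mem_univ k⟩
  refine (hmax k (Finset.mem_univ k)).trans ?_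
  by_cases hcm : c m = 0
  · rw [hcm, map_zero, map_zero]
    exact zero_le
  have hvm : v (algebraMap E F (c m)) ≠ 0 :=
    (Valuation.ne_zero_iff _).mpr ((map_ne_zero (algebraMap E F)).mpr hcm)
  set a : ι → E := fun i => (c m)⁻¹ * c i with ha
  have haV : ∀ i, a i ∈ V₀ := by
    intro i
    rw [hmem, ha, map_mul, map_mul, map_inv₀, map_inv₀]
    exact (inv_mul_le_one₀ (zero_lt_iff.mpr hvm)).mpr (hmax i (Finset.mem_univ i))
  have hsumV : ∑ i, a i • b i ∈ V := by
    refine V.sum_mem fun i _ => ?_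
    rw [Algebra.smul_def]
    exact V.mul_mem _ _ ((hv _).mp ((hmem _).mp (haV i))) (hb.1 i)
  have hnon : ∑ i, a i • b i ∉ V.nonunits := by
    intro hmemn
    have h1 := hb.2 a haV hmemn m
    have h2 : a m = 1 := by rw [ha]; exact inv_mul_cancel₀ hcm
    rw [h2] at h1
    have h3 := V₀.mem_nonunits_iff.mp h1
    rw [map_one] at h3
    exact lt_irrefl _ h3
  have hone : v (∑ i, a i • b i) = 1 := map_eq_one_of_mem_of_notMem_nonunits hv hsumV hnon
  have hsum : ∑ i, a i • b i = (algebraMap E F (c m))⁻¹ * ∑ i, c i • b i := by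
    rw [Finset.mul_sum]
    refine Finset.sum_congr rfl fun i _ => ?_
    rw [ha, Algebra.smul_def, Algebra.smul_def, map_mul, map_inv₀, mul_assoc]
  rw [hsum, map_mul, map_inv₀] at hone
  have := congrArg (fun t => v (algebraMap E F (c m)) * t) hone
  simp only [mul_inv_cancel_left₀ hvm, mul_one] at this
  exact this.symm.le

/-- The comap of a valuation along a ring homomorphism has unit ball the comap subring. -/
theorem comap_le_one_iff (V : ValuationSubring F) (w : F →+* F) (a : F) :
    (V.valuation.comap w) a ≤ 1 ↔ a ∈ V.comap w := by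
  rw [Valuation.comap_apply, V.valuation_le_one_iff]
  rfl

end FromSubrings

end Fermat.Agent.S35.helper882
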