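import Fermat.Agent.S35.helper1928_TwoValBasis
import Fermat.Agent.S35.helper882_TwoValKit
import Fermat.Agent.S35.helper882_TwoValAdapters
import Fermat.Agent.S28.helper1595_Counting
import Fermat.Agent.S24.helper1944_Degree
import Fermat.Agent.S24.helper1200_StmtLocalInf
import Fermat.Agent.S24.helper1356_StmtComb

/-!
# S35/S34 TWOVAL-MOD (helper1928), part 2: orthonormal families and the cartesian theorem at `ℓ ∥ ℓ M`

On top of `helper1928_TwoValBasis` (the explicit two-chart basis and the key reduction steps):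

* `ortho_of_key`: the generic passage "reduction criterion ⟹ orthonormality over `ℚ̄(j)`";
* the three orthonormality statements (`ortho_joint`, `ortho_inl`, `ortho_inr`) and their
  `helper1733.IsOrtho` / `helper882.IsOrthoN` forms;
* `ResTranscendental` for `j` at both Gauss valuations, the two incomparability witnesses,
  `PowSmall`, `[F_{ℓ M} : ℚ̄(j)] = (ℓ + 1) ψ(M)`;
* the instantiated cartesian theorem `exists_twisted_ball_basis` (= `helper882.exists_basis_ball_of_powSmall`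
  with every hypothesis discharged).
-/

set_option autoImplicit false

noncomputable section

namespace Fermat.Agent.S35.helper1928

open ModularCurve Polynomial IntermediateField
open Fermat.Agent.S28
open Fermat.Agent.S18.helper508
open Fermat.Agent.S24.helper24
open Fermat.Agent.S18

section Generic

variable (ℓ M : ℕ) [Fact ℓ.Prime] [NeZero M] (hℓM : ¬ ℓ ∣ M) (A : ValuationSubring Kbar)
  (hA : (ℓ : Kbar) ∈ A.nonunits)

omit [Fact ℓ.Prime] [NeZero M] in
/-- The value group of the Gauss valuation is the value group of the constants. -/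
theorem exists_const_val {f : FN (ℓ * M)} (hf : f ≠ 0) :
    ∃ γ : Kbar, γ ≠ 0 ∧ (vInf ℓ M A).valuation f =
      (vInf ℓ M A).valuation (algebraMap Kbar (FN (ℓ * M)) γ) := by
  obtain ⟨c, u, hc, hu, hfu⟩ :=
    helper8991.exists_const_mul_unit_F A (IsLocalRing.residue A) (ℓ * M) f hf
  refine ⟨c, hc, ?_⟩
  have hu1 : (vInf ℓ M A).valuation (u : FN (ℓ * M)) = 1 :=
    ((vInf ℓ M A).valuation_eq_one_iff u).mp
      ((helper8991.isUnit_iff_gaussFRed_ne_zero A _ (ℓ * M) u).mpr hu)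
  rw [hfu, map_mul, hu1, mul_one]

omit [Fact ℓ.Prime] [NeZero M] in
/-- **From a reduction criterion to orthonormality over `ℚ̄(j)`.**  `N` is any "norm" on
`F_{ℓ M}` which is homogeneous over `ℚ̄(j)` for the Gauss valuation, `u` a finite family such that
an `A[j]`-combination of the `u i` of norm `< 1` has all coefficients reducing to `0`.  Then every
coefficient of a `ℚ̄(j)`-combination is bounded by the norm of the combination. -/
theorem ortho_of_key {κ : Type*} [Fintype κ] (u : κ → FN (ℓ * M))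
    (N : FN (ℓ * M) → (vInf ℓ M A).ValueGroup)
    (hN : ∀ c : FN (ℓ * M), c ∈ Kbar⟮jBar (ℓ * M)⟯ →
      ∀ f, N (c * f) = (vInf ℓ M A).valuation c * N f)
    (hkey : ∀ R : κ → A[X],
      N (∑ i, aeval (jBar (ℓ * M)) ((R i).map A.subtype) * u i) < 1 →
        ∀ i, (R i).map (IsLocalRing.residue A) = 0)
    (c : κ → FN (ℓ * M)) (hc : ∀ i, c i ∈ Kbar⟮jBar (ℓ * M)⟯) (k : κ) :
    (vInf ℓ M A).valuation (c k) ≤ N (∑ i, c i * u i) := by
  classical
  by_contra hlt
  rw [not_le] at hlt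
  have hck : c k ≠ 0 := by
    rintro h
    rw [h, map_zero] at hlt
    exact not_lt_zero hlt
  obtain ⟨γ, hγ, hval⟩ := exists_const_val ℓ M A hck
  set g : FN (ℓ * M) := algebraMap Kbar (FN (ℓ * M)) γ⁻¹ with hg
  have hgE : g ∈ Kbar⟮jBar (ℓ * M)⟯ := IntermediateField.algebraMap_mem _ _
  have hvg : (vInf ℓ M A).valuation g *
      (vInf ℓ M A).valuation (algebraMap Kbar (FN (ℓ * M)) γ) = 1 := by
    rw [← map_mul, hg, ← map_mul, inv_mul_cancel₀ hγ, map_one, map_one]
  have hc' : ∀ i, g * c i ∈ Kbar⟮jBar (ℓ * M)⟯ := fun i => mul_mem hgE (hc i)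
  have hf' : ∑ i, (g * c i) * u i = g * ∑ i, c i * u i := by
    rw [Finset.mul_sum]
    exact Finset.sum_congr rfl fun i _ => mul_assoc _ _ _
  have hvg0 : 0 < (vInf ℓ M A).valuation g := by
    rw [zero_lt_iff]
    intro h0
    rw [h0, zero_mul] at hvg
    exact zero_ne_one hvg
  have hNf' : N (∑ i, (g * c i) * u i) < 1 := by
    rw [hf', hN g hgE, ← hvg, ← hval]
    exact mul_lt_mul_of_pos_left hlt hvg0
  have hvc'k : (vInf ℓ M A).valuation (g * c k) = 1 := by rw [map_mul, hval, hvg]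
  obtain ⟨S, R₂, hS, hR₂⟩ := exists_common_den_unit ℓ M A (fun i => g * c i) hc'
  have hu1 : (vInf ℓ M A).valuation (aeval (jBar (ℓ * M)) (S.map A.subtype)) = 1 :=
    le_antisymm (val_aeval_jBar ℓ M A S).1
      (not_lt.mp fun h => hS ((val_aeval_jBar ℓ M A S).2.mp h))
  have hSE : aeval (jBar (ℓ * M)) (S.map A.subtype) ∈ Kbar⟮jBar (ℓ * M)⟯ :=
    aeval_mem_of_mem _ (mem_adjoin_simple_self Kbar _) _
  have hsum : aeval (jBar (ℓ * M)) (S.map A.subtype) * ∑ i, (g * c i) * u i =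
      ∑ i, aeval (jBar (ℓ * M)) (R₂ i) * u i := by
    rw [Finset.mul_sum]
    refine Finset.sum_congr rfl fun i _ => ?_
    rw [← hR₂ i]
    ring
  have hNS : N (∑ i, aeval (jBar (ℓ * M)) (R₂ i) * u i) < 1 := by
    rw [← hsum, hN _ hSE, hu1, one_mul]
    exact hNf'
  have h1 : (vInf ℓ M A).valuation (g * c k * aeval (jBar (ℓ * M)) (S.map A.subtype)) = 1 := by
    rw [map_mul, hvc'k, hu1, mul_one]
  by_cases hR : R₂ = 0
  · have h0 := hR₂ k
    rw [hR, Pi.zero_apply, map_zero] at h0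
    rw [h0, map_zero] at h1
    exact zero_ne_one h1
  · obtain ⟨c₀, R', hc₀, hR', i₀, hi₀⟩ := exists_primitive_scaling A R₂ hR
    have hR₂' : ∀ i, R₂ i = C c₀ * (R' i).map A.subtype := fun i => by
      rw [hR' i, ← mul_assoc, ← C_mul, mul_inv_cancel₀ hc₀, C_1, one_mul]
    by_cases hc₀A : c₀ ∈ A.nonunits
    · rw [hR₂ k, hR₂' k, map_mul, aeval_C, map_mul] at h1
      have h2 : (vInf ℓ M A).valuation (algebraMap Kbar (FN (ℓ * M)) c₀) *
          (vInf ℓ M A).valuation (aeval (jBar (ℓ * M)) ((R' k).map A.subtype)) < 1 :=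
        lt_of_le_of_lt (mul_le_mul' le_rfl (val_aeval_jBar ℓ M A (R' k)).1)
          (by rw [mul_one]; exact val_algebraMap_lt_one ℓ M A hc₀A)
      rw [h1] at h2
      exact lt_irrefl _ h2
    · have hinv : c₀⁻¹ ∈ A := by
        rw [A.mem_nonunits_iff_or] at hc₀A
        exact not_not.mp (not_or.mp hc₀A).2
      have hle := val_algebraMap_le_one ℓ M A hinv
      have hEc : algebraMap Kbar (FN (ℓ * M)) c₀⁻¹ ∈ Kbar⟮jBar (ℓ * M)⟯ :=
        IntermediateField.algebraMap_mem _ _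
      have hsum' : algebraMap Kbar (FN (ℓ * M)) c₀⁻¹ *
          ∑ i, aeval (jBar (ℓ * M)) (R₂ i) * u i =
          ∑ i, aeval (jBar (ℓ * M)) ((R' i).map A.subtype) * u i := by
        rw [Finset.mul_sum]
        refine Finset.sum_congr rfl fun i _ => ?_
        rw [hR' i, map_mul, aeval_C, mul_assoc]
      have hlt' : N (∑ i, aeval (jBar (ℓ * M)) ((R' i).map A.subtype) * u i) < 1 := by
        rw [← hsum', hN _ hEc]
        exact lt_of_le_of_lt (mul_le_mul' hle le_rfl) (by rw [one_mul]; exact hNS)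
      exact hi₀ (hkey R' hlt' i₀)

include hA in
/-- **Orthonormality of the two-chart basis for `max(v_∞, v_0)` over `ℚ̄(j)`.** -/
theorem ortho_joint (c : TwoIdx ℓ (dedekindPsi M) → FN (ℓ * M))
    (hc : ∀ e, c e ∈ Kbar⟮jBar (ℓ * M)⟯) (k : TwoIdx ℓ (dedekindPsi M)) :
    (vInf ℓ M A).valuation (c k) ≤
      max ((vInf ℓ M A).valuation (∑ e, c e * twoBasis ℓ M hℓM e))
        ((vInf ℓ M A).valuation (wAL ℓ M hℓM (∑ e, c e * twoBasis ℓ M hℓM e))) := by
  refine ortho_of_key ℓ M A (twoBasis ℓ M hℓM)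
    (fun f => max ((vInf ℓ M A).valuation f) ((vInf ℓ M A).valuation (wAL ℓ M hℓM f)))
    ?_ ?_ c hc k
  · intro c hc f
    show max _ _ = _
    rw [map_mul, map_mul, map_mul, val_wAL_of_mem_adjoin ℓ M hℓM A hc, max_mul_mul_left]
  · intro R h
    have h1 := max_lt_iff.mp h
    exact key_reduction ℓ M hℓM A hA R 1 (by rw [Polynomial.map_one]; exact one_ne_zero) _
      (by rw [Polynomial.map_one, map_one, mul_one]) h1.1 h1.2

include hA in
/-- **Orthonormality of the first group for `v_∞` over `ℚ̄(j)`** (`ψ(M)` elements). -/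
theorem ortho_inl (c : Fin (dedekindPsi M) → FN (ℓ * M))
    (hc : ∀ i, c i ∈ Kbar⟮jBar (ℓ * M)⟯) (k : Fin (dedekindPsi M)) :
    (vInf ℓ M A).valuation (c k) ≤
      (vInf ℓ M A).valuation (∑ i, c i * twoBasis ℓ M hℓM (Sum.inl i)) := by
  refine ortho_of_key ℓ M A (fun i => twoBasis ℓ M hℓM (Sum.inl i))
    (fun f => (vInf ℓ M A).valuation f) (fun c _ f => map_mul _ _ _) ?_ c hc k
  intro R h i
  refine key_inf ℓ M hℓM A hA (Sum.elim R (fun _ => 0)) 1
    (by rw [Polynomial.map_one]; exact one_ne_zero) _ ?_ h i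
  rw [Polynomial.map_one, map_one, mul_one, Fintype.sum_sum_type]
  simp

include hA in
/-- **Orthonormality of the second group for `v_0 = v_∞ ∘ W_ℓ` over `ℚ̄(j)`** (`ℓ ψ(M)`
elements). -/
theorem ortho_inr (c : Fin ℓ × Fin (dedekindPsi M) → FN (ℓ * M))
    (hc : ∀ x, c x ∈ Kbar⟮jBar (ℓ * M)⟯) (k : Fin ℓ × Fin (dedekindPsi M)) :
    (vInf ℓ M A).valuation (c k) ≤
      (vInf ℓ M A).valuation (wAL ℓ M hℓM (∑ x, c x * twoBasis ℓ M hℓM (Sum.inr x))) := by
  refine ortho_of_key ℓ M A (fun x => twoBasis ℓ M hℓM (Sum.inr x))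
    (fun f => (vInf ℓ M A).valuation (wAL ℓ M hℓM f)) ?_ ?_ c hc k
  · intro c hc f
    show (vInf ℓ M A).valuation (wAL ℓ M hℓM (c * f)) = _
    rw [map_mul, map_mul, val_wAL_of_mem_adjoin ℓ M hℓM A hc]
  · intro R h x
    refine key_zero ℓ M hℓM A hA (Sum.elim (fun _ => 0) R) 1
      (by rw [Polynomial.map_one]; exact one_ne_zero) _ ?_ (fun i => by simp) h (Sum.inr x)
    rw [Polynomial.map_one, map_one, mul_one, Fintype.sum_sum_type]
    simp

end Generic

/-! ### The two Gauss valuations and the inputs of the two-valuation kit -/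

section Adapters

variable (ℓ M : ℕ) [Fact ℓ.Prime] [NeZero M] (hℓM : ¬ ℓ ∣ M) (A : ValuationSubring Kbar)
  (hA : (ℓ : Kbar) ∈ A.nonunits)

/-- The Gauss valuation `v_∞` of `F_{ℓ M}` above `A`. -/
abbrev valInf : Valuation (FN (ℓ * M)) (vInf ℓ M A).ValueGroup := (vInf ℓ M A).valuation

/-- The second Gauss valuation `v_0 = v_∞ ∘ W_ℓ` of `F_{ℓ M}` above `A` (same value group). -/
abbrev valZero : Valuation (FN (ℓ * M)) (vInf ℓ M A).ValueGroup :=
  (vInf ℓ M A).valuation.comap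
    ((wAL ℓ M hℓM : FN (ℓ * M) ≃+* FN (ℓ * M)) : FN (ℓ * M) →+* FN (ℓ * M))

/-- The common restriction of `v_∞`, `v_0` to the constants. -/
abbrev valConst : Valuation Kbar (vInf ℓ M A).ValueGroup :=
  (vInf ℓ M A).valuation.comap (algebraMap Kbar (FN (ℓ * M)))

theorem valZero_apply (f : FN (ℓ * M)) :
    valZero ℓ M hℓM A f = (vInf ℓ M A).valuation (wAL ℓ M hℓM f) := rfl

theorem valZero_algebraMap (c : Kbar) :
    valZero ℓ M hℓM A (algebraMap Kbar (FN (ℓ * M)) c) =
      (vInf ℓ M A).valuation (algebraMap Kbar (FN (ℓ * M)) c) := by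
  rw [valZero_apply, AlgEquiv.commutes]

theorem valZero_wAL (f : FN (ℓ * M)) :
    valZero ℓ M hℓM A (wAL ℓ M hℓM f) = (vInf ℓ M A).valuation f := by
  rw [valZero_apply, helper1219.atkinLehnerBar_atkinLehnerBar]

omit [Fact ℓ.Prime] [NeZero M] in
theorem valConst_le_one_iff (c : Kbar) : valConst ℓ M A c ≤ 1 ↔ c ∈ A := by
  rw [Valuation.comap_apply, (vInf ℓ M A).valuation_le_one_iff]
  exact helper8991.algebraMap_mem_gaussF_iff A (IsLocalRing.residue A) (ℓ * M)
    (fun a ha => (IsLocalRing.residue_eq_zero_iff a).mpr ha) c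

omit [Fact ℓ.Prime] [NeZero M] in
theorem valConst_lt_one_iff (c : Kbar) : valConst ℓ M A c < 1 ↔ c ∈ A.nonunits := by
  constructor
  · intro h
    by_contra hc
    have hcA : c ∈ A := (valConst_le_one_iff ℓ M A c).mp h.le
    have hc0 : c ≠ 0 := by
      rintro rfl
      exact hc (A.mem_nonunits_iff_exists_mem_maximalIdeal.mpr ⟨A.zero_mem, Ideal.zero_mem _⟩)
    have hinv : c⁻¹ ∈ A := by
      rw [A.mem_nonunits_iff_or] at hc
      exact not_not.mp (not_or.mp hc).2
    have h2 := (valConst_le_one_iff ℓ M A c⁻¹).mpr hinv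
    rw [map_inv₀] at h2
    have h3 : 0 < valConst ℓ M A c := zero_lt_iff.mpr ((Valuation.ne_zero_iff _).mpr hc0)
    exact absurd ((inv_le_one₀ h3).mp h2) (not_le.mpr h)
  · exact fun h => val_algebraMap_lt_one ℓ M A h

omit [Fact ℓ.Prime] [NeZero M] in
/-- The value group of `v_∞` is that of the constants. -/
theorem exists_valConst_eq_valInf {f : FN (ℓ * M)} (hf : f ≠ 0) :
    ∃ c : Kbar, valConst ℓ M A c = valInf ℓ M A f := by
  obtain ⟨γ, -, h⟩ := exists_const_val ℓ M A hf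
  exact ⟨γ, h.symm⟩

/-- The value group of `v_0` is that of the constants. -/
theorem exists_valConst_eq_valZero {f : FN (ℓ * M)} (hf : f ≠ 0) :
    ∃ c : Kbar, valConst ℓ M A c = valZero ℓ M hℓM A f := by
  have hWf : wAL ℓ M hℓM f ≠ 0 := (map_ne_zero_iff _ (wAL ℓ M hℓM).injective).mpr hf
  obtain ⟨γ, -, h⟩ := exists_const_val ℓ M A hWf
  exact ⟨γ, h.symm⟩

include hA in
/-- The first group of the two-chart basis is orthonormal over `ℚ̄(j)` for `v_∞`. -/
theorem isOrtho_inl :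
    helper1733.IsOrtho (valInf ℓ M A) (↥Kbar⟮jBar (ℓ * M)⟯)
      (fun i : Fin (dedekindPsi M) => twoBasis ℓ M hℓM (Sum.inl i)) := by
  refine helper1733.isOrtho_of_fintype (fun k => val_twoBasis_le_one ℓ M hℓM A _) fun c k => ?_
  have h := ortho_inl ℓ M hℓM A hA (fun i => (c i : FN (ℓ * M))) (fun i => (c i).2) k
  have e : ∑ i, c i • twoBasis ℓ M hℓM (Sum.inl i) =
      ∑ i, (c i : FN (ℓ * M)) * twoBasis ℓ M hℓM (Sum.inl i) :=
    Finset.sum_congr rfl fun i _ => by rw [Algebra.smul_def]; rfl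
  rw [e]
  exact h

include hA in
/-- The second group of the two-chart basis is orthonormal over `ℚ̄(j)` for `v_0`. -/
theorem isOrtho_inr :
    helper1733.IsOrtho (valZero ℓ M hℓM A) (↥Kbar⟮jBar (ℓ * M)⟯)
      (fun x : Fin ℓ × Fin (dedekindPsi M) => twoBasis ℓ M hℓM (Sum.inr x)) := by
  refine helper1733.isOrtho_of_fintype (fun k => val_wAL_twoBasis_le_one ℓ M hℓM A _)
    fun c k => ?_
  have h := ortho_inr ℓ M hℓM A hA (fun i => (c i : FN (ℓ * M))) (fun i => (c i).2) k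
  have e : ∑ i, c i • twoBasis ℓ M hℓM (Sum.inr i) =
      ∑ i, (c i : FN (ℓ * M)) * twoBasis ℓ M hℓM (Sum.inr i) :=
    Finset.sum_congr rfl fun i _ => by rw [Algebra.smul_def]; rfl
  rw [e]
  show (vInf ℓ M A).valuation (wAL ℓ M hℓM (c k : FN (ℓ * M))) ≤ _
  rw [val_wAL_of_mem_adjoin ℓ M hℓM A (c k).2]
  exact h

include hA in
/-- The whole two-chart basis is orthonormal over `ℚ̄(j)` for `max(v_∞, v_0)`. -/
theorem isOrthoN_twoBasis :
    helper882.IsOrthoN (valInf ℓ M A) (↥Kbar⟮jBar (ℓ * M)⟯)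
      (helper882.maxNorm (valInf ℓ M A) (valZero ℓ M hℓM A)) (twoBasis ℓ M hℓM) := by
  refine helper882.isOrthoN_of_fintype
    (fun k => max_le (val_twoBasis_le_one ℓ M hℓM A k) (val_wAL_twoBasis_le_one ℓ M hℓM A k))
    fun c k => ?_
  have h := ortho_joint ℓ M hℓM A hA (fun i => (c i : FN (ℓ * M))) (fun i => (c i).2) k
  have e : ∑ i, c i • twoBasis ℓ M hℓM i = ∑ i, (c i : FN (ℓ * M)) * twoBasis ℓ M hℓM i :=
    Finset.sum_congr rfl fun i _ => by rw [Algebra.smul_def]; rfl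
  rw [e]
  exact h

omit [Fact ℓ.Prime] [NeZero M] in
/-- `j` is residually transcendental for `v_∞`. -/
theorem resTranscendental_inf :
    helper1733.ResTranscendental (valInf ℓ M A) Kbar (jBar (ℓ * M)) := by
  rintro p hp ⟨i, hi⟩
  have hmem : ∀ m, p.coeff m ∈ A := fun m => (valConst_le_one_iff ℓ M A _).mp (hp m)
  obtain ⟨R, rfl⟩ := exists_map_subtype_eq A p hmem
  refine le_antisymm (val_aeval_jBar ℓ M A R).1 (not_lt.mp fun hlt => ?_)
  have h0 := (val_aeval_jBar ℓ M A R).2.mp hlt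
  have h1 : IsLocalRing.residue A (R.coeff i) = 0 := by
    have := congrArg (fun q => q.coeff i) h0
    simpa using this
  have h2 : ((R.coeff i : A) : Kbar) ∈ A.nonunits :=
    A.mem_nonunits_iff_exists_mem_maximalIdeal.mpr
      ⟨(R.coeff i).2, (IsLocalRing.residue_eq_zero_iff _).mp h1⟩
  have h3 := val_algebraMap_lt_one ℓ M A h2
  rw [coeff_map] at hi
  exact absurd hi h3.ne

/-- `j` is residually transcendental for `v_0`. -/
theorem resTranscendental_zero :
    helper1733.ResTranscendental (valZero ℓ M hℓM A) Kbar (jBar (ℓ * M)) := by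
  rintro p hp ⟨i, hi⟩
  simp only [valZero_algebraMap] at hp hi
  have hmem : ∀ m, p.coeff m ∈ A := fun m => (valConst_le_one_iff ℓ M A _).mp (hp m)
  obtain ⟨R, rfl⟩ := exists_map_subtype_eq A p hmem
  rw [valZero_apply]
  refine le_antisymm (val_wAL_aeval_jBar ℓ M hℓM A R).1 (not_lt.mp fun hlt => ?_)
  have h0 := (val_wAL_aeval_jBar ℓ M hℓM A R).2.mp hlt
  have h1 : IsLocalRing.residue A (R.coeff i) = 0 := by
    have := congrArg (fun q => q.coeff i) h0
    simpa using this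
  have h2 : ((R.coeff i : A) : Kbar) ∈ A.nonunits :=
    A.mem_nonunits_iff_exists_mem_maximalIdeal.mpr
      ⟨(R.coeff i).2, (IsLocalRing.residue_eq_zero_iff _).mp h1⟩
  have h3 := val_algebraMap_lt_one ℓ M A h2
  rw [coeff_map] at hi
  exact absurd hi h3.ne

include hA in
/-- **Kronecker witness.**  There is `y ∈ F_{ℓ M}` (`= j(ℓ z) - j^ℓ`) small for `v_∞` and a unit
for `v_0`. -/
theorem exists_witness :
    ∃ y : FN (ℓ * M), valInf ℓ M A y < 1 ∧ valZero ℓ M hℓM A y = 1 := by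
  have hchar := charP_residueField ℓ A hA
  obtain ⟨y, hy1, hy2⟩ := ALRel_kron (ℓ := ℓ) (M := M) (hcop := coprime_of_not_dvd ℓ M hℓM)
  refine ⟨y, ?_, ?_⟩
  · refine (val_of_rel ℓ M A y (zTo A (kronInf ℓ)) 1 (by rw [map_one]; exact one_ne_zero)
      (by rw [map_one, mul_one, hy1, coeffMap_zTo])).2.mpr ?_
    rw [coeffMap_zTo, zTo_kronInf]
  · have h := val_of_rel ℓ M A (wAL ℓ M hℓM y) (zTo A (kronZero ℓ)) 1
      (by rw [map_one]; exact one_ne_zero) (by rw [map_one, mul_one, hy2, coeffMap_zTo])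
    refine le_antisymm h.1 (not_lt.mp fun hlt => ?_)
    have h0 := h.2.mp hlt
    rw [coeffMap_zTo, zTo_kronZero] at h0
    exact jq_sub_pow_ne_zero ℓ _ h0

include hA in
/-- `v_∞` and `v_0` are incomparable (first half). -/
theorem notLE_inf_zero : helper882.NotLE (valInf ℓ M A) (valZero ℓ M hℓM A) := by
  obtain ⟨y, hy1, hy2⟩ := exists_witness ℓ M hℓM A hA
  have hy0 : y ≠ 0 := by
    rintro rfl
    rw [map_zero] at hy2
    exact zero_ne_one hy2
  have hpos : 0 < valInf ℓ M A y := zero_lt_iff.mpr ((Valuation.ne_zero_iff _).mpr hy0)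
  refine ⟨(wAL ℓ M hℓM y)⁻¹, ?_, ?_⟩
  · rw [map_inv₀]
    have : valInf ℓ M A (wAL ℓ M hℓM y) = 1 := hy2
    rw [this, inv_one]
  · rw [map_inv₀, valZero_wAL]
    exact (one_lt_inv₀ hpos).mpr hy1

include hA in
/-- `v_∞` and `v_0` are incomparable (second half). -/
theorem notLE_zero_inf : helper882.NotLE (valZero ℓ M hℓM A) (valInf ℓ M A) := by
  obtain ⟨y, hy1, hy2⟩ := exists_witness ℓ M hℓM A hA
  have hy0 : y ≠ 0 := by
    rintro rfl
    rw [map_zero] at hy2
    exact zero_ne_one hy2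
  have hpos : 0 < valInf ℓ M A y := zero_lt_iff.mpr ((Valuation.ne_zero_iff _).mpr hy0)
  refine ⟨y⁻¹, ?_, ?_⟩
  · rw [map_inv₀, hy2, inv_one]
  · rw [map_inv₀]
    exact (one_lt_inv₀ hpos).mpr hy1

omit [NeZero M] in
include hA in
/-- The constants are archimedean for the restriction of the Gauss valuations. -/
theorem powSmall_const : helper882.PowSmall (valConst ℓ M A) :=
  helper882.powSmall_algebraicClosure_rat _ (Fact.out : ℓ.Prime)
    (val_algebraMap_lt_one ℓ M A hA)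

omit [NeZero M] in
include hA in
/-- `v_∞` is archimedean. -/
theorem powSmall_inf : helper882.PowSmall (valInf ℓ M A) := by
  refine helper882.powSmall_of_exists_map_eq (L := Kbar) (fun y => ?_) (powSmall_const ℓ M A hA)
  by_cases hy : y = 0
  · exact ⟨0, by rw [hy, map_zero, map_zero, map_zero]⟩
  · obtain ⟨γ, h⟩ := exists_valConst_eq_valInf ℓ M A hy
    exact ⟨γ, h.symm⟩

include hA in
/-- `v_0` is archimedean. -/
theorem powSmall_zero : helper882.PowSmall (valZero ℓ M hℓM A) := by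
  refine helper882.powSmall_of_exists_map_eq (L := Kbar) (fun y => ?_) ?_
  · by_cases hy : y = 0
    · exact ⟨0, by rw [hy, map_zero, map_zero, map_zero]⟩
    · obtain ⟨γ, h⟩ := exists_valConst_eq_valZero ℓ M hℓM A hy
      exact ⟨γ, by rw [valZero_algebraMap]; exact h.symm⟩
  · have e : (valZero ℓ M hℓM A).comap (algebraMap Kbar (FN (ℓ * M))) = valConst ℓ M A := by
      ext c
      exact valZero_algebraMap ℓ M hℓM A c
    rw [e]
    exact powSmall_const ℓ M A hA

/-- `F_{ℓ M}` is finite over `ℚ̄(j)` (landed S24 degree theorem). -/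
theorem finiteDimensional_adjoin_jBar :
    FiniteDimensional (↥Kbar⟮jBar (ℓ * M)⟯) (FN (ℓ * M)) :=
  (Fermat.Agent.S24.helper1944.stmt_JFinrank_of_localInf
    Fermat.Agent.S24.helper1200.stmt_LocalInf (ℓ * M)).1

include hℓM in
/-- `[F_{ℓ M} : ℚ̄(j)] = ψ(M) + ℓ ψ(M)`: the two orthonormal families have the right total
cardinality. -/
theorem card_add_card_eq_finrank :
    Fintype.card (Fin (dedekindPsi M)) + Fintype.card (Fin ℓ × Fin (dedekindPsi M)) =
      Module.finrank (↥Kbar⟮jBar (ℓ * M)⟯) (FN (ℓ * M)) := by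
  rw [(Fermat.Agent.S24.helper1944.stmt_JFinrank_of_localInf
      Fermat.Agent.S24.helper1200.stmt_LocalInf (ℓ * M)).2,
    Fermat.Agent.S24.helper1356.stmt_Index (ℓ * M), mul_comm ℓ M,
    Fermat.Agent.S28.helper1595.dedekindPsi_mul_prime_of_not_dvd (Fact.out : ℓ.Prime)
      (NeZero.pos M) hℓM, Fintype.card_prod, Fintype.card_fin, Fintype.card_fin]
  ring

end Adapters

/-! ### The cartesian theorem for the pair `(v_∞, v_0)` at level `ℓ M` -/

section Instance

variable (ℓ M : ℕ) [Fact ℓ.Prime] [NeZero M] (hℓM : ¬ ℓ ∣ M) (A : ValuationSubring Kbar)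
  (hA : (ℓ : Kbar) ∈ A.nonunits)

/-- The pair `(v_∞, v_0)` as a `Fin 2`-family of valuations with a common value group. -/
abbrev valPair : Fin 2 → Valuation (FN (ℓ * M)) (vInf ℓ M A).ValueGroup :=
  ![valInf ℓ M A, valZero ℓ M hℓM A]

theorem valPair_algebraMap (i : Fin 2) (c : Kbar) :
    valPair ℓ M hℓM A i (algebraMap Kbar (FN (ℓ * M)) c) = valConst ℓ M A c := by
  fin_cases i
  · rfl
  · exact valZero_algebraMap ℓ M hℓM A c

theorem exists_valConst_eq_valPair (i : Fin 2) {f : FN (ℓ * M)} (hf : f ≠ 0) :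
    ∃ c : Kbar, valConst ℓ M A c = valPair ℓ M hℓM A i f := by
  fin_cases i
  · exact exists_valConst_eq_valInf ℓ M A hf
  · exact exists_valConst_eq_valZero ℓ M hℓM A hf

theorem resTranscendental_valPair (i : Fin 2) :
    helper1733.ResTranscendental (valPair ℓ M hℓM A i) Kbar (jBar (ℓ * M)) := by
  fin_cases i
  · exact resTranscendental_inf ℓ M A
  · exact resTranscendental_zero ℓ M hℓM A

include hA in
theorem powSmall_valPair (i : Fin 2) : helper882.PowSmall (valPair ℓ M hℓM A i) := by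
  fin_cases i
  · exact powSmall_inf ℓ M A hA
  · exact powSmall_zero ℓ M hℓM A hA

omit [NeZero M] in
include hA in
/-- The value group of the Gauss valuations is archimedean. -/
theorem valueGroup_arch (ε κ : (vInf ℓ M A).ValueGroup) (hε : ε < 1) (hκ : κ ≠ 0) :
    ∃ n : ℕ, ε ^ n < κ := by
  obtain ⟨t, rfl⟩ := (vInf ℓ M A).valuation_surjective ε
  obtain ⟨g, rfl⟩ := (vInf ℓ M A).valuation_surjective κ
  exact powSmall_inf ℓ M A hA t hε g ((Valuation.ne_zero_iff _).mp hκ)

include hA in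
/-- **(E1), `CartesianW` form with independent twists.**  Every finite-dimensional `ℚ̄`-subspace
`W` of `F_{ℓ M}` is cartesian for the pair `(v_∞, v_0)` with weights `(v_∞ (f 0), v_0 (f 1))`. -/
theorem cartesianW_twoVal (f : Fin 2 → FN (ℓ * M)) (hf : ∀ i, f i ≠ 0)
    (W : Submodule Kbar (FN (ℓ * M))) [FiniteDimensional Kbar W] :
    helper2459.CartesianW (valPair ℓ M hℓM A) (fun i => valPair ℓ M hℓM A i (f i))
      (valConst ℓ M A) W := by
  have := finiteDimensional_adjoin_jBar ℓ M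
  exact helper882.cartesianW_of_twoVal (x := jBar (ℓ * M)) (valConst ℓ M A) (valPair ℓ M hℓM A)
    (valPair_algebraMap ℓ M hℓM A) (resTranscendental_valPair ℓ M hℓM A)
    (notLE_inf_zero ℓ M hℓM A hA) (notLE_zero_inf ℓ M hℓM A hA) (powSmall_valPair ℓ M hℓM A hA)
    (isOrtho_inl ℓ M hℓM A hA) (isOrtho_inr ℓ M hℓM A hA) (card_add_card_eq_finrank ℓ M hℓM)
    f hf W

include hA in
/-- **(E1), `CartesianW` form with weights `1`** (the untwisted lattices): every
finite-dimensional `ℚ̄`-subspace `W` of `F_{ℓ M}` is cartesian for `max(v_∞, v_0)`. -/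
theorem cartesianW_twoVal_one (W : Submodule Kbar (FN (ℓ * M))) [FiniteDimensional Kbar W] :
    helper2459.CartesianW (valPair ℓ M hℓM A) (fun _ => 1) (valConst ℓ M A) W := by
  have h := cartesianW_twoVal ℓ M hℓM A hA (fun _ => 1) (fun _ => one_ne_zero) W
  have e : (fun i => valPair ℓ M hℓM A i ((fun _ : Fin 2 => (1 : FN (ℓ * M))) i)) =
      fun _ => 1 := funext fun i => map_one _
  rw [e] at h
  exact h

include hA in
/-- **(E1), ball form.**  Every finite-dimensional `ℚ̄`-subspace `W` of `F_{ℓ M}` has a basis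
`e` such that `∑ c i • e i` lies in the twisted ball `{v_∞ ≤ r v_∞(f₁), v_0 ≤ r v_0(f₂)}` iff all
coefficients have value `≤ r`. -/
theorem exists_twisted_ball_basis {f₁ f₂ : FN (ℓ * M)} (hf₁ : f₁ ≠ 0) (hf₂ : f₂ ≠ 0)
    (W : Submodule Kbar (FN (ℓ * M))) [FiniteDimensional Kbar W] :
    ∃ e : Fin (Module.finrank Kbar W) → FN (ℓ * M), (∀ i, e i ∈ W) ∧
      Submodule.span Kbar (Set.range e) = W ∧ LinearIndependent Kbar e ∧
      (∀ i, valInf ℓ M A (e i) ≤ valInf ℓ M A f₁ ∧
        valZero ℓ M hℓM A (e i) ≤ valZero ℓ M hℓM A f₂) ∧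
      ∀ (c : Fin (Module.finrank Kbar W) → Kbar) (r : (vInf ℓ M A).ValueGroup),
        (valInf ℓ M A (∑ i, c i • e i) ≤ r * valInf ℓ M A f₁ ∧
          valZero ℓ M hℓM A (∑ i, c i • e i) ≤ r * valZero ℓ M hℓM A f₂) ↔
          ∀ i, valConst ℓ M A (c i) ≤ r := by
  have := finiteDimensional_adjoin_jBar ℓ M
  exact helper882.exists_basis_ball_of_powSmall (x := jBar (ℓ * M))
    (resTranscendental_inf ℓ M A) (resTranscendental_zero ℓ M hℓM A)
    (valZero_algebraMap ℓ M hℓM A)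
    (notLE_inf_zero ℓ M hℓM A hA) (notLE_zero_inf ℓ M hℓM A hA)
    (powSmall_inf ℓ M A hA) (powSmall_zero ℓ M hℓM A hA)
    (isOrtho_inl ℓ M hℓM A hA) (isOrtho_inr ℓ M hℓM A hA) (card_add_card_eq_finrank ℓ M hℓM)
    hf₁ hf₂ W

end Instance

end Fermat.Agent.S35.helper1928
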