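/-
S34 twin of the S35 geometric leaf (helper2039): the package `Stmt_NodalFrobAt` of
`helper2039_NodalFrob.lean` contains the S34 leaf `Fermat.Agent.S34.helper2423.Stmt_NodalAt`
(forget the Frobenius data (F2), (F3); Galois-stability (F1) gives the inertia clause), so the ONE
geometric leaf `helper2039.Stmt_NodalFrobGeom` closes the S34 captain's `Stmt_TorFixGeom` as well.
-/
import Fermat.Agent.S34.helper2423_TorFixGeom
import Fermat.Agent.S35.helper2039_NodalFrob

set_option autoImplicit false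

namespace Fermat.Agent.S35.helper2039

open AlgebraicCurve ModularCurve

local notation "Qb" => AlgebraicClosure ℚ

/-- The S35 package contains the S34 package. -/
theorem stmt_NodalAt_of_nodalFrobAt {q M : ℕ} [NeZero q] [NeZero M] (h' : Nat.Coprime q M)
    (A : ValuationSubring Qb) (n : ℕ) (h : Stmt_NodalFrobAt q M h' A n) :
    Fermat.Agent.S34.helper2423.Stmt_NodalAt q M h' A n := by
  obtain ⟨E1, E2, hE1, hE2, hdisj, hgE1, hgE2, kk, iF, Fk, iC, iA, red, hred, θ, Θ, hθ, hτred,
    Vn, iV, iVA, I, iI, ιV, T, p', q', e, s, t, n₀, hιV, hT, hT1, hTmul, hΘT, hE3⟩ := h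
  exact ⟨E1, E2, hE1, hE2, hdisj, fun τ _ w hw => hgE1 τ w hw, fun τ _ w hw => hgE2 τ w hw,
    kk, iF, Fk, iC, iA, red, hred, Vn, iV, iVA, I, iI, ιV, T, p', q', e, s, t, n₀, hιV, hT, hT1,
    hTmul, hE3⟩

/-- **The S34 captain's geometry leaf from the ONE geometric leaf of S35.** -/
theorem stmt_TorFixGeom_of_nodalFrob (hGeo : Stmt_NodalFrobGeom) :
    Fermat.Agent.S34.helper8267.Stmt_TorFixGeom :=
  Fermat.Agent.S34.helper2423.stmt_TorFixGeom_of_nodalAt
    (fun q M p r _ _ h' hq hp hqp hr hrq hrM A hA m =>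
      stmt_NodalAt_of_nodalFrobAt h' A (p ^ m)
        (hGeo q M r h' hq hr hrq hrM p hp (Ne.symm hqp) m A hA))

end Fermat.Agent.S35.helper2039
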