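/-
S35-FROBRR (board #2275, helper2195): the supplier of the hypothesis `hΘT` of
`helper3729.torFrob_of_nodal` (TORFROB integration, S35 only):

  the coefficientwise Frobenius (any semilinear automorphism `g` of the component function
  field fixing the chart coordinate) preserves the Riemann-Roch pairs
  `T a b = pairRR P Q (a • Yinf₁ + b • Y0₁) (a • Yinf₂ + b • Y0₂)` of the special fibre and acts
  on the node values through the base automorphism `θ`.

Generic layer (Prelude vocabulary `AlgebraicCurve.Place`, `Divisor`, `riemannRochSpace`,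
`SemilinearAut`):

* `adicValuation_smul`, `smul_mem_riemannRochSpace` : transport of valuations and of `L(D)`;
* `smul_inv_divisor_apply_of_ord`, `smul_mem_rr_chart` : a semilinear automorphism fixing `x`
  preserves `L(a • Yinf + b • Y0)` for the pole/zero divisors of `x`;
* `valueAt_smul_place`, `valueAt_smul_of_fixed` : `valueAt (g • P) (g • f) = θ (valueAt P f)`;
* `smul_place_eq_of_values` : node rationality in value form on a separating chart ring gives
  `g • P = P`;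
* `exists_pairRR_smul`, `hThetaT_of_fixed` : the pair form, resp. `hΘT` verbatim.

Concrete layer (`Fk = modularFunctionFieldFullC k M`, `g = S37.helper6879.coeffAutC M φ`):
`coeffAutC_smul_eq_self`, `exists_pairRR_coeffMap`, `hThetaT_fullC` (`ιV = expIncl`),
`hThetaT_fibreIncl` (`ιV = (helper1928.fibreIncl k M).comp (helper603.nodeInclAlg P Q)`, the `ιV`
of `helper603.twisted_lattice_of_components`).

Frobenius-square layer (`k` perfect of characteristic `q`, `g = frobSqAutC M q`, the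
coefficientwise `c ↦ c ^ (q ^ 2)`): `qExpand_qExpand_coeffMap_frobSq`, `smul_place_eq_of_frob_fixed`
(node rationality from "`P (u(T^(q²))) = P u` on a separating chart ring"), `hThetaT_frobSq`
(`θ = Θ`-coefficient map `= (frobenius k q).comp (frobenius k q)`, the `frobSq` of
`helper3729_FrobGauss`).

Node layer (on the landed `helper825.chartAlg` / `place_unique`): `smul_mem_chartAlg`,
`frobSqAutC_smul_place_of_fixed` (`P (u(T^(q²))) = P u` on the chart ring gives
`frobSqAutC • P = P`), `frobSqAutC_smul_node` : a pair of places `(P, Q)` of the chart of `tb`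
with the Kronecker graph property (FROB) `P (u(T^q)) = Q u`, `Q (u(T^q)) = P u` on the chart
ring is fixed by `frobSqAutC`; `hThetaT_of_fixed_points`, `hThetaT_of_frob` : `hΘT` from the
fixed-point property, resp. from (FROB) alone.

Bridges: `hFROB_of_values`, `hFROB_of_graph`, `hFROB_of_kron` ((FROB) in element form =
clause (d) of the chart/node package, from the value identities of
`helper825.node_values_of_graph`, resp. from the graph property of the relation ring
`(u, u(T^q)) ∈ R`, `(u(T^q), u) ∈ R`, resp. from the output of `helper2736.kron_chart` and the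
node conditions), `hThetaT_of_clauses` (`hΘT` from `x₂ = x₁ ^ q`, `𝔽_q`-coefficients of `x₁`,
nodes off the zeros and poles, (FROB)).
-/
import Mathlib
import Fermat.Prelude.Def_AlgebraicCurve_BaseChangeGalois
import Fermat.Agent.Lib.helper7516_LaurentFrob
import Fermat.Agent.S35.helper603_TwistedFF
import Fermat.Agent.S35.helper1928_ResField
import Fermat.Agent.S35.helper825_NodePlaces
import Fermat.Agent.S37.helper6879_GaussGalois

set_option autoImplicit false

noncomputable section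

namespace Fermat.Agent.S35.helper2195

open AlgebraicCurve WithZero ModularCurve
open Fermat.Agent.S35.helper603

/-! ### Generic layer: semilinear automorphisms, places and Riemann-Roch spaces -/

section Generic

variable {K F : Type*} [Field K] [Field F] [Algebra K F]

/-- A semilinear automorphism transports the valuation at `v` to the valuation at `g • v`. -/
theorem adicValuation_smul (g : SemilinearAut K F) (v : Place K F) (f : F) :
    (g • v).adicValuation (g • f) = v.adicValuation f := by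
  rcases eq_or_ne f 0 with rfl | hf
  · simp
  · have hgf : g • f ≠ 0 := by
      intro h
      exact hf ((smul_eq_zero_iff_eq g).mp h)
    rw [(g • v).adicValuation_eq_exp_neg_ord hgf, v.adicValuation_eq_exp_neg_ord hf,
      SemilinearAut.ord_smul]

/-- The valuation of `g • f` at `w` is the valuation of `f` at `g⁻¹ • w`. -/
theorem adicValuation_smul_eq (g : SemilinearAut K F) (w : Place K F) (f : F) :
    w.adicValuation (g • f) = (g⁻¹ • w).adicValuation f := by
  have h := adicValuation_smul g (g⁻¹ • w) f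
  rwa [smul_inv_smul] at h

/-- `g • L(D) ⊆ L(g • D)`. -/
theorem smul_mem_riemannRochSpace (g : SemilinearAut K F) {D : Divisor K F} {f : F}
    (hf : f ∈ riemannRochSpace D) : g • f ∈ riemannRochSpace (g • D) := by
  intro w
  rw [adicValuation_smul_eq, SemilinearAut.divisor_smul_apply]
  exact hf (g⁻¹ • w)

/-- The order of a `g`-fixed function is the same at `w` and at `g⁻¹ • w`. -/
theorem ord_inv_smul_of_fixed (g : SemilinearAut K F) {x : F} (hx : g • x = x)
    (w : Place K F) : (g⁻¹ • w).ord x = w.ord x := by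
  have h := SemilinearAut.ord_smul g (g⁻¹ • w) x
  rw [smul_inv_smul, hx] at h
  exact h.symm

/-- The pole and zero divisors of a `g`-fixed function are `g`-stable (pointwise form). -/
theorem smul_inv_divisor_apply_of_ord (g : SemilinearAut K F) {x : F} (hx : g • x = x)
    {Yinf Y0 : Divisor K F} (hYinf : 0 ≤ Yinf) (hY0 : 0 ≤ Y0)
    (hdisj : ∀ v : Place K F, Yinf v = 0 ∨ Y0 v = 0)
    (hord : ∀ v : Place K F, v.ord x = Y0 v - Yinf v) (w : Place K F) :
    Yinf (g⁻¹ • w) = Yinf w ∧ Y0 (g⁻¹ • w) = Y0 w := by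
  have key := ord_inv_smul_of_fixed g hx w
  have h1 := hord w
  have h2 := hord (g⁻¹ • w)
  have a1 : 0 ≤ Yinf w := by simpa using Finsupp.le_def.mp hYinf w
  have a2 : 0 ≤ Yinf (g⁻¹ • w) := by simpa using Finsupp.le_def.mp hYinf (g⁻¹ • w)
  have b1 : 0 ≤ Y0 w := by simpa using Finsupp.le_def.mp hY0 w
  have b2 : 0 ≤ Y0 (g⁻¹ • w) := by simpa using Finsupp.le_def.mp hY0 (g⁻¹ • w)
  rcases hdisj w with c1 | c1 <;> rcases hdisj (g⁻¹ • w) with c2 | c2 <;> constructor <;> omega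

/-- The pole and zero divisors of a `g`-fixed function are `g`-stable. -/
theorem smul_divisor_eq_of_ord (g : SemilinearAut K F) {x : F} (hx : g • x = x)
    {Yinf Y0 : Divisor K F} (hYinf : 0 ≤ Yinf) (hY0 : 0 ≤ Y0)
    (hdisj : ∀ v : Place K F, Yinf v = 0 ∨ Y0 v = 0)
    (hord : ∀ v : Place K F, v.ord x = Y0 v - Yinf v) :
    g • Yinf = Yinf ∧ g • Y0 = Y0 := by
  constructor
  · ext w
    rw [SemilinearAut.divisor_smul_apply]
    exact (smul_inv_divisor_apply_of_ord g hx hYinf hY0 hdisj hord w).1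
  · ext w
    rw [SemilinearAut.divisor_smul_apply]
    exact (smul_inv_divisor_apply_of_ord g hx hYinf hY0 hdisj hord w).2

/-- **A semilinear automorphism fixing the chart coordinate `x` preserves the chart
Riemann-Roch spaces** `L(a • Yinf + b • Y0)`, `Yinf`/`Y0` the pole/zero divisors of `x`. -/
theorem smul_mem_rr_chart (g : SemilinearAut K F) {x : F} (hx : g • x = x)
    {Yinf Y0 : Divisor K F} (hYinf : 0 ≤ Yinf) (hY0 : 0 ≤ Y0)
    (hdisj : ∀ v : Place K F, Yinf v = 0 ∨ Y0 v = 0)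
    (hord : ∀ v : Place K F, v.ord x = Y0 v - Yinf v) (a b : ℕ) {f : F}
    (hf : f ∈ riemannRochSpace (a • Yinf + b • Y0)) :
    g • f ∈ riemannRochSpace (a • Yinf + b • Y0) := by
  have h := smul_mem_riemannRochSpace g hf
  obtain ⟨e1, e2⟩ := smul_divisor_eq_of_ord g hx hYinf hY0 hdisj hord
  rwa [smul_add, smul_comm g a Yinf, smul_comm g b Y0, e1, e2] at h

/-- Values at places of degree one are transported semilinearly. -/
theorem valueAt_smul_place (g : SemilinearAut K F) (P : Place K F) (hP : P.deg = 1)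
    (hgP : (g • P).deg = 1) {f : F} (hf : P.adicValuation f ≤ 1) :
    valueAt (g • P) hgP (g • f) = SemilinearAut.baseAut g (valueAt P hP f) := by
  refine valueAt_unique _ _ ?_
  have h1 := valueAt_spec P hP hf
  have h2 := adicValuation_smul g P (f - algebraMap K F (valueAt P hP f))
  rw [smul_sub, SemilinearAut.smul_algebraMap] at h2
  rw [h2]
  exact h1

/-- At a `g`-fixed place of degree one, `g` acts on values through its base automorphism. -/
theorem valueAt_smul_of_fixed (g : SemilinearAut K F) (P : Place K F) (hP : P.deg = 1)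
    (hgP : g • P = P) {f : F} (hf : P.adicValuation f ≤ 1) :
    valueAt P hP (g • f) = SemilinearAut.baseAut g (valueAt P hP f) := by
  have hdeg : (g • P).deg = 1 := by rw [hgP]; exact hP
  have h := valueAt_smul_place g P hP hdeg hf
  have e : valueAt (g • P) hdeg (g • f) = valueAt P hP (g • f) := by
    congr 1
  rw [← e]
  exact h

/-- A function regular at a `g`-fixed place stays regular there. -/
theorem adicValuation_smul_le_one_of_fixed (g : SemilinearAut K F) (P : Place K F)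
    (hgP : g • P = P) {f : F} (hf : P.adicValuation f ≤ 1) : P.adicValuation (g • f) ≤ 1 := by
  have h := adicValuation_smul g P f
  rw [hgP] at h
  rw [h]
  exact hf

/-- **Node rationality from the value form.** If `g` acts on the values at `P` of a `g`-stable
set `B` of functions regular at `P` through its base automorphism, and `B` separates `P` from
the other places of degree one, then `g • P = P`. -/
theorem smul_place_eq_of_values (g : SemilinearAut K F) (P : Place K F) (hP : P.deg = 1)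
    (B : Set F) (hBg : ∀ u ∈ B, g • u ∈ B) (hBP : ∀ u ∈ B, P.adicValuation u ≤ 1)
    (hval : ∀ u ∈ B, valueAt P hP (g • u) = SemilinearAut.baseAut g (valueAt P hP u))
    (hsep : ∀ (P' : Place K F) (hP' : P'.deg = 1), (∀ u ∈ B, P'.adicValuation u ≤ 1) →
      (∀ u ∈ B, valueAt P' hP' u = valueAt P hP u) → P' = P) :
    g • P = P := by
  have hdeg : (g⁻¹ • P).deg = 1 := by rw [SemilinearAut.deg_smul]; exact hP
  have hreg : ∀ u ∈ B, (g⁻¹ • P).adicValuation u ≤ 1 := fun u hu => by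
    rw [← adicValuation_smul_eq g P u]
    exact hBP _ (hBg u hu)
  have hvals : ∀ u ∈ B, valueAt (g⁻¹ • P) hdeg u = valueAt P hP u := fun u hu => by
    have h1 := valueAt_smul_place g⁻¹ P hP hdeg (hBP _ (hBg u hu))
    rw [inv_smul_smul, hval u hu, SemilinearAut.baseAut_inv] at h1
    rw [h1]
    exact RingEquiv.symm_apply_apply _ _
  have h := hsep (g⁻¹ • P) hdeg hreg hvals
  calc g • P = g • (g⁻¹ • P) := by rw [h]
    _ = P := smul_inv_smul g P

end Generic

/-! ### The pair form: `hΘT` of `helper3729.torFrob_of_nodal` -/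

section Pair

variable {k Fk₁ Fk₂ : Type*} [Field k] [Field Fk₁] [Field Fk₂] [Algebra k Fk₁] [Algebra k Fk₂]
variable {I : Type*}

/-- **The pair form.** Semilinear automorphisms `g₁`, `g₂` of the two component function fields
over the same base automorphism `θ`, fixing the chart coordinates `x₁`, `x₂` and the node
places, preserve `pairRR P Q (a • Yinf₁ + b • Y0₁) (a • Yinf₂ + b • Y0₂)` and act on the node
values through `θ`. -/
theorem exists_pairRR_smul (g₁ : SemilinearAut k Fk₁) (g₂ : SemilinearAut k Fk₂)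
    (θ : k →+* k) (hθ₁ : ∀ c : k, SemilinearAut.baseAut g₁ c = θ c)
    (hθ₂ : ∀ c : k, SemilinearAut.baseAut g₂ c = θ c)
    (P : I → Place k Fk₁) (Q : I → Place k Fk₂)
    (hdeg₁ : ∀ i, (P i).deg = 1) (hdeg₂ : ∀ i, (Q i).deg = 1)
    (hgP : ∀ i, g₁ • P i = P i) (hgQ : ∀ i, g₂ • Q i = Q i)
    {x₁ : Fk₁} (hx₁ : g₁ • x₁ = x₁) {x₂ : Fk₂} (hx₂ : g₂ • x₂ = x₂)
    {Yinf₁ Y0₁ : Divisor k Fk₁} {Yinf₂ Y0₂ : Divisor k Fk₂}
    (hYinf₁ : 0 ≤ Yinf₁) (hY0₁ : 0 ≤ Y0₁) (hYinf₂ : 0 ≤ Yinf₂) (hY0₂ : 0 ≤ Y0₂)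
    (hdisj₁ : ∀ v : Place k Fk₁, Yinf₁ v = 0 ∨ Y0₁ v = 0)
    (hdisj₂ : ∀ v : Place k Fk₂, Yinf₂ v = 0 ∨ Y0₂ v = 0)
    (hord₁ : ∀ v : Place k Fk₁, v.ord x₁ = Y0₁ v - Yinf₁ v)
    (hord₂ : ∀ v : Place k Fk₂, v.ord x₂ = Y0₂ v - Yinf₂ v)
    (a b : ℕ) (y : nodeRing P × nodeRing Q)
    (hy : y ∈ pairRR P Q (a • Yinf₁ + b • Y0₁) (a • Yinf₂ + b • Y0₂)) :
    ∃ y' ∈ pairRR P Q (a • Yinf₁ + b • Y0₁) (a • Yinf₂ + b • Y0₂),
      (y'.1 : Fk₁) = g₁ • (y.1 : Fk₁) ∧ (y'.2 : Fk₂) = g₂ • (y.2 : Fk₂) ∧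
      ∀ i, (evalAt P hdeg₁ i).comp (AlgHom.fst k (nodeRing P) (nodeRing Q)) y' =
            θ ((evalAt P hdeg₁ i).comp (AlgHom.fst k (nodeRing P) (nodeRing Q)) y) ∧
          (evalAt Q hdeg₂ i).comp (AlgHom.snd k (nodeRing P) (nodeRing Q)) y' =
            θ ((evalAt Q hdeg₂ i).comp (AlgHom.snd k (nodeRing P) (nodeRing Q)) y) := by
  have m1 : g₁ • (y.1 : Fk₁) ∈ nodeRing P := fun i =>
    adicValuation_smul_le_one_of_fixed g₁ (P i) (hgP i) (y.1.2 i)
  have m2 : g₂ • (y.2 : Fk₂) ∈ nodeRing Q := fun i =>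
    adicValuation_smul_le_one_of_fixed g₂ (Q i) (hgQ i) (y.2.2 i)
  refine ⟨(⟨g₁ • (y.1 : Fk₁), m1⟩, ⟨g₂ • (y.2 : Fk₂), m2⟩), ⟨?_, ?_⟩, rfl, rfl, fun i => ⟨?_, ?_⟩⟩
  · exact smul_mem_rr_chart g₁ hx₁ hYinf₁ hY0₁ hdisj₁ hord₁ a b hy.1
  · exact smul_mem_rr_chart g₂ hx₂ hYinf₂ hY0₂ hdisj₂ hord₂ a b hy.2
  · show valueAt (P i) (hdeg₁ i) (g₁ • (y.1 : Fk₁)) = θ (valueAt (P i) (hdeg₁ i) (y.1 : Fk₁))
    rw [valueAt_smul_of_fixed g₁ (P i) (hdeg₁ i) (hgP i) (y.1.2 i), hθ₁]
  · show valueAt (Q i) (hdeg₂ i) (g₂ • (y.2 : Fk₂)) = θ (valueAt (Q i) (hdeg₂ i) (y.2 : Fk₂))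
    rw [valueAt_smul_of_fixed g₂ (Q i) (hdeg₂ i) (hgQ i) (y.2.2 i), hθ₂]

/-- **`hΘT` of `helper3729.torFrob_of_nodal`, verbatim**, for
`T a b = pairRR P Q (a • Yinf₁ + b • Y0₁) (a • Yinf₂ + b • Y0₂)`, `p`/`q` the node evaluations,
and any embedding `ιV` of `nodeRing P × nodeRing Q` intertwining `(g₁, g₂)` with `Θ`. -/
theorem hThetaT_of_fixed (g₁ : SemilinearAut k Fk₁) (g₂ : SemilinearAut k Fk₂)
    (θ : k →+* k) (hθ₁ : ∀ c : k, SemilinearAut.baseAut g₁ c = θ c)
    (hθ₂ : ∀ c : k, SemilinearAut.baseAut g₂ c = θ c)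
    (P : I → Place k Fk₁) (Q : I → Place k Fk₂)
    (hdeg₁ : ∀ i, (P i).deg = 1) (hdeg₂ : ∀ i, (Q i).deg = 1)
    (hgP : ∀ i, g₁ • P i = P i) (hgQ : ∀ i, g₂ • Q i = Q i)
    {x₁ : Fk₁} (hx₁ : g₁ • x₁ = x₁) {x₂ : Fk₂} (hx₂ : g₂ • x₂ = x₂)
    {Yinf₁ Y0₁ : Divisor k Fk₁} {Yinf₂ Y0₂ : Divisor k Fk₂}
    (hYinf₁ : 0 ≤ Yinf₁) (hY0₁ : 0 ≤ Y0₁) (hYinf₂ : 0 ≤ Yinf₂) (hY0₂ : 0 ≤ Y0₂)
    (hdisj₁ : ∀ v : Place k Fk₁, Yinf₁ v = 0 ∨ Y0₁ v = 0)
    (hdisj₂ : ∀ v : Place k Fk₂, Yinf₂ v = 0 ∨ Y0₂ v = 0)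
    (hord₁ : ∀ v : Place k Fk₁, v.ord x₁ = Y0₁ v - Yinf₁ v)
    (hord₂ : ∀ v : Place k Fk₂, v.ord x₂ = Y0₂ v - Yinf₂ v)
    {Fk : Type*} [CommRing Fk] [Algebra k Fk]
    (ιV : (nodeRing P × nodeRing Q) →ₐ[k] Fk) (Θ : Fk → Fk)
    (hιΘ : ∀ y y' : nodeRing P × nodeRing Q, (y'.1 : Fk₁) = g₁ • (y.1 : Fk₁) →
      (y'.2 : Fk₂) = g₂ • (y.2 : Fk₂) → ιV y' = Θ (ιV y)) :
    ∀ a b : ℕ, ∀ y ∈ pairRR P Q (a • Yinf₁ + b • Y0₁) (a • Yinf₂ + b • Y0₂),
      ∃ y' ∈ pairRR P Q (a • Yinf₁ + b • Y0₁) (a • Yinf₂ + b • Y0₂), ιV y' = Θ (ιV y) ∧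
        ∀ i, (evalAt P hdeg₁ i).comp (AlgHom.fst k (nodeRing P) (nodeRing Q)) y' =
              θ ((evalAt P hdeg₁ i).comp (AlgHom.fst k (nodeRing P) (nodeRing Q)) y) ∧
            (evalAt Q hdeg₂ i).comp (AlgHom.snd k (nodeRing P) (nodeRing Q)) y' =
              θ ((evalAt Q hdeg₂ i).comp (AlgHom.snd k (nodeRing P) (nodeRing Q)) y) := by
  intro a b y hy
  obtain ⟨y', hy', e1, e2, hv⟩ := exists_pairRR_smul g₁ g₂ θ hθ₁ hθ₂ P Q hdeg₁ hdeg₂ hgP hgQ
    hx₁ hx₂ hYinf₁ hY0₁ hYinf₂ hY0₂ hdisj₁ hdisj₂ hord₁ hord₂ a b y hy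
  exact ⟨y', hy', hιΘ y y' e1 e2, hv⟩

end Pair

/-! ### Concrete layer: the coefficientwise automorphisms of `modularFunctionFieldFullC k M` -/

section Concrete

open Fermat.Agent.S37.helper6879

variable {k : Type*} [Field k] {I : Type*}

/-- A function of `modularFunctionFieldFullC k M` whose expansion has `φ`-fixed coefficients is
fixed by the coefficientwise automorphism. -/
theorem coeffAutC_smul_eq_self (M : ℕ) (φ : RingAut k) {x : modularFunctionFieldFullC k M}
    (hx : coeffMap ((φ : k ≃+* k) : k →+* k) (x : LaurentSeries k) = (x : LaurentSeries k)) :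
    coeffAutC M φ • x = x :=
  Subtype.ext (by rw [coe_coeffAutC_smul, hx])

/-- **Concrete pair form**: both components are `modularFunctionFieldFullC k M`, the
automorphism is the coefficientwise `φ` on both; conclusion in expansion form. -/
theorem exists_pairRR_coeffMap (M : ℕ) (φ : RingAut k)
    (P Q : I → Place k (modularFunctionFieldFullC k M))
    (hdeg₁ : ∀ i, (P i).deg = 1) (hdeg₂ : ∀ i, (Q i).deg = 1)
    (hgP : ∀ i, coeffAutC M φ • P i = P i) (hgQ : ∀ i, coeffAutC M φ • Q i = Q i)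
    {x₁ x₂ : modularFunctionFieldFullC k M}
    (hx₁ : coeffMap ((φ : k ≃+* k) : k →+* k) (x₁ : LaurentSeries k) = (x₁ : LaurentSeries k))
    (hx₂ : coeffMap ((φ : k ≃+* k) : k →+* k) (x₂ : LaurentSeries k) = (x₂ : LaurentSeries k))
    {Yinf₁ Y0₁ Yinf₂ Y0₂ : Divisor k (modularFunctionFieldFullC k M)}
    (hYinf₁ : 0 ≤ Yinf₁) (hY0₁ : 0 ≤ Y0₁) (hYinf₂ : 0 ≤ Yinf₂) (hY0₂ : 0 ≤ Y0₂)
    (hdisj₁ : ∀ v, Yinf₁ v = 0 ∨ Y0₁ v = 0) (hdisj₂ : ∀ v, Yinf₂ v = 0 ∨ Y0₂ v = 0)
    (hord₁ : ∀ v : Place k (modularFunctionFieldFullC k M), v.ord x₁ = Y0₁ v - Yinf₁ v)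
    (hord₂ : ∀ v : Place k (modularFunctionFieldFullC k M), v.ord x₂ = Y0₂ v - Yinf₂ v)
    (a b : ℕ) (y : nodeRing P × nodeRing Q)
    (hy : y ∈ pairRR P Q (a • Yinf₁ + b • Y0₁) (a • Yinf₂ + b • Y0₂)) :
    ∃ y' ∈ pairRR P Q (a • Yinf₁ + b • Y0₁) (a • Yinf₂ + b • Y0₂),
      (((y'.1 : modularFunctionFieldFullC k M)) : LaurentSeries k) =
          coeffMap ((φ : k ≃+* k) : k →+* k) ((y.1 : modularFunctionFieldFullC k M) :
            LaurentSeries k) ∧
      (((y'.2 : modularFunctionFieldFullC k M)) : LaurentSeries k) =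
          coeffMap ((φ : k ≃+* k) : k →+* k) ((y.2 : modularFunctionFieldFullC k M) :
            LaurentSeries k) ∧
      ∀ i, (evalAt P hdeg₁ i).comp (AlgHom.fst k (nodeRing P) (nodeRing Q)) y' =
            φ ((evalAt P hdeg₁ i).comp (AlgHom.fst k (nodeRing P) (nodeRing Q)) y) ∧
          (evalAt Q hdeg₂ i).comp (AlgHom.snd k (nodeRing P) (nodeRing Q)) y' =
            φ ((evalAt Q hdeg₂ i).comp (AlgHom.snd k (nodeRing P) (nodeRing Q)) y) := by
  obtain ⟨y', hy', e1, e2, hv⟩ := exists_pairRR_smul (coeffAutC M φ) (coeffAutC M φ)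
    ((φ : k ≃+* k) : k →+* k) (fun _ => rfl) (fun _ => rfl) P Q hdeg₁ hdeg₂ hgP hgQ
    (coeffAutC_smul_eq_self M φ hx₁) (coeffAutC_smul_eq_self M φ hx₂)
    hYinf₁ hY0₁ hYinf₂ hY0₂ hdisj₁ hdisj₂ hord₁ hord₂ a b y hy
  refine ⟨y', hy', ?_, ?_, hv⟩
  · rw [e1, coe_coeffAutC_smul]
  · rw [e2, coe_coeffAutC_smul]

/-- The embedding of `nodeRing P × nodeRing Q` into `k((T)) × k((T))` (expansions on both
components), as a `k`-algebra homomorphism. -/
def expIncl (M : ℕ) (P Q : I → Place k (modularFunctionFieldFullC k M)) :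
    (nodeRing P × nodeRing Q) →ₐ[k] LaurentSeries k × LaurentSeries k :=
  AlgHom.prodMap ((modularFunctionFieldFullC k M).val.comp (nodeRing P).val)
    ((modularFunctionFieldFullC k M).val.comp (nodeRing Q).val)

theorem expIncl_apply (M : ℕ) (P Q : I → Place k (modularFunctionFieldFullC k M))
    (y : nodeRing P × nodeRing Q) :
    expIncl M P Q y = ((((y.1 : modularFunctionFieldFullC k M)) : LaurentSeries k),
      (((y.2 : modularFunctionFieldFullC k M)) : LaurentSeries k)) := rfl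

theorem expIncl_injective (M : ℕ) (P Q : I → Place k (modularFunctionFieldFullC k M)) :
    Function.Injective (expIncl M P Q) := by
  intro v w h
  rw [expIncl_apply, expIncl_apply, Prod.mk.injEq] at h
  exact Prod.ext (Subtype.ext (Subtype.ext h.1)) (Subtype.ext (Subtype.ext h.2))

/-- **`hΘT` of `helper3729.torFrob_of_nodal` at the concrete carrier**: `Vn = nodeRing P ×
nodeRing Q` over `Fk = modularFunctionFieldFullC k M`, `ιV = expIncl` (expansions in
`k((T)) × k((T))`), `Θ = Prod.map (coeffMap φ) (coeffMap φ)`, `θ = φ`. -/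
theorem hThetaT_fullC (M : ℕ) (φ : RingAut k)
    (P Q : I → Place k (modularFunctionFieldFullC k M))
    (hdeg₁ : ∀ i, (P i).deg = 1) (hdeg₂ : ∀ i, (Q i).deg = 1)
    (hgP : ∀ i, coeffAutC M φ • P i = P i) (hgQ : ∀ i, coeffAutC M φ • Q i = Q i)
    {x₁ x₂ : modularFunctionFieldFullC k M}
    (hx₁ : coeffMap ((φ : k ≃+* k) : k →+* k) (x₁ : LaurentSeries k) = (x₁ : LaurentSeries k))
    (hx₂ : coeffMap ((φ : k ≃+* k) : k →+* k) (x₂ : LaurentSeries k) = (x₂ : LaurentSeries k))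
    {Yinf₁ Y0₁ Yinf₂ Y0₂ : Divisor k (modularFunctionFieldFullC k M)}
    (hYinf₁ : 0 ≤ Yinf₁) (hY0₁ : 0 ≤ Y0₁) (hYinf₂ : 0 ≤ Yinf₂) (hY0₂ : 0 ≤ Y0₂)
    (hdisj₁ : ∀ v, Yinf₁ v = 0 ∨ Y0₁ v = 0) (hdisj₂ : ∀ v, Yinf₂ v = 0 ∨ Y0₂ v = 0)
    (hord₁ : ∀ v : Place k (modularFunctionFieldFullC k M), v.ord x₁ = Y0₁ v - Yinf₁ v)
    (hord₂ : ∀ v : Place k (modularFunctionFieldFullC k M), v.ord x₂ = Y0₂ v - Yinf₂ v) :
    ∀ a b : ℕ, ∀ y ∈ pairRR P Q (a • Yinf₁ + b • Y0₁) (a • Yinf₂ + b • Y0₂),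
      ∃ y' ∈ pairRR P Q (a • Yinf₁ + b • Y0₁) (a • Yinf₂ + b • Y0₂),
        expIncl M P Q y' =
          Prod.map (coeffMap ((φ : k ≃+* k) : k →+* k)) (coeffMap ((φ : k ≃+* k) : k →+* k))
            (expIncl M P Q y) ∧
        ∀ i, (evalAt P hdeg₁ i).comp (AlgHom.fst k (nodeRing P) (nodeRing Q)) y' =
              ((φ : k ≃+* k) : k →+* k)
                ((evalAt P hdeg₁ i).comp (AlgHom.fst k (nodeRing P) (nodeRing Q)) y) ∧
            (evalAt Q hdeg₂ i).comp (AlgHom.snd k (nodeRing P) (nodeRing Q)) y' =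
              ((φ : k ≃+* k) : k →+* k)
                ((evalAt Q hdeg₂ i).comp (AlgHom.snd k (nodeRing P) (nodeRing Q)) y) := by
  intro a b y hy
  obtain ⟨y', hy', e1, e2, hv⟩ := exists_pairRR_coeffMap M φ P Q hdeg₁ hdeg₂ hgP hgQ hx₁ hx₂
    hYinf₁ hY0₁ hYinf₂ hY0₂ hdisj₁ hdisj₂ hord₁ hord₂ a b y hy
  refine ⟨y', hy', ?_, hv⟩
  rw [expIncl_apply, expIncl_apply, Prod.map_apply, e1, e2]

/-- **`hΘT` of `helper3729.torFrob_of_nodal` for the `ιV` of
`helper603.twisted_lattice_of_components`**: `ιV = (helper1928.fibreIncl k M).comp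
(helper603.nodeInclAlg P Q)`, `Θ = Prod.map (coeffMap φ) (coeffMap φ)`, `θ = φ`. -/
theorem hThetaT_fibreIncl (M : ℕ) (φ : RingAut k)
    (P Q : I → Place k (modularFunctionFieldFullC k M))
    (hdeg₁ : ∀ i, (P i).deg = 1) (hdeg₂ : ∀ i, (Q i).deg = 1)
    (hgP : ∀ i, coeffAutC M φ • P i = P i) (hgQ : ∀ i, coeffAutC M φ • Q i = Q i)
    {x₁ x₂ : modularFunctionFieldFullC k M}
    (hx₁ : coeffMap ((φ : k ≃+* k) : k →+* k) (x₁ : LaurentSeries k) = (x₁ : LaurentSeries k))
    (hx₂ : coeffMap ((φ : k ≃+* k) : k →+* k) (x₂ : LaurentSeries k) = (x₂ : LaurentSeries k))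
    {Yinf₁ Y0₁ Yinf₂ Y0₂ : Divisor k (modularFunctionFieldFullC k M)}
    (hYinf₁ : 0 ≤ Yinf₁) (hY0₁ : 0 ≤ Y0₁) (hYinf₂ : 0 ≤ Yinf₂) (hY0₂ : 0 ≤ Y0₂)
    (hdisj₁ : ∀ v, Yinf₁ v = 0 ∨ Y0₁ v = 0) (hdisj₂ : ∀ v, Yinf₂ v = 0 ∨ Y0₂ v = 0)
    (hord₁ : ∀ v : Place k (modularFunctionFieldFullC k M), v.ord x₁ = Y0₁ v - Yinf₁ v)
    (hord₂ : ∀ v : Place k (modularFunctionFieldFullC k M), v.ord x₂ = Y0₂ v - Yinf₂ v) :
    ∀ a b : ℕ, ∀ y ∈ pairRR P Q (a • Yinf₁ + b • Y0₁) (a • Yinf₂ + b • Y0₂),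
      ∃ y' ∈ pairRR P Q (a • Yinf₁ + b • Y0₁) (a • Yinf₂ + b • Y0₂),
        ((Fermat.Agent.S35.helper1928.fibreIncl k M).comp (nodeInclAlg P Q)) y' =
          Prod.map (coeffMap ((φ : k ≃+* k) : k →+* k)) (coeffMap ((φ : k ≃+* k) : k →+* k))
            (((Fermat.Agent.S35.helper1928.fibreIncl k M).comp (nodeInclAlg P Q)) y) ∧
        ∀ i, (evalAt P hdeg₁ i).comp (AlgHom.fst k (nodeRing P) (nodeRing Q)) y' =
              ((φ : k ≃+* k) : k →+* k)
                ((evalAt P hdeg₁ i).comp (AlgHom.fst k (nodeRing P) (nodeRing Q)) y) ∧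
            (evalAt Q hdeg₂ i).comp (AlgHom.snd k (nodeRing P) (nodeRing Q)) y' =
              ((φ : k ≃+* k) : k →+* k)
                ((evalAt Q hdeg₂ i).comp (AlgHom.snd k (nodeRing P) (nodeRing Q)) y) := by
  intro a b y hy
  obtain ⟨y', hy', e1, e2, hv⟩ := exists_pairRR_coeffMap M φ P Q hdeg₁ hdeg₂ hgP hgQ hx₁ hx₂
    hYinf₁ hY0₁ hYinf₂ hY0₂ hdisj₁ hdisj₂ hord₁ hord₂ a b y hy
  refine ⟨y', hy', ?_, hv⟩
  show ((((y'.1 : modularFunctionFieldFullC k M)) : LaurentSeries k),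
      (((y'.2 : modularFunctionFieldFullC k M)) : LaurentSeries k)) =
    Prod.map (coeffMap ((φ : k ≃+* k) : k →+* k)) (coeffMap ((φ : k ≃+* k) : k →+* k))
      ((((y.1 : modularFunctionFieldFullC k M)) : LaurentSeries k),
        (((y.2 : modularFunctionFieldFullC k M)) : LaurentSeries k))
  rw [Prod.map_apply, e1, e2]

end Concrete

/-! ### The Frobenius-square layer: `k` perfect of characteristic `q` -/

section FrobSq

open Fermat.Agent.S37.helper6879

variable {k : Type*} [Field k] {I : Type*}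

/-- In characteristic `q`: `u(T^(q²))` with coefficients raised to the `q²`-th power is
`u ^ (q²)`. -/
theorem qExpand_qExpand_coeffMap_frobSq (q : ℕ) [NeZero q] [ExpChar k q] (u : LaurentSeries k) :
    qExpand k q (qExpand k q (coeffMap ((frobenius k q).comp (frobenius k q)) u)) =
      u ^ (q ^ 2) := by
  rw [← coeffMap_coeffMap, ← coeffMap_qExpand,
    Fermat.Agent.Lib.helper7516.qExpand_coeffMap_frobenius,
    Fermat.Agent.Lib.helper7516.qExpand_coeffMap_frobenius, ← pow_mul, sq]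

/-- Values at a place of degree one are multiplicative on powers of regular functions. -/
theorem valueAt_pow {K F : Type*} [Field K] [Field F] [Algebra K F] (P : Place K F)
    (hP : P.deg = 1) {f : F} (hf : P.adicValuation f ≤ 1) (n : ℕ) :
    valueAt P hP (f ^ n) = valueAt P hP f ^ n := by
  have h := map_pow (evalAt (fun _ : Unit => P) (fun _ => hP) ())
    (⟨f, fun _ => hf⟩ : nodeRing (fun _ : Unit => P)) n
  exact h

/-- The coefficientwise `c ↦ c ^ (q ^ 2)` on `modularFunctionFieldFullC k M`, `k` perfect of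
characteristic `q`, as a semilinear automorphism. -/
def frobSqAutC (M q : ℕ) [ExpChar k q] [PerfectRing k q] :
    SemilinearAut k (modularFunctionFieldFullC k M) :=
  coeffAutC M (frobeniusEquiv k q * frobeniusEquiv k q)

theorem coe_frobSqAutC_smul (M q : ℕ) [ExpChar k q] [PerfectRing k q]
    (x : modularFunctionFieldFullC k M) :
    ((frobSqAutC (k := k) M q • x : modularFunctionFieldFullC k M) : LaurentSeries k) =
      coeffMap ((frobenius k q).comp (frobenius k q)) (x : LaurentSeries k) := by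
  rw [frobSqAutC, coe_coeffAutC_smul]
  exact coeffMap_congr (RingHom.ext fun _ => rfl) _

theorem baseAut_frobSqAutC_apply (M q : ℕ) [ExpChar k q] [PerfectRing k q] (c : k) :
    SemilinearAut.baseAut (frobSqAutC (k := k) M q) c =
      ((frobenius k q).comp (frobenius k q)) c := rfl

theorem frobSq_apply' (q : ℕ) [ExpChar k q] (c : k) :
    ((frobenius k q).comp (frobenius k q)) c = c ^ (q ^ 2) := by
  rw [RingHom.comp_apply, frobenius_def, frobenius_def, ← pow_mul, sq]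

/-- A function whose expansion has `𝔽_{q²}`-coefficients (e.g. integer coefficients) is fixed by
`frobSqAutC`. -/
theorem frobSqAutC_smul_eq_self (M q : ℕ) [ExpChar k q] [PerfectRing k q]
    {x : modularFunctionFieldFullC k M}
    (hx : coeffMap ((frobenius k q).comp (frobenius k q)) (x : LaurentSeries k) =
      (x : LaurentSeries k)) :
    frobSqAutC (k := k) M q • x = x :=
  Subtype.ext (by rw [coe_frobSqAutC_smul, hx])

/-- **Node rationality.** Let `P` be a place of degree one of `modularFunctionFieldFullC k M`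
and `B` a `frobSqAutC`-stable set of functions regular at `P` which separates `P` from the other
places of degree one (the chart ring).  If `P (u(T^(q²))) = P u` for all `u ∈ B` (the Kronecker
fixed-point property of the nodes), then `P` is fixed by the coefficientwise `q²`-Frobenius. -/
theorem smul_place_eq_of_frob_fixed (M q : ℕ) [NeZero q] [ExpChar k q] [PerfectRing k q]
    (P : Place k (modularFunctionFieldFullC k M)) (hP : P.deg = 1)
    (B : Set (modularFunctionFieldFullC k M))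
    (hBg : ∀ u ∈ B, frobSqAutC (k := k) M q • u ∈ B)
    (hBP : ∀ u ∈ B, P.adicValuation u ≤ 1)
    (hfix : ∀ w ∈ B, ∀ w' : modularFunctionFieldFullC k M,
      (w' : LaurentSeries k) = qExpand k q (qExpand k q (w : LaurentSeries k)) →
      valueAt P hP w' = valueAt P hP w)
    (hsep : ∀ (P' : Place k (modularFunctionFieldFullC k M)) (hP' : P'.deg = 1),
      (∀ u ∈ B, P'.adicValuation u ≤ 1) →
      (∀ u ∈ B, valueAt P' hP' u = valueAt P hP u) → P' = P) :
    frobSqAutC (k := k) M q • P = P := by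
  refine smul_place_eq_of_values (frobSqAutC (k := k) M q) P hP B hBg hBP (fun u hu => ?_) hsep
  have h1 : ((u ^ (q ^ 2) : modularFunctionFieldFullC k M) : LaurentSeries k) =
      qExpand k q (qExpand k q
        ((frobSqAutC (k := k) M q • u : modularFunctionFieldFullC k M) : LaurentSeries k)) := by
    rw [coe_frobSqAutC_smul, qExpand_qExpand_coeffMap_frobSq]
    rfl
  have h2 := hfix _ (hBg u hu) (u ^ (q ^ 2)) h1
  rw [← h2, valueAt_pow P hP (hBP u hu), baseAut_frobSqAutC_apply, frobSq_apply']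

/-- **`hΘT` of `helper3729.torFrob_of_nodal` in its final shape**: `ιV = (helper1928.fibreIncl
k M).comp (helper603.nodeInclAlg P Q)`, `θ = (frobenius k q).comp (frobenius k q)`
(`= helper3729.frobSq k q`), `Θ = Prod.map (coeffMap θ) (coeffMap θ)`; node rationality in the
form `frobSqAutC M q • P i = P i`, `frobSqAutC M q • Q i = Q i`. -/
theorem hThetaT_frobSq (M q : ℕ) [ExpChar k q] [PerfectRing k q]
    (P Q : I → Place k (modularFunctionFieldFullC k M))
    (hdeg₁ : ∀ i, (P i).deg = 1) (hdeg₂ : ∀ i, (Q i).deg = 1)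
    (hgP : ∀ i, frobSqAutC (k := k) M q • P i = P i)
    (hgQ : ∀ i, frobSqAutC (k := k) M q • Q i = Q i)
    {x₁ x₂ : modularFunctionFieldFullC k M}
    (hx₁ : coeffMap ((frobenius k q).comp (frobenius k q)) (x₁ : LaurentSeries k) =
      (x₁ : LaurentSeries k))
    (hx₂ : coeffMap ((frobenius k q).comp (frobenius k q)) (x₂ : LaurentSeries k) =
      (x₂ : LaurentSeries k))
    {Yinf₁ Y0₁ Yinf₂ Y0₂ : Divisor k (modularFunctionFieldFullC k M)}
    (hYinf₁ : 0 ≤ Yinf₁) (hY0₁ : 0 ≤ Y0₁) (hYinf₂ : 0 ≤ Yinf₂) (hY0₂ : 0 ≤ Y0₂)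
    (hdisj₁ : ∀ v, Yinf₁ v = 0 ∨ Y0₁ v = 0) (hdisj₂ : ∀ v, Yinf₂ v = 0 ∨ Y0₂ v = 0)
    (hord₁ : ∀ v : Place k (modularFunctionFieldFullC k M), v.ord x₁ = Y0₁ v - Yinf₁ v)
    (hord₂ : ∀ v : Place k (modularFunctionFieldFullC k M), v.ord x₂ = Y0₂ v - Yinf₂ v) :
    ∀ a b : ℕ, ∀ y ∈ pairRR P Q (a • Yinf₁ + b • Y0₁) (a • Yinf₂ + b • Y0₂),
      ∃ y' ∈ pairRR P Q (a • Yinf₁ + b • Y0₁) (a • Yinf₂ + b • Y0₂),
        ((Fermat.Agent.S35.helper1928.fibreIncl k M).comp (nodeInclAlg P Q)) y' =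
          Prod.map (coeffMap ((frobenius k q).comp (frobenius k q)))
            (coeffMap ((frobenius k q).comp (frobenius k q)))
            (((Fermat.Agent.S35.helper1928.fibreIncl k M).comp (nodeInclAlg P Q)) y) ∧
        ∀ i, (evalAt P hdeg₁ i).comp (AlgHom.fst k (nodeRing P) (nodeRing Q)) y' =
              ((frobenius k q).comp (frobenius k q))
                ((evalAt P hdeg₁ i).comp (AlgHom.fst k (nodeRing P) (nodeRing Q)) y) ∧
            (evalAt Q hdeg₂ i).comp (AlgHom.snd k (nodeRing P) (nodeRing Q)) y' =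
              ((frobenius k q).comp (frobenius k q))
                ((evalAt Q hdeg₂ i).comp (AlgHom.snd k (nodeRing P) (nodeRing Q)) y) := by
  intro a b y hy
  obtain ⟨y', hy', e1, e2, hv⟩ := exists_pairRR_smul (frobSqAutC (k := k) M q)
    (frobSqAutC (k := k) M q) ((frobenius k q).comp (frobenius k q))
    (fun _ => rfl) (fun _ => rfl) P Q hdeg₁ hdeg₂ hgP hgQ
    (frobSqAutC_smul_eq_self M q hx₁) (frobSqAutC_smul_eq_self M q hx₂)
    hYinf₁ hY0₁ hYinf₂ hY0₂ hdisj₁ hdisj₂ hord₁ hord₂ a b y hy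
  refine ⟨y', hy', ?_, hv⟩
  show ((((y'.1 : modularFunctionFieldFullC k M)) : LaurentSeries k),
      (((y'.2 : modularFunctionFieldFullC k M)) : LaurentSeries k)) =
    Prod.map (coeffMap ((frobenius k q).comp (frobenius k q)))
      (coeffMap ((frobenius k q).comp (frobenius k q)))
      ((((y.1 : modularFunctionFieldFullC k M)) : LaurentSeries k),
        (((y.2 : modularFunctionFieldFullC k M)) : LaurentSeries k))
  rw [Prod.map_apply, e1, e2, coe_frobSqAutC_smul, coe_frobSqAutC_smul]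

end FrobSq

/-! ### Node rationality from the Kronecker graph property (FROB) -/

section Nodes

open Fermat.Agent.S37.helper6879 Fermat.Agent.S35.helper825 IntermediateField

/-- A semilinear automorphism fixing `x` preserves the chart ring of `x`. -/
theorem smul_mem_chartAlg {K F : Type*} [Field K] [Field F] [Algebra K F]
    (g : SemilinearAut K F) {x : F} (hx : g • x = x) {f : F} (hf : f ∈ chartAlg K x) :
    g • f ∈ chartAlg K x := by
  intro v hv
  rw [adicValuation_smul_eq]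
  refine hf (g⁻¹ • v) ?_
  have h := adicValuation_smul_eq g v x
  rw [hx] at h
  rw [← h]
  exact hv

variable {k : Type*} [Field k] {I : Type*}

/-- The inverse of the coefficientwise Frobenius, in expansion form. -/
theorem coe_frobAutC_inv_smul (M q : ℕ) [ExpChar k q] [PerfectRing k q]
    (x : modularFunctionFieldFullC k M) :
    coeffMap (frobenius k q)
      (((frobAutC (k := k) M q)⁻¹ • x : modularFunctionFieldFullC k M) : LaurentSeries k) =
      (x : LaurentSeries k) := by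
  have h := coe_frobAutC_smul (k := k) M q ((frobAutC (k := k) M q)⁻¹ • x)
  rw [smul_inv_smul] at h
  exact h.symm

/-- A function with `𝔽_q`-coefficients is fixed by the coefficientwise Frobenius. -/
theorem frobAutC_smul_eq_self (M q : ℕ) [ExpChar k q] [PerfectRing k q]
    {x : modularFunctionFieldFullC k M}
    (hx : coeffMap (frobenius k q) (x : LaurentSeries k) = (x : LaurentSeries k)) :
    frobAutC (k := k) M q • x = x :=
  Subtype.ext (by rw [coe_frobAutC_smul, hx])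

/-- For `u` in the function field, `u(T^q)` is again in the function field: it is
`(Frob⁻¹ u) ^ q`. -/
theorem coe_frobAutC_inv_smul_pow (M q : ℕ) [NeZero q] [ExpChar k q] [PerfectRing k q]
    (u : modularFunctionFieldFullC k M) :
    ((((frobAutC (k := k) M q)⁻¹ • u) ^ q : modularFunctionFieldFullC k M) : LaurentSeries k) =
      qExpand k q (u : LaurentSeries k) := by
  have h := Fermat.Agent.Lib.helper7516.qExpand_coeffMap_frobenius q
    ((((frobAutC (k := k) M q)⁻¹ • u : modularFunctionFieldFullC k M)) : LaurentSeries k)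
  rw [coe_frobAutC_inv_smul] at h
  rw [h]
  rfl

/-- **Node rationality, fixed-point form.**  A place `P` of the chart of `tb` (`tb` with
`𝔽_{q²}`-coefficients) with `P (u(T^(q²))) = P u` for every `u` of the chart ring is fixed by
the coefficientwise `q²`-Frobenius.  (Separation of places by the chart ring is the landed
`helper825.place_unique`.) -/
theorem frobSqAutC_smul_place_of_fixed [IsAlgClosed k] (M q : ℕ) [NeZero q] [ExpChar k q]
    [PerfectRing k q] (tb : modularFunctionFieldFullC k M) (htb : Transcendental k tb)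
    [FiniteDimensional k⟮tb⟯ (modularFunctionFieldFullC k M)]
    (hfrob2 : coeffMap ((frobenius k q).comp (frobenius k q)) (tb : LaurentSeries k) =
      (tb : LaurentSeries k))
    (P : Place k (modularFunctionFieldFullC k M)) (hPx : P.adicValuation tb ≤ 1)
    (hfix : ∀ w : modularFunctionFieldFullC k M, w ∈ chartAlg k tb →
      ∀ w' : modularFunctionFieldFullC k M,
      (w' : LaurentSeries k) = qExpand k q (qExpand k q (w : LaurentSeries k)) →
      valueAt P (place_deg tb P) w' = valueAt P (place_deg tb P) w) :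
    frobSqAutC (k := k) M q • P = P := by
  have hg2 : frobSqAutC (k := k) M q • tb = tb := frobSqAutC_smul_eq_self M q hfrob2
  refine smul_place_eq_of_frob_fixed M q P (place_deg tb P) (chartAlg k tb)
    (fun u hu => smul_mem_chartAlg _ hg2 hu) (fun u hu => hu P hPx) hfix ?_
  intro P' hP' hreg hval
  exact place_unique tb htb (hreg tb (self_mem_chartAlg tb)) hPx (fun f => hval f f.2)

/-- **Node rationality from (FROB).**  Let `P`, `Q` be places of the chart of `tb`
(`tb` with `𝔽_q`-coefficients) such that for every `u` in the chart ring and `u' = u(T^q)`: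
`P u' = Q u` and `Q u' = P u` (the graph property of the Kronecker conductor: the pair `(P, Q)`
is glued by the reductions of `α y` and of `β y`).  Then `P` and `Q` are fixed by the
coefficientwise `q²`-Frobenius. -/
theorem frobSqAutC_smul_node [IsAlgClosed k] (M q : ℕ) [NeZero q] [ExpChar k q]
    [PerfectRing k q] (tb : modularFunctionFieldFullC k M) (htb : Transcendental k tb)
    [FiniteDimensional k⟮tb⟯ (modularFunctionFieldFullC k M)]
    (hfrob : coeffMap (frobenius k q) (tb : LaurentSeries k) = (tb : LaurentSeries k))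
    (P Q : Place k (modularFunctionFieldFullC k M))
    (hPx : P.adicValuation tb ≤ 1) (hQx : Q.adicValuation tb ≤ 1)
    (hFROB : ∀ u u' : modularFunctionFieldFullC k M, u ∈ chartAlg k tb →
      (u' : LaurentSeries k) = qExpand k q (u : LaurentSeries k) →
      valueAt P (place_deg tb P) u' = valueAt Q (place_deg tb Q) u ∧
        valueAt Q (place_deg tb Q) u' = valueAt P (place_deg tb P) u) :
    frobSqAutC (k := k) M q • P = P ∧ frobSqAutC (k := k) M q • Q = Q := by
  have hg1 : frobAutC (k := k) M q • tb = tb := frobAutC_smul_eq_self M q hfrob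
  have hg1' : (frobAutC (k := k) M q)⁻¹ • tb = tb := by
    rw [inv_smul_eq_iff, hg1]
  have hfrob2 : coeffMap ((frobenius k q).comp (frobenius k q)) (tb : LaurentSeries k) =
      (tb : LaurentSeries k) := by
    rw [← coeffMap_coeffMap, hfrob, hfrob]
  -- the chart ring is stable under `u ↦ u(T^q)`
  have hstep : ∀ u : modularFunctionFieldFullC k M, u ∈ chartAlg k tb →
      ((frobAutC (k := k) M q)⁻¹ • u) ^ q ∈ chartAlg k tb := fun u hu =>
    pow_mem (smul_mem_chartAlg _ hg1' hu) q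
  refine ⟨frobSqAutC_smul_place_of_fixed M q tb htb hfrob2 P hPx ?_,
    frobSqAutC_smul_place_of_fixed M q tb htb hfrob2 Q hQx ?_⟩
  · intro w hw w' hw'
    have e1 := coe_frobAutC_inv_smul_pow M q w
    have h1 := hFROB w (((frobAutC (k := k) M q)⁻¹ • w) ^ q) hw e1
    have h2 := hFROB (((frobAutC (k := k) M q)⁻¹ • w) ^ q) w' (hstep w hw) (by rw [hw', e1])
    rw [h2.1, h1.2]
  · intro w hw w' hw'
    have e1 := coe_frobAutC_inv_smul_pow M q w
    have h1 := hFROB w (((frobAutC (k := k) M q)⁻¹ • w) ^ q) hw e1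
    have h2 := hFROB (((frobAutC (k := k) M q)⁻¹ • w) ^ q) w' (hstep w hw) (by rw [hw', e1])
    rw [h2.2, h1.1]

/-- **`hΘT` of `helper3729.torFrob_of_nodal` from the fixed-point property of the nodes**
(`P i (u(T^(q²))) = P i u`, `Q i (u(T^(q²))) = Q i u` on the chart ring of `tb`). -/
theorem hThetaT_of_fixed_points [IsAlgClosed k] (M q : ℕ) [NeZero q] [ExpChar k q]
    [PerfectRing k q] (tb : modularFunctionFieldFullC k M) (htb : Transcendental k tb)
    [FiniteDimensional k⟮tb⟯ (modularFunctionFieldFullC k M)]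
    (hfrob2 : coeffMap ((frobenius k q).comp (frobenius k q)) (tb : LaurentSeries k) =
      (tb : LaurentSeries k))
    (P Q : I → Place k (modularFunctionFieldFullC k M))
    (hdeg₁ : ∀ i, (P i).deg = 1) (hdeg₂ : ∀ i, (Q i).deg = 1)
    (hPx : ∀ i, (P i).adicValuation tb ≤ 1) (hQx : ∀ i, (Q i).adicValuation tb ≤ 1)
    (hfixP : ∀ i, ∀ w : modularFunctionFieldFullC k M, w ∈ chartAlg k tb →
      ∀ w' : modularFunctionFieldFullC k M,
      (w' : LaurentSeries k) = qExpand k q (qExpand k q (w : LaurentSeries k)) →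
      valueAt (P i) (hdeg₁ i) w' = valueAt (P i) (hdeg₁ i) w)
    (hfixQ : ∀ i, ∀ w : modularFunctionFieldFullC k M, w ∈ chartAlg k tb →
      ∀ w' : modularFunctionFieldFullC k M,
      (w' : LaurentSeries k) = qExpand k q (qExpand k q (w : LaurentSeries k)) →
      valueAt (Q i) (hdeg₂ i) w' = valueAt (Q i) (hdeg₂ i) w)
    {x₁ x₂ : modularFunctionFieldFullC k M}
    (hx₁ : coeffMap ((frobenius k q).comp (frobenius k q)) (x₁ : LaurentSeries k) =
      (x₁ : LaurentSeries k))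
    (hx₂ : coeffMap ((frobenius k q).comp (frobenius k q)) (x₂ : LaurentSeries k) =
      (x₂ : LaurentSeries k))
    {Yinf₁ Y0₁ Yinf₂ Y0₂ : Divisor k (modularFunctionFieldFullC k M)}
    (hYinf₁ : 0 ≤ Yinf₁) (hY0₁ : 0 ≤ Y0₁) (hYinf₂ : 0 ≤ Yinf₂) (hY0₂ : 0 ≤ Y0₂)
    (hdisj₁ : ∀ v, Yinf₁ v = 0 ∨ Y0₁ v = 0) (hdisj₂ : ∀ v, Yinf₂ v = 0 ∨ Y0₂ v = 0)
    (hord₁ : ∀ v : Place k (modularFunctionFieldFullC k M), v.ord x₁ = Y0₁ v - Yinf₁ v)
    (hord₂ : ∀ v : Place k (modularFunctionFieldFullC k M), v.ord x₂ = Y0₂ v - Yinf₂ v) :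
    ∀ a b : ℕ, ∀ y ∈ pairRR P Q (a • Yinf₁ + b • Y0₁) (a • Yinf₂ + b • Y0₂),
      ∃ y' ∈ pairRR P Q (a • Yinf₁ + b • Y0₁) (a • Yinf₂ + b • Y0₂),
        ((Fermat.Agent.S35.helper1928.fibreIncl k M).comp (nodeInclAlg P Q)) y' =
          Prod.map (coeffMap ((frobenius k q).comp (frobenius k q)))
            (coeffMap ((frobenius k q).comp (frobenius k q)))
            (((Fermat.Agent.S35.helper1928.fibreIncl k M).comp (nodeInclAlg P Q)) y) ∧
        ∀ i, (evalAt P hdeg₁ i).comp (AlgHom.fst k (nodeRing P) (nodeRing Q)) y' =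
              ((frobenius k q).comp (frobenius k q))
                ((evalAt P hdeg₁ i).comp (AlgHom.fst k (nodeRing P) (nodeRing Q)) y) ∧
            (evalAt Q hdeg₂ i).comp (AlgHom.snd k (nodeRing P) (nodeRing Q)) y' =
              ((frobenius k q).comp (frobenius k q))
                ((evalAt Q hdeg₂ i).comp (AlgHom.snd k (nodeRing P) (nodeRing Q)) y) :=
  hThetaT_frobSq M q P Q hdeg₁ hdeg₂
    (fun i => frobSqAutC_smul_place_of_fixed M q tb htb hfrob2 (P i) (hPx i) (hfixP i))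
    (fun i => frobSqAutC_smul_place_of_fixed M q tb htb hfrob2 (Q i) (hQx i) (hfixQ i))
    hx₁ hx₂ hYinf₁ hY0₁ hYinf₂ hY0₂ hdisj₁ hdisj₂ hord₁ hord₂

/-- **`hΘT` of `helper3729.torFrob_of_nodal` from (FROB) alone**: final shape of
`hThetaT_frobSq`, with the node rationality discharged by `frobSqAutC_smul_node`. -/
theorem hThetaT_of_frob [IsAlgClosed k] (M q : ℕ) [NeZero q] [ExpChar k q] [PerfectRing k q]
    (tb : modularFunctionFieldFullC k M) (htb : Transcendental k tb)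
    [FiniteDimensional k⟮tb⟯ (modularFunctionFieldFullC k M)]
    (hfrob : coeffMap (frobenius k q) (tb : LaurentSeries k) = (tb : LaurentSeries k))
    (P Q : I → Place k (modularFunctionFieldFullC k M))
    (hdeg₁ : ∀ i, (P i).deg = 1) (hdeg₂ : ∀ i, (Q i).deg = 1)
    (hPx : ∀ i, (P i).adicValuation tb ≤ 1) (hQx : ∀ i, (Q i).adicValuation tb ≤ 1)
    (hFROB : ∀ i, ∀ u u' : modularFunctionFieldFullC k M, u ∈ chartAlg k tb →
      (u' : LaurentSeries k) = qExpand k q (u : LaurentSeries k) →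
      valueAt (P i) (hdeg₁ i) u' = valueAt (Q i) (hdeg₂ i) u ∧
        valueAt (Q i) (hdeg₂ i) u' = valueAt (P i) (hdeg₁ i) u)
    {x₁ x₂ : modularFunctionFieldFullC k M}
    (hx₁ : coeffMap ((frobenius k q).comp (frobenius k q)) (x₁ : LaurentSeries k) =
      (x₁ : LaurentSeries k))
    (hx₂ : coeffMap ((frobenius k q).comp (frobenius k q)) (x₂ : LaurentSeries k) =
      (x₂ : LaurentSeries k))
    {Yinf₁ Y0₁ Yinf₂ Y0₂ : Divisor k (modularFunctionFieldFullC k M)}
    (hYinf₁ : 0 ≤ Yinf₁) (hY0₁ : 0 ≤ Y0₁) (hYinf₂ : 0 ≤ Yinf₂) (hY0₂ : 0 ≤ Y0₂)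
    (hdisj₁ : ∀ v, Yinf₁ v = 0 ∨ Y0₁ v = 0) (hdisj₂ : ∀ v, Yinf₂ v = 0 ∨ Y0₂ v = 0)
    (hord₁ : ∀ v : Place k (modularFunctionFieldFullC k M), v.ord x₁ = Y0₁ v - Yinf₁ v)
    (hord₂ : ∀ v : Place k (modularFunctionFieldFullC k M), v.ord x₂ = Y0₂ v - Yinf₂ v) :
    ∀ a b : ℕ, ∀ y ∈ pairRR P Q (a • Yinf₁ + b • Y0₁) (a • Yinf₂ + b • Y0₂),
      ∃ y' ∈ pairRR P Q (a • Yinf₁ + b • Y0₁) (a • Yinf₂ + b • Y0₂),
        ((Fermat.Agent.S35.helper1928.fibreIncl k M).comp (nodeInclAlg P Q)) y' =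
          Prod.map (coeffMap ((frobenius k q).comp (frobenius k q)))
            (coeffMap ((frobenius k q).comp (frobenius k q)))
            (((Fermat.Agent.S35.helper1928.fibreIncl k M).comp (nodeInclAlg P Q)) y) ∧
        ∀ i, (evalAt P hdeg₁ i).comp (AlgHom.fst k (nodeRing P) (nodeRing Q)) y' =
              ((frobenius k q).comp (frobenius k q))
                ((evalAt P hdeg₁ i).comp (AlgHom.fst k (nodeRing P) (nodeRing Q)) y) ∧
            (evalAt Q hdeg₂ i).comp (AlgHom.snd k (nodeRing P) (nodeRing Q)) y' =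
              ((frobenius k q).comp (frobenius k q))
                ((evalAt Q hdeg₂ i).comp (AlgHom.snd k (nodeRing P) (nodeRing Q)) y) := by
  have hnode : ∀ i, frobSqAutC (k := k) M q • P i = P i ∧ frobSqAutC (k := k) M q • Q i = Q i :=
    fun i => frobSqAutC_smul_node M q tb htb hfrob (P i) (Q i) (hPx i) (hQx i) (hFROB i)
  exact hThetaT_frobSq M q P Q hdeg₁ hdeg₂ (fun i => (hnode i).1) (fun i => (hnode i).2) hx₁ hx₂
    hYinf₁ hY0₁ hYinf₂ hY0₂ hdisj₁ hdisj₂ hord₁ hord₂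

end Nodes

/-! ### Bridges to the chart/node package: (FROB) from the graph property, `hΘT` from the
clauses (b), (c), (d) -/

section Bridge

open Fermat.Agent.S35.helper825
open scoped IntermediateField

variable {k : Type*} [Field k] {I : Type*}

/-- **(FROB) in element form from the value identities** (the output of
`helper825.node_values_of_graph`).  `ι₁`, `ι₂` present (at least) the chart rings of `x₁`, `x₂`
(two coordinates with the same chart ring, e.g. `x₂ = x₁ ^ q`); `Fm`, `Gm` are `u(T) ↦ u(T^q)` on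
expansions and exchange the values at the two points of every node.  Then the nodes satisfy
(FROB) in the shape of `frobSqAutC_smul_node` / `hThetaT_of_frob` (clause (d) of the chart/node
package). -/
theorem hFROB_of_values (M q : ℕ) [NeZero q] {A₁ A₂ : Type*}
    (x₁ x₂ : modularFunctionFieldFullC k M) (hx₁₂ : chartAlg k x₂ = chartAlg k x₁)
    (P Q : I → Place k (modularFunctionFieldFullC k M))
    (hdeg₁ : ∀ i, (P i).deg = 1) (hdeg₂ : ∀ i, (Q i).deg = 1)
    (ι₁ : A₁ → modularFunctionFieldFullC k M) (ι₂ : A₂ → modularFunctionFieldFullC k M)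
    (hr₁ : ∀ f, f ∈ chartAlg k x₁ → ∃ b, ι₁ b = f)
    (hr₂ : ∀ f, f ∈ chartAlg k x₂ → ∃ b, ι₂ b = f)
    (Fm : A₁ → A₂) (Gm : A₂ → A₁)
    (hF : ∀ u, ((ι₂ (Fm u) : modularFunctionFieldFullC k M) : LaurentSeries k) =
      qExpand k q ((ι₁ u : modularFunctionFieldFullC k M) : LaurentSeries k))
    (hG : ∀ u, ((ι₁ (Gm u) : modularFunctionFieldFullC k M) : LaurentSeries k) =
      qExpand k q ((ι₂ u : modularFunctionFieldFullC k M) : LaurentSeries k))
    (e₁ : ∀ i u, valueAt (Q i) (hdeg₂ i) (ι₂ (Fm u)) = valueAt (P i) (hdeg₁ i) (ι₁ u))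
    (e₂ : ∀ i u, valueAt (P i) (hdeg₁ i) (ι₁ (Gm u)) = valueAt (Q i) (hdeg₂ i) (ι₂ u)) :
    ∀ i, ∀ u u' : modularFunctionFieldFullC k M, u ∈ chartAlg k x₁ →
      (u' : LaurentSeries k) = qExpand k q (u : LaurentSeries k) →
      valueAt (P i) (hdeg₁ i) u' = valueAt (Q i) (hdeg₂ i) u ∧
        valueAt (Q i) (hdeg₂ i) u' = valueAt (P i) (hdeg₁ i) u := by
  intro i u u' hu₁ hu'
  have hu₂ : u ∈ chartAlg k x₂ := hx₁₂ ▸ hu₁
  obtain ⟨b₁, hb₁⟩ := hr₁ u hu₁
  obtain ⟨b₂, hb₂⟩ := hr₂ u hu₂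
  have t₁ : ι₂ (Fm b₁) = u' := Subtype.ext (by rw [hF, hb₁, hu'])
  have t₂ : ι₁ (Gm b₂) = u' := Subtype.ext (by rw [hG, hb₂, hu'])
  have s₁ := e₁ i b₁
  have s₂ := e₂ i b₂
  rw [t₁, hb₁] at s₁
  rw [t₂, hb₂] at s₂
  exact ⟨s₂, s₁⟩

/-- **(FROB) in element form from the graph property**: every pair of `R` satisfies the node
conditions and `R` contains the graph of `Fm` and the transposed graph of `Gm`
(`helper825.node_values_of_graph` composed with `hFROB_of_values`). -/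
theorem hFROB_of_graph (M q : ℕ) [NeZero q] {A₁ A₂ : Type*}
    (x₁ x₂ : modularFunctionFieldFullC k M) (hx₁₂ : chartAlg k x₂ = chartAlg k x₁)
    (P Q : I → Place k (modularFunctionFieldFullC k M))
    (hdeg₁ : ∀ i, (P i).deg = 1) (hdeg₂ : ∀ i, (Q i).deg = 1)
    (ι₁ : A₁ → modularFunctionFieldFullC k M) (ι₂ : A₂ → modularFunctionFieldFullC k M)
    (hr₁ : ∀ f, f ∈ chartAlg k x₁ → ∃ b, ι₁ b = f)
    (hr₂ : ∀ f, f ∈ chartAlg k x₂ → ∃ b, ι₂ b = f)
    (R : Set (A₁ × A₂))
    (hR : ∀ r ∈ R, ∀ i, valueAt (P i) (hdeg₁ i) (ι₁ r.1) = valueAt (Q i) (hdeg₂ i) (ι₂ r.2))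
    (Fm : A₁ → A₂) (Gm : A₂ → A₁)
    (hF : ∀ u, ((ι₂ (Fm u) : modularFunctionFieldFullC k M) : LaurentSeries k) =
      qExpand k q ((ι₁ u : modularFunctionFieldFullC k M) : LaurentSeries k))
    (hG : ∀ u, ((ι₁ (Gm u) : modularFunctionFieldFullC k M) : LaurentSeries k) =
      qExpand k q ((ι₂ u : modularFunctionFieldFullC k M) : LaurentSeries k))
    (h₁ : ∀ u, (u, Fm u) ∈ R) (h₂ : ∀ u, (Gm u, u) ∈ R) :
    ∀ i, ∀ u u' : modularFunctionFieldFullC k M, u ∈ chartAlg k x₁ →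
      (u' : LaurentSeries k) = qExpand k q (u : LaurentSeries k) →
      valueAt (P i) (hdeg₁ i) u' = valueAt (Q i) (hdeg₂ i) u ∧
        valueAt (Q i) (hdeg₂ i) u' = valueAt (P i) (hdeg₁ i) u :=
  hFROB_of_values M q x₁ x₂ hx₁₂ P Q hdeg₁ hdeg₂ ι₁ ι₂ hr₁ hr₂ Fm Gm hF hG
    (fun i u => (hR _ (h₁ u) i).symm) (fun i u => hR _ (h₂ u) i)

/-- **Clause (d) of the chart/node package from the Kronecker chart** (`helper2736.kron_chart`
composed with `helper825.node_rr_package`): `B ⊆ k((T))` is the reduced chart ring presented by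
`ι₁`, `ι₂` (`helper7984.exists_incl_of_image`) for the coordinates `x₁` and `x₂ = x₁ ^ q`; the
relation ring `R ⊆ B × B` is the set of pairs satisfying the node conditions and contains the
graph of `F : u(T) ↦ u(T^q)` and its transpose. -/
theorem hFROB_of_kron (M q : ℕ) [NeZero q] {B : Subalgebra k (LaurentSeries k)}
    (x₁ x₂ : modularFunctionFieldFullC k M) (hx₂ : x₂ = x₁ ^ q)
    (P Q : I → Place k (modularFunctionFieldFullC k M))
    (hdeg₁ : ∀ i, (P i).deg = 1) (hdeg₂ : ∀ i, (Q i).deg = 1)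
    (ι₁ ι₂ : B → modularFunctionFieldFullC k M)
    (hι₁ : ∀ b : B, ((ι₁ b : modularFunctionFieldFullC k M) : LaurentSeries k) = b)
    (hι₂ : ∀ b : B, ((ι₂ b : modularFunctionFieldFullC k M) : LaurentSeries k) = b)
    (hr₁ : ∀ f, f ∈ chartAlg k x₁ ↔ ∃ b, ι₁ b = f)
    (hr₂ : ∀ f, f ∈ chartAlg k x₂ ↔ ∃ b, ι₂ b = f)
    (R : Subalgebra k (B × B))
    (hraw : ∀ r : B × B, r ∈ R ↔
      ∀ i, valueAt (P i) (hdeg₁ i) (ι₁ r.1) = valueAt (Q i) (hdeg₂ i) (ι₂ r.2))
    (F : B → B)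
    (hF : ∀ u : B, ((F u : B) : LaurentSeries k) = qExpand k q (u : LaurentSeries k))
    (h₁ : ∀ u, (u, F u) ∈ R) (h₂ : ∀ u, (F u, u) ∈ R) :
    ∀ i, ∀ u u' : modularFunctionFieldFullC k M, u ∈ chartAlg k x₁ →
      (u' : LaurentSeries k) = qExpand k q (u : LaurentSeries k) →
      valueAt (P i) (hdeg₁ i) u' = valueAt (Q i) (hdeg₂ i) u ∧
        valueAt (Q i) (hdeg₂ i) u' = valueAt (P i) (hdeg₁ i) u :=
  hFROB_of_graph M q x₁ x₂ (hx₂ ▸ chartAlg_pow x₁ (NeZero.ne q)) P Q hdeg₁ hdeg₂ ι₁ ι₂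
    (fun f hf => (hr₁ f).mp hf) (fun f hf => (hr₂ f).mp hf) (R : Set (B × B))
    (fun r hr => (hraw r).mp hr) F F
    (fun u => by rw [hι₂, hι₁, hF]) (fun u => by rw [hι₁, hι₂, hF]) h₁ h₂

/-- A series all of whose coefficients are fixed by `c ↦ c ^ q` is fixed by the coefficientwise
Frobenius. -/
theorem coeffMap_frobenius_eq_self_of_coeff (q : ℕ) [ExpChar k q] {f : LaurentSeries k}
    (hf : ∀ n, (f.coeff n) ^ q = f.coeff n) : coeffMap (frobenius k q) f = f := by
  ext n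
  rw [coeffMap_coeff, frobenius_def, hf]

/-- **`hΘT` of `helper3729.torFrob_of_nodal` from the clauses (b), (c), (d) of the chart/node
package** (`Stmt_ChartNodesFrob`): `x₂ = x₁ ^ q`, `x₁` has `𝔽_q`-coefficients, the nodes lie off
the zeros and poles of `x₁`, `x₂` (ord form) and satisfy (FROB). -/
theorem hThetaT_of_clauses [IsAlgClosed k] (M q : ℕ) [NeZero q] [ExpChar k q] [PerfectRing k q]
    (x₁ x₂ : modularFunctionFieldFullC k M) (hx₁tr : Transcendental k x₁)
    [FiniteDimensional k⟮x₁⟯ (modularFunctionFieldFullC k M)]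
    (hb : x₂ = x₁ ^ q)
    (hc : ∀ n, ((x₁ : LaurentSeries k).coeff n) ^ q = (x₁ : LaurentSeries k).coeff n)
    (P Q : I → Place k (modularFunctionFieldFullC k M))
    (hdeg₁ : ∀ i, (P i).deg = 1) (hdeg₂ : ∀ i, (Q i).deg = 1)
    (hPx : ∀ i, (P i).ord x₁ = 0) (hQx : ∀ i, (Q i).ord x₂ = 0)
    (hd : ∀ i, ∀ u u' : modularFunctionFieldFullC k M, u ∈ chartAlg k x₁ →
      (u' : LaurentSeries k) = qExpand k q (u : LaurentSeries k) →
      valueAt (P i) (hdeg₁ i) u' = valueAt (Q i) (hdeg₂ i) u ∧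
        valueAt (Q i) (hdeg₂ i) u' = valueAt (P i) (hdeg₁ i) u)
    {Yinf₁ Y0₁ Yinf₂ Y0₂ : Divisor k (modularFunctionFieldFullC k M)}
    (hYinf₁ : 0 ≤ Yinf₁) (hY0₁ : 0 ≤ Y0₁) (hYinf₂ : 0 ≤ Yinf₂) (hY0₂ : 0 ≤ Y0₂)
    (hdisj₁ : ∀ v, Yinf₁ v = 0 ∨ Y0₁ v = 0) (hdisj₂ : ∀ v, Yinf₂ v = 0 ∨ Y0₂ v = 0)
    (hord₁ : ∀ v : Place k (modularFunctionFieldFullC k M), v.ord x₁ = Y0₁ v - Yinf₁ v)
    (hord₂ : ∀ v : Place k (modularFunctionFieldFullC k M), v.ord x₂ = Y0₂ v - Yinf₂ v) :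
    ∀ a b : ℕ, ∀ y ∈ pairRR P Q (a • Yinf₁ + b • Y0₁) (a • Yinf₂ + b • Y0₂),
      ∃ y' ∈ pairRR P Q (a • Yinf₁ + b • Y0₁) (a • Yinf₂ + b • Y0₂),
        ((Fermat.Agent.S35.helper1928.fibreIncl k M).comp (nodeInclAlg P Q)) y' =
          Prod.map (coeffMap ((frobenius k q).comp (frobenius k q)))
            (coeffMap ((frobenius k q).comp (frobenius k q)))
            (((Fermat.Agent.S35.helper1928.fibreIncl k M).comp (nodeInclAlg P Q)) y) ∧
        ∀ i, (evalAt P hdeg₁ i).comp (AlgHom.fst k (nodeRing P) (nodeRing Q)) y' =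
              ((frobenius k q).comp (frobenius k q))
                ((evalAt P hdeg₁ i).comp (AlgHom.fst k (nodeRing P) (nodeRing Q)) y) ∧
            (evalAt Q hdeg₂ i).comp (AlgHom.snd k (nodeRing P) (nodeRing Q)) y' =
              ((frobenius k q).comp (frobenius k q))
                ((evalAt Q hdeg₂ i).comp (AlgHom.snd k (nodeRing P) (nodeRing Q)) y) := by
  have hfrob : coeffMap (frobenius k q) (x₁ : LaurentSeries k) = (x₁ : LaurentSeries k) :=
    coeffMap_frobenius_eq_self_of_coeff q hc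
  have hx₁f : coeffMap ((frobenius k q).comp (frobenius k q)) (x₁ : LaurentSeries k) =
      (x₁ : LaurentSeries k) := by
    rw [← coeffMap_coeffMap, hfrob, hfrob]
  have hx₂f : coeffMap ((frobenius k q).comp (frobenius k q)) (x₂ : LaurentSeries k) =
      (x₂ : LaurentSeries k) := by
    have e : (x₂ : LaurentSeries k) = (x₁ : LaurentSeries k) ^ q := by rw [hb]; rfl
    rw [e, map_pow, hx₁f]
  have hPx' : ∀ i, (P i).adicValuation x₁ ≤ 1 := fun i =>
    (P i).adicValuation_le_one_iff.mpr (Or.inr (by rw [hPx i]))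
  have hQx' : ∀ i, (Q i).adicValuation x₁ ≤ 1 := fun i => by
    have h : (Q i).adicValuation (x₁ ^ q) ≤ 1 :=
      (Q i).adicValuation_le_one_iff.mpr (Or.inr (by rw [← hb, hQx i]))
    rwa [map_pow, pow_le_one_iff (NeZero.ne q)] at h
  exact hThetaT_of_frob M q x₁ hx₁tr hfrob P Q hdeg₁ hdeg₂ hPx' hQx' hd hx₁f hx₂f
    hYinf₁ hY0₁ hYinf₂ hY0₂ hdisj₁ hdisj₂ hord₁ hord₂

end Bridge

end Fermat.Agent.S35.helper2195
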