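/-
S35/S34 geometry module, item (E3) "twisted lattice" (backup leaf, board #1642).

Abstract counting lemmas on top of `helper541_NodalAlgebra` (NODES).

* `finrank_quotient_le_of_filtration` (Theorem B): the codimension of the reduced twisted
  lattice `M` in the normalisation `W` is at most the codimension of the reduced chart ring
  `A` (= the number of nodes), given ONLY a comparison of the dimensions of the truncations:
  `dim (A ⊓ G N) ≤ dim (FM N)` for arbitrarily large `N`.  On the modular side this is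
  `l(N E) ≤ l(D + N E)` on the GENERIC fibre (Riemann there, `deg D = 0`) together with
  saturation of the truncations of `A`.  No Riemann-Roch on the special fibre, no genus of
  the components and no value of the number of nodes is used.
* `eq_inf_of_filtration` (Theorem C): if moreover `codim A ≤ codim M`, the truncations of
  `M` are saturated at every level where the count holds and `G N` covers `W ⧸ M`.
* `exists_glueing_constants_of_truncations`, `mem_truncation_iff_glued`: the same, wired into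
  NODES (N1)+(N2): the reduced twisted lattice and its truncations are cut out by glueing
  conditions at the nodes, with constants that are `n`-th roots of unity.
-/
import Mathlib
import Fermat.Agent.S35.helper541_NodalAlgebra

set_option autoImplicit false

namespace Fermat.Agent.S35.helper3028

open Module

section Count

variable {k W : Type*} [Field k] [AddCommGroup W] [Module k W]

/-- rank-nullity for the image of a finite-dimensional subspace in a quotient. -/
theorem finrank_map_mkQ_add (P Q : Submodule k W) [Module.Finite k Q] :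
    finrank k (Q.map P.mkQ) + finrank k (P ⊓ Q : Submodule k W) = finrank k Q := by
  have h := LinearMap.finrank_range_add_finrank_ker (P.mkQ.comp Q.subtype)
  have h1 : LinearMap.range (P.mkQ.comp Q.subtype) = Q.map P.mkQ := by
    rw [LinearMap.range_comp, Submodule.range_subtype]
  have h2 : finrank k (LinearMap.ker (P.mkQ.comp Q.subtype)) =
      finrank k (P ⊓ Q : Submodule k W) := by
    have e : (LinearMap.ker (P.mkQ.comp Q.subtype)).map Q.subtype = P ⊓ Q := by
      ext x
      simp only [Submodule.mem_map, LinearMap.mem_ker, LinearMap.comp_apply,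
        Submodule.subtype_apply, Submodule.mkQ_apply, Submodule.Quotient.mk_eq_zero,
        Submodule.mem_inf]
      constructor
      · rintro ⟨y, hy, rfl⟩
        exact ⟨hy, y.2⟩
      · rintro ⟨hx1, hx2⟩
        exact ⟨⟨x, hx2⟩, hx1, rfl⟩
    rw [← e]
    exact (Submodule.finrank_map_subtype_eq Q _).symm
  rw [h1, h2] at h
  exact h

/-- **Codimension comparison (Theorem B).**  `W` a `k`-space with an exhaustive increasing
filtration `G N` by finite-dimensional subspaces; `A`, `M` subspaces of `W`, `A` of finite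
codimension; `FM N ≤ M ⊓ G N` subspaces such that for arbitrarily large `N`
`dim (A ⊓ G N) ≤ dim (FM N)`.  Then `M` has finite codimension, at most that of `A`. -/
theorem finrank_quotient_le_of_filtration (A M : Submodule k W) (G FM : ℕ → Submodule k W)
    (hGmono : Monotone G) (hGex : ∀ w : W, ∃ N, w ∈ G N)
    (hGfin : ∀ N, Module.Finite k (G N))
    (hFM : ∀ N, FM N ≤ M ⊓ G N)
    (hcount : ∀ N₀, ∃ N, N₀ ≤ N ∧
      finrank k (A ⊓ G N : Submodule k W) ≤ finrank k (FM N))
    [Module.Finite k (W ⧸ A)] :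
    Module.Finite k (W ⧸ M) ∧ finrank k (W ⧸ M) ≤ finrank k (W ⧸ A) := by
  classical
  set c := finrank k (W ⧸ A) with hc
  set S : ℕ → Submodule k (W ⧸ M) := fun N => (G N).map M.mkQ with hS
  have hSmono : Monotone S := fun a b hab => Submodule.map_mono (hGmono hab)
  have hSfin : ∀ N, Module.Finite k (S N) := fun N => by
    have := hGfin N
    exact Module.Finite.map (G N) M.mkQ
  -- the bound at the good levels
  have hgood : ∀ N, finrank k (A ⊓ G N : Submodule k W) ≤ finrank k (FM N) →
      finrank k (S N) ≤ c := by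
    intro N hN
    have := hGfin N
    have e1 := finrank_map_mkQ_add M (G N)
    have e2 := finrank_map_mkQ_add A (G N)
    have h3 : finrank k ((G N).map A.mkQ) ≤ c := Submodule.finrank_le _
    have h4 : finrank k (FM N) ≤ finrank k (M ⊓ G N : Submodule k W) := by
      have : Module.Finite k (M ⊓ G N : Submodule k W) :=
        Submodule.finiteDimensional_of_le inf_le_right
      exact Submodule.finrank_mono (hFM N)
    show finrank k ((G N).map M.mkQ) ≤ c
    omega
  -- hence at all levels
  have hall : ∀ N, finrank k (S N) ≤ c := by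
    intro N
    obtain ⟨N', hN', hle⟩ := hcount N
    have := hSfin N'
    exact (Submodule.finrank_mono (hSmono hN')).trans (hgood N' hle)
  -- a level of maximal dimension
  obtain ⟨N₁, hN₁⟩ : ∃ N₁, ∀ N, finrank k (S N) ≤ finrank k (S N₁) := by
    by_contra hcon
    have hcon' : ∀ N₁, ∃ N, finrank k (S N₁) < finrank k (S N) := by
      intro N₁
      by_contra h
      exact hcon ⟨N₁, fun N => not_lt.mp fun hlt => h ⟨N, hlt⟩⟩
    have key : ∀ j : ℕ, ∃ N, j ≤ finrank k (S N) := by
      intro j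
      induction j with
      | zero => exact ⟨0, Nat.zero_le _⟩
      | succ j ih =>
        obtain ⟨N, hN⟩ := ih
        obtain ⟨N', hN'⟩ := hcon' N
        exact ⟨N', by omega⟩
    obtain ⟨N, hN⟩ := key (c + 1)
    have := hall N
    omega
  have hSle : ∀ N, S N ≤ S N₁ := by
    intro N
    rcases le_total N N₁ with h | h
    · exact hSmono h
    · have := hSfin N
      exact (Submodule.eq_of_le_of_finrank_le (hSmono h) (hN₁ N)).ge
  have htop : S N₁ = ⊤ := by
    rw [eq_top_iff]
    rintro x -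
    obtain ⟨w, rfl⟩ := M.mkQ_surjective x
    obtain ⟨N, hN⟩ := hGex w
    exact hSle N (Submodule.mem_map_of_mem hN)
  have hfin : Module.Finite k (W ⧸ M) := by
    have : Module.Finite k (⊤ : Submodule k (W ⧸ M)) := htop ▸ hSfin N₁
    exact Module.Finite.equiv (Submodule.topEquiv (R := k) (M := W ⧸ M))
  refine ⟨hfin, ?_⟩
  have : finrank k (W ⧸ M) = finrank k (S N₁) := by
    rw [htop, finrank_top]
  rw [this]
  exact hall N₁

/-- **Saturation of the truncations of `M` (Theorem C).**  If `codim A ≤ codim M`, then at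
every level `N` at which `G N` covers `W ⧸ M` and `dim (A ⊓ G N) ≤ dim (FM N)`, the
truncation `FM N ≤ M ⊓ G N` is all of `M ⊓ G N`. -/
theorem eq_inf_of_filtration (A M : Submodule k W) (GN FMN : Submodule k W)
    [Module.Finite k GN] [Module.Finite k (W ⧸ A)] [Module.Finite k (W ⧸ M)]
    (hcodim : finrank k (W ⧸ A) ≤ finrank k (W ⧸ M))
    (hcover : GN ⊔ M = ⊤) (hFM : FMN ≤ M ⊓ GN)
    (hcount : finrank k (A ⊓ GN : Submodule k W) ≤ finrank k FMN) :
    FMN = M ⊓ GN := by
  have e1 := finrank_map_mkQ_add M GN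
  have e2 := finrank_map_mkQ_add A GN
  have h3 : finrank k (GN.map A.mkQ) ≤ finrank k (W ⧸ A) := Submodule.finrank_le _
  have h5 : GN.map M.mkQ = ⊤ := by
    rw [eq_top_iff]
    rintro x -
    obtain ⟨w, rfl⟩ := M.mkQ_surjective x
    have hw : w ∈ GN ⊔ M := hcover ▸ Submodule.mem_top
    obtain ⟨g, hg, m, hm, rfl⟩ := Submodule.mem_sup.mp hw
    refine ⟨g, hg, ?_⟩
    simp only [Submodule.mkQ_apply, Submodule.Quotient.mk_add,
      (Submodule.Quotient.mk_eq_zero M).mpr hm, add_zero]
  have h6 : finrank k (GN.map M.mkQ) = finrank k (W ⧸ M) := by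
    rw [h5, finrank_top]
  have : Module.Finite k (M ⊓ GN : Submodule k W) :=
    Submodule.finiteDimensional_of_le inf_le_right
  exact Submodule.eq_of_le_of_finrank_le hFM (by omega)

end Count

section Nodes

open Fermat.Agent.S35.helper541

variable {k : Type*} [Field k] {B₁ B₂ : Type*} [CommRing B₁] [CommRing B₂]
  [Algebra k B₁] [Algebra k B₂]

/-- **(E3) + (N1) + (N2), truncation form.**  `R` nodal (Kronecker conductor `hJ`, both
projections onto), `M` a `k`-subspace of `B₁ × B₂` with `x ^ n ∈ R` for `x ∈ M`, `G N` an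
exhaustive increasing filtration of `B₁ × B₂` by finite-dimensional subspaces, `FM N ≤ M ⊓ G N`
(the reductions of the truncated lattices) with `dim (R ⊓ G N) ≤ dim (FM N)` for arbitrarily
large `N`.  Then `M` is the glued module for constants which are `n`-th roots of unity. -/
theorem exists_glueing_constants_of_truncations (R : Subalgebra k (B₁ × B₂))
    (S₁ : Finset (B₁ →ₐ[k] k)) (S₂ : Finset (B₂ →ₐ[k] k))
    (hfst : ∀ a : B₁, ∃ r ∈ R, r.1 = a) (hsnd : ∀ b : B₂, ∃ r ∈ R, r.2 = b)
    (hJ : ∀ x : B₁ × B₂, (∀ φ ∈ S₁, φ x.1 = 0) → (∀ ψ ∈ S₂, ψ x.2 = 0) → x ∈ R)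
    (M : Submodule k (B₁ × B₂)) {n : ℕ} (hn : n ≠ 0) (hpow : ∀ x ∈ M, x ^ n ∈ R)
    (G FM : ℕ → Submodule k (B₁ × B₂)) (hGmono : Monotone G)
    (hGex : ∀ w : B₁ × B₂, ∃ N, w ∈ G N) (hGfin : ∀ N, Module.Finite k (G N))
    (hFM : ∀ N, FM N ≤ M ⊓ G N)
    (hcount : ∀ N₀, ∃ N, N₀ ≤ N ∧
      finrank k (Subalgebra.toSubmodule R ⊓ G N : Submodule k (B₁ × B₂)) ≤ finrank k (FM N)) :
    ∃ c : (B₁ →ₐ[k] k) × (B₂ →ₐ[k] k) → k, (∀ p ∈ nodeSet R S₁ S₂, c p ^ n = 1) ∧
      ∀ x, x ∈ M ↔ ∀ p ∈ nodeSet R S₁ S₂, p.2 x.2 = c p * p.1 x.1 := by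
  obtain ⟨hfinR, hcard⟩ := finrank_quotient_eq_card_nodeSet R S₁ S₂ hfst hsnd hJ
  obtain ⟨hfinM, hle⟩ := finrank_quotient_le_of_filtration (Subalgebra.toSubmodule R) M G FM
    hGmono hGex hGfin hFM hcount
  exact exists_glueing_constants_of_nodes R S₁ S₂ hfst hsnd M hn hpow (hcard ▸ hle)

/-- The glued module for ANY constants has codimension exactly the number of nodes. -/
theorem finrank_quotient_glued (R : Subalgebra k (B₁ × B₂))
    (S₁ : Finset (B₁ →ₐ[k] k)) (S₂ : Finset (B₂ →ₐ[k] k))
    (hfst : ∀ a : B₁, ∃ r ∈ R, r.1 = a) (hsnd : ∀ b : B₂, ∃ r ∈ R, r.2 = b)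
    (M : Submodule k (B₁ × B₂)) (c : (B₁ →ₐ[k] k) × (B₂ →ₐ[k] k) → k)
    (hM : ∀ x, x ∈ M ↔ ∀ p ∈ nodeSet R S₁ S₂, p.2 x.2 = c p * p.1 x.1) :
    Module.Finite k ((B₁ × B₂) ⧸ M) ∧
      finrank k ((B₁ × B₂) ⧸ M) = (nodeSet R S₁ S₂).card := by
  classical
  let f : nodeSet R S₁ S₂ → Module.Dual k (B₁ × B₂) := fun b =>
    (b.1.1).toLinearMap.comp (LinearMap.fst k B₁ B₂)
  let g : nodeSet R S₁ S₂ → Module.Dual k (B₁ × B₂) := fun b =>
    (b.1.2).toLinearMap.comp (LinearMap.snd k B₁ B₂)
  have hind : LinearIndependent k (Sum.elim f g) := linearIndependent_nodeSet R S₁ S₂ hfst hsnd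
  have hind' : LinearIndependent k (fun b => g b - c b.1 • f b) :=
    linearIndependent_sub_smul f g hind (fun b => c b.1)
  let T : (B₁ × B₂) →ₗ[k] (nodeSet R S₁ S₂ → k) :=
    LinearMap.pi fun b => g b - c b.1 • f b
  have hTsurj : Function.Surjective T := by
    intro v
    obtain ⟨x, hx⟩ := surjective_of_linearIndependent _ hind' v
    exact ⟨x, hx⟩
  have hker : LinearMap.ker T = M := by
    ext x
    rw [LinearMap.mem_ker, hM x]
    constructor
    · intro h p hp
      have h1 := congrFun h ⟨p, hp⟩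
      simp only [T, f, g, LinearMap.pi_apply, LinearMap.sub_apply, LinearMap.smul_apply,
        LinearMap.comp_apply, LinearMap.fst_apply, LinearMap.snd_apply, AlgHom.toLinearMap_apply,
        Pi.zero_apply, smul_eq_mul] at h1
      exact sub_eq_zero.mp h1
    · intro h
      funext b
      have h1 := h b.1 b.2
      simp only [T, f, g, LinearMap.pi_apply, LinearMap.sub_apply, LinearMap.smul_apply,
        LinearMap.comp_apply, LinearMap.fst_apply, LinearMap.snd_apply, AlgHom.toLinearMap_apply,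
        Pi.zero_apply, smul_eq_mul]
      exact sub_eq_zero.mpr h1
  subst hker
  let e := T.quotKerEquivOfSurjective hTsurj
  refine ⟨Module.Finite.equiv e.symm, ?_⟩
  rw [LinearEquiv.finrank_eq e, Module.finrank_fintype_fun_eq_card, Fintype.card_coe]

/-- **Truncations of the reduced twisted lattice are exactly the glued spaces.**  With `M` the
glued module (constants `c`), at every level `GN` which covers `(B₁ × B₂) ⧸ M` and at which
`dim (R ⊓ GN) ≤ dim FMN`, an element of `GN` lies in the truncation `FMN` iff it satisfies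
the glueing conditions. -/
theorem mem_truncation_iff_glued (R : Subalgebra k (B₁ × B₂))
    (S₁ : Finset (B₁ →ₐ[k] k)) (S₂ : Finset (B₂ →ₐ[k] k))
    (hfst : ∀ a : B₁, ∃ r ∈ R, r.1 = a) (hsnd : ∀ b : B₂, ∃ r ∈ R, r.2 = b)
    (hJ : ∀ x : B₁ × B₂, (∀ φ ∈ S₁, φ x.1 = 0) → (∀ ψ ∈ S₂, ψ x.2 = 0) → x ∈ R)
    (M : Submodule k (B₁ × B₂)) (c : (B₁ →ₐ[k] k) × (B₂ →ₐ[k] k) → k)
    (hM : ∀ x, x ∈ M ↔ ∀ p ∈ nodeSet R S₁ S₂, p.2 x.2 = c p * p.1 x.1)
    (GN FMN : Submodule k (B₁ × B₂)) [Module.Finite k GN]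
    (hcover : GN ⊔ M = ⊤) (hFM : FMN ≤ M ⊓ GN)
    (hcount : finrank k (Subalgebra.toSubmodule R ⊓ GN : Submodule k (B₁ × B₂)) ≤
      finrank k FMN) (x : B₁ × B₂) (hx : x ∈ GN) :
    x ∈ FMN ↔ ∀ p ∈ nodeSet R S₁ S₂, p.2 x.2 = c p * p.1 x.1 := by
  obtain ⟨hfinR, hcardR⟩ := finrank_quotient_eq_card_nodeSet R S₁ S₂ hfst hsnd hJ
  obtain ⟨hfinM, hcardM⟩ := finrank_quotient_glued R S₁ S₂ hfst hsnd M c hM
  have heq : FMN = M ⊓ GN :=
    eq_inf_of_filtration (Subalgebra.toSubmodule R) M GN FMN (by rw [hcardR, hcardM])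
      hcover hFM hcount
  rw [heq, Submodule.mem_inf, ← hM x]
  exact ⟨fun h => h.1, fun h => ⟨h, hx⟩⟩

end Nodes

end Fermat.Agent.S35.helper3028
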