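import Fermat.Agent.S37.helper6887_Fricke
import Fermat.Agent.S24.helper504_MerPackage
import Fermat.Agent.S29.helper2982_MultHeckeMer
import Fermat.Agent.S29.helper2122_MerBridge
import Fermat.Agent.S29.helper8217_KummerClass

/-!
# S35 / OCCNEW (G3), leaf (E-U): the analytic form of the `U_q`-norm (helper3346)

`Kbar = AlgebraicClosure ℚ`, `FN N = modularFunctionFieldBar N = ℚ̄(j(t^d) : d ∣ N)`.
For `q ∣ M` the transpose Prelude correspondence `β_* α^*` (`α, β : F_M → F_{Mq}` the two
degeneracy maps, `α` the inclusion, `β : t ↦ t^q`) acts on Kummer classes by the function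
`u ↦ Norm_β (α u)` (landed `helper8217.correspondence_kummerClass`).  This file identifies its
analytic realisation with the coset product of the landed correspondence `corrU M q`
(`helper2138`), in the field `Mer = Frac Hol` on which the landed multiplier theory
(`helper3343.kummerChar`, `helper2982.cpMer`) lives:

`evM M (Norm_β (α u)) = ∏_{j mod q} (evM M u)((τ + j)/q) = cpMer (corrU M q) (evM M u)`.

No `q`-expansion computation is used.  The proof is algebraic: the `q` ring homs
`E_j : F_{Mq} → Mer`, `x ↦ (ev x)((τ + j)/q)`, all restrict to `evM M` on `β(F_M)`, are pairwise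
distinct (Hermite uniqueness for `j`, landed `helper504.hermite_data_unique`), and
`[F_{Mq} : β F_M] = q` (landed degree formula `helper6887.finrankAlong_heckeBetaBar`); hence the
norm is the product of the `E_j`.

Main statements:

* `norm_eq_prod_ringHoms` : generic, norm = product over `[L : K]` distinct ring homs.
* `evM N : FN N →+* helper182.Mer` (the landed `helper504.evMer` transported by `merEquiv`),
  `evM_coe`, `evM_algebraMap`, `evM_jBarD`.
* `evM_heckeAlphaBar`, `evM_heckeBetaBar` : compatibility of the analytic model with the two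
  degeneracy maps, for every `m`: `ev (α f) = ev f`, `ev (β f)(τ) = (ev f)(m τ)`.
* `finrankAlong_heckeBetaBar_of_dvd` : `[F_{Mq} : β F_M] = q` for a prime `q ∣ M`.
* `evM_normAlong_heckeBetaBar`, `evM_uNorm`, `evMer_uNorm` : the analytic form of the `U_q`-norm.
-/

set_option autoImplicit false
set_option linter.style.haveILetI false
set_option linter.unusedSectionVars false

open Complex UpperHalfPlane ModularCurve AlgebraicCurve CongruenceSubgroup
open scoped MatrixGroups Manifold

noncomputable section

namespace Fermat.Agent.S35.helper3346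

open Fermat.Agent.S24.helper24 Fermat.Agent.S24.helper504 Fermat.Agent.S24
open Fermat.Agent.S16.helper2138 Fermat.Agent.S29.helper2982 Fermat.Agent.S29.helper3343
open Fermat.Agent.S29.helper2122
open ModularForm (heckeMatrix heckeDiagMatrix det_heckeMatrix_pos det_heckeDiagMatrix_pos
  coe_heckeMatrix_smul coe_heckeDiagMatrix_smul)

/-! ## Generic: the norm as a product over sufficiently many ring homomorphisms -/

section Generic

/-- If `τ i`, `i : ι`, are `[L : K]` pairwise distinct ring homs `L → E` (fields, `L / K` finite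
separable) which all restrict to the same `e0 : K → E`, then `e0 (Norm_{L/K} x) = ∏ i, τ i x`. -/
theorem norm_eq_prod_ringHoms {K L E : Type*} [Field K] [Field L] [Field E] [Algebra K L]
    [FiniteDimensional K L] [Algebra.IsSeparable K L] (e0 : K →+* E) {ι : Type*} [Fintype ι]
    (hcard : Fintype.card ι = Module.finrank K L) (τ : ι → (L →+* E))
    (hτ : ∀ i (a : K), τ i (algebraMap K L a) = e0 a) (hinj : Function.Injective τ) (x : L) :
    e0 (Algebra.norm K x) = ∏ i, τ i x := by
  classical
  letI : Algebra K E := e0.toAlgebra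
  let σ : ι → (L →ₐ[K] AlgebraicClosure E) := fun i =>
    { toRingHom := (algebraMap E (AlgebraicClosure E)).comp (τ i)
      commutes' := fun a => by
        show algebraMap E (AlgebraicClosure E) (τ i (algebraMap K L a))
          = algebraMap K (AlgebraicClosure E) a
        rw [hτ i a, IsScalarTower.algebraMap_apply K E (AlgebraicClosure E)]
        rfl }
  have hσ : Function.Injective σ := by
    intro i j hij
    apply hinj
    ext y
    have := congrArg (fun f : L →ₐ[K] AlgebraicClosure E => f y) hij
    exact (algebraMap E (AlgebraicClosure E)).injective this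
  have hbij : Function.Bijective σ :=
    (Fintype.bijective_iff_injective_and_card σ).mpr ⟨hσ, by rw [hcard, AlgHom.card]⟩
  have h := Algebra.norm_eq_prod_embeddings K (AlgebraicClosure E) x
  rw [← Fintype.prod_bijective σ hbij (fun i => σ i x) (fun f => f x) (fun i => rfl)] at h
  apply (algebraMap E (AlgebraicClosure E)).injective
  rw [map_prod]
  rw [IsScalarTower.algebraMap_apply K E (AlgebraicClosure E)] at h
  exact h

end Generic

/-! ## The analytic model with values in `helper182.Mer` -/

section EvM

/-- The analytic realisation of the function field, with values in the copy `helper182.Mer` of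
the field of meromorphic functions on which `helper3343.kummerChar` and `helper2982.cpMer`
are built: the landed `helper504.evMer` transported by `helper2122.merEquiv`. -/
def evM (N : ℕ) : FN N →+* helper182.Mer :=
  (merEquiv.symm : helper580.Mer →+* helper182.Mer).comp (evMer N)

theorem evM_apply (N : ℕ) (f : FN N) : evM N f = merEquiv.symm (evMer N f) := rfl

/-- `evFun N a` as an element of `helper182.Hol`. -/
def evH (N : ℕ) (a : helper3176.AN N) : helper182.Hol := ⟨evFun N a, evFun_mdiff N a⟩

theorem evH_val (N : ℕ) (a : helper3176.AN N) : (evH N a).1 = evFun N a := rfl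

theorem evM_coe (N : ℕ) (a : helper3176.AN N) :
    evM N (a : FN N) = algebraMap helper182.Hol helper182.Mer (evH N a) := by
  rw [evM_apply, evMer_coe, merEquiv_symm_algebraMap]
  rfl

theorem evM_algebraMap (N : ℕ) (c : Kbar) :
    evM N (algebraMap Kbar (FN N) c) = constM (kappa c) := by
  have h : algebraMap Kbar (FN N) c
      = ((algebraMap Kbar (helper3176.AN N) c : helper3176.AN N) : FN N) := rfl
  rw [h, evM_coe]
  show algebraMap helper182.Hol helper182.Mer _ = algebraMap helper182.Hol helper182.Mer _
  congr 1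
  exact Subtype.ext (evFun_algebraMap N c)

/-- `τ ↦ j(dτ)` as an element of `helper182.Hol`. -/
def jdH (d : ℕ) [NeZero d] : helper182.Hol := ⟨jd d, mdiff_jd d⟩

theorem jdH_val (d : ℕ) [NeZero d] : (jdH d).1 = jd d := rfl

theorem evM_jBarD (N d : ℕ) [NeZero d] (hd : d ∣ N) :
    evM N (jBarD N d hd) = algebraMap helper182.Hol helper182.Mer (jdH d) := by
  have e : (jBarD N d hd : FN N)
      = ((⟨jBarD N d hd, helper3176.jBarD_mem_AN N d hd⟩ : helper3176.AN N) : FN N) := rfl
  rw [e, evM_coe]
  congr 1
  exact Subtype.ext (evFun_jBarD N d hd)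

end EvM

/-! ## Compatibility with the degeneracy maps -/

section Degeneracy

variable (M m : ℕ) [NeZero M] [NeZero m]

/-- **`ev (α f) = ev f`**: the analytic model is compatible with the inclusion
`α : F_M → F_{M m}`. -/
theorem evM_heckeAlphaBar (f : FN M) :
    evM (M * m) (heckeAlphaBar Kbar M m f) = evM M f := by
  have key : (evM (M * m)).comp (heckeAlphaBar Kbar M m : FN M →+* FN (M * m)) = evM M := by
    apply helper3176.ringHom_ext_of_gen M
    · intro c
      show evM (M * m) (heckeAlphaBar Kbar M m (algebraMap Kbar (FN M) c))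
        = evM M (algebraMap Kbar (FN M) c)
      rw [AlgHom.commutes, evM_algebraMap, evM_algebraMap]
    · intro d _ hd
      show evM (M * m) (heckeAlphaBar Kbar M m (jBarD M d hd)) = evM M (jBarD M d hd)
      rw [Fermat.Agent.S37.helper6887.heckeAlphaBar_jBarD, evM_jBarD, evM_jBarD]
  exact congrArg (fun φ : FN M →+* helper182.Mer => φ f) key

theorem jd_mul_eq (d : ℕ) [NeZero d] (τ : ℍ) :
    jd (d * m) τ = jd d (heckeDiagMatrix m • τ) := by
  rw [jd_apply, jd_apply]
  congr 1
  apply UpperHalfPlane.ext
  rw [coe_hpt, coe_hpt, coe_heckeDiagMatrix_smul (NeZero.ne m)]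
  push_cast
  ring

/-- **`ev (β f)(τ) = (ev f)(m τ)`**: the analytic model is compatible with the second
degeneracy map `β : F_M → F_{M m}`, `t ↦ t^m`. -/
theorem evM_heckeBetaBar (f : FN M) :
    evM (M * m) (heckeBetaBar Kbar M m f) =
      pullGLMer (heckeDiagMatrix m) (det_heckeDiagMatrix_pos m) (evM M f) := by
  have key : (evM (M * m)).comp (heckeBetaBar Kbar M m : FN M →+* FN (M * m)) =
      (pullGLMer (heckeDiagMatrix m) (det_heckeDiagMatrix_pos m)).comp (evM M) := by
    apply helper3176.ringHom_ext_of_gen M
    · intro c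
      show evM (M * m) (heckeBetaBar Kbar M m (algebraMap Kbar (FN M) c))
        = pullGLMer (heckeDiagMatrix m) (det_heckeDiagMatrix_pos m)
            (evM M (algebraMap Kbar (FN M) c))
      rw [AlgHom.commutes, evM_algebraMap, evM_algebraMap, pullGLMer_constM]
    · intro d _ hd
      show evM (M * m) (heckeBetaBar Kbar M m (jBarD M d hd))
        = pullGLMer (heckeDiagMatrix m) (det_heckeDiagMatrix_pos m) (evM M (jBarD M d hd))
      rw [Fermat.Agent.S37.helper6887.heckeBetaBar_jBarD, evM_jBarD, evM_jBarD, pullGLMer_algebraMap]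
      congr 1
      apply Subtype.ext
      funext τ
      exact jd_mul_eq m d τ
  exact congrArg (fun φ : FN M →+* helper182.Mer => φ f) key

end Degeneracy

/-! ## The degree of `β` at a prime dividing the level -/

section Degree

variable (M q : ℕ) [NeZero M] [NeZero q]

/-- `[F_{Mq} : β(F_M)] = q` for a prime `q ∣ M`. -/
theorem finrankAlong_heckeBetaBar_of_dvd (hq : q.Prime) (hqM : q ∣ M) :
    finrankAlong Kbar (heckeBetaBar Kbar M q) = q := by
  have h1 := Fermat.Agent.S37.helper6887.finrankAlong_heckeBetaBar M q
  rw [Lib.helper1356.dedekindPsi_mul_prime_of_dvd hq (NeZero.ne M) hqM] at h1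
  have h3 := Fermat.Agent.S37.helper6887.dedekindPsi_pos (NeZero.ne M)
  exact Nat.eq_of_mul_eq_mul_left h3 (by rw [h1, mul_comm])

end Degree

/-! ## The `q` embeddings `x ↦ (ev x)((τ + j)/q)` -/

section Embeddings

variable (M q : ℕ) [NeZero M] [NeZero q] (hqM : q ∣ M)
  (hpos : ∀ j : ZMod q, 0 < ((corrU M q hqM).α j).det.val)

/-- The `j`-th embedding of `F_{Mq}` into `Mer`: `x ↦ (ev x)((τ + j)/q)`. -/
def embU (j : ZMod q) : FN (M * q) →+* helper182.Mer :=
  (pullGLMer ((corrU M q hqM).α j) (hpos j)).comp (evM (M * q))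

theorem embU_apply (j : ZMod q) (x : FN (M * q)) :
    embU M q hqM hpos j x = pullGLMer ((corrU M q hqM).α j) (hpos j) (evM (M * q) x) := rfl

omit [NeZero M] in
theorem coe_corrU_smul (j : ZMod q) (τ : ℍ) :
    (((corrU M q hqM).α j • τ : ℍ) : ℂ) = ((τ : ℂ) + (j.val : ℂ)) / (q : ℂ) := by
  rw [corrU_α]
  exact_mod_cast coe_heckeMatrix_smul (NeZero.ne q) j.val τ

omit [NeZero M] in
theorem jd_mul_corrU_smul (d : ℕ) [NeZero d] (j : ZMod q) (τ : ℍ) :
    jd (d * q) ((corrU M q hqM).α j • τ) = jd d τ := by
  rw [jd_apply, jd_apply]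
  have h : hpt (d * q) 0 1 ((corrU M q hqM).α j • τ)
      = ModularGroup.T ^ ((d * j.val : ℕ) : ℤ) • hpt d 0 1 τ := by
    apply UpperHalfPlane.ext
    rw [coe_T_zpow_smul, coe_hpt, coe_hpt, coe_corrU_smul]
    have hq0 : (q : ℂ) ≠ 0 := Nat.cast_ne_zero.mpr (NeZero.ne q)
    push_cast
    field_simp
    ring
  rw [h, jFun_smul]

/-- All the embeddings restrict to `ev` on `β(F_M)`. -/
theorem embU_heckeBetaBar (j : ZMod q) (f : FN M) :
    embU M q hqM hpos j (heckeBetaBar Kbar M q f) = evM M f := by
  have key : (embU M q hqM hpos j).comp (heckeBetaBar Kbar M q : FN M →+* FN (M * q))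
      = evM M := by
    apply helper3176.ringHom_ext_of_gen M
    · intro c
      show embU M q hqM hpos j (heckeBetaBar Kbar M q (algebraMap Kbar (FN M) c))
        = evM M (algebraMap Kbar (FN M) c)
      rw [AlgHom.commutes, embU_apply, evM_algebraMap, evM_algebraMap, pullGLMer_constM]
    · intro d _ hd
      show embU M q hqM hpos j (heckeBetaBar Kbar M q (jBarD M d hd)) = evM M (jBarD M d hd)
      rw [Fermat.Agent.S37.helper6887.heckeBetaBar_jBarD, embU_apply, evM_jBarD, evM_jBarD, pullGLMer_algebraMap]
      congr 1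
      apply Subtype.ext
      funext τ
      exact jd_mul_corrU_smul M q hqM d j τ
  exact congrArg (fun φ : FN M →+* helper182.Mer => φ f) key

/-- On `α(F_M)` the `j`-th embedding is `u ↦ (ev u)((τ + j)/q)`. -/
theorem embU_heckeAlphaBar (j : ZMod q) (u : FN M) :
    embU M q hqM hpos j (heckeAlphaBar Kbar M q u)
      = pullGLMer ((corrU M q hqM).α j) (hpos j) (evM M u) := by
  rw [embU_apply, evM_heckeAlphaBar]

/-- The embeddings are pairwise distinct (they differ on `j`). -/
theorem embU_injective : Function.Injective (embU M q hqM hpos) := by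
  intro j k hjk
  have h1 := congrArg (fun φ : FN (M * q) →+* helper182.Mer =>
    φ (jBarD (M * q) 1 (one_dvd _))) hjk
  simp only [embU_apply, evM_jBarD, pullGLMer_algebraMap] at h1
  have h2 := IsFractionRing.injective helper182.Hol helper182.Mer h1
  have h3 : ∀ τ : ℍ, jFun (hpt 1 j.val q τ) = jFun (hpt 1 k.val q τ) := by
    intro τ
    have h4 := congrFun (congrArg Subtype.val h2) τ
    have h5 : jd 1 ((corrU M q hqM).α j • τ) = jd 1 ((corrU M q hqM).α k • τ) := h4
    rw [jd_one] at h5
    have e : ∀ i : ZMod q, (corrU M q hqM).α i • τ = hpt 1 i.val q τ := by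
      intro i
      apply UpperHalfPlane.ext
      rw [coe_corrU_smul, coe_hpt]
      push_cast
      ring
    rw [e j, e k] at h5
    exact h5
  have h6 := hermite_data_unique hasQExpZ_jFun (fun k hk => coeffEmb_jq_coeff_of_lt hk)
    coeffEmb_jq_coeff_neg_one (a := 1) (b := j.val) (d' := q) (a₁ := 1) (b₁ := k.val) (d₁' := q)
    rfl (ZMod.val_lt j) (ZMod.val_lt k) h3
  exact ZMod.val_injective q h6.2.1

end Embeddings

/-! ## The analytic form of the `U_q`-norm -/

section UNorm

variable (M q : ℕ) [NeZero M] [NeZero q] (hq : q.Prime) (hqM : q ∣ M)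
  (hpos : ∀ j : ZMod q, 0 < ((corrU M q hqM).α j).det.val)

include hq in
/-- **Norm along `β` in the analytic model**: for a prime `q ∣ M` and `x ∈ F_{Mq}`,
`ev (Norm_β x)(τ) = ∏_{j mod q} (ev x)((τ + j)/q)`. -/
theorem evM_normAlong_heckeBetaBar (x : FN (M * q)) :
    evM M (Fermat.Agent.S29.helper8217.normAlong (heckeBetaBar Kbar M q) x)
      = ∏ j : ZMod q, pullGLMer ((corrU M q hqM).α j) (hpos j) (evM (M * q) x) := by
  letI := algebraAlong (heckeBetaBar Kbar M q)
  have hfr : Module.finrank (FN M) (FN (M * q)) = q :=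
    finrankAlong_heckeBetaBar_of_dvd M q hq hqM
  haveI : FiniteDimensional (FN M) (FN (M * q)) :=
    Module.finite_of_finrank_pos (by rw [hfr]; exact hq.pos)
  haveI : Algebra.IsSeparable (FN M) (FN (M * q)) := inferInstance
  exact norm_eq_prod_ringHoms (evM M) (by rw [ZMod.card, hfr]) (embU M q hqM hpos)
    (fun j a => embU_heckeBetaBar M q hqM hpos j a) (embU_injective M q hqM hpos) x

include hq in
/-- **(E-U): the analytic form of the `U_q`-norm.**  For a prime `q ∣ M` and `u ∈ F_M`, the
function `Norm_β (α u)` of the transpose Prelude correspondence at `q` is realised by the coset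
product of `corrU M q`: `ev (Norm_β (α u))(τ) = ∏_{j mod q} (ev u)((τ + j)/q)`. -/
theorem evM_uNorm (u : FN M) :
    evM M (Fermat.Agent.S29.helper8217.normAlong (heckeBetaBar Kbar M q)
        (heckeAlphaBar Kbar M q u))
      = cpMer (corrU M q hqM) hpos (evM M u) := by
  rw [evM_normAlong_heckeBetaBar M q hq hqM hpos, cpMer_apply]
  refine Finset.prod_congr rfl fun j _ => ?_
  rw [evM_heckeAlphaBar]

include hq in
/-- (E-U) in terms of the landed `helper504.evMer` and the bridge `merEquiv`. -/
theorem evMer_uNorm (u : FN M) :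
    merEquiv.symm (evMer M (Fermat.Agent.S29.helper8217.normAlong (heckeBetaBar Kbar M q)
        (heckeAlphaBar Kbar M q u)))
      = cpMer (corrU M q hqM) hpos (merEquiv.symm (evMer M u)) :=
  evM_uNorm M q hq hqM hpos u

end UNorm

end Fermat.Agent.S35.helper3346
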