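import Fermat.Agent.S35.helper1073_AtkinLehnerBridge
import Fermat.Agent.S35.helper882_GaussPair
import Fermat.Agent.S35.helper1687_CommonRepSpec

/-!
# S35/S34 geometry module: canonical vocabulary, level casts, literal target (architect helper35)

## Canonical vocabulary of the two-component instance (ONE name per object)

Work at the LITERAL auxiliary level `q * M` (`q` prime, `hc : Nat.Coprime q M`, `r ∣ M` with
`r ∈ {2, 3}`, `r ≠ q`), `A : ValuationSubring ℚ̄` over `q`, `k := IsLocalRing.ResidueField A`:

* `W`   := `helper1219.atkinLehnerBar q M hc`   (`= helper1928.wAL q M _`)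
* `V_∞` := `helper882.gpRing A (q * M)`         (`= helper8991.gaussF A (residue A) (q * M)`
                                                 `= helper584.gaussV = helper1928.vInf`)
* `V_0` := `helper882.gpRingW A (q * M) W`      (`= V_∞.comap W`)
* `v`   := `helper882.gpVal A (q * M) W : Fin 2 → Valuation _ _`, `vL := helper882.gpBase A (q * M)`
* `red` := `helper882.gpRed A (q * M) W`        (`f ↦ (ρ f, ρ (W f))`, THE one reduction map)
* `F_k` := `modularFunctionFieldFullC k M`, `jj := helper1928.fibreIncl k M`
* chart coordinate `t` : the element of `FN (q * M)` with the expansion of the Hauptmodul `t_r`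
  (`helper4665.gaussT2 / gaussT3 ℚ̄ (q * M) _`); `E₁ / E₂` := its pole / zero divisor.

## Level casts (this file)

The Spec (`helper2039.Stmt_TorFrobAux`, `helper1687` COMMON-REP) speaks the level-general
`helper1073.atkinLehnerBar N q hq hqN hq2` (`q ∥ N`); the Kronecker side speaks `M * q` and
`helper1219.atkinLehnerBarR M q hc`.  Nobody has to write a wrapper by hand:

* `levelGeneral_of_literal` : ANY statement `P (q * M) q (helper1219.atkinLehnerBar q M hc)`
  proved at all literal levels holds as `P N q (helper1073.atkinLehnerBar N q hq hqN hq2)`.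
* `literal_of_swapped`      : ANY statement `P (M * q) (helper1219.atkinLehnerBarR M q hc)`
  gives `P (q * M) (helper1219.atkinLehnerBar q M hc)`.

## The literal target of the geometry module (LP1 of S35)

* `Stmt_TorFrobLit` : the element form of (TORFROB) at the literal auxiliary levels, in the
  two-ring vocabulary of `helper882` (the conclusion of `helper3729.torFrob_of_nodal` with
  `V₁ := gpRing`, `V₂ := gpRingW`, `τ := arithmeticGalois σ * arithmeticGalois σ`, `e := q ^ 2`).
* `stmt_TorFrobAux_of_lit : Stmt_TorFrobLit → helper2039.Stmt_TorFrobAux`  (the final cast).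
-/

set_option autoImplicit false

open ModularCurve AlgebraicCurve

namespace Fermat.Agent.S35.helper35

noncomputable section

local notation "Qb" => AlgebraicClosure ℚ
local notation "GQ" => (AlgebraicClosure ℚ ≃ₐ[ℚ] AlgebraicClosure ℚ)

open Fermat.Agent.S29.helper8217

/-! ### Level casts -/

/-- **Generic level cast (literal ⟹ level-general).**  A statement about the level, the prime
and the Atkin–Lehner automorphism which holds at every literal level `q * M` with
`helper1219.atkinLehnerBar q M hc` holds at every level `N` exactly divisible by `q` with the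
canonical `helper1073.atkinLehnerBar N q hq hqN hq2`. -/
theorem levelGeneral_of_literal
    {P : ∀ (N : ℕ) [NeZero N] (_q : ℕ),
      (modularFunctionFieldBar N ≃ₐ[Qb] modularFunctionFieldBar N) → Prop}
    (h : ∀ (q M : ℕ) [NeZero q] [NeZero M] (_hq : q.Prime) (hc : Nat.Coprime q M),
      P (q * M) q (Fermat.Agent.S35.helper1219.atkinLehnerBar q M hc))
    (N q : ℕ) [NeZero N] (hq : q.Prime) (hqN : q ∣ N) (hq2 : ¬ q ^ 2 ∣ N) :
    P N q (Fermat.Agent.S35.helper1073.atkinLehnerBar N q hq hqN hq2) := by
  obtain ⟨M, rfl⟩ := hqN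
  have : NeZero q := ⟨hq.ne_zero⟩
  have : NeZero M := ⟨fun h0 => (NeZero.ne (q * M)) (by rw [h0, mul_zero])⟩
  have hc : Nat.Coprime q M := by
    rw [Nat.Prime.coprime_iff_not_dvd hq]
    rintro ⟨m, rfl⟩
    exact hq2 ⟨m, by ring⟩
  have key : Fermat.Agent.S35.helper1219.atkinLehnerBar q M hc
      = Fermat.Agent.S35.helper1073.atkinLehnerBar (q * M) q hq (dvd_mul_right q M) hq2 :=
    AlgEquiv.ext (Fermat.Agent.S35.helper1073.atkinLehnerBar_eq_helper1219 q M hq hc)
  rw [← key]
  exact h q M hq hc

/-- Conjugation by `castFN` along a level equality does not change a level-indexed statement. -/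
theorem cast_conj {P : ∀ (N : ℕ) [NeZero N],
      (modularFunctionFieldBar N ≃ₐ[Qb] modularFunctionFieldBar N) → Prop}
    {N N' : ℕ} [NeZero N] [NeZero N'] (e : N = N')
    (W : modularFunctionFieldBar N' ≃ₐ[Qb] modularFunctionFieldBar N')
    (h : P N (((Fermat.Agent.S35.helper1219.castFN e).trans W).trans
      (Fermat.Agent.S35.helper1219.castFN e.symm))) : P N' W := by
  subst e
  have hW : ((Fermat.Agent.S35.helper1219.castFN (rfl : N = N)).trans W).trans
      (Fermat.Agent.S35.helper1219.castFN (rfl : N = N)) = W :=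
    AlgEquiv.ext fun z => rfl
  rwa [hW] at h

/-- **Generic level cast (`M * q` ⟹ `q * M`).**  A statement proved at the level `M * q` of the
Prelude degeneracy maps with `helper1219.atkinLehnerBarR M q hc` holds at the level `q * M` with
`helper1219.atkinLehnerBar q M hc`. -/
theorem literal_of_swapped
    {P : ∀ (N : ℕ) [NeZero N],
      (modularFunctionFieldBar N ≃ₐ[Qb] modularFunctionFieldBar N) → Prop}
    (q M : ℕ) [NeZero q] [NeZero M] (hc : Nat.Coprime q M)
    (h : P (M * q) (Fermat.Agent.S35.helper1219.atkinLehnerBarR M q hc)) :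
    P (q * M) (Fermat.Agent.S35.helper1219.atkinLehnerBar q M hc) :=
  cast_conj (P := P) (mul_comm M q) (Fermat.Agent.S35.helper1219.atkinLehnerBar q M hc) h

/-! ### The literal target of the geometry module -/

/-- **(TORFROB), element form at the literal auxiliary levels `q * M`** (`r ∣ M`, `r ∈ {2, 3}`,
`r ≠ q`), in the two-ring vocabulary of `helper882`: for a prime `lam ≠ q`, `A ∣ q`, a Frobenius
lift `σ` at `A` and every `lam ^ k`-Kummer function `h` with `h ≡ 1` at both Gauss rings
`V_∞ = gpRing`, `V_0 = gpRingW`:  `(σ σ) • h = h ^ (q ^ 2) * (c * w ^ (lam ^ k))` with `c`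
divisor-free.  This is the conclusion of `helper3729.torFrob_of_nodal` at the concrete carrier;
it is ALL the geometry module has to produce for S35. -/
def Stmt_TorFrobLit : Prop :=
  ∀ (q M : ℕ) [NeZero q] [NeZero M] (_hq : q.Prime) (hc : Nat.Coprime q M)
    (r : ℕ) (_hr : r = 2 ∨ r = 3) (_hrq : r ≠ q) (_hrM : r ∣ M)
    (lam : ℕ) (_hlam : lam.Prime) (_hlamq : lam ≠ q) (k : ℕ)
    (A : ValuationSubring Qb) (_hA : A.LiesOverPrime q) (σ : GQ) (_hσ : A.IsFrobeniusAt σ q)
    (h : modularFunctionFieldBar (q * M)), IsKummer Qb (lam ^ k) h →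
    (Fermat.Agent.S35.helper882.gpRing A (q * M)).valuation (h - 1) < 1 →
    (Fermat.Agent.S35.helper882.gpRingW A (q * M)
      (Fermat.Agent.S35.helper1219.atkinLehnerBar q M hc)).valuation (h - 1) < 1 →
    ∃ w c : modularFunctionFieldBar (q * M), w ≠ 0 ∧ c ≠ 0 ∧
      (∀ v : Place Qb (modularFunctionFieldBar (q * M)), v.ord c = 0) ∧
      (arithmeticGalois (modularFunctionFieldFull (q * M)) σ *
        arithmeticGalois (modularFunctionFieldFull (q * M)) σ) • h
        = h ^ (q ^ 2) * (c * w ^ (lam ^ k))

/-- **The final cast**: the literal-level element form gives the open leaf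
`helper2039.Stmt_TorFrobAux` of the S35 Spec (hence the frozen S35 by
`helper2039.result_of_torFrobAux`). -/
theorem stmt_TorFrobAux_of_lit (H : Stmt_TorFrobLit) :
    Fermat.Agent.S35.helper2039.Stmt_TorFrobAux := by
  refine Fermat.Agent.S35.helper1687.stmt_TorFrobAux_of_comap ?_
  intro N _ q hq hqN hq2 r hr hrq hrN lam hlam hlamq k A hA σ hσ
  refine levelGeneral_of_literal
    (P := fun N _ q W => ∀ (r : ℕ), (r = 2 ∨ r = 3) → r ≠ q → r ∣ N →
      ∀ (lam : ℕ), lam.Prime → lam ≠ q → ∀ (k : ℕ) (A : ValuationSubring Qb),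
      A.LiesOverPrime q → ∀ σ : GQ, A.IsFrobeniusAt σ q →
      ∀ h : modularFunctionFieldBar N, IsKummer Qb (lam ^ k) h →
      (Fermat.Agent.S18.helper8991.gaussF A (IsLocalRing.residue A) N).valuation (h - 1) < 1 →
      ((Fermat.Agent.S18.helper8991.gaussF A (IsLocalRing.residue A) N).comap
        ((W : modularFunctionFieldBar N ≃+* modularFunctionFieldBar N) :
          modularFunctionFieldBar N →+* modularFunctionFieldBar N)).valuation (h - 1) < 1 →
      ∃ w c : modularFunctionFieldBar N, w ≠ 0 ∧ c ≠ 0 ∧
        (∀ v : Place Qb (modularFunctionFieldBar N), v.ord c = 0) ∧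
        (arithmeticGalois (modularFunctionFieldFull N) σ *
          arithmeticGalois (modularFunctionFieldFull N) σ) • h
          = h ^ (q ^ 2) * (c * w ^ (lam ^ k)))
    ?_ N q hq hqN hq2 r hr hrq hrN lam hlam hlamq k A hA σ hσ
  intro q M _ _ hq hc r hr hrq hrN lam hlam hlamq k A hA σ hσ h hK h1 h2
  have hrM : r ∣ M := by
    have hrp : r.Prime := by
      rcases hr with rfl | rfl
      · exact Nat.prime_two
      · exact Nat.prime_three
    exact (Nat.Coprime.dvd_mul_left ((Nat.coprime_primes hrp hq).mpr hrq)).mp hrN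
  exact H q M hq hc r hr hrq hrM lam hlam hlamq k A hA σ hσ h hK h1 h2

end

end Fermat.Agent.S35.helper35
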