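/-
S35/S34 (helper4640): THE NAMED ELEMENTS OF THE TWO-VALUATION CHART RINGS on the `t_r`-charts, in
GaussPair vocabulary at the literal level `q * M`, `W := helper1219.atkinLehnerBar q M h'`,
`V₁ := helper882.gpRing A (q * M)`, `V₂ := helper882.gpRingW A (q * M) W`,
`red := helper882.gpRed A (q * M) W`, `k := IsLocalRing.ResidueField A`.

`ChartElt A N W x f r` : `f ∈ V₁ ∧ f ∈ V₂ ∧ f` integral over `ℚ̄[x] ∧ red f = r`
(i.e. `f` lies in the chart ring `kronB` of the coordinate `x` and reduces to the pair `r`).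

Chart `x = t_r` (`t̄ := t_rK k`, `g := x ^ q / W x`):
  `x ↦ (t̄, t̄^q)`, `W x ↦ (t̄^q, t̄)`, `g ↦ (1, t̄^(q²-1))`, `W g ↦ (t̄^(q²-1), 1)`.
Chart `x⁻¹`:
  `x⁻¹ ↦ (t̄⁻¹, (t̄^q)⁻¹)`, `(W x)⁻¹ ↦ ((t̄^q)⁻¹, t̄⁻¹)`, `g⁻¹ ↦ (1, (t̄^(q²-1))⁻¹)`,
  `W g⁻¹ ↦ ((t̄^(q²-1))⁻¹, 1)`.

These are the inputs "(t̄, t̄^q) ∈ R_A, its inverse ∈ R_B, the units (1, t̄^(q²-1)) ∈ R_A and
inverse ∈ R_B, W-stability of both charts" of the Kronecker chart instance and of
`helper825.exists_node_places_two_charts`.  Laurent half: `helper4640_CuspUnit/CuspChart`;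
generic-fibre half (integrality): `helper2974_CuspOrd`.
-/
import Mathlib
import Fermat.Agent.S35.helper4640_CuspChartGP
import Fermat.Agent.S35.helper2974_CuspOrd

set_option autoImplicit false

open ModularCurve HahnSeries

namespace Fermat.Agent.S35.helper4640

open Fermat.Agent.S18.helper8991 Fermat.Agent.S24.helper24 Fermat.Agent.S35.helper1219
  Fermat.Agent.S18.helper1257 Fermat.Agent.S18.helper6381

noncomputable section

/-- `f` lies in the two-valuation chart ring of the coordinate `x` (both Gauss rings, integral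
over `ℚ̄[x]`) and its pair reduction is `r`. -/
def ChartElt (A : ValuationSubring Kbar) (N : ℕ) (W : FN N ≃ₐ[Kbar] FN N) (x f : FN N)
    (r : LaurentSeries (IsLocalRing.ResidueField A) × LaurentSeries (IsLocalRing.ResidueField A)) :
    Prop :=
  f ∈ helper882.gpRing A N ∧ f ∈ helper882.gpRingW A N W ∧
    IsIntegral (Algebra.adjoin Kbar ({x} : Set (FN N))) f ∧ helper882.gpRed A N W f = r

theorem chartElt_iff (A : ValuationSubring Kbar) (N : ℕ) (W : FN N ≃ₐ[Kbar] FN N) (x f : FN N)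
    (r : LaurentSeries (IsLocalRing.ResidueField A) × LaurentSeries (IsLocalRing.ResidueField A)) :
    ChartElt A N W x f r ↔ f ∈ helper882.gpRing A N ∧ f ∈ helper882.gpRingW A N W ∧
      IsIntegral (Algebra.adjoin Kbar ({x} : Set (FN N))) f ∧ helper882.gpRed A N W f = r :=
  Iff.rfl

/-- The coordinate is integral over its own polynomial ring. -/
theorem isIntegral_adjoin_self {N : ℕ} (x : FN N) :
    IsIntegral (Algebra.adjoin Kbar ({x} : Set (FN N))) x := by
  have h : x = algebraMap (Algebra.adjoin Kbar ({x} : Set (FN N))) (FN N)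
      ⟨x, Algebra.subset_adjoin (Set.mem_singleton x)⟩ := rfl
  rw [h]
  exact isIntegral_algebraMap

section General

variable (q M : ℕ) [NeZero q] [NeZero M] (h' : Nat.Coprime q M) (A : ValuationSubring Kbar)

/-- Pair reduction of an element of both Gauss rings. -/
theorem gpRed_of_mem {f : FN (q * M)}
    (h1 : f ∈ gaussF A (IsLocalRing.residue A) (q * M))
    (h2 : atkinLehnerBar q M h' f ∈ gaussF A (IsLocalRing.residue A) (q * M)) :
    helper882.gpRed A (q * M) (atkinLehnerBar q M h') f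
      = (gaussFRed A (IsLocalRing.residue A) (q * M) ⟨f, h1⟩,
          gaussFRed A (IsLocalRing.residue A) (q * M) ⟨atkinLehnerBar q M h' f, h2⟩) :=
  Prod.ext (helper882.gpRho_of_mem A (q * M) h1) (helper882.gpRho_of_mem A (q * M) h2)

/-- Assembling a chart element from the four facts. -/
theorem chartElt_of {x f : FN (q * M)}
    {r₁ r₂ : LaurentSeries (IsLocalRing.ResidueField A)}
    (h1 : f ∈ gaussF A (IsLocalRing.residue A) (q * M))
    (h2 : atkinLehnerBar q M h' f ∈ gaussF A (IsLocalRing.residue A) (q * M))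
    (hint : IsIntegral (Algebra.adjoin Kbar ({x} : Set (FN (q * M)))) f)
    (e1 : gaussFRed A (IsLocalRing.residue A) (q * M) ⟨f, h1⟩ = r₁)
    (e2 : gaussFRed A (IsLocalRing.residue A) (q * M) ⟨atkinLehnerBar q M h' f, h2⟩ = r₂) :
    ChartElt A (q * M) (atkinLehnerBar q M h') x f (r₁, r₂) :=
  ⟨h1, h2, hint, by rw [gpRed_of_mem q M h' A h1 h2, e1, e2]⟩

variable {t : FN (q * M)} {x : FN M} {tZ sZ : LaurentSeries ℤ}

/-- **The eight elements, general form**: `t` of level `q * M` with integer unit expansion `tZ`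
(`tZ * sZ = 1`) which is the expansion of a function of level `M`; the integrality statements
are hypotheses (CUSPORD). `t̄ := coeffMap _ tZ`, `s̄ := coeffMap _ sZ = t̄⁻¹`. -/
theorem chartElts_general (hq : q.Prime) (hA : A.LiesOverPrime q) (hts : tZ * sZ = 1)
    (ht : (t : LaurentSeries Kbar) = coeffMap (Int.castRingHom Kbar) tZ)
    (htx : (t : LaurentSeries Kbar) = (x : LaurentSeries Kbar))
    (hint : (IsIntegral (Algebra.adjoin Kbar {t}) (atkinLehnerBar q M h' t) ∧
        IsIntegral (Algebra.adjoin Kbar {t}) (t ^ q / atkinLehnerBar q M h' t) ∧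
        IsIntegral (Algebra.adjoin Kbar {t}) (atkinLehnerBar q M h' t ^ q / t)) ∧
      (IsIntegral (Algebra.adjoin Kbar {t⁻¹}) (atkinLehnerBar q M h' t)⁻¹ ∧
        IsIntegral (Algebra.adjoin Kbar {t⁻¹}) (atkinLehnerBar q M h' t / t ^ q) ∧
        IsIntegral (Algebra.adjoin Kbar {t⁻¹}) (t / atkinLehnerBar q M h' t ^ q))) :
    (ChartElt A (q * M) (atkinLehnerBar q M h') t t
        (coeffMap (Int.castRingHom (IsLocalRing.ResidueField A)) tZ,
          coeffMap (Int.castRingHom (IsLocalRing.ResidueField A)) tZ ^ q) ∧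
      ChartElt A (q * M) (atkinLehnerBar q M h') t (atkinLehnerBar q M h' t)
        (coeffMap (Int.castRingHom (IsLocalRing.ResidueField A)) tZ ^ q,
          coeffMap (Int.castRingHom (IsLocalRing.ResidueField A)) tZ) ∧
      ChartElt A (q * M) (atkinLehnerBar q M h') t (t ^ q / atkinLehnerBar q M h' t)
        (1, coeffMap (Int.castRingHom (IsLocalRing.ResidueField A)) tZ ^ (q ^ 2 - 1)) ∧
      ChartElt A (q * M) (atkinLehnerBar q M h') t (atkinLehnerBar q M h' t ^ q / t)
        (coeffMap (Int.castRingHom (IsLocalRing.ResidueField A)) tZ ^ (q ^ 2 - 1), 1)) ∧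
    (ChartElt A (q * M) (atkinLehnerBar q M h') t⁻¹ t⁻¹
        (coeffMap (Int.castRingHom (IsLocalRing.ResidueField A)) sZ,
          coeffMap (Int.castRingHom (IsLocalRing.ResidueField A)) sZ ^ q) ∧
      ChartElt A (q * M) (atkinLehnerBar q M h') t⁻¹ (atkinLehnerBar q M h' t)⁻¹
        (coeffMap (Int.castRingHom (IsLocalRing.ResidueField A)) sZ ^ q,
          coeffMap (Int.castRingHom (IsLocalRing.ResidueField A)) sZ) ∧
      ChartElt A (q * M) (atkinLehnerBar q M h') t⁻¹ (atkinLehnerBar q M h' t / t ^ q)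
        (1, coeffMap (Int.castRingHom (IsLocalRing.ResidueField A)) sZ ^ (q ^ 2 - 1)) ∧
      ChartElt A (q * M) (atkinLehnerBar q M h') t⁻¹ (t / atkinLehnerBar q M h' t ^ q)
        (coeffMap (Int.castRingHom (IsLocalRing.ResidueField A)) sZ ^ (q ^ 2 - 1), 1)) := by
  have : Fact q.Prime := ⟨hq⟩
  have : CharP (IsLocalRing.ResidueField A) q :=
    Fermat.Agent.S18.helper508.charP_residueField q A hA
  obtain ⟨⟨i1, i2, i3⟩, i4, i5, i6⟩ := hint
  have htq := coe_atkinLehnerBar_of_coe_eq q M h' htx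
  have hWW : ∀ z : FN (q * M), atkinLehnerBar q M h' (atkinLehnerBar q M h' z) = z :=
    atkinLehnerBar_atkinLehnerBar q M h'
  -- the Gauss-ring memberships and reductions of the eight elements (V₁-side)
  have m1 := base_mem A (IsLocalRing.residue A) (q * M) ht
  have m2 := twist_mem A (IsLocalRing.residue A) (q * M) q ht htq
  have m3 := cuspUnit_mem A (IsLocalRing.residue A) (q * M) q hts ht htq
  have m4 := cuspUnitW_mem A (IsLocalRing.residue A) (q * M) q hts ht htq
  have m5 := base_inv_mem A (IsLocalRing.residue A) (q * M) hts ht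
  have m6 := twist_inv_mem A (IsLocalRing.residue A) (q * M) q hts ht htq
  have m7 := cuspUnit_inv_mem A (IsLocalRing.residue A) (q * M) q hts ht htq
  have m8 := cuspUnitW_inv_mem A (IsLocalRing.residue A) (q * M) q hts ht htq
  have r1 := gaussFRed_base A (IsLocalRing.residue A) (q * M) ht m1
  have r2 := gaussFRed_twist A (IsLocalRing.residue A) (q * M) q ht htq m2
  have r3 := gaussFRed_cuspUnit A (IsLocalRing.residue A) (q * M) q hts ht htq m3
  have r4 := gaussFRed_cuspUnitW A (IsLocalRing.residue A) (q * M) q hts ht htq m4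
  have r5 := gaussFRed_base_inv A (IsLocalRing.residue A) (q * M) hts ht m5
  have r6 := gaussFRed_twist_inv A (IsLocalRing.residue A) (q * M) q hts ht htq m6
  have r7 := gaussFRed_cuspUnit_inv A (IsLocalRing.residue A) (q * M) q hts ht htq m7
  have r8 := gaussFRed_cuspUnitW_inv A (IsLocalRing.residue A) (q * M) q hts ht htq m8
  -- the images under `W`
  have w2 : atkinLehnerBar q M h' (atkinLehnerBar q M h' t) = t := hWW t
  have w3 : atkinLehnerBar q M h' (t ^ q / atkinLehnerBar q M h' t)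
      = atkinLehnerBar q M h' t ^ q / t := by rw [map_div₀, map_pow, hWW]
  have w4 : atkinLehnerBar q M h' (atkinLehnerBar q M h' t ^ q / t)
      = t ^ q / atkinLehnerBar q M h' t := by rw [map_div₀, map_pow, hWW]
  have w5 : atkinLehnerBar q M h' t⁻¹ = (atkinLehnerBar q M h' t)⁻¹ := map_inv₀ _ _
  have w6 : atkinLehnerBar q M h' (atkinLehnerBar q M h' t)⁻¹ = t⁻¹ := by rw [map_inv₀, hWW]
  have w7 : atkinLehnerBar q M h' (atkinLehnerBar q M h' t / t ^ q)
      = t / atkinLehnerBar q M h' t ^ q := by rw [map_div₀, map_pow, hWW]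
  have w8 : atkinLehnerBar q M h' (t / atkinLehnerBar q M h' t ^ q)
      = atkinLehnerBar q M h' t / t ^ q := by rw [map_div₀, map_pow, hWW]
  -- transport of membership / reduction along an equality
  have key : ∀ {f g : FN (q * M)} (hfg : atkinLehnerBar q M h' f = g)
      (hg : g ∈ gaussF A (IsLocalRing.residue A) (q * M))
      {r : LaurentSeries (IsLocalRing.ResidueField A)}
      (_ : gaussFRed A (IsLocalRing.residue A) (q * M) ⟨g, hg⟩ = r),
      ∃ hf : atkinLehnerBar q M h' f ∈ gaussF A (IsLocalRing.residue A) (q * M),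
        gaussFRed A (IsLocalRing.residue A) (q * M) ⟨atkinLehnerBar q M h' f, hf⟩ = r := by
    intro f g hfg hg r hr
    subst hfg
    exact ⟨hg, hr⟩
  refine ⟨⟨?_, ?_, ?_, ?_⟩, ?_, ?_, ?_, ?_⟩
  · exact chartElt_of q M h' A m1 m2 (isIntegral_adjoin_self t) r1 r2
  · obtain ⟨hf, hr⟩ := key w2 m1 r1
    exact chartElt_of q M h' A m2 hf i1 r2 hr
  · obtain ⟨hf, hr⟩ := key w3 m4 r4
    exact chartElt_of q M h' A m3 hf i2 r3 hr
  · obtain ⟨hf, hr⟩ := key w4 m3 r3
    exact chartElt_of q M h' A m4 hf i3 r4 hr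
  · obtain ⟨hf, hr⟩ := key w5 m6 r6
    exact chartElt_of q M h' A m5 hf (isIntegral_adjoin_self t⁻¹) r5 hr
  · obtain ⟨hf, hr⟩ := key w6 m5 r5
    exact chartElt_of q M h' A m6 hf i4 r6 hr
  · obtain ⟨hf, hr⟩ := key w7 m8 r8
    exact chartElt_of q M h' A m7 hf i5 r7 hr
  · obtain ⟨hf, hr⟩ := key w8 m7 r7
    exact chartElt_of q M h' A m8 hf i6 r8 hr

end General

/-! ## The Hauptmoduln: everything discharged (`r = 2`: `q ≠ 2`, `2 ∣ M`; `r = 3`: `q ≠ 3`,
`3 ∣ M`) -/

section Haupt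

theorem coeffMap_hauptInv2Z_eq (k : Type*) [Field k] :
    coeffMap (Int.castRingHom k) hauptInv2Z = (t2K k)⁻¹ :=
  eq_inv_of_mul_eq_one_right (by
    show coeffMap (Int.castRingHom k) t2Z * coeffMap (Int.castRingHom k) hauptInv2Z = 1
    rw [← map_mul, t2Z_mul_hauptInv2Z, map_one])

theorem coeffMap_hauptInv3Z_eq (k : Type*) [Field k] :
    coeffMap (Int.castRingHom k) hauptInv3Z = (t3K k)⁻¹ :=
  eq_inv_of_mul_eq_one_right (by
    show coeffMap (Int.castRingHom k) t3Z * coeffMap (Int.castRingHom k) hauptInv3Z = 1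
    rw [← map_mul, t3Z_mul_hauptInv3Z, map_one])

variable (q M : ℕ) [NeZero q] [NeZero M] (h' : Nat.Coprime q M) (A : ValuationSubring Kbar)

/-- **The eight named elements of the two `t₂`-chart rings** with their pair reductions. -/
theorem chartElts_t2 (hq : q.Prime) (hq2 : q ≠ 2) (hA : A.LiesOverPrime q) (h2 : 2 ∣ M) :
    (ChartElt A (q * M) (atkinLehnerBar q M h') (t2L Kbar (q * M) (h2.mul_left q))
        (t2L Kbar (q * M) (h2.mul_left q))
        (t2K (IsLocalRing.ResidueField A), t2K (IsLocalRing.ResidueField A) ^ q) ∧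
      ChartElt A (q * M) (atkinLehnerBar q M h') (t2L Kbar (q * M) (h2.mul_left q))
        (atkinLehnerBar q M h' (t2L Kbar (q * M) (h2.mul_left q)))
        (t2K (IsLocalRing.ResidueField A) ^ q, t2K (IsLocalRing.ResidueField A)) ∧
      ChartElt A (q * M) (atkinLehnerBar q M h') (t2L Kbar (q * M) (h2.mul_left q))
        (t2L Kbar (q * M) (h2.mul_left q) ^ q
          / atkinLehnerBar q M h' (t2L Kbar (q * M) (h2.mul_left q)))
        (1, t2K (IsLocalRing.ResidueField A) ^ (q ^ 2 - 1)) ∧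
      ChartElt A (q * M) (atkinLehnerBar q M h') (t2L Kbar (q * M) (h2.mul_left q))
        (atkinLehnerBar q M h' (t2L Kbar (q * M) (h2.mul_left q)) ^ q
          / t2L Kbar (q * M) (h2.mul_left q))
        (t2K (IsLocalRing.ResidueField A) ^ (q ^ 2 - 1), 1)) ∧
    (ChartElt A (q * M) (atkinLehnerBar q M h') (t2L Kbar (q * M) (h2.mul_left q))⁻¹
        (t2L Kbar (q * M) (h2.mul_left q))⁻¹
        ((t2K (IsLocalRing.ResidueField A))⁻¹, (t2K (IsLocalRing.ResidueField A))⁻¹ ^ q) ∧
      ChartElt A (q * M) (atkinLehnerBar q M h') (t2L Kbar (q * M) (h2.mul_left q))⁻¹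
        (atkinLehnerBar q M h' (t2L Kbar (q * M) (h2.mul_left q)))⁻¹
        ((t2K (IsLocalRing.ResidueField A))⁻¹ ^ q, (t2K (IsLocalRing.ResidueField A))⁻¹) ∧
      ChartElt A (q * M) (atkinLehnerBar q M h') (t2L Kbar (q * M) (h2.mul_left q))⁻¹
        (atkinLehnerBar q M h' (t2L Kbar (q * M) (h2.mul_left q))
          / t2L Kbar (q * M) (h2.mul_left q) ^ q)
        (1, (t2K (IsLocalRing.ResidueField A))⁻¹ ^ (q ^ 2 - 1)) ∧
      ChartElt A (q * M) (atkinLehnerBar q M h') (t2L Kbar (q * M) (h2.mul_left q))⁻¹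
        (t2L Kbar (q * M) (h2.mul_left q)
          / atkinLehnerBar q M h' (t2L Kbar (q * M) (h2.mul_left q)) ^ q)
        ((t2K (IsLocalRing.ResidueField A))⁻¹ ^ (q ^ 2 - 1), 1)) := by
  have hN : 2 * q ∣ q * M := by
    rw [mul_comm 2 q]
    exact Nat.mul_dvd_mul_left q h2
  have htq := coe_atkinLehnerBar_of_coe_eq q M h' (t := t2L Kbar (q * M) (h2.mul_left q))
    (x := t2L Kbar M h2) rfl
  have hint := Fermat.Agent.S35.helper2974.cuspOrd_integral_t2 (q * M) q hq hq2 hN
    (coe_t2L_eq Kbar (q * M) (h2.mul_left q)) htq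
  have h := chartElts_general q M h' A hq hA t2Z_mul_hauptInv2Z
    (coe_t2L_eq Kbar (q * M) (h2.mul_left q)) (x := t2L Kbar M h2) rfl hint
  rw [coeffMap_hauptInv2Z_eq] at h
  exact h

/-- **The eight named elements of the two `t₃`-chart rings** with their pair reductions. -/
theorem chartElts_t3 (hq : q.Prime) (hq3 : q ≠ 3) (hA : A.LiesOverPrime q) (h3 : 3 ∣ M) :
    (ChartElt A (q * M) (atkinLehnerBar q M h') (t3L Kbar (q * M) (h3.mul_left q))
        (t3L Kbar (q * M) (h3.mul_left q))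
        (t3K (IsLocalRing.ResidueField A), t3K (IsLocalRing.ResidueField A) ^ q) ∧
      ChartElt A (q * M) (atkinLehnerBar q M h') (t3L Kbar (q * M) (h3.mul_left q))
        (atkinLehnerBar q M h' (t3L Kbar (q * M) (h3.mul_left q)))
        (t3K (IsLocalRing.ResidueField A) ^ q, t3K (IsLocalRing.ResidueField A)) ∧
      ChartElt A (q * M) (atkinLehnerBar q M h') (t3L Kbar (q * M) (h3.mul_left q))
        (t3L Kbar (q * M) (h3.mul_left q) ^ q
          / atkinLehnerBar q M h' (t3L Kbar (q * M) (h3.mul_left q)))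
        (1, t3K (IsLocalRing.ResidueField A) ^ (q ^ 2 - 1)) ∧
      ChartElt A (q * M) (atkinLehnerBar q M h') (t3L Kbar (q * M) (h3.mul_left q))
        (atkinLehnerBar q M h' (t3L Kbar (q * M) (h3.mul_left q)) ^ q
          / t3L Kbar (q * M) (h3.mul_left q))
        (t3K (IsLocalRing.ResidueField A) ^ (q ^ 2 - 1), 1)) ∧
    (ChartElt A (q * M) (atkinLehnerBar q M h') (t3L Kbar (q * M) (h3.mul_left q))⁻¹
        (t3L Kbar (q * M) (h3.mul_left q))⁻¹
        ((t3K (IsLocalRing.ResidueField A))⁻¹, (t3K (IsLocalRing.ResidueField A))⁻¹ ^ q) ∧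
      ChartElt A (q * M) (atkinLehnerBar q M h') (t3L Kbar (q * M) (h3.mul_left q))⁻¹
        (atkinLehnerBar q M h' (t3L Kbar (q * M) (h3.mul_left q)))⁻¹
        ((t3K (IsLocalRing.ResidueField A))⁻¹ ^ q, (t3K (IsLocalRing.ResidueField A))⁻¹) ∧
      ChartElt A (q * M) (atkinLehnerBar q M h') (t3L Kbar (q * M) (h3.mul_left q))⁻¹
        (atkinLehnerBar q M h' (t3L Kbar (q * M) (h3.mul_left q))
          / t3L Kbar (q * M) (h3.mul_left q) ^ q)
        (1, (t3K (IsLocalRing.ResidueField A))⁻¹ ^ (q ^ 2 - 1)) ∧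
      ChartElt A (q * M) (atkinLehnerBar q M h') (t3L Kbar (q * M) (h3.mul_left q))⁻¹
        (t3L Kbar (q * M) (h3.mul_left q)
          / atkinLehnerBar q M h' (t3L Kbar (q * M) (h3.mul_left q)) ^ q)
        ((t3K (IsLocalRing.ResidueField A))⁻¹ ^ (q ^ 2 - 1), 1)) := by
  have hN : 3 * q ∣ q * M := by
    rw [mul_comm 3 q]
    exact Nat.mul_dvd_mul_left q h3
  have htq := coe_atkinLehnerBar_of_coe_eq q M h' (t := t3L Kbar (q * M) (h3.mul_left q))
    (x := t3L Kbar M h3) rfl
  have hint := Fermat.Agent.S35.helper2974.cuspOrd_integral_t3 (q * M) q hq hq3 hN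
    (coe_t3L_eq Kbar (q * M) (h3.mul_left q)) htq
  have h := chartElts_general q M h' A hq hA t3Z_mul_hauptInv3Z
    (coe_t3L_eq Kbar (q * M) (h3.mul_left q)) (x := t3L Kbar M h3) rfl hint
  rw [coeffMap_hauptInv3Z_eq] at h
  exact h

end Haupt

/-! ## Changing charts (`hBA` / `hAB` of `helper6174.same_nodes`): an element of the chart ring of
`x⁻¹` times a power of `x` lies in the chart ring of `x`, with the product reduction -/

section ChangeChart

open Polynomial

theorem exists_forall_pow_mul_mem {K F : Type*} [Field K] [Field F] [Algebra K F] {x : F}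
    (hx : x ≠ 0) {c : F} (hc : c ∈ Algebra.adjoin K ({x⁻¹} : Set F)) :
    ∃ d : ℕ, ∀ d', d ≤ d' → x ^ d' * c ∈ Algebra.adjoin K ({x} : Set F) := by
  have hxS : x ∈ Algebra.adjoin K ({x} : Set F) := Algebra.subset_adjoin (Set.mem_singleton x)
  induction hc using Algebra.adjoin_induction with
  | mem y hy =>
    rw [Set.mem_singleton_iff] at hy
    subst hy
    refine ⟨1, fun d' hd' => ?_⟩
    obtain ⟨e, rfl⟩ := Nat.exists_eq_add_of_le' hd'
    rw [pow_succ, mul_assoc, mul_inv_cancel₀ hx, mul_one]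
    exact pow_mem hxS e
  | algebraMap r =>
    exact ⟨0, fun d' _ => mul_mem (pow_mem hxS d') (Subalgebra.algebraMap_mem _ r)⟩
  | add a b _ _ ha hb =>
    obtain ⟨d₁, h₁⟩ := ha
    obtain ⟨d₂, h₂⟩ := hb
    refine ⟨max d₁ d₂, fun d' hd' => ?_⟩
    rw [mul_add]
    exact add_mem (h₁ d' (le_trans (le_max_left _ _) hd'))
      (h₂ d' (le_trans (le_max_right _ _) hd'))
  | mul a b _ _ ha hb =>
    obtain ⟨d₁, h₁⟩ := ha
    obtain ⟨d₂, h₂⟩ := hb
    refine ⟨d₁ + d₂, fun d' hd' => ?_⟩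
    obtain ⟨e, rfl⟩ := Nat.exists_eq_add_of_le hd'
    have h3 : x ^ (d₁ + d₂ + e) * (a * b) = (x ^ d₁ * a) * (x ^ (d₂ + e) * b) := by
      rw [add_assoc, _root_.pow_add]
      ring
    rw [h3]
    exact mul_mem (h₁ d₁ le_rfl) (h₂ (d₂ + e) (Nat.le_add_right _ _))

/-- **Changing charts**: an element integral over `K[x⁻¹]` becomes integral over `K[x]` after
multiplication by a power of `x`. -/
theorem exists_pow_mul_isIntegral {K F : Type*} [Field K] [Field F] [Algebra K F] {x : F}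
    (hx : x ≠ 0) {f : F} (hf : IsIntegral (Algebra.adjoin K ({x⁻¹} : Set F)) f) :
    ∃ n : ℕ, IsIntegral (Algebra.adjoin K ({x} : Set F)) (x ^ n * f) := by
  classical
  obtain ⟨p, hp, hpf⟩ := hf
  have hxS : x ∈ Algebra.adjoin K ({x} : Set F) := Algebra.subset_adjoin (Set.mem_singleton x)
  have hex : ∃ d : ℕ, ∀ i, x ^ d * ((p.coeff i : Algebra.adjoin K ({x⁻¹} : Set F)) : F)
      ∈ Algebra.adjoin K ({x} : Set F) := by
    choose D hD using fun i => exists_forall_pow_mul_mem (K := K) hx (p.coeff i).2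
    refine ⟨(Finset.range (p.natDegree + 1)).sup D, fun i => ?_⟩
    by_cases hi : i ≤ p.natDegree
    · exact hD i _ (Finset.le_sup (Finset.mem_range.mpr (Nat.lt_succ_of_le hi)))
    · rw [Polynomial.coeff_eq_zero_of_natDegree_lt (not_le.mp hi)]
      simp
  obtain ⟨d, hd⟩ := hex
  refine ⟨d, ?_⟩
  have hPm : (p.map (algebraMap (Algebra.adjoin K ({x⁻¹} : Set F)) F)).Monic := hp.map _
  have hP0 : (p.map (algebraMap (Algebra.adjoin K ({x⁻¹} : Set F)) F)).eval f = 0 := by
    rw [Polynomial.eval_map]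
    exact hpf
  have hQm : (Polynomial.scaleRoots (p.map (algebraMap (Algebra.adjoin K ({x⁻¹} : Set F)) F))
      (x ^ d)).Monic := (Polynomial.monic_scaleRoots_iff _).mpr hPm
  have hQ0 : (Polynomial.scaleRoots (p.map (algebraMap (Algebra.adjoin K ({x⁻¹} : Set F)) F))
      (x ^ d)).eval (x ^ d * f) = 0 := by
    rw [Polynomial.scaleRoots_eval_mul, hP0, mul_zero]
  have hQl : Polynomial.scaleRoots (p.map (algebraMap (Algebra.adjoin K ({x⁻¹} : Set F)) F))
      (x ^ d) ∈ Polynomial.lifts (algebraMap (Algebra.adjoin K ({x} : Set F)) F) := by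
    rw [Polynomial.lifts_iff_coeff_lifts]
    intro i
    have hmem : ∀ c : F, c ∈ Algebra.adjoin K ({x} : Set F) →
        c ∈ Set.range (algebraMap (Algebra.adjoin K ({x} : Set F)) F) := fun c hc => ⟨⟨c, hc⟩, rfl⟩
    apply hmem
    rw [Polynomial.coeff_scaleRoots, Polynomial.coeff_map]
    rcases Nat.lt_or_ge i (p.map (algebraMap (Algebra.adjoin K ({x⁻¹} : Set F)) F)).natDegree
      with hi | hi
    · obtain ⟨e, he⟩ : ∃ e, (p.map (algebraMap (Algebra.adjoin K ({x⁻¹} : Set F)) F)).natDegree - i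
          = e + 1 := ⟨_, (Nat.succ_pred_eq_of_pos (Nat.sub_pos_of_lt hi)).symm⟩
      rw [he, pow_succ', ← mul_assoc, mul_comm _ (x ^ d)]
      exact mul_mem (hd i) (pow_mem (pow_mem hxS d) e)
    · rw [Nat.sub_eq_zero_of_le hi, pow_zero, mul_one]
      rcases Nat.eq_or_lt_of_le hi with hi' | hi'
      · have h1 : (p.map (algebraMap (Algebra.adjoin K ({x⁻¹} : Set F)) F)).coeff i = 1 := by
          rw [← hi']
          exact hPm
        rw [Polynomial.coeff_map] at h1
        rw [h1]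
        exact one_mem _
      · have h0 : (p.map (algebraMap (Algebra.adjoin K ({x⁻¹} : Set F)) F)).coeff i = 0 :=
          Polynomial.coeff_eq_zero_of_natDegree_lt hi'
        rw [Polynomial.coeff_map] at h0
        rw [h0]
        exact zero_mem _
  obtain ⟨q, hq, -, hqm⟩ := Polynomial.lifts_and_natDegree_eq_and_monic hQl hQm
  exact ⟨q, hqm, by rw [Polynomial.eval₂_eq_eval_map, hq]; exact hQ0⟩

variable {N : ℕ} (A : ValuationSubring Kbar) (W : FN N ≃ₐ[Kbar] FN N)

/-- The pair reduction is multiplicative on the intersection of the two Gauss rings. -/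
theorem gpRed_mul_of_mem {a b : FN N} (ha1 : a ∈ helper882.gpRing A N)
    (ha2 : a ∈ helper882.gpRingW A N W) (hb1 : b ∈ helper882.gpRing A N)
    (hb2 : b ∈ helper882.gpRingW A N W) :
    helper882.gpRed A N W (a * b) = helper882.gpRed A N W a * helper882.gpRed A N W b := by
  refine Prod.ext (helper882.gpRho_mul A N ha1 hb1) ?_
  show helper882.gpRho A N (W (a * b)) = helper882.gpRho A N (W a) * helper882.gpRho A N (W b)
  rw [map_mul]
  exact helper882.gpRho_mul A N ha2 hb2

theorem gpRed_one_eq : helper882.gpRed A N W 1 = 1 := by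
  refine Prod.ext (helper882.gpRho_one A N) ?_
  show helper882.gpRho A N (W 1) = 1
  rw [map_one]
  exact helper882.gpRho_one A N

theorem gpRed_pow_of_mem {a : FN N} (ha1 : a ∈ helper882.gpRing A N)
    (ha2 : a ∈ helper882.gpRingW A N W) (n : ℕ) :
    helper882.gpRed A N W (a ^ n) = helper882.gpRed A N W a ^ n := by
  induction n with
  | zero => rw [pow_zero, pow_zero, gpRed_one_eq]
  | succ n ih =>
    rw [pow_succ, pow_succ, gpRed_mul_of_mem A W (pow_mem ha1 n) (pow_mem ha2 n) ha1 ha2, ih]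

/-- **`hBA`**: if `f` lies in the chart ring of `x⁻¹` then `x ^ n * f` lies in the chart ring of
`x` for some `n`, and its reduction is `red x ^ n * red f`. -/
theorem chartElt_pow_mul {x f : FN N}
    {rx r : LaurentSeries (IsLocalRing.ResidueField A) × LaurentSeries (IsLocalRing.ResidueField A)}
    (hx0 : x ≠ 0) (hx : ChartElt A N W x x rx) (hf : ChartElt A N W x⁻¹ f r) :
    ∃ n : ℕ, ChartElt A N W x (x ^ n * f) (rx ^ n * r) := by
  obtain ⟨n, hn⟩ := exists_pow_mul_isIntegral (K := Kbar) hx0 hf.2.2.1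
  refine ⟨n, mul_mem (pow_mem hx.1 n) hf.1, mul_mem (pow_mem hx.2.1 n) hf.2.1, hn, ?_⟩
  rw [gpRed_mul_of_mem A W (pow_mem hx.1 n) (pow_mem hx.2.1 n) hf.1 hf.2.1,
    gpRed_pow_of_mem A W hx.1 hx.2.1, hx.2.2.2, hf.2.2.2]

/-- **`hAB`**: if `f` lies in the chart ring of `x` then `x⁻¹ ^ n * f` lies in the chart ring of
`x⁻¹` for some `n`, and its reduction is `red x⁻¹ ^ n * red f`. -/
theorem chartElt_inv_pow_mul {x f : FN N}
    {rxi r : LaurentSeries (IsLocalRing.ResidueField A) × LaurentSeries (IsLocalRing.ResidueField A)}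
    (hx0 : x ≠ 0) (hxi : ChartElt A N W x⁻¹ x⁻¹ rxi) (hf : ChartElt A N W x f r) :
    ∃ n : ℕ, ChartElt A N W x⁻¹ (x⁻¹ ^ n * f) (rxi ^ n * r) := by
  have hf' : ChartElt A N W x⁻¹⁻¹ f r := by rw [inv_inv]; exact hf
  exact chartElt_pow_mul A W (inv_ne_zero hx0) hxi hf'

end ChangeChart

end

end Fermat.Agent.S35.helper4640
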