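/-
S35/S34 (helper4640): THE UNIT `g = x ^ q / W x` OF THE `t_r`-CHARTS in the exact binder shape of
`helper6174.node_rr_package_of_unit` (`g hg0 hgv hgA hgB hredg`), at the literal level `q * M`,
`W := helper1219.atkinLehnerBar q M h'`, `v := helper882.gpVal A (q * M) W`,
`red := helper882.gpRed A (q * M) W`, `jj := helper1928.fibreIncl k M`, `k := ResidueField A`.

* `unit_binders_of_chartElt` : a chart element `g` of the chart `x` whose inverse is a chart
  element of the chart `x⁻¹` has `v i g = 1` for both `i`, lies in `helper825.chartAlg ℚ̄ x`, and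
  its inverse lies in `helper825.chartAlg ℚ̄ x⁻¹`  (generic in `x`, `g`);
* `unit_t2`, `unit_t3` : for `x = t_r` (`r ∣ M`, `q ≠ r`) and `g = x ^ q / W x`:
  `g ≠ 0`, `∀ i, v i g = 1`, `g ∈ chartAlg ℚ̄ x`, `g⁻¹ ∈ chartAlg ℚ̄ x⁻¹`,
  `red g = jj (1, x₁ ^ (q ^ 2 - 1))` with `x₁ := helper6381.t_rF k M _ hNk`;
* `chartElt_fibreIncl`, `mem_chartAlg_of_chartElt` : the two dictionary steps on their own.
-/
import Mathlib
import Fermat.Agent.S35.helper4640_ChartElts
import Fermat.Agent.S35.helper7984_ChartPoints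
import Fermat.Agent.S35.helper825_NodePlaces

set_option autoImplicit false

open ModularCurve HahnSeries

namespace Fermat.Agent.S35.helper4640

open Fermat.Agent.S18.helper8991 Fermat.Agent.S24.helper24 Fermat.Agent.S35.helper1219
  Fermat.Agent.S18.helper1257 Fermat.Agent.S18.helper6381

noncomputable section

section UnitElt

variable (A : ValuationSubring Kbar) (N : ℕ) (W : FN N ≃ₐ[Kbar] FN N)

/-- A chart element of the chart `x` is regular wherever `x` is
(`helper825.chartAlg` form of the integrality clause). -/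
theorem mem_chartAlg_of_chartElt {x f : FN N}
    {r : LaurentSeries (IsLocalRing.ResidueField A) × LaurentSeries (IsLocalRing.ResidueField A)}
    (hf : ChartElt A N W x f r) : f ∈ Fermat.Agent.S35.helper825.chartAlg Kbar x :=
  fun v hv => Fermat.Agent.S35.helper7984.adicValuation_le_one_of_isIntegral v hv hf.2.2.1

/-- A chart element lies in the common unit ball of the two Gauss valuations. -/
theorem gpVal_le_one_of_chartElt {x f : FN N}
    {r : LaurentSeries (IsLocalRing.ResidueField A) × LaurentSeries (IsLocalRing.ResidueField A)}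
    (hf : ChartElt A N W x f r) : ∀ i, helper882.gpVal A N W i f ≤ 1 :=
  (helper882.gpVal_le_one_iff A N W f).mpr ⟨hf.1, hf.2.1⟩

/-- **The unit binders** `hgv`, `hgA`, `hgB` of `helper6174.node_rr_package_of_unit` /
`unit_package` from a chart element of the chart `x` whose inverse is a chart element of the
chart `x⁻¹`. -/
theorem unit_binders_of_chartElt {x g : FN N}
    {r s : LaurentSeries (IsLocalRing.ResidueField A) × LaurentSeries (IsLocalRing.ResidueField A)}
    (hg0 : g ≠ 0) (hg : ChartElt A N W x g r) (hgi : ChartElt A N W x⁻¹ g⁻¹ s) :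
    (∀ i, helper882.gpVal A N W i g = 1) ∧
      g ∈ Fermat.Agent.S35.helper825.chartAlg Kbar x ∧
      g⁻¹ ∈ Fermat.Agent.S35.helper825.chartAlg Kbar x⁻¹ := by
  refine ⟨fun i => ?_, mem_chartAlg_of_chartElt A N W hg, mem_chartAlg_of_chartElt A N W hgi⟩
  have h1 := gpVal_le_one_of_chartElt A N W hg i
  have h2 := gpVal_le_one_of_chartElt A N W hgi i
  have h0 : helper882.gpVal A N W i g ≠ 0 := (Valuation.ne_zero_iff _).mpr hg0
  rw [map_inv₀, inv_le_one₀ (zero_lt_iff.mpr h0)] at h2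
  exact le_antisymm h1 h2

end UnitElt

section Fibre

variable (q M : ℕ) [NeZero q] [NeZero M] (h' : Nat.Coprime q M) (A : ValuationSubring Kbar)

/-- The pair reduction of a chart element in `fibreIncl` form. -/
theorem chartElt_fibreIncl {x f : FN (q * M)}
    {r₁ r₂ : LaurentSeries (IsLocalRing.ResidueField A)}
    (hf : ChartElt A (q * M) (atkinLehnerBar q M h') x f (r₁, r₂))
    (y₁ y₂ : ↥(modularFunctionFieldFullC (IsLocalRing.ResidueField A) M))
    (h₁ : (y₁ : LaurentSeries (IsLocalRing.ResidueField A)) = r₁)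
    (h₂ : (y₂ : LaurentSeries (IsLocalRing.ResidueField A)) = r₂) :
    helper882.gpRed A (q * M) (atkinLehnerBar q M h') f
      = helper1928.fibreIncl (IsLocalRing.ResidueField A) M (y₁, y₂) := by
  rw [hf.2.2.2, helper1928.fibreIncl_apply, h₁, h₂]

/-- **The unit of the `t₂`-charts in the binder shape of `helper6174.node_rr_package_of_unit`**
(`hg0`, `hgv`, `hgA`, `hgB`, `hredg` for `g = x ^ q / W x`, `x = t₂`). -/
theorem unit_t2 (hq : q.Prime) (hq2 : q ≠ 2) (hA : A.LiesOverPrime q) (h2 : 2 ∣ M)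
    (hNk : ∀ p : ℕ, p.Prime → p ∣ M → (p : IsLocalRing.ResidueField A) ≠ 0) :
    t2L Kbar (q * M) (h2.mul_left q) ^ q
        / atkinLehnerBar q M h' (t2L Kbar (q * M) (h2.mul_left q)) ≠ 0 ∧
    (∀ i, helper882.gpVal A (q * M) (atkinLehnerBar q M h') i
      (t2L Kbar (q * M) (h2.mul_left q) ^ q
        / atkinLehnerBar q M h' (t2L Kbar (q * M) (h2.mul_left q))) = 1) ∧
    t2L Kbar (q * M) (h2.mul_left q) ^ q
        / atkinLehnerBar q M h' (t2L Kbar (q * M) (h2.mul_left q))
      ∈ Fermat.Agent.S35.helper825.chartAlg Kbar (t2L Kbar (q * M) (h2.mul_left q)) ∧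
    (t2L Kbar (q * M) (h2.mul_left q) ^ q
        / atkinLehnerBar q M h' (t2L Kbar (q * M) (h2.mul_left q)))⁻¹
      ∈ Fermat.Agent.S35.helper825.chartAlg Kbar (t2L Kbar (q * M) (h2.mul_left q))⁻¹ ∧
    helper882.gpRed A (q * M) (atkinLehnerBar q M h')
        (t2L Kbar (q * M) (h2.mul_left q) ^ q
          / atkinLehnerBar q M h' (t2L Kbar (q * M) (h2.mul_left q)))
      = helper1928.fibreIncl (IsLocalRing.ResidueField A) M
          (1, t2F (IsLocalRing.ResidueField A) M h2 hNk ^ (q ^ 2 - 1)) := by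
  obtain ⟨⟨-, -, hg, -⟩, -, -, hgi, -⟩ := chartElts_t2 q M h' A hq hq2 hA h2
  have hx0 : t2L Kbar (q * M) (h2.mul_left q) ≠ 0 :=
    base_ne_zero (q * M) t2Z_mul_hauptInv2Z (coe_t2L_eq Kbar (q * M) _)
  have hg0 : t2L Kbar (q * M) (h2.mul_left q) ^ q
      / atkinLehnerBar q M h' (t2L Kbar (q * M) (h2.mul_left q)) ≠ 0 :=
    div_ne_zero (pow_ne_zero q hx0)
      ((map_ne_zero_iff _ (atkinLehnerBar q M h').injective).mpr hx0)
  rw [← inv_div] at hgi
  obtain ⟨hv, hgA, hgB⟩ := unit_binders_of_chartElt A (q * M) (atkinLehnerBar q M h') hg0 hg hgi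
  refine ⟨hg0, hv, hgA, hgB, chartElt_fibreIncl q M h' A hg _ _ ?_ ?_⟩
  · rfl
  · rw [IntermediateField.coe_pow]
    rfl

/-- **The unit of the `t₃`-charts in the binder shape of `helper6174.node_rr_package_of_unit`**
(`hg0`, `hgv`, `hgA`, `hgB`, `hredg` for `g = x ^ q / W x`, `x = t₃`). -/
theorem unit_t3 (hq : q.Prime) (hq3 : q ≠ 3) (hA : A.LiesOverPrime q) (h3 : 3 ∣ M)
    (hNk : ∀ p : ℕ, p.Prime → p ∣ M → (p : IsLocalRing.ResidueField A) ≠ 0) :
    t3L Kbar (q * M) (h3.mul_left q) ^ q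
        / atkinLehnerBar q M h' (t3L Kbar (q * M) (h3.mul_left q)) ≠ 0 ∧
    (∀ i, helper882.gpVal A (q * M) (atkinLehnerBar q M h') i
      (t3L Kbar (q * M) (h3.mul_left q) ^ q
        / atkinLehnerBar q M h' (t3L Kbar (q * M) (h3.mul_left q))) = 1) ∧
    t3L Kbar (q * M) (h3.mul_left q) ^ q
        / atkinLehnerBar q M h' (t3L Kbar (q * M) (h3.mul_left q))
      ∈ Fermat.Agent.S35.helper825.chartAlg Kbar (t3L Kbar (q * M) (h3.mul_left q)) ∧
    (t3L Kbar (q * M) (h3.mul_left q) ^ q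
        / atkinLehnerBar q M h' (t3L Kbar (q * M) (h3.mul_left q)))⁻¹
      ∈ Fermat.Agent.S35.helper825.chartAlg Kbar (t3L Kbar (q * M) (h3.mul_left q))⁻¹ ∧
    helper882.gpRed A (q * M) (atkinLehnerBar q M h')
        (t3L Kbar (q * M) (h3.mul_left q) ^ q
          / atkinLehnerBar q M h' (t3L Kbar (q * M) (h3.mul_left q)))
      = helper1928.fibreIncl (IsLocalRing.ResidueField A) M
          (1, t3F (IsLocalRing.ResidueField A) M h3 hNk ^ (q ^ 2 - 1)) := by
  obtain ⟨⟨-, -, hg, -⟩, -, -, hgi, -⟩ := chartElts_t3 q M h' A hq hq3 hA h3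
  have hx0 : t3L Kbar (q * M) (h3.mul_left q) ≠ 0 :=
    base_ne_zero (q * M) t3Z_mul_hauptInv3Z (coe_t3L_eq Kbar (q * M) _)
  have hg0 : t3L Kbar (q * M) (h3.mul_left q) ^ q
      / atkinLehnerBar q M h' (t3L Kbar (q * M) (h3.mul_left q)) ≠ 0 :=
    div_ne_zero (pow_ne_zero q hx0)
      ((map_ne_zero_iff _ (atkinLehnerBar q M h').injective).mpr hx0)
  rw [← inv_div] at hgi
  obtain ⟨hv, hgA, hgB⟩ := unit_binders_of_chartElt A (q * M) (atkinLehnerBar q M h') hg0 hg hgi
  refine ⟨hg0, hv, hgA, hgB, chartElt_fibreIncl q M h' A hg _ _ ?_ ?_⟩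
  · rfl
  · rw [IntermediateField.coe_pow]
    rfl

end Fibre

end

end Fermat.Agent.S35.helper4640
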