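/-
S35/S34-SQUEEZE, GaussPair vocabulary (helper4658; addendum to board #2189).

The squeeze of `helper4658_Squeeze.lean` restated with the carriers of `helper882_GaussPair`
(`gpRing A N`, `gpRho A N`), in the binder shape (H1) announced by the KRON-INST owner
(helper2736, team_s35_chat #268):

  `∀ u : F_k, IsIntegral (Algebra.adjoin k {tb}) u →
      ∃ y : F̄_N, y ∈ gpRing A N ∧ IsIntegral (Algebra.adjoin ℚ̄ {t}) y ∧ gpRho A N y = ↑u`

for any base line `t` with `helper2030.LineData` (unconditional on the Hauptmodul lines `t_2`,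
`t_3`), any `tb : F_k` whose expansion is `gpRho A N t`, and the twin for the chart `t⁻¹`.
Also the converse (`hred`): reductions of chart-integral Gauss-integral functions are integral over
`k[tb]`.
-/
import Fermat.Agent.S35.helper4658_Squeeze
import Fermat.Agent.S35.helper882_GaussPair

set_option autoImplicit false
set_option synthInstance.maxHeartbeats 400000

noncomputable section

namespace Fermat.Agent.S35.helper4658

open ModularCurve AlgebraicCurve IntermediateField Module
open Fermat.Agent.S18 Fermat.Agent.S18.helper2030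

local notation "Qb" => AlgebraicClosure ℚ

section GP

variable (N : ℕ) [NeZero N] (ℓ : ℕ) [Fact ℓ.Prime] (hℓN : ¬ ℓ ∣ N)
  (A : ValuationSubring (AlgebraicClosure ℚ)) (hA : A.LiesOverPrime ℓ)

include hℓN hA in
/-- `gpRing` is the S18 Gauss ring `gaussO` (`ℓ ∤ N`). -/
theorem mem_gpRing_iff (f : modularFunctionFieldBar N) :
    f ∈ helper882.gpRing A N ↔ f ∈ gaussO N ℓ hℓN A hA := by
  rw [← gaussF_eq_gaussO N ℓ hℓN A hA]

/-- `gpRho` is the S18 reduction `gaussRed` on the Gauss ring. -/
theorem gpRho_eq_gaussRed (f : modularFunctionFieldBar N) (hf : f ∈ gaussO N ℓ hℓN A hA) :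
    helper882.gpRho A N f =
      ((gaussRed N ℓ hℓN A hA ⟨f, hf⟩ :
        modularFunctionFieldFullC (IsLocalRing.ResidueField A) N) :
          LaurentSeries (IsLocalRing.ResidueField A)) := by
  have hf' : f ∈ helper882.gpRing A N := (mem_gpRing_iff N ℓ hℓN A hA f).mpr hf
  rw [helper882.gpRho_of_mem A N hf']
  exact gaussFRed_eq_gaussRed N ℓ hℓN A hA f hf hf'

/-- An element of `F_k` with the expansion `gpRho A N x` is the reduction `gaussRed x`. -/
theorem eq_gaussRed_of_coe_eq_gpRho {x : modularFunctionFieldBar N}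
    (hx : x ∈ gaussO N ℓ hℓN A hA)
    (tb : modularFunctionFieldFullC (IsLocalRing.ResidueField A) N)
    (htb : (tb : LaurentSeries (IsLocalRing.ResidueField A)) = helper882.gpRho A N x) :
    tb = gaussRed N ℓ hℓN A hA ⟨x, hx⟩ :=
  Subtype.ext (htb.trans (gpRho_eq_gaussRed N ℓ hℓN A hA x hx))

/-- **(H1), chart `x`, GaussPair vocabulary.**  Every `u ∈ F_k` integral over `k[tb]`
(`tb` = the reduction of the base line `x`) is `gpRho` of a Gauss-integral function integral over
`ℚ̄[x]`. -/
theorem exists_gp_lift (hcart : Stmt_Cart N ℓ hℓN A hA) {x : modularFunctionFieldBar N}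
    (hL : LineData N ℓ hℓN A hA x)
    (tb : modularFunctionFieldFullC (IsLocalRing.ResidueField A) N)
    (htb : (tb : LaurentSeries (IsLocalRing.ResidueField A)) = helper882.gpRho A N x) :
    ∀ u : modularFunctionFieldFullC (IsLocalRing.ResidueField A) N,
      IsIntegral (Algebra.adjoin (IsLocalRing.ResidueField A) {tb}) u →
      ∃ y : modularFunctionFieldBar N, y ∈ helper882.gpRing A N ∧
        IsIntegral (Algebra.adjoin Qb {x}) y ∧
        helper882.gpRho A N y = (u : LaurentSeries (IsLocalRing.ResidueField A)) := by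
  intro u hu
  obtain rfl := eq_gaussRed_of_coe_eq_gpRho N ℓ hℓN A hA hL.hx tb htb
  obtain ⟨f, hf, hfint, hfred⟩ := exists_lift_of_isIntegral N ℓ hℓN A hA hcart hL u hu
  refine ⟨f, (mem_gpRing_iff N ℓ hℓN A hA f).mpr hf, hfint, ?_⟩
  rw [gpRho_eq_gaussRed N ℓ hℓN A hA f hf, hfred]

/-- **(H1), chart `x⁻¹`, GaussPair vocabulary.** -/
theorem exists_gp_lift_inv (hcart : Stmt_Cart N ℓ hℓN A hA) {x : modularFunctionFieldBar N}
    (hL : LineData N ℓ hℓN A hA x)
    (tb : modularFunctionFieldFullC (IsLocalRing.ResidueField A) N)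
    (htb : (tb : LaurentSeries (IsLocalRing.ResidueField A)) = helper882.gpRho A N x) :
    ∀ u : modularFunctionFieldFullC (IsLocalRing.ResidueField A) N,
      IsIntegral (Algebra.adjoin (IsLocalRing.ResidueField A) {tb⁻¹}) u →
      ∃ y : modularFunctionFieldBar N, y ∈ helper882.gpRing A N ∧
        IsIntegral (Algebra.adjoin Qb {x⁻¹}) y ∧
        helper882.gpRho A N y = (u : LaurentSeries (IsLocalRing.ResidueField A)) := by
  intro u hu
  obtain rfl := eq_gaussRed_of_coe_eq_gpRho N ℓ hℓN A hA hL.hx tb htb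
  obtain ⟨f, hf, hfint, hfred⟩ := exists_lift_of_isIntegral_inv N ℓ hℓN A hA hcart hL u hu
  refine ⟨f, (mem_gpRing_iff N ℓ hℓN A hA f).mpr hf, hfint, ?_⟩
  rw [gpRho_eq_gaussRed N ℓ hℓN A hA f hf, hfred]

/-- **(`hred`), chart `x`, GaussPair vocabulary.**  The reduction of a Gauss-integral function
integral over `ℚ̄[x]` is (the expansion of) an element of `F_k` integral over `k[tb]`. -/
theorem exists_isIntegral_eq_gpRho {x : modularFunctionFieldBar N}
    (hL : LineData N ℓ hℓN A hA x)
    (tb : modularFunctionFieldFullC (IsLocalRing.ResidueField A) N)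
    (htb : (tb : LaurentSeries (IsLocalRing.ResidueField A)) = helper882.gpRho A N x)
    (y : modularFunctionFieldBar N) (hy : y ∈ helper882.gpRing A N)
    (hyint : IsIntegral (Algebra.adjoin Qb {x}) y) :
    ∃ u : modularFunctionFieldFullC (IsLocalRing.ResidueField A) N,
      IsIntegral (Algebra.adjoin (IsLocalRing.ResidueField A) {tb}) u ∧
        (u : LaurentSeries (IsLocalRing.ResidueField A)) = helper882.gpRho A N y := by
  obtain rfl := eq_gaussRed_of_coe_eq_gpRho N ℓ hℓN A hA hL.hx tb htb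
  have hyO : y ∈ gaussO N ℓ hℓN A hA := (mem_gpRing_iff N ℓ hℓN A hA y).mp hy
  exact ⟨gaussRed N ℓ hℓN A hA ⟨y, hyO⟩, hL.hIT y hyO hyint,
    (gpRho_eq_gaussRed N ℓ hℓN A hA y hyO).symm⟩

/-- **(`hred`), chart `x⁻¹`, GaussPair vocabulary.** -/
theorem exists_isIntegral_inv_eq_gpRho {x : modularFunctionFieldBar N}
    (hL : LineData N ℓ hℓN A hA x)
    (tb : modularFunctionFieldFullC (IsLocalRing.ResidueField A) N)
    (htb : (tb : LaurentSeries (IsLocalRing.ResidueField A)) = helper882.gpRho A N x)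
    (y : modularFunctionFieldBar N) (hy : y ∈ helper882.gpRing A N)
    (hyint : IsIntegral (Algebra.adjoin Qb {x⁻¹}) y) :
    ∃ u : modularFunctionFieldFullC (IsLocalRing.ResidueField A) N,
      IsIntegral (Algebra.adjoin (IsLocalRing.ResidueField A) {tb⁻¹}) u ∧
        (u : LaurentSeries (IsLocalRing.ResidueField A)) = helper882.gpRho A N y := by
  obtain rfl := eq_gaussRed_of_coe_eq_gpRho N ℓ hℓN A hA hL.hx tb htb
  have hyO : y ∈ gaussO N ℓ hℓN A hA := (mem_gpRing_iff N ℓ hℓN A hA y).mp hy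
  exact ⟨gaussRed N ℓ hℓN A hA ⟨y, hyO⟩, hL.hIT' y hyO hyint,
    (gpRho_eq_gaussRed N ℓ hℓN A hA y hyO).symm⟩

/-! ### The Hauptmodul lines, unconditional -/

include hℓN hA in
/-- The expansion of the reduction of `t_2` in GaussPair vocabulary. -/
theorem gpRho_gaussT2 (h2N : 2 ∣ N) :
    helper882.gpRho A N (helper4665.gaussT2 Qb N h2N) =
      helper4665.zSeries helper1257.t2Z (IsLocalRing.ResidueField A) := by
  rw [gpRho_eq_gaussRed N ℓ hℓN A hA _ (helper4665.gaussT2_mem N ℓ hℓN A hA h2N)]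
  exact coe_t2Bar N ℓ hℓN A hA h2N

include hℓN hA in
/-- The expansion of the reduction of `t_3` in GaussPair vocabulary. -/
theorem gpRho_gaussT3 (h3N : 3 ∣ N) :
    helper882.gpRho A N (helper4665.gaussT3 Qb N h3N) =
      helper4665.zSeries helper1257.t3Z (IsLocalRing.ResidueField A) := by
  rw [gpRho_eq_gaussRed N ℓ hℓN A hA _ (helper4665.gaussT3_mem N ℓ hℓN A hA h3N)]
  exact coe_t3Bar N ℓ hℓN A hA h3N

include hℓN hA in
/-- **(H1) on the `t_2`-line, chart `t_2`, unconditional** (`2 ∣ N`, `ℓ ∤ N`): `tb` any element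
of `F_k` with the expansion of `t_2` over `k`. -/
theorem exists_gp_lift_t2 (h2N : 2 ∣ N)
    (tb : modularFunctionFieldFullC (IsLocalRing.ResidueField A) N)
    (htb : (tb : LaurentSeries (IsLocalRing.ResidueField A)) =
      helper4665.zSeries helper1257.t2Z (IsLocalRing.ResidueField A)) :
    ∀ u : modularFunctionFieldFullC (IsLocalRing.ResidueField A) N,
      IsIntegral (Algebra.adjoin (IsLocalRing.ResidueField A) {tb}) u →
      ∃ y : modularFunctionFieldBar N, y ∈ helper882.gpRing A N ∧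
        IsIntegral (Algebra.adjoin Qb {helper4665.gaussT2 Qb N h2N}) y ∧
        helper882.gpRho A N y = (u : LaurentSeries (IsLocalRing.ResidueField A)) :=
  exists_gp_lift N ℓ hℓN A hA (helper789.stmt_Cart_gauss N ℓ hℓN A hA)
    (helper789.lineData_t2 N ℓ hℓN A hA h2N) tb
    (htb.trans (gpRho_gaussT2 N ℓ hℓN A hA h2N).symm)

include hℓN hA in
/-- **(H1) on the `t_2`-line, chart `t_2⁻¹`, unconditional.** -/
theorem exists_gp_lift_t2_inv (h2N : 2 ∣ N)
    (tb : modularFunctionFieldFullC (IsLocalRing.ResidueField A) N)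
    (htb : (tb : LaurentSeries (IsLocalRing.ResidueField A)) =
      helper4665.zSeries helper1257.t2Z (IsLocalRing.ResidueField A)) :
    ∀ u : modularFunctionFieldFullC (IsLocalRing.ResidueField A) N,
      IsIntegral (Algebra.adjoin (IsLocalRing.ResidueField A) {tb⁻¹}) u →
      ∃ y : modularFunctionFieldBar N, y ∈ helper882.gpRing A N ∧
        IsIntegral (Algebra.adjoin Qb {(helper4665.gaussT2 Qb N h2N)⁻¹}) y ∧
        helper882.gpRho A N y = (u : LaurentSeries (IsLocalRing.ResidueField A)) :=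
  exists_gp_lift_inv N ℓ hℓN A hA (helper789.stmt_Cart_gauss N ℓ hℓN A hA)
    (helper789.lineData_t2 N ℓ hℓN A hA h2N) tb
    (htb.trans (gpRho_gaussT2 N ℓ hℓN A hA h2N).symm)

include hℓN hA in
/-- **(H1) on the `t_3`-line, chart `t_3`, unconditional** (`3 ∣ N`, `ℓ ∤ N`). -/
theorem exists_gp_lift_t3 (h3N : 3 ∣ N)
    (tb : modularFunctionFieldFullC (IsLocalRing.ResidueField A) N)
    (htb : (tb : LaurentSeries (IsLocalRing.ResidueField A)) =
      helper4665.zSeries helper1257.t3Z (IsLocalRing.ResidueField A)) :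
    ∀ u : modularFunctionFieldFullC (IsLocalRing.ResidueField A) N,
      IsIntegral (Algebra.adjoin (IsLocalRing.ResidueField A) {tb}) u →
      ∃ y : modularFunctionFieldBar N, y ∈ helper882.gpRing A N ∧
        IsIntegral (Algebra.adjoin Qb {helper4665.gaussT3 Qb N h3N}) y ∧
        helper882.gpRho A N y = (u : LaurentSeries (IsLocalRing.ResidueField A)) :=
  exists_gp_lift N ℓ hℓN A hA (helper789.stmt_Cart_gauss N ℓ hℓN A hA)
    (helper789.lineData_t3 N ℓ hℓN A hA h3N) tb
    (htb.trans (gpRho_gaussT3 N ℓ hℓN A hA h3N).symm)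

include hℓN hA in
/-- **(H1) on the `t_3`-line, chart `t_3⁻¹`, unconditional.** -/
theorem exists_gp_lift_t3_inv (h3N : 3 ∣ N)
    (tb : modularFunctionFieldFullC (IsLocalRing.ResidueField A) N)
    (htb : (tb : LaurentSeries (IsLocalRing.ResidueField A)) =
      helper4665.zSeries helper1257.t3Z (IsLocalRing.ResidueField A)) :
    ∀ u : modularFunctionFieldFullC (IsLocalRing.ResidueField A) N,
      IsIntegral (Algebra.adjoin (IsLocalRing.ResidueField A) {tb⁻¹}) u →
      ∃ y : modularFunctionFieldBar N, y ∈ helper882.gpRing A N ∧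
        IsIntegral (Algebra.adjoin Qb {(helper4665.gaussT3 Qb N h3N)⁻¹}) y ∧
        helper882.gpRho A N y = (u : LaurentSeries (IsLocalRing.ResidueField A)) :=
  exists_gp_lift_inv N ℓ hℓN A hA (helper789.stmt_Cart_gauss N ℓ hℓN A hA)
    (helper789.lineData_t3 N ℓ hℓN A hA h3N) tb
    (htb.trans (gpRho_gaussT3 N ℓ hℓN A hA h3N).symm)

include hℓN hA in
/-- (`hred`) on the `t_2`-line, both charts, unconditional. -/
theorem exists_isIntegral_eq_gpRho_t2 (h2N : 2 ∣ N)
    (tb : modularFunctionFieldFullC (IsLocalRing.ResidueField A) N)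
    (htb : (tb : LaurentSeries (IsLocalRing.ResidueField A)) =
      helper4665.zSeries helper1257.t2Z (IsLocalRing.ResidueField A))
    (y : modularFunctionFieldBar N) (hy : y ∈ helper882.gpRing A N) :
    (IsIntegral (Algebra.adjoin Qb {helper4665.gaussT2 Qb N h2N}) y →
      ∃ u : modularFunctionFieldFullC (IsLocalRing.ResidueField A) N,
        IsIntegral (Algebra.adjoin (IsLocalRing.ResidueField A) {tb}) u ∧
          (u : LaurentSeries (IsLocalRing.ResidueField A)) = helper882.gpRho A N y) ∧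
    (IsIntegral (Algebra.adjoin Qb {(helper4665.gaussT2 Qb N h2N)⁻¹}) y →
      ∃ u : modularFunctionFieldFullC (IsLocalRing.ResidueField A) N,
        IsIntegral (Algebra.adjoin (IsLocalRing.ResidueField A) {tb⁻¹}) u ∧
          (u : LaurentSeries (IsLocalRing.ResidueField A)) = helper882.gpRho A N y) :=
  ⟨exists_isIntegral_eq_gpRho N ℓ hℓN A hA (helper789.lineData_t2 N ℓ hℓN A hA h2N) tb
      (htb.trans (gpRho_gaussT2 N ℓ hℓN A hA h2N).symm) y hy,
    exists_isIntegral_inv_eq_gpRho N ℓ hℓN A hA (helper789.lineData_t2 N ℓ hℓN A hA h2N) tb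
      (htb.trans (gpRho_gaussT2 N ℓ hℓN A hA h2N).symm) y hy⟩

include hℓN hA in
/-- (`hred`) on the `t_3`-line, both charts, unconditional. -/
theorem exists_isIntegral_eq_gpRho_t3 (h3N : 3 ∣ N)
    (tb : modularFunctionFieldFullC (IsLocalRing.ResidueField A) N)
    (htb : (tb : LaurentSeries (IsLocalRing.ResidueField A)) =
      helper4665.zSeries helper1257.t3Z (IsLocalRing.ResidueField A))
    (y : modularFunctionFieldBar N) (hy : y ∈ helper882.gpRing A N) :
    (IsIntegral (Algebra.adjoin Qb {helper4665.gaussT3 Qb N h3N}) y →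
      ∃ u : modularFunctionFieldFullC (IsLocalRing.ResidueField A) N,
        IsIntegral (Algebra.adjoin (IsLocalRing.ResidueField A) {tb}) u ∧
          (u : LaurentSeries (IsLocalRing.ResidueField A)) = helper882.gpRho A N y) ∧
    (IsIntegral (Algebra.adjoin Qb {(helper4665.gaussT3 Qb N h3N)⁻¹}) y →
      ∃ u : modularFunctionFieldFullC (IsLocalRing.ResidueField A) N,
        IsIntegral (Algebra.adjoin (IsLocalRing.ResidueField A) {tb⁻¹}) u ∧
          (u : LaurentSeries (IsLocalRing.ResidueField A)) = helper882.gpRho A N y) :=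
  ⟨exists_isIntegral_eq_gpRho N ℓ hℓN A hA (helper789.lineData_t3 N ℓ hℓN A hA h3N) tb
      (htb.trans (gpRho_gaussT3 N ℓ hℓN A hA h3N).symm) y hy,
    exists_isIntegral_inv_eq_gpRho N ℓ hℓN A hA (helper789.lineData_t3 N ℓ hℓN A hA h3N) tb
      (htb.trans (gpRho_gaussT3 N ℓ hℓN A hA h3N).symm) y hy⟩

end GP

end Fermat.Agent.S35.helper4658
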