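import Fermat.Agent.S24.helper182_MerPackage
import Fermat.Agent.S29.helper2982_MultHeckeMer
import Fermat.Agent.S37.helper9343_BetaDegree
import Fermat.Agent.S37.helper5162_HeckeInputsModular
import Fermat.Agent.S35.helper1219_AtkinLehnerFF
import Fermat.Agent.S29.helper288_FinTorsion
import Fermat.Agent.S29.helper2122_MerBridge

/-!
# S35-EUW (helper835): analytic forms of `U_q` (`q ∣ M`) and `W_q` on the function field

`Kbar = ℚ̄`, `FN M` = function field of `X₀(M)` over `ℚ̄` (Prelude `modularFunctionFieldBar M`),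
`Mer` = meromorphic functions on the upper half plane (`Fermat.Agent.S24.helper182`),
`pullGLMer α` = composition with `τ ↦ α • τ` (`Fermat.Agent.S29.helper2982`).

* `norm_eq_prod_of_injective` (Mathlib only): for a finite separable extension `L / K` and an
  injective family of `K`-embeddings of `L` into ANY field with at least `[L : K]` members, the
  norm is the product of the family.
* `IsStdEv κ M E`: `E : FN M →+* Mer` is a *standard realisation* (constants through `κ`,
  `j(t^d) ↦ j(d τ)`); such an `E` is unique, and `isStdEv_evMer` gives the landed one.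
* `ev_norm_beta` **(E-U)**: for a prime `q ∣ M` and `u : FN M`, with the algebra structure
  `algebraAlong (heckeBetaBar Kbar M q)` (`t ↦ t^q`),
  `E (Norm (heckeAlphaBar Kbar M q u)) = cpMer (corrU M q) (E u) = ∏_{j mod q} (E u)((τ + j) / q)`.
  Embedding route: the `q` maps `pullGLMer (τ ↦ τ + j/q) ∘ E_{Mq}` are pairwise distinct embeddings
  over `β (FN M)` and `[FN (M q) : β (FN M)] ≤ q`.
* `finrankAlong_heckeBetaBar_of_dvd`: `[FN (M q) : β (FN M)] = q` for a prime `q ∣ M`.
* `ev_atkinLehner` **(E-W)**: `E (W a) = pullGLMer (γ * diag(q, 1)) (E a)` for the landed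
  Atkin–Lehner automorphism `W = helper1219.atkinLehnerBar q M h`, `γ = helper1219.alGamma q M h`.
-/

set_option autoImplicit false
set_option linter.style.haveILetI false

open UpperHalfPlane CongruenceSubgroup ModularCurve AlgebraicCurve Matrix.SpecialLinearGroup
open Filter Topology
open scoped MatrixGroups Manifold

namespace Fermat.Agent.S35.helper835

open Fermat.Agent.S24 Fermat.Agent.S24.helper24 Fermat.Agent.S24.helper182
open Fermat.Agent.S16.helper2138 Fermat.Agent.S29.helper2982 Fermat.Agent.S29.helper3343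
open ModularForm (heckeMatrix heckeDiagMatrix det_heckeMatrix_pos det_heckeDiagMatrix_pos
  coe_heckeMatrix_smul coe_heckeDiagMatrix_smul)

noncomputable section

/-! ## (A) The norm as a product over an injective family of embeddings -/

section AbstractNorm

variable {K L Ω : Type*} [Field K] [Field L] [Field Ω] [Algebra K L] [Algebra K Ω]

/-- If `L / K` is finite separable and `σ : J → (L →ₐ[K] Ω)` is an injective family of
`K`-embeddings into ANY field `Ω` with at least `[L : K]` members, then the norm is the product of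
the `σ j`. -/
theorem norm_eq_prod_of_injective [FiniteDimensional K L] [Algebra.IsSeparable K L]
    {J : Type*} [Fintype J] (σ : J → (L →ₐ[K] Ω)) (hσ : Function.Injective σ)
    (hcard : Module.finrank K L ≤ Fintype.card J) (x : L) :
    algebraMap K Ω (Algebra.norm K x) = ∏ j, σ j x := by
  classical
  let Ω' := AlgebraicClosure Ω
  let ι : Ω →ₐ[K] Ω' := IsScalarTower.toAlgHom K Ω Ω'
  have hι : Function.Injective ι := (algebraMap Ω Ω').injective
  let σ' : J → (L →ₐ[K] Ω') := fun j => ι.comp (σ j)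
  have hσ' : Function.Injective σ' := by
    intro i j hij
    apply hσ
    ext y
    apply hι
    exact congrArg (fun f : L →ₐ[K] Ω' => f y) hij
  have hc : Fintype.card (L →ₐ[K] Ω') = Module.finrank K L := AlgHom.card K L Ω'
  have hbij : Function.Bijective σ' := by
    rw [Fintype.bijective_iff_injective_and_card]
    refine ⟨hσ', le_antisymm (Fintype.card_le_of_injective σ' hσ') ?_⟩
    rw [hc]
    exact hcard
  have h1 : algebraMap K Ω' (Algebra.norm K x) = ∏ τ : L →ₐ[K] Ω', τ x :=
    Algebra.norm_eq_prod_embeddings K Ω' x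
  have h2 : ∏ τ : L →ₐ[K] Ω', τ x = ∏ j, σ' j x :=
    (Fintype.prod_bijective σ' hbij (fun j => σ' j x) (fun τ => τ x) (fun _ => rfl)).symm
  apply hι
  rw [map_prod]
  have h3 : ι (algebraMap K Ω (Algebra.norm K x)) = algebraMap K Ω' (Algebra.norm K x) :=
    ι.commutes _
  rw [h3, h1, h2]
  rfl

/-- In the situation of `norm_eq_prod_of_injective` the degree is the number of embeddings. -/
theorem finrank_eq_card_of_injective [FiniteDimensional K L] [Algebra.IsSeparable K L]
    {J : Type*} [Fintype J] (σ : J → (L →ₐ[K] Ω)) (hσ : Function.Injective σ)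
    (hcard : Module.finrank K L ≤ Fintype.card J) :
    Module.finrank K L = Fintype.card J := by
  classical
  let Ω' := AlgebraicClosure Ω
  let ι : Ω →ₐ[K] Ω' := IsScalarTower.toAlgHom K Ω Ω'
  have hι : Function.Injective ι := (algebraMap Ω Ω').injective
  let σ' : J → (L →ₐ[K] Ω') := fun j => ι.comp (σ j)
  have hσ' : Function.Injective σ' := by
    intro i j hij
    apply hσ
    ext y
    apply hι
    exact congrArg (fun f : L →ₐ[K] Ω' => f y) hij
  have hc : Fintype.card (L →ₐ[K] Ω') = Module.finrank K L := AlgHom.card K L Ω'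
  refine le_antisymm hcard ?_
  rw [← hc]
  exact Fintype.card_le_of_injective σ' hσ'

end AbstractNorm

/-! ## (B) Pull-backs along `GL₂(ℝ)⁺` on `Mer`: composition and dependence on the action -/

section PullGL

theorem det_mul_pos {a b : GL (Fin 2) ℝ} (ha : 0 < a.det.val) (hb : 0 < b.det.val) :
    0 < (a * b).det.val := by
  rw [map_mul, Units.val_mul]
  exact mul_pos ha hb

/-- `pullGLHol` depends only on the action on `ℍ`. -/
theorem pullGLHol_eq_of_smul_eq {a b : GL (Fin 2) ℝ} (ha : 0 < a.det.val) (hb : 0 < b.det.val)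
    (h : ∀ τ : ℍ, a • τ = b • τ) (f : Hol) : pullGLHol a ha f = pullGLHol b hb f := by
  apply Subtype.ext
  funext τ
  show f.1 (a • τ) = f.1 (b • τ)
  rw [h τ]

/-- `pullGLMer` depends only on the action on `ℍ`. -/
theorem pullGLMer_eq_of_smul_eq {a b : GL (Fin 2) ℝ} (ha : 0 < a.det.val) (hb : 0 < b.det.val)
    (h : ∀ τ : ℍ, a • τ = b • τ) (z : Mer) : pullGLMer a ha z = pullGLMer b hb z := by
  obtain ⟨x, y, -, rfl⟩ := exists_div_eq z
  simp only [map_div₀, pullGLMer_algebraMap, pullGLHol_eq_of_smul_eq ha hb h]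

/-- A matrix acting trivially on `ℍ` acts trivially on `Mer`. -/
theorem pullGLMer_eq_self_of_smul_eq {a : GL (Fin 2) ℝ} (ha : 0 < a.det.val)
    (h : ∀ τ : ℍ, a • τ = τ) (z : Mer) : pullGLMer a ha z = z := by
  obtain ⟨x, y, -, rfl⟩ := exists_div_eq z
  have hx : ∀ f : Hol, pullGLHol a ha f = f := fun f =>
    Subtype.ext (funext fun τ => by
      show f.1 (a • τ) = f.1 τ
      rw [h τ])
  simp only [map_div₀, pullGLMer_algebraMap, hx]

/-- `pullGLMer a ∘ pullGLMer b = pullGLMer (b * a)`. -/
theorem pullGLMer_pullGLMer {a b : GL (Fin 2) ℝ} (ha : 0 < a.det.val) (hb : 0 < b.det.val)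
    (z : Mer) :
    pullGLMer a ha (pullGLMer b hb z) = pullGLMer (b * a) (det_mul_pos hb ha) z := by
  obtain ⟨x, y, -, rfl⟩ := exists_div_eq z
  have hx : ∀ f : Hol, pullGLHol a ha (pullGLHol b hb f)
      = pullGLHol (b * a) (det_mul_pos hb ha) f := fun f =>
    Subtype.ext (funext fun τ => by
      show f.1 (b • (a • τ)) = f.1 ((b * a) • τ)
      rw [mul_smul])
  simp only [map_div₀, pullGLMer_algebraMap, hx]

/-- The translation `τ ↦ τ + j / q` as an element of `GL₂(ℝ)⁺`: `!![1, j; 0, q] * !![q, 0; 0, 1]`. -/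
def transGL (q j : ℕ) : GL (Fin 2) ℝ := heckeMatrix q j * heckeDiagMatrix q

theorem transGL_det_pos (q j : ℕ) : 0 < (transGL q j).det.val :=
  det_mul_pos (det_heckeMatrix_pos q j) (det_heckeDiagMatrix_pos q)

theorem coe_transGL_smul {q : ℕ} (hq : q ≠ 0) (j : ℕ) (τ : ℍ) :
    ((transGL q j • τ : ℍ) : ℂ) = (τ : ℂ) + (j : ℂ) / q := by
  rw [transGL, mul_smul, coe_heckeMatrix_smul hq, coe_heckeDiagMatrix_smul hq]
  have hq' : (q : ℂ) ≠ 0 := Nat.cast_ne_zero.mpr hq
  field_simp

theorem im_transGL_smul {q : ℕ} (hq : q ≠ 0) (j : ℕ) (τ : ℍ) :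
    (transGL q j • τ : ℍ).im = τ.im := by
  rw [← UpperHalfPlane.coe_im, coe_transGL_smul hq, Complex.add_im, UpperHalfPlane.coe_im]
  have h : ((j : ℂ) / (q : ℂ)).im = 0 := by
    rw [show (j : ℂ) / (q : ℂ) = (((j : ℝ) / (q : ℝ) : ℝ) : ℂ) by push_cast; rfl]
    exact Complex.ofReal_im _
  rw [h, add_zero]

/-- `q (τ + j/q) = T^j (q τ)`. -/
theorem heckeDiag_smul_transGL_smul {q : ℕ} (hq : q ≠ 0) (j : ℕ) (τ : ℍ) :
    heckeDiagMatrix q • (transGL q j • τ) = ModularGroup.T ^ (j : ℤ) • (heckeDiagMatrix q • τ) := by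
  apply UpperHalfPlane.ext
  rw [coe_heckeDiagMatrix_smul hq, coe_transGL_smul hq, UpperHalfPlane.modular_T_zpow_smul,
    UpperHalfPlane.coe_vadd, coe_heckeDiagMatrix_smul hq]
  have hq' : (q : ℂ) ≠ 0 := Nat.cast_ne_zero.mpr hq
  push_cast
  field_simp
  ring

/-- `(τ / q) + j / q = (τ + j) / q`. -/
theorem transGL_smul_heckeMatrix_zero_smul {q : ℕ} (hq : q ≠ 0) (j : ℕ) (τ : ℍ) :
    transGL q j • (heckeMatrix q 0 • τ) = heckeMatrix q j • τ := by
  apply UpperHalfPlane.ext
  rw [coe_transGL_smul hq, coe_heckeMatrix_smul hq, coe_heckeMatrix_smul hq]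
  push_cast
  ring

/-- `q (τ / q) = τ`. -/
theorem heckeDiag_smul_heckeMatrix_zero_smul {q : ℕ} (hq : q ≠ 0) (τ : ℍ) :
    heckeDiagMatrix q • (heckeMatrix q 0 • τ) = τ := by
  apply UpperHalfPlane.ext
  rw [coe_heckeDiagMatrix_smul hq, coe_heckeMatrix_smul hq]
  have hq' : (q : ℂ) ≠ 0 := Nat.cast_ne_zero.mpr hq
  push_cast
  field_simp
  ring

end PullGL

/-! ## (B') Separation of the translates of `j` -/

section Separation

local notation "𝕢" => Function.Periodic.qParam

theorem tendsto_transGL_atImInfty {q : ℕ} (hq : q ≠ 0) (j : ℕ) :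
    Tendsto (fun τ : ℍ => transGL q j • τ) atImInfty atImInfty := by
  rw [atImInfty, tendsto_comap_iff]
  have h : (UpperHalfPlane.im ∘ fun τ : ℍ => transGL q j • τ) = UpperHalfPlane.im := by
    funext τ
    exact im_transGL_smul hq j τ
  rw [h]
  exact tendsto_comap

theorem qParam_transGL_smul {q : ℕ} (hq : q ≠ 0) (j : ℕ) (τ : ℍ) :
    𝕢 1 ((transGL q j • τ : ℍ) : ℂ)
      = 𝕢 1 (τ : ℂ) * Complex.exp (2 * Real.pi * Complex.I * ((j : ℂ) / q)) := by
  rw [coe_transGL_smul hq, Function.Periodic.qParam, Function.Periodic.qParam, ← Complex.exp_add]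
  congr 1
  push_cast
  ring

/-- `j(τ + a/q) = j(τ + b/q)` for all `τ` (`a, b < q`) forces `a = b`. -/
theorem eq_of_jFun_transGL_eq {q : ℕ} (hq : q ≠ 0) {a b : ℕ} (ha : a < q) (hb : b < q)
    (h : ∀ τ : ℍ, jFun (transGL q a • τ) = jFun (transGL q b • τ)) : a = b := by
  have hlim : ∀ j : ℕ, Tendsto (fun τ : ℍ => jFun (transGL q j • τ)
      * 𝕢 1 ((transGL q j • τ : ℍ) : ℂ)) atImInfty (𝓝 1) := fun j =>
    helper288.tendsto_J_mul_q.comp (tendsto_transGL_atImInfty hq j)
  set ca : ℂ := Complex.exp (2 * Real.pi * Complex.I * ((a : ℂ) / q)) with hca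
  set cb : ℂ := Complex.exp (2 * Real.pi * Complex.I * ((b : ℂ) / q)) with hcb
  -- `f_a * c_b = f_b * c_a`
  have h1 : Tendsto (fun τ : ℍ => jFun (transGL q a • τ) * 𝕢 1 ((transGL q a • τ : ℍ) : ℂ) * cb)
      atImInfty (𝓝 (1 * cb)) := (hlim a).mul_const cb
  have h2 : Tendsto (fun τ : ℍ => jFun (transGL q b • τ) * 𝕢 1 ((transGL q b • τ : ℍ) : ℂ) * ca)
      atImInfty (𝓝 (1 * ca)) := (hlim b).mul_const ca
  have h3 : (fun τ : ℍ => jFun (transGL q a • τ) * 𝕢 1 ((transGL q a • τ : ℍ) : ℂ) * cb)
      = fun τ : ℍ => jFun (transGL q b • τ) * 𝕢 1 ((transGL q b • τ : ℍ) : ℂ) * ca := by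
    funext τ
    rw [qParam_transGL_smul hq, qParam_transGL_smul hq, h τ]
    ring
  rw [h3] at h1
  have h4 : (1 : ℂ) * cb = 1 * ca := tendsto_nhds_unique h1 h2
  rw [one_mul, one_mul, hca, hcb, Complex.exp_eq_exp_iff_exists_int] at h4
  obtain ⟨n, hn⟩ := h4
  have hq' : (q : ℂ) ≠ 0 := Nat.cast_ne_zero.mpr hq
  have hpi : (2 * (Real.pi : ℂ) * Complex.I) ≠ 0 := by
    refine mul_ne_zero (mul_ne_zero two_ne_zero ?_) Complex.I_ne_zero
    exact_mod_cast Real.pi_ne_zero
  have h5 : (b : ℂ) = (a : ℂ) + (n : ℂ) * q := by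
    have h6 : 2 * (Real.pi : ℂ) * Complex.I * ((b : ℂ) / q)
        = 2 * (Real.pi : ℂ) * Complex.I * ((a : ℂ) / q + n) := by
      rw [hn]
      ring
    have h7 := mul_left_cancel₀ hpi h6
    field_simp at h7
    linear_combination h7
  have h8 : (b : ℤ) = (a : ℤ) + n * q := by exact_mod_cast h5
  have hn0 : n = 0 := by
    by_contra hne
    rcases lt_or_gt_of_ne hne with hneg | hpos
    · have : n ≤ -1 := by omega
      have hq0 : (0 : ℤ) < q := by exact_mod_cast Nat.pos_of_ne_zero hq
      have ha' : (a : ℤ) < q := by exact_mod_cast ha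
      have hb' : (0 : ℤ) ≤ b := Int.natCast_nonneg b
      nlinarith
    · have : 1 ≤ n := by omega
      have hq0 : (0 : ℤ) < q := by exact_mod_cast Nat.pos_of_ne_zero hq
      have hb' : (b : ℤ) < q := by exact_mod_cast hb
      have ha' : (0 : ℤ) ≤ a := Int.natCast_nonneg a
      nlinarith
  rw [hn0, zero_mul, add_zero] at h8
  exact_mod_cast h8.symm

end Separation

/-! ## (C) Standard realisations of the function field in `Mer` -/

/-- The holomorphic function `τ ↦ j(d τ)`. -/
def JdHol (d : ℕ) [NeZero d] : Hol :=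
  ⟨fun τ : ℍ => jFun (helper1944.mulPt d τ), helper1944.mdiff_jFun_mulPt (NeZero.pos d)⟩

theorem JdHol_apply (d : ℕ) [NeZero d] (τ : ℍ) :
    (JdHol d).1 τ = jFun (helper1944.mulPt d τ) := rfl

/-- `E : FN M →+* Mer` is a *standard realisation*: constants go to constants through `κ` and the
generator `j(t^d)` (`d ∣ M`) goes to the function `τ ↦ j(d τ)`. -/
structure IsStdEv (κ : Kbar →+* ℂ) (M : ℕ) (E : FN M →+* Mer) : Prop where
  const : ∀ c : Kbar, E (algebraMap Kbar (FN M) c) = constM (κ c)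
  gen : ∀ (d : ℕ) [NeZero d] (hd : d ∣ M), E (jBarD M d hd) = algebraMap Hol Mer (JdHol d)

/-- A standard realisation is unique. -/
theorem IsStdEv.unique {κ : Kbar →+* ℂ} {M : ℕ} {E E' : FN M →+* Mer} (h : IsStdEv κ M E)
    (h' : IsStdEv κ M E') : E = E' :=
  helper3176.ringHom_ext_of_gen M (fun c => by rw [h.const, h'.const])
    (fun d _ hd => by rw [h.gen, h'.gen])

/-- The landed evaluation `helper182.evAlg`, extended to the function field. -/
def evMer (M : ℕ) : FN M →+* Mer :=
  IsFractionRing.lift (g := (algebraMap Hol Mer).comp (evHol M))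
    (by
      rw [RingHom.coe_comp]
      exact (IsFractionRing.injective Hol Mer).comp (evHol_injective M))

theorem evMer_coe (M : ℕ) (a : helper3176.AN M) :
    evMer M (a : FN M) = algebraMap Hol Mer (evHol M a) :=
  IsFractionRing.lift_algebraMap _ a

/-- The landed evaluation is a standard realisation (with `κ = helper1944.kappa`). -/
theorem isStdEv_evMer (M : ℕ) : IsStdEv helper1944.kappa M (evMer M) where
  const c := by
    have h1 : algebraMap Kbar (FN M) c
        = ((algebraMap Kbar (helper3176.AN M) c : helper3176.AN M) : FN M) := rfl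
    rw [h1, evMer_coe, evHol_algebraMap]
    rfl
  gen d _ hd := by
    have h1 := evMer_coe M ⟨jBarD M d hd, helper3176.jBarD_mem_AN M d hd⟩
    refine h1.trans (congrArg (algebraMap Hol Mer) ?_)
    exact Subtype.ext (helper1944.evFun_jBarD M d hd)

section Levels

variable {κ : Kbar →+* ℂ} {M q : ℕ} [NeZero M] [NeZero q] {EM : FN M →+* Mer}
  {EMq : FN (M * q) →+* Mer}

theorem heckeAlphaBar_jBarD (d : ℕ) [NeZero d] (hd : d ∣ M) :
    heckeAlphaBar Kbar M q (jBarD M d hd) = jBarD (M * q) d (hd.mul_right q) := by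
  apply Subtype.ext
  rw [coe_heckeAlphaBar]
  rfl

omit [NeZero M] in
theorem heckeBetaBar_jBarD (d : ℕ) [NeZero d] (hd : d ∣ M) :
    heckeBetaBar Kbar M q (jBarD M d hd)
      = jBarD (M * q) (q * d) (by rw [mul_comm M q]; exact Nat.mul_dvd_mul_left q hd) := by
  apply Subtype.ext
  rw [coe_heckeBetaBar]
  show qExpand Kbar q (jSeries d) = jSeries (q * d)
  rw [jSeries, jSeries, helper3176.coeffEmb_qExpand, helper3176.coeffEmb_qExpand,
    qExpand_qExpand]

/-- (R1) `E_{Mq} ∘ α = E_M`. -/
theorem IsStdEv.comp_alpha (hM : IsStdEv κ M EM) (hMq : IsStdEv κ (M * q) EMq) :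
    EMq.comp (heckeAlphaBar Kbar M q : FN M →+* FN (M * q)) = EM := by
  refine helper3176.ringHom_ext_of_gen M (fun c => ?_) (fun d _ hd => ?_)
  · show EMq (heckeAlphaBar Kbar M q (algebraMap Kbar (FN M) c)) = _
    rw [AlgHom.commutes, hMq.const, hM.const]
  · show EMq (heckeAlphaBar Kbar M q (jBarD M d hd)) = _
    rw [heckeAlphaBar_jBarD, hMq.gen, hM.gen]

theorem IsStdEv.alpha_apply (hM : IsStdEv κ M EM) (hMq : IsStdEv κ (M * q) EMq) (f : FN M) :
    EMq (heckeAlphaBar Kbar M q f) = EM f :=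
  congrArg (fun φ : FN M →+* Mer => φ f) (hM.comp_alpha hMq)

omit [NeZero M] in
/-- (R2) `E_{Mq} (β f) (τ) = E_M f (q τ)`. -/
theorem IsStdEv.comp_beta (hM : IsStdEv κ M EM) (hMq : IsStdEv κ (M * q) EMq) :
    EMq.comp (heckeBetaBar Kbar M q : FN M →+* FN (M * q))
      = (pullGLMer (heckeDiagMatrix q) (det_heckeDiagMatrix_pos q)).comp EM := by
  refine helper3176.ringHom_ext_of_gen M (fun c => ?_) (fun d _ hd => ?_)
  · show EMq (heckeBetaBar Kbar M q (algebraMap Kbar (FN M) c))
      = pullGLMer _ _ (EM (algebraMap Kbar (FN M) c))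
    rw [AlgHom.commutes, hMq.const, hM.const, pullGLMer_constM]
  · show EMq (heckeBetaBar Kbar M q (jBarD M d hd)) = pullGLMer _ _ (EM (jBarD M d hd))
    rw [heckeBetaBar_jBarD, hMq.gen, hM.gen, pullGLMer_algebraMap]
    refine congrArg (algebraMap Hol Mer) (Subtype.ext (funext fun τ => ?_))
    show jFun (helper1944.mulPt (q * d) τ) = jFun (helper1944.mulPt d (heckeDiagMatrix q • τ))
    refine congrArg jFun ?_
    apply UpperHalfPlane.ext
    rw [helper1944.coe_mulPt (NeZero.pos _), helper1944.coe_mulPt (NeZero.pos _),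
      coe_heckeDiagMatrix_smul (NeZero.ne q)]
    push_cast
    ring

omit [NeZero M] in
theorem IsStdEv.beta_apply (hM : IsStdEv κ M EM) (hMq : IsStdEv κ (M * q) EMq) (f : FN M) :
    EMq (heckeBetaBar Kbar M q f)
      = pullGLMer (heckeDiagMatrix q) (det_heckeDiagMatrix_pos q) (EM f) :=
  congrArg (fun φ : FN M →+* Mer => φ f) (hM.comp_beta hMq)

omit [NeZero M] [NeZero q] in
/-- (R3) a standard realisation consists of `Γ₀(M)`-invariant functions. -/
theorem IsStdEv.pullMer_eq (hM : IsStdEv κ M EM) {γ : SL(2, ℤ)} (hγ : γ ∈ Gamma0 M) (f : FN M) :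
    pullMer γ (EM f) = EM f := by
  have key : ((pullMer γ : Mer ≃+* Mer) : Mer →+* Mer).comp EM = EM := by
    refine helper3176.ringHom_ext_of_gen M (fun c => ?_) (fun d _ hd => ?_)
    · show pullMer γ (EM (algebraMap Kbar (FN M) c)) = _
      rw [hM.const, pullMer_constM]
    · show pullMer γ (EM (jBarD M d hd)) = _
      rw [hM.gen, pullMer_algebraMap]
      refine congrArg (algebraMap Hol Mer) (Subtype.ext (funext fun τ => ?_))
      exact helper1944.jFun_mulPt_smul_of_mem_Gamma0 (NeZero.pos d) hd γ hγ τ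
  exact congrArg (fun φ : FN M →+* Mer => φ f) key

end Levels

/-! ## (D) The analytic form of the norm along `β` at `q ∣ M` -/

theorem corrU_det_pos (M q : ℕ) [NeZero q] (hqM : q ∣ M) (j : ZMod q) :
    0 < ((corrU M q hqM).α j).det.val := by
  rw [corrU_α]
  exact det_heckeMatrix_pos q j.val

section Main

variable {κ : Kbar →+* ℂ} {M q : ℕ} [NeZero M] [NeZero q] {EM : FN M →+* Mer}
  {EMq : FN (M * q) →+* Mer}

/-- The `j`-th conjugate of the realisation of level `M q`: `f ↦ (E f)(τ + j / q)`. -/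
def conjEmb (EMq : FN (M * q) →+* Mer) (j : ZMod q) : FN (M * q) →+* Mer :=
  (pullGLMer (transGL q j.val) (transGL_det_pos q j.val)).comp EMq

omit [NeZero M] [NeZero q] in
theorem conjEmb_apply (EMq : FN (M * q) →+* Mer) (j : ZMod q) (x : FN (M * q)) :
    conjEmb EMq j x = pullGLMer (transGL q j.val) (transGL_det_pos q j.val) (EMq x) := rfl

/-- The conjugates agree on `β (FN M)`. -/
theorem conjEmb_beta (hM : IsStdEv κ M EM) (hMq : IsStdEv κ (M * q) EMq) (j : ZMod q)
    (f : FN M) :
    conjEmb EMq j (heckeBetaBar Kbar M q f)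
      = pullGLMer (heckeDiagMatrix q) (det_heckeDiagMatrix_pos q) (EM f) := by
  rw [conjEmb_apply, hM.beta_apply hMq, pullGLMer_pullGLMer]
  have h3 : pullGLMer (heckeDiagMatrix q) (det_heckeDiagMatrix_pos q) (EM f)
      = pullGLMer (heckeDiagMatrix q) (det_heckeDiagMatrix_pos q)
          (pullMer (ModularGroup.T ^ (j.val : ℤ)) (EM f)) := by
    rw [hM.pullMer_eq (T_zpow_mem_Gamma0 M _)]
  rw [h3, pullGLMer_pullMer _ _ _ (det_mapGL_mul_pos (det_heckeDiagMatrix_pos q) _)]
  refine pullGLMer_eq_of_smul_eq _ _ (fun τ => ?_) _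
  rw [mul_smul, mul_smul]
  exact heckeDiag_smul_transGL_smul (NeZero.ne q) j.val τ

/-- The conjugates are pairwise distinct (already on `α j`). -/
theorem conjEmb_injective (hM : IsStdEv κ M EM) (hMq : IsStdEv κ (M * q) EMq) {a b : ZMod q}
    (h : conjEmb EMq a (heckeAlphaBar Kbar M q (jBar M))
      = conjEmb EMq b (heckeAlphaBar Kbar M q (jBar M))) : a = b := by
  have h2 : EMq (heckeAlphaBar Kbar M q (jBar M)) = algebraMap Hol Mer (JdHol 1) :=
    (hM.alpha_apply hMq (jBar M)).trans (hM.gen 1 (one_dvd M))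
  rw [conjEmb_apply, conjEmb_apply, h2, pullGLMer_algebraMap, pullGLMer_algebraMap] at h
  have h3 := IsFractionRing.injective Hol Mer h
  have h4 : ∀ τ : ℍ, jFun (transGL q a.val • τ) = jFun (transGL q b.val • τ) := fun τ => by
    have h5 := congrFun (congrArg Subtype.val h3) τ
    simp only [pullGLHol_apply, JdHol_apply, helper1944.mulPt_one] at h5
    exact h5
  exact ZMod.val_injective q
    (eq_of_jFun_transGL_eq (NeZero.ne q) (ZMod.val_lt a) (ZMod.val_lt b) h4)

/-- `[FN (M q) : β (FN M)] ≤ q` for a prime `q ∣ M`. -/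
theorem finrankAlong_heckeBetaBar_le (hq : q.Prime) (hqM : q ∣ M) :
    finrankAlong Kbar (heckeBetaBar Kbar M q) ≤ q := by
  have h1 := Fermat.Agent.S37.helper9343.finrankAlong_prime_mul_le q hq M
  rw [Fermat.Agent.Lib.helper1356.dedekindPsi_mul_prime_of_dvd hq (NeZero.ne M) hqM] at h1
  exact Nat.le_of_mul_le_mul_right h1
    (Fermat.Agent.S37.helper6887.dedekindPsi_pos (NeZero.ne M))

/-- **(E-U): the analytic form of the norm along `β` at a prime `q ∣ M`.**
With the algebra structure `FN M → FN (M q)` given by `β : t ↦ t^q`, the realisation of the norm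
of `α u` is the coset product of `U_q`: `∏_{j mod q} (E u)((τ + j) / q)`. -/
theorem ev_norm_beta (hq : q.Prime) (hqM : q ∣ M) (hM : IsStdEv κ M EM)
    (hMq : IsStdEv κ (M * q) EMq) (u : FN M) :
    letI := algebraAlong (heckeBetaBar Kbar M q)
    EM (Algebra.norm (FN M) (heckeAlphaBar Kbar M q u))
      = cpMer (corrU M q hqM) (corrU_det_pos M q hqM) (EM u) := by
  letI algL : Algebra (FN M) (FN (M * q)) := algebraAlong (heckeBetaBar Kbar M q)
  letI algΩ : Algebra (FN M) Mer :=
    ((pullGLMer (heckeDiagMatrix q) (det_heckeDiagMatrix_pos q)).comp EM).toAlgebra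
  haveI : FiniteDimensional (FN M) (FN (M * q)) :=
    Fermat.Agent.S37.helper5162.finiteAlong_heckeBetaBar M q
  haveI : Algebra.IsSeparable (FN M) (FN (M * q)) := inferInstance
  let σ : ZMod q → (FN (M * q) →ₐ[FN M] Mer) := fun j =>
    { conjEmb EMq j with commutes' := fun f => conjEmb_beta hM hMq j f }
  have hσ : Function.Injective σ := by
    intro a b hab
    exact conjEmb_injective hM hMq
      (congrArg (fun f : FN (M * q) →ₐ[FN M] Mer => f (heckeAlphaBar Kbar M q (jBar M))) hab)
  have hcard : Module.finrank (FN M) (FN (M * q)) ≤ Fintype.card (ZMod q) := by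
    rw [ZMod.card]
    exact finrankAlong_heckeBetaBar_le hq hqM
  have hnorm := norm_eq_prod_of_injective σ hσ hcard (heckeAlphaBar Kbar M q u)
  have hL : algebraMap (FN M) Mer (Algebra.norm (FN M) (heckeAlphaBar Kbar M q u))
      = pullGLMer (heckeDiagMatrix q) (det_heckeDiagMatrix_pos q)
          (EM (Algebra.norm (FN M) (heckeAlphaBar Kbar M q u))) := rfl
  have hR : ∀ j : ZMod q, σ j (heckeAlphaBar Kbar M q u)
      = pullGLMer (transGL q j.val) (transGL_det_pos q j.val) (EM u) := fun j => by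
    show conjEmb EMq j (heckeAlphaBar Kbar M q u) = _
    rw [conjEmb_apply, hM.alpha_apply hMq]
  rw [hL, Finset.prod_congr rfl (fun j _ => hR j)] at hnorm
  have h5 := congrArg (pullGLMer (heckeMatrix q 0) (det_heckeMatrix_pos q 0)) hnorm
  rw [pullGLMer_pullGLMer, map_prod,
    pullGLMer_eq_self_of_smul_eq _ (fun τ => by
      rw [mul_smul]
      exact heckeDiag_smul_heckeMatrix_zero_smul (NeZero.ne q) τ)] at h5
  rw [cpMer_apply, h5]
  refine Finset.prod_congr rfl fun j _ => ?_
  rw [pullGLMer_pullGLMer]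
  refine pullGLMer_eq_of_smul_eq _ _ (fun τ => ?_) _
  rw [mul_smul, corrU_α]
  exact transGL_smul_heckeMatrix_zero_smul (NeZero.ne q) j.val τ

/-- `[FN (M q) : β (FN M)] = q` for a prime `q ∣ M`. -/
theorem finrankAlong_heckeBetaBar_of_dvd (hq : q.Prime) (hqM : q ∣ M) :
    finrankAlong Kbar (heckeBetaBar Kbar M q) = q := by
  letI algL : Algebra (FN M) (FN (M * q)) := algebraAlong (heckeBetaBar Kbar M q)
  letI algΩ : Algebra (FN M) Mer :=
    ((pullGLMer (heckeDiagMatrix q) (det_heckeDiagMatrix_pos q)).comp (evMer M)).toAlgebra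
  haveI : FiniteDimensional (FN M) (FN (M * q)) :=
    Fermat.Agent.S37.helper5162.finiteAlong_heckeBetaBar M q
  haveI : Algebra.IsSeparable (FN M) (FN (M * q)) := inferInstance
  have hM := isStdEv_evMer M
  have hMq := isStdEv_evMer (M * q)
  let σ : ZMod q → (FN (M * q) →ₐ[FN M] Mer) := fun j =>
    { conjEmb (evMer (M * q)) j with commutes' := fun f => conjEmb_beta hM hMq j f }
  have hσ : Function.Injective σ := by
    intro a b hab
    exact conjEmb_injective hM hMq
      (congrArg (fun f : FN (M * q) →ₐ[FN M] Mer => f (heckeAlphaBar Kbar M q (jBar M))) hab)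
  have hcard : Module.finrank (FN M) (FN (M * q)) ≤ Fintype.card (ZMod q) := by
    rw [ZMod.card]
    exact finrankAlong_heckeBetaBar_le hq hqM
  have h := finrank_eq_card_of_injective σ hσ hcard
  rw [ZMod.card] at h
  exact h

end Main

/-- (E-U) for the landed evaluation. -/
theorem evMer_norm_beta {M q : ℕ} [NeZero M] [NeZero q] (hq : q.Prime) (hqM : q ∣ M)
    (u : FN M) :
    letI := algebraAlong (heckeBetaBar Kbar M q)
    evMer M (Algebra.norm (FN M) (heckeAlphaBar Kbar M q u))
      = cpMer (corrU M q hqM) (corrU_det_pos M q hqM) (evMer M u) :=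
  ev_norm_beta hq hqM (isStdEv_evMer M) (isStdEv_evMer (M * q)) u

/-! ## (E) The landed evaluation `helper288.evMer` (the one of `S31.helper2756.MultMer`) -/

section Helper288

open Fermat.Agent.S29.helper2122

/-- The landed evaluation `S29.helper288.evMer` (values in `S24.helper580.Mer`), transported to
`S24.helper182.Mer` by `S29.helper2122.merEquiv`. -/
def evMer' (M : ℕ) : FN M →+* Mer :=
  (merEquiv.symm : helper580.Mer →+* Mer).comp (Fermat.Agent.S29.helper288.evMer M)

theorem evMer'_apply (M : ℕ) (f : FN M) :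
    evMer' M f = merEquiv.symm (Fermat.Agent.S29.helper288.evMer M f) := rfl

/-- `merEquiv.symm ∘ helper288.evMer` is a standard realisation (with `κ = helper6180.i0`). -/
theorem isStdEv_evMer' (M : ℕ) : IsStdEv helper6180.i0 M (evMer' M) where
  const c := by
    have h1 : algebraMap Kbar (FN M) c
        = ((algebraMap Kbar (helper3176.AN M) c : helper3176.AN M) : FN M) := rfl
    rw [evMer'_apply, h1, Fermat.Agent.S29.helper288.evMer_coe, merEquiv_symm_algebraMap]
    refine congrArg (algebraMap Hol Mer) (Subtype.ext ?_)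
    exact helper6180.ev_algebraMap M c
  gen d _ hd := by
    have h1 := Fermat.Agent.S29.helper288.evMer_coe M
      ⟨jBarD M d hd, helper3176.jBarD_mem_AN M d hd⟩
    have h2 : evMer' M (jBarD M d hd) = merEquiv.symm (Fermat.Agent.S29.helper288.evMer M
        ((⟨jBarD M d hd, helper3176.jBarD_mem_AN M d hd⟩ : helper3176.AN M) : FN M)) := rfl
    rw [h2, h1, merEquiv_symm_algebraMap]
    refine congrArg (algebraMap Hol Mer) (Subtype.ext ?_)
    exact helper6180.ev_jBarD M d hd

/-- **(E-U) in the shape of `S31.helper2756.NormMer`** (the `U_q`-twin of NORMQ (A)): for a prime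
`q ∣ M`, the evaluation of `uNorm u = Norm_{F_{Mq} / β F_M} (α u)` is the coset product of `U_q`
of the evaluation of `u`. -/
theorem evMer288_normAlong (M q : ℕ) [NeZero M] [NeZero q] (hq : q.Prime) (hqM : q ∣ M)
    (u : FN M) :
    merEquiv.symm (Fermat.Agent.S29.helper288.evMer M
        (Fermat.Agent.S29.helper8217.normAlong (heckeBetaBar Kbar M q)
          (heckeAlphaBar Kbar M q u)))
      = cpMer (corrU M q hqM) (corrU_det_pos M q hqM)
          (merEquiv.symm (Fermat.Agent.S29.helper288.evMer M u)) :=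
  ev_norm_beta hq hqM (isStdEv_evMer' M) (isStdEv_evMer' (M * q)) u

end Helper288

/-! ## (F) The analytic form of the Atkin–Lehner automorphism in `Mer` -/

section AtkinLehner

variable {κ : Kbar →+* ℂ} (q M : ℕ) [NeZero q] [NeZero M] (h : Nat.Coprime q M)

/-- **(E-W)**: for a standard realisation `E` of level `q M` (`q`, `M` coprime) and any
`w ∈ GL₂(ℝ)⁺` acting as `τ ↦ γ (q τ)`, `γ = helper1219.alGamma q M h` (bottom row `(M, q)`), the
landed Atkin–Lehner automorphism is realised by the pull-back along `w`. -/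
theorem ev_atkinLehner {E : FN (q * M) →+* Mer} (hE : IsStdEv κ (q * M) E)
    (w : GL (Fin 2) ℝ) (hw : 0 < w.det.val)
    (hact : ∀ τ : ℍ, w • τ
      = Fermat.Agent.S35.helper1219.alGamma q M h • (heckeDiagMatrix q • τ))
    (a : FN (q * M)) :
    E (Fermat.Agent.S35.helper1219.atkinLehnerBar q M h a) = pullGLMer w hw (E a) := by
  have key : E.comp ((Fermat.Agent.S35.helper1219.atkinLehnerBar q M h :
      FN (q * M) →ₐ[Kbar] FN (q * M)) : FN (q * M) →+* FN (q * M))
      = (pullGLMer w hw).comp E := by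
    refine helper3176.ringHom_ext_of_gen (q * M) (fun c => ?_) (fun D _ hD => ?_)
    · show E (Fermat.Agent.S35.helper1219.atkinLehnerBar q M h (algebraMap Kbar (FN (q * M)) c))
        = pullGLMer w hw (E (algebraMap Kbar (FN (q * M)) c))
      rw [AlgEquiv.commutes, hE.const, pullGLMer_constM]
    · show E (Fermat.Agent.S35.helper1219.atkinLehnerBar q M h (jBarD (q * M) D hD))
        = pullGLMer w hw (E (jBarD (q * M) D hD))
      obtain ⟨e, f, d, m, hDe, hq, hM⟩ := Fermat.Agent.S35.helper1219.exists_factor h hD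
      obtain ⟨hne1, hne2⟩ := Fermat.Agent.S35.helper1219.neZero_mul_of_eq hq hM
      have hD' : f * d ∣ q * M := (Fermat.Agent.S35.helper1219.dvd_of_eq hq hM).2
      rw [Fermat.Agent.S35.helper1219.atkinLehnerBar_jBarD_of_eq q M h hD hD' hq hM hDe rfl,
        hE.gen, hE.gen, pullGLMer_algebraMap]
      refine congrArg (algebraMap Hol Mer) (Subtype.ext (funext fun τ => ?_))
      show jFun (helper1944.mulPt (f * d) τ) = jFun (helper1944.mulPt D (w • τ))
      have h1 := Fermat.Agent.S35.helper1219.jd_smul_hpt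
        (Fermat.Agent.S35.helper1219.alGamma q M h)
        (Fermat.Agent.S35.helper1219.alGamma_one_zero q M h)
        (Fermat.Agent.S35.helper1219.alGamma_one_one q M h) hq hM τ
      rw [helper504.jd_apply, helper504.jd_apply] at h1
      have e1 : helper504.hpt (f * d) 0 1 τ = helper1944.mulPt (f * d) τ := by
        apply UpperHalfPlane.ext
        rw [helper504.coe_hpt, helper1944.coe_mulPt (NeZero.pos _)]
        push_cast
        ring
      have e2 : helper504.hpt q 0 1 τ = heckeDiagMatrix q • τ := by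
        apply UpperHalfPlane.ext
        rw [helper504.coe_hpt, coe_heckeDiagMatrix_smul (NeZero.ne q)]
        push_cast
        ring
      have e3 : helper504.hpt (e * d) 0 1
          (Fermat.Agent.S35.helper1219.alGamma q M h • helper504.hpt q 0 1 τ)
          = helper1944.mulPt D (w • τ) := by
        subst hDe
        rw [e2, ← hact τ]
        apply UpperHalfPlane.ext
        rw [helper504.coe_hpt, helper1944.coe_mulPt (NeZero.pos _)]
        push_cast
        ring
      rw [e1, e3] at h1
      exact h1.symm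
  exact congrArg (fun φ : FN (q * M) →+* Mer => φ a) key

/-- The Atkin–Lehner point map `τ ↦ γ (q τ)` as an element of `GL₂(ℝ)⁺`. -/
def alGL : GL (Fin 2) ℝ :=
  mapGL ℝ (Fermat.Agent.S35.helper1219.alGamma q M h) * heckeDiagMatrix q

omit [NeZero q] [NeZero M] in
theorem alGL_det_pos : 0 < (alGL q M h).det.val :=
  det_mapGL_mul_pos (det_heckeDiagMatrix_pos q) _

omit [NeZero q] [NeZero M] in
theorem alGL_smul (τ : ℍ) :
    alGL q M h • τ = Fermat.Agent.S35.helper1219.alGamma q M h • (heckeDiagMatrix q • τ) := by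
  rw [alGL, mul_smul]
  rfl

/-- (E-W) for the matrix `alGL = γ * diag(q, 1)`. -/
theorem ev_atkinLehner_alGL {E : FN (q * M) →+* Mer} (hE : IsStdEv κ (q * M) E)
    (a : FN (q * M)) :
    E (Fermat.Agent.S35.helper1219.atkinLehnerBar q M h a)
      = pullGLMer (alGL q M h) (alGL_det_pos q M h) (E a) :=
  ev_atkinLehner q M h hE _ _ (alGL_smul q M h) a

/-- (E-W) for the landed evaluation `helper288.evMer`, transported to `helper182.Mer`. -/
theorem evMer288_atkinLehner (w : GL (Fin 2) ℝ) (hw : 0 < w.det.val)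
    (hact : ∀ τ : ℍ, w • τ
      = Fermat.Agent.S35.helper1219.alGamma q M h • (heckeDiagMatrix q • τ))
    (a : FN (q * M)) :
    Fermat.Agent.S29.helper2122.merEquiv.symm (Fermat.Agent.S29.helper288.evMer (q * M)
        (Fermat.Agent.S35.helper1219.atkinLehnerBar q M h a))
      = pullGLMer w hw (Fermat.Agent.S29.helper2122.merEquiv.symm
          (Fermat.Agent.S29.helper288.evMer (q * M) a)) :=
  ev_atkinLehner q M h (isStdEv_evMer' (q * M)) w hw hact a

end AtkinLehner

end

end Fermat.Agent.S35.helper835
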