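/-
S35/S34 shared geometry module: the cartesian property of the Gauss pair, level-general form
(helper882, board S35/S34-GAUSSPAIR; wrapper asked for by the canonical vocabulary of the
geometry instance: level `N` with `q ∣ N`, `¬ q ^ 2 ∣ N`, `W := helper1073.atkinLehnerBar`).

* `gp_cartesianW_level` : for `q` prime, `q ∥ N`, `A` above `q`, every finite-dimensional
  `ℚ̄`-subspace of `F_N` is `helper2459.CartesianW` for
  `gpVal A N (helper1073.atkinLehnerBar N q hq hqN hq2)`, weights `1`.
* `gp_exists_basis_level` : the norm form.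
-/
import Mathlib
import Fermat.Agent.S35.helper882_GaussPairCart
import Fermat.Agent.S35.helper1073_AtkinLehnerBridge

set_option autoImplicit false

noncomputable section

namespace Fermat.Agent.S35.helper882

open ModularCurve
open Fermat.Agent.S24.helper24 Fermat.Agent.S18

/-- The landed two constructions of `W_q` at level `q * M` agree as algebra automorphisms. -/
theorem wAL_eq_atkinLehnerBar (q M : ℕ) [Fact q.Prime] [NeZero M] [NeZero (q * M)]
    (hqM : ¬ q ∣ M) (hq : q.Prime) (hq2 : ¬ q ^ 2 ∣ q * M) :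
    helper1928.wAL q M hqM
      = helper1073.atkinLehnerBar (q * M) q hq (dvd_mul_right q M) hq2 := by
  have : NeZero q := ⟨hq.ne_zero⟩
  exact AlgEquiv.ext fun z => helper1073.atkinLehnerBar_eq_helper1219 q M hq _ z

/-- **`hcart`, level-general form.** -/
theorem gp_cartesianW_level (N q : ℕ) [NeZero N] (hq : q.Prime) (hqN : q ∣ N)
    (hq2 : ¬ q ^ 2 ∣ N) (A : ValuationSubring Kbar) (hA : (q : Kbar) ∈ A.nonunits)
    (S : Submodule Kbar (FN N)) [FiniteDimensional Kbar S] :
    helper2459.CartesianW (gpVal A N (helper1073.atkinLehnerBar N q hq hqN hq2))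
      (fun _ => (1 : (gpRing A N).ValueGroup)) (gpBase A N) S := by
  obtain ⟨M, rfl⟩ := hqN
  have hM0 : M ≠ 0 := by
    rintro rfl
    exact NeZero.ne (q * 0) (mul_zero q)
  have : NeZero M := ⟨hM0⟩
  have : Fact q.Prime := ⟨hq⟩
  have hqM : ¬ q ∣ M := fun h => hq2 (by rw [sq]; exact Nat.mul_dvd_mul_left q h)
  rw [← wAL_eq_atkinLehnerBar q M hqM hq hq2]
  exact gp_cartesianW q M hqM A hA S

/-- **Cartesian property, norm form, level-general.** -/
theorem gp_exists_basis_level (N q : ℕ) [NeZero N] (hq : q.Prime) (hqN : q ∣ N)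
    (hq2 : ¬ q ^ 2 ∣ N) (A : ValuationSubring Kbar) (hA : (q : Kbar) ∈ A.nonunits)
    (S : Submodule Kbar (FN N)) [FiniteDimensional Kbar S] :
    ∃ e : Fin (Module.finrank Kbar S) → FN N, (∀ i, e i ∈ S) ∧
      IsOrthoN (gpVal A N (helper1073.atkinLehnerBar N q hq hqN hq2) 0) Kbar
        (maxNorm (gpVal A N (helper1073.atkinLehnerBar N q hq hqN hq2) 0)
          (gpVal A N (helper1073.atkinLehnerBar N q hq hqN hq2) 1)) e ∧
      Submodule.span Kbar (Set.range e) = S := by
  obtain ⟨M, rfl⟩ := hqN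
  have hM0 : M ≠ 0 := by
    rintro rfl
    exact NeZero.ne (q * 0) (mul_zero q)
  have : NeZero M := ⟨hM0⟩
  have : Fact q.Prime := ⟨hq⟩
  have hqM : ¬ q ∣ M := fun h => hq2 (by rw [sq]; exact Nat.mul_dvd_mul_left q h)
  rw [← wAL_eq_atkinLehnerBar q M hqM hq hq2]
  exact gp_exists_basis q M hqM A hA S

end Fermat.Agent.S35.helper882
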