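/-
S35/S34-SQUEEZE (backup copy, helper9253): the special-fibre squeeze at a good level on an S18
base line.

For a base line `x` of `F̄_N` with `helper2030.LineData` and `helper2030.Stmt_Cart` at a prime
`ℓ ∤ N` (landed S18 track A: `helper789.lineData_t2`, `lineData_t3`, `stmt_Cart_gauss`), the
reduction of the Gauss unit ball of the chart space `chartSpace ℚ̄ x a b` is ONTO the chart space
`chartSpace k x̄ a b` of the special fibre, both have dimension `(a + b) d + 1 - γ` in the Riemann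
range, and every element of the special fibre integral over `k[x̄]` (resp. `k[x̄⁻¹]`) lifts to a
Gauss-integral element integral over `ℚ̄[x]` (resp. `ℚ̄[x⁻¹]`).
-/
import Fermat.Agent.S18.helper789_LineInst
import Fermat.Agent.S18.helper4005_GapTrace

set_option autoImplicit false

namespace Fermat.Agent.S35.helper9253

open ModularCurve AlgebraicCurve IntermediateField Module
open Fermat.Agent.S18 Fermat.Agent.S18.helper2030 Fermat.Agent.S18.helper6292
  Fermat.Agent.S18.helper8566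

section Generic

variable {L F k Fk : Type*} [Field L] [Field F] [Algebra L F] [Field k] [Field Fk] [Algebra k Fk]

/-- **Reduction containment on chart spaces** (all `a`, `b`): a Gauss-integral element of the
chart space `x⁻ᵇ B₁ ⊓ xᵃ B₂` reduces into the chart space of the special fibre. -/
theorem red_mem_chartSpace (O : ValuationSubring F) (red : O →+* Fk)
    {x : F} (hx0 : x ≠ 0) (hx : x ∈ O) (hxi : x⁻¹ ∈ O)
    (hIT : IntegralityTransfer L k O red x (red ⟨x, hx⟩))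
    (hIT' : IntegralityTransfer L k O red x⁻¹ (red ⟨x, hx⟩)⁻¹)
    (a b : ℕ) {f : F} (hf : f ∈ O) (hfL : f ∈ chartSpace L x a b) :
    red ⟨f, hf⟩ ∈ chartSpace k (red ⟨x, hx⟩) a b := by
  obtain ⟨h1, h2⟩ := hfL
  refine ⟨?_, ?_⟩
  · have hO : x ^ b * f ∈ O := O.mul_mem _ _ (O.pow_mem hx _) hf
    have h3 := hIT _ hO h1
    have h4 : (⟨x ^ b * f, hO⟩ : O) = ⟨x, hx⟩ ^ b * ⟨f, hf⟩ := rfl
    rwa [h4, map_mul, map_pow] at h3
  · have hO : x⁻¹ ^ a * f ∈ O := O.mul_mem _ _ (O.pow_mem hxi _) hf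
    have h3 := hIT' _ hO h2
    have h4 : (⟨x⁻¹ ^ a * f, hO⟩ : O) = ⟨x⁻¹, hxi⟩ ^ a * ⟨f, hf⟩ := rfl
    rwa [h4, map_mul, map_pow, red_inv O red hx0 hx hxi] at h3

/-- **The squeeze, chart form** (abstract; the hypotheses of `helper2030.kummer_ff_chart` without
the Kummer datum). In the Riemann range `cK ≤ (a + b) d` the chart spaces of both fibres have
dimension `(a + b) d + 1 - γ` and the reduction of the unit ball of `chartSpace L x a b` is onto
`chartSpace k x̄ a b`. -/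
theorem chart_squeeze
    (O : ValuationSubring F)
    (hVG : ∀ f : F, f ≠ 0 → ∃ c : L, O.valuation (algebraMap L F c) = O.valuation f)
    (harch : ∀ ε κ : O.ValueGroup, ε < 1 → κ ≠ 0 → ∃ n : ℕ, ε ^ n < κ)
    (red : O →+* Fk)
    (hred : ∀ f : O, red f = 0 ↔ O.valuation (f : F) < 1)
    (hredk_surj : ∀ c' : k, ∃ (c : L) (hc : algebraMap L F c ∈ O),
      red ⟨algebraMap L F c, hc⟩ = algebraMap k Fk c')
    (x : F) (hx0 : x ≠ 0) (hx : x ∈ O) (hxi : x⁻¹ ∈ O)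
    (Xinf X0 : Divisor L F) (hXinf : IsPoleDivisor x Xinf) (hX0 : IsZeroDivisor x X0)
    (hC : ChartIntegral L x) (hC' : ChartIntegral L x⁻¹)
    (hIT : IntegralityTransfer L k O red x (red ⟨x, hx⟩))
    (hIT' : IntegralityTransfer L k O red x⁻¹ (red ⟨x, hx⟩)⁻¹)
    (d : ℤ) (hdpos : 0 < d)
    (hdX : Divisor.degree Xinf = d) (hdX0 : Divisor.degree X0 = d)
    (hcart : ∀ E : Divisor L F, ∃ (r : ℕ) (e : Fin r → F), LinearIndependent L e ∧
      Submodule.span L (Set.range e) = riemannRochSpace E ∧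
      ∀ c : Fin r → L, (∑ i, c i • e i ∈ O ↔ ∀ i, algebraMap L F (c i) ∈ O))
    (γ : ℤ)
    (hRiemF : ∀ D : Divisor L F,
      Divisor.degree D + 1 - γ ≤ (Module.finrank L (riemannRochSpace D) : ℤ))
    (hfink : ∀ a b : ℕ, Module.Finite k (chartSpace k (red ⟨x, hx⟩) a b))
    (cK : ℤ)
    (hGapk : ∀ a b : ℕ, cK ≤ ((a : ℤ) + b) * d →
      (Module.finrank k (chartSpace k (red ⟨x, hx⟩) a b) : ℤ) ≤ ((a : ℤ) + b) * d + 1 - γ)
    (a b : ℕ) (hab : cK ≤ ((a : ℤ) + b) * d) :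
    (Module.finrank k (chartSpace k (red ⟨x, hx⟩) a b) : ℤ) = ((a : ℤ) + b) * d + 1 - γ ∧
      (Module.finrank L (chartSpace L x a b) : ℤ) = ((a : ℤ) + b) * d + 1 - γ ∧
      ∀ g ∈ chartSpace k (red ⟨x, hx⟩) a b,
        ∃ f ∈ chartSpace L x a b, ∃ hf : f ∈ O, red ⟨f, hf⟩ = g := by
  have hone : red ⟨(1 : F), O.one_mem⟩ = 1 := map_one red
  let S : FFDataG L F k Fk :=
    { O := O, red := red, hVG := hVG, harch := harch, hred := hred, hredk_surj := hredk_surj,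
      Xinf := Xinf, X0 := X0,
      hXinf := Finsupp.le_def.mpr fun v => by simpa using hXinf.nonneg v,
      hX0 := Finsupp.le_def.mpr fun v => by simpa using hX0.nonneg v,
      hdisj := fun P => by
        rw [hXinf P, hX0 P]
        rcases le_total 0 (P.ord x) with h | h
        · left; exact max_eq_left (by omega)
        · right; exact max_eq_left h
      d := d, hdpos := hdpos, hdX := hdX, hdX0 := hdX0, D0 := 0, hD0 := map_zero _,
      hcart := fun a b => hcart _, γ := γ, hRiemF := fun a b => hRiemF _,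
      w := 1, hw := one_ne_zero,
      Nk := fun a b => chartSpace k (red ⟨x, hx⟩) a b,
      hNmono := fun a a' b b' ha hb => chartSpace_mono _ ha hb,
      hNinf := fun a a' b b' _ _ => chartSpace_inf_le _ a a' b b',
      hNone := fun a b => one_mem_chartSpace _ a b,
      hNred := fun a b f hf hfL => by
        rw [mul_one]
        refine red_mem_chartSpace O red hx0 hx hxi hIT hIT' a b hf ?_
        rw [← riemannRochSpace_eq_chartSpace hx0 hXinf hX0 hC hC' a b]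
        rwa [zero_add] at hfL,
      hfink := hfink, cK := cK, hRiemk := hGapk,
      m := 1, hm := by rw [Nat.cast_one, map_one],
      u := 1, hu := O.one_mem,
      hordu := fun P => by rw [Place.ord_one]; simp,
      hredu := by rw [hone, pow_one] }
  have hE : S.D0 + twoDiv S.Xinf S.X0 a b = a • Xinf + b • X0 := by
    show (0 : Divisor L F) + twoDiv Xinf X0 a b = a • Xinf + b • X0
    rw [zero_add]; rfl
  obtain ⟨h1, h2⟩ := S.surj_and_finrank a b hab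
  have hsurj : ∀ g ∈ chartSpace k (red ⟨x, hx⟩) a b,
      ∃ f ∈ chartSpace L x a b, ∃ hf : f ∈ O, red ⟨f, hf⟩ = g := by
    intro g hg
    obtain ⟨f, hf1, hf2, hf3⟩ := h2 g hg
    rw [hE, riemannRochSpace_eq_chartSpace hx0 hXinf hX0 hC hC' a b] at hf1
    refine ⟨f, hf1, hf2, ?_⟩
    have : red ⟨f, hf2⟩ * 1 = g := hf3
    rwa [mul_one] at this
  refine ⟨h1, ?_, hsurj⟩
  -- the generic fibre: Riemann from below, injectivity of the reduction from above
  obtain ⟨r, e, he_li, he_span, he_orth⟩ := hcart (a • Xinf + b • X0)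
  have hr : Module.finrank L (riemannRochSpace (a • Xinf + b • X0)) = r := by
    rw [← he_span, finrank_span_eq_card he_li, Fintype.card_fin]
  have hdeg : Divisor.degree (a • Xinf + b • X0) = ((a : ℤ) + b) * d := by
    rw [map_add, map_nsmul, map_nsmul, hdX, hdX0]; simp; ring
  have hlow := hRiemF (a • Xinf + b • X0)
  rw [hdeg, hr] at hlow
  have hmem : ∀ i, e i ∈ chartSpace L x a b := fun i => by
    rw [← riemannRochSpace_eq_chartSpace hx0 hXinf hX0 hC hC' a b, ← he_span]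
    exact Submodule.subset_span (Set.mem_range_self i)
  have := hfink a b
  let e' : Fin r → chartSpace k (red ⟨x, hx⟩) a b := fun i =>
    ⟨red ⟨e i, S.orth_mem he_orth i⟩,
      red_mem_chartSpace O red hx0 hx hxi hIT hIT' a b _ (hmem i)⟩
  have hli0 := S.red_linearIndependent he_li he_orth
  have hli' : LinearIndependent k e' := by
    refine LinearIndependent.of_comp (chartSpace k (red ⟨x, hx⟩) a b).subtype ?_
    have hfun : (chartSpace k (red ⟨x, hx⟩) a b).subtype ∘ e' =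
        fun i => S.red ⟨e i, S.orth_mem he_orth i⟩ * S.w := by
      funext i
      show red ⟨e i, S.orth_mem he_orth i⟩ = red ⟨e i, S.orth_mem he_orth i⟩ * 1
      rw [mul_one]
    rw [hfun]
    exact hli0
  have hup : r ≤ Module.finrank k (chartSpace k (red ⟨x, hx⟩) a b) := by
    have := hli'.fintype_card_le_finrank
    rwa [Fintype.card_fin] at this
  have hup' : (r : ℤ) ≤ (Module.finrank k (chartSpace k (red ⟨x, hx⟩) a b) : ℤ) := by
    exact_mod_cast hup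
  rw [← riemannRochSpace_eq_chartSpace hx0 hXinf hX0 hC hC' a b, hr]
  linarith

/-- Lifting of the chart ring `icl k[x̄]` from a squeeze statement: an element of the special
fibre integral over `k[x̄]` is the reduction of a Gauss-integral element integral over `L[x]`
(with bounded pole order at infinity). -/
theorem exists_lift_of_isIntegral (O : ValuationSubring F) (red : O →+* Fk)
    {x : F} (hx0 : x ≠ 0) (hx : x ∈ O) (hxi : x⁻¹ ∈ O) (n0 : ℕ)
    (hsurj : ∀ a b : ℕ, n0 ≤ a + b → ∀ g ∈ chartSpace k (red ⟨x, hx⟩) a b,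
      ∃ f ∈ chartSpace L x a b, ∃ hf : f ∈ O, red ⟨f, hf⟩ = g)
    {g : Fk} (hg : IsIntegral (Algebra.adjoin k {red ⟨x, hx⟩}) g) :
    ∃ (a : ℕ) (f : F) (hf : f ∈ O), IsIntegral (Algebra.adjoin L {x}) f ∧
      IsIntegral (Algebra.adjoin L {x⁻¹}) (x⁻¹ ^ a * f) ∧ red ⟨f, hf⟩ = g := by
  have hxb0 : red ⟨x, hx⟩ ≠ 0 := red_ne_zero_of_unit O red hx0 hx hxi
  obtain ⟨M, hM⟩ := Fermat.Agent.S18.helper4005.exists_inv_pow_mul_isIntegral hxb0 hg
  have hmem : g ∈ chartSpace k (red ⟨x, hx⟩) (max M n0) 0 := by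
    refine ⟨?_, hM _ (le_max_left _ _)⟩
    rwa [pow_zero, one_mul]
  obtain ⟨f, hf1, hf2, hf3⟩ := hsurj (max M n0) 0 (by simp) g hmem
  obtain ⟨h1, h2⟩ := hf1
  rw [pow_zero, one_mul] at h1
  exact ⟨max M n0, f, hf2, h1, h2, hf3⟩

/-- Lifting of the chart ring at infinity `icl k[x̄⁻¹]`. -/
theorem exists_lift_of_isIntegral_inv (O : ValuationSubring F) (red : O →+* Fk)
    {x : F} (hx0 : x ≠ 0) (hx : x ∈ O) (hxi : x⁻¹ ∈ O) (n0 : ℕ)
    (hsurj : ∀ a b : ℕ, n0 ≤ a + b → ∀ g ∈ chartSpace k (red ⟨x, hx⟩) a b,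
      ∃ f ∈ chartSpace L x a b, ∃ hf : f ∈ O, red ⟨f, hf⟩ = g)
    {g : Fk} (hg : IsIntegral (Algebra.adjoin k {(red ⟨x, hx⟩)⁻¹}) g) :
    ∃ (b : ℕ) (f : F) (hf : f ∈ O), IsIntegral (Algebra.adjoin L {x⁻¹}) f ∧
      IsIntegral (Algebra.adjoin L {x}) (x ^ b * f) ∧ red ⟨f, hf⟩ = g := by
  have hxb0 : red ⟨x, hx⟩ ≠ 0 := red_ne_zero_of_unit O red hx0 hx hxi
  obtain ⟨M, hM⟩ :=
    Fermat.Agent.S18.helper4005.exists_inv_pow_mul_isIntegral (inv_ne_zero hxb0) hg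
  rw [inv_inv] at hM
  have hmem : g ∈ chartSpace k (red ⟨x, hx⟩) 0 (max M n0) := by
    refine ⟨hM _ (le_max_left _ _), ?_⟩
    rwa [pow_zero, one_mul]
  obtain ⟨f, hf1, hf2, hf3⟩ := hsurj 0 (max M n0) (by simp) g hmem
  obtain ⟨h1, h2⟩ := hf1
  rw [pow_zero, one_mul] at h2
  exact ⟨max M n0, f, hf2, h2, h1, hf3⟩

/-- Lifting on the overlap `icl k[x̄, x̄⁻¹]`: an element `g` with `x̄ ^ n * g` integral over
`k[x̄]` lifts into `chartSpace L x a a` for all large `a`. -/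
theorem exists_lift_of_isIntegral_overlap (O : ValuationSubring F) (red : O →+* Fk)
    {x : F} (hx0 : x ≠ 0) (hx : x ∈ O) (hxi : x⁻¹ ∈ O) (n0 : ℕ)
    (hsurj : ∀ a b : ℕ, n0 ≤ a + b → ∀ g ∈ chartSpace k (red ⟨x, hx⟩) a b,
      ∃ f ∈ chartSpace L x a b, ∃ hf : f ∈ O, red ⟨f, hf⟩ = g)
    {g : Fk} (hg : ∃ n : ℕ, IsIntegral (Algebra.adjoin k {red ⟨x, hx⟩}) (red ⟨x, hx⟩ ^ n * g)) :
    ∃ a0 : ℕ, ∀ a : ℕ, a0 ≤ a → ∃ f ∈ chartSpace L x a a, ∃ hf : f ∈ O, red ⟨f, hf⟩ = g := by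
  have hxb0 : red ⟨x, hx⟩ ≠ 0 := red_ne_zero_of_unit O red hx0 hx hxi
  obtain ⟨m0, hm0⟩ := Fermat.Agent.S18.helper4005.exists_forall_mem_chartSpace hxb0 hg
  refine ⟨max m0 n0, fun a ha => ?_⟩
  exact hsurj a a (by omega) g (hm0 a (by omega))

end Generic

section Modular

variable (N : ℕ) [NeZero N] (ℓ : ℕ) [Fact ℓ.Prime] (hℓN : ¬ ℓ ∣ N)
  (A : ValuationSubring (AlgebraicClosure ℚ)) (hA : A.LiesOverPrime ℓ)

/-- **(SQ1) The squeeze on a base line with `LineData`.** There are `d > 0` (the degree of the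
pole divisor of `x`), `γ` and a threshold `n₀` such that for `n₀ ≤ a + b`: the chart spaces of
both fibres have dimension `(a + b) d + 1 - γ`, and the reduction of the Gauss unit ball of
`chartSpace ℚ̄ x a b` is ONTO `chartSpace k x̄ a b`. -/
theorem squeeze_of_lineData (hcart : Stmt_Cart N ℓ hℓN A hA) {x : modularFunctionFieldBar N}
    (hL : LineData N ℓ hℓN A hA x) :
    ∃ (d : ℕ) (γ : ℤ) (n₀ : ℕ), 0 < d ∧
      (∀ Xinf : Divisor (AlgebraicClosure ℚ) (modularFunctionFieldBar N),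
        IsPoleDivisor x Xinf → Divisor.degree Xinf = d) ∧
      (∀ a b : ℕ, Module.Finite (IsLocalRing.ResidueField A)
        (chartSpace (IsLocalRing.ResidueField A) (gaussRed N ℓ hℓN A hA ⟨x, hL.hx⟩) a b)) ∧
      ∀ a b : ℕ, n₀ ≤ a + b →
        (Module.finrank (IsLocalRing.ResidueField A)
          (chartSpace (IsLocalRing.ResidueField A) (gaussRed N ℓ hℓN A hA ⟨x, hL.hx⟩) a b) : ℤ) =
            ((a : ℤ) + b) * d + 1 - γ ∧
        (Module.finrank (AlgebraicClosure ℚ) (chartSpace (AlgebraicClosure ℚ) x a b) : ℤ) =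
            ((a : ℤ) + b) * d + 1 - γ ∧
        ∀ g ∈ chartSpace (IsLocalRing.ResidueField A) (gaussRed N ℓ hℓN A hA ⟨x, hL.hx⟩) a b,
          ∃ f ∈ chartSpace (AlgebraicClosure ℚ) x a b, ∃ hf : f ∈ gaussO N ℓ hℓN A hA,
            gaussRed N ℓ hℓN A hA ⟨f, hf⟩ = g := by
  obtain ⟨d, γ, hdpos, hdeg, hRiemF, hfink, cK, hGapk⟩ := hL.genus
  have hx0 : x ≠ 0 := fun h => hL.htr (h ▸ isAlgebraic_zero)
  have := helper4226.hasPrincipalDivisors_FN N
  have := helper4226.finiteDimensional_jBar_FN N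
  have : FiniteDimensional (AlgebraicClosure ℚ)⟮x⟯ (modularFunctionFieldBar N) :=
    helper7885.finiteDimensional_adjoin_of_transcendental (Fermat.Agent.S24.helper24.jBar N) hL.htr
  obtain ⟨Xinf, X0, hXinf, hX0⟩ :=
    exists_pole_zero_divisor (K := AlgebraicClosure ℚ) hx0
  have hdX : Divisor.degree Xinf = (d : ℤ) := hdeg Xinf hXinf
  have hdX0 : Divisor.degree X0 = (d : ℤ) := by
    rw [degree_zero_eq_degree_pole hx0 hXinf hX0, hdX]
  refine ⟨d, γ, cK.toNat, hdpos, hdeg, hfink, fun a b hab => ?_⟩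
  have hab' : cK ≤ ((a : ℤ) + b) * d := by
    have h1 : cK ≤ (cK.toNat : ℤ) := Int.self_le_toNat cK
    have h2 : (cK.toNat : ℤ) ≤ (a : ℤ) + b := by exact_mod_cast hab
    have h3 : (1 : ℤ) ≤ d := by exact_mod_cast hdpos
    have h4 : (0 : ℤ) ≤ (a : ℤ) + b := by positivity
    nlinarith
  exact chart_squeeze (gaussO N ℓ hℓN A hA) (gaussO_hVG N ℓ hℓN A hA)
    (gaussO_harch N ℓ hℓN A hA) (gaussRed N ℓ hℓN A hA) (gaussRed_eq_zero_iff N ℓ hℓN A hA)
    (gaussRed_const_surj N ℓ hℓN A hA) x hx0 hL.hx hL.hxi Xinf X0 hXinf hX0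
    (chartIntegral_of_charZero x) (chartIntegral_inv_of_charZero x) hL.hIT hL.hIT'
    (d : ℤ) (by exact_mod_cast hdpos) hdX hdX0 hcart γ hRiemF hfink cK hGapk a b hab'

/-- **(SQ2) Containment** (all `a`, `b`): the Gauss unit ball of `chartSpace ℚ̄ x a b` reduces
into `chartSpace k x̄ a b`. -/
theorem gaussRed_mem_chartSpace {x : modularFunctionFieldBar N} (hL : LineData N ℓ hℓN A hA x)
    (a b : ℕ) {f : modularFunctionFieldBar N} (hf : f ∈ gaussO N ℓ hℓN A hA)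
    (hfL : f ∈ chartSpace (AlgebraicClosure ℚ) x a b) :
    gaussRed N ℓ hℓN A hA ⟨f, hf⟩ ∈
      chartSpace (IsLocalRing.ResidueField A) (gaussRed N ℓ hℓN A hA ⟨x, hL.hx⟩) a b :=
  have hx0 : x ≠ 0 := fun h => hL.htr (h ▸ isAlgebraic_zero)
  red_mem_chartSpace (gaussO N ℓ hℓN A hA) (gaussRed N ℓ hℓN A hA)
    hx0 hL.hx hL.hxi hL.hIT hL.hIT' a b hf hfL

/-- **(SQ3) Chart ring `icl k[x̄]`.** Every element of the special fibre integral over `k[x̄]`
is the reduction of a Gauss-integral element of `F̄_N` integral over `ℚ̄[x]`. -/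
theorem exists_gauss_lift_of_isIntegral (hcart : Stmt_Cart N ℓ hℓN A hA)
    {x : modularFunctionFieldBar N} (hL : LineData N ℓ hℓN A hA x)
    {g : modularFunctionFieldFullC (IsLocalRing.ResidueField A) N}
    (hg : IsIntegral (Algebra.adjoin (IsLocalRing.ResidueField A)
      {gaussRed N ℓ hℓN A hA ⟨x, hL.hx⟩}) g) :
    ∃ (a : ℕ) (f : modularFunctionFieldBar N) (hf : f ∈ gaussO N ℓ hℓN A hA),
      IsIntegral (Algebra.adjoin (AlgebraicClosure ℚ) {x}) f ∧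
      IsIntegral (Algebra.adjoin (AlgebraicClosure ℚ) {x⁻¹}) (x⁻¹ ^ a * f) ∧
      gaussRed N ℓ hℓN A hA ⟨f, hf⟩ = g := by
  obtain ⟨d, γ, n₀, -, -, -, h⟩ := squeeze_of_lineData N ℓ hℓN A hA hcart hL
  have hx0 : x ≠ 0 := fun h => hL.htr (h ▸ isAlgebraic_zero)
  exact exists_lift_of_isIntegral (gaussO N ℓ hℓN A hA) (gaussRed N ℓ hℓN A hA)
    hx0 hL.hx hL.hxi n₀ (fun a b hab => (h a b hab).2.2) hg

/-- **(SQ3) Chart ring at infinity `icl k[x̄⁻¹]`.** -/
theorem exists_gauss_lift_of_isIntegral_inv (hcart : Stmt_Cart N ℓ hℓN A hA)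
    {x : modularFunctionFieldBar N} (hL : LineData N ℓ hℓN A hA x)
    {g : modularFunctionFieldFullC (IsLocalRing.ResidueField A) N}
    (hg : IsIntegral (Algebra.adjoin (IsLocalRing.ResidueField A)
      {(gaussRed N ℓ hℓN A hA ⟨x, hL.hx⟩)⁻¹}) g) :
    ∃ (b : ℕ) (f : modularFunctionFieldBar N) (hf : f ∈ gaussO N ℓ hℓN A hA),
      IsIntegral (Algebra.adjoin (AlgebraicClosure ℚ) {x⁻¹}) f ∧
      IsIntegral (Algebra.adjoin (AlgebraicClosure ℚ) {x}) (x ^ b * f) ∧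
      gaussRed N ℓ hℓN A hA ⟨f, hf⟩ = g := by
  obtain ⟨d, γ, n₀, -, -, -, h⟩ := squeeze_of_lineData N ℓ hℓN A hA hcart hL
  have hx0 : x ≠ 0 := fun h => hL.htr (h ▸ isAlgebraic_zero)
  exact exists_lift_of_isIntegral_inv (gaussO N ℓ hℓN A hA) (gaussRed N ℓ hℓN A hA)
    hx0 hL.hx hL.hxi n₀ (fun a b hab => (h a b hab).2.2) hg

/-- **(SQ3) Overlap `icl k[x̄, x̄⁻¹]`.** -/
theorem exists_gauss_lift_of_isIntegral_overlap (hcart : Stmt_Cart N ℓ hℓN A hA)
    {x : modularFunctionFieldBar N} (hL : LineData N ℓ hℓN A hA x)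
    {g : modularFunctionFieldFullC (IsLocalRing.ResidueField A) N}
    (hg : ∃ n : ℕ, IsIntegral (Algebra.adjoin (IsLocalRing.ResidueField A)
      {gaussRed N ℓ hℓN A hA ⟨x, hL.hx⟩}) (gaussRed N ℓ hℓN A hA ⟨x, hL.hx⟩ ^ n * g)) :
    ∃ a₀ : ℕ, ∀ a : ℕ, a₀ ≤ a → ∃ f ∈ chartSpace (AlgebraicClosure ℚ) x a a,
      ∃ hf : f ∈ gaussO N ℓ hℓN A hA, gaussRed N ℓ hℓN A hA ⟨f, hf⟩ = g := by
  obtain ⟨d, γ, n₀, -, -, -, h⟩ := squeeze_of_lineData N ℓ hℓN A hA hcart hL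
  have hx0 : x ≠ 0 := fun h => hL.htr (h ▸ isAlgebraic_zero)
  exact exists_lift_of_isIntegral_overlap (gaussO N ℓ hℓN A hA) (gaussRed N ℓ hℓN A hA)
    hx0 hL.hx hL.hxi n₀ (fun a b hab => (h a b hab).2.2) hg

/-- **(SQ1)+(SQ2) in Riemann–Roch (Prelude place) form on BOTH fibres.** For pole / zero
divisors `Xinf`, `X0` of `x` on `F̄_N` and `Yinf`, `Y0` of `x̄` on the special fibre:
* containment `red (ball ∩ L(a Xinf + b X0)) ⊆ L_k(a Yinf + b Y0)` for all `a`, `b`;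
* for `n₀ ≤ a + b`: both spaces have dimension `(a + b) d + 1 - γ` and the reduction of the unit
  ball of `L(a Xinf + b X0)` is ONTO `L_k(a Yinf + b Y0)`. -/
theorem squeeze_rr_of_lineData (hcart : Stmt_Cart N ℓ hℓN A hA) {x : modularFunctionFieldBar N}
    (hL : LineData N ℓ hℓN A hA x)
    [FiniteDimensional (IsLocalRing.ResidueField A)⟮gaussRed N ℓ hℓN A hA ⟨x, hL.hx⟩⟯
      (modularFunctionFieldFullC (IsLocalRing.ResidueField A) N)]
    {Xinf X0 : Divisor (AlgebraicClosure ℚ) (modularFunctionFieldBar N)}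
    (hXinf : IsPoleDivisor x Xinf) (hX0 : IsZeroDivisor x X0)
    {Yinf Y0 : Divisor (IsLocalRing.ResidueField A)
      (modularFunctionFieldFullC (IsLocalRing.ResidueField A) N)}
    (hYinf : IsPoleDivisor (gaussRed N ℓ hℓN A hA ⟨x, hL.hx⟩) Yinf)
    (hY0 : IsZeroDivisor (gaussRed N ℓ hℓN A hA ⟨x, hL.hx⟩) Y0) :
    (∀ (a b : ℕ) (f : modularFunctionFieldBar N) (hf : f ∈ gaussO N ℓ hℓN A hA),
      f ∈ riemannRochSpace (a • Xinf + b • X0) →
        gaussRed N ℓ hℓN A hA ⟨f, hf⟩ ∈ riemannRochSpace (a • Yinf + b • Y0)) ∧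
    ∃ (d : ℕ) (γ : ℤ) (n₀ : ℕ), 0 < d ∧ Divisor.degree Xinf = d ∧
      ∀ a b : ℕ, n₀ ≤ a + b →
        (Module.finrank (IsLocalRing.ResidueField A)
          (riemannRochSpace (a • Yinf + b • Y0)) : ℤ) = ((a : ℤ) + b) * d + 1 - γ ∧
        (Module.finrank (AlgebraicClosure ℚ)
          (riemannRochSpace (a • Xinf + b • X0)) : ℤ) = ((a : ℤ) + b) * d + 1 - γ ∧
        ∀ g ∈ riemannRochSpace (a • Yinf + b • Y0),
          ∃ f ∈ riemannRochSpace (a • Xinf + b • X0), ∃ hf : f ∈ gaussO N ℓ hℓN A hA,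
            gaussRed N ℓ hℓN A hA ⟨f, hf⟩ = g := by
  have hk := Lib.helper6879.isAlgClosed_residueField A
  have hx0 : x ≠ 0 := fun h => hL.htr (h ▸ isAlgebraic_zero)
  have hxb0 : gaussRed N ℓ hℓN A hA ⟨x, hL.hx⟩ ≠ 0 :=
    red_ne_zero_of_unit (gaussO N ℓ hℓN A hA) (gaussRed N ℓ hℓN A hA) hx0 hL.hx hL.hxi
  have := helper4226.finiteDimensional_jBar_FN N
  have : FiniteDimensional (AlgebraicClosure ℚ)⟮x⟯ (modularFunctionFieldBar N) :=
    helper7885.finiteDimensional_adjoin_of_transcendental (Fermat.Agent.S24.helper24.jBar N) hL.htr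
  have hF : ∀ a b : ℕ, riemannRochSpace (a • Xinf + b • X0) =
      chartSpace (AlgebraicClosure ℚ) x a b := fun a b =>
    riemannRochSpace_eq_chartSpace hx0 hXinf hX0 (chartIntegral_of_charZero x)
      (chartIntegral_inv_of_charZero x) a b
  have hk' : ∀ a b : ℕ, riemannRochSpace (a • Yinf + b • Y0) =
      chartSpace (IsLocalRing.ResidueField A) (gaussRed N ℓ hℓN A hA ⟨x, hL.hx⟩) a b :=
    fun a b => riemannRochSpace_eq_chartSpace_of_perfect hxb0 hYinf hY0 a b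
  refine ⟨fun a b f hf hfL => ?_, ?_⟩
  · rw [hk' a b]
    rw [hF a b] at hfL
    exact gaussRed_mem_chartSpace N ℓ hℓN A hA hL a b hf hfL
  · obtain ⟨d, γ, n₀, hdpos, hdeg, -, h⟩ := squeeze_of_lineData N ℓ hℓN A hA hcart hL
    refine ⟨d, γ, n₀, hdpos, hdeg Xinf hXinf, fun a b hab => ?_⟩
    rw [hk' a b, hF a b]
    exact h a b hab

end Modular

section Lines

variable (N : ℕ) [NeZero N] (ℓ : ℕ) [Fact ℓ.Prime] (hℓN : ¬ ℓ ∣ N)
  (A : ValuationSubring (AlgebraicClosure ℚ)) (hA : A.LiesOverPrime ℓ)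

/-- The Hauptmodul `t_2` of `F̄_N` (`2 ∣ N`). -/
noncomputable abbrev t2 (h2N : 2 ∣ N) : modularFunctionFieldBar N :=
  helper4665.gaussT2 (AlgebraicClosure ℚ) N h2N

/-- The Hauptmodul `t_3` of `F̄_N` (`3 ∣ N`). -/
noncomputable abbrev t3 (h3N : 3 ∣ N) : modularFunctionFieldBar N :=
  helper4665.gaussT3 (AlgebraicClosure ℚ) N h3N

/-- The reduction `t̄_2` in the function field of the special fibre. -/
noncomputable abbrev t2bar (h2N : 2 ∣ N) :
    modularFunctionFieldFullC (IsLocalRing.ResidueField A) N :=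
  gaussRed N ℓ hℓN A hA ⟨t2 N h2N, helper4665.gaussT2_mem N ℓ hℓN A hA h2N⟩

/-- The reduction `t̄_3` in the function field of the special fibre. -/
noncomputable abbrev t3bar (h3N : 3 ∣ N) :
    modularFunctionFieldFullC (IsLocalRing.ResidueField A) N :=
  gaussRed N ℓ hℓN A hA ⟨t3 N h3N, helper4665.gaussT3_mem N ℓ hℓN A hA h3N⟩

/-- **(SQ1) on the `t_2`-line, unconditional** (`2 ∣ N`, `ℓ ∤ N`). -/
theorem squeeze_t2 (h2N : 2 ∣ N) :
    ∃ (d : ℕ) (γ : ℤ) (n₀ : ℕ), 0 < d ∧ 3 * d = dedekindPsi N ∧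
      (∀ a b : ℕ, Module.Finite (IsLocalRing.ResidueField A)
        (chartSpace (IsLocalRing.ResidueField A) (t2bar N ℓ hℓN A hA h2N) a b)) ∧
      ∀ a b : ℕ, n₀ ≤ a + b →
        (Module.finrank (IsLocalRing.ResidueField A)
          (chartSpace (IsLocalRing.ResidueField A) (t2bar N ℓ hℓN A hA h2N) a b) : ℤ) =
            ((a : ℤ) + b) * d + 1 - γ ∧
        (Module.finrank (AlgebraicClosure ℚ)
          (chartSpace (AlgebraicClosure ℚ) (t2 N h2N) a b) : ℤ) = ((a : ℤ) + b) * d + 1 - γ ∧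
        ∀ g ∈ chartSpace (IsLocalRing.ResidueField A) (t2bar N ℓ hℓN A hA h2N) a b,
          ∃ f ∈ chartSpace (AlgebraicClosure ℚ) (t2 N h2N) a b,
            ∃ hf : f ∈ gaussO N ℓ hℓN A hA, gaussRed N ℓ hℓN A hA ⟨f, hf⟩ = g := by
  have hL := helper789.lineData_t2 N ℓ hℓN A hA h2N
  obtain ⟨d, γ, n₀, hdpos, hdeg, hfin, h⟩ :=
    squeeze_of_lineData N ℓ hℓN A hA (helper789.stmt_Cart_gauss N ℓ hℓN A hA) hL
  obtain ⟨htr, hfd, h3⟩ := helper4665.gaussT2_degree (L := AlgebraicClosure ℚ) N h2N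
  have hx0 : t2 N h2N ≠ 0 := by
    intro h
    apply hL.htr
    rw [show helper4665.gaussT2 (AlgebraicClosure ℚ) N h2N = 0 from h]
    exact isAlgebraic_zero
  have := helper4226.hasPrincipalDivisors_FN N
  obtain ⟨Xinf, X0, hXinf, hX0⟩ := exists_pole_zero_divisor (K := AlgebraicClosure ℚ) hx0
  have hd : (d : ℤ) = (Module.finrank (AlgebraicClosure ℚ)⟮t2 N h2N⟯
      (modularFunctionFieldBar N) : ℤ) := by
    rw [← hdeg Xinf hXinf, degree_poleDivisor_eq_finrank (t2 N h2N) htr hXinf]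
  have hd' : d = Module.finrank (AlgebraicClosure ℚ)⟮t2 N h2N⟯ (modularFunctionFieldBar N) := by
    exact_mod_cast hd
  exact ⟨d, γ, n₀, hdpos, by rw [hd']; exact h3, hfin, h⟩

/-- **(SQ1) on the `t_3`-line, unconditional** (`3 ∣ N`, `ℓ ∤ N`). -/
theorem squeeze_t3 (h3N : 3 ∣ N) :
    ∃ (d : ℕ) (γ : ℤ) (n₀ : ℕ), 0 < d ∧ 4 * d = dedekindPsi N ∧
      (∀ a b : ℕ, Module.Finite (IsLocalRing.ResidueField A)
        (chartSpace (IsLocalRing.ResidueField A) (t3bar N ℓ hℓN A hA h3N) a b)) ∧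
      ∀ a b : ℕ, n₀ ≤ a + b →
        (Module.finrank (IsLocalRing.ResidueField A)
          (chartSpace (IsLocalRing.ResidueField A) (t3bar N ℓ hℓN A hA h3N) a b) : ℤ) =
            ((a : ℤ) + b) * d + 1 - γ ∧
        (Module.finrank (AlgebraicClosure ℚ)
          (chartSpace (AlgebraicClosure ℚ) (t3 N h3N) a b) : ℤ) = ((a : ℤ) + b) * d + 1 - γ ∧
        ∀ g ∈ chartSpace (IsLocalRing.ResidueField A) (t3bar N ℓ hℓN A hA h3N) a b,
          ∃ f ∈ chartSpace (AlgebraicClosure ℚ) (t3 N h3N) a b,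
            ∃ hf : f ∈ gaussO N ℓ hℓN A hA, gaussRed N ℓ hℓN A hA ⟨f, hf⟩ = g := by
  have hL := helper789.lineData_t3 N ℓ hℓN A hA h3N
  obtain ⟨d, γ, n₀, hdpos, hdeg, hfin, h⟩ :=
    squeeze_of_lineData N ℓ hℓN A hA (helper789.stmt_Cart_gauss N ℓ hℓN A hA) hL
  obtain ⟨htr, hfd, h3⟩ := helper4665.gaussT3_degree (L := AlgebraicClosure ℚ) N h3N
  have hx0 : t3 N h3N ≠ 0 := by
    intro h
    apply hL.htr
    rw [show helper4665.gaussT3 (AlgebraicClosure ℚ) N h3N = 0 from h]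
    exact isAlgebraic_zero
  have := helper4226.hasPrincipalDivisors_FN N
  obtain ⟨Xinf, X0, hXinf, hX0⟩ := exists_pole_zero_divisor (K := AlgebraicClosure ℚ) hx0
  have hd : (d : ℤ) = (Module.finrank (AlgebraicClosure ℚ)⟮t3 N h3N⟯
      (modularFunctionFieldBar N) : ℤ) := by
    rw [← hdeg Xinf hXinf, degree_poleDivisor_eq_finrank (t3 N h3N) htr hXinf]
  have hd' : d = Module.finrank (AlgebraicClosure ℚ)⟮t3 N h3N⟯ (modularFunctionFieldBar N) := by
    exact_mod_cast hd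
  exact ⟨d, γ, n₀, hdpos, by rw [hd']; exact h3, hfin, h⟩

/-- **(SQ2) on the `t_2`-line.** -/
theorem gaussRed_mem_chartSpace_t2 (h2N : 2 ∣ N) (a b : ℕ) {f : modularFunctionFieldBar N}
    (hf : f ∈ gaussO N ℓ hℓN A hA) (hfL : f ∈ chartSpace (AlgebraicClosure ℚ) (t2 N h2N) a b) :
    gaussRed N ℓ hℓN A hA ⟨f, hf⟩ ∈
      chartSpace (IsLocalRing.ResidueField A) (t2bar N ℓ hℓN A hA h2N) a b :=
  gaussRed_mem_chartSpace N ℓ hℓN A hA (helper789.lineData_t2 N ℓ hℓN A hA h2N) a b hf hfL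

/-- **(SQ2) on the `t_3`-line.** -/
theorem gaussRed_mem_chartSpace_t3 (h3N : 3 ∣ N) (a b : ℕ) {f : modularFunctionFieldBar N}
    (hf : f ∈ gaussO N ℓ hℓN A hA) (hfL : f ∈ chartSpace (AlgebraicClosure ℚ) (t3 N h3N) a b) :
    gaussRed N ℓ hℓN A hA ⟨f, hf⟩ ∈
      chartSpace (IsLocalRing.ResidueField A) (t3bar N ℓ hℓN A hA h3N) a b :=
  gaussRed_mem_chartSpace N ℓ hℓN A hA (helper789.lineData_t3 N ℓ hℓN A hA h3N) a b hf hfL

/-- **(SQ3) chart ring `icl k[t̄_2]`, unconditional**: every element of `F_k` integral over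
`k[t̄_2]` is the reduction of a Gauss-integral element of `F̄_N` integral over `ℚ̄[t_2]`. -/
theorem exists_lift_t2 (h2N : 2 ∣ N)
    {g : modularFunctionFieldFullC (IsLocalRing.ResidueField A) N}
    (hg : IsIntegral (Algebra.adjoin (IsLocalRing.ResidueField A) {t2bar N ℓ hℓN A hA h2N}) g) :
    ∃ (a : ℕ) (f : modularFunctionFieldBar N) (hf : f ∈ gaussO N ℓ hℓN A hA),
      IsIntegral (Algebra.adjoin (AlgebraicClosure ℚ) {t2 N h2N}) f ∧
      IsIntegral (Algebra.adjoin (AlgebraicClosure ℚ) {(t2 N h2N)⁻¹}) ((t2 N h2N)⁻¹ ^ a * f) ∧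
      gaussRed N ℓ hℓN A hA ⟨f, hf⟩ = g :=
  exists_gauss_lift_of_isIntegral N ℓ hℓN A hA (helper789.stmt_Cart_gauss N ℓ hℓN A hA)
    (helper789.lineData_t2 N ℓ hℓN A hA h2N) hg

/-- **(SQ3) chart ring at infinity `icl k[t̄_2⁻¹]`, unconditional.** -/
theorem exists_lift_t2_inv (h2N : 2 ∣ N)
    {g : modularFunctionFieldFullC (IsLocalRing.ResidueField A) N}
    (hg : IsIntegral (Algebra.adjoin (IsLocalRing.ResidueField A)
      {(t2bar N ℓ hℓN A hA h2N)⁻¹}) g) :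
    ∃ (b : ℕ) (f : modularFunctionFieldBar N) (hf : f ∈ gaussO N ℓ hℓN A hA),
      IsIntegral (Algebra.adjoin (AlgebraicClosure ℚ) {(t2 N h2N)⁻¹}) f ∧
      IsIntegral (Algebra.adjoin (AlgebraicClosure ℚ) {t2 N h2N}) (t2 N h2N ^ b * f) ∧
      gaussRed N ℓ hℓN A hA ⟨f, hf⟩ = g :=
  exists_gauss_lift_of_isIntegral_inv N ℓ hℓN A hA (helper789.stmt_Cart_gauss N ℓ hℓN A hA)
    (helper789.lineData_t2 N ℓ hℓN A hA h2N) hg

/-- **(SQ3) chart ring `icl k[t̄_3]`, unconditional.** -/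
theorem exists_lift_t3 (h3N : 3 ∣ N)
    {g : modularFunctionFieldFullC (IsLocalRing.ResidueField A) N}
    (hg : IsIntegral (Algebra.adjoin (IsLocalRing.ResidueField A) {t3bar N ℓ hℓN A hA h3N}) g) :
    ∃ (a : ℕ) (f : modularFunctionFieldBar N) (hf : f ∈ gaussO N ℓ hℓN A hA),
      IsIntegral (Algebra.adjoin (AlgebraicClosure ℚ) {t3 N h3N}) f ∧
      IsIntegral (Algebra.adjoin (AlgebraicClosure ℚ) {(t3 N h3N)⁻¹}) ((t3 N h3N)⁻¹ ^ a * f) ∧
      gaussRed N ℓ hℓN A hA ⟨f, hf⟩ = g :=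
  exists_gauss_lift_of_isIntegral N ℓ hℓN A hA (helper789.stmt_Cart_gauss N ℓ hℓN A hA)
    (helper789.lineData_t3 N ℓ hℓN A hA h3N) hg

/-- **(SQ3) chart ring at infinity `icl k[t̄_3⁻¹]`, unconditional.** -/
theorem exists_lift_t3_inv (h3N : 3 ∣ N)
    {g : modularFunctionFieldFullC (IsLocalRing.ResidueField A) N}
    (hg : IsIntegral (Algebra.adjoin (IsLocalRing.ResidueField A)
      {(t3bar N ℓ hℓN A hA h3N)⁻¹}) g) :
    ∃ (b : ℕ) (f : modularFunctionFieldBar N) (hf : f ∈ gaussO N ℓ hℓN A hA),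
      IsIntegral (Algebra.adjoin (AlgebraicClosure ℚ) {(t3 N h3N)⁻¹}) f ∧
      IsIntegral (Algebra.adjoin (AlgebraicClosure ℚ) {t3 N h3N}) (t3 N h3N ^ b * f) ∧
      gaussRed N ℓ hℓN A hA ⟨f, hf⟩ = g :=
  exists_gauss_lift_of_isIntegral_inv N ℓ hℓN A hA (helper789.stmt_Cart_gauss N ℓ hℓN A hA)
    (helper789.lineData_t3 N ℓ hℓN A hA h3N) hg

/-- The Laurent expansion of `t̄_2` is the integer Hauptmodul series read over `k`. -/
theorem coe_t2bar (h2N : 2 ∣ N) :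
    ((t2bar N ℓ hℓN A hA h2N : modularFunctionFieldFullC (IsLocalRing.ResidueField A) N) :
      LaurentSeries (IsLocalRing.ResidueField A)) =
      helper4665.zSeries helper1257.t2Z (IsLocalRing.ResidueField A) :=
  helper4665.gaussResidue_gaussT2 N ℓ hℓN A hA h2N

/-- The Laurent expansion of `t̄_3` is the integer Hauptmodul series read over `k`. -/
theorem coe_t3bar (h3N : 3 ∣ N) :
    ((t3bar N ℓ hℓN A hA h3N : modularFunctionFieldFullC (IsLocalRing.ResidueField A) N) :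
      LaurentSeries (IsLocalRing.ResidueField A)) =
      helper4665.zSeries helper1257.t3Z (IsLocalRing.ResidueField A) :=
  helper4665.gaussResidue_gaussT3 N ℓ hℓN A hA h3N

/-- **RR form on the `t_2`-line, unconditional**: containment and the squeeze for the pole / zero
divisors of `t_2` and `t̄_2` (Prelude places on both fibres). -/
theorem squeeze_rr_t2 (h2N : 2 ∣ N)
    {Xinf X0 : Divisor (AlgebraicClosure ℚ) (modularFunctionFieldBar N)}
    (hXinf : IsPoleDivisor (t2 N h2N) Xinf) (hX0 : IsZeroDivisor (t2 N h2N) X0)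
    {Yinf Y0 : Divisor (IsLocalRing.ResidueField A)
      (modularFunctionFieldFullC (IsLocalRing.ResidueField A) N)}
    (hYinf : IsPoleDivisor (t2bar N ℓ hℓN A hA h2N) Yinf)
    (hY0 : IsZeroDivisor (t2bar N ℓ hℓN A hA h2N) Y0) :
    (∀ (a b : ℕ) (f : modularFunctionFieldBar N) (hf : f ∈ gaussO N ℓ hℓN A hA),
      f ∈ riemannRochSpace (a • Xinf + b • X0) →
        gaussRed N ℓ hℓN A hA ⟨f, hf⟩ ∈ riemannRochSpace (a • Yinf + b • Y0)) ∧
    ∃ (d : ℕ) (γ : ℤ) (n₀ : ℕ), 0 < d ∧ Divisor.degree Xinf = d ∧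
      ∀ a b : ℕ, n₀ ≤ a + b →
        (Module.finrank (IsLocalRing.ResidueField A)
          (riemannRochSpace (a • Yinf + b • Y0)) : ℤ) = ((a : ℤ) + b) * d + 1 - γ ∧
        (Module.finrank (AlgebraicClosure ℚ)
          (riemannRochSpace (a • Xinf + b • X0)) : ℤ) = ((a : ℤ) + b) * d + 1 - γ ∧
        ∀ g ∈ riemannRochSpace (a • Yinf + b • Y0),
          ∃ f ∈ riemannRochSpace (a • Xinf + b • X0), ∃ hf : f ∈ gaussO N ℓ hℓN A hA,
            gaussRed N ℓ hℓN A hA ⟨f, hf⟩ = g := by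
  have := (helper4665.gaussResidue_gaussT2_degree N ℓ hℓN A hA h2N).2.1
  exact squeeze_rr_of_lineData N ℓ hℓN A hA (helper789.stmt_Cart_gauss N ℓ hℓN A hA)
    (helper789.lineData_t2 N ℓ hℓN A hA h2N) hXinf hX0 hYinf hY0

/-- **RR form on the `t_3`-line, unconditional.** -/
theorem squeeze_rr_t3 (h3N : 3 ∣ N)
    {Xinf X0 : Divisor (AlgebraicClosure ℚ) (modularFunctionFieldBar N)}
    (hXinf : IsPoleDivisor (t3 N h3N) Xinf) (hX0 : IsZeroDivisor (t3 N h3N) X0)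
    {Yinf Y0 : Divisor (IsLocalRing.ResidueField A)
      (modularFunctionFieldFullC (IsLocalRing.ResidueField A) N)}
    (hYinf : IsPoleDivisor (t3bar N ℓ hℓN A hA h3N) Yinf)
    (hY0 : IsZeroDivisor (t3bar N ℓ hℓN A hA h3N) Y0) :
    (∀ (a b : ℕ) (f : modularFunctionFieldBar N) (hf : f ∈ gaussO N ℓ hℓN A hA),
      f ∈ riemannRochSpace (a • Xinf + b • X0) →
        gaussRed N ℓ hℓN A hA ⟨f, hf⟩ ∈ riemannRochSpace (a • Yinf + b • Y0)) ∧
    ∃ (d : ℕ) (γ : ℤ) (n₀ : ℕ), 0 < d ∧ Divisor.degree Xinf = d ∧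
      ∀ a b : ℕ, n₀ ≤ a + b →
        (Module.finrank (IsLocalRing.ResidueField A)
          (riemannRochSpace (a • Yinf + b • Y0)) : ℤ) = ((a : ℤ) + b) * d + 1 - γ ∧
        (Module.finrank (AlgebraicClosure ℚ)
          (riemannRochSpace (a • Xinf + b • X0)) : ℤ) = ((a : ℤ) + b) * d + 1 - γ ∧
        ∀ g ∈ riemannRochSpace (a • Yinf + b • Y0),
          ∃ f ∈ riemannRochSpace (a • Xinf + b • X0), ∃ hf : f ∈ gaussO N ℓ hℓN A hA,
            gaussRed N ℓ hℓN A hA ⟨f, hf⟩ = g := by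
  have := (helper4665.gaussResidue_gaussT3_degree N ℓ hℓN A hA h3N).2.1
  exact squeeze_rr_of_lineData N ℓ hℓN A hA (helper789.stmt_Cart_gauss N ℓ hℓN A hA)
    (helper789.lineData_t3 N ℓ hℓN A hA h3N) hXinf hX0 hYinf hY0

end Lines

end Fermat.Agent.S35.helper9253
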