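/-
helper983 — S35, leaf G3UW (board #1741), part 1: `U_q`- and `W_q`-equivariance of the level-wise
analytic Kummer maps `ι_n : Λ → J₀(M)[n]` — the multiplier laws on meromorphic functions.

Everything general is already on main:

* `S16/helper2138_HeckeHom` : abstract coset systems `Corr Γ ι`, the transfer operator `Corr.op` on
  `Hom(Γ, A)`, and the instance `corrU N q` (cosets `!![1, j; 0, q]`, `q ∣ N`), `heckeHomU`;
* `S29/helper2982_MultHeckeMer` : `pullGLMer`, `cpMer C`, and the multiplier law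
  `exists_root_cpMer` / `kummerChar_cpMer` for ANY `Corr` and ANY modulus `n`;
* `S31/helper2756_K5JZero` : the closed interface `MultSpec N n Mult ⟹ ι_n` with the `Compat` API.

This file adds

* Mer-level multiplier laws in exponent form (`exists_root_zpow_cpMer`): an `n`-th root with
  multiplier `ζ ^ ψ` is sent by the coset product to an `n`-th root with multiplier
  `ζ ^ (C.op ℤ ψ)`; instances `U_q` (`exists_root_cpMerU`, exponent `heckeHomU`) and ONE-coset
  systems (`exists_root_pullGLMer`: a matrix `w` normalising `Γ`, e.g. the Atkin–Lehner matrix of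
  `helper3353.ALData`; exponent `ψ ∘ conj w`);
* `compat_of_fun` : the generic operator-compatibility on top of `helper2756.kummerCorr_JZero`:
  a function-level operator `hfun` realising `X` on Kummer classes and transforming multipliers
  by `t` gives `ι_n (t ψ) = X (ι_n ψ)`.
-/
import Fermat.Agent.S29.helper2982_MultHeckeMer
import Fermat.Agent.S31.helper2756_K5JZero

set_option autoImplicit false

open UpperHalfPlane CongruenceSubgroup Matrix.SpecialLinearGroup
open scoped MatrixGroups Manifold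

namespace Fermat.Agent.S35.helper983

open Fermat.Agent.S16.helper2138 Fermat.Agent.S24.helper182 Fermat.Agent.S29.helper3343
  Fermat.Agent.S29.helper2982

/-! ### Mer-level multiplier laws in exponent form -/

section MerLaws

variable {Γ : Subgroup SL(2, ℤ)} {ι : Type} [Fintype ι] (C : Corr Γ ι)
  (hpos : ∀ i, 0 < (C.α i).det.val)

/-- **Exponent form of the multiplier law** (any correspondence, any modulus): an `n`-th root of
`u` with multiplier `ζ ^ ψ` is sent by the coset product to an `n`-th root of `cpMer C u` with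
multiplier `ζ ^ (C.op ℤ ψ)`. -/
theorem exists_root_zpow_cpMer {n : ℕ} {u h : Mer} (hh : h ^ n = u) (ζ : ℂˣ)
    (ψ : Additive Γ →+ ℤ)
    (hχ : ∀ γ : Γ, pullMer (γ : SL(2, ℤ)) h =
      constM (((ζ ^ ψ (Additive.ofMul γ) : ℂˣ)) : ℂ) * h) :
    ∃ H : Mer, H ^ n = cpMer C hpos u ∧
      ∀ γ : Γ, pullMer (γ : SL(2, ℤ)) H =
        constM (((ζ ^ (C.op ℤ ψ) (Additive.ofMul γ) : ℂˣ)) : ℂ) * H := by
  obtain ⟨H, hH, hHχ⟩ := exists_root_cpMer C hpos hh (χ := zpowChar ζ ψ) hχ
  refine ⟨H, hH, fun γ => ?_⟩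
  rw [hHχ γ, transfer_zpowChar]
  rfl

/-- Kummer-character form: if `χ_u = ζ ^ ψ` then `χ_{cpMer C u} = ζ ^ (C.op ℤ ψ)`. -/
theorem kummerChar_cpMer_zpow {n : ℕ} (hn : 0 < n) {u : Mer} (hu : IsKummer n Γ u) (ζ : ℂˣ)
    (ψ : Additive Γ →+ ℤ) (hχ : kummerChar n Γ u = zpowChar ζ ψ) :
    kummerChar n Γ (cpMer C hpos u) = zpowChar ζ (C.op ℤ ψ) := by
  rw [kummerChar_cpMer C hpos hn hu, hχ, transfer_zpowChar]

end MerLaws

section MerLawsUW

open ModularForm (heckeMatrix det_heckeMatrix_pos)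

theorem corrU_det_pos (N q : ℕ) [NeZero q] (hqN : q ∣ N) (j : ZMod q) :
    0 < ((corrU N q hqN).α j).det.val := by
  rw [corrU_α]
  exact det_heckeMatrix_pos q j.val

/-- The coset product of `U_q` on meromorphic functions: `h ↦ ∏_{j mod q} h((z + j)/q)`. -/
noncomputable def cpMerU (N q : ℕ) [NeZero q] (hqN : q ∣ N) : Mer →* Mer :=
  cpMer (corrU N q hqN) (corrU_det_pos N q hqN)

theorem cpMerU_apply (N q : ℕ) [NeZero q] (hqN : q ∣ N) (u : Mer) :
    cpMerU N q hqN u = ∏ j : ZMod q, pullGLMer (heckeMatrix q j.val) (det_heckeMatrix_pos q j.val) u :=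
  rfl

/-- **`U_q`-equivariance of the multiplier**, exponent form, any modulus `n`: an `n`-th root of
`u` with multiplier `ζ ^ ψ` gives an `n`-th root of `∏_j u((z + j)/q)` with multiplier
`ζ ^ (heckeHomU N q ψ)`. -/
theorem exists_root_cpMerU (N q : ℕ) [NeZero q] (hqN : q ∣ N) {n : ℕ} {u h : Mer}
    (hh : h ^ n = u) (ζ : ℂˣ) (ψ : Additive (Gamma0 N) →+ ℤ)
    (hχ : ∀ γ : Gamma0 N, pullMer (γ : SL(2, ℤ)) h =
      constM (((ζ ^ ψ (Additive.ofMul γ) : ℂˣ)) : ℂ) * h) :
    ∃ H : Mer, H ^ n = cpMerU N q hqN u ∧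
      ∀ γ : Gamma0 N, pullMer (γ : SL(2, ℤ)) H =
        constM (((ζ ^ (heckeHomU N q hqN ℤ ψ) (Additive.ofMul γ) : ℂˣ)) : ℂ) * H :=
  exists_root_zpow_cpMer (corrU N q hqN) (corrU_det_pos N q hqN) hh ζ ψ hχ

/-- The coset product of a one-coset system is the pullback by its matrix. -/
theorem cpMer_unit {Γ : Subgroup SL(2, ℤ)} (C : Corr Γ Unit)
    (hpos : ∀ i, 0 < (C.α i).det.val) (u : Mer) :
    cpMer C hpos u = pullGLMer (C.α ()) (hpos ()) u := by
  rw [cpMer_apply]
  simp only [Finset.univ_unique, Finset.prod_singleton]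

/-- **Equivariance of the multiplier for a matrix normalising `Γ`** (one-coset system `C`, e.g.
the Atkin–Lehner matrix), exponent form, any modulus `n`: an `n`-th root of `u` with multiplier
`ζ ^ ψ` gives an `n`-th root of `u ∘ w` with multiplier `ζ ^ (ψ ∘ conj w)`. -/
theorem exists_root_pullGLMer {Γ : Subgroup SL(2, ℤ)} (C : Corr Γ Unit)
    (hpos : ∀ i, 0 < (C.α i).det.val) {n : ℕ} {u r : Mer}
    (hr : r ^ n = u) (ζ : ℂˣ) (ψ : Additive Γ →+ ℤ)
    (hχ : ∀ γ : Γ, pullMer (γ : SL(2, ℤ)) r =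
      constM (((ζ ^ ψ (Additive.ofMul γ) : ℂˣ)) : ℂ) * r) :
    ∃ H : Mer, H ^ n = pullGLMer (C.α ()) (hpos ()) u ∧
      ∀ γ : Γ, pullMer (γ : SL(2, ℤ)) H =
        constM (((ζ ^ (C.op ℤ ψ) (Additive.ofMul γ) : ℂˣ)) : ℂ) * H := by
  have := exists_root_zpow_cpMer C hpos hr ζ ψ hχ
  rwa [cpMer_unit] at this

end MerLawsUW

/-! ### Generic operator compatibility on top of `helper2756.kummerCorr_JZero` -/

section Compat

open ModularCurve AlgebraicCurve ModularCurve.Period
open Fermat.Agent.S31.helper2756 Fermat.Agent.S29.helper8217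

variable {N : ℕ} [NeZero N] {n : ℕ}

omit [NeZero N] in
/-- A function-level operator `hn` that realises `X` on Kummer classes and transforms multipliers
by `t` respects the Kummer correspondence `RelJ`. -/
theorem relJ_of_fun
    [HasPrincipalDivisors (AlgebraicClosure ℚ) (modularFunctionFieldBar N)]
    {Mult : modularFunctionFieldBar N → (Additive (Gamma0 N) →+ ℤ) → Prop}
    (hfun : modularFunctionFieldBar N → modularFunctionFieldBar N) (X : JZero N → JZero N)
    (t : (Additive (Gamma0 N) →+ ℤ) → (Additive (Gamma0 N) →+ ℤ))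
    (hK : ∀ u : modularFunctionFieldBar N, IsKummer (AlgebraicClosure ℚ) n u →
      IsKummer (AlgebraicClosure ℚ) n (hfun u) ∧
        X (kummerClass (AlgebraicClosure ℚ) n u) = kummerClass (AlgebraicClosure ℚ) n (hfun u))
    (hM : ∀ (u : modularFunctionFieldBar N) (ψ : Additive (Gamma0 N) →+ ℤ),
      IsKummer (AlgebraicClosure ℚ) n u → Mult u ψ → Mult (hfun u) (t ψ))
    (ψ ψ' : ↥(parabolicHoms ℤ (Gamma0 N) ℤ))
    (hψ' : (ψ' : Additive (Gamma0 N) →+ ℤ) = t (ψ : Additive (Gamma0 N) →+ ℤ))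
    (x : JZero N) (hx : RelJ (N := N) n Mult ψ x) : RelJ (N := N) n Mult ψ' (X x) := by
  obtain ⟨u, hu, hMu, rfl⟩ := hx
  obtain ⟨hk, hX⟩ := hK u hu
  refine ⟨hfun u, hk, ?_, hX.symm⟩
  rw [hψ']
  exact hM u _ hu hMu

/-- **Generic operator compatibility**: `ι_n (T ψ) = X (ι_n ψ)` for a lattice operator `T`
restricting `t`, as soon as a function-level operator `hfun` realises `X` on Kummer classes and
transforms multipliers by `t`. -/
theorem compat_of_fun
    [HasPrincipalDivisors (AlgebraicClosure ℚ) (modularFunctionFieldBar N)] (hn : n ≠ 0)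
    {Mult : modularFunctionFieldBar N → (Additive (Gamma0 N) →+ ℤ) → Prop}
    (hMS : MultSpec N n Mult)
    (hfun : modularFunctionFieldBar N → modularFunctionFieldBar N)
    (X : Module.End ℤ (JZero N))
    (t : (Additive (Gamma0 N) →+ ℤ) → (Additive (Gamma0 N) →+ ℤ))
    (hK : ∀ u : modularFunctionFieldBar N, IsKummer (AlgebraicClosure ℚ) n u →
      IsKummer (AlgebraicClosure ℚ) n (hfun u) ∧
        X (kummerClass (AlgebraicClosure ℚ) n u) = kummerClass (AlgebraicClosure ℚ) n (hfun u))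
    (hM : ∀ (u : modularFunctionFieldBar N) (ψ : Additive (Gamma0 N) →+ ℤ),
      IsKummer (AlgebraicClosure ℚ) n u → Mult u ψ → Mult (hfun u) (t ψ))
    (T : Module.End ℤ ↥(parabolicHoms ℤ (Gamma0 N) ℤ))
    (hT : ∀ ψ, ((T ψ : ↥(parabolicHoms ℤ (Gamma0 N) ℤ)) : Additive (Gamma0 N) →+ ℤ) =
      t (ψ : Additive (Gamma0 N) →+ ℤ)) :
    (kummerCorr_JZero hn hMS).Compat T X :=
  fun ψ => (kummerCorr_JZero hn hMS).iota_eq_of
    (relJ_of_fun hfun X t hK hM ψ (T ψ) (hT ψ) _ ((kummerCorr_JZero hn hMS).iota_spec ψ))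

end Compat

end Fermat.Agent.S35.helper983
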