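/-
helper983 — S35, leaf G3UW (board #1741), part 2: the `U_q`- and `W_q`-clauses of the concrete
multiplier relation `MultMer` and the equivariance of the analytic Kummer maps
`ι_k : Λ → J₀(N)[p ^ k]` (the S30 tower `helper30.iotaLevel` for the concrete relation).

* `MultMer.heckeU`, `MultMer.uNorm` : `MultMer N n ζ u ψ → MultMer N n ζ (U_q u) (heckeHomU N q ψ)`
  for the landed multiplicative `U_q` on functions `helper2106.uNorm` (norm along `β` of `α u`),
  from the landed analytic norm formula (E-U) `helper3346.evMer288_uNorm`;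
* `PullMerGL`, `MultMer.conj` : for a one-coset system `C` (a matrix `w` normalising `Γ₀(N)`) and
  a function-level operator `wF` with `ev (wF u) = ev u ∘ w` (E-W):
  `MultMer … u ψ → MultMer … (wF u) (C.op ℤ ψ)`;
* `multTower_multMer` : the concrete relation `n ↦ MultMer N n ζ_n` is a `helper30.MultTower`
  (unconditionally), `iotaUW N p hp` the resulting level maps with the S30 properties
  (`pow_nsmul_iotaUW`, `exists_eq_nsmul_of_iotaUW_eq_zero`, `nsmul_iotaUW_succ`, `iotaUW_hecke`);
* `iotaLevel_of_fun` : `ι_k (T ψ) = X (ι_k ψ)` for every operator pair `(T, X)` realised by a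
  function-level operator on Kummer classes and on multipliers, at every modulus `p ^ (k + 1)`;
* `iotaUW_latU` : **`ι_k (latU ψ) = uPic (ι_k ψ)`** (`U_q`, `q ∣ N`; `latU` = the landed
  `helper6356.latU`, `uPic` = the landed transposed correspondence `helper2106.uPic`);
* `iotaUW_conj` : **`ι_k (T ψ) = g • ι_k ψ`** for every semilinear automorphism `g` of the function
  field whose analytic form is `ev (g • u) = ev u ∘ w` with `w` normalising `Γ₀(N)` and `T`
  restricting `ψ ↦ ψ ∘ conj w` (the Atkin–Lehner involution `W_q`: see `helper983_IotaW`);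
* `compat_latU`, `compat_conj` : the same two facts LEVEL-WISE, at one modulus `n ≠ 0`, in the
  `KummerCorr.Compat` form of `helper2756.kummerCorr_JZero` (for Kőnig-style assemblies).
-/
import Fermat.Agent.S35.helper983_MultUW
import Fermat.Agent.S31.helper2756_MultMer
import Fermat.Agent.S30.helper30_LatticeLevel
import Fermat.Agent.S35.helper3346_UNorm288
import Fermat.Agent.S35.helper1687_UqCong

set_option autoImplicit false

open UpperHalfPlane CongruenceSubgroup Matrix.SpecialLinearGroup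
open scoped MatrixGroups Manifold

namespace Fermat.Agent.S35.helper983

open ModularCurve AlgebraicCurve
open Fermat.Agent.S24 Fermat.Agent.S24.helper24
open Fermat.Agent.S29.helper8217 Fermat.Agent.S16.helper2138
open Fermat.Agent.S31.helper2756

/-! ### The `U_q`- and `W_q`-clauses of `MultMer` -/

section Clauses

variable (N n : ℕ) (ζ : ℂˣ)

/-- **(E-U), `Mer` form**: the evaluation of `uN u` is the coset product
`z ↦ ∏_{j mod q} ev u ((z + j)/q)` of the evaluation of `u`. -/
def NormMerU (q : ℕ) [NeZero q] (hqN : q ∣ N) (uN : FN N → FN N) (u : FN N) : Prop :=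
  Fermat.Agent.S29.helper2122.merEquiv.symm (Fermat.Agent.S29.helper288.evMer N (uN u))
    = cpMerU N q hqN
        (Fermat.Agent.S29.helper2122.merEquiv.symm (Fermat.Agent.S29.helper288.evMer N u))

variable {N n ζ}

/-- **`U_q`-clause of the multiplier relation** from the analytic norm formula (E-U). -/
theorem MultMer.heckeU (q : ℕ) [NeZero q] (hqN : q ∣ N) (uN : FN N → FN N)
    {u : FN N} {ψ : Additive (Gamma0 N) →+ ℤ} (hNorm : NormMerU N q hqN uN u)
    (h : MultMer N n ζ u ψ) :
    MultMer N n ζ (uN u) (heckeHomU N q hqN ℤ ψ) := by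
  obtain ⟨W, hW, hγ⟩ := h
  set e := Fermat.Agent.S29.helper2122.merEquiv with he
  have hχ : ∀ γ : Gamma0 N, helper182.pullMer (γ : SL(2, ℤ)) (e.symm W)
      = Fermat.Agent.S29.helper3343.constM (((ζ ^ ψ (Additive.ofMul γ) : ℂˣ)) : ℂ) * e.symm W := by
    intro γ
    rw [← Fermat.Agent.S29.helper2122.merEquiv_symm_pull, hγ γ, map_mul,
      Fermat.Agent.S29.helper2122.merEquiv_symm_algebraMap_complex]
  have hpow : e.symm W ^ n = e.symm (Fermat.Agent.S29.helper288.evMer N u) := by
    rw [← map_pow, hW]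
  obtain ⟨H, hH, hHγ⟩ := exists_root_cpMerU N q hqN hpow ζ ψ hχ
  refine ⟨e H, ?_, fun γ => ?_⟩
  · rw [← map_pow, hH, ← hNorm, RingEquiv.apply_symm_apply]
  · rw [← Fermat.Agent.S29.helper2122.merEquiv_pullMer, hHγ γ, map_mul,
      Fermat.Agent.S29.helper2122.merEquiv_constM]

/-- (E-U) holds for the landed multiplicative `U_q` on functions, `helper2106.uNorm`
(`helper3346.evMer288_uNorm`). -/
theorem normMerU_uNorm [NeZero N] (q : ℕ) [NeZero q] (hq : q.Prime) (hqN : q ∣ N) (u : FN N) :
    NormMerU N q hqN (fun u => Fermat.Agent.S35.helper2106.uNorm N q u) u :=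
  Fermat.Agent.S35.helper3346.evMer288_uNorm N q hq hqN (corrU_det_pos N q hqN) u

/-- **`U_q`-clause of the multiplier relation**, unconditional: `U_q` on functions is the landed
`helper2106.uNorm` (norm along `β` of `α u`), on exponents the landed `heckeHomU`. -/
theorem MultMer.uNorm [NeZero N] (q : ℕ) [NeZero q] (hq : q.Prime) (hqN : q ∣ N)
    {u : FN N} {ψ : Additive (Gamma0 N) →+ ℤ} (h : MultMer N n ζ u ψ) :
    MultMer N n ζ (Fermat.Agent.S35.helper2106.uNorm N q u) (heckeHomU N q hqN ℤ ψ) :=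
  MultMer.heckeU q hqN (fun u => Fermat.Agent.S35.helper2106.uNorm N q u)
    (normMerU_uNorm q hq hqN u) h

variable (N)

/-- **(E-W), `Mer` form**, for a function-level operator `wF` and a matrix `w ∈ GL₂(ℝ)⁺`:
the evaluation of `wF u` is the evaluation of `u` composed with `w`. -/
def PullMerGL (w : GL (Fin 2) ℝ) (hw : 0 < w.det.val) (wF : FN N → FN N) (u : FN N) : Prop :=
  Fermat.Agent.S29.helper2122.merEquiv.symm (Fermat.Agent.S29.helper288.evMer N (wF u))
    = Fermat.Agent.S29.helper2982.pullGLMer w hw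
        (Fermat.Agent.S29.helper2122.merEquiv.symm (Fermat.Agent.S29.helper288.evMer N u))

variable {N}

/-- **Clause of the multiplier relation for a matrix normalising `Γ₀(N)`** (one-coset system
`C`; e.g. the Atkin–Lehner matrix), from the analytic form (E-W) of the function-level operator:
the exponent is transformed by `C.op ℤ`, i.e. `ψ ↦ ψ ∘ conj w`. -/
theorem MultMer.conj (C : Corr (Gamma0 N) Unit) (hpos : ∀ i, 0 < (C.α i).det.val)
    (wF : FN N → FN N) {u : FN N} {ψ : Additive (Gamma0 N) →+ ℤ}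
    (hPull : PullMerGL N (C.α ()) (hpos ()) wF u) (hm : MultMer N n ζ u ψ) :
    MultMer N n ζ (wF u) (C.op ℤ ψ) := by
  obtain ⟨W, hW, hγ⟩ := hm
  set e := Fermat.Agent.S29.helper2122.merEquiv with he
  have hχ : ∀ γ : Gamma0 N, helper182.pullMer (γ : SL(2, ℤ)) (e.symm W)
      = Fermat.Agent.S29.helper3343.constM (((ζ ^ ψ (Additive.ofMul γ) : ℂˣ)) : ℂ) * e.symm W := by
    intro γ
    rw [← Fermat.Agent.S29.helper2122.merEquiv_symm_pull, hγ γ, map_mul,
      Fermat.Agent.S29.helper2122.merEquiv_symm_algebraMap_complex]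
  have hpow : e.symm W ^ n = e.symm (Fermat.Agent.S29.helper288.evMer N u) := by
    rw [← map_pow, hW]
  obtain ⟨H, hH, hHγ⟩ := exists_root_pullGLMer C hpos hpow ζ ψ hχ
  refine ⟨e H, ?_, fun γ => ?_⟩
  · rw [← map_pow, hH, ← hPull, RingEquiv.apply_symm_apply]
  · rw [← Fermat.Agent.S29.helper2122.merEquiv_pullMer, hHγ γ, map_mul,
      Fermat.Agent.S29.helper2122.merEquiv_constM]

end Clauses

/-! ### Equivariance of the S30 level maps -/

section Tower

open Fermat.Agent.S30.helper30 Fermat.Agent.S31.helper6356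

variable {N : ℕ} [NeZero N] {p : ℕ}
  {Mult : ℕ → modularFunctionFieldBar N → (Additive (Gamma0 N) →+ ℤ) → Prop}

/-- **Equivariance of the level maps** `ι_k : Λ → J₀(N)` of the S30 tower for an operator pair
`(T, X)`: `T` on the lattice restricts `t`, and a function-level operator `hfun` realises `X` on
Kummer classes and transforms multipliers by `t`, at every modulus `p ^ (k + 1)`. -/
theorem iotaLevel_of_fun (hM : MultTower N p Mult) (hp : p ≠ 0)
    (hfun : modularFunctionFieldBar N → modularFunctionFieldBar N)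
    (X : JZero N →+ JZero N)
    (t : (Additive (Gamma0 N) →+ ℤ) → (Additive (Gamma0 N) →+ ℤ))
    (hK : ∀ (k : ℕ) (u : modularFunctionFieldBar N),
      IsKummer (AlgebraicClosure ℚ) (p ^ (k + 1)) u →
        IsKummer (AlgebraicClosure ℚ) (p ^ (k + 1)) (hfun u) ∧
          X (kummerClass (AlgebraicClosure ℚ) (p ^ (k + 1)) u) =
            kummerClass (AlgebraicClosure ℚ) (p ^ (k + 1)) (hfun u))
    (hMult : ∀ (k : ℕ) (u : modularFunctionFieldBar N) (ψ : Additive (Gamma0 N) →+ ℤ),
      IsKummer (AlgebraicClosure ℚ) (p ^ (k + 1)) u → Mult (p ^ (k + 1)) u ψ →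
        Mult (p ^ (k + 1)) (hfun u) (t ψ))
    (T : Module.End ℤ (Lam N))
    (hT : ∀ ψ : Lam N, ((T ψ : Lam N) : Additive (Gamma0 N) →+ ℤ) =
      t (ψ : Additive (Gamma0 N) →+ ℤ))
    (k : ℕ) (ψ : Lam N) :
    iotaLevel hM hp k (T ψ) = X (iotaLevel hM hp k ψ) := by
  cases k with
  | zero => rw [iotaLevel_zero, iotaLevel_zero, map_zero]
  | succ k =>
    rw [iotaLevel_succ, iotaLevel_succ]
    exact (hM.corr hp k).iota_eq_of
      (relJ_of_fun hfun X t (hK k) (hMult k) ψ (T ψ) (hT ψ) _ ((hM.corr hp k).iota_spec ψ))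

variable (N)

/-- **The concrete multiplier relation is a tower** (unconditionally): `Mult n := MultMer N n ζ_n`
satisfies the (K5) interface at every modulus `p ^ (k + 1)` and the cross-level rule. -/
theorem multTower_multMer (hp : p ≠ 0) :
    MultTower N p (fun n => MultMer N n (zetaU n)) := by
  have := Fermat.Agent.S37.helper5162.hasPrincipalDivisors_FN N
  exact
    { spec := fun k => multSpec_all (pow_ne_zero _ hp) (zetaU_isPrimitiveRoot (pow_ne_zero _ hp))
      down := fun k _ _ _ hM => MultMer.down_pow hp hM }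

/-- **The analytic Kummer maps** `ι_k : Λ → J₀(N)[p ^ k]` (the S30 tower `helper30.iotaLevel` of
the concrete multiplier relation `MultMer N n ζ_n`). -/
noncomputable def iotaUW (p : ℕ) (hp : p ≠ 0) : ℕ → Lam N →+ JZero N :=
  iotaLevel (multTower_multMer N hp) hp

variable {N}

theorem pow_nsmul_iotaUW (hp : p ≠ 0) (k : ℕ) (ψ : Lam N) : p ^ k • iotaUW N p hp k ψ = 0 :=
  pow_nsmul_iotaLevel _ hp k ψ

theorem exists_eq_nsmul_of_iotaUW_eq_zero (hp : p ≠ 0) (k : ℕ) (ψ : Lam N)
    (h : iotaUW N p hp k ψ = 0) : ∃ φ : Lam N, ψ = p ^ k • φ :=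
  exists_eq_nsmul_of_iotaLevel_eq_zero _ hp k ψ h

theorem nsmul_iotaUW_succ (hp : p ≠ 0) (k : ℕ) (ψ : Lam N) :
    p • iotaUW N p hp (k + 1) ψ = iotaUW N p hp k ψ :=
  nsmul_iotaLevel_succ _ hp k ψ

/-- `T_ℓ`-equivariance (`ℓ ∤ N`), as in S30. -/
theorem iotaUW_hecke (hp : p ≠ 0) (S : Set ℕ) {ℓ : ℕ} (hℓ : ℓ.Prime) (hℓN : ¬ ℓ ∣ N)
    (hℓS : ℓ ∉ S) (k : ℕ) (ψ : Lam N) :
    iotaUW N p hp k (heckeLatticeHom N S (CuspForm.heckeAlgebra.T hℓ hℓN hℓS) ψ) =
      heckeOperatorBar N ⟨ℓ, hℓ⟩ (iotaUW N p hp k ψ) :=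
  iotaLevel_hecke _ hp S hℓ hℓN hℓS k ψ

/-- **`U_q`-equivariance of the analytic Kummer maps** (`q ∣ N` prime):
`ι_k (latU ψ) = uPic (ι_k ψ)`, with `latU` the landed lattice operator (`helper6356`) and `uPic`
the landed transposed Hecke correspondence on `J₀(N)` (`helper2106`). -/
theorem iotaUW_latU (hp : p ≠ 0) (q : ℕ) [Fact q.Prime] (hqN : q ∣ N) (k : ℕ) (ψ : Lam N) :
    iotaUW N p hp k (latU N q hqN ψ) =
      Fermat.Agent.S35.helper2106.uPic N q (iotaUW N p hp k ψ) := by
  have hq : q.Prime := Fact.out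
  have : NeZero q := ⟨hq.ne_zero⟩
  exact iotaLevel_of_fun (multTower_multMer N hp) hp
    (fun u => Fermat.Agent.S35.helper2106.uNorm N q u) (Fermat.Agent.S35.helper2106.uPic N q)
    (fun ψ => heckeHomU N q hqN ℤ ψ)
    (fun k u hu => Fermat.Agent.S35.helper1687.uOp_kummerClass (M := N) (q := q)
      (pow_ne_zero _ hp) hu)
    (fun k u ψ _ hm => MultMer.uNorm q hq hqN hm)
    (latU N q hqN) (fun ψ => coe_latU N q hqN ψ) k ψ

/-- **Equivariance of the analytic Kummer maps for an automorphism of the function field with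
analytic form `u ↦ u ∘ w`**, `w` normalising `Γ₀(N)` (one-coset system `C`):
`ι_k (T ψ) = g • ι_k ψ` for every lattice operator `T` restricting `ψ ↦ ψ ∘ conj w = C.op ℤ ψ`.
(The Atkin–Lehner involution: `g = W_q`, `w` the Atkin–Lehner matrix, `T = latW`.) -/
theorem iotaUW_conj (hp : p ≠ 0) (g : SemilinearAut (AlgebraicClosure ℚ) (modularFunctionFieldBar N))
    (C : Corr (Gamma0 N) Unit) (hpos : ∀ i, 0 < (C.α i).det.val)
    (hEW : ∀ u : FN N, PullMerGL N (C.α ()) (hpos ()) (fun u => g • u) u)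
    (T : Module.End ℤ (Lam N))
    (hT : ∀ ψ : Lam N, ((T ψ : Lam N) : Additive (Gamma0 N) →+ ℤ) =
      C.op ℤ (ψ : Additive (Gamma0 N) →+ ℤ))
    (k : ℕ) (ψ : Lam N) :
    iotaUW N p hp k (T ψ) = g • iotaUW N p hp k ψ := by
  have := Fermat.Agent.S37.helper5162.hasPrincipalDivisors_FN N
  exact iotaLevel_of_fun (multTower_multMer N hp) hp (fun u => g • u)
    (DistribSMul.toAddMonoidHom (JZero N) g) (fun ψ => C.op ℤ ψ)
    (fun k u hu => ⟨(isKummer_smul_iff g).mpr hu, smul_kummerClass g _ u⟩)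
    (fun k u ψ _ hm => MultMer.conj C hpos (fun u => g • u) (hEW u) hm)
    T hT k ψ

end Tower

/-! ### Level-wise form: `KummerCorr.Compat` at one modulus `n ≠ 0` -/

section Levelwise

open Fermat.Agent.S31.helper6356

variable {N : ℕ} [NeZero N] {n : ℕ} {ζ : ℂˣ}

/-- **(CU)**: at every modulus `n ≠ 0`, the Kummer correspondence of the concrete multiplier
relation intertwines the lattice operator `latU` with `U_q = uOp = uPic` on `J₀(N)`
(`q ∣ N` prime). -/
theorem compat_latU (hn : n ≠ 0) (hMS : MultSpec N n (MultMer N n ζ)) (q : ℕ) [Fact q.Prime]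
    (hqN : q ∣ N) :
    (kummerCorr_JZero hn hMS).Compat (latU N q hqN)
      (AddMonoidHom.toIntLinearMap (Fermat.Agent.S35.helper1687.uOp N q)) := by
  have hq : q.Prime := Fact.out
  have : NeZero q := ⟨hq.ne_zero⟩
  exact compat_of_fun hn hMS (fun u => Fermat.Agent.S35.helper2106.uNorm N q u)
    (AddMonoidHom.toIntLinearMap (Fermat.Agent.S35.helper1687.uOp N q))
    (fun ψ => heckeHomU N q hqN ℤ ψ)
    (fun u hu => Fermat.Agent.S35.helper1687.uOp_kummerClass (M := N) (q := q) hn hu)
    (fun u ψ _ hm => MultMer.uNorm q hq hqN hm)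
    (latU N q hqN) (fun ψ => coe_latU N q hqN ψ)

/-- **(CW), generic form**: at every modulus `n ≠ 0`, the Kummer correspondence of the concrete
multiplier relation intertwines a lattice operator `T` restricting `ψ ↦ ψ ∘ conj w` with the
action on `J₀(N)` of a semilinear automorphism `g` of the function field whose analytic form is
`u ↦ u ∘ w` (`w` normalising `Γ₀(N)`, one-coset system `C`). -/
theorem compat_conj (hn : n ≠ 0) (hMS : MultSpec N n (MultMer N n ζ))
    (g : SemilinearAut (AlgebraicClosure ℚ) (modularFunctionFieldBar N))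
    (C : Corr (Gamma0 N) Unit) (hpos : ∀ i, 0 < (C.α i).det.val)
    (hEW : ∀ u : FN N, PullMerGL N (C.α ()) (hpos ()) (fun u => g • u) u)
    (T : Module.End ℤ (Lam N))
    (hT : ∀ ψ : Lam N, ((T ψ : Lam N) : Additive (Gamma0 N) →+ ℤ) =
      C.op ℤ (ψ : Additive (Gamma0 N) →+ ℤ)) :
    (kummerCorr_JZero hn hMS).Compat T
      (AddMonoidHom.toIntLinearMap (DistribSMul.toAddMonoidHom (JZero N) g)) :=
  compat_of_fun hn hMS (fun u => g • u)
    (AddMonoidHom.toIntLinearMap (DistribSMul.toAddMonoidHom (JZero N) g))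
    (fun ψ => C.op ℤ ψ)
    (fun u hu => ⟨(isKummer_smul_iff g).mpr hu, smul_kummerClass g _ u⟩)
    (fun u _ _ hm => MultMer.conj C hpos (fun u => g • u) (hEW u) hm)
    T hT

end Levelwise

end Fermat.Agent.S35.helper983
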