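/-
helper983 — S35, leaf G3UW (board #1741), part 3: the Atkin–Lehner involution `W_q`.

Level `M`, `q` a prime with `q ∥ M`; canonical objects of the S35 chain:

* on `J₀(M)` : `x ↦ helper1073.atkinLehnerSemi M q hq hqM hq2 • x` (Pic⁰-action of the
  level-general Atkin–Lehner automorphism `helper1073.atkinLehnerBar` of the function field);
* on the lattice `Λ = helper6356.Lam M` : `helper3353.latW M d`, `d : helper3353.ALData M q`
  (`ψ ↦ ψ ∘ conj w`, `w = d.gl = !![q x, y; M, q]`, ANY Bezout data `q x - (M / q) y = 1`).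

Results:

* `pullMerGL_atkinLehner` : **(E-W) at general level, for every `d`**:
  `ev (W_q u) = ev u ∘ d.gl` in `Mer` (from the landed `helper835.evMer288_atkinLehner` at level
  `q * M₁` for the matrix `γ * diag(q, 1)`, the bridge `helper1073.atkinLehnerBar_eq_helper1219`,
  and the `Γ₀(M)`-invariance of evaluations, which absorbs the choice of Bezout data);
* `multMer_atkinLehner` : `MultMer M n ζ u ψ → MultMer M n ζ (W_q u) (heckeHomW M d ℤ ψ)`;
* `compat_latW` : **(CW)** level-wise, `KummerCorr.Compat (latW M d) W_q` at every modulus;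
* `iotaUW_latW` : **`ι_k (latW M d ψ) = W_q • ι_k ψ`** for the analytic Kummer maps `iotaUW`.
-/
import Fermat.Agent.S35.helper983_TowerUW
import Fermat.Agent.S35.helper3353_Occ
import Fermat.Agent.S35.helper1073_AtkinLehnerBridge
import Fermat.Agent.S35.helper835_NormBetaAn

set_option autoImplicit false

open UpperHalfPlane CongruenceSubgroup Matrix.SpecialLinearGroup
open scoped MatrixGroups Manifold

namespace Fermat.Agent.S35.helper983

open ModularCurve AlgebraicCurve ModularForm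
open Fermat.Agent.S24 Fermat.Agent.S24.helper24
open Fermat.Agent.S29.helper8217 Fermat.Agent.S16.helper2138
open Fermat.Agent.S31.helper2756 Fermat.Agent.S31.helper6356
open Fermat.Agent.S35.helper3353

/-! ### The Atkin–Lehner matrix of an `ALData` as `γ * diag(Q, 1)` -/

section Matrix

variable {N Q : ℕ} (d : ALData N Q)

/-- The element `!![x, y; N / Q, Q]` of `SL₂(ℤ)` attached to Bezout data. -/
def alSL : SL(2, ℤ) :=
  ⟨!![d.x, d.y; (d.N' : ℤ), (Q : ℤ)], by
    rw [Matrix.det_fin_two_of]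
    linear_combination d.bez⟩

theorem alSL_one_zero : alSL d 1 0 = (d.N' : ℤ) := rfl

theorem alSL_one_one : alSL d 1 1 = (Q : ℤ) := rfl

/-- `d.gl = γ_d * diag(Q, 1)`. -/
theorem gl_eq_alSL_mul [NeZero N] : d.gl = mapGL ℝ (alSL d) * heckeDiagMatrix Q := by
  have hQ : Q ≠ 0 := d.Q_ne_zero
  have hN : (N : ℝ) = (Q : ℝ) * (d.N' : ℝ) := by exact_mod_cast d.hN
  apply Matrix.GeneralLinearGroup.ext
  intro i j
  rw [Matrix.GeneralLinearGroup.coe_mul, Matrix.mul_apply, Fin.sum_univ_two,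
    Fermat.Agent.S16.helper2138.mapGL_val, Fermat.Agent.S16.helper2138.mapGL_val,
    val_heckeDiagMatrix hQ, ALData.gl, intGL_val, ALData.mat]
  fin_cases i <;> fin_cases j
  · simp [alSL]
    ring
  · simp [alSL]
  · simp [alSL]
    rw [hN]
    ring
  · simp [alSL]

end Matrix

/-! ### (E-W) at general level -/

section EW

open Fermat.Agent.S29.helper2982 Fermat.Agent.S29.helper2122

/-- **(E-W), general level, any Bezout data**: for a prime `q ∥ M` and `d : ALData M q`, the
evaluation of `W_q u` (`W_q` = the level-general Atkin–Lehner automorphism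
`helper1073.atkinLehnerBar M q`) is the evaluation of `u` composed with the Atkin–Lehner matrix
`d.gl = !![q x, y; M, q]`. -/
theorem pullMerGL_atkinLehner (M q : ℕ) [NeZero M] (hq : q.Prime) (hqM : q ∣ M)
    (hq2 : ¬ q ^ 2 ∣ M) (d : ALData M q) (u : FN M) :
    PullMerGL M d.gl d.det_gl_pos
      (fun u => Fermat.Agent.S35.helper1073.atkinLehnerSemi M q hq hqM hq2 • u) u := by
  obtain ⟨N', x, y, hN, bez⟩ := d
  subst hN
  have : NeZero q := ⟨hq.ne_zero⟩
  have : NeZero N' := ⟨fun h => NeZero.ne (q * N') (by rw [h, mul_zero])⟩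
  have hcop : Nat.Coprime q N' :=
    Nat.isCoprime_iff_coprime.mp ⟨x, -y, by linear_combination bez⟩
  set d : ALData (q * N') q := ⟨N', x, y, rfl, bez⟩ with hd
  have h1 : Fermat.Agent.S35.helper1073.atkinLehnerSemi (q * N') q hq hqM hq2 • u
      = Fermat.Agent.S35.helper1219.atkinLehnerBar q N' hcop u := by
    rw [Fermat.Agent.S35.helper1073.atkinLehnerSemi_smul]
    exact (Fermat.Agent.S35.helper1073.atkinLehnerBar_eq_helper1219 q N' hq hcop u).symm
  unfold PullMerGL
  simp only []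
  rw [h1, Fermat.Agent.S35.helper835.evMer288_atkinLehner q N' hcop
    (Fermat.Agent.S35.helper835.alGL q N' hcop) (Fermat.Agent.S35.helper835.alGL_det_pos q N' hcop)
    (Fermat.Agent.S35.helper835.alGL_smul q N' hcop) u]
  -- compare the two matrices: `d.gl = δ * alGL` with `δ ∈ Γ₀(q N')`
  set δ : SL(2, ℤ) := alSL d * (Fermat.Agent.S35.helper1219.alGamma q N' hcop)⁻¹ with hδdef
  have hδ : δ ∈ Gamma0 (q * N') := by
    rw [Fermat.Agent.S16.helper2138.mem_Gamma0_iff_dvd]
    have h0 : δ 1 0 = 0 := by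
      have e1 := Fermat.Agent.S35.helper1219.alGamma_one_zero q N' hcop
      have e2 := Fermat.Agent.S35.helper1219.alGamma_one_one q N' hcop
      have e3 : alSL d 1 0 = (N' : ℤ) := rfl
      have e4 : alSL d 1 1 = (q : ℤ) := rfl
      rw [hδdef, Matrix.SpecialLinearGroup.coe_mul, Matrix.SpecialLinearGroup.coe_inv,
        Matrix.adjugate_fin_two, Matrix.mul_apply, Fin.sum_univ_two]
      simp [e1, e2, e3, e4]
      ring
    rw [h0]
    exact dvd_zero _
  have hgl : d.gl = mapGL ℝ δ * Fermat.Agent.S35.helper835.alGL q N' hcop := by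
    rw [gl_eq_alSL_mul, Fermat.Agent.S35.helper835.alGL, ← mul_assoc, ← map_mul, hδdef,
      inv_mul_cancel_right]
  rw [pullGLMer_congr hgl d.det_gl_pos
    (det_mapGL_mul_pos (Fermat.Agent.S35.helper835.alGL_det_pos q N' hcop) δ),
    ← pullGLMer_pullMer δ _ (Fermat.Agent.S35.helper835.alGL_det_pos q N' hcop)]
  congr 1
  exact ((Fermat.Agent.S35.helper835.isStdEv_evMer' (q * N')).pullMer_eq hδ u).symm

end EW

/-! ### `W_q`-equivariance of the analytic Kummer maps -/

section Final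

open Fermat.Agent.S35.helper1073

variable (M q : ℕ) [NeZero M] (hq : q.Prime) (hqM : q ∣ M) (hq2 : ¬ q ^ 2 ∣ M) (d : ALData M q)

/-- **`W_q`-clause of the multiplier relation**, unconditional: `W_q` on functions is the
level-general Atkin–Lehner automorphism, on exponents `helper3353.heckeHomW M d`
(`ψ ↦ ψ ∘ conj d.gl`). -/
theorem multMer_atkinLehner {n : ℕ} {ζ : ℂˣ} {u : FN M} {ψ : Additive (Gamma0 M) →+ ℤ}
    (hm : MultMer M n ζ u ψ) :
    MultMer M n ζ (atkinLehnerBar M q hq hqM hq2 u) (heckeHomW M d ℤ ψ) :=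
  MultMer.conj (corrOne d.gl d.normalizes) (fun _ => d.det_gl_pos)
    (fun u => atkinLehnerSemi M q hq hqM hq2 • u) (pullMerGL_atkinLehner M q hq hqM hq2 d u) hm

/-- **(CW)**: at every modulus `n ≠ 0`, the Kummer correspondence of the concrete multiplier
relation intertwines the lattice operator `helper3353.latW M d` with the canonical `W_q` on
`J₀(M)` (the action of `helper1073.atkinLehnerSemi M q`), for every prime `q ∥ M` and every
Bezout datum `d`. -/
theorem compat_latW {n : ℕ} (hn : n ≠ 0) {ζ : ℂˣ} (hMS : MultSpec M n (MultMer M n ζ)) :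
    (kummerCorr_JZero hn hMS).Compat (latW M d)
      (AddMonoidHom.toIntLinearMap
        (DistribSMul.toAddMonoidHom (JZero M) (atkinLehnerSemi M q hq hqM hq2))) :=
  compat_conj hn hMS (atkinLehnerSemi M q hq hqM hq2) (corrOne d.gl d.normalizes)
    (fun _ => d.det_gl_pos) (fun u => pullMerGL_atkinLehner M q hq hqM hq2 d u)
    (latW M d) (fun _ => rfl)

/-- (CW), pointwise form. -/
theorem iota_latW {n : ℕ} (hn : n ≠ 0) {ζ : ℂˣ} (hMS : MultSpec M n (MultMer M n ζ))
    (ψ : Lam M) :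
    (kummerCorr_JZero hn hMS).iota (latW M d ψ)
      = atkinLehnerSemi M q hq hqM hq2 • (kummerCorr_JZero hn hMS).iota ψ :=
  compat_latW M q hq hqM hq2 d hn hMS ψ

/-- (CU), pointwise form. -/
theorem iota_latU {n : ℕ} (hn : n ≠ 0) {ζ : ℂˣ} (hMS : MultSpec M n (MultMer M n ζ))
    (q : ℕ) [Fact q.Prime] (hqM : q ∣ M) (ψ : Lam M) :
    (kummerCorr_JZero hn hMS).iota (latU M q hqM ψ)
      = Fermat.Agent.S35.helper1687.uOp M q ((kummerCorr_JZero hn hMS).iota ψ) :=
  compat_latU hn hMS q hqM ψ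

/-- **`W_q`-equivariance of the analytic Kummer maps** (`q ∥ M` prime, any Bezout datum `d`):
`ι_k (latW M d ψ) = W_q • ι_k ψ`. -/
theorem iotaUW_latW {p : ℕ} (hp : p ≠ 0) (k : ℕ) (ψ : Lam M) :
    iotaUW M p hp k (latW M d ψ) = atkinLehnerSemi M q hq hqM hq2 • iotaUW M p hp k ψ :=
  iotaUW_conj hp (atkinLehnerSemi M q hq hqM hq2) (corrOne d.gl d.normalizes)
    (fun _ => d.det_gl_pos) (fun u => pullMerGL_atkinLehner M q hq hqM hq2 d u)
    (latW M d) (fun _ => rfl) k ψ

end Final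

/-- **The lattice block of the S35 datum, with `U_q`- and `W_q`-equivariance** (leaf G3UW):
for every level `M` and every `p ≠ 0` there are maps `ι_n : Λ → J₀(M)` (`Λ = helper6356.Lam M`)
with values in the `p ^ n`-torsion, kernel `p ^ n Λ`, compatible in `n`, and equivariant for
`T_ℓ` (`ℓ ∤ M`, the S30 clause), for `U_q` (`q ∣ M`: `latU` ↔ `uOp = uPic`) and for `W_q`
(`q ∥ M`, any Bezout datum: `latW M d` ↔ the action of `atkinLehnerSemi M q`). -/
theorem exists_iota_uw (M : ℕ) [NeZero M] (p : ℕ) (hp : p ≠ 0) :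
    ∃ ι : ℕ → Lam M →+ JZero M,
      (∀ (n : ℕ) (x : Lam M), p ^ n • ι n x = 0) ∧
      (∀ (n : ℕ) (x : Lam M), ι n x = 0 → ∃ y : Lam M, x = p ^ n • y) ∧
      (∀ (n : ℕ) (x : Lam M), p • ι (n + 1) x = ι n x) ∧
      (∀ (S : Set ℕ) (ℓ : ℕ) (hℓ : ℓ.Prime) (hℓM : ¬ ℓ ∣ M) (hℓS : ℓ ∉ S) (n : ℕ) (x : Lam M),
        ι n (heckeLatticeHom M S (CuspForm.heckeAlgebra.T hℓ hℓM hℓS) x) =
          heckeOperatorBar M ⟨ℓ, hℓ⟩ (ι n x)) ∧
      (∀ (q : ℕ) [Fact q.Prime] (hqM : q ∣ M) (n : ℕ) (x : Lam M),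
        ι n (latU M q hqM x) = Fermat.Agent.S35.helper1687.uOp M q (ι n x)) ∧
      (∀ (q : ℕ) (hq : q.Prime) (hqM : q ∣ M) (hq2 : ¬ q ^ 2 ∣ M) (d : ALData M q) (n : ℕ)
        (x : Lam M),
        ι n (latW M d x) =
          Fermat.Agent.S35.helper1073.atkinLehnerSemi M q hq hqM hq2 • ι n x) :=
  ⟨iotaUW M p hp, pow_nsmul_iotaUW hp, exists_eq_nsmul_of_iotaUW_eq_zero hp, nsmul_iotaUW_succ hp,
    fun S _ hℓ hℓM hℓS n x => iotaUW_hecke hp S hℓ hℓM hℓS n x,
    fun q _ hqM n x => iotaUW_latU hp q hqM n x,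
    fun q hq hqM hq2 d n x => iotaUW_latW M q hq hqM hq2 d hp n x⟩

end Fermat.Agent.S35.helper983
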